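import Mathlib
import Fermat.Prelude.Def_EllipticCurve_ZeroComponentAt
import Fermat.Prelude.Def_FLTPrelim_Ramification

/-!
# M15 (DICT-loc), definitions (helper8)

The Vélu discriminant ratio `Δ(E/⟨Q⟩)/Δ(E)` of a cyclic subgroup of odd order `p`, written as a
product of differences of `x`-coordinates of points of `⟨Q⟩ + E[2]`, and the statement of the
local dictionary (`LocStatement`).
-/

set_option autoImplicit false
set_option linter.unusedSectionVars false

open WeierstrassCurve WeierstrassCurve.Affine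

namespace Fermat.Agent.M15.DictDefs8

variable {K : Type*} [Field K] [DecidableEq K]

/-- the `x`-coordinate of an affine point (`0` at the origin). -/
def xOf {E : WeierstrassCurve.Affine K} : E.Point → K
  | .zero => 0
  | .some x _ _ => x

@[simp] theorem xOf_zero {E : WeierstrassCurve.Affine K} : xOf (0 : E.Point) = 0 := rfl

@[simp] theorem xOf_some {E : WeierstrassCurve.Affine K} {x y : K} (h : E.Nonsingular x y) :
    xOf (Point.some x y h) = x := rfl

/-- the three points of exact order `2`. -/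
def IsTwoTors {E : WeierstrassCurve.Affine K} (T : Fin 3 → E.Point) : Prop :=
  Function.Injective T ∧ ∀ i, T i ≠ 0 ∧ 2 • T i = 0

/-- one factor `(e'_i - e'_k)/(e_i - e_k) = ∏_{r=1}^{p-1} (e_k - x(T_i + rQ)) / (e_k - x(rQ))`. -/
noncomputable def veluFactor {E : WeierstrassCurve.Affine K} (T : Fin 3 → E.Point) (Q : E.Point)
    (p : ℕ) (i k : Fin 3) : K :=
  ∏ r ∈ Finset.Icc 1 (p - 1), (xOf (T k) - xOf (T i + r • Q)) / (xOf (T k) - xOf (r • Q))

/-- `Δ(E/⟨Q⟩)/Δ(E)` (Vélu-normalised differential), `Q` of odd order `p`. -/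
noncomputable def veluRatio {E : WeierstrassCurve.Affine K} (T : Fin 3 → E.Point) (Q : E.Point)
    (p : ℕ) : K :=
  (veluFactor T Q p 0 1 * veluFactor T Q p 0 2 * veluFactor T Q p 1 2) ^ 2

/-- **The local dictionary at `ℓ`** (contract (LOC) of M15): for a point `Q` of odd prime order
`p ≠ ℓ` on a curve with multiplicative reduction at `ℓ`, the valuation of `Δ(E/⟨Q⟩)/Δ(E)` at a
place `A ∣ ℓ` is `(p-1) v(Δ)` if `Q` is in the zero component at `A`, and `-(p-1) v(Δ)/p` if not. -/
def LocStatement (ℓ : ℕ) : Prop :=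
  ∀ {p : ℕ}, p.Prime → p ≠ 2 → ℓ ≠ p →
    ∀ (W : WeierstrassCurve ℤ), W.Δ ≠ 0 → (ℓ : ℤ) ∣ W.Δ → ¬ (ℓ : ℤ) ∣ W.c₄ →
    ∀ (A : ValuationSubring (AlgebraicClosure ℚ)), A.LiesOverPrime ℓ →
    ∀ (T : Fin 3 → ((W.map (Int.castRingHom ℚ))⁄(AlgebraicClosure ℚ)).Point), IsTwoTors T →
    ∀ (Q : ((W.map (Int.castRingHom ℚ))⁄(AlgebraicClosure ℚ)).Point), addOrderOf Q = p →
      (W.InZeroComponentAt A Q →
        A.valuation (veluRatio T Q p) =
          A.valuation ((W.Δ : ℤ) : AlgebraicClosure ℚ) ^ (p - 1)) ∧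
      (¬ W.InZeroComponentAt A Q →
        A.valuation (veluRatio T Q p) ^ p *
          A.valuation ((W.Δ : ℤ) : AlgebraicClosure ℚ) ^ (p - 1) = 1)

end Fermat.Agent.M15.DictDefs8
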