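import Mathlib
import Fermat.Agent.M15.DictDefs8
import Fermat.Agent.S05.Components
import Fermat.Agent.S05.KernelContract

/-!
# M15 (DICT-loc), the local model `Y² = X³ + a X² + b X`, part 1 (helper8)

`x`-coordinates under translation by `T0 = (0,0)`, the three points of order two and their labels
(`T0`, the unit one `Tu`, the small one `Tb = Tu + T0`).
-/

set_option autoImplicit false
set_option linter.unusedSectionVars false
set_option linter.unusedVariables false

open WeierstrassCurve WeierstrassCurve.Affine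

namespace Fermat.Agent.M15.LocModel8

open Fermat.Agent.S05 Fermat.Agent.M15.DictDefs8

variable {K : Type*} [Field K] [DecidableEq K] {Γ₀ : Type*} [LinearOrderedCommGroupWithZero Γ₀]
  (v : Valuation K Γ₀) {a b : K}

/-! ### `xOf` on the model -/

theorem xOf_T0 (hb0 : b ≠ 0) : xOf (T0 hb0 : (Wab a b).toAffine.Point) = 0 := rfl

theorem xOf_eq_zero_iff (hb0 : b ≠ 0) (P : (Wab a b).toAffine.Point) :
    xOf P = 0 ↔ P = 0 ∨ P = T0 hb0 := by
  constructor
  · intro h
    rcases point_cases hb0 P with rfl | rfl | ⟨x, s, hns, hx, rfl⟩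
    · exact Or.inl rfl
    · exact Or.inr rfl
    · exact absurd h hx
  · rintro (rfl | rfl)
    · rfl
    · rfl

theorem xOf_neg (P : (Wab a b).toAffine.Point) : xOf (-P) = xOf P := by
  rcases P with _ | ⟨x, y, h⟩
  · rfl
  · rw [Point.neg_some]; rfl

theorem xOf_add_T0 (hb0 : b ≠ 0) {P : (Wab a b).toAffine.Point} (h0 : P ≠ 0)
    (hT : P ≠ T0 hb0) : xOf (P + T0 hb0) = b / xOf P := by
  rcases point_cases hb0 P with rfl | rfl | ⟨x, s, hns, hx, rfl⟩
  · exact absurd rfl h0
  · exact absurd rfl hT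
  · obtain ⟨h', e⟩ := add_T0_xs hb0 hns hx
    rw [e]; rfl

theorem add_T0_ne_zero (hb0 : b ≠ 0) {P : (Wab a b).toAffine.Point} (hT : P ≠ T0 hb0) :
    P + T0 hb0 ≠ 0 := by
  intro h
  apply hT
  have := eq_neg_of_add_eq_zero_left h
  rw [this, neg_T0]

theorem add_T0_ne_T0 (hb0 : b ≠ 0) {P : (Wab a b).toAffine.Point} (h0 : P ≠ 0) :
    P + T0 hb0 ≠ T0 hb0 := by
  intro h
  exact h0 (by simpa using h)

/-! ### Points of order two -/

theorem two_nsmul_some_eq_zero_iff (h2 : (2 : K) ≠ 0) {x y : K}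
    (h : (Wab a b).toAffine.Nonsingular x y) :
    2 • Point.some x y h = 0 ↔ y = 0 := by
  rw [two_nsmul, add_eq_zero_iff_eq_neg, Point.neg_some]
  constructor
  · intro e
    have := (Point.some.injEq ..).mp e
    have hy : y = -y := by simpa using this.2
    have : (2 : K) * y = 0 := by linear_combination hy
    exact (mul_eq_zero.1 this).resolve_left h2
  · rintro rfl
    have : (Wab a b).toAffine.negY x 0 = 0 := by simp
    simp only [this]

theorem exists_of_two_tors (h2 : (2 : K) ≠ 0) {P : (Wab a b).toAffine.Point} (h0 : P ≠ 0)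
    (ht : 2 • P = 0) :
    ∃ (e : K) (h : (Wab a b).toAffine.Nonsingular e 0), P = Point.some e 0 h ∧
      e ^ 3 + a * e ^ 2 + b * e = 0 := by
  rcases P with _ | ⟨x, y, h⟩
  · exact absurd rfl h0
  · have hy := (two_nsmul_some_eq_zero_iff h2 h).1 ht
    subst hy
    refine ⟨x, h, rfl, ?_⟩
    have := ((Wab_nonsingular_iff _ _).1 h).1
    linear_combination -this

/-- Vieta for three distinct roots of `X³ + a X² + b X`. -/
theorem vieta_cubic {e0 e1 e2 : K} (c0 : e0 ^ 3 + a * e0 ^ 2 + b * e0 = 0)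
    (c1 : e1 ^ 3 + a * e1 ^ 2 + b * e1 = 0) (c2 : e2 ^ 3 + a * e2 ^ 2 + b * e2 = 0)
    (n01 : e0 ≠ e1) (n02 : e0 ≠ e2) (n12 : e1 ≠ e2) :
    e0 + e1 + e2 = -a ∧ e0 * e1 + e0 * e2 + e1 * e2 = b ∧ e0 * e1 * e2 = 0 := by
  have n01' : e0 - e1 ≠ 0 := sub_ne_zero.2 n01
  have n02' : e0 - e2 ≠ 0 := sub_ne_zero.2 n02
  have n12' : e1 - e2 ≠ 0 := sub_ne_zero.2 n12
  have q01 : e0 ^ 2 + e0 * e1 + e1 ^ 2 + a * (e0 + e1) + b = 0 := by
    apply mul_left_cancel₀ n01'
    linear_combination c0 - c1
  have q02 : e0 ^ 2 + e0 * e2 + e2 ^ 2 + a * (e0 + e2) + b = 0 := by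
    apply mul_left_cancel₀ n02'
    linear_combination c0 - c2
  have hs : e0 + e1 + e2 = -a := by
    have : (e1 - e2) * (e0 + e1 + e2 + a) = (e1 - e2) * 0 := by linear_combination q01 - q02
    have := mul_left_cancel₀ n12' this
    linear_combination this
  have ha : a = -(e0 + e1 + e2) := by linear_combination hs
  have hb : e0 * e1 + e0 * e2 + e1 * e2 = b := by
    rw [ha] at q01
    linear_combination -q01
  refine ⟨hs, hb, ?_⟩
  rw [ha, ← hb] at c0
  linear_combination c0

/-- **Labels** of the three points of order two of the model curve. -/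
theorem exists_labels (h2 : (2 : K) ≠ 0) (hb0 : b ≠ 0) (ha : v a = 1) (hb : v b < 1)
    {T : Fin 3 → (Wab a b).toAffine.Point} (hT : IsTwoTors T) :
    ∃ (i0 iu ib : Fin 3) (eu eb : K), i0 ≠ iu ∧ i0 ≠ ib ∧ iu ≠ ib ∧
      T i0 = T0 hb0 ∧ xOf (T iu) = eu ∧ xOf (T ib) = eb ∧
      eu + eb = -a ∧ eu * eb = b ∧ v eu = 1 ∧ v eb = v b ∧ T ib = T iu + T0 hb0 := by
  obtain ⟨hinj, htors⟩ := hT
  choose e he using fun i => exists_of_two_tors h2 (htors i).1 (htors i).2
  choose hns hTe hcub using he
  have hx : ∀ i, xOf (T i) = e i := fun i => by rw [hTe i]; rfl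
  have einj : Function.Injective e := by
    intro i k hik
    apply hinj
    rw [hTe i, hTe k]
    simp only [Point.some.injEq, and_true]
    exact hik
  have n01 : e 0 ≠ e 1 := fun h => by simpa using einj h
  have n02 : e 0 ≠ e 2 := fun h => by simpa using einj h
  have n12 : e 1 ≠ e 2 := fun h => by simpa using einj h
  obtain ⟨hs, hb', hp⟩ := vieta_cubic (hcub 0) (hcub 1) (hcub 2) n01 n02 n12
  -- a point of order two is determined by its abscissa
  have hdet : ∀ (i : Fin 3) (P : (Wab a b).toAffine.Point), P ≠ 0 → 2 • P = 0 →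
      xOf P = e i → P = T i := by
    intro i P hP0 hP2 hxe
    obtain ⟨e', h', rfl, -⟩ := exists_of_two_tors h2 hP0 hP2
    rw [hTe i]
    simp only [Point.some.injEq, and_true]
    exact hxe
  -- the general construction once the zero root is known
  have main : ∀ i0 i1 i2 : Fin 3, i0 ≠ i1 → i0 ≠ i2 → i1 ≠ i2 → e i0 = 0 →
      e i1 + e i2 = -a → e i1 * e i2 = b →
      ∃ (i0 iu ib : Fin 3) (eu eb : K), i0 ≠ iu ∧ i0 ≠ ib ∧ iu ≠ ib ∧
        T i0 = T0 hb0 ∧ xOf (T iu) = eu ∧ xOf (T ib) = eb ∧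
        eu + eb = -a ∧ eu * eb = b ∧ v eu = 1 ∧ v eb = v b ∧ T ib = T iu + T0 hb0 := by
    intro i0 i1 i2 h01 h02 h12 h0 hsum hprod
    have hT0 : T i0 = T0 hb0 := by
      have := (xOf_eq_zero_iff hb0 (T i0)).1 (by rw [hx, h0])
      exact this.resolve_left (htors i0).1
    -- valuations
    have hsumv : v (e i1 + e i2) = 1 := by rw [hsum, Valuation.map_neg, ha]
    have hprodv : v (e i1) * v (e i2) < 1 := by rw [← map_mul, hprod]; exact hb
    have hval : ∀ x y : K, v (x + y) = 1 → v x * v y < 1 → v y ≤ v x → v x = 1 ∧ v y < 1 := by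
      intro x y hxy hm hle
      have hx1 : v x ≤ 1 := by
        by_contra hgt
        rw [not_le] at hgt
        rcases lt_or_eq_of_le hle with hlt | heq
        · have := Valuation.map_add_eq_of_lt_left v hlt
          rw [hxy] at this
          rw [← this] at hgt
          exact lt_irrefl _ hgt
        · have : (1 : Γ₀) < v x * v y := by
            rw [heq]
            calc (1 : Γ₀) = 1 * 1 := (one_mul 1).symm
              _ < v x * v x := mul_lt_mul'' hgt hgt zero_le zero_le
          exact lt_irrefl _ (this.trans hm)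
      have hx1' : v x = 1 := by
        refine le_antisymm hx1 ?_
        by_contra hlt
        rw [not_le] at hlt
        have := v.map_add_lt hlt (hle.trans_lt hlt)
        rw [hxy] at this
        exact lt_irrefl _ this
      refine ⟨hx1', ?_⟩
      rw [hx1', one_mul] at hm
      exact hm
    have hfin : ∀ iu ib : Fin 3, i0 ≠ iu → i0 ≠ ib → iu ≠ ib → e iu + e ib = -a →
        e iu * e ib = b → v (e iu) = 1 → v (e ib) < 1 →
        ∃ (i0 iu ib : Fin 3) (eu eb : K), i0 ≠ iu ∧ i0 ≠ ib ∧ iu ≠ ib ∧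
        T i0 = T0 hb0 ∧ xOf (T iu) = eu ∧ xOf (T ib) = eb ∧
        eu + eb = -a ∧ eu * eb = b ∧ v eu = 1 ∧ v eb = v b ∧ T ib = T iu + T0 hb0 := by
      intro iu ib h0u h0b hub hsum' hprod' hvu hvb
      have hvb' : v (e ib) = v b := by rw [← hprod', map_mul, hvu, one_mul]
      refine ⟨i0, iu, ib, e iu, e ib, h0u, h0b, hub, hT0, hx iu, hx ib, hsum', hprod', hvu, hvb',
        ?_⟩
      have hu0 : T iu ≠ T0 hb0 := fun h => h0u (hinj (hT0.trans h.symm))
      symm
      apply hdet ib _ (add_T0_ne_zero hb0 hu0)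
      · rw [smul_add, (htors iu).2, zero_add, two_nsmul, T0_add_T0]
      · rw [xOf_add_T0 hb0 (htors iu).1 hu0, hx iu, ← hprod']
        have : e iu ≠ 0 := by
          intro h; rw [h, map_zero] at hvu; exact zero_ne_one hvu
        field_simp
    rcases le_total (v (e i2)) (v (e i1)) with hle | hle
    · obtain ⟨h1, h2'⟩ := hval _ _ hsumv hprodv hle
      exact hfin i1 i2 h01 h02 h12 hsum hprod h1 h2'
    · have hsumv' : v (e i2 + e i1) = 1 := by rw [add_comm]; exact hsumv
      have hprodv' : v (e i2) * v (e i1) < 1 := by rw [mul_comm]; exact hprodv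
      obtain ⟨h1, h2'⟩ := hval _ _ hsumv' hprodv' hle
      exact hfin i2 i1 h02 h01 h12.symm (by rw [add_comm]; exact hsum)
        (by rw [mul_comm]; exact hprod) h1 h2'
  -- which root is zero?
  rcases mul_eq_zero.1 hp with h | h
  · rcases mul_eq_zero.1 h with h | h
    · exact main 0 1 2 (by decide) (by decide) (by decide) h
        (by rw [h] at hs; linear_combination hs) (by rw [h] at hb'; linear_combination hb')
    · exact main 1 0 2 (by decide) (by decide) (by decide) h
        (by rw [h] at hs; linear_combination hs) (by rw [h] at hb'; linear_combination hb')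
  · exact main 2 0 1 (by decide) (by decide) (by decide) h
      (by rw [h] at hs; linear_combination hs) (by rw [h] at hb'; linear_combination hb')

end Fermat.Agent.M15.LocModel8
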