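import Mathlib
import Fermat.Agent.M15.LocModel8

/-!
# M15 (DICT-loc), the local model, part 2 (helper8): valuations of the factors of `veluRatio`

For a point `R` of the kernel with `v b < m := v (x R) ≤ 1`, `v (x R - e_u) = 1` and
`v (x (T_u + R)) = m`, the six oriented factors have valuation `1` except the pair `{T0, T_b}`,
which gives `v b / m²`.
-/

set_option autoImplicit false
set_option linter.unusedSectionVars false
set_option linter.unusedVariables false

open WeierstrassCurve WeierstrassCurve.Affine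

namespace Fermat.Agent.M15.LocFactor8

open Fermat.Agent.S05 Fermat.Agent.M15.DictDefs8 Fermat.Agent.M15.LocModel8

variable {K : Type*} [Field K] [DecidableEq K] {Γ₀ : Type*} [LinearOrderedCommGroupWithZero Γ₀]
  (v : Valuation K Γ₀) {a b : K}

/-- the data attached to a point `R` of the kernel. -/
structure RData (hb0 : b ≠ 0) (eu : K) (Tu R : (Wab a b).toAffine.Point) : Prop where
  ne0 : R ≠ 0
  neT0 : R ≠ T0 hb0
  lt : v b < v (xOf R)
  le : v (xOf R) ≤ 1
  sub : v (xOf R - eu) = 1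
  uNe0 : Tu + R ≠ 0
  uNeT0 : Tu + R ≠ T0 hb0
  uVal : v (xOf (Tu + R)) = v (xOf R)

/-- the labels of the three points of order two (output of `exists_labels`). -/
structure Labels (hb0 : b ≠ 0) (T : Fin 3 → (Wab a b).toAffine.Point) (i0 iu ib : Fin 3)
    (eu eb : K) : Prop where
  h0u : i0 ≠ iu
  h0b : i0 ≠ ib
  hub : iu ≠ ib
  hT0 : T i0 = T0 hb0
  hxu : xOf (T iu) = eu
  hxb : xOf (T ib) = eb
  hsum : eu + eb = -a
  hprod : eu * eb = b
  hvu : v eu = 1
  hvb : v eb = v b
  hTb : T ib = T iu + T0 hb0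

/-- one term of `veluFactor`. -/
noncomputable def term (T : Fin 3 → (Wab a b).toAffine.Point) (R : (Wab a b).toAffine.Point)
    (i k : Fin 3) : K :=
  (xOf (T k) - xOf (T i + R)) / (xOf (T k) - xOf R)

variable {v} {hb0 : b ≠ 0} {T : Fin 3 → (Wab a b).toAffine.Point} {i0 iu ib : Fin 3} {eu eb : K}
  {R : (Wab a b).toAffine.Point}

section

variable (hb : v b < 1) (L : Labels v hb0 T i0 iu ib eu eb) (D : RData v hb0 eu (T iu) R)

include hb L D

theorem xR_ne_zero : xOf R ≠ 0 := by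
  intro h
  have := D.lt
  rw [h, map_zero] at this
  exact not_lt_zero this

theorem vxR_ne_zero : v (xOf R) ≠ 0 := (Valuation.ne_zero_iff v).2 (xR_ne_zero hb L D)

theorem xuR_ne_zero : xOf (T iu + R) ≠ 0 := by
  intro h
  have := D.uVal
  rw [h, map_zero] at this
  exact vxR_ne_zero hb L D this.symm

theorem x_T0_add : xOf (T i0 + R) = b / xOf R := by
  rw [L.hT0, add_comm, xOf_add_T0 hb0 D.ne0 D.neT0]

theorem x_Tb_add : xOf (T ib + R) = b / xOf (T iu + R) := by
  rw [L.hTb, add_right_comm, xOf_add_T0 hb0 D.uNe0 D.uNeT0]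

theorem v_b_div : v (b / xOf R) < 1 := by
  rw [map_div₀, div_lt_one₀ (zero_lt_iff.2 (vxR_ne_zero hb L D))]
  exact D.lt

theorem v_b_div_u : v (b / xOf (T iu + R)) < 1 := by
  rw [map_div₀, D.uVal, div_lt_one₀ (zero_lt_iff.2 (vxR_ne_zero hb L D))]
  exact D.lt

theorem v_eu_sub_of_lt {z : K} (hz : v z < 1) : v (eu - z) = 1 := by
  have : v z < v eu := by rw [L.hvu]; exact hz
  rw [sub_eq_add_neg, Valuation.map_add_eq_of_lt_left v (by rwa [Valuation.map_neg]), L.hvu]

theorem v_eb_sub_of_lt {z : K} (hz : v b < v z) : v (eb - z) = v z := by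
  have : v eb < v (-z) := by rw [Valuation.map_neg, L.hvb]; exact hz
  rw [sub_eq_add_neg, Valuation.map_add_eq_of_lt_right v this, Valuation.map_neg]

theorem v_eu_sub_xR : v (eu - xOf R) = 1 := by
  rw [← Valuation.map_neg, neg_sub]; exact D.sub

/-- `(0,u)`. -/
theorem v_term_0u : v (term T R i0 iu) = 1 := by
  rw [term, L.hxu, x_T0_add hb L D, map_div₀, v_eu_sub_of_lt hb L D (v_b_div hb L D),
    v_eu_sub_xR hb L D, div_one]

/-- `(u,0)`. -/
theorem v_term_u0 : v (term T R iu i0) = 1 := by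
  rw [term, L.hT0, xOf_T0, zero_sub, zero_sub, map_div₀, Valuation.map_neg, Valuation.map_neg,
    D.uVal, div_self (vxR_ne_zero hb L D)]

/-- `(u,b)`. -/
theorem v_term_ub : v (term T R iu ib) = 1 := by
  rw [term, L.hxb, map_div₀, v_eb_sub_of_lt hb L D (by rw [D.uVal]; exact D.lt),
    v_eb_sub_of_lt hb L D D.lt, D.uVal, div_self (vxR_ne_zero hb L D)]

/-- `(b,u)`. -/
theorem v_term_bu : v (term T R ib iu) = 1 := by
  rw [term, L.hxu, x_Tb_add hb L D, map_div₀, v_eu_sub_of_lt hb L D (v_b_div_u hb L D),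
    v_eu_sub_xR hb L D, div_one]

/-- `(0,b)`: `e_b - b/x = e_b (x - e_u)/x`. -/
theorem v_term_0b : v (term T R i0 ib) = v b / (v (xOf R) * v (xOf R)) := by
  have hx := xR_ne_zero hb L D
  have e : eb - b / xOf R = eb * (xOf R - eu) / xOf R := by
    have hp := L.hprod
    field_simp
    linear_combination hp
  rw [term, L.hxb, x_T0_add hb L D, map_div₀, e, map_div₀, map_mul, D.sub, mul_one, L.hvb,
    v_eb_sub_of_lt hb L D D.lt, div_div]

/-- `(b,0)`. -/
theorem v_term_b0 : v (term T R ib i0) = v b / (v (xOf R) * v (xOf R)) := by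
  rw [term, L.hT0, xOf_T0, zero_sub, zero_sub, map_div₀, Valuation.map_neg, Valuation.map_neg,
    x_Tb_add hb L D, map_div₀, D.uVal, div_div]

end

/-- a product over the three pairs only sees the pair `{i0, ib}`. -/
theorem prod_pairs {M : Type*} [CommMonoid M] (g : Fin 3 → Fin 3 → M) (X : M) {i0 iu ib : Fin 3}
    (h0u : i0 ≠ iu) (h0b : i0 ≠ ib) (hub : iu ≠ ib)
    (h1 : g i0 ib = X) (h1' : g ib i0 = X) (h2 : g i0 iu = 1) (h2' : g iu i0 = 1)
    (h3 : g iu ib = 1) (h3' : g ib iu = 1) :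
    g 0 1 * g 0 2 * g 1 2 = X := by
  fin_cases i0 <;> fin_cases iu <;> fin_cases ib <;> simp_all

/-- **The valuation of `veluRatio` on the model.** -/
theorem val_veluRatio_model (hb : v b < 1) (L : Labels v hb0 T i0 iu ib eu eb)
    {Q : (Wab a b).toAffine.Point} {p : ℕ}
    (D : ∀ r ∈ Finset.Icc 1 (p - 1), RData v hb0 eu (T iu) (r • Q)) :
    v (veluRatio T Q p) =
      (∏ r ∈ Finset.Icc 1 (p - 1), v b / (v (xOf (r • Q)) * v (xOf (r • Q)))) ^ 2 := by
  have hF : ∀ i k, v (veluFactor T Q p i k) =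
      ∏ r ∈ Finset.Icc 1 (p - 1), v (term T (r • Q) i k) := by
    intro i k
    rw [veluFactor, map_prod]
    rfl
  have one : ∀ i k, (∀ r ∈ Finset.Icc 1 (p - 1), v (term T (r • Q) i k) = 1) →
      v (veluFactor T Q p i k) = 1 := by
    intro i k h
    rw [hF, Finset.prod_congr rfl h, Finset.prod_const_one]
  have big : ∀ i k, (∀ r ∈ Finset.Icc 1 (p - 1), v (term T (r • Q) i k) =
      v b / (v (xOf (r • Q)) * v (xOf (r • Q)))) → v (veluFactor T Q p i k) =
      ∏ r ∈ Finset.Icc 1 (p - 1), v b / (v (xOf (r • Q)) * v (xOf (r • Q))) := by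
    intro i k h
    rw [hF, Finset.prod_congr rfl h]
  rw [veluRatio, map_pow, map_mul, map_mul]
  congr 1
  exact prod_pairs (fun i k => v (veluFactor T Q p i k)) _ L.h0u L.h0b L.hub
    (big _ _ fun r hr => v_term_0b hb L (D r hr)) (big _ _ fun r hr => v_term_b0 hb L (D r hr))
    (one _ _ fun r hr => v_term_0u hb L (D r hr)) (one _ _ fun r hr => v_term_u0 hb L (D r hr))
    (one _ _ fun r hr => v_term_ub hb L (D r hr)) (one _ _ fun r hr => v_term_bu hb L (D r hr))

end Fermat.Agent.M15.LocFactor8
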