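import Mathlib
import Fermat.Agent.M15.LocFactor8

/-!
# M15 (DICT-loc), the local model, part 3 (helper8): the kernel inside the zero component

If `Q ∈ E⁰` has odd prime order `p` with `v p = 1`, then all `x(rQ)` and `x(T_u + rQ)` are units,
`x(rQ) - e_u` is a unit, and `v (veluRatio) = (v b)^(2(p-1))`.
-/

set_option autoImplicit false
set_option linter.unusedSectionVars false
set_option linter.unusedVariables false

open WeierstrassCurve WeierstrassCurve.Affine

namespace Fermat.Agent.M15.LocCaseA8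

open Fermat.Agent.S05 Fermat.Agent.M15.DictDefs8 Fermat.Agent.M15.LocModel8
  Fermat.Agent.M15.LocFactor8

variable {K : Type*} [Field K] [DecidableEq K] {Γ₀ : Type*} [LinearOrderedCommGroupWithZero Γ₀]
  {v : Valuation K Γ₀} {a b : K}

/-- translation by the point of order two `(e_u, 0)`:
`(x(T_u + P) - e_u)(x(P) - e_u) = e_u (e_u - e_b)`. -/
theorem xOf_add_two_tors {eu eb : K} (hsum : eu + eb = -a) (hprod : eu * eb = b)
    (h : (Wab a b).toAffine.Nonsingular eu 0) {P : (Wab a b).toAffine.Point} (hP0 : P ≠ 0)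
    (hPT : P ≠ Point.some eu 0 h) :
    (xOf (Point.some eu 0 h + P) - eu) * (xOf P - eu) = eu * (eu - eb) := by
  rcases P with _ | ⟨x, y, hP⟩
  · exact absurd rfl hP0
  have hy := ((Wab_nonsingular_iff _ _).1 hP).1
  have ha : a = -(eu + eb) := by linear_combination hsum
  have hx : eu ≠ x := by
    rintro rfl
    apply hPT
    have : y ^ 2 = 0 := by
      rw [hy, ha, ← hprod]; ring
    have hy0 : y = 0 := pow_eq_zero_iff (two_ne_zero) |>.1 this
    subst hy0
    rfl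
  have hx' : eu - x ≠ 0 := sub_ne_zero.2 hx
  rw [Point.add_of_X_ne hx]
  simp only [xOf_some, Affine.addX, slope_of_X_ne hx, Wab_a₁, Wab_a₂, zero_sub, zero_mul,
    add_zero]
  rw [ha, ← hprod] at hy
  rw [ha]
  field_simp
  linear_combination (x - eu) * hy

theorem eq_one_of_mul_eq_one {x y : Γ₀} (hx : x ≤ 1) (hy : y ≤ 1) (h : x * y = 1) : x = 1 := by
  refine le_antisymm hx ?_
  calc (1 : Γ₀) = x * y := h.symm
    _ ≤ x * 1 := mul_le_mul_right hy x
    _ = x := mul_one x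

/-- `E⁰` is stable under multiples. -/
theorem inE0_nsmul (hb : v b < 1) (hb0 : b ≠ 0) (ha : v a ≤ 1) {P : (Wab a b).toAffine.Point}
    (hP : InE0 v P) (n : ℕ) : InE0 v (n • P) := by
  induction n with
  | zero => rw [zero_nsmul]; trivial
  | succ n ih => rw [succ_nsmul]; exact inE0_add hb hb0 ha ih hP

theorem not_inE0_T0 (hb0 : b ≠ 0) : ¬ InE0 v (T0 hb0 : (Wab a b).toAffine.Point) := by
  intro h
  have : (1 : Γ₀) ≤ v (0 : K) := h
  simp at this

/-- a nonzero torsion point of `E⁰` of order prime to the residue characteristic has a unit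
abscissa. -/
theorem v_xOf_eq_one (ha : v a ≤ 1) (hb : v b ≤ 1) {n : ℕ} (hn : v (n : K) = 1)
    {P : (Wab a b).toAffine.Point} (hP0 : P ≠ 0) (hP : InE0 v P) (hnP : n • P = 0) :
    v (xOf P) = 1 := by
  rcases P with _ | ⟨x, y, h⟩
  · exact absurd rfl hP0
  have h1 : 1 ≤ v x := hP
  refine le_antisymm ?_ h1
  by_contra hlt
  rw [not_le] at hlt
  exact hP0 (KernelContract.inE1_torsion_free v ha hb hn _ hlt hnP)

theorem inE0_of_v_xOf {P : (Wab a b).toAffine.Point} (hP0 : P ≠ 0) (h : 1 ≤ v (xOf P)) :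
    InE0 v P := by
  rcases P with _ | ⟨x, y, hP⟩
  · exact absurd rfl hP0
  · exact h

/-! ### multiples of a point of odd prime order -/

section Order

variable {G : Type*} [AddGroup G] {Q : G} {p : ℕ}

theorem nsmul_ne_zero_of_mem (hQ : addOrderOf Q = p) {r : ℕ} (hr : r ∈ Finset.Icc 1 (p - 1)) :
    r • Q ≠ 0 := by
  obtain ⟨hr1, hr2⟩ := Finset.mem_Icc.1 hr
  intro h
  have := addOrderOf_dvd_of_nsmul_eq_zero h
  rw [hQ] at this
  have := Nat.le_of_dvd (by omega) this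
  omega

theorem nsmul_nsmul_eq_zero (hQ : addOrderOf Q = p) (r : ℕ) : p • (r • Q) = 0 := by
  rw [smul_comm, ← hQ, addOrderOf_nsmul_eq_zero, smul_zero]

theorem two_nsmul_ne_zero_of_mem (hp : p.Prime) (hp2 : p ≠ 2) (hQ : addOrderOf Q = p) {r : ℕ}
    (hr : r ∈ Finset.Icc 1 (p - 1)) : 2 • (r • Q) ≠ 0 := by
  intro h
  have h2' := addOrderOf_dvd_of_nsmul_eq_zero h
  have hp' := addOrderOf_dvd_of_nsmul_eq_zero (nsmul_nsmul_eq_zero hQ r)
  have hcop : Nat.Coprime 2 p := by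
    rw [Nat.coprime_comm]
    exact (Nat.Prime.coprime_iff_not_dvd hp).2 fun h => hp2
      ((Nat.prime_dvd_prime_iff_eq hp Nat.prime_two).1 h)
  have := Nat.eq_one_of_dvd_coprimes hcop h2' hp'
  exact nsmul_ne_zero_of_mem hQ hr (AddMonoid.addOrderOf_eq_one_iff.1 this)

end Order

section

variable {hb0 : b ≠ 0} {T : Fin 3 → (Wab a b).toAffine.Point} {i0 iu ib : Fin 3} {eu eb : K}

/-- **Case A**: the data `RData` for the multiples of a point `Q ∈ E⁰` of odd prime order. -/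
theorem rdata_of_inE0 (h2 : v (2 : K) = 1) (ha : v a = 1) (hb : v b < 1)
    (L : Labels v hb0 T i0 iu ib eu eb) (hT : IsTwoTors T) {p : ℕ} (hp : p.Prime) (hp2 : p ≠ 2)
    (hvp : v (p : K) = 1) {Q : (Wab a b).toAffine.Point} (hQ : addOrderOf Q = p)
    (hQ0 : InE0 v Q) {r : ℕ} (hr : r ∈ Finset.Icc 1 (p - 1)) :
    RData v hb0 eu (T iu) (r • Q) := by
  have ha' : v a ≤ 1 := ha.le
  have hb' : v b ≤ 1 := hb.le
  have h2K : (2 : K) ≠ 0 := by
    intro h; rw [h, map_zero] at h2; exact zero_ne_one h2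
  obtain ⟨hr1, hr2⟩ := Finset.mem_Icc.1 hr
  have hp1 : 1 ≤ p := hp.one_lt.le
  have hrp : r < p := by omega
  -- R
  have hR0 : r • Q ≠ 0 := nsmul_ne_zero_of_mem hQ hr
  have hRE : InE0 v (r • Q) := inE0_nsmul hb hb0 ha' hQ0 r
  have hpR : p • (r • Q) = 0 := nsmul_nsmul_eq_zero hQ r
  have hvR : v (xOf (r • Q)) = 1 := v_xOf_eq_one ha' hb' hvp hR0 hRE hpR
  have hRT0 : r • Q ≠ T0 hb0 := by
    intro h; rw [h] at hRE; exact not_inE0_T0 hb0 hRE
  -- Tu
  have hTu0 : T iu ≠ 0 := (hT.2 iu).1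
  have hTu2 : 2 • T iu = 0 := (hT.2 iu).2
  have hTuE : InE0 v (T iu) := inE0_of_v_xOf hTu0 (by rw [L.hxu, L.hvu])
  -- R is not of order two
  have hR2 : 2 • (r • Q) ≠ 0 := two_nsmul_ne_zero_of_mem hp hp2 hQ hr
  have hRTu : r • Q ≠ T iu := by
    intro h; rw [h] at hR2; exact hR2 hTu2
  -- Tu + R
  have hS0 : T iu + r • Q ≠ 0 := by
    intro h
    have e : r • Q = -T iu := (neg_eq_of_add_eq_zero_right h).symm
    apply hR2
    rw [e, smul_neg, hTu2, neg_zero]
  have hSE : InE0 v (T iu + r • Q) := inE0_add hb hb0 ha' hTuE hRE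
  have hST0 : T iu + r • Q ≠ T0 hb0 := by
    intro h; rw [h] at hSE; exact not_inE0_T0 hb0 hSE
  have h2pS : (2 * p) • (T iu + r • Q) = 0 := by
    have e1 : (2 * p) • T iu = 0 := by rw [mul_comm, mul_smul, hTu2, smul_zero]
    have e2 : (2 * p) • (r • Q) = 0 := by rw [mul_smul, hpR, smul_zero]
    rw [smul_add, e1, e2, add_zero]
  have hv2p : v ((2 * p : ℕ) : K) = 1 := by
    rw [Nat.cast_mul, map_mul, hvp, mul_one]; exact_mod_cast h2
  have hvS : v (xOf (T iu + r • Q)) = 1 := v_xOf_eq_one ha' hb' hv2p hS0 hSE h2pS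
  -- the difference
  obtain ⟨e', hns, hTe, -⟩ := exists_of_two_tors h2K hTu0 hTu2
  have he' : e' = eu := by rw [← L.hxu, hTe]; rfl
  subst he'
  have key := xOf_add_two_tors L.hsum L.hprod hns hR0 (by rw [← hTe]; exact hRTu)
  rw [← hTe] at key
  have hveb : v eb < v e' := by rw [L.hvu, L.hvb]; exact hb
  have hvd : v (e' - eb) = 1 := by
    rw [sub_eq_add_neg, Valuation.map_add_eq_of_lt_left v (by rwa [Valuation.map_neg]), L.hvu]
  have hk : v (xOf (T iu + r • Q) - e') * v (xOf (r • Q) - e') = 1 := by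
    rw [← map_mul, key, map_mul, L.hvu, hvd, one_mul]
  have le1 : ∀ z : K, v z = 1 → v (z - e') ≤ 1 := fun z hz =>
    (Valuation.map_sub v z e').trans (by rw [hz, L.hvu, max_self])
  have hsub : v (xOf (r • Q) - e') = 1 := by
    rw [mul_comm] at hk
    exact eq_one_of_mul_eq_one (le1 _ hvR) (le1 _ hvS) hk
  exact ⟨hR0, hRT0, by rw [hvR]; exact hb, hvR.le, hsub, hS0, hST0, by rw [hvS, hvR]⟩

/-- **Case A**: `v (veluRatio) = (v b)^(2(p-1))` when the kernel is in the zero component. -/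
theorem val_veluRatio_inE0 (h2 : v (2 : K) = 1) (ha : v a = 1) (hb : v b < 1)
    (L : Labels v hb0 T i0 iu ib eu eb) (hT : IsTwoTors T) {p : ℕ} (hp : p.Prime) (hp2 : p ≠ 2)
    (hvp : v (p : K) = 1) {Q : (Wab a b).toAffine.Point} (hQ : addOrderOf Q = p)
    (hQ0 : InE0 v Q) :
    v (veluRatio T Q p) = (v b ^ 2) ^ (p - 1) := by
  have D := fun r hr => rdata_of_inE0 (r := r) h2 ha hb L hT hp hp2 hvp hQ hQ0 hr
  rw [val_veluRatio_model hb L D]
  have : ∀ r ∈ Finset.Icc 1 (p - 1), v b / (v (xOf (r • Q)) * v (xOf (r • Q))) = v b := by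
    intro r hr
    have h1 : v (xOf (r • Q)) = 1 := by
      have := (D r hr)
      obtain ⟨hr1, hr2⟩ := Finset.mem_Icc.1 hr
      have hR0 := this.ne0
      have hpR : p • (r • Q) = 0 := by
        rw [smul_comm, ← hQ, addOrderOf_nsmul_eq_zero, smul_zero]
      exact v_xOf_eq_one ha.le hb.le hvp hR0 (inE0_nsmul hb hb0 ha.le hQ0 r) hpR
    rw [h1, mul_one, div_one]
  rw [Finset.prod_congr rfl this, Finset.prod_const, Nat.card_Icc, Nat.add_sub_cancel, ← pow_mul,
    ← pow_mul, mul_comm]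

end

end Fermat.Agent.M15.LocCaseA8
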