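import Mathlib

/-!
# M15 (DICT-loc), counting lemmas (helper8)

* `sum_min_Icc`: `∑_{i=1}^{2n} min i (2n+1-i) = n (n+1)`;
* `sum_min_of_injOn`: the same sum over an injective self-map of `{1, …, 2n}`;
* exponent bookkeeping in a linearly ordered group with zero.
-/

set_option autoImplicit false

open Finset

namespace Fermat.Agent.M15.LocCount8

/-- `∑_{i < 2n+1} min i (2n+1-i) = n (n+1)`. -/
theorem sum_min_range (n : ℕ) : ∑ i ∈ range (2 * n + 1), min i (2 * n + 1 - i) = n * (n + 1) := by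
  induction n with
  | zero => simp
  | succ n ih =>
    have e : 2 * (n + 1) + 1 = (2 * n + 1 + 1) + 1 := by ring
    rw [e, Finset.sum_range_succ', Finset.sum_range_succ]
    have h1 : ∀ k ∈ range (2 * n + 1), min (k + 1) (2 * n + 1 + 1 + 1 - (k + 1)) =
        min k (2 * n + 1 - k) + 1 := by
      intro k hk
      have := Finset.mem_range.1 hk
      omega
    rw [Finset.sum_congr rfl h1, Finset.sum_add_distrib, ih]
    simp only [Finset.sum_const, Finset.card_range, smul_eq_mul, mul_one]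
    have : min (2 * n + 1 + 1) (2 * n + 1 + 1 + 1 - (2 * n + 1 + 1)) = 1 := by omega
    rw [this]
    have : min 0 (2 * n + 1 + 1 + 1 - 0) = 0 := by omega
    rw [this]
    ring

theorem Icc_eq_Ico (p : ℕ) (hp : 1 ≤ p) : Finset.Icc 1 (p - 1) = Finset.Ico 1 p := by
  ext i
  simp only [Finset.mem_Icc, Finset.mem_Ico]
  omega

/-- `∑_{i=1}^{2n} min i (2n+1-i) = n (n+1)`. -/
theorem sum_min_Icc (n : ℕ) :
    ∑ i ∈ Finset.Icc 1 (2 * n + 1 - 1), min i (2 * n + 1 - i) = n * (n + 1) := by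
  rw [← sum_min_range n, Finset.sum_range_succ', Icc_eq_Ico _ (by omega),
    Finset.sum_Ico_eq_sum_range]
  have : min 0 (2 * n + 1 - 0) = 0 := by omega
  rw [this, add_zero]
  have e : 2 * n + 1 - 1 = 2 * n := by omega
  rw [e]
  refine Finset.sum_congr rfl fun k hk => ?_
  rw [add_comm 1 k]

/-- the sum of `g` over an injective self-map of a finite set. -/
theorem sum_comp_of_injOn {s : Finset ℕ} (f : ℕ → ℕ) (hf : ∀ r ∈ s, f r ∈ s)
    (hinj : Set.InjOn f s) (g : ℕ → ℕ) : ∑ r ∈ s, g (f r) = ∑ i ∈ s, g i := by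
  have himg : s.image f = s := by
    apply Finset.eq_of_subset_of_card_le
    · intro i hi
      obtain ⟨r, hr, rfl⟩ := Finset.mem_image.1 hi
      exact hf r hr
    · rw [Finset.card_image_of_injOn hinj]
  conv_rhs => rw [← himg]
  rw [Finset.sum_image hinj]

/-- the sum of `min (f r) (p - f r)` over an injective self-map of `{1, …, p-1}`, `p = 2n+1`. -/
theorem sum_min_of_injOn (n : ℕ) (f : ℕ → ℕ)
    (hf : ∀ r ∈ Finset.Icc 1 (2 * n + 1 - 1), f r ∈ Finset.Icc 1 (2 * n + 1 - 1))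
    (hinj : Set.InjOn f (Finset.Icc 1 (2 * n + 1 - 1) : Finset ℕ)) :
    ∑ r ∈ Finset.Icc 1 (2 * n + 1 - 1), min (f r) (2 * n + 1 - f r) = n * (n + 1) := by
  rw [← sum_min_Icc n]
  exact sum_comp_of_injOn f hf hinj fun i => min i (2 * n + 1 - i)

/-! ### Exponents -/

variable {Γ₀ : Type*} [LinearOrderedCommGroupWithZero Γ₀]

theorem zpow_inj {t : Γ₀} (h0 : t ≠ 0) (h1 : t < 1) {i j : ℤ} (h : t ^ i = t ^ j) : i = j :=
  zpow_right_injective₀ (zero_lt_iff.2 h0) h1.ne h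

theorem zpow_lt_zpow {t : Γ₀} (h0 : t ≠ 0) (h1 : t < 1) {i j : ℤ} : t ^ i < t ^ j ↔ j < i :=
  zpow_lt_zpow_iff_right_of_lt_one₀ (zero_lt_iff.2 h0) h1

/-- **Exponent of a branch point**: if `c ^ p = t ^ (2N)` where `c` is `m` or `t²/m` and
`t < m < 1`, then `0 < N < p` and `m ^ p = t ^ (2 min N (p - N))`. -/
theorem exponent_of_branch {t c m : Γ₀} (h0 : t ≠ 0) (h1 : t < 1) {p : ℕ} (hp : 0 < p) {N : ℤ}
    (hc : c ^ p = t ^ (2 * N)) (htm : t < m) (hm1 : m < 1) (hcm : c = m ∨ c = t ^ 2 / m) :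
    0 < N ∧ N < p ∧ m ^ p = t ^ (2 * min N.toNat (p - N.toNat)) := by
  have hm0 : m ≠ 0 := (lt_of_le_of_lt zero_le htm).ne'
  have hp0 : p ≠ 0 := hp.ne'
  -- `t ^ p < m ^ p < 1`
  have hlow : t ^ (p : ℤ) < m ^ p := by
    rw [zpow_natCast]; exact pow_lt_pow_left₀ htm zero_le hp0
  have hhigh : m ^ p < t ^ (0 : ℤ) := by
    rw [zpow_zero]; exact pow_lt_one₀ zero_le hm1 hp0
  rcases hcm with rfl | rfl
  · rw [hc] at hlow hhigh
    have l1 := (zpow_lt_zpow h0 h1).1 hlow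
    have l2 := (zpow_lt_zpow h0 h1).1 hhigh
    refine ⟨by omega, by omega, ?_⟩
    rw [hc, ← zpow_natCast t]
    congr 1
    have : (N.toNat : ℤ) = N := Int.toNat_of_nonneg (by omega)
    omega
  · have hmp : m ^ p = t ^ (2 * ((p : ℤ) - N)) := by
      rw [div_pow, div_eq_iff (pow_ne_zero p hm0)] at hc
      have : t ^ (2 * ((p : ℤ) - N)) * t ^ (2 * N) = (t ^ 2) ^ p := by
        rw [← zpow_add₀ h0, ← pow_mul, ← zpow_natCast t]
        congr 1
        push_cast; ring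
      rw [hc, mul_comm] at this
      exact (mul_left_cancel₀ (zpow_ne_zero _ h0) this).symm
    rw [hmp] at hlow hhigh
    have l1 := (zpow_lt_zpow h0 h1).1 hlow
    have l2 := (zpow_lt_zpow h0 h1).1 hhigh
    refine ⟨by omega, by omega, ?_⟩
    rw [hmp, ← zpow_natCast t]
    congr 1
    have : (N.toNat : ℤ) = N := Int.toNat_of_nonneg (by omega)
    omega

end Fermat.Agent.M15.LocCount8
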