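import Mathlib
import Fermat.Agent.M15.LocCaseA8
import Fermat.Agent.M15.LocCount8
import Fermat.Agent.S05.CompPoint12

/-!
# M15 (DICT-loc), the local model, part 4 (helper8): the kernel outside the zero component

If `Q ∉ E⁰` has odd prime order `p`, then every `rQ` (`0 < r < p`) lies on one of the two branches
(`v b < v x(rQ) < 1`), translation by the unit point of order two does not change `v x`, and
`(∏_r v x(rQ))^p = (v b)^((p²-1)/2)`. Hence `v (veluRatio)^p · (v b²)^(p-1) = 1`.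
-/

set_option autoImplicit false
set_option linter.unusedSectionVars false
set_option linter.unusedVariables false

open WeierstrassCurve WeierstrassCurve.Affine

namespace Fermat.Agent.M15.LocCaseB8

open Fermat.Agent.S05 Fermat.Agent.S05.CompH3 Fermat.Agent.M15.DictDefs8
  Fermat.Agent.M15.LocModel8 Fermat.Agent.M15.LocFactor8 Fermat.Agent.M15.LocCaseA8
  Fermat.Agent.M15.LocCount8

variable {K : Type*} [Field K] [DecidableEq K] {Γ₀ : Type*} [LinearOrderedCommGroupWithZero Γ₀]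
  {v : Valuation K Γ₀} {a b α : K}

section Branch

variable (h2 : v (2 : K) = 1) (hb : v b < 1) (hb0 : b ≠ 0) (hα : α ^ 2 = a) (hαv : v α = 1)

include h2 hb hb0 hα hαv

/-- the `p`-th power of the component value of a `p`-torsion point is an even power of `v b`,
compatibly with multiples. -/
theorem cval_nsmul_pow {p : ℕ} {Q : (Wab a b).toAffine.Point} (hpQ : p • Q = 0) :
    ∃ J : ℤ, ∀ r : ℕ, ∃ z : ℤ, cval v α (r • Q) ^ p = v b ^ (2 * (J * r + z * p)) := by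
  have ht : v b ≠ 0 := (Valuation.ne_zero_iff v).mpr hb0
  obtain ⟨k, hk⟩ := cval_nsmul h2 hb hb0 hα hαv Q p
  rw [hpQ, cval_zero] at hk
  have hJ : cval v α Q ^ p = v b ^ (2 * (-k)) := by
    rw [mul_neg, zpow_neg]
    exact eq_inv_of_mul_eq_one_left hk.symm
  refine ⟨-k, fun r => ?_⟩
  obtain ⟨z, hz⟩ := cval_nsmul h2 hb hb0 hα hαv Q r
  refine ⟨z, ?_⟩
  rw [hz, mul_pow, ← pow_mul, mul_comm r p, pow_mul, hJ, ← zpow_natCast (v b ^ (2 * (-k))) r,
    ← zpow_mul, ← zpow_natCast (v b ^ (2 * z)) p, ← zpow_mul, ← zpow_add₀ ht]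
  congr 1
  ring

/-- a torsion point of odd order outside `E⁰` lies on one of the two branches. -/
theorem branch_of_not_inE0 {p : ℕ} (hodd : Odd p) {R : (Wab a b).toAffine.Point}
    (hRE : ¬ InE0 v R) (hpR : p • R = 0) :
    ∃ (x s : K) (h : (Wab a b).toAffine.Nonsingular x (x * s)),
      R = Point.some x (x * s) h ∧ (IsAlpha v b α x s ∨ IsBeta v b α x s) := by
  have ht : v b ≠ 0 := (Valuation.ne_zero_iff v).mpr hb0
  rcases R with _ | ⟨x, y, h⟩
  · exact absurd trivial hRE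
  have hx1 : v x < 1 := not_le.1 hRE
  by_cases hxb : v x ≤ v b
  · exfalso
    obtain ⟨k, hk⟩ := cval_nsmul h2 hb hb0 hα hαv (Point.some x y h) p
    rw [hpR, cval_zero, cval_of_far hb α h hxb, ← zpow_natCast, ← zpow_add₀ ht] at hk
    have := zpow_inj ht hb ((zpow_zero (v b)).trans hk)
    obtain ⟨m, hm⟩ := hodd
    omega
  · rw [not_le] at hxb
    have hx0 : x ≠ 0 := by
      rintro rfl
      simp at hxb
    obtain ⟨h', e⟩ := some_eq_xs h hx0
    exact ⟨x, y / x, h', e, isAlpha_or_isBeta_of_nonsingular hα h' hxb hx1⟩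

/-- multiples `rQ`, `0 < r < p`, of a point outside `E⁰` stay outside `E⁰`. -/
theorem not_inE0_nsmul {p : ℕ} (hp : p.Prime) {Q : (Wab a b).toAffine.Point}
    (hQ : addOrderOf Q = p) (hQE : ¬ InE0 v Q) {r : ℕ} (hr : r ∈ Finset.Icc 1 (p - 1)) :
    ¬ InE0 v (r • Q) := by
  obtain ⟨hr1, hr2⟩ := Finset.mem_Icc.1 hr
  have hav : v a ≤ 1 := by rw [← hα, map_pow, hαv, one_pow]
  intro h
  have hcop : r.Coprime (addOrderOf Q) := by
    rw [hQ, Nat.coprime_comm]
    refine (Nat.Prime.coprime_iff_not_dvd hp).2 fun hd => ?_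
    have := Nat.le_of_dvd (by omega) hd
    have := hp.one_lt
    omega
  obtain ⟨m, hm⟩ := exists_nsmul_eq_self_of_coprime hcop
  apply hQE
  rw [← hm]
  exact inE0_nsmul hb hb0 hav h m

/-- **The product of the `v x(rQ)`**, `p = 2n+1`. -/
theorem prod_pow_eq {n : ℕ} (hp : (2 * n + 1).Prime) {Q : (Wab a b).toAffine.Point}
    (hQ : addOrderOf Q = 2 * n + 1) (hQE : ¬ InE0 v Q) :
    (∏ r ∈ Finset.Icc 1 (2 * n + 1 - 1), v (xOf (r • Q))) ^ (2 * n + 1) =
      v b ^ (2 * (n * (n + 1))) := by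
  have ht : v b ≠ 0 := (Valuation.ne_zero_iff v).mpr hb0
  have hodd : Odd (2 * n + 1) := ⟨n, rfl⟩
  have hn1 : 1 ≤ n := by
    have := hp.two_le
    omega
  have hpQ : (2 * n + 1) • Q = 0 := by rw [← hQ]; exact addOrderOf_nsmul_eq_zero Q
  obtain ⟨J, hJ⟩ := cval_nsmul_pow h2 hb hb0 hα hαv hpQ
  have key : ∀ r ∈ Finset.Icc 1 (2 * n + 1 - 1), ∃ N : ℤ, 0 < N ∧ N < (2 * n + 1 : ℕ) ∧
      (∃ z : ℤ, N = J * r + z * (2 * n + 1 : ℕ)) ∧
      v (xOf (r • Q)) ^ (2 * n + 1) =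
        v b ^ (2 * min N.toNat (2 * n + 1 - N.toNat)) := by
    intro r hr
    have hRE := not_inE0_nsmul h2 hb hb0 hα hαv hp hQ hQE hr
    have hpR : (2 * n + 1) • (r • Q) = 0 := nsmul_nsmul_eq_zero hQ r
    obtain ⟨x, s, h, e, hAB⟩ := branch_of_not_inE0 h2 hb hb0 hα hαv hodd hRE hpR
    obtain ⟨z, hz⟩ := hJ r
    have hx : xOf (r • Q) = x := by rw [e]; rfl
    rcases hAB with hA | hB
    · have hc : cval v α (r • Q) = v x := by rw [e]; exact cval_of_isAlpha α h hA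
      rw [hc] at hz
      obtain ⟨h1, h2', h3⟩ := exponent_of_branch ht hb hp.pos hz hA.1 hA.2.1 (Or.inl rfl)
      exact ⟨_, h1, h2', ⟨z, rfl⟩, by rw [hx]; exact h3⟩
    · have hc : cval v α (r • Q) = v b ^ 2 / v x := by
        rw [e]; exact cval_of_isBeta h2 hαv h hB
      rw [hc] at hz
      obtain ⟨h1, h2', h3⟩ := exponent_of_branch ht hb hp.pos hz hB.1 hB.2.1 (Or.inr rfl)
      exact ⟨_, h1, h2', ⟨z, rfl⟩, by rw [hx]; exact h3⟩
  choose! N hN0 hNp hNz hNm using key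
  have hf : ∀ r ∈ Finset.Icc 1 (2 * n + 1 - 1), (N r).toNat ∈ Finset.Icc 1 (2 * n + 1 - 1) := by
    intro r hr
    rw [Finset.mem_Icc]
    have := hN0 r hr
    have := hNp r hr
    omega
  have h1mem : 1 ∈ Finset.Icc 1 (2 * n + 1 - 1) := Finset.mem_Icc.2 ⟨le_rfl, by omega⟩
  have hJ' : ¬ ((2 * n + 1 : ℕ) : ℤ) ∣ J := by
    intro hd
    obtain ⟨z1, hz1⟩ := hNz 1 h1mem
    have hdN : ((2 * n + 1 : ℕ) : ℤ) ∣ N 1 := by
      rw [hz1]; exact dvd_add (Dvd.dvd.mul_right hd _) (dvd_mul_left _ _)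
    have := Int.le_of_dvd (hN0 1 h1mem) hdN
    have := hNp 1 h1mem
    omega
  have hinj : Set.InjOn (fun r => (N r).toNat)
      (Finset.Icc 1 (2 * n + 1 - 1) : Finset ℕ) := by
    intro r hr s hs hrs
    rw [Finset.mem_coe] at hr hs
    simp only at hrs
    have hrs' : N r = N s := by
      have := hN0 r hr
      have := hN0 s hs
      omega
    obtain ⟨z, hz⟩ := hNz r hr
    obtain ⟨z', hz'⟩ := hNz s hs
    have hdvd : ((2 * n + 1 : ℕ) : ℤ) ∣ J * ((r : ℤ) - s) := by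
      refine ⟨z' - z, ?_⟩
      rw [hz, hz'] at hrs'
      linear_combination hrs'
    have hd := ((Nat.prime_iff_prime_int.1 hp).dvd_or_dvd hdvd).resolve_left hJ'
    obtain ⟨hr1, hr2⟩ := Finset.mem_Icc.1 hr
    obtain ⟨hs1, hs2⟩ := Finset.mem_Icc.1 hs
    have := Int.eq_zero_of_abs_lt_dvd hd (by rw [abs_lt]; constructor <;> push_cast <;> omega)
    omega
  rw [← Finset.prod_pow, Finset.prod_congr rfl hNm, Finset.prod_pow_eq_pow_sum, ← Finset.mul_sum,
    sum_min_of_injOn n (fun r => (N r).toNat) hf hinj]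

end Branch

section

variable {hb0 : b ≠ 0} {T : Fin 3 → (Wab a b).toAffine.Point} {i0 iu ib : Fin 3} {eu eb : K}

/-- **Case B**: the data `RData` for the multiples of a point `Q ∉ E⁰` of odd prime order. -/
theorem rdata_of_not_inE0 (h2 : v (2 : K) = 1) (hb : v b < 1) (hα : α ^ 2 = a) (hαv : v α = 1)
    (L : Labels v hb0 T i0 iu ib eu eb) (hT : IsTwoTors T) {p : ℕ} (hp : p.Prime) (hp2 : p ≠ 2)
    {Q : (Wab a b).toAffine.Point} (hQ : addOrderOf Q = p)
    (hQE : ¬ InE0 v Q) {r : ℕ} (hr : r ∈ Finset.Icc 1 (p - 1)) :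
    RData v hb0 eu (T iu) (r • Q) := by
  have hodd : Odd p := hp.odd_of_ne_two hp2
  have hRE := not_inE0_nsmul h2 hb hb0 hα hαv hp hQ hQE hr
  have hpR : p • (r • Q) = 0 := nsmul_nsmul_eq_zero hQ r
  obtain ⟨x, s, h, e, hAB⟩ := branch_of_not_inE0 h2 hb hb0 hα hαv hodd hRE hpR
  have hTu0 : T iu ≠ 0 := (hT.2 iu).1
  have hTuE : InE0 v (T iu) := inE0_of_v_xOf hTu0 (by rw [L.hxu, L.hvu])
  have hxb : v b < v x := by rcases hAB with h | h <;> exact h.1
  have hx1 : v x < 1 := by rcases hAB with h | h <;> exact h.2.1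
  have hvx0 : v x ≠ 0 := (lt_of_le_of_lt zero_le hxb).ne'
  have hx0 : x ≠ 0 := (Valuation.ne_zero_iff v).1 hvx0
  have hxR : xOf (r • Q) = x := by rw [e]; rfl
  -- the translate
  have htr : ∃ (x₃ s₃ : K) (h₃ : (Wab a b).toAffine.Nonsingular x₃ (x₃ * s₃)),
      T iu + r • Q = Point.some x₃ (x₃ * s₃) h₃ ∧ v x₃ = v x := by
    rcases hAB with hA | hB
    · obtain ⟨x₃, s₃, h₃, e₃, -, hv₃⟩ := CompPoint12.inE0_add_alpha v hα.symm hαv hTuE h hA
      exact ⟨x₃, s₃, h₃, by rw [e, e₃], hv₃⟩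
    · obtain ⟨x₃, s₃, h₃, e₃, -, hv₃⟩ := CompPoint12.inE0_add_beta v hα.symm hαv hTuE h hB
      exact ⟨x₃, s₃, h₃, by rw [e, e₃], hv₃⟩
  obtain ⟨x₃, s₃, h₃, e₃, hv₃⟩ := htr
  have hx₃0 : x₃ ≠ 0 := (Valuation.ne_zero_iff v).1 (by rw [hv₃]; exact hvx0)
  exact
    { ne0 := nsmul_ne_zero_of_mem hQ hr
      neT0 := by
        intro h0
        have : xOf (r • Q) = 0 := by rw [h0]; rfl
        exact hx0 (hxR ▸ this)
      lt := by rw [hxR]; exact hxb
      le := by rw [hxR]; exact hx1.le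
      sub := by
        rw [hxR, Valuation.map_sub_eq_of_lt_right v (by rw [L.hvu]; exact hx1), L.hvu]
      uNe0 := by rw [e₃]; exact Point.some_ne_zero _
      uNeT0 := by
        intro h0
        have : xOf (T iu + r • Q) = 0 := by rw [h0]; rfl
        rw [e₃] at this
        exact hx₃0 this
      uVal := by rw [e₃, hxR]; exact hv₃ }

/-- **Case B**: `v (veluRatio)^p · (v b²)^(p-1) = 1` when the kernel is not in the zero
component. -/
theorem val_veluRatio_not_inE0 (h2 : v (2 : K) = 1) (hb : v b < 1) (hα : α ^ 2 = a)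
    (hαv : v α = 1) (L : Labels v hb0 T i0 iu ib eu eb) (hT : IsTwoTors T) {p : ℕ}
    (hp : p.Prime) (hp2 : p ≠ 2) {Q : (Wab a b).toAffine.Point} (hQ : addOrderOf Q = p)
    (hQE : ¬ InE0 v Q) :
    v (veluRatio T Q p) ^ p * (v b ^ 2) ^ (p - 1) = 1 := by
  have ht : v b ≠ 0 := (Valuation.ne_zero_iff v).mpr hb0
  have D := fun r hr => rdata_of_not_inE0 (r := r) h2 hb hα hαv L hT hp hp2 hQ hQE hr
  rw [val_veluRatio_model hb L D]
  obtain ⟨n, rfl⟩ := hp.odd_of_ne_two hp2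
  have hM := prod_pow_eq h2 hb hb0 hα hαv hp hQ hQE
  set M := ∏ r ∈ Finset.Icc 1 (2 * n + 1 - 1), v (xOf (r • Q)) with hMdef
  have hM0 : M ≠ 0 := by
    intro h
    rw [h, zero_pow (by omega)] at hM
    exact pow_ne_zero _ ht hM.symm
  have e0 : ∏ r ∈ Finset.Icc 1 (2 * n + 1 - 1), v b / (v (xOf (r • Q)) * v (xOf (r • Q))) =
      v b ^ (2 * n) / (M * M) := by
    rw [Finset.prod_div_distrib, Finset.prod_mul_distrib, Finset.prod_const, Nat.card_Icc]
    congr 2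
  rw [e0]
  have hMM : (M * M) ^ (2 * (2 * n + 1)) = (v b ^ (2 * (n * (n + 1)))) ^ 4 := by
    rw [← hM, ← sq, ← pow_mul, ← pow_mul]
    congr 1
    ring
  have e2 : 2 * n + 1 - 1 = 2 * n := by omega
  rw [← pow_mul, div_pow, hMM, e2, ← pow_mul, ← pow_mul, ← pow_mul, div_mul_eq_mul_div, ← pow_add,
    div_eq_one_iff_eq (pow_ne_zero _ ht)]
  congr 1
  ring

end

end Fermat.Agent.M15.LocCaseB8
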