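import Mathlib

/-!
# M15 (DICT-loc), integrality and the residue criterion (helper8)

* roots of monic quadratics / unit-leading cubics with integral coefficients are integral;
* `nonsingular_residue_iff`: nonsingularity of the reduction of a point with integral coordinates
  of a Weierstrass curve over `ℤ`, in terms of the valuation.
-/

set_option autoImplicit false
set_option linter.unusedSectionVars false

open WeierstrassCurve WeierstrassCurve.Affine

namespace Fermat.Agent.M15.LocInt8

section Integral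

variable {L : Type*} [Field L] {Γ₀ : Type*} [LinearOrderedCommGroupWithZero Γ₀]
  (v : Valuation L Γ₀)

theorem v_le_one_of_cubic {z c₃ c₂ c₁ c₀ : L} (h3 : v c₃ = 1) (h2 : v c₂ ≤ 1) (h1 : v c₁ ≤ 1)
    (h0 : v c₀ ≤ 1) (h : c₃ * z ^ 3 + c₂ * z ^ 2 + c₁ * z + c₀ = 0) : v z ≤ 1 := by
  by_contra hz
  rw [not_le] at hz
  have e : c₃ * z ^ 3 = -(c₂ * z ^ 2 + c₁ * z + c₀) := by linear_combination h
  have hl : v (c₃ * z ^ 3) = v z ^ 3 := by rw [map_mul, h3, one_mul, map_pow]
  have h12 : (1 : Γ₀) ≤ v z ^ 2 := one_le_pow₀ hz.le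
  have hr : v (-(c₂ * z ^ 2 + c₁ * z + c₀)) ≤ v z ^ 2 := by
    rw [Valuation.map_neg]
    refine Valuation.map_add_le v (Valuation.map_add_le v ?_ ?_) (h0.trans h12)
    · rw [map_mul, map_pow]
      calc v c₂ * v z ^ 2 ≤ 1 * v z ^ 2 := mul_le_mul_left h2 _
        _ = v z ^ 2 := one_mul _
    · rw [map_mul]
      calc v c₁ * v z ≤ 1 * v z := mul_le_mul_left h1 _
        _ = v z := one_mul _
        _ ≤ v z ^ 2 := by
          rw [sq]
          calc v z = 1 * v z := (one_mul _).symm
            _ ≤ v z * v z := mul_le_mul_left hz.le _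
  have hlt : v z ^ 2 < v z ^ 3 := pow_lt_pow_right₀ hz (by norm_num)
  rw [← hl, e] at hlt
  exact lt_irrefl _ (hlt.trans_le hr)

theorem v_le_one_of_quadratic {z c₁ c₀ : L} (h1 : v c₁ ≤ 1) (h0 : v c₀ ≤ 1)
    (h : z ^ 2 + c₁ * z + c₀ = 0) : v z ≤ 1 := by
  by_contra hz
  rw [not_le] at hz
  have e : z ^ 2 = -(c₁ * z + c₀) := by linear_combination h
  have hr : v (-(c₁ * z + c₀)) ≤ v z := by
    rw [Valuation.map_neg]
    refine Valuation.map_add_le v ?_ (h0.trans hz.le)
    rw [map_mul]
    calc v c₁ * v z ≤ 1 * v z := mul_le_mul_left h1 _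
      _ = v z := one_mul _
  have hlt : v z ^ 1 < v z ^ 2 := pow_lt_pow_right₀ hz (by norm_num)
  rw [pow_one, ← map_pow, e] at hlt
  exact lt_irrefl _ (hlt.trans_le hr)

theorem v_lt_one_of_sq {z : L} (h : v (z ^ 2) < 1) : v z < 1 := by
  by_contra hz
  rw [not_lt] at hz
  rw [map_pow] at h
  exact absurd (one_le_pow₀ hz) (not_le.2 h)

end Integral

section Residue

variable {L : Type*} [Field L] (A : ValuationSubring L)

theorem residue_eq_zero_iff (z : A) :
    IsLocalRing.residue A z = 0 ↔ A.valuation (z : L) < 1 := by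
  rw [IsLocalRing.residue_eq_zero_iff, ValuationSubring.valuation_lt_one_iff]

/-- the Weierstrass polynomial and its two partial derivatives, with integer coefficients cast
into `L`. -/
def polyF (W : WeierstrassCurve ℤ) (x y : L) : L :=
  y ^ 2 + (W.a₁ : L) * x * y + (W.a₃ : L) * y -
    (x ^ 3 + (W.a₂ : L) * x ^ 2 + (W.a₄ : L) * x + (W.a₆ : L))

def polyFX (W : WeierstrassCurve ℤ) (x y : L) : L :=
  (W.a₁ : L) * y - (3 * x ^ 2 + 2 * (W.a₂ : L) * x + (W.a₄ : L))

def polyFY (W : WeierstrassCurve ℤ) (x y : L) : L :=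
  2 * y + (W.a₁ : L) * x + (W.a₃ : L)

/-- **Residue criterion**: the reduction of an integral point is a nonsingular point of the
reduced curve iff the equation holds modulo the maximal ideal and not both partial derivatives
vanish there. -/
theorem nonsingular_residue_iff (W : WeierstrassCurve ℤ) (x y : L) (hx : x ∈ A) (hy : y ∈ A) :
    (W.map (Int.castRingHom (IsLocalRing.ResidueField A))).toAffine.Nonsingular
        (IsLocalRing.residue A ⟨x, hx⟩) (IsLocalRing.residue A ⟨y, hy⟩) ↔
      A.valuation (polyF W x y) < 1 ∧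
        (¬ A.valuation (polyFX W x y) < 1 ∨ ¬ A.valuation (polyFY W x y) < 1) := by
  set X : A := ⟨x, hx⟩ with hX
  set Y : A := ⟨y, hy⟩ with hY
  have cX : (X : L) = x := rfl
  have cY : (Y : L) = y := rfl
  rw [nonsingular_iff, equation_iff]
  simp only [map_a₁, map_a₂, map_a₃, map_a₄, map_a₆, eq_intCast]
  have e1 : IsLocalRing.residue A Y ^ 2 +
        (W.a₁ : IsLocalRing.ResidueField A) * IsLocalRing.residue A X * IsLocalRing.residue A Y +
        (W.a₃ : IsLocalRing.ResidueField A) * IsLocalRing.residue A Y =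
      IsLocalRing.residue A X ^ 3 +
        (W.a₂ : IsLocalRing.ResidueField A) * IsLocalRing.residue A X ^ 2 +
        (W.a₄ : IsLocalRing.ResidueField A) * IsLocalRing.residue A X +
        (W.a₆ : IsLocalRing.ResidueField A) ↔
      A.valuation (polyF W x y) < 1 := by
    rw [← sub_eq_zero]
    have e : IsLocalRing.residue A Y ^ 2 +
        (W.a₁ : IsLocalRing.ResidueField A) * IsLocalRing.residue A X * IsLocalRing.residue A Y +
        (W.a₃ : IsLocalRing.ResidueField A) * IsLocalRing.residue A Y -
      (IsLocalRing.residue A X ^ 3 +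
        (W.a₂ : IsLocalRing.ResidueField A) * IsLocalRing.residue A X ^ 2 +
        (W.a₄ : IsLocalRing.ResidueField A) * IsLocalRing.residue A X +
        (W.a₆ : IsLocalRing.ResidueField A)) =
      IsLocalRing.residue A (Y ^ 2 + (W.a₁ : A) * X * Y + (W.a₃ : A) * Y -
        (X ^ 3 + (W.a₂ : A) * X ^ 2 + (W.a₄ : A) * X + (W.a₆ : A))) := by
      simp only [map_sub, map_add, map_mul, map_pow, map_intCast]
    rw [e, residue_eq_zero_iff]
    push_cast
    rw [cX, cY]
    rfl
  have e2 : (W.a₁ : IsLocalRing.ResidueField A) * IsLocalRing.residue A Y =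
        3 * IsLocalRing.residue A X ^ 2 +
          2 * (W.a₂ : IsLocalRing.ResidueField A) * IsLocalRing.residue A X +
          (W.a₄ : IsLocalRing.ResidueField A) ↔
      A.valuation (polyFX W x y) < 1 := by
    rw [← sub_eq_zero]
    have e : (W.a₁ : IsLocalRing.ResidueField A) * IsLocalRing.residue A Y -
        (3 * IsLocalRing.residue A X ^ 2 +
          2 * (W.a₂ : IsLocalRing.ResidueField A) * IsLocalRing.residue A X +
          (W.a₄ : IsLocalRing.ResidueField A)) =
      IsLocalRing.residue A ((W.a₁ : A) * Y - (3 * X ^ 2 + 2 * (W.a₂ : A) * X + (W.a₄ : A))) := by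
      simp only [map_sub, map_add, map_mul, map_pow, map_intCast, map_ofNat]
    rw [e, residue_eq_zero_iff]
    push_cast
    rw [cX, cY]
    rfl
  have e3 : IsLocalRing.residue A Y =
        -IsLocalRing.residue A Y - (W.a₁ : IsLocalRing.ResidueField A) * IsLocalRing.residue A X -
          (W.a₃ : IsLocalRing.ResidueField A) ↔
      A.valuation (polyFY W x y) < 1 := by
    have e : 2 * IsLocalRing.residue A Y +
        (W.a₁ : IsLocalRing.ResidueField A) * IsLocalRing.residue A X +
          (W.a₃ : IsLocalRing.ResidueField A) =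
      IsLocalRing.residue A (2 * Y + (W.a₁ : A) * X + (W.a₃ : A)) := by
      simp only [map_add, map_mul, map_intCast, map_ofNat]
    have e' : IsLocalRing.residue A Y =
        -IsLocalRing.residue A Y - (W.a₁ : IsLocalRing.ResidueField A) * IsLocalRing.residue A X -
          (W.a₃ : IsLocalRing.ResidueField A) ↔
        2 * IsLocalRing.residue A Y +
        (W.a₁ : IsLocalRing.ResidueField A) * IsLocalRing.residue A X +
          (W.a₃ : IsLocalRing.ResidueField A) = 0 := by
      constructor <;> intro h <;> linear_combination h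
    rw [e', e, residue_eq_zero_iff]
    push_cast
    rw [cX, cY]
    rfl
  rw [e1, Ne, Ne, e2, e3]

end Residue

end Fermat.Agent.M15.LocInt8
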