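import Mathlib
import Fermat.Agent.M15.LocInt8
import Fermat.Agent.S05.Defs

/-!
# M15 (DICT-loc), the normal form at an odd prime of multiplicative reduction (helper8)

Over an algebraically closed valued field with `v 2 = 1`, a Weierstrass curve `E` with integral
`b₂, b₄, b₆`, `v Δ < 1` and `v c₄ = 1` is, after an integral translation
`(x, y) ↦ (x + r, y + s x + t)`, of the form `Y² = X³ + a X² + b X` with `v a = 1`, `v b < 1`,
`v Δ = (v b)²`.
-/

set_option autoImplicit false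
set_option linter.unusedSectionVars false
set_option linter.unusedVariables false

open WeierstrassCurve

namespace Fermat.Agent.M15.LocNormal8

open Fermat.Agent.S05 Fermat.Agent.M15.LocInt8

variable {K : Type*} [Field K]

/-- the translation attached to a root `r` of the `2`-division polynomial. -/
def vcOf (E : WeierstrassCurve K) (r : K) : VariableChange K :=
  ⟨1, r, -E.a₁ / 2, -(E.a₃ + r * E.a₁) / 2⟩

def aOf (E : WeierstrassCurve K) (r : K) : K := 3 * r + E.b₂ / 4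

def bOf (E : WeierstrassCurve K) (r : K) : K := 3 * r ^ 2 + E.b₂ / 2 * r + E.b₄ / 2

/-- the `2`-division polynomial `4 X³ + b₂ X² + 2 b₄ X + b₆`. -/
def gOf (E : WeierstrassCurve K) (r : K) : K := 4 * r ^ 3 + E.b₂ * r ^ 2 + 2 * E.b₄ * r + E.b₆

theorem four_ne_zero' (h2 : (2 : K) ≠ 0) : (4 : K) ≠ 0 := by
  have : (4 : K) = 2 * 2 := by norm_num
  rw [this]; exact mul_ne_zero h2 h2

theorem wab_eq {E : WeierstrassCurve K} {r : K} (h2 : (2 : K) ≠ 0) (hr : gOf E r = 0) :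
    Wab (aOf E r) (bOf E r) = vcOf E r • E := by
  have h4 := four_ne_zero' h2
  unfold gOf at hr
  unfold aOf bOf vcOf
  ext
  · simp only [Wab, variableChange_a₁, Units.val_one, inv_one]
    field_simp
    ring
  · simp only [Wab, variableChange_a₂, Units.val_one, inv_one, b₂]
    field_simp
    ring
  · simp only [Wab, variableChange_a₃, Units.val_one, inv_one]
    field_simp
    ring
  · simp only [Wab, variableChange_a₄, Units.val_one, inv_one, b₂, b₄]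
    field_simp
    ring
  · simp only [Wab, variableChange_a₆, Units.val_one, inv_one]
    simp only [b₂, b₄, b₆] at hr
    field_simp
    linear_combination (-1 : K) * hr

theorem wab_Δ (a b : K) : (Wab a b).Δ = 16 * b ^ 2 * (a ^ 2 - 4 * b) := by
  simp [WeierstrassCurve.Δ, b₂, b₄, b₆, b₈, Wab]; ring

theorem wab_c₄ (a b : K) : (Wab a b).c₄ = 16 * (a ^ 2 - 3 * b) := by
  simp [WeierstrassCurve.c₄, b₂, b₄, Wab]; ring

theorem Δ_eq {E : WeierstrassCurve K} {r : K} (h2 : (2 : K) ≠ 0) (hr : gOf E r = 0) :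
    E.Δ = 16 * bOf E r ^ 2 * (aOf E r ^ 2 - 4 * bOf E r) := by
  rw [← wab_Δ, wab_eq h2 hr, variableChange_Δ]
  simp [vcOf]

theorem c₄_eq {E : WeierstrassCurve K} {r : K} (h2 : (2 : K) ≠ 0) (hr : gOf E r = 0) :
    E.c₄ = 16 * (aOf E r ^ 2 - 3 * bOf E r) := by
  rw [← wab_c₄, wab_eq h2 hr, variableChange_c₄]
  simp [vcOf]

/-- re-centering at a root of the residual quadratic. -/
theorem gOf_add (E : WeierstrassCurve K) (r ρ : K) (h2 : (2 : K) ≠ 0) :
    gOf E (r + ρ) = gOf E r + 4 * ρ * (ρ ^ 2 + aOf E r * ρ + bOf E r) := by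
  have h4 := four_ne_zero' h2
  unfold gOf aOf bOf
  field_simp
  ring

theorem bOf_add (E : WeierstrassCurve K) (r ρ : K) (h2 : (2 : K) ≠ 0) :
    bOf E (r + ρ) = (ρ ^ 2 + aOf E r * ρ + bOf E r) + ρ * (2 * ρ + aOf E r) := by
  have h4 := four_ne_zero' h2
  unfold aOf bOf
  field_simp
  ring

section Val

variable {Γ₀ : Type*} [LinearOrderedCommGroupWithZero Γ₀] (v : Valuation K Γ₀)

theorem v_natCast_le_one (n : ℕ) : v (n : K) ≤ 1 := by
  induction n with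
  | zero => simp
  | succ n ih =>
    rw [Nat.cast_succ]
    exact Valuation.map_add_le v ih (by rw [map_one])

theorem v_ofNat (h2 : v (2 : K) = 1) : v (4 : K) = 1 ∧ v (16 : K) = 1 := by
  have e4 : (4 : K) = 2 * 2 := by norm_num
  have e16 : (16 : K) = 2 * 2 * (2 * 2) := by norm_num
  constructor
  · rw [e4, map_mul, h2, mul_one]
  · rw [e16, map_mul, map_mul, h2, mul_one, mul_one]

theorem v_eq_one_of_sq {z : K} (h : v (z ^ 2) = 1) : v z = 1 := by
  rw [map_pow] at h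
  rcases lt_trichotomy (v z) 1 with hlt | heq | hgt
  · exact absurd h (pow_lt_one₀ zero_le hlt (by norm_num)).ne
  · exact heq
  · exact absurd h (one_lt_pow₀ hgt (by norm_num)).ne'

variable {v}

/-- integrality of a root of the `2`-division polynomial. -/
theorem v_root_le_one {E : WeierstrassCurve K} (h2 : v (2 : K) = 1) (hb₂ : v E.b₂ ≤ 1)
    (hb₄ : v E.b₄ ≤ 1) (hb₆ : v E.b₆ ≤ 1) {r : K} (hr : gOf E r = 0) : v r ≤ 1 := by
  refine v_le_one_of_cubic v (v_ofNat v h2).1 hb₂ ?_ hb₆ hr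
  rw [map_mul, h2, one_mul]; exact hb₄

variable [IsAlgClosed K]

/-- **Choice of the root**: there is a root `r` of the `2`-division polynomial at which the
derivative is in the maximal ideal (`r` reduces to the node). -/
theorem exists_root {E : WeierstrassCurve K} (h2 : v (2 : K) = 1) (hb₂ : v E.b₂ ≤ 1)
    (hb₄ : v E.b₄ ≤ 1) (hb₆ : v E.b₆ ≤ 1) (hΔ : v E.Δ < 1) :
    ∃ r : K, gOf E r = 0 ∧ v r ≤ 1 ∧ v (bOf E r) < 1 := by
  have h2K : (2 : K) ≠ 0 := by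
    intro h; rw [h, map_zero] at h2; exact zero_ne_one h2
  have h4K := four_ne_zero' h2K
  -- a first root
  obtain ⟨r₀, hr₀⟩ : ∃ r₀ : K, gOf E r₀ = 0 := by
    have hdeg : (Cubic.toPoly ⟨(4 : K), E.b₂, 2 * E.b₄, E.b₆⟩).degree ≠ 0 := by
      rw [Cubic.degree_of_a_ne_zero (by exact h4K)]
      norm_num
    obtain ⟨r₀, hr₀⟩ := IsAlgClosed.exists_root _ hdeg
    refine ⟨r₀, ?_⟩
    simpa [Cubic.toPoly, gOf, Polynomial.IsRoot] using hr₀
  have hvr₀ := v_root_le_one h2 hb₂ hb₄ hb₆ hr₀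
  by_cases hb₀ : v (bOf E r₀) < 1
  · exact ⟨r₀, hr₀, hvr₀, hb₀⟩
  rw [not_lt] at hb₀
  have hD := Δ_eq h2K hr₀
  have hdisc : v (aOf E r₀ ^ 2 - 4 * bOf E r₀) < 1 := by
    rw [hD, map_mul, map_mul, (v_ofNat v h2).2, one_mul, map_pow] at hΔ
    refine lt_of_le_of_lt ?_ hΔ
    calc v (aOf E r₀ ^ 2 - 4 * bOf E r₀) = 1 * v (aOf E r₀ ^ 2 - 4 * bOf E r₀) := (one_mul _).symm
      _ ≤ v (bOf E r₀) ^ 2 * v (aOf E r₀ ^ 2 - 4 * bOf E r₀) :=
        mul_le_mul_left (one_le_pow₀ hb₀) _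
  obtain ⟨δ, hδ⟩ := IsAlgClosed.exists_pow_nat_eq (aOf E r₀ ^ 2 - 4 * bOf E r₀) (n := 2)
    (by norm_num)
  have hvδ : v δ < 1 := v_lt_one_of_sq v (by rw [hδ]; exact hdisc)
  set ρ : K := (δ - aOf E r₀) / 2 with hρ
  have hquad : ρ ^ 2 + aOf E r₀ * ρ + bOf E r₀ = 0 := by
    rw [hρ]
    field_simp
    linear_combination hδ
  have hδρ : 2 * ρ + aOf E r₀ = δ := by
    rw [hρ]; field_simp; ring
  have hr : gOf E (r₀ + ρ) = 0 := by
    rw [gOf_add E r₀ ρ h2K, hr₀, hquad]; ring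
  have hvr := v_root_le_one h2 hb₂ hb₄ hb₆ hr
  have hvρ : v ρ ≤ 1 := by
    have : ρ = (r₀ + ρ) - r₀ := by ring
    rw [this]
    exact (Valuation.map_sub v _ _).trans (max_le hvr hvr₀)
  refine ⟨r₀ + ρ, hr, hvr, ?_⟩
  rw [bOf_add E r₀ ρ h2K, hquad, zero_add, hδρ, map_mul]
  calc v ρ * v δ ≤ 1 * v δ := mul_le_mul_left hvρ _
    _ = v δ := one_mul _
    _ < 1 := hvδ

/-- **The normal form**. -/
theorem exists_normal_form {E : WeierstrassCurve K} (h2 : v (2 : K) = 1) (ha₁ : v E.a₁ ≤ 1)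
    (ha₃ : v E.a₃ ≤ 1) (hb₂ : v E.b₂ ≤ 1) (hb₄ : v E.b₄ ≤ 1) (hb₆ : v E.b₆ ≤ 1)
    (hΔ0 : E.Δ ≠ 0) (hΔ : v E.Δ < 1) (hc₄ : v E.c₄ = 1) :
    ∃ (a b α : K) (C : VariableChange K), Wab a b = C • E ∧ (C.u : K) = 1 ∧ v C.r ≤ 1 ∧
      v C.s ≤ 1 ∧ v C.t ≤ 1 ∧ C.s = -E.a₁ / 2 ∧ C.t = -(E.a₃ + C.r * E.a₁) / 2 ∧
      α ^ 2 = a ∧ v α = 1 ∧ v a = 1 ∧ b ≠ 0 ∧ v b < 1 ∧ v E.Δ = v b ^ 2 := by
  have h2K : (2 : K) ≠ 0 := by
    intro h; rw [h, map_zero] at h2; exact zero_ne_one h2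
  obtain ⟨r, hr, hvr, hvb⟩ := exists_root h2 hb₂ hb₄ hb₆ hΔ
  have hD := Δ_eq h2K hr
  have hC := c₄_eq h2K hr
  have h3 : v (3 : K) ≤ 1 := by
    have := v_natCast_le_one v 3
    simpa using this
  have h4 : v (4 : K) = 1 := (v_ofNat v h2).1
  have h16 : v (16 : K) = 1 := (v_ofNat v h2).2
  have hv3b : v (3 * bOf E r) < 1 := by
    rw [map_mul]
    calc v (3 : K) * v (bOf E r) ≤ 1 * v (bOf E r) := mul_le_mul_left h3 _
      _ = v (bOf E r) := one_mul _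
      _ < 1 := hvb
  have hv4b : v (4 * bOf E r) < 1 := by
    rw [map_mul, h4, one_mul]; exact hvb
  have hva2 : v (aOf E r ^ 2) = 1 := by
    rw [hC, map_mul, h16, one_mul] at hc₄
    have e : aOf E r ^ 2 = (aOf E r ^ 2 - 3 * bOf E r) + 3 * bOf E r := by ring
    rw [e, Valuation.map_add_eq_of_lt_left v (by rw [hc₄]; exact hv3b), hc₄]
  have hva : v (aOf E r) = 1 := v_eq_one_of_sq v hva2
  have hvd : v (aOf E r ^ 2 - 4 * bOf E r) = 1 := by
    rw [Valuation.map_sub_eq_of_lt_left v (by rw [hva2]; exact hv4b), hva2]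
  have hb0 : bOf E r ≠ 0 := by
    intro h
    apply hΔ0
    rw [hD, h]; ring
  obtain ⟨α, hα⟩ := IsAlgClosed.exists_pow_nat_eq (aOf E r) (n := 2) (by norm_num)
  have hvα : v α = 1 := v_eq_one_of_sq v (by rw [hα]; exact hva)
  refine ⟨aOf E r, bOf E r, α, vcOf E r, wab_eq h2K hr, rfl, hvr, ?_, ?_, rfl, rfl, hα, hvα, hva,
    hb0, hvb, ?_⟩
  · show v (-E.a₁ / 2) ≤ 1
    rw [map_div₀, h2, div_one, Valuation.map_neg]; exact ha₁
  · show v (-(E.a₃ + r * E.a₁) / 2) ≤ 1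
    rw [map_div₀, h2, div_one, Valuation.map_neg]
    refine Valuation.map_add_le v ha₃ ?_
    rw [map_mul]
    calc v r * v E.a₁ ≤ 1 * 1 := mul_le_mul' hvr ha₁
      _ = 1 := one_mul 1
  · rw [hD, map_mul, map_mul, h16, one_mul, hvd, mul_one, map_pow]

end Val

end Fermat.Agent.M15.LocNormal8
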