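import Mathlib
import Fermat.Agent.M15.DictDefs8
import Fermat.Agent.M15.LocInt8
import Fermat.Agent.M15.LocCaseA8
import Fermat.Agent.S05.Transport

/-!
# M15 (DICT-loc), transport to the normal form (helper8)

* `veluRatio` is invariant under a change of variables;
* the zero component at `A` (Prelude's `InZeroComponentAt`) corresponds to `E⁰` of the normal
  form.
-/

set_option autoImplicit false
set_option linter.unusedSectionVars false
set_option linter.unusedVariables false

open WeierstrassCurve WeierstrassCurve.Affine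

namespace Fermat.Agent.M15.LocZero8

open Fermat.Agent.S05 Fermat.Agent.S05.Transport Fermat.Agent.M15.DictDefs8
  Fermat.Agent.M15.LocInt8 Fermat.Agent.M15.LocCaseA8

section Transport

variable {K : Type*} [Field K] [DecidableEq K] {W₁ W₂ : WeierstrassCurve K}
  {C : VariableChange K}

theorem xOf_pointEquiv (h : W₁ = C • W₂) {P : W₁.toAffine.Point} (hP : P ≠ 0) :
    xOf (pointEquiv h P) = (C.u : K) ^ 2 * xOf P + C.r := by
  rcases P with _ | ⟨x, y, hxy⟩
  · exact absurd rfl hP
  · rfl

theorem xOf_sub_pointEquiv (h : W₁ = C • W₂) {P P' : W₁.toAffine.Point} (hP : P ≠ 0)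
    (hP' : P' ≠ 0) :
    xOf (pointEquiv h P) - xOf (pointEquiv h P') = (C.u : K) ^ 2 * (xOf P - xOf P') := by
  rw [xOf_pointEquiv h hP, xOf_pointEquiv h hP']; ring

/-- **`veluRatio` is invariant under a change of variables.** -/
theorem veluRatio_pointEquiv (h : W₁ = C • W₂) {T : Fin 3 → W₁.toAffine.Point}
    (hT : IsTwoTors T) {p : ℕ} (hp : p.Prime) (hp2 : p ≠ 2) {Q : W₁.toAffine.Point}
    (hQ : addOrderOf Q = p) :
    veluRatio (fun i => pointEquiv h (T i)) (pointEquiv h Q) p = veluRatio T Q p := by
  have hu : (C.u : K) ^ 2 ≠ 0 := pow_ne_zero 2 (u_ne_zero C)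
  have hF : ∀ i k, veluFactor (fun i => pointEquiv h (T i)) (pointEquiv h Q) p i k =
      veluFactor T Q p i k := by
    intro i k
    unfold veluFactor
    refine Finset.prod_congr rfl fun r hr => ?_
    have hR0 : r • Q ≠ 0 := nsmul_ne_zero_of_mem hQ hr
    have hS0 : T i + r • Q ≠ 0 := by
      intro h0
      have e : r • Q = -T i := (neg_eq_of_add_eq_zero_right h0).symm
      apply two_nsmul_ne_zero_of_mem hp hp2 hQ hr
      rw [e, smul_neg, (hT.2 i).2, neg_zero]
    have e1 : pointEquiv h (T i) + r • pointEquiv h Q = pointEquiv h (T i + r • Q) := by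
      rw [map_add, map_nsmul]
    have e2 : r • pointEquiv h Q = pointEquiv h (r • Q) := by rw [map_nsmul]
    simp only []
    rw [e1, e2, xOf_sub_pointEquiv h (hT.2 k).1 hS0, xOf_sub_pointEquiv h (hT.2 k).1 hR0,
      mul_div_mul_left _ _ hu]
  unfold veluRatio
  rw [hF, hF, hF]

theorem isTwoTors_symm (h : W₁ = C • W₂) {T : Fin 3 → W₂.toAffine.Point} (hT : IsTwoTors T) :
    IsTwoTors fun i => (pointEquiv h).symm (T i) := by
  refine ⟨fun i k hik => hT.1 ((pointEquiv h).symm.injective hik), fun i => ⟨?_, ?_⟩⟩
  · intro h0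
    apply (hT.2 i).1
    have := congrArg (pointEquiv h) h0
    simpa using this
  · rw [← map_nsmul, (hT.2 i).2, map_zero]

theorem addOrderOf_symm (h : W₁ = C • W₂) (Q : W₂.toAffine.Point) :
    addOrderOf ((pointEquiv h).symm Q) = addOrderOf Q :=
  addOrderOf_injective ((pointEquiv h).symm : W₂.toAffine.Point →+ W₁.toAffine.Point)
    (pointEquiv h).symm.injective Q

end Transport

section Zero

local notation "Qb" => AlgebraicClosure ℚ

variable (W : WeierstrassCurve ℤ) (A : ValuationSubring Qb)

/-- **The zero component in the normal form.** -/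
theorem inZero_iff_inE0 {a b : Qb} {C : VariableChange Qb}
    (h : Wab a b = C • ((W.map (Int.castRingHom ℚ)).baseChange Qb))
    (hu : (C.u : Qb) = 1) (hr : A.valuation C.r ≤ 1) (hs : A.valuation C.s ≤ 1)
    (ht : A.valuation C.t ≤ 1) (hsE : C.s = -((W.a₁ : ℤ) : Qb) / 2)
    (htE : C.t = -(((W.a₃ : ℤ) : Qb) + C.r * ((W.a₁ : ℤ) : Qb)) / 2)
    (h2 : A.valuation (2 : Qb) = 1) (ha : A.valuation a = 1) (hb : A.valuation b < 1)
    (P' : (Wab a b).toAffine.Point) :
    W.InZeroComponentAt A (pointEquiv h P') ↔ InE0 A.valuation P' := by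
  set v := A.valuation with hv
  have h2K : (2 : Qb) ≠ 0 := by
    intro h'; rw [h', map_zero] at h2; exact zero_ne_one h2
  rcases P' with _ | ⟨x', y', h'⟩
  · exact ⟨fun _ => trivial, fun _ => Or.inl rfl⟩
  -- the coordinates of the image
  have himg : pointEquiv h (Point.some x' y' h') =
      Point.some (vcX C x') (vcY C x' y') ((nonsingular_iff_vc h x' y').mpr h') := rfl
  have hx : vcX C x' = x' + C.r := by simp only [vcX, hu]; ring
  have hy : vcY C x' y' = y' + C.s * x' + C.t := by simp only [vcY, hu]; ring
  set x : Qb := vcX C x' with hxdef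
  set y : Qb := vcY C x' y' with hydef
  -- the equation of the model
  have heq' : y' ^ 2 = x' ^ 3 + a * x' ^ 2 + b * x' := ((Wab_nonsingular_iff _ _).1 h').1
  -- the coefficients of the model
  have hA2 := congrArg WeierstrassCurve.a₂ h
  have hA4 := congrArg WeierstrassCurve.a₄ h
  have hE1 : ((W.map (Int.castRingHom ℚ)).baseChange Qb).a₁ = ((W.a₁ : ℤ) : Qb) := by simp
  have hE2 : ((W.map (Int.castRingHom ℚ)).baseChange Qb).a₂ = ((W.a₂ : ℤ) : Qb) := by simp
  have hE3 : ((W.map (Int.castRingHom ℚ)).baseChange Qb).a₃ = ((W.a₃ : ℤ) : Qb) := by simp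
  have hE4 : ((W.map (Int.castRingHom ℚ)).baseChange Qb).a₄ = ((W.a₄ : ℤ) : Qb) := by simp
  have hE6 : ((W.map (Int.castRingHom ℚ)).baseChange Qb).a₆ = ((W.a₆ : ℤ) : Qb) := by simp
  simp only [Wab_a₂, Wab_a₄, variableChange_a₂, variableChange_a₄, Units.val_inv_eq_inv_val, hu,
    inv_one, one_pow, one_mul, hE1, hE2, hE3, hE4] at hA2 hA4
  have hs' : ((W.a₁ : ℤ) : Qb) + 2 * C.s = 0 := by rw [hsE]; field_simp; ring
  have ht' : ((W.a₃ : ℤ) : Qb) + C.r * ((W.a₁ : ℤ) : Qb) + 2 * C.t = 0 := by
    rw [htE]; field_simp; ring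
  -- the curve equation and the partial derivatives at the image
  have hE : (((W.map (Int.castRingHom ℚ)).baseChange Qb)).toAffine.Equation x y := by
    exact ((nonsingular_iff_vc h x' y').mpr h').1
  have hF : polyF W x y = 0 := by
    have := (equation_iff _ _).1 hE
    rw [hE1, hE2, hE3, hE4, hE6] at this
    unfold polyF
    linear_combination this
  have hFY : polyFY W x y = 2 * y' := by
    unfold polyFY
    rw [hx, hy]
    linear_combination x' * hs' + ht'
  have hFX : polyFX W x y = -(3 * x' ^ 2 + 2 * a * x' + b) - C.s * (2 * y') := by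
    unfold polyFX
    rw [hx, hy, hA2, hA4]
    linear_combination (y' - x' * C.s) * hs' - C.s * ht'
  -- valuations
  have hvy' : v x' ≤ 1 → v y' ≤ 1 := by
    intro hx1
    refine v_le_one_of_quadratic v (c₁ := 0) (c₀ := -(x' ^ 3 + a * x' ^ 2 + b * x'))
      (by simp) ?_ (by linear_combination heq')
    rw [Valuation.map_neg]
    refine Valuation.map_add_le v (Valuation.map_add_le v ?_ ?_) ?_
    · rw [map_pow]; exact pow_le_one₀ zero_le hx1
    · rw [map_mul, map_pow, ha, one_mul]; exact pow_le_one₀ zero_le hx1
    · rw [map_mul]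
      calc v b * v x' ≤ 1 * 1 := mul_le_mul' hb.le hx1
        _ = 1 := one_mul 1
  have hmemx : v x' ≤ 1 → x ∈ A := fun hx1 =>
    (ValuationSubring.valuation_le_one_iff A _).1
      (by rw [hx]; exact Valuation.map_add_le v hx1 hr)
  have hmemy : v x' ≤ 1 → y ∈ A := fun hx1 =>
    (ValuationSubring.valuation_le_one_iff A _).1
      (by rw [hy]; exact Valuation.map_add_le v (Valuation.map_add_le v (hvy' hx1)
        (by rw [map_mul]
            calc v C.s * v x' ≤ 1 * 1 := mul_le_mul' hs hx1
              _ = 1 := one_mul 1)) ht)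
  -- unfold the definition
  have key : W.InZeroComponentAt A (pointEquiv h (Point.some x' y' h')) ↔
      (x ∉ A ∨ ∃ (hx : x ∈ A) (hy : y ∈ A),
        (W.map (Int.castRingHom (IsLocalRing.ResidueField A))).toAffine.Nonsingular
          (IsLocalRing.residue A ⟨x, hx⟩) (IsLocalRing.residue A ⟨y, hy⟩)) := by
    unfold WeierstrassCurve.InZeroComponentAt
    rw [himg]
    constructor
    · rintro (h0 | ⟨x₁, y₁, h₁, e, hh⟩)
      · exact absurd h0 (Point.some_ne_zero _)
      · obtain ⟨e1, e2⟩ := (Point.some.injEq ..).mp e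
        subst e1 e2
        exact hh
    · intro hh
      right
      exact ⟨x, y, (nonsingular_iff_vc h x' y').mpr h', rfl, hh⟩
  rw [key]
  show _ ↔ 1 ≤ v x'
  constructor
  · -- zero component ⇒ `1 ≤ v x'`
    intro hh
    by_contra hlt
    rw [not_le] at hlt
    have hx1 : v x' ≤ 1 := hlt.le
    rcases hh with hxA | ⟨hxA, hyA, hns⟩
    · exact hxA (hmemx hx1)
    · rw [nonsingular_residue_iff] at hns
      obtain ⟨-, hns⟩ := hns
      have hy1 : v y' < 1 := by
        apply v_lt_one_of_sq v
        rw [heq']
        have : x' ^ 3 + a * x' ^ 2 + b * x' = x' * (x' ^ 2 + a * x' + b) := by ring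
        rw [this, map_mul]
        have hq : v (x' ^ 2 + a * x' + b) ≤ 1 := by
          refine Valuation.map_add_le v (Valuation.map_add_le v ?_ ?_) hb.le
          · rw [map_pow]; exact pow_le_one₀ zero_le hx1
          · rw [map_mul, ha, one_mul]; exact hx1
        calc v x' * v (x' ^ 2 + a * x' + b) ≤ v x' * 1 := mul_le_mul_right hq _
          _ = v x' := mul_one _
          _ < 1 := hlt
      have h2y : v (2 * y') < 1 := by rw [map_mul, h2, one_mul]; exact hy1
      rcases hns with hns | hns
      · apply hns
        rw [hFX]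
        apply Valuation.map_sub_lt v
        · rw [Valuation.map_neg]
          refine Valuation.map_add_lt v (Valuation.map_add_lt v ?_ ?_) hb
          · rw [map_mul, map_pow]
            have h3 : v (3 : Qb) ≤ 1 := by
              have := Fermat.Agent.M15.LocInt8.v_le_one_of_quadratic v (z := (3 : Qb))
                (c₁ := -3) (c₀ := 0) ?_ (by simp) (by ring)
              · exact this
              · rw [Valuation.map_neg]
                have e3 : (3 : Qb) = 2 + 1 := by norm_num
                rw [e3]
                exact Valuation.map_add_le v h2.le (by rw [map_one])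
            calc v (3 : Qb) * v x' ^ 2 ≤ 1 * v x' ^ 2 := mul_le_mul_left h3 _
              _ = v x' ^ 2 := one_mul _
              _ < 1 := pow_lt_one₀ zero_le hlt (by norm_num)
          · rw [map_mul, map_mul, h2, ha, one_mul, one_mul]; exact hlt
        · rw [map_mul]
          calc v C.s * v (2 * y') ≤ 1 * v (2 * y') := mul_le_mul_left hs _
            _ = v (2 * y') := one_mul _
            _ < 1 := h2y
      · apply hns
        rw [hFY]; exact h2y
  · -- `1 ≤ v x'` ⇒ zero component
    intro hx1
    rcases lt_or_eq_of_le hx1 with hgt | heq1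
    · left
      intro hxA
      have := (ValuationSubring.valuation_le_one_iff A _).2 hxA
      rw [hx, Valuation.map_add_eq_of_lt_left v (lt_of_le_of_lt hr hgt)] at this
      exact absurd this (not_le.2 hgt)
    · right
      have hx1' : v x' ≤ 1 := heq1.symm.le
      refine ⟨hmemx hx1', hmemy hx1', ?_⟩
      rw [nonsingular_residue_iff]
      refine ⟨by rw [hF, map_zero]; exact zero_lt_one, ?_⟩
      by_contra hcon
      rw [not_or, not_not, not_not, hFX, hFY] at hcon
      obtain ⟨hc1, hc2⟩ := hcon
      have hy1 : v y' < 1 := by rw [map_mul, h2, one_mul] at hc2; exact hc2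
      have h2y : v (2 * y') < 1 := hc2
      have hsy : v (C.s * (2 * y')) < 1 := by
        rw [map_mul]
        calc v C.s * v (2 * y') ≤ 1 * v (2 * y') := mul_le_mul_left hs _
          _ = v (2 * y') := one_mul _
          _ < 1 := h2y
      have hd : v (3 * x' ^ 2 + 2 * a * x' + b) < 1 := by
        have e : 3 * x' ^ 2 + 2 * a * x' + b =
            -((-(3 * x' ^ 2 + 2 * a * x' + b) - C.s * (2 * y')) + C.s * (2 * y')) := by ring
        rw [e, Valuation.map_neg]
        exact Valuation.map_add_lt v hc1 hsy
      have hq : v (x' ^ 2 + a * x' + b) < 1 := by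
        have e : x' * (x' ^ 2 + a * x' + b) = y' ^ 2 := by rw [heq']; ring
        have e' := congrArg v e
        rw [map_mul, ← heq1, one_mul, map_pow] at e'
        rw [e']
        exact pow_lt_one₀ zero_le hy1 (by norm_num)
      have h2xa : v (2 * x' + a) < 1 := by
        have e : x' * (2 * x' + a) = (3 * x' ^ 2 + 2 * a * x' + b) - (x' ^ 2 + a * x' + b) := by
          ring
        have e' := congrArg v e
        rw [map_mul, ← heq1, one_mul] at e'
        rw [e']
        exact Valuation.map_sub_lt v hd hq
      have hxa : v (x' + a) < 1 := by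
        have e : x' * (x' + a) = (x' ^ 2 + a * x' + b) - b := by ring
        have e' := congrArg v e
        rw [map_mul, ← heq1, one_mul] at e'
        rw [e']
        exact Valuation.map_sub_lt v hq hb
      have : v x' < 1 := by
        have e : x' = (2 * x' + a) - (x' + a) := by ring
        rw [e]
        exact Valuation.map_sub_lt v h2xa hxa
      rw [← heq1] at this
      exact lt_irrefl _ this

end Zero

end Fermat.Agent.M15.LocZero8
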