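import Mathlib
import Fermat.Agent.M15.DictDefs8
import Fermat.Agent.M15.LocCaseB8
import Fermat.Agent.M15.LocNormal8
import Fermat.Agent.M15.LocZero8
import Fermat.Agent.S05.Inertia

/-!
# M15 (DICT-loc): the local dictionary at an odd prime (helper8)

`locStatement_of_odd : ℓ.Prime → ℓ ≠ 2 → LocStatement ℓ`.
-/

set_option autoImplicit false
set_option linter.unusedSectionVars false
set_option linter.unusedVariables false

open WeierstrassCurve WeierstrassCurve.Affine

namespace Fermat.Agent.M15.DictLoc8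

open Fermat.Agent.S05 Fermat.Agent.S05.Transport Fermat.Agent.S05.Inertia
  Fermat.Agent.M15.DictDefs8 Fermat.Agent.M15.LocModel8 Fermat.Agent.M15.LocFactor8
  Fermat.Agent.M15.LocCaseA8 Fermat.Agent.M15.LocCaseB8 Fermat.Agent.M15.LocNormal8
  Fermat.Agent.M15.LocZero8

local notation "Qb" => AlgebraicClosure ℚ

/-- **The local dictionary at an odd prime `ℓ`.** -/
theorem locStatement_of_odd {ℓ : ℕ} (hℓ : ℓ.Prime) (hℓ2 : ℓ ≠ 2) : LocStatement ℓ := by
  intro p hp hp2 hℓp W hΔ hℓΔ hℓc₄ A hA T hT Q hQ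
  set v := A.valuation with hv
  set E : WeierstrassCurve Qb := (W.map (Int.castRingHom ℚ)).baseChange Qb with hEdef
  have h2 : v (2 : Qb) = 1 := valuation_two_eq_one hℓ hA hℓ2
  have hvp : v (p : Qb) = 1 := valuation_prime_eq_one hℓ hA hp hℓp
  have h2K : (2 : Qb) ≠ 0 := two_ne_zero
  -- coefficients
  have hE1 : E.a₁ = ((W.a₁ : ℤ) : Qb) := by simp [hEdef]
  have hE3 : E.a₃ = ((W.a₃ : ℤ) : Qb) := by simp [hEdef]
  have hEb2 : E.b₂ = ((W.b₂ : ℤ) : Qb) := by
    simp only [hEdef, WeierstrassCurve.baseChange, map_b₂, eq_intCast, map_intCast]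
  have hEb4 : E.b₄ = ((W.b₄ : ℤ) : Qb) := by
    simp only [hEdef, WeierstrassCurve.baseChange, map_b₄, eq_intCast, map_intCast]
  have hEb6 : E.b₆ = ((W.b₆ : ℤ) : Qb) := by
    simp only [hEdef, WeierstrassCurve.baseChange, map_b₆, eq_intCast, map_intCast]
  have hEΔ : E.Δ = ((W.Δ : ℤ) : Qb) := by
    simp only [hEdef, WeierstrassCurve.baseChange, map_Δ, eq_intCast, map_intCast]
  have hEc4 : E.c₄ = ((W.c₄ : ℤ) : Qb) := by
    simp only [hEdef, WeierstrassCurve.baseChange, map_c₄, eq_intCast, map_intCast]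
  have hΔ0 : E.Δ ≠ 0 := by rw [hEΔ]; exact_mod_cast hΔ
  have hvΔ : v E.Δ < 1 := by rw [hEΔ]; exact (valuation_intCast_lt_one_iff hℓ hA _).2 hℓΔ
  have hvc4 : v E.c₄ = 1 := by rw [hEc4]; exact valuation_intCast_eq_one hℓ hA hℓc₄
  obtain ⟨a, b, α, C, h, hu, hr, hs, ht, hsE, htE, hα, hvα, hva, hb0, hvb, hvD⟩ :=
    exists_normal_form (v := v) (E := E) h2 (by rw [hE1]; exact valuation_intCast_le_one _)
      (by rw [hE3]; exact valuation_intCast_le_one _)
      (by rw [hEb2]; exact valuation_intCast_le_one _)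
      (by rw [hEb4]; exact valuation_intCast_le_one _)
      (by rw [hEb6]; exact valuation_intCast_le_one _) hΔ0 hvΔ hvc4
  rw [hE1] at hsE
  rw [hE3, hE1] at htE
  -- transport
  set T' : Fin 3 → (Wab a b).toAffine.Point := fun i => (pointEquiv h).symm (T i) with hT'def
  set Q' : (Wab a b).toAffine.Point := (pointEquiv h).symm Q with hQ'def
  have hT' : IsTwoTors T' := isTwoTors_symm h hT
  have hQ' : addOrderOf Q' = p := by rw [hQ'def, addOrderOf_symm h Q, hQ]
  have hTT : (fun i => pointEquiv h (T' i)) = T := by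
    funext i; simp [hT'def]
  have hQQ : pointEquiv h Q' = Q := by simp [hQ'def]
  have hratio : veluRatio T Q p = veluRatio T' Q' p := by
    have := veluRatio_pointEquiv h hT' hp hp2 hQ'
    rw [hTT, hQQ] at this
    exact this
  have hzero : W.InZeroComponentAt A Q ↔ InE0 v Q' := by
    have := inZero_iff_inE0 W A h hu hr hs ht hsE htE h2 hva hvb Q'
    rw [hQQ] at this
    exact this
  obtain ⟨i0, iu, ib, eu, eb, h0u, h0b, hub, hT0, hxu, hxb, hsum, hprod, hvu, hvb', hTb⟩ :=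
    exists_labels v h2K hb0 hva hvb hT'
  have L : Labels v hb0 T' i0 iu ib eu eb :=
    ⟨h0u, h0b, hub, hT0, hxu, hxb, hsum, hprod, hvu, hvb', hTb⟩
  have hΔW : A.valuation ((W.Δ : ℤ) : Qb) = v b ^ 2 := by rw [← hEΔ]; exact hvD
  rw [hratio, hΔW]
  constructor
  · intro hz
    exact val_veluRatio_inE0 h2 hva hvb L hT' hp hp2 hvp hQ' (hzero.1 hz)
  · intro hz
    exact val_veluRatio_not_inE0 h2 hvb hα hvα L hT' hp hp2 hQ' fun h' => hz (hzero.2 h')

end Fermat.Agent.M15.DictLoc8
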