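/-
M15 / WIRE (helper9), file 2 of 3: THE CONTRACT FILE of programme M15 (target: statement S15).
Single source of truth for the cross-chapter names:
`Qb GQ Pl cl IsRat ratSubgroup heckeRing CuspFacts RedPkg RedFacts ModPoint SharpDescent
S15Statement Contracts`.  Definitions and three one-line lemmas only; the deduction
`s15_of_contracts` is in `M15/Wire9`.  Imported by no statement.

AMENDMENT 1 (helper9): `heckeRing p` is generated by the `T_r` with `r ∤ 2 p` (was: `r ≠ p`), and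
`RedFacts.hecke` is only asked for such `r`.  Reason: the reduction maps `RedAt9.redAt` factor
through the auxiliary level `lcm p 4`, and `T_2` does not commute with the pullback to that level.
Nothing else changes.  The canonical final deduction is `Wire8.s15_of_contractsOdd` (the prime `2`
is never used as a reduction prime: `ContractsOdd` asks `RedFacts` and (MOD) at odd `v ≠ p` only);
`Contracts` below (which asks them at `v = 2` too) is kept for reference.
-/
import Mathlib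
import Fermat.Prelude.Def_ModularCurve_HeckeModule
import Fermat.Prelude.Def_EllipticCurve_ZeroComponentAt
import Fermat.Prelude.Def_FLTPrelim_Ramification
import Fermat.Agent.RED.TOP.FbarFacts20

set_option autoImplicit false
set_option linter.style.haveILetI false
set_option linter.unusedVariables false

noncomputable section

namespace Fermat.Agent.M15.Contracts9

open ModularCurve AlgebraicCurve
open WeierstrassCurve WeierstrassCurve.Affine

/-- `ℚ̄`. -/
abbrev Qb : Type := AlgebraicClosure ℚ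
/-- `Gal(ℚ̄/ℚ)`. -/
abbrev GQ : Type := AlgebraicClosure ℚ ≃ₐ[ℚ] AlgebraicClosure ℚ

section Level

variable (p : ℕ) [NeZero p]

/-- places of `ℚ̄(X₀(p))`. -/
abbrev Pl : Type := Place Qb (modularFunctionFieldBar p)

theorem sub_single_mem_degZero (P Q : Pl p) :
    (Finsupp.single P (1 : ℤ) - Finsupp.single Q 1 : Divisor Qb (modularFunctionFieldBar p)) ∈
      Divisor.degZero (K := Qb) (F := modularFunctionFieldBar p) := by
  rw [Divisor.mem_degZero, map_sub, Divisor.degree_single, Divisor.degree_single,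
    Fermat.Agent.RED.TOP.FbarFacts20.deg_eq_one_bar, Fermat.Agent.RED.TOP.FbarFacts20.deg_eq_one_bar,
    sub_self]

/-- the class of `(P) - (Q)` in `J₀(p)(ℚ̄)`. -/
def cl (P Q : Pl p) : JZero p := Pic0.mk ⟨_, sub_single_mem_degZero p P Q⟩

theorem cl_add_cl (P Q S : Pl p) : cl p P Q + cl p Q S = cl p P S := by
  unfold cl
  rw [← Pic0.mk_add]
  congr 1
  apply Subtype.ext
  show (Finsupp.single P (1 : ℤ) - Finsupp.single Q 1) + (Finsupp.single Q 1 - Finsupp.single S 1) =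
    Finsupp.single P 1 - Finsupp.single S 1
  abel

/-- rational points of `J₀(p)`. -/
def IsRat (z : JZero p) : Prop := ∀ σ : GQ, σ • z = z

/-- the subgroup of rational points. -/
def ratSubgroup : AddSubgroup (JZero p) where
  carrier := {z | IsRat p z}
  zero_mem' := fun σ => smul_zero σ
  add_mem' := fun {a b} ha hb σ => by rw [smul_add, ha σ, hb σ]
  neg_mem' := fun {a} ha σ => by rw [smul_neg, ha σ]

theorem mem_ratSubgroup {z : JZero p} : z ∈ ratSubgroup p ↔ IsRat p z := Iff.rfl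

theorem gal_zsmul (σ : GQ) (a : ℤ) (z : JZero p) : σ • (a • z) = a • (σ • z) :=
  map_zsmul (DistribSMul.toAddMonoidHom (JZero p) σ) a z

/-- the ring generated by the `T_r`, `r` prime, `r ∤ 2 p` (commutative: `M15/HeckeComm9`).
`T_2` is excluded because the reduction maps factor through the auxiliary level `lcm p 4`. -/
def heckeRing : Subalgebra ℤ (Module.End ℤ (JZero p)) :=
  Algebra.adjoin ℤ {t | ∃ r : Nat.Primes, ¬ (r : ℕ) ∣ 2 * p ∧ t = heckeOperatorBar p r}

/-- **(CUSP)**. -/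
structure CuspFacts (P0 Pinf : Pl p) : Prop where
  rat : IsRat p (cl p P0 Pinf)
  eigen : ∀ r : Nat.Primes, (r : ℕ) ≠ p →
    heckeOperatorBar p r (cl p P0 Pinf) = ((r : ℕ) + 1) • cl p P0 Pinf
  tors : (p - 1) • cl p P0 Pinf = 0
  ne_zero : cl p P0 Pinf ≠ 0

/-- a reduction map at `A`. -/
structure RedPkg (A : ValuationSubring Qb) where
  G : Type
  [inst : AddCommGroup G]
  Φ : JZero p →+ G

attribute [instance] RedPkg.inst

/-- **(RED)** at a place `A` over `v ≠ p`. -/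
structure RedFacts (v : ℕ) (hv : v.Prime) (A : ValuationSubring Qb) (R : RedPkg p A) : Prop where
  es : ∀ z : JZero p, IsRat p z →
    R.Φ ((v + 1) • z - heckeOperatorBar p ⟨v, hv⟩ z) = 0
  hecke : ∀ r : Nat.Primes, ¬ (r : ℕ) ∣ 2 * p → (r : ℕ) ≠ v → ∀ z : JZero p, IsRat p z →
    R.Φ z = 0 → R.Φ (heckeOperatorBar p r z) = 0
  tors : ∀ (m : ℕ) (z : JZero p), ¬ v ∣ m → m • z = 0 → R.Φ z = 0 → z = 0
  fin : (Set.range fun z : ratSubgroup p => R.Φ z).Finite
  rig : 3 ≤ v → ∀ z : JZero p, IsRat p z → v • z = 0 → R.Φ z = 0 → z = 0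

/-- **(MOD)**: the rational point of `X₀(p)` attached to `(W, Q)` and its reductions. -/
def ModPoint (W : WeierstrassCurve ℤ)
    (Q : ((W.map (Int.castRingHom ℚ))⁄(AlgebraicClosure ℚ)).Point) (P0 Pinf : Pl p)
    (R : ∀ A : ValuationSubring Qb, RedPkg p A) : Prop :=
  ∃ x : Pl p, IsRat p (cl p x P0) ∧
    ∀ v : ℕ, v.Prime → v ≠ p → (v : ℤ) ∣ W.Δ → ¬ (v : ℤ) ∣ W.c₄ →
      ∀ A : ValuationSubring Qb, A.LiesOverPrime v →
        (W.InZeroComponentAt A Q → (R A).Φ (cl p x Pinf) = 0) ∧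
        (¬ W.InZeroComponentAt A Q → (R A).Φ (cl p x P0) = 0)

/-- **(SD)**: the sharp Eisenstein descent at `p'`, in the form consumed by WIRE. -/
def SharpDescent (P0 Pinf : Pl p) (p' : ℕ) : Prop :=
  ∀ (k : ℕ) (y : JZero p), IsRat p y →
    ∃ s ∈ heckeRing p, ∃ m : ℤ, s (cl p P0 Pinf) = m • cl p P0 Pinf ∧ ¬ (p' : ℤ) ∣ m ∧
      ∃ t w : JZero p, IsRat p t ∧ (∃ n : ℕ, n ≠ 0 ∧ n • t = 0) ∧ IsRat p w ∧
        s y = t + (p' ^ k) • w

end Level


/-- the frozen statement S15. -/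
def S15Statement : Prop :=
  ∀ {p : ℕ} (_ : p.Prime) (_ : p ∉ ({2, 3, 5, 7, 13} : Finset ℕ))
    (W : WeierstrassCurve ℤ) (_ : W.Δ ≠ 0)
    (Q : ((W.map (Int.castRingHom ℚ))⁄(AlgebraicClosure ℚ)).Point)
    (_ : ∀ σ : AlgebraicClosure ℚ ≃ₐ[ℚ] AlgebraicClosure ℚ, σ • Q = Q)
    (_ : addOrderOf Q = p)
    (_ : (2 : ℤ) ∣ W.Δ) (_ : ¬ (2 : ℤ) ∣ W.c₄)
    (_ : ∀ A : ValuationSubring (AlgebraicClosure ℚ), A.LiesOverPrime 2 → ¬ W.InZeroComponentAt A Q)
    (_ : (3 : ℤ) ∣ W.Δ) (_ : ¬ (3 : ℤ) ∣ W.c₄)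
    (_ : ∀ A : ValuationSubring (AlgebraicClosure ℚ), A.LiesOverPrime 3 → ¬ W.InZeroComponentAt A Q)
    {ℓ : ℕ} (_ : ℓ.Prime) (_ : ℓ ≠ p) (_ : (ℓ : ℤ) ∣ W.Δ) (_ : ¬ (ℓ : ℤ) ∣ W.c₄)
    (A : ValuationSubring (AlgebraicClosure ℚ)) (_ : A.LiesOverPrime ℓ),
    ¬ W.InZeroComponentAt A Q

/-- the contracts of all chapters, for one level `p`. -/
structure Contracts (p : ℕ) [NeZero p] : Prop where
  ex : ∃ (P0 Pinf : Pl p) (R : ∀ A : ValuationSubring Qb, RedPkg p A),
    CuspFacts p P0 Pinf ∧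
    (∀ (r : Nat.Primes) (σ : GQ) (z : JZero p),
      heckeOperatorBar p r (σ • z) = σ • heckeOperatorBar p r z) ∧
    (∀ (v : ℕ) (hv : v.Prime), v ≠ p → ∀ A : ValuationSubring Qb, A.LiesOverPrime v →
      RedFacts p v hv A (R A)) ∧
    (∀ (W : WeierstrassCurve ℤ) (Q : ((W.map (Int.castRingHom ℚ))⁄(AlgebraicClosure ℚ)).Point),
      W.Δ ≠ 0 → (∀ σ : GQ, σ • Q = Q) → addOrderOf Q = p → ModPoint p W Q P0 Pinf R) ∧
    (∀ p' : ℕ, p'.Prime → p' ∣ addOrderOf (cl p P0 Pinf) → SharpDescent p P0 Pinf p')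

end Fermat.Agent.M15.Contracts9
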