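/-
Programme M15 (S15), chapter WIRE, leaf W6d (lead): **on `X₀(p)` of genus `≥ 1` no two distinct places
are linearly equivalent**; in particular `cl p P0 Pinf ≠ 0` for the two cusps.

* `genus_eq_zero_of_single_simple_zero` : a function field over an algebraically closed field of
  characteristic `0` which contains a function with a single zero, of order one, has genus `0`
  (fundamental identity `[F : K(f)] = 1` + Riemann–Hurwitz for `f`, `X0/FFGenus.genus_eq`).
* `genusFormula_pos` : the classical genus formula is positive at a prime `p ∉ {2, 3, 5, 7, 13}`.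
* `genus_pos` : hence `1 ≤ genus ℚ̄ (FF p)` (the proof of S24).
* `cl_ne_zero_of_ne` : `P ≠ Q → cl p P Q ≠ 0`.
-/
import Mathlib
import Fermat.Agent.M15.Contracts9
import Fermat.Agent.X0.S24PointsD
import Fermat.Agent.X0.RealizeData
import Fermat.Agent.X0.CuspExpand
import Fermat.Agent.X0.FFGenus
import Fermat.Agent.X0.CuspSurj
import Fermat.Agent.X0.CuspGood
import Fermat.Agent.X0.Degree
import Fermat.Agent.X0.PointSurjT
import Fermat.Agent.X0.HasCanDivInst
import Fermat.Agent.X0.GNTable

set_option autoImplicit false
set_option linter.unusedSectionVars false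
set_option linter.style.longLine false
set_option linter.style.haveILetI false

open AlgebraicCurve ModularCurve IntermediateField

namespace Fermat.Agent.M15.CuspNe0

open Fermat.Agent.X0 Fermat.Agent.X0.FF Fermat.Agent.M15.Contracts9

noncomputable section

open scoped Classical

/-! ### a single simple zero forces genus zero -/

section Abstract

variable {K F : Type*} [Field K] [Field F] [Algebra K F] [IsAlgClosed K] [CharZero K] {x : F}

/-- A function with a zero is not constant, hence transcendental. -/
theorem transcendental_of_ord_pos {f : F} {P : Place K F} (hP : 0 < P.ord f) :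
    Transcendental K f := by
  intro halg
  obtain ⟨c, rfl⟩ := eq_algebraMap_of_isAlgebraic halg
  rw [ffp_ord_algebraMap] at hP
  exact lt_irrefl _ hP

/-- If `f` has a single zero `P`, of order one, then `[F : K(f)] = 1`. -/
theorem finrank_eq_one_of_single_simple_zero (hx : IsGen K x) {f : F} {P : Place K F}
    (hP : P.ord f = 1) (huniq : ∀ v : Place K F, 0 < v.ord f → v = P) :
    Module.finrank K⟮f⟯ F = 1 := by
  have hgen : IsGen K f := hx.of_transcendental (transcendental_of_ord_pos (P := P) (by omega))
  have h := sum_ord_zeros hgen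
  have hset : ∀ v : Place K F, (∑ᶠ (_ : 0 < v.ord f), v.ord f) = if v = P then 1 else 0 := by
    intro v
    rw [finsum_eq_if]
    by_cases hv : 0 < v.ord f
    · rw [if_pos hv, if_pos (huniq v hv), huniq v hv, hP]
    · rw [if_neg hv, if_neg]
      rintro rfl
      omega
  rw [finsum_congr hset, finsum_eq_single _ P (fun v hv => if_neg hv), if_pos rfl] at h
  exact_mod_cast h.symm

/-- **A function field with a function having a single zero, of order one, has genus `0`.** -/
theorem genus_eq_zero_of_single_simple_zero [HasCanonicalDivisor (K := K) (F := F)]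
    (hx : IsGen K x) {f : F} {P : Place K F}
    (hP : P.ord f = 1) (huniq : ∀ v : Place K F, 0 < v.ord f → v = P) :
    genus K F = 0 := by
  have htr : Transcendental K f := transcendental_of_ord_pos (P := P) (by omega)
  have hgen : IsGen K f := hx.of_transcendental htr
  have hone := finrank_eq_one_of_single_simple_zero hx hP huniq
  -- every fibre of `f` is unramified
  have hunr : ∀ c ∉ (∅ : Finset K), ∀ v : Place K F, 0 < v.ord (f - algebraMap K F c) →
      v.ord (f - algebraMap K F c) = 1 := by
    intro c _ v hv
    have htrc : Transcendental K (f - algebraMap K F c) := by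
      intro halg
      apply htr
      have : f = (f - algebraMap K F c) + algebraMap K F c := by ring
      rw [this]
      exact halg.add (isAlgebraic_algebraMap c)
    have hgenc : IsGen K (f - algebraMap K F c) := hx.of_transcendental htrc
    have hsum := sum_ord_zeros hgenc
    rw [adjoin_sub_algebraMap, hone] at hsum
    have hfin := finite_zeros hgenc
    replace hsum : ∑ᶠ (w : Place K F) (_ : w ∈ {w : Place K F | 0 < w.ord (f - algebraMap K F c)}),
        w.ord (f - algebraMap K F c) = ((1 : ℕ) : ℤ) := hsum
    rw [finsum_mem_eq_finite_toFinset_sum _ hfin] at hsum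
    have hv' : v ∈ hfin.toFinset := hfin.mem_toFinset.mpr hv
    have hle : v.ord (f - algebraMap K F c) ≤
        ∑ w ∈ hfin.toFinset, w.ord (f - algebraMap K F c) :=
      Finset.single_le_sum (f := fun w : Place K F => w.ord (f - algebraMap K F c))
        (fun w hw => le_of_lt (hfin.mem_toFinset.mp hw)) hv'
    rw [hsum] at hle
    push_cast at hle
    omega
  rw [FFGenus.genus_eq hgen ∅ hunr, Finset.sum_empty, hone]
  have : ((0 : ℤ) - ((1 : ℕ) : ℤ) - (Nat.card {v : Place K F // v.ord f < 0} : ℤ) + 2).toNat ≤ 1 := by
    have h0 : (0 : ℤ) ≤ (Nat.card {v : Place K F // v.ord f < 0} : ℤ) := Int.natCast_nonneg _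
    omega
  omega

end Abstract

/-! ### the genus formula at a prime level -/

open Fermat.Agent.X0.GNTable in
/-- The genus formula is positive at a prime level `p ∉ {2, 3, 5, 7, 13}`. -/
theorem genusFormula_pos {p : ℕ} (hp : p.Prime) (hp' : p ∉ ({2, 3, 5, 7, 13} : Finset ℕ)) :
    0 < genusFormula p := by
  have hpsi : dedekindPsi p = p + 1 := by
    have := GNPsi.gnp_dedekindPsi_prime_pow hp 0
    simpa using this
  have hcusp : cuspCount p = 2 := by
    have := GNCusp.gnc_cuspCount_prime_pow_odd hp 0
    simpa using this
  have h2 : nuTwo p ≤ 2 := by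
    have := gnt_nuTwo_prime_pow_le hp 0
    simpa using this
  have h3 : nuThree p ≤ 2 := by
    have := gnt_nuThree_prime_pow_le hp 0
    simpa using this
  simp only [Finset.mem_insert, Finset.mem_singleton, not_or] at hp'
  obtain ⟨n2, n3, n5, n7, n13⟩ := hp'
  unfold genusFormula
  rw [hpsi, hcusp]
  by_cases h11 : p = 11
  · subst h11
    have e2 : nuTwo 11 = 0 := by
      have := GNNu.gnn_nuTwo_prime_pow_of_three (p := 11) (by norm_num) (by norm_num) 0
      simpa using this
    have e3 : nuThree 11 = 0 := by
      have := GNNu.gnn_nuThree_prime_pow_of_two (p := 11) (by norm_num) (by norm_num) 0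
      simpa using this
    rw [e2, e3]
    norm_num
  · have hge : 17 ≤ p := by
      by_contra hlt
      rw [not_le] at hlt
      interval_cases p <;> simp_all (config := {decide := true})
    have hpq : (17 : ℚ) ≤ p := by exact_mod_cast hge
    have h2q : (nuTwo p : ℚ) ≤ 2 := by exact_mod_cast h2
    have h3q : (nuThree p : ℚ) ≤ 2 := by exact_mod_cast h3
    push_cast
    linarith

variable (p : ℕ) [NeZero p]

/-- The genus of `X₀(p)` (proof of S24). -/
theorem genus_eq_genusFormula [HasCanonicalDivisor (K := Kbar) (F := FF p)] :
    (genus Kbar (FF p) : ℚ) = genusFormula p := by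
  have hx : IsGen Kbar (jF p) := Degree.isGen_jF p (realizeData p) (cuspData p)
  have hfd : FiniteDimensional (IntermediateField.adjoin Kbar {jF p}) (FF p) := hx.finite
  have hdeg := Degree.finrank_adjoin p (realizeData p) (cuspData p)
  have hcard := Degree.card_eq_finrank_adjoin p (realizeData p) (cuspData p)
  have hC := CuspGood.good (cuspData p)
  exact S24PointsD.genus_eq_genusFormula_of_surj (realizeData p) (cuspData p)
    (FFGenus.genusHyp hx) hdeg hC
    (fun z₀ c hc v hv =>
      PointSurjT.exists_pointPlaceD_eq (realizeData p) z₀ (cuspData p) c hc v hv)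
    (fun v hv => CuspSurj.exists_cuspPlace_eq hC hcard v hv)

theorem genus_ne_zero (hp : p.Prime) (hp' : p ∉ ({2, 3, 5, 7, 13} : Finset ℕ))
    [HasCanonicalDivisor (K := Kbar) (F := FF p)] : genus Kbar (FF p) ≠ 0 := by
  intro h0
  have h := genus_eq_genusFormula p
  rw [h0] at h
  have := genusFormula_pos hp hp'
  rw [← h] at this
  simp at this

theorem mk_eq_zero_iff' {K F : Type*} [Field K] [Field F] [Algebra K F]
    (D : Divisor.degZero (K := K) (F := F)) :
    Pic0.mk D = 0 ↔ Divisor.IsPrincipal (D : Divisor K F) := by
  unfold Pic0.mk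
  rw [QuotientAddGroup.eq_zero_iff, AddSubgroup.mem_addSubgroupOf]
  exact Divisor.mem_principal

/-- **(W6d)** on `X₀(p)`, `p ∉ {2, 3, 5, 7, 13}` prime, two distinct places are not linearly
equivalent. -/
theorem cl_ne_zero_of_ne (hp : p.Prime) (hp' : p ∉ ({2, 3, 5, 7, 13} : Finset ℕ))
    (P Q : Pl p) (hPQ : P ≠ Q) : cl p P Q ≠ 0 := by
  classical
  intro h0
  haveI := HasCanDivInst.hasCanonicalDivisor p
  unfold cl at h0
  rw [mk_eq_zero_iff'] at h0
  obtain ⟨f, hf, hord⟩ := h0
  have hordP : P.ord f = 1 := by
    rw [← hord P]
    show (Finsupp.single P (1 : ℤ) - Finsupp.single Q 1 : Divisor Kbar (FF p)) P = 1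
    rw [Finsupp.sub_apply, Finsupp.single_eq_same, Finsupp.single_apply, if_neg (Ne.symm hPQ)]
    norm_num
  have huniq : ∀ v : Pl p, 0 < v.ord f → v = P := by
    intro v hv
    by_contra hne
    rw [← hord v] at hv
    have : (Finsupp.single P (1 : ℤ) - Finsupp.single Q 1 : Divisor Kbar (FF p)) v ≤ 0 := by
      rw [Finsupp.sub_apply, Finsupp.single_apply, if_neg (Ne.symm hne), Finsupp.single_apply]
      split_ifs <;> norm_num
    exact absurd hv (not_lt.mpr this)
  exact genus_ne_zero p hp hp'
    (genus_eq_zero_of_single_simple_zero (HasCanDivInst.isGen p) hordP huniq)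

end

end Fermat.Agent.M15.CuspNe0
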