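/-
Programme M15 (S15), chapter WIRE, leaf W6c (lead): **the cuspidal class `(0) - (∞)` of `X₀(p)`,
`p` prime, is killed by `p - 1`.**

The modular unit `uF p = Δ(q^p)/Δ(q) ∈ FF p` (`RED/BASE/Hauptmodul12`, every level) has
* order `0` at every place which is not a pole of `j` (it is realised by the nowhere vanishing
  holomorphic function `Δ(p z)/Δ(z)`),
* at a pole `v` of `j`, `w = -ord_v j`: either (`A`) `ord_v u = -(p - 1)` and `w = p`, or
  (`B`) `ord_v u = w (p - 1)` (cusp expansions of order `a² - p`, `a ∣ p`, `Hauptmodul12.order_T_uF`).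
Since `deg div u = 0` and `∑ w = [F : K(j)] = p + 1` there is exactly one place `P0` of type `A` and
exactly one of type `B`, which is `Pinf = DescInst1.pInf p` (the place `q = 0`), with `w = 1`. Hence
`div u = (p - 1) (Pinf - P0)`.
-/
import Mathlib
import Fermat.Agent.M15.Contracts9
import Fermat.Agent.RED.BASE.Hauptmodul12
import Fermat.Agent.RED.BASE.DeltaMem19
import Fermat.Agent.U44.DescInst1
import Fermat.Agent.M15.CuspNe0

set_option autoImplicit false
set_option linter.unusedSectionVars false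
set_option linter.style.longLine false
set_option linter.style.haveILetI false

open AlgebraicCurve ModularCurve IntermediateField UpperHalfPlane
open scoped MatrixGroups

namespace Fermat.Agent.M15.CuspTors0

open Fermat.Agent.X0 Fermat.Agent.X0.FF Fermat.Agent.M15.Contracts9
open Fermat.Agent.X0.PointPlacesD Fermat.Agent.X0.PointPlaces
open Fermat.Agent.RED.BASE.Hauptmodul12 Fermat.Agent.RED.BASE.Unbranched14
open Fermat.Agent.IG.AN.DeltaQuot19 Fermat.Agent.IG.PR.Interface20
open Fermat.Agent.RR.LSpace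

noncomputable section

open scoped Classical

/-! ### point places: a function realised by a nowhere vanishing holomorphic function is a unit -/

section Point

variable {N : ℕ} [NeZero N]

theorem ord_eq_zero_of_realized (D : RealizeData N)
    {t : FF N} {τ : ℍ → ℂ} (hτ : τ ∈ HolH) (ht : IsRealizedBy D t τ) (hne : t ≠ 0)
    (hτ0 : ∀ z, τ z ≠ 0)
    (z₀ : ℍ) (cj : Kbar) (hc : jFun z₀ = iotaK cj) (g : SL(2, ℤ)) :
    (pointPlaceD D z₀ cj hc g).ord t = 0 := by
  obtain ⟨a, b, hb, hab, hΘ⟩ := ht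
  set v := pointPlaceD D z₀ cj hc g with hv
  have hbF : (b : FF N) ≠ 0 := fun h => hb (Subtype.ext h)
  have haF : (a : FF N) ≠ 0 := by
    rw [← hab]
    exact mul_ne_zero hne hbF
  have ha : a ≠ 0 := fun h => haF (by rw [h]; rfl)
  have hord : v.ord t + v.ord (b : FF N) = v.ord (a : FF N) := by
    rw [← hab, Place.ord_mul v hne hbF]
  have hΘa : D.Θ a = D.Θ b * τ := by
    funext z
    simp only [Pi.mul_apply, hΘ z]
  have hcomp : compSL (D.Θ a) g⁻¹ = compSL (D.Θ b) g⁻¹ * compSL τ g⁻¹ := by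
    rw [hΘa, compSL_mul_fun]
  have h0 : ordH (compSL τ g⁻¹) z₀ = 0 := by
    rw [ordH_eq_zero_iff (compSL_mem_HolH hτ g⁻¹), compSL_apply]
    exact hτ0 _
  have hordH : ordH (compSL (D.Θ a) g⁻¹) z₀ = ordH (compSL (D.Θ b) g⁻¹) z₀ := by
    rw [hcomp, ordH_mul (compSL_mem_HolH (D.mem_HolH b) g⁻¹) (compSL_mem_HolH hτ g⁻¹), h0,
      add_zero]
  have e1 := pointPlaceD_spec D z₀ cj hc g a ha
  have e2 := pointPlaceD_spec D z₀ cj hc g b hb
  rw [hordH, e2] at e1
  have hm : (0 : ℤ) < (pointMultD D z₀ cj hc g : ℤ) := by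
    exact_mod_cast pointMultD_pos D z₀ cj hc g
  have : v.ord (b : FF N) = v.ord (a : FF N) := mul_left_cancel₀ hm.ne' e1
  omega

end Point

variable (p : ℕ) [NeZero p]

/-! ### the modular unit -/

theorem uF_ne_zero' : uF p ≠ 0 := by
  intro h
  have h1 : uq Kbar p = 0 := congrArg Subtype.val h
  have h2 := Fermat.Agent.RED.BASE.DeltaMem19.uqInv_mul_uq p Kbar
  rw [h1, mul_zero] at h2
  exact zero_ne_one h2

/-- The modular unit has order `0` at every place which is not a pole of `j`. -/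
theorem ord_uF_of_nonneg (v : Pl p) (hv : 0 ≤ v.ord (jF p)) : v.ord (uF p) = 0 := by
  obtain ⟨z₀, cj, hc, g, rfl⟩ :=
    exists_pointPlaceD_eq_of_ord_nonneg (realizeData p) (cuspData p) v hv
  exact ord_eq_zero_of_realized (realizeData p) (deltaQuot_mem_HolH p) (isRealizedBy_uF p)
    (uF_ne_zero' p) (Fermat.Agent.RED.BASE.DeltaMem19.deltaQuot_ne_zero p) z₀ cj hc g

/-- The order of the modular unit at the poles of `j`, `p` prime. -/
theorem ord_uF_of_neg (hp : p.Prime) (v : Pl p) (hv : v.ord (jF p) < 0) :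
    (v.ord (uF p) = -((p : ℤ) - 1) ∧ v.ord (jF p) = -(p : ℤ)) ∨
      v.ord (uF p) = -v.ord (jF p) * ((p : ℤ) - 1) := by
  have hC := CuspGood.good (cuspData p)
  have hcard := Degree.card_eq_finrank_adjoin p (realizeData p) (cuspData p)
  have : FiniteDimensional Kbar⟮jF p⟯ (FF p) :=
    (Degree.isGen_jF p (realizeData p) (cuspData p)).finite
  obtain ⟨g, rfl⟩ := CuspSurj.exists_cuspPlace_eq hC hcard v hv
  obtain ⟨m, hm, hspec, hmj⟩ := cuspPlace_spec hC g
  obtain ⟨a, han, hord⟩ := order_T_uF p g⁻¹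
  have hW := hspec (uF p) (uF_ne_zero' p)
  rw [hord] at hW
  have hm0 : (m : ℤ) ≠ 0 := by exact_mod_cast hm.ne'
  set x := (cuspPlace hC g).ord (uF p) with hx
  set y := (cuspPlace hC g).ord (jF p) with hy
  rcases (Nat.dvd_prime hp).mp han with ha1 | hap
  · -- `a = 1`: `m = 1`
    rw [ha1] at hW
    left
    have h1 : (m : ℤ) ∣ p := ⟨-y, by linarith⟩
    have h2' : (m : ℤ) ∣ 1 - p := ⟨x, by push_cast at hW; linarith⟩
    have h3' : (m : ℤ) ∣ 1 := by
      have := dvd_add h1 h2'
      simpa using this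
    have hm1 : (m : ℤ) = 1 := Int.eq_one_of_dvd_one (by positivity) h3'
    rw [hm1] at hW hmj
    push_cast at hW
    constructor <;> linarith
  · -- `a = p`
    rw [hap] at hW
    right
    have : (m : ℤ) * x = (m : ℤ) * (-y * ((p : ℤ) - 1)) := by
      push_cast at hW
      rw [← hW]
      have : (p : ℤ) = (m : ℤ) * (-y) := by linarith
      calc (p : ℤ) * p - p = p * ((p : ℤ) - 1) := by ring
        _ = (m : ℤ) * (-y) * ((p : ℤ) - 1) := by rw [← this]
        _ = (m : ℤ) * (-y * ((p : ℤ) - 1)) := by ring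
    exact mul_left_cancel₀ hm0 this

/-! ### the count -/

/-- The poles of `j`. -/
def poles : Finset (Pl p) := (finite_poles (HasCanDivInst.isGen p)).toFinset

theorem mem_poles {v : Pl p} : v ∈ poles p ↔ v.ord (jF p) < 0 := by
  rw [poles, Set.Finite.mem_toFinset]
  rfl

/-- `∑ -ord_v j = p + 1` over the poles of `j`. -/
theorem sum_poles_jF (hp : p.Prime) : ∑ v ∈ poles p, -v.ord (jF p) = (p : ℤ) + 1 := by
  have h := sum_ord_poles (HasCanDivInst.isGen p)
  rw [Degree.finrank_adjoin p (realizeData p) (cuspData p)] at h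
  have hpsi : dedekindPsi p = p + 1 := by
    have := GNPsi.gnp_dedekindPsi_prime_pow hp 0
    simpa using this
  rw [hpsi] at h
  replace h : ∑ᶠ (v : Pl p) (_ : v ∈ {v : Pl p | v.ord (jF p) < 0}), -v.ord (jF p) =
      ((p + 1 : ℕ) : ℤ) := h
  rw [finsum_mem_eq_finite_toFinset_sum _ (finite_poles (HasCanDivInst.isGen p))] at h
  rw [poles, h]
  push_cast
  ring

/-- `∑ ord_v u = 0` over the poles of `j`. -/
theorem sum_poles_uF : ∑ v ∈ poles p, v.ord (uF p) = 0 := by
  have H := Fermat.Agent.U44.DescInst1.lHyp p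
  have hdeg := degree_divOf H (uF_ne_zero' p)
  rw [degree_eq_sum H] at hdeg
  rw [← hdeg]
  symm
  have hsub : (divOf H (uF_ne_zero' p)).support ⊆ poles p := by
    intro v hv
    rw [Finsupp.mem_support_iff, divOf_apply] at hv
    rw [mem_poles]
    by_contra hnn
    exact hv (ord_uF_of_nonneg p v (not_lt.mp hnn))
  rw [Finset.sum_subset hsub (fun v _ hv => by
    rwa [Finsupp.notMem_support_iff] at hv)]
  exact Finset.sum_congr rfl fun v _ => divOf_apply H _ v

/-- the poles of type `A`. -/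
def polesA : Finset (Pl p) := (poles p).filter fun v => v.ord (uF p) < 0

theorem one_lt_cast (hp : p.Prime) : (1 : ℤ) < p := by exact_mod_cast hp.one_lt

theorem polesA_spec (hp : p.Prime) {v : Pl p} (hv : v ∈ polesA p) :
    v.ord (uF p) = -((p : ℤ) - 1) ∧ v.ord (jF p) = -(p : ℤ) := by
  rw [polesA, Finset.mem_filter, mem_poles] at hv
  rcases ord_uF_of_neg p hp v hv.1 with h | h
  · exact h
  · exfalso
    have h1 := one_lt_cast p hp
    have : 0 < -v.ord (jF p) * ((p : ℤ) - 1) := mul_pos (by omega) (by omega)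
    omega

theorem polesB_spec (hp : p.Prime) {v : Pl p} (hv : v ∈ poles p) (hvA : v ∉ polesA p) :
    v.ord (uF p) = -v.ord (jF p) * ((p : ℤ) - 1) := by
  rw [polesA, Finset.mem_filter, not_and] at hvA
  have hvA' := hvA hv
  rcases ord_uF_of_neg p hp v ((mem_poles p).mp hv) with h | h
  · exfalso
    have h1 := one_lt_cast p hp
    omega
  · exact h

/-- There is exactly one pole of type `A`, and the orders of the others sum to `1`. -/
theorem card_polesA (hp : p.Prime) :
    (polesA p).card = 1 ∧ ∑ v ∈ (poles p).filter (fun v => v ∉ polesA p), -v.ord (jF p) = 1 := by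
  have h1 := one_lt_cast p hp
  have hj := sum_poles_jF p hp
  have hu := sum_poles_uF p
  have hsplit : ∀ f : Pl p → ℤ, ∑ v ∈ poles p, f v =
      ∑ v ∈ polesA p, f v + ∑ v ∈ (poles p).filter (fun v => v ∉ polesA p), f v := by
    intro f
    rw [← Finset.sum_filter_add_sum_filter_not (poles p) (fun v => v ∈ polesA p)]
    congr 1
    apply Finset.sum_congr _ fun _ _ => rfl
    ext v
    rw [Finset.mem_filter, polesA, Finset.mem_filter]
    tauto
  rw [hsplit] at hj hu
  have hA1 : ∑ v ∈ polesA p, -v.ord (jF p) = (polesA p).card * (p : ℤ) := by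
    rw [Finset.sum_congr rfl fun v hv => by rw [(polesA_spec p hp hv).2, neg_neg],
      Finset.sum_const, nsmul_eq_mul]
  have hA2 : ∑ v ∈ polesA p, v.ord (uF p) = (polesA p).card * (-((p : ℤ) - 1)) := by
    rw [Finset.sum_congr rfl fun v hv => (polesA_spec p hp hv).1, Finset.sum_const, nsmul_eq_mul]
  have hB2 : ∑ v ∈ (poles p).filter (fun v => v ∉ polesA p), v.ord (uF p) =
      (∑ v ∈ (poles p).filter (fun v => v ∉ polesA p), -v.ord (jF p)) * ((p : ℤ) - 1) := by
    rw [Finset.sum_mul]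
    refine Finset.sum_congr rfl fun v hv => ?_
    rw [Finset.mem_filter] at hv
    exact polesB_spec p hp hv.1 hv.2
  rw [hA1] at hj
  rw [hA2, hB2] at hu
  set a : ℤ := ((polesA p).card : ℤ) with ha
  set b : ℤ := ∑ v ∈ (poles p).filter (fun v => v ∉ polesA p), -v.ord (jF p) with hb
  have hab : b = a := by
    have : (b - a) * ((p : ℤ) - 1) = 0 := by linarith
    rcases mul_eq_zero.mp this with h | h
    · linarith
    · omega
  have ha1 : a = 1 := by
    have : a * ((p : ℤ) + 1) = (p : ℤ) + 1 := by rw [hab] at hj; linarith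
    have hp1 : ((p : ℤ) + 1) ≠ 0 := by omega
    exact mul_right_cancel₀ hp1 (by rw [this, one_mul])
  refine ⟨?_, by rw [hab, ha1]⟩
  rw [ha] at ha1
  exact_mod_cast ha1

/-! ### the two cusps -/

/-- The cusp `∞`: the place `q = 0`. -/
def Pinf : Pl p := Fermat.Agent.U44.DescInst1.pInf p

theorem ord_jF_Pinf : (Pinf p).ord (jF p) = -1 := by
  rw [Pinf, Fermat.Agent.U44.DescInst1.ord_pInf p (Fermat.Agent.U44.DescInst1.jF_ne_zero p)]
  have := Fermat.Agent.U44.DescInst1.order_valHom_jF p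
  rwa [Fermat.Agent.ES.N34.ModEqBar23.valHom_apply] at this

theorem Pinf_mem_poles : Pinf p ∈ poles p := by
  rw [mem_poles, ord_jF_Pinf]
  norm_num

theorem Pinf_notMem_polesA (hp : p.Prime) : Pinf p ∉ polesA p := by
  intro h
  have h1 := one_lt_cast p hp
  have := (polesA_spec p hp h).2
  rw [ord_jF_Pinf] at this
  omega

/-- `Pinf` is the only pole of `j` which is not of type `A`. -/
theorem eq_Pinf_of_notMem_polesA (hp : p.Prime) {v : Pl p} (hv : v ∈ poles p)
    (hvA : v ∉ polesA p) : v = Pinf p := by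
  by_contra hne
  have hsum := (card_polesA p hp).2
  set B := (poles p).filter (fun v => v ∉ polesA p) with hB
  have hvB : v ∈ B := Finset.mem_filter.mpr ⟨hv, hvA⟩
  have hPB : Pinf p ∈ B := Finset.mem_filter.mpr ⟨Pinf_mem_poles p, Pinf_notMem_polesA p hp⟩
  have hpair : ({v, Pinf p} : Finset (Pl p)) ⊆ B := by
    intro w hw
    rw [Finset.mem_insert, Finset.mem_singleton] at hw
    rcases hw with rfl | rfl
    · exact hvB
    · exact hPB
  have hle : ∑ w ∈ ({v, Pinf p} : Finset (Pl p)), -w.ord (jF p) ≤ ∑ w ∈ B, -w.ord (jF p) := by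
    apply Finset.sum_le_sum_of_subset_of_nonneg hpair
    intro w hw _
    have : w.ord (jF p) < 0 := (mem_poles p).mp (Finset.mem_filter.mp hw).1
    omega
  rw [hsum, Finset.sum_pair hne, ord_jF_Pinf] at hle
  have : v.ord (jF p) < 0 := (mem_poles p).mp hv
  omega

/-- **The cusp `0`**: there is exactly one place where `j` has a pole of order `p`. -/
theorem existsUnique_P0 (hp : p.Prime) : ∃! v : Pl p, v.ord (jF p) = -(p : ℤ) := by
  obtain ⟨P, hP⟩ := Finset.card_eq_one.mp (card_polesA p hp).1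
  have hPA : P ∈ polesA p := by rw [hP]; exact Finset.mem_singleton_self P
  refine ⟨P, (polesA_spec p hp hPA).2, fun v hv => ?_⟩
  have h1 := one_lt_cast p hp
  have hvp : v ∈ poles p := by rw [mem_poles, hv]; omega
  by_cases hvA : v ∈ polesA p
  · rw [hP, Finset.mem_singleton] at hvA
    exact hvA
  · exfalso
    have := eq_Pinf_of_notMem_polesA p hp hvp hvA
    rw [this, ord_jF_Pinf] at hv
    omega

/-- The cusp `0` of `X₀(p)`, `p` prime: the place where `j` has a pole of order `p`. -/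
def P0 (hp : p.Prime) : Pl p := (existsUnique_P0 p hp).choose

theorem ord_jF_P0 (hp : p.Prime) : (P0 p hp).ord (jF p) = -(p : ℤ) :=
  (existsUnique_P0 p hp).choose_spec.1

theorem eq_P0_of_ord (hp : p.Prime) {v : Pl p} (hv : v.ord (jF p) = -(p : ℤ)) : v = P0 p hp :=
  (existsUnique_P0 p hp).choose_spec.2 v hv

theorem eq_P0_iff (hp : p.Prime) {v : Pl p} : v = P0 p hp ↔ v.ord (jF p) = -(p : ℤ) :=
  ⟨fun h => h ▸ ord_jF_P0 p hp, eq_P0_of_ord p hp⟩

theorem P0_ne_Pinf (hp : p.Prime) : P0 p hp ≠ Pinf p := by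
  intro h
  have h1 := one_lt_cast p hp
  have := ord_jF_P0 p hp
  rw [h, ord_jF_Pinf] at this
  omega

theorem P0_mem_polesA (hp : p.Prime) : P0 p hp ∈ polesA p := by
  by_contra hA
  have h1 := one_lt_cast p hp
  have hmem : P0 p hp ∈ poles p := by rw [mem_poles, ord_jF_P0]; omega
  exact P0_ne_Pinf p hp (eq_Pinf_of_notMem_polesA p hp hmem hA)

/-- The poles of `j` are the two cusps. -/
theorem eq_P0_or_eq_Pinf (hp : p.Prime) {v : Pl p} (hv : v.ord (jF p) < 0) :
    v = P0 p hp ∨ v = Pinf p := by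
  by_cases hvA : v ∈ polesA p
  · exact Or.inl (eq_P0_of_ord p hp (polesA_spec p hp hvA).2)
  · exact Or.inr (eq_Pinf_of_notMem_polesA p hp ((mem_poles p).mpr hv) hvA)

theorem eq_Pinf_iff (hp : p.Prime) {v : Pl p} : v = Pinf p ↔ v.ord (jF p) = -1 := by
  refine ⟨fun h => h ▸ ord_jF_Pinf p, fun hv => ?_⟩
  rcases eq_P0_or_eq_Pinf p hp (v := v) (by omega) with h | h
  · exfalso
    have h1 := one_lt_cast p hp
    rw [h, ord_jF_P0] at hv
    omega
  · exact h

theorem ord_uF_P0 (hp : p.Prime) : (P0 p hp).ord (uF p) = -((p : ℤ) - 1) :=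
  (polesA_spec p hp (P0_mem_polesA p hp)).1

theorem ord_uF_Pinf (hp : p.Prime) : (Pinf p).ord (uF p) = (p : ℤ) - 1 := by
  rw [polesB_spec p hp (Pinf_mem_poles p) (Pinf_notMem_polesA p hp), ord_jF_Pinf]
  ring

/-- **The divisor of the modular unit**: `div (Δ(q^p)/Δ(q)) = (p - 1) ((∞) - (0))`. -/
theorem ord_uF (hp : p.Prime) (v : Pl p) :
    v.ord (uF p) = ((p : ℤ) - 1) *
      (Finsupp.single (Pinf p) (1 : ℤ) - Finsupp.single (P0 p hp) 1 : Divisor Kbar (FF p)) v := by
  rw [Finsupp.sub_apply, Finsupp.single_apply, Finsupp.single_apply]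
  by_cases hv : v.ord (jF p) < 0
  · rcases eq_P0_or_eq_Pinf p hp hv with rfl | rfl
    · rw [if_neg (P0_ne_Pinf p hp).symm, if_pos rfl, ord_uF_P0]
      ring
    · rw [if_pos rfl, if_neg (P0_ne_Pinf p hp), ord_uF_Pinf p hp]
      ring
  · rw [ord_uF_of_nonneg p v (not_lt.mp hv), if_neg, if_neg]
    · ring
    · rintro rfl
      apply hv
      rw [ord_jF_P0]
      have h1 := one_lt_cast p hp
      omega
    · rintro rfl
      apply hv
      rw [ord_jF_Pinf]
      norm_num

/-- **(W6c)** `(p - 1) • ((0) - (∞)) = 0` in `J₀(p)`. -/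
theorem tors (hp : p.Prime) : (p - 1) • cl p (P0 p hp) (Pinf p) = 0 := by
  unfold cl
  have hmk : ∀ (m : ℕ) (D : Divisor.degZero (K := Kbar) (F := FF p)),
      m • Pic0.mk D = Pic0.mk (m • D) := fun _ _ => rfl
  rw [hmk, Fermat.Agent.M15.CuspNe0.mk_eq_zero_iff']
  refine ⟨(uF p)⁻¹, inv_ne_zero (uF_ne_zero' p), fun v => ?_⟩
  rw [Place.ord_inv, ord_uF p hp v]
  have h1 : 1 ≤ p := hp.one_lt.le
  show ((p - 1) • (Finsupp.single (P0 p hp) (1 : ℤ) - Finsupp.single (Pinf p) 1 :
    Divisor Kbar (FF p))) v = _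
  rw [Finsupp.smul_apply, Finsupp.sub_apply, Finsupp.sub_apply, nsmul_eq_mul]
  push_cast [h1]
  ring

/-- **(W6d)** `(0) - (∞) ≠ 0` in `J₀(p)`, `p ∉ {2, 3, 5, 7, 13}`. -/
theorem ne_zero (hp : p.Prime) (hp' : p ∉ ({2, 3, 5, 7, 13} : Finset ℕ)) :
    cl p (P0 p hp) (Pinf p) ≠ 0 :=
  Fermat.Agent.M15.CuspNe0.cl_ne_zero_of_ne p hp hp' _ _ (P0_ne_Pinf p hp)

end

end Fermat.Agent.M15.CuspTors0
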