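import Mathlib

/-!
# M15 (AN), file 1 (helper8): Liouville for lattice-periodic meromorphic functions

A meromorphic function on `ℂ`, periodic under `L.lattice` (Mathlib's `PeriodPair`), all of whose
orders are `≥ 0`, is constant on its analytic points. Pure Mathlib.
-/

set_option autoImplicit false

open Filter Topology

noncomputable section

namespace Fermat.Agent.M15.EllLiouville8

open PeriodPair

variable (L : PeriodPair)

/-- **Liouville for lattice-periodic meromorphic functions**: a meromorphic function on `ℂ`,
periodic under the lattice, with no poles, is constant (at all points where it is analytic). -/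
theorem exists_const_of_periodic {f : ℂ → ℂ} (hf : ∀ x, MeromorphicAt f x)
    (hper : ∀ l ∈ L.lattice, ∀ z, f (z + l) = f z) (hord : ∀ x, 0 ≤ meromorphicOrderAt f x) :
    ∃ c : ℂ, ∀ x, AnalyticAt ℂ f x → f x = c := by
  have hfU : MeromorphicOn f Set.univ := fun x _ => hf x
  set F := toMeromorphicNFOn f Set.univ with hF
  have hFan : ∀ x, AnalyticAt ℂ F x := by
    intro x
    have h1 : MeromorphicNFAt F x := meromorphicNFOn_toMeromorphicNFOn f Set.univ (Set.mem_univ x)
    rw [← h1.meromorphicOrderAt_nonneg_iff_analyticAt, hF,
      meromorphicOrderAt_toMeromorphicNFOn hfU (Set.mem_univ x)]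
    exact hord x
  have hFeq : ∀ x, f =ᶠ[𝓝[≠] x] F := fun x =>
    (hfU.toMeromorphicNFOn_eq_self_on_nhdsNE (Set.mem_univ x)).symm
  have hFdiff : Differentiable ℂ F := fun x => (hFan x).differentiableAt
  -- periodicity of `F`
  have hFper : ∀ l ∈ L.lattice, ∀ z, F (z + l) = F z := by
    intro l hl z
    have h1 : (fun u => F (u + l)) =ᶠ[𝓝[≠] z] F := by
      have hshift : Tendsto (fun u : ℂ => u + l) (𝓝[≠] z) (𝓝[≠] (z + l)) := by
        refine tendsto_nhdsWithin_of_tendsto_nhds_of_eventually_within _ ?_ ?_
        · exact (continuous_id.add continuous_const).continuousAt.tendsto.mono_left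
            nhdsWithin_le_nhds
        · filter_upwards [self_mem_nhdsWithin] with u hu
          simpa using hu
      have h2 := hshift.eventually (hFeq (z + l))
      filter_upwards [h2, hFeq z] with u hu1 hu2
      rw [← hu1, hper l hl u, hu2]
    have hc1 : ContinuousAt (fun u => F (u + l)) z :=
      ContinuousAt.comp (f := fun u : ℂ => u + l) (g := F) (hFan (z + l)).continuousAt
        (continuous_id.add continuous_const).continuousAt
    have hc2 : ContinuousAt F z := (hFan z).continuousAt
    have := (hc1.eventuallyEq_nhds_iff_eventuallyEq_nhdsNE hc2).1 h1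
    exact this.eq_of_nhds
  refine ⟨F 0, fun x hx => ?_⟩
  have h1 : f x = F x := by
    have := (hx.continuousAt.eventuallyEq_nhds_iff_eventuallyEq_nhdsNE (hFan x).continuousAt).1
      (hFeq x)
    exact this.eq_of_nhds
  rw [h1]
  exact hFdiff.apply_eq_apply_of_bounded
    (IsZLattice.isCompact_range_of_periodic L.lattice _ hFdiff.continuous
      fun z w hw => hFper w hw z).isBounded x 0

end Fermat.Agent.M15.EllLiouville8
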