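import Mathlib
import Fermat.Agent.M15.EllLiouville8

/-!
# M15 (AN), file 2 (helper8): the half-period identity

For a half period `w` of `L`: `(℘ z - ℘ w) (℘ (z + w) - ℘ w)` is a NONZERO constant; hence
`℘ z ≠ ℘ w` unless `z ≡ w` or `z ∈ L` (`IsHalf.wP_ne`). No zero counting is used.
-/

set_option autoImplicit false

open Filter Topology

noncomputable section

namespace Fermat.Agent.M15.EllHalf8

open PeriodPair Fermat.Agent.M15.EllLiouville8

variable (L : PeriodPair)

/-- the shifted Weierstrass function minus a constant. -/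
def sh (a c : ℂ) : ℂ → ℂ := fun z => ℘[L] (z + a) - c

theorem sh_apply (a c z : ℂ) : sh L a c z = ℘[L] (z + a) - c := rfl

theorem meromorphicAt_shift (a x : ℂ) : MeromorphicAt (fun z => ℘[L] (z + a)) x := by
  have h := L.meromorphic_weierstrassP (x + a)
  have := MeromorphicAt.comp_analyticAt (f := ℘[L]) (g := fun z : ℂ => z + a) (x := x) h
    (by fun_prop)
  exact this

theorem meromorphicAt_sh (a c x : ℂ) : MeromorphicAt (sh L a c) x :=
  (meromorphicAt_shift L a x).sub (MeromorphicAt.const c x)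

theorem order_shift (a x : ℂ) :
    meromorphicOrderAt (fun z => ℘[L] (z + a)) x = meromorphicOrderAt ℘[L] (x + a) :=
  meromorphicOrderAt_comp_add_const_eq_meromorphicOrderAt (f := ℘[L]) (c := a) (x := x)

theorem order_sh_pole {a c x : ℂ} (hx : x + a ∈ L.lattice) :
    meromorphicOrderAt (sh L a c) x = (-2 : ℤ) := by
  have h1 : meromorphicOrderAt (fun z => ℘[L] (z + a)) x = (-2 : ℤ) := by
    rw [order_shift, L.order_weierstrassP _ hx]; rfl
  have h2 : sh L a c = (fun z => ℘[L] (z + a)) + fun _ => -c := by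
    funext z; simp [sh, sub_eq_add_neg]
  rw [h2, meromorphicOrderAt_add_eq_left_of_lt (MeromorphicAt.const (-c) x), h1]
  rw [h1]
  refine lt_of_lt_of_le ?_ (analyticAt_const.meromorphicOrderAt_nonneg)
  exact_mod_cast (by norm_num : (-2 : ℤ) < 0)

theorem analyticAt_shift {a x : ℂ} (hx : x + a ∉ L.lattice) :
    AnalyticAt ℂ (fun z => ℘[L] (z + a)) x := by
  have h := L.analyticOnNhd_weierstrassP (x + a) hx
  exact AnalyticAt.comp (g := ℘[L]) (f := fun z : ℂ => z + a) h (by fun_prop)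

theorem analyticAt_sh {a c x : ℂ} (hx : x + a ∉ L.lattice) : AnalyticAt ℂ (sh L a c) x :=
  (analyticAt_shift L hx).sub analyticAt_const

theorem deriv_shift {a x : ℂ} (hx : x + a ∉ L.lattice) :
    deriv (fun z => ℘[L] (z + a)) x = ℘'[L] (x + a) := by
  have h := (L.analyticOnNhd_weierstrassP (x + a) hx).differentiableAt
  have h1 : HasDerivAt ℘[L] (℘'[L] (x + a)) (x + a) := by
    rw [← L.deriv_weierstrassP]; exact h.hasDerivAt
  have h2 : HasDerivAt (fun z : ℂ => z + a) 1 x := (hasDerivAt_id x).add_const a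
  have h3 : HasDerivAt (℘[L] ∘ fun z : ℂ => z + a) (℘'[L] (x + a) * 1) x :=
    HasDerivAt.comp x h1 h2
  have h4 : (fun z => ℘[L] (z + a)) = ℘[L] ∘ fun z : ℂ => z + a := rfl
  rw [h4, h3.deriv, mul_one]

/-- a double zero. -/
theorem two_le_order_sh {a c x : ℂ} (hx : x + a ∉ L.lattice) (hval : ℘[L] (x + a) = c)
    (hder : ℘'[L] (x + a) = 0) : (2 : WithTop ℤ) ≤ meromorphicOrderAt (sh L a c) x := by
  have han := analyticAt_sh L (c := c) hx
  rw [han.meromorphicOrderAt_eq]
  have h2 : (2 : ℕ∞) ≤ analyticOrderAt (sh L a c) x := by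
    have := (natCast_le_analyticOrderAt_iff_iteratedDeriv_eq_zero (n := 2) han).2 ?_
    · exact_mod_cast this
    intro i hi
    interval_cases i
    · simp [sh, hval]
    · rw [iteratedDeriv_one]
      have : deriv (sh L a c) x = deriv (fun z => ℘[L] (z + a)) x := by
        unfold sh
        rw [deriv_sub_const]
      rw [this, deriv_shift L hx, hder]
  exact ENat.monotone_map_iff.mpr Nat.mono_cast h2

end Fermat.Agent.M15.EllHalf8

namespace Fermat.Agent.M15.EllHalf8

open PeriodPair Fermat.Agent.M15.EllLiouville8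

variable (L : PeriodPair)

theorem sh_periodic (a c : ℂ) (l : ℂ) (hl : l ∈ L.lattice) (z : ℂ) :
    sh L a c (z + l) = sh L a c z := by
  unfold sh
  have : z + l + a = z + a + l := by ring
  rw [this, L.weierstrassP_add_coe (z + a) ⟨l, hl⟩]

/-- `w` is a half period: `w ∉ L`, `w + w ∈ L`. -/
structure IsHalf (w : ℂ) : Prop where
  notMem : w ∉ L.lattice
  two : w + w ∈ L.lattice

variable {L}

theorem IsHalf.deriv_eq_zero {w : ℂ} (hw : IsHalf L w) : ℘'[L] w = 0 := by
  have h1 : ℘'[L] (-w) = ℘'[L] w := by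
    have := L.derivWeierstrassP_sub_coe w ⟨w + w, hw.two⟩
    rw [← this]
    congr 1
    simp
  have h2 := L.derivWeierstrassP_neg w
  rw [h1] at h2
  have : (2 : ℂ) * ℘'[L] w = 0 := by linear_combination h2
  simpa using this

theorem IsHalf.wP_neg_add {w : ℂ} (hw : IsHalf L w) {x : ℂ} (hx : x + w ∈ L.lattice) :
    ℘[L] x = ℘[L] w ∧ ℘'[L] x = 0 ∧ x ∉ L.lattice := by
  refine ⟨?_, ?_, ?_⟩
  · have := L.weierstrassP_add_coe (-w) ⟨x + w, hx⟩
    rw [L.weierstrassP_neg] at this
    rw [← this]; congr 1; simp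
  · have := L.derivWeierstrassP_add_coe (-w) ⟨x + w, hx⟩
    rw [L.derivWeierstrassP_neg, hw.deriv_eq_zero, neg_zero] at this
    rw [← this]; congr 1; simp
  · intro hxl
    exact hw.notMem (by simpa using L.lattice.sub_mem hx hxl)

theorem IsHalf.wP_add {w : ℂ} (hw : IsHalf L w) {x : ℂ} (hx : x ∈ L.lattice) :
    ℘[L] (x + w) = ℘[L] w ∧ ℘'[L] (x + w) = 0 ∧ x + w ∉ L.lattice := by
  refine ⟨?_, ?_, ?_⟩
  · rw [add_comm]; exact L.weierstrassP_add_coe w ⟨x, hx⟩
  · rw [add_comm, L.derivWeierstrassP_add_coe w ⟨x, hx⟩, hw.deriv_eq_zero]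
  · intro hxl
    exact hw.notMem (by simpa using L.lattice.sub_mem hxl hx)

/-- the product `(℘ z - ℘ w) (℘ (z + w) - ℘ w)` for a half period `w`. -/
def halfProd (L : PeriodPair) (w : ℂ) : ℂ → ℂ := sh L 0 (℘[L] w) * sh L w (℘[L] w)

theorem halfProd_apply (w z : ℂ) :
    halfProd L w z = (℘[L] z - ℘[L] w) * (℘[L] (z + w) - ℘[L] w) := by
  simp [halfProd, sh]

theorem meromorphicAt_halfProd (w x : ℂ) : MeromorphicAt (halfProd L w) x :=
  (meromorphicAt_sh L 0 _ x).mul (meromorphicAt_sh L w _ x)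

theorem order_halfProd {w : ℂ} (x : ℂ) :
    meromorphicOrderAt (halfProd L w) x =
      meromorphicOrderAt (sh L 0 (℘[L] w)) x + meromorphicOrderAt (sh L w (℘[L] w)) x :=
  meromorphicOrderAt_mul (meromorphicAt_sh L 0 _ x) (meromorphicAt_sh L w _ x)

theorem neg_two_add_nonneg {n : WithTop ℤ} (hn : (2 : WithTop ℤ) ≤ n) :
    (0 : WithTop ℤ) ≤ ((-2 : ℤ) : WithTop ℤ) + n := by
  induction n using WithTop.recTopCoe with
  | top => simp
  | coe n =>
    have h2 : (2 : ℤ) ≤ n := by
      have : ((2 : ℤ) : WithTop ℤ) ≤ (n : WithTop ℤ) := hn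
      exact WithTop.coe_le_coe.1 this
    have : (0 : ℤ) ≤ -2 + n := by omega
    have h3 : ((0 : ℤ) : WithTop ℤ) ≤ ((-2 + n : ℤ) : WithTop ℤ) := WithTop.coe_le_coe.2 this
    simpa using h3

theorem order_halfProd_nonneg {w : ℂ} (hw : IsHalf L w) (x : ℂ) :
    0 ≤ meromorphicOrderAt (halfProd L w) x := by
  rw [order_halfProd]
  by_cases h1 : x ∈ L.lattice
  · have h1' : x + 0 ∈ L.lattice := by simpa using h1
    obtain ⟨hv, hd, hn⟩ := hw.wP_add h1
    rw [order_sh_pole L h1']
    exact neg_two_add_nonneg (two_le_order_sh L hn hv hd)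
  · by_cases h2 : x + w ∈ L.lattice
    · obtain ⟨hv, hd, hn⟩ := hw.wP_neg_add h2
      rw [order_sh_pole L h2, add_comm]
      have hn' : x + 0 ∉ L.lattice := by simpa using hn
      exact neg_two_add_nonneg (two_le_order_sh L hn' (by simpa using hv) (by simpa using hd))
    · have h1' : x + 0 ∉ L.lattice := by simpa using h1
      exact add_nonneg (analyticAt_sh L h1').meromorphicOrderAt_nonneg
        (analyticAt_sh L h2).meromorphicOrderAt_nonneg

theorem halfProd_periodic (w : ℂ) (l : ℂ) (hl : l ∈ L.lattice) (z : ℂ) :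
    halfProd L w (z + l) = halfProd L w z := by
  simp only [halfProd, Pi.mul_apply, sh_periodic L _ _ l hl]

theorem analyticAt_halfProd {w x : ℂ} (h1 : x ∉ L.lattice) (h2 : x + w ∉ L.lattice) :
    AnalyticAt ℂ (halfProd L w) x := by
  have h1' : x + 0 ∉ L.lattice := by simpa using h1
  exact (analyticAt_sh L h1').mul (analyticAt_sh L h2)

/-- the set of `x` with `x + a ∉ L` is a neighbourhood of each of its points. -/
theorem eventually_add_notMem {a x : ℂ} (hx : x + a ∉ L.lattice) :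
    ∀ᶠ z in 𝓝 x, z + a ∉ L.lattice := by
  have h := L.isClosed_lattice.isOpen_compl.mem_nhds hx
  have hc : ContinuousAt (fun z : ℂ => z + a) x := by fun_prop
  exact hc.eventually h

theorem eventually_ne_notMem (x : ℂ) : ∀ᶠ z in 𝓝[≠] x, z ∉ L.lattice := by
  have h := L.compl_lattice_sdiff_singleton_mem_nhds x
  filter_upwards [mem_nhdsWithin_of_mem_nhds h, self_mem_nhdsWithin] with z hz hzx
  intro hzl
  exact hz ⟨hzl, hzx⟩

theorem eventually_ne_add_notMem (a x : ℂ) : ∀ᶠ z in 𝓝[≠] x, z + a ∉ L.lattice := by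
  have h := eventually_ne_notMem (L := L) (x + a)
  have hshift : Tendsto (fun u : ℂ => u + a) (𝓝[≠] x) (𝓝[≠] (x + a)) := by
    refine tendsto_nhdsWithin_of_tendsto_nhds_of_eventually_within _ ?_ ?_
    · exact (continuous_id.add continuous_const).continuousAt.tendsto.mono_left
        nhdsWithin_le_nhds
    · filter_upwards [self_mem_nhdsWithin] with u hu
      simpa using hu
  exact hshift.eventually h

/-- `sh` is nowhere locally zero. -/
theorem order_sh_ne_top (a c x : ℂ) : meromorphicOrderAt (sh L a c) x ≠ ⊤ := by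
  have hmer : MeromorphicOn (sh L a c) Set.univ := fun y _ => meromorphicAt_sh L a c y
  have h0 : meromorphicOrderAt (sh L a c) (-a) ≠ ⊤ := by
    rw [order_sh_pole L (by simp : -a + a ∈ L.lattice)]
    exact WithTop.coe_ne_top
  exact hmer.meromorphicOrderAt_ne_top_of_isPreconnected (x := -a) (y := x)
    isPreconnected_univ (Set.mem_univ _) (Set.mem_univ _) h0

/-- **The half-period identity**: `(℘ z - ℘ w) (℘ (z + w) - ℘ w)` is a nonzero constant. -/
theorem exists_halfProd_const {w : ℂ} (hw : IsHalf L w) :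
    ∃ c : ℂ, c ≠ 0 ∧ ∀ z, z ∉ L.lattice → z + w ∉ L.lattice →
      (℘[L] z - ℘[L] w) * (℘[L] (z + w) - ℘[L] w) = c := by
  obtain ⟨c, hc⟩ := exists_const_of_periodic L (fun x => meromorphicAt_halfProd w x)
    (fun l hl z => halfProd_periodic w l hl z) (order_halfProd_nonneg hw)
  refine ⟨c, ?_, fun z h1 h2 => ?_⟩
  · rintro rfl
    have h0 : meromorphicOrderAt (halfProd L w) 0 = ⊤ := by
      rw [meromorphicOrderAt_eq_top_iff]
      filter_upwards [eventually_ne_notMem (L := L) 0, eventually_ne_add_notMem (L := L) w 0]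
        with z h1 h2
      exact hc z (analyticAt_halfProd h1 h2)
    rw [order_halfProd, WithTop.add_eq_top] at h0
    rcases h0 with h0 | h0
    · exact order_sh_ne_top _ _ _ h0
    · exact order_sh_ne_top _ _ _ h0
  · rw [← halfProd_apply]
    exact hc z (analyticAt_halfProd h1 h2)

/-- injectivity at half periods. -/
theorem IsHalf.wP_ne {w : ℂ} (hw : IsHalf L w) {z : ℂ} (h1 : z ∉ L.lattice)
    (h2 : z + w ∉ L.lattice) : ℘[L] z ≠ ℘[L] w := by
  obtain ⟨c, hc0, hc⟩ := exists_halfProd_const hw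
  intro h
  apply hc0
  rw [← hc z h1 h2, h, sub_self, zero_mul]

end Fermat.Agent.M15.EllHalf8
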