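import Mathlib
import Fermat.Agent.M15.EllHalf8

/-!
# M15 (AN), file 3: the sublattice `L' = ℤ ω₁/p + ℤ ω₂ ⊇ L` and the product formula

`(℘_{L'} z - ℘_{L'} w) ∏_{r=1}^{p-1} (℘_L (r ω₁/p) - ℘_L w) = ∏_{r=0}^{p-1} (℘_L (z + r ω₁/p) - ℘_L w)`

for a half period `w` of `L` and `p` odd.
-/

set_option autoImplicit false
set_option linter.unusedSectionVars false
set_option linter.unusedVariables false

open Filter Topology

noncomputable section

namespace Fermat.Agent.M15.EllSub8

open PeriodPair Fermat.Agent.M15.EllLiouville8 Fermat.Agent.M15.EllHalf8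

variable (L : PeriodPair) (p : ℕ) [NeZero p]

/-- the period pair `(ω₁/p, ω₂)`. -/
def subPair : PeriodPair where
  ω₁ := L.ω₁ / p
  ω₂ := L.ω₂
  indep := by
    have hp : (p : ℝ) ≠ 0 := Nat.cast_ne_zero.2 (NeZero.ne p)
    have hpc : (p : ℂ) ≠ 0 := Nat.cast_ne_zero.2 (NeZero.ne p)
    rw [LinearIndependent.pair_iff]
    intro s t h
    have h1 := LinearIndependent.pair_iff.mp L.indep (s / p) t (by
      rw [← h]
      simp only [Complex.real_smul, Complex.ofReal_div, Complex.ofReal_natCast]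
      field_simp)
    refine ⟨?_, h1.2⟩
    have := h1.1
    rw [div_eq_zero_iff] at this
    exact this.resolve_right hp

/-- the generator `ω₁/p` of the kernel. -/
def aa : ℂ := L.ω₁ / p

@[simp] theorem subPair_ω₁ : (subPair L p).ω₁ = aa L p := rfl
@[simp] theorem subPair_ω₂ : (subPair L p).ω₂ = L.ω₂ := rfl

theorem natCast_mul_aa : (p : ℂ) * aa L p = L.ω₁ := by
  have hpc : (p : ℂ) ≠ 0 := Nat.cast_ne_zero.2 (NeZero.ne p)
  unfold aa; field_simp

theorem aa_mem : aa L p ∈ (subPair L p).lattice := (subPair L p).ω₁_mem_lattice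

theorem lattice_le : L.lattice ≤ (subPair L p).lattice := by
  intro x hx
  obtain ⟨m, n, rfl⟩ := mem_lattice.mp hx
  refine mem_lattice.mpr ⟨m * p, n, ?_⟩
  simp only [subPair_ω₁, subPair_ω₂, Int.cast_mul, Int.cast_natCast]
  rw [mul_assoc, natCast_mul_aa]

/-- `t • (ω₁/p) ∈ L ↔ p ∣ t`. -/
theorem intCast_mul_aa_mem_iff (t : ℤ) : (t : ℂ) * aa L p ∈ L.lattice ↔ (p : ℤ) ∣ t := by
  have hp : (p : ℚ) ≠ 0 := Nat.cast_ne_zero.2 (NeZero.ne p)
  have hpc : (p : ℂ) ≠ 0 := Nat.cast_ne_zero.2 (NeZero.ne p)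
  have h := L.mul_ω₁_add_mul_ω₂_mem_lattice (α := (t : ℚ) / p) (β := 0)
  have e : (((t : ℚ) / p : ℚ) : ℂ) * L.ω₁ + ((0 : ℚ) : ℂ) * L.ω₂ = (t : ℂ) * aa L p := by
    unfold aa; push_cast; field_simp; ring
  rw [e] at h
  rw [h]
  constructor
  · rintro ⟨h1, -⟩
    have h2 : (((t : ℚ) / p).num : ℚ) = (t : ℚ) / p := by
      conv_rhs => rw [← Rat.num_div_den ((t : ℚ) / p)]
      rw [h1]; simp
    refine ⟨((t : ℚ) / p).num, ?_⟩
    have : (t : ℚ) = (p : ℚ) * (((t : ℚ) / p).num : ℚ) := by rw [h2]; field_simp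
    exact_mod_cast this
  · rintro ⟨q, rfl⟩
    refine ⟨?_, by simp⟩
    have : (((p : ℤ) * q : ℤ) : ℚ) / p = (q : ℚ) := by push_cast; field_simp
    rw [this]; simp

/-- every element of `L'` is congruent mod `L` to `-r ω₁/p` with `r < p`. -/
theorem exists_add_mem {x : ℂ} (hx : x ∈ (subPair L p).lattice) :
    ∃ r : ℕ, r < p ∧ x + (r : ℂ) * aa L p ∈ L.lattice := by
  obtain ⟨m, n, rfl⟩ := mem_lattice.mp hx
  have hp : (0 : ℤ) < p := by exact_mod_cast Nat.pos_of_ne_zero (NeZero.ne p)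
  refine ⟨((-m) % p).toNat, ?_, ?_⟩
  · have h1 := Int.emod_lt_of_pos (-m) hp
    have h2 := Int.emod_nonneg (-m) hp.ne'
    omega
  · have h2 := Int.emod_nonneg (-m) hp.ne'
    have h3 : (((-m) % p).toNat : ℤ) = (-m) % p := Int.toNat_of_nonneg h2
    obtain ⟨q, hq⟩ : (p : ℤ) ∣ m + (-m) % p := by
      have := Int.emod_add_mul_ediv (-m) p   -- (-m) % p + p * ((-m)/p) = -m
      exact ⟨-((-m) / p), by linarith⟩
    refine mem_lattice.mpr ⟨q, n, ?_⟩
    have h4 : ((((-m) % p).toNat : ℕ) : ℂ) = (((-m) % p : ℤ) : ℂ) := by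
      have := congrArg (fun z : ℤ => (z : ℂ)) h3
      rw [← this]
      exact (Int.cast_natCast _).symm
    simp only [subPair_ω₁, subPair_ω₂]
    rw [h4]
    have h5 : ((m : ℂ) + (((-m) % p : ℤ) : ℂ)) = (p : ℂ) * (q : ℂ) := by
      have := congrArg (fun z : ℤ => (z : ℂ)) hq
      simpa using this
    have h6 := natCast_mul_aa L p
    linear_combination (-(aa L p)) * h5 + (-(q : ℂ)) * h6

variable {L p}

/-- for `p` odd and `w` a half period of `L`: `w + t ω₁/p ∉ L` for every integer `t`. -/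
theorem add_intCast_mul_aa_notMem (hp : Odd p) {w : ℂ} (hw : IsHalf L w) (t : ℤ) :
    w + (t : ℂ) * aa L p ∉ L.lattice := by
  intro h
  have h2 : (w + t * aa L p) + (w + t * aa L p) ∈ L.lattice := add_mem h h
  have h3 : ((2 * t : ℤ) : ℂ) * aa L p ∈ L.lattice := by
    have : ((2 * t : ℤ) : ℂ) * aa L p = (w + t * aa L p + (w + t * aa L p)) - (w + w) := by
      push_cast; ring
    rw [this]; exact sub_mem h2 hw.two
  rw [intCast_mul_aa_mem_iff] at h3
  have h4 : (p : ℤ) ∣ t := by
    have hc : IsCoprime (p : ℤ) 2 := by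
      have : Nat.Coprime p 2 := Nat.coprime_two_right.2 hp
      exact_mod_cast Nat.isCoprime_iff_coprime.2 this
    exact hc.dvd_of_dvd_mul_left h3
  have h5 := (intCast_mul_aa_mem_iff L p t).2 h4
  exact hw.notMem (by simpa using sub_mem h h5)

theorem natCast_mul_aa_notMem {r : ℕ} (h0 : 0 < r) (hr : r < p) :
    (r : ℂ) * aa L p ∉ L.lattice := by
  intro h
  have := (intCast_mul_aa_mem_iff L p (r : ℤ)).1 (by simpa using h)
  have h2 : p ∣ r := by exact_mod_cast this
  exact absurd (Nat.le_of_dvd h0 h2) (not_le.2 hr)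

theorem isHalf_subPair (hp : Odd p) {w : ℂ} (hw : IsHalf L w) : IsHalf (subPair L p) w := by
  refine ⟨fun h => ?_, lattice_le L p hw.two⟩
  obtain ⟨r, -, hr⟩ := exists_add_mem L p h
  exact add_intCast_mul_aa_notMem hp hw r (by simpa using hr)

variable (L p)

/-- the product over a coset of the kernel. -/
def cosetProd (b c : ℂ) : ℂ → ℂ := ∏ r ∈ Finset.range p, sh L (b + r * aa L p) c

theorem cosetProd_apply (b c z : ℂ) :
    cosetProd L p b c z = ∏ r ∈ Finset.range p, (℘[L] (z + (b + r * aa L p)) - c) := by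
  simp [cosetProd, sh, Finset.prod_apply]

theorem cosetProd_add_mem (b c : ℂ) {l : ℂ} (hl : l ∈ L.lattice) (z : ℂ) :
    cosetProd L p b c (z + l) = cosetProd L p b c z := by
  simp only [cosetProd, Finset.prod_apply, sh_periodic L _ _ l hl]

theorem cosetProd_add_aa (b c z : ℂ) :
    cosetProd L p b c (z + aa L p) = cosetProd L p b c z := by
  have hp0 : 0 < p := Nat.pos_of_ne_zero (NeZero.ne p)
  rw [cosetProd_apply, cosetProd_apply]
  set f : ℕ → ℂ := fun r => ℘[L] (z + (b + r * aa L p)) - c with hf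
  have h1 : ∀ r : ℕ, ℘[L] (z + aa L p + (b + r * aa L p)) - c = f (r + 1) := by
    intro r
    simp only [hf]
    congr 2
    push_cast; ring
  have hfp : f p = f 0 := by
    simp only [hf]
    congr 1
    have : z + (b + (p : ℂ) * aa L p) = z + (b + ((0 : ℕ) : ℂ) * aa L p) + L.ω₁ := by
      rw [natCast_mul_aa]; push_cast; ring
    rw [this]
    exact L.weierstrassP_add_coe _ ⟨L.ω₁, L.ω₁_mem_lattice⟩
  calc ∏ r ∈ Finset.range p, (℘[L] (z + aa L p + (b + r * aa L p)) - c)
      = ∏ r ∈ Finset.range p, f (r + 1) := Finset.prod_congr rfl fun r _ => h1 r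
    _ = ∏ r ∈ Finset.Ico 1 (p + 1), f r := by
        rw [Finset.range_eq_Ico, ← Finset.prod_Ico_add' f 0 p 1]
    _ = (∏ r ∈ Finset.Ico 1 p, f r) * f p := Finset.prod_Ico_succ_top hp0 f
    _ = f 0 * ∏ r ∈ Finset.Ico 1 p, f r := by rw [hfp, mul_comm]
    _ = ∏ r ∈ Finset.range p, f r := by
        rw [Finset.range_eq_Ico, Finset.prod_eq_prod_Ico_succ_bot hp0]

theorem cosetProd_add_natCast_mul_aa (b c z : ℂ) (r : ℕ) :
    cosetProd L p b c (z + r * aa L p) = cosetProd L p b c z := by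
  induction r with
  | zero => simp
  | succ r ih =>
    have : z + ((r + 1 : ℕ) : ℂ) * aa L p = (z + r * aa L p) + aa L p := by push_cast; ring
    rw [this, cosetProd_add_aa, ih]

theorem cosetProd_periodic (b c : ℂ) {l : ℂ} (hl : l ∈ (subPair L p).lattice) (z : ℂ) :
    cosetProd L p b c (z + l) = cosetProd L p b c z := by
  obtain ⟨r, -, hr⟩ := exists_add_mem L p hl
  rw [← cosetProd_add_natCast_mul_aa L p b c (z + l) r]
  have : z + l + r * aa L p = z + (l + r * aa L p) := by ring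
  rw [this, cosetProd_add_mem L p b c hr]

theorem meromorphicAt_cosetProd (b c x : ℂ) : MeromorphicAt (cosetProd L p b c) x :=
  MeromorphicAt.prod fun r _ => meromorphicAt_sh L _ c x

theorem order_cosetProd (b c x : ℂ) :
    meromorphicOrderAt (cosetProd L p b c) x =
      ∑ r ∈ Finset.range p, meromorphicOrderAt (sh L (b + r * aa L p) c) x :=
  meromorphicOrderAt_prod fun r _ => meromorphicAt_sh L _ c x

/-- the function `Θ(z) = (℘_{L'} z - ℘_{L'} w) ∏_r (℘_L (z + w + r ω₁/p) - ℘_L w)`. -/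
def theta (w : ℂ) : ℂ → ℂ :=
  sh (subPair L p) 0 (℘[subPair L p] w) * cosetProd L p w (℘[L] w)

theorem meromorphicAt_theta (w x : ℂ) : MeromorphicAt (theta L p w) x :=
  (meromorphicAt_sh _ 0 _ x).mul (meromorphicAt_cosetProd L p w _ x)

theorem theta_periodic (w : ℂ) {l : ℂ} (hl : l ∈ (subPair L p).lattice) (z : ℂ) :
    theta L p w (z + l) = theta L p w z := by
  simp only [theta, Pi.mul_apply, sh_periodic (subPair L p) _ _ l hl,
    cosetProd_periodic L p _ _ hl]

theorem order_theta (w x : ℂ) :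
    meromorphicOrderAt (theta L p w) x =
      meromorphicOrderAt (sh (subPair L p) 0 (℘[subPair L p] w)) x +
        ∑ r ∈ Finset.range p, meromorphicOrderAt (sh L (w + r * aa L p) (℘[L] w)) x := by
  rw [theta, meromorphicOrderAt_mul (meromorphicAt_sh _ 0 _ x) (meromorphicAt_cosetProd L p w _ x),
    order_cosetProd]

variable {L p}

theorem two_le_add_of {a b : WithTop ℤ} (ha : (2 : WithTop ℤ) ≤ a) (hb : 0 ≤ b) :
    (0 : WithTop ℤ) ≤ ((-2 : ℤ) : WithTop ℤ) + (a + b) := by
  rw [← add_assoc]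
  exact add_nonneg (neg_two_add_nonneg ha) hb

theorem order_theta_nonneg (hp : Odd p) {w : ℂ} (hw : IsHalf L w) (x : ℂ) :
    0 ≤ meromorphicOrderAt (theta L p w) x := by
  have hw' := isHalf_subPair hp hw
  rw [order_theta]
  by_cases h1 : x ∈ (subPair L p).lattice
  · -- case 1
    obtain ⟨r₀, hr₀, hx₀⟩ := exists_add_mem L p h1
    have hpole : meromorphicOrderAt (sh (subPair L p) 0 (℘[subPair L p] w)) x = (-2 : ℤ) :=
      order_sh_pole _ (by simpa using h1)
    -- no factor has a pole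
    have hnm : ∀ r : ℕ, x + (w + r * aa L p) ∉ L.lattice := by
      intro r hr
      have e : x + (w + r * aa L p) - (x + r₀ * aa L p) = w + ((r - r₀ : ℤ) : ℂ) * aa L p := by
        push_cast; ring
      have := sub_mem hr hx₀
      rw [e] at this
      exact add_intCast_mul_aa_notMem hp hw _ this
    have hnn : ∀ r ∈ Finset.range p,
        0 ≤ meromorphicOrderAt (sh L (w + r * aa L p) (℘[L] w)) x := fun r _ =>
      (analyticAt_sh L (hnm r)).meromorphicOrderAt_nonneg
    have hr₀' : r₀ ∈ Finset.range p := Finset.mem_range.2 hr₀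
    have e0 : x + (w + r₀ * aa L p) = (x + r₀ * aa L p) + w := by ring
    obtain ⟨hv, hd, hn⟩ := hw.wP_add hx₀
    have h2 : (2 : WithTop ℤ) ≤ meromorphicOrderAt (sh L (w + r₀ * aa L p) (℘[L] w)) x :=
      two_le_order_sh L (hnm r₀) (by rw [e0]; exact hv) (by rw [e0]; exact hd)
    rw [hpole, ← Finset.add_sum_erase _ _ hr₀']
    exact two_le_add_of h2 (Finset.sum_nonneg fun r hr => hnn r (Finset.mem_of_mem_erase hr))
  · by_cases h2 : x + w ∈ (subPair L p).lattice
    · -- case 2
      obtain ⟨r₁, hr₁, hx₁⟩ := exists_add_mem L p h2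
      obtain ⟨hv, hd, hn⟩ := hw'.wP_neg_add h2
      have hzero : (2 : WithTop ℤ) ≤
          meromorphicOrderAt (sh (subPair L p) 0 (℘[subPair L p] w)) x :=
        two_le_order_sh _ (by simpa using hn) (by simpa using hv) (by simpa using hd)
      have hr₁' : r₁ ∈ Finset.range p := Finset.mem_range.2 hr₁
      have hpole : meromorphicOrderAt (sh L (w + r₁ * aa L p) (℘[L] w)) x = (-2 : ℤ) :=
        order_sh_pole L (by
          have : x + (w + r₁ * aa L p) = x + w + r₁ * aa L p := by ring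
          rw [this]; exact hx₁)
      have hnn : ∀ r ∈ (Finset.range p).erase r₁,
          0 ≤ meromorphicOrderAt (sh L (w + r * aa L p) (℘[L] w)) x := by
        intro r hr
        have hrne : r ≠ r₁ := Finset.ne_of_mem_erase hr
        have hrp : r < p := Finset.mem_range.1 (Finset.mem_of_mem_erase hr)
        refine (analyticAt_sh L ?_).meromorphicOrderAt_nonneg
        intro hmem
        have e : x + (w + r * aa L p) - (x + w + r₁ * aa L p) = ((r - r₁ : ℤ) : ℂ) * aa L p := by
          push_cast; ring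
        have := sub_mem hmem hx₁
        rw [e, intCast_mul_aa_mem_iff] at this
        have : ((r : ℤ) - r₁) = 0 := by
          apply Int.eq_zero_of_abs_lt_dvd this
          rw [abs_lt]
          constructor <;> omega
        exact hrne (by omega)
      rw [← Finset.add_sum_erase _ _ hr₁', hpole]
      have := two_le_add_of hzero (Finset.sum_nonneg hnn)
      calc (0 : WithTop ℤ) ≤ _ := this
        _ = _ := by abel
    · -- case 3
      have hnm : ∀ r : ℕ, x + (w + r * aa L p) ∉ L.lattice := by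
        intro r hr
        apply h2
        have h3 : (r : ℂ) * aa L p ∈ (subPair L p).lattice := by
          have := (subPair L p).lattice.smul_mem (r : ℤ) (aa_mem L p)
          simpa using this
        have : x + w = x + (w + r * aa L p) - r * aa L p := by ring
        rw [this]
        exact sub_mem (lattice_le L p hr) h3
      refine add_nonneg (analyticAt_sh _ (by simpa using h1)).meromorphicOrderAt_nonneg
        (Finset.sum_nonneg fun r _ => (analyticAt_sh L (hnm r)).meromorphicOrderAt_nonneg)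

theorem add_notMem_of {x w : ℂ} (hx : x + w ∉ (subPair L p).lattice) (r : ℕ) :
    x + (w + r * aa L p) ∉ L.lattice := by
  intro hr
  apply hx
  have h3 : (r : ℂ) * aa L p ∈ (subPair L p).lattice := by
    have := (subPair L p).lattice.smul_mem (r : ℤ) (aa_mem L p)
    simpa using this
  have : x + w = x + (w + r * aa L p) - r * aa L p := by ring
  rw [this]
  exact sub_mem (lattice_le L p hr) h3

theorem analyticAt_cosetProd {b c x : ℂ} (h : ∀ r : ℕ, x + (b + r * aa L p) ∉ L.lattice) :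
    AnalyticAt ℂ (cosetProd L p b c) x :=
  Finset.analyticAt_prod _ fun r _ => analyticAt_sh L (h r)

theorem analyticAt_theta {w x : ℂ} (h1 : x ∉ (subPair L p).lattice)
    (h2 : x + w ∉ (subPair L p).lattice) : AnalyticAt ℂ (theta L p w) x :=
  (analyticAt_sh _ (by simpa using h1)).mul (analyticAt_cosetProd (add_notMem_of h2))

theorem theta_apply (w z : ℂ) :
    theta L p w z = (℘[subPair L p] z - ℘[subPair L p] w) * cosetProd L p w (℘[L] w) z := by
  simp [theta, sh]

theorem exists_theta_const (hp : Odd p) {w : ℂ} (hw : IsHalf L w) :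
    ∃ K : ℂ, ∀ z, z ∉ (subPair L p).lattice → z + w ∉ (subPair L p).lattice →
      theta L p w z = K := by
  obtain ⟨K, hK⟩ := exists_const_of_periodic (subPair L p) (fun x => meromorphicAt_theta L p w x)
    (fun l hl z => theta_periodic L p w hl z) (order_theta_nonneg hp hw)
  exact ⟨K, fun z h1 h2 => hK z (analyticAt_theta h1 h2)⟩

theorem cosetProd_mul {w c : ℂ}
    (hc : ∀ z, z ∉ L.lattice → z + w ∉ L.lattice →
      (℘[L] z - ℘[L] w) * (℘[L] (z + w) - ℘[L] w) = c)
    {z : ℂ} (hz : z ∉ (subPair L p).lattice) (hzw : z + w ∉ (subPair L p).lattice) :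
    cosetProd L p 0 (℘[L] w) z * cosetProd L p w (℘[L] w) z = c ^ p := by
  rw [cosetProd_apply, cosetProd_apply, ← Finset.prod_mul_distrib]
  have hz0 : z + 0 ∉ (subPair L p).lattice := by simpa using hz
  have : ∀ r ∈ Finset.range p,
      (℘[L] (z + (0 + r * aa L p)) - ℘[L] w) * (℘[L] (z + (w + r * aa L p)) - ℘[L] w) = c := by
    intro r _
    have e : z + (w + r * aa L p) = z + (0 + r * aa L p) + w := by ring
    rw [e]
    refine hc _ (add_notMem_of hz0 r) ?_
    rw [← e]
    exact add_notMem_of hzw r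
  rw [Finset.prod_congr rfl this, Finset.prod_const, Finset.card_range]

theorem tendsto_sq_mul_wP (L : PeriodPair) (c : ℂ) :
    Tendsto (fun z => z ^ 2 * (℘[L] z - c)) (𝓝[≠] 0) (𝓝 1) := by
  have hcont : ContinuousAt (fun z : ℂ => z ^ 2 * ℘[L - (0 : ℂ)] z + 1 - z ^ 2 * c) 0 := by
    have := (L.analyticAt_weierstrassPExcept 0).continuousAt
    fun_prop
  have h1 : Tendsto (fun z : ℂ => z ^ 2 * ℘[L - (0 : ℂ)] z + 1 - z ^ 2 * c) (𝓝[≠] 0) (𝓝 1) := by
    have := hcont.tendsto.mono_left (nhdsWithin_le_nhds (s := {0}ᶜ))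
    simpa using this
  refine h1.congr' ?_
  filter_upwards [self_mem_nhdsWithin] with z hz
  have hz0 : z ≠ 0 := hz
  have := L.ite_eq_one_sub_sq_mul_weierstrassP 0 (zero_mem _) z
  rw [if_neg hz0] at this
  simp only [sub_zero, ne_eq, OfNat.ofNat_ne_zero, not_false_eq_true, zero_pow, div_zero] at this
  rw [mul_sub, this]

theorem tendsto_sq_mul_cosetProd (c : ℂ) :
    Tendsto (fun z => z ^ 2 * cosetProd L p 0 c z) (𝓝[≠] 0)
      (𝓝 (∏ r ∈ Finset.Ico 1 p, (℘[L] (r * aa L p) - c))) := by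
  have hp0 : 0 < p := Nat.pos_of_ne_zero (NeZero.ne p)
  have e : ∀ z, z ^ 2 * cosetProd L p 0 c z =
      (z ^ 2 * (℘[L] z - c)) * ∏ r ∈ Finset.Ico 1 p, sh L (0 + r * aa L p) c z := by
    intro z
    rw [cosetProd, Finset.prod_apply, Finset.range_eq_Ico, Finset.prod_eq_prod_Ico_succ_bot hp0]
    simp only [sh_apply, Nat.cast_zero, zero_mul, add_zero, zero_add]
    ring
  simp_rw [e]
  have h1 := tendsto_sq_mul_wP L c
  have h2 : Tendsto (fun z => ∏ r ∈ Finset.Ico 1 p, sh L (0 + r * aa L p) c z) (𝓝[≠] 0)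
      (𝓝 (∏ r ∈ Finset.Ico 1 p, (℘[L] (r * aa L p) - c))) := by
    have h3 : Tendsto (fun z => ∏ r ∈ Finset.Ico 1 p, sh L (0 + r * aa L p) c z) (𝓝 0)
        (𝓝 (∏ r ∈ Finset.Ico 1 p, sh L (0 + r * aa L p) c 0)) := by
      refine tendsto_finsetProd _ fun r hr => ?_
      obtain ⟨hr1, hr2⟩ := Finset.mem_Ico.1 hr
      have hnm : (0 : ℂ) + (0 + r * aa L p) ∉ L.lattice := by
        simpa using natCast_mul_aa_notMem (L := L) (by omega : 0 < r) hr2
      exact (analyticAt_sh L hnm).continuousAt.tendsto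
    have h4 : ∏ r ∈ Finset.Ico 1 p, sh L (0 + r * aa L p) c 0 =
        ∏ r ∈ Finset.Ico 1 p, (℘[L] (r * aa L p) - c) := by
      refine Finset.prod_congr rfl fun r _ => ?_
      simp [sh_apply]
    rw [← h4]
    exact h3.mono_left nhdsWithin_le_nhds
  simpa using h1.mul h2

/-- **The product formula for the sublattice.** -/
theorem sub_wP_sub_mul (hp : Odd p) {w : ℂ} (hw : IsHalf L w) {z : ℂ}
    (hz : z ∉ (subPair L p).lattice) (hzw : z + w ∉ (subPair L p).lattice) :
    (℘[subPair L p] z - ℘[subPair L p] w) * ∏ r ∈ Finset.Ico 1 p, (℘[L] (r * aa L p) - ℘[L] w) =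
      ∏ r ∈ Finset.range p, (℘[L] (z + r * aa L p) - ℘[L] w) := by
  have hw' := isHalf_subPair hp hw
  obtain ⟨c, hc0, hc⟩ := exists_halfProd_const hw
  obtain ⟨K, hK⟩ := exists_theta_const hp hw
  set e' := ℘[subPair L p] w with he'
  set e := ℘[L] w with he
  set D := ∏ r ∈ Finset.Ico 1 p, (℘[L] (r * aa L p) - e) with hD
  -- the identity for all good points
  have key : ∀ z, z ∉ (subPair L p).lattice → z + w ∉ (subPair L p).lattice →
      (℘[subPair L p] z - e') * c ^ p = K * cosetProd L p 0 e z := by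
    intro z h1 h2
    have t1 := hK z h1 h2
    rw [theta_apply] at t1
    have t2 := cosetProd_mul hc h1 h2
    rw [← t2, ← t1]
    ring
  -- the limit at `0`
  have hlim : c ^ p = K * D := by
    have hev : ∀ᶠ z in 𝓝[≠] (0 : ℂ), z ^ 2 * (℘[subPair L p] z - e') * c ^ p =
        K * (z ^ 2 * cosetProd L p 0 e z) := by
      have ev1 := eventually_ne_notMem (L := subPair L p) 0
      have ev2 : ∀ᶠ z in 𝓝[≠] (0 : ℂ), z + w ∉ (subPair L p).lattice :=
        (eventually_add_notMem (L := subPair L p) (a := w) (x := 0)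
          (by simpa using hw'.notMem)).filter_mono nhdsWithin_le_nhds
      filter_upwards [ev1, ev2] with z h1 h2
      have := key z h1 h2
      linear_combination z ^ 2 * this
    have l1 : Tendsto (fun z => z ^ 2 * (℘[subPair L p] z - e') * c ^ p) (𝓝[≠] 0)
        (𝓝 (1 * c ^ p)) := (tendsto_sq_mul_wP (subPair L p) e').mul_const _
    have l2 : Tendsto (fun z => K * (z ^ 2 * cosetProd L p 0 e z)) (𝓝[≠] 0) (𝓝 (K * D)) :=
      (tendsto_sq_mul_cosetProd (L := L) (p := p) e).const_mul K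
    have := tendsto_nhds_unique_of_eventuallyEq l1 l2 hev
    simpa using this
  have hK0 : K ≠ 0 := by
    rintro rfl
    exact pow_ne_zero p hc0 (by simpa using hlim)
  have := key z hz hzw
  rw [hlim] at this
  have h3 : (℘[subPair L p] z - e') * D = cosetProd L p 0 e z := by
    apply mul_left_cancel₀ hK0
    linear_combination this
  rw [h3, cosetProd_apply]
  refine Finset.prod_congr rfl fun r _ => ?_
  simp

/-- the denominators do not vanish. -/
theorem prod_Ico_ne_zero (hp : Odd p) {w : ℂ} (hw : IsHalf L w) :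
    ∏ r ∈ Finset.Ico 1 p, (℘[L] (r * aa L p) - ℘[L] w) ≠ 0 := by
  rw [Finset.prod_ne_zero_iff]
  intro r hr
  obtain ⟨hr1, hr2⟩ := Finset.mem_Ico.1 hr
  rw [sub_ne_zero]
  refine hw.wP_ne (natCast_mul_aa_notMem (by omega) hr2) ?_
  rw [add_comm]
  exact add_intCast_mul_aa_notMem hp hw (r : ℤ) |> fun h => by simpa using h

end Fermat.Agent.M15.EllSub8
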