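import Mathlib
import Fermat.Agent.M15.EllSub8

/-!
# M15 (AN), file 4: `g₂³ - 27 g₃² = 16 ∏ (e_i - e_k)²` and the discriminant of the sublattice

`Δ(L') = Δ(L) · (∏_{i<k} ∏_{r=1}^{p-1} (e_k - ℘(w_i + r ω₁/p)) / (e_k - ℘(r ω₁/p)))²`
for `L' = ℤ ω₁/p + ℤ ω₂`, `p` odd.
-/

set_option autoImplicit false
set_option linter.unusedSectionVars false
set_option linter.unusedVariables false

open Filter Topology

noncomputable section

namespace Fermat.Agent.M15.EllDisc8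

open PeriodPair Fermat.Agent.M15.EllLiouville8 Fermat.Agent.M15.EllHalf8 Fermat.Agent.M15.EllSub8

variable (L : PeriodPair)

/-- the discriminant `g₂³ - 27 g₃²` of a period pair. -/
def discr : ℂ := L.g₂ ^ 3 - 27 * L.g₃ ^ 2

/-- three representatives of the three nonzero classes of `(½L)/L`. -/
structure HalfTriple (w : Fin 3 → ℂ) : Prop where
  half : ∀ i, IsHalf L (w i)
  add_notMem : ∀ i k, i ≠ k → w i + w k ∉ L.lattice

variable {L}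

theorem HalfTriple.cubic {w : Fin 3 → ℂ} (hw : HalfTriple L w) (i : Fin 3) :
    4 * ℘[L] (w i) ^ 3 - L.g₂ * ℘[L] (w i) - L.g₃ = 0 := by
  have h := L.derivWeierstrassP_sq (w i) (hw.half i).notMem
  rw [(hw.half i).deriv_eq_zero] at h
  linear_combination -h

theorem HalfTriple.ne {w : Fin 3 → ℂ} (hw : HalfTriple L w) {i k : Fin 3} (hik : i ≠ k) :
    ℘[L] (w i) ≠ ℘[L] (w k) :=
  (hw.half k).wP_ne (hw.half i).notMem (hw.add_notMem i k hik)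

theorem HalfTriple.add_isHalf {w : Fin 3 → ℂ} (hw : HalfTriple L w) {i k : Fin 3} (hik : i ≠ k) :
    IsHalf L (w i + w k) := by
  refine ⟨hw.add_notMem i k hik, ?_⟩
  have : w i + w k + (w i + w k) = (w i + w i) + (w k + w k) := by ring
  rw [this]
  exact add_mem (hw.half i).two (hw.half k).two

theorem vieta_aux {g2 g3 e0 e1 e2 : ℂ} (c0 : 4 * e0 ^ 3 - g2 * e0 - g3 = 0)
    (c1 : 4 * e1 ^ 3 - g2 * e1 - g3 = 0) (c2 : 4 * e2 ^ 3 - g2 * e2 - g3 = 0)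
    (n01 : e0 ≠ e1) (n02 : e0 ≠ e2) (n12 : e1 ≠ e2) :
    e0 + e1 + e2 = 0 ∧ g2 = 4 * (e0 ^ 2 + e0 * e1 + e1 ^ 2) ∧
      g3 = -4 * e0 * e1 * (e0 + e1) := by
  have n01' : e0 - e1 ≠ 0 := sub_ne_zero.2 n01
  have n02' : e0 - e2 ≠ 0 := sub_ne_zero.2 n02
  have n12' : e1 - e2 ≠ 0 := sub_ne_zero.2 n12
  have g01 : g2 = 4 * (e0 ^ 2 + e0 * e1 + e1 ^ 2) := by
    apply mul_left_cancel₀ n01'
    linear_combination c1 - c0
  have g02 : g2 = 4 * (e0 ^ 2 + e0 * e2 + e2 ^ 2) := by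
    apply mul_left_cancel₀ n02'
    linear_combination c2 - c0
  have hs : e0 + e1 + e2 = 0 := by
    apply mul_left_cancel₀ n12'
    linear_combination (1 / 4 : ℂ) * (g02 - g01)
  refine ⟨hs, g01, ?_⟩
  linear_combination (-1 : ℂ) * c0 - e0 * g01

theorem discr_aux {g2 g3 e0 e1 e2 : ℂ} (hs : e0 + e1 + e2 = 0)
    (h2 : g2 = 4 * (e0 ^ 2 + e0 * e1 + e1 ^ 2)) (h3 : g3 = -4 * e0 * e1 * (e0 + e1)) :
    g2 ^ 3 - 27 * g3 ^ 2 = 16 * ((e0 - e1) * (e0 - e2) * (e1 - e2)) ^ 2 := by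
  have e2' : e2 = -e0 - e1 := by linear_combination hs
  subst e2' h2 h3
  ring

/-- Vieta for the three half-period values. -/
theorem HalfTriple.vieta {w : Fin 3 → ℂ} (hw : HalfTriple L w) :
    ℘[L] (w 0) + ℘[L] (w 1) + ℘[L] (w 2) = 0 ∧
    L.g₂ = 4 * (℘[L] (w 0) ^ 2 + ℘[L] (w 0) * ℘[L] (w 1) + ℘[L] (w 1) ^ 2) ∧
    L.g₃ = -4 * ℘[L] (w 0) * ℘[L] (w 1) * (℘[L] (w 0) + ℘[L] (w 1)) :=
  vieta_aux (hw.cubic 0) (hw.cubic 1) (hw.cubic 2) (hw.ne (by decide)) (hw.ne (by decide))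
    (hw.ne (by decide))

theorem HalfTriple.discr_eq {w : Fin 3 → ℂ} (hw : HalfTriple L w) :
    discr L = 16 * ((℘[L] (w 0) - ℘[L] (w 1)) * (℘[L] (w 0) - ℘[L] (w 2)) *
      (℘[L] (w 1) - ℘[L] (w 2))) ^ 2 := by
  obtain ⟨hs, h2, h3⟩ := hw.vieta
  exact discr_aux hs h2 h3

theorem HalfTriple.discr_ne_zero {w : Fin 3 → ℂ} (hw : HalfTriple L w) : discr L ≠ 0 := by
  rw [hw.discr_eq]
  have n01 : ℘[L] (w 0) - ℘[L] (w 1) ≠ 0 := sub_ne_zero.2 (hw.ne (by decide))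
  have n02 : ℘[L] (w 0) - ℘[L] (w 2) ≠ 0 := sub_ne_zero.2 (hw.ne (by decide))
  have n12 : ℘[L] (w 1) - ℘[L] (w 2) ≠ 0 := sub_ne_zero.2 (hw.ne (by decide))
  exact mul_ne_zero (by norm_num) (pow_ne_zero 2 (mul_ne_zero (mul_ne_zero n01 n02) n12))

/-- the standard half periods. -/
def stdHalf (L : PeriodPair) : Fin 3 → ℂ := ![L.ω₁ / 2, L.ω₂ / 2, (L.ω₁ + L.ω₂) / 2]

theorem halfTriple_stdHalf (L : PeriodPair) : HalfTriple L (stdHalf L) := by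
  have key : ∀ α β : ℚ, ¬ (α.den = 1 ∧ β.den = 1) → (α : ℂ) * L.ω₁ + (β : ℂ) * L.ω₂ ∉ L.lattice :=
    fun α β h => (L.mul_ω₁_add_mul_ω₂_mem_lattice (α := α) (β := β)).not.mpr h
  have key' : ∀ α β : ℚ, (α.den = 1 ∧ β.den = 1) → (α : ℂ) * L.ω₁ + (β : ℂ) * L.ω₂ ∈ L.lattice :=
    fun α β h => (L.mul_ω₁_add_mul_ω₂_mem_lattice (α := α) (β := β)).mpr h
  have hhalf : (1 / 2 : ℚ).den ≠ 1 := by norm_num
  have h1 : L.ω₁ / 2 ∉ L.lattice := L.ω₁_div_two_notMem_lattice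
  have h2 : L.ω₂ / 2 ∉ L.lattice := L.ω₂_div_two_notMem_lattice
  have h3 : (L.ω₁ + L.ω₂) / 2 ∉ L.lattice := by
    have := key (1 / 2) (1 / 2) (fun h => hhalf h.1)
    have e : (L.ω₁ + L.ω₂) / 2 = ((1 / 2 : ℚ) : ℂ) * L.ω₁ + ((1 / 2 : ℚ) : ℂ) * L.ω₂ := by
      rw [Rat.cast_div, Rat.cast_one, Rat.cast_ofNat]
      ring
    rw [e]
    exact this
  have m1 : L.ω₁ / 2 + L.ω₁ / 2 ∈ L.lattice := by
    have : L.ω₁ / 2 + L.ω₁ / 2 = L.ω₁ := by ring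
    rw [this]; exact L.ω₁_mem_lattice
  have m2 : L.ω₂ / 2 + L.ω₂ / 2 ∈ L.lattice := by
    have : L.ω₂ / 2 + L.ω₂ / 2 = L.ω₂ := by ring
    rw [this]; exact L.ω₂_mem_lattice
  have m3 : (L.ω₁ + L.ω₂) / 2 + (L.ω₁ + L.ω₂) / 2 ∈ L.lattice := by
    have : (L.ω₁ + L.ω₂) / 2 + (L.ω₁ + L.ω₂) / 2 = L.ω₁ + L.ω₂ := by ring
    rw [this]; exact add_mem L.ω₁_mem_lattice L.ω₂_mem_lattice
  have s12 : L.ω₁ / 2 + L.ω₂ / 2 ∉ L.lattice := by
    have : L.ω₁ / 2 + L.ω₂ / 2 = (L.ω₁ + L.ω₂) / 2 := by ring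
    rw [this]; exact h3
  have s13 : L.ω₁ / 2 + (L.ω₁ + L.ω₂) / 2 ∉ L.lattice := by
    intro h
    apply h2
    have : L.ω₂ / 2 = L.ω₁ / 2 + (L.ω₁ + L.ω₂) / 2 - L.ω₁ := by ring
    rw [this]; exact sub_mem h L.ω₁_mem_lattice
  have s23 : L.ω₂ / 2 + (L.ω₁ + L.ω₂) / 2 ∉ L.lattice := by
    intro h
    apply h1
    have : L.ω₁ / 2 = L.ω₂ / 2 + (L.ω₁ + L.ω₂) / 2 - L.ω₂ := by ring
    rw [this]; exact sub_mem h L.ω₂_mem_lattice
  refine ⟨?_, ?_⟩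
  · intro i
    fin_cases i
    · exact ⟨h1, m1⟩
    · exact ⟨h2, m2⟩
    · exact ⟨h3, m3⟩
  · intro i k hik
    fin_cases i <;> fin_cases k <;> simp only [stdHalf] <;> first
      | exact absurd rfl hik
      | exact s12
      | exact s13
      | exact s23
      | (rw [add_comm]; first | exact s12 | exact s13 | exact s23)

/-! ### The sublattice -/

variable {p : ℕ} [NeZero p]

theorem halfTriple_subPair (hp : Odd p) {w : Fin 3 → ℂ} (hw : HalfTriple L w) :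
    HalfTriple (subPair L p) w :=
  ⟨fun i => isHalf_subPair hp (hw.half i),
    fun i k hik => (isHalf_subPair hp (hw.add_isHalf hik)).notMem⟩

/-- the analytic factor `∏_{r=1}^{p-1} (e_k - ℘(w_i + r ω₁/p)) / (e_k - ℘(r ω₁/p))`. -/
def anFactor (L : PeriodPair) (p : ℕ) (w : Fin 3 → ℂ) (i k : Fin 3) : ℂ :=
  ∏ r ∈ Finset.Icc 1 (p - 1),
    (℘[L] (w k) - ℘[L] (w i + r * (L.ω₁ / p))) / (℘[L] (w k) - ℘[L] (r * (L.ω₁ / p)))

/-- `e'_i - e'_k = (e_i - e_k) · anFactor i k`. -/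
theorem sub_eq_mul_anFactor (hp : Odd p) {w : Fin 3 → ℂ} (hw : HalfTriple L w) {i k : Fin 3}
    (hik : i ≠ k) :
    ℘[subPair L p] (w i) - ℘[subPair L p] (w k) =
      (℘[L] (w i) - ℘[L] (w k)) * anFactor L p w i k := by
  have hp0 : 0 < p := Nat.pos_of_ne_zero (NeZero.ne p)
  have hw' := halfTriple_subPair (p := p) hp hw
  have h := sub_wP_sub_mul (L := L) (p := p) hp (hw.half k) (z := w i) (hw'.half i).notMem
    (hw'.add_notMem i k hik)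
  have hD := prod_Ico_ne_zero (L := L) (p := p) hp (hw.half k)
  rw [Finset.range_eq_Ico, Finset.prod_eq_prod_Ico_succ_bot hp0] at h
  simp only [Nat.cast_zero, zero_mul, add_zero, zero_add] at h
  have hIcc : Finset.Icc 1 (p - 1) = Finset.Ico 1 p := by
    ext r
    simp only [Finset.mem_Icc, Finset.mem_Ico]
    omega
  have hF : anFactor L p w i k =
      (∏ r ∈ Finset.Ico 1 p, (℘[L] (w i + r * aa L p) - ℘[L] (w k))) /
        ∏ r ∈ Finset.Ico 1 p, (℘[L] (r * aa L p) - ℘[L] (w k)) := by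
    rw [anFactor, hIcc, ← Finset.prod_div_distrib]
    refine Finset.prod_congr rfl fun r _ => ?_
    show (℘[L] (w k) - ℘[L] (w i + r * aa L p)) / (℘[L] (w k) - ℘[L] (r * aa L p)) = _
    rw [← neg_sub (℘[L] (w i + r * aa L p)), ← neg_sub (℘[L] (r * aa L p)), neg_div_neg_eq]
  rw [hF, mul_div_assoc', eq_div_iff hD, h]

/-- **The discriminant of the sublattice** `L' = ℤ ω₁/p + ℤ ω₂`, `p` odd. -/
theorem discr_subPair (hp : Odd p) {w : Fin 3 → ℂ} (hw : HalfTriple L w) :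
    discr (subPair L p) =
      discr L * (anFactor L p w 0 1 * anFactor L p w 0 2 * anFactor L p w 1 2) ^ 2 := by
  have hw' := halfTriple_subPair (p := p) hp hw
  rw [hw'.discr_eq, hw.discr_eq, sub_eq_mul_anFactor hp hw (by decide : (0 : Fin 3) ≠ 1),
    sub_eq_mul_anFactor hp hw (by decide : (0 : Fin 3) ≠ 2),
    sub_eq_mul_anFactor hp hw (by decide : (1 : Fin 3) ≠ 2)]
  ring

theorem discr_subPair_ne_zero (hp : Odd p) {w : Fin 3 → ℂ} (hw : HalfTriple L w) :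
    discr (subPair L p) ≠ 0 := (halfTriple_subPair (p := p) hp hw).discr_ne_zero

/-- the symmetric form: the two orders of a pair give the same factor. -/
theorem anFactor_symm (hp : Odd p) {w : Fin 3 → ℂ} (hw : HalfTriple L w) {i k : Fin 3}
    (hik : i ≠ k) : anFactor L p w i k = anFactor L p w k i := by
  have h1 := sub_eq_mul_anFactor (p := p) hp hw hik
  have h2 := sub_eq_mul_anFactor (p := p) hp hw hik.symm
  have hne : ℘[L] (w i) - ℘[L] (w k) ≠ 0 := sub_ne_zero.2 (hw.ne hik)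
  apply mul_left_cancel₀ hne
  rw [← h1]
  have : ℘[subPair L p] (w i) - ℘[subPair L p] (w k) =
      -(℘[subPair L p] (w k) - ℘[subPair L p] (w i)) := by ring
  rw [this, h2]
  ring

end Fermat.Agent.M15.EllDisc8
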