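import Fermat.Agent.M15.AddThmY7

set_option autoImplicit false

open Filter Topology
open scoped PeriodPair Nat

noncomputable section

namespace Fermat.Agent.M15.AddThm7

open PeriodPair EllBasic7 EllDeriv7 EllTaylor7 EllShift7 AddAlg7

variable (L : PeriodPair)

/-- the chord slope tends to the tangent slope -/
lemma tendsto_chord_slope {z : ℂ} (hz : z ∉ L.lattice) (hne : ℘'[L] z ≠ 0) :
    Tendsto (fun w => (℘'[L] z - ℘'[L] w) / (℘[L] z - ℘[L] w)) (𝓝[≠] z)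
      (𝓝 ((6 * ℘[L] z ^ 2 - L.g₂ / 2) / ℘'[L] z)) := by
  have h1 : Tendsto (slope ℘'[L] z) (𝓝[≠] z) (𝓝 (6 * ℘[L] z ^ 2 - L.g₂ / 2)) := by
    have := (differentiableAt_derivWeierstrassP L hz).hasDerivAt.tendsto_slope
    rwa [deriv_derivWeierstrassP L hz] at this
  have h2 : Tendsto (slope ℘[L] z) (𝓝[≠] z) (𝓝 (℘'[L] z)) :=
    (hasDerivAt_weierstrassP L hz).tendsto_slope
  refine (h1.div h2 hne).congr' ?_
  filter_upwards [self_mem_nhdsWithin] with w hw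
  have hw' : w - z ≠ 0 := sub_ne_zero.mpr hw
  simp only [Pi.div_apply, slope, vsub_eq_sub, smul_eq_mul]
  rw [mul_div_mul_left _ _ (inv_ne_zero hw'), ← neg_sub (℘'[L] z), ← neg_sub (℘[L] z), neg_div_neg_eq]

lemma eventually_ne_of_deriv_ne_zero {z : ℂ} (hz : z ∉ L.lattice) (hne : ℘'[L] z ≠ 0) :
    ∀ᶠ w in 𝓝[≠] z, ℘[L] w ≠ ℘[L] z := by
  have h2 : Tendsto (slope ℘[L] z) (𝓝[≠] z) (𝓝 (℘'[L] z)) :=
    (hasDerivAt_weierstrassP L hz).tendsto_slope
  filter_upwards [h2.eventually_ne hne] with w hw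
  intro h
  apply hw
  simp [slope, h]

/-- The duplication formula for `℘`. -/
theorem duplication_formula {z : ℂ} (hz : z ∉ L.lattice) (h2z : z + z ∉ L.lattice)
    (hne : ℘'[L] z ≠ 0) :
    ℘[L] (z + z) = 1 / 4 * ((6 * ℘[L] z ^ 2 - L.g₂ / 2) / ℘'[L] z) ^ 2 - ℘[L] z - ℘[L] z := by
  have hlam := tendsto_chord_slope L hz hne
  have hcz : Tendsto ℘[L] (𝓝[≠] z) (𝓝 (℘[L] z)) :=
    ((L.analyticOnNhd_weierstrassP z hz).continuousAt.tendsto).mono_left nhdsWithin_le_nhds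
  have hR : Tendsto (fun w => 1 / 4 * ((℘'[L] z - ℘'[L] w) / (℘[L] z - ℘[L] w)) ^ 2 - ℘[L] z - ℘[L] w)
      (𝓝[≠] z) (𝓝 (1 / 4 * ((6 * ℘[L] z ^ 2 - L.g₂ / 2) / ℘'[L] z) ^ 2 - ℘[L] z - ℘[L] z)) :=
    (((hlam.pow 2).const_mul (1 / 4 : ℂ)).sub tendsto_const_nhds).sub hcz
  have hLt : Tendsto (fun w => ℘[L] (z + w)) (𝓝[≠] z) (𝓝 (℘[L] (z + z))) := by
    have hc : ContinuousAt (fun w => ℘[L] (z + w)) z :=
      ContinuousAt.comp_of_eq (g := ℘[L]) (f := fun w : ℂ => z + w)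
        (L.analyticOnNhd_weierstrassP (z + z) h2z).continuousAt (by fun_prop) rfl
    exact hc.tendsto.mono_left nhdsWithin_le_nhds
  refine tendsto_nhds_unique (hLt.congr' ?_) hR
  have h3 : ∀ᶠ w in 𝓝[≠] z, z + w ∉ L.lattice := by
    have : ContinuousAt (fun w : ℂ => z + w) z := by fun_prop
    exact mem_nhdsWithin_of_mem_nhds (this.eventually ((isOpen_compl_lattice L).mem_nhds h2z))
  filter_upwards [mem_nhdsWithin_of_mem_nhds ((isOpen_compl_lattice L).mem_nhds hz), h3,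
    eventually_ne_of_deriv_ne_zero L hz hne] with w h1 h2 h3
  exact addition_formula L h1 hz h2 (Ne.symm h3)

/-- The duplication formula for `℘'`. -/
theorem duplication_formula_deriv {z : ℂ} (hz : z ∉ L.lattice) (h2z : z + z ∉ L.lattice)
    (hne : ℘'[L] z ≠ 0) :
    ℘'[L] (z + z) = -((6 * ℘[L] z ^ 2 - L.g₂ / 2) / ℘'[L] z) * (℘[L] (z + z) - ℘[L] z) -
      ℘'[L] z := by
  have hlam := tendsto_chord_slope L hz hne
  have hLt : Tendsto (fun w => ℘[L] (z + w)) (𝓝[≠] z) (𝓝 (℘[L] (z + z))) := by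
    have hc : ContinuousAt (fun w => ℘[L] (z + w)) z :=
      ContinuousAt.comp_of_eq (g := ℘[L]) (f := fun w : ℂ => z + w)
        (L.analyticOnNhd_weierstrassP (z + z) h2z).continuousAt (by fun_prop) rfl
    exact hc.tendsto.mono_left nhdsWithin_le_nhds
  have hLt' : Tendsto (fun w => ℘'[L] (z + w)) (𝓝[≠] z) (𝓝 (℘'[L] (z + z))) := by
    have hc : ContinuousAt (fun w => ℘'[L] (z + w)) z :=
      ContinuousAt.comp_of_eq (g := ℘'[L]) (f := fun w : ℂ => z + w)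
        (L.analyticOnNhd_derivWeierstrassP (z + z) h2z).continuousAt (by fun_prop) rfl
    exact hc.tendsto.mono_left nhdsWithin_le_nhds
  have hR : Tendsto (fun w => -((℘'[L] z - ℘'[L] w) / (℘[L] z - ℘[L] w)) *
      (℘[L] (z + w) - ℘[L] z) - ℘'[L] z) (𝓝[≠] z)
      (𝓝 (-((6 * ℘[L] z ^ 2 - L.g₂ / 2) / ℘'[L] z) * (℘[L] (z + z) - ℘[L] z) - ℘'[L] z)) :=
    ((hlam.neg.mul (hLt.sub tendsto_const_nhds)).sub tendsto_const_nhds)
  refine tendsto_nhds_unique (hLt'.congr' ?_) hR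
  have h3 : ∀ᶠ w in 𝓝[≠] z, z + w ∉ L.lattice := by
    have : ContinuousAt (fun w : ℂ => z + w) z := by fun_prop
    exact mem_nhdsWithin_of_mem_nhds (this.eventually ((isOpen_compl_lattice L).mem_nhds h2z))
  filter_upwards [mem_nhdsWithin_of_mem_nhds ((isOpen_compl_lattice L).mem_nhds hz), h3,
    eventually_ne_of_deriv_ne_zero L hz hne] with w h1 h2 h3
  exact addition_formula_deriv L h1 hz h2 (Ne.symm h3)

end Fermat.Agent.M15.AddThm7
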