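/-
M15 / R1 (MOD-glob, helper7), chapter G3a: injectivity and surjectivity of `℘` modulo `±`.
* `add_self_mem_of_deriv_eq_zero`: the zeros of `℘'` are the half periods;
* `wP_eq_iff`: `℘ z = ℘ w ↔ z ≡ ± w (mod L)`;
* `exists_wP_eq`: `℘` takes every complex value.
No zero counting; only the addition identity, helper8's half-period identity and Liouville.
Imported by no statement.
-/
import Fermat.Agent.M15.AddThmD7
import Fermat.Agent.M15.EllDisc8

set_option autoImplicit false

open Filter Topology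
open scoped PeriodPair

noncomputable section

namespace Fermat.Agent.M15.WPInj7

open PeriodPair Fermat.Agent.M15.EllHalf8 Fermat.Agent.M15.EllDisc8 Fermat.Agent.M15.AddThm7

variable (L : PeriodPair)

/-- a zero of `℘'` outside the lattice is congruent to one of the three standard half periods. -/
theorem exists_add_stdHalf_mem_of_deriv_eq_zero {z : ℂ} (hz : z ∉ L.lattice)
    (h : ℘'[L] z = 0) : ∃ i : Fin 3, z + stdHalf L i ∈ L.lattice ∧ ℘[L] z = ℘[L] (stdHalf L i) := by
  have hw := halfTriple_stdHalf L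
  obtain ⟨hs, h2, h3⟩ := hw.vieta
  have hsq := L.derivWeierstrassP_sq z hz
  rw [h] at hsq
  have hfac : (℘[L] z - ℘[L] (stdHalf L 0)) * (℘[L] z - ℘[L] (stdHalf L 1)) *
      (℘[L] z - ℘[L] (stdHalf L 2)) = 0 := by
    have e2 : ℘[L] (stdHalf L 2) = -℘[L] (stdHalf L 0) - ℘[L] (stdHalf L 1) := by
      linear_combination hs
    rw [e2]
    rw [h2, h3] at hsq
    linear_combination (-1 / 4 : ℂ) * hsq
  have hcase : ∃ i : Fin 3, ℘[L] z = ℘[L] (stdHalf L i) := by
    rcases mul_eq_zero.mp hfac with h01 | h2'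
    · rcases mul_eq_zero.mp h01 with h0 | h1
      · exact ⟨0, sub_eq_zero.mp h0⟩
      · exact ⟨1, sub_eq_zero.mp h1⟩
    · exact ⟨2, sub_eq_zero.mp h2'⟩
  obtain ⟨i, hi⟩ := hcase
  refine ⟨i, ?_, hi⟩
  by_contra hni
  exact (hw.half i).wP_ne hz hni hi

/-- the zeros of `℘'` are half periods. -/
theorem add_self_mem_of_deriv_eq_zero {z : ℂ} (hz : z ∉ L.lattice) (h : ℘'[L] z = 0) :
    z + z ∈ L.lattice := by
  obtain ⟨i, hi, -⟩ := exists_add_stdHalf_mem_of_deriv_eq_zero L hz h
  have hw := (halfTriple_stdHalf L).half i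
  have : z + z = (z + stdHalf L i) + (z + stdHalf L i) - (stdHalf L i + stdHalf L i) := by ring
  rw [this]
  exact sub_mem (add_mem hi hi) hw.two

theorem deriv_ne_zero_of_add_self_notMem {z : ℂ} (hz : z ∉ L.lattice) (h2z : z + z ∉ L.lattice) :
    ℘'[L] z ≠ 0 := fun h => h2z (add_self_mem_of_deriv_eq_zero L hz h)

theorem wP_eq_of_sub_mem {z w : ℂ} (h : z - w ∈ L.lattice) : ℘[L] z = ℘[L] w := by
  have := L.weierstrassP_add_coe w ⟨z - w, h⟩
  rw [← this]; congr 1; simp

theorem wP_eq_of_add_mem {z w : ℂ} (h : z + w ∈ L.lattice) : ℘[L] z = ℘[L] w := by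
  have := L.weierstrassP_add_coe (-w) ⟨z + w, h⟩
  rw [L.weierstrassP_neg] at this
  rw [← this]; congr 1; simp

theorem deriv_eq_of_sub_mem {z w : ℂ} (h : z - w ∈ L.lattice) : ℘'[L] z = ℘'[L] w := by
  have := L.derivWeierstrassP_add_coe w ⟨z - w, h⟩
  rw [← this]; congr 1; simp

theorem deriv_eq_neg_of_add_mem {z w : ℂ} (h : z + w ∈ L.lattice) : ℘'[L] z = -℘'[L] w := by
  have := L.derivWeierstrassP_add_coe (-w) ⟨z + w, h⟩
  rw [L.derivWeierstrassP_neg] at this
  rw [← this]; congr 1; simp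

/-- **`℘ z = ℘ w` iff `z ≡ ± w`.** -/
theorem wP_eq_iff {z w : ℂ} (hz : z ∉ L.lattice) (hw : w ∉ L.lattice) :
    ℘[L] z = ℘[L] w ↔ z - w ∈ L.lattice ∨ z + w ∈ L.lattice := by
  constructor
  · intro heq
    by_contra hcon
    rw [not_or] at hcon
    obtain ⟨hm, hp⟩ := hcon
    -- both `℘' z = ℘' w` and `℘' z = -℘' w`
    have h1 := addition_identity L hw hz hp
    rw [heq, sub_self] at h1
    have hnw : -w ∉ L.lattice := fun h => hw (by simpa using neg_mem h)
    have hm' : z + -w ∉ L.lattice := by rwa [← sub_eq_add_neg]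
    have h2 := addition_identity L hnw hz hm'
    rw [L.weierstrassP_neg, L.derivWeierstrassP_neg, heq, sub_self] at h2
    have e1 : ℘'[L] z - ℘'[L] w = 0 := by
      have : (℘'[L] z - ℘'[L] w) ^ 2 = 0 := by linear_combination (-4 : ℂ) * h1
      exact pow_eq_zero_iff (two_ne_zero) |>.mp this
    have e2 : ℘'[L] z + ℘'[L] w = 0 := by
      have : (℘'[L] z + ℘'[L] w) ^ 2 = 0 := by linear_combination (-4 : ℂ) * h2
      exact pow_eq_zero_iff (two_ne_zero) |>.mp this
    have dz : ℘'[L] z = 0 := by linear_combination (1 / 2 : ℂ) * e1 + (1 / 2 : ℂ) * e2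
    have dw : ℘'[L] w = 0 := by linear_combination (-1 / 2 : ℂ) * e1 + (1 / 2 : ℂ) * e2
    obtain ⟨i, hi, hiv⟩ := exists_add_stdHalf_mem_of_deriv_eq_zero L hz dz
    obtain ⟨k, hk, hkv⟩ := exists_add_stdHalf_mem_of_deriv_eq_zero L hw dw
    have hik : i = k := by
      by_contra hne
      exact (halfTriple_stdHalf L).ne hne (by rw [← hiv, ← hkv, heq])
    subst hik
    apply hm
    have : z - w = (z + stdHalf L i) - (w + stdHalf L i) := by ring
    rw [this]
    exact sub_mem hi hk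
  · rintro (h | h)
    · exact wP_eq_of_sub_mem L h
    · exact wP_eq_of_add_mem L h

/-- if `℘` and `℘'` agree at `z` and `w` then `z ≡ w`. -/
theorem sub_mem_of_wP_eq_of_deriv_eq {z w : ℂ} (hz : z ∉ L.lattice) (hw : w ∉ L.lattice)
    (h : ℘[L] z = ℘[L] w) (h' : ℘'[L] z = ℘'[L] w) : z - w ∈ L.lattice := by
  rcases (wP_eq_iff L hz hw).mp h with h1 | h1
  · exact h1
  · have hd := deriv_eq_neg_of_add_mem L h1
    have dz : ℘'[L] z = 0 := by linear_combination (1 / 2 : ℂ) * hd + (1 / 2 : ℂ) * h'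
    have h2 := add_self_mem_of_deriv_eq_zero L hz dz
    have : z - w = (z + z) - (z + w) := by ring
    rw [this]
    exact sub_mem h2 h1

/-- `℘` is not constant. -/
theorem exists_wP_ne (c : ℂ) : ∃ z, z ∉ L.lattice ∧ ℘[L] z ≠ c := by
  have hw := halfTriple_stdHalf L
  by_cases h0 : ℘[L] (stdHalf L 0) = c
  · refine ⟨stdHalf L 1, (hw.half 1).notMem, ?_⟩
    rw [← h0]
    exact hw.ne (by decide)
  · exact ⟨stdHalf L 0, (hw.half 0).notMem, h0⟩

/-- **`℘` is surjective.** -/
theorem exists_wP_eq (c : ℂ) : ∃ z, z ∉ L.lattice ∧ ℘[L] z = c := by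
  by_contra hcon
  have hne : ∀ z, z ∉ L.lattice → ℘[L] z ≠ c := fun z hz h => hcon ⟨z, hz, h⟩
  -- the function `1 / (℘ - c)` has no poles
  set f : ℂ → ℂ := (sh L 0 c)⁻¹ with hf
  have hmer : ∀ x, MeromorphicAt f x := fun x => (meromorphicAt_sh L 0 c x).inv
  have hper : ∀ l ∈ L.lattice, ∀ z, f (z + l) = f z := by
    intro l hl z
    simp only [hf, Pi.inv_apply, sh_periodic L 0 c l hl z]
  have han : ∀ x, x ∉ L.lattice → AnalyticAt ℂ f x := by
    intro x hx
    have hx' : x + 0 ∉ L.lattice := by simpa using hx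
    refine (analyticAt_sh L (c := c) hx').inv ?_
    simpa [sh_apply, sub_eq_zero] using hne x hx
  have hord : ∀ x, 0 ≤ meromorphicOrderAt f x := by
    intro x
    by_cases hx : x ∈ L.lattice
    · have hx' : x + 0 ∈ L.lattice := by simpa using hx
      rw [hf, meromorphicOrderAt_inv, order_sh_pole L hx']
      norm_num
    · exact (han x hx).meromorphicOrderAt_nonneg
  obtain ⟨k, hk⟩ := EllLiouville8.exists_const_of_periodic L hmer hper hord
  have hval : ∀ z, z ∉ L.lattice → (℘[L] z - c)⁻¹ = k := by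
    intro z hz
    have := hk z (han z hz)
    simpa [hf, sh_apply] using this
  obtain ⟨z₀, hz₀, -⟩ := exists_wP_ne L c
  obtain ⟨z₁, hz₁, hz₁'⟩ := exists_wP_ne L (℘[L] z₀)
  apply hz₁'
  have e0 := hval z₀ hz₀
  have e1 := hval z₁ hz₁
  have := inv_injective (e1.trans e0.symm)
  linear_combination this

end Fermat.Agent.M15.WPInj7
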