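/-
M15 / R1 (MOD-glob, helper7), chapter G3b: complex uniformisation `ℂ/L ≃ W(ℂ)`.
For a Weierstrass curve `W` over `ℂ` and a period pair `L` with `g₂(L) = c₄/12`, `g₃(L) = c₆/216`:
`Phi z = (℘ z - b₂/12, (℘' z - a₁ x - a₃)/2)` is a surjective group homomorphism `ℂ → W(ℂ)`
with kernel `L`.  Imported by no statement.
-/
import Fermat.Agent.M15.WPInj7

set_option autoImplicit false

open Filter Topology
open scoped PeriodPair

noncomputable section

namespace Fermat.Agent.M15.Unif7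

open PeriodPair WeierstrassCurve WeierstrassCurve.Affine
open Fermat.Agent.M15.EllHalf8 Fermat.Agent.M15.EllDisc8 Fermat.Agent.M15.AddThm7
open Fermat.Agent.M15.WPInj7

/-- the period pair `L` uniformises the Weierstrass curve `W`. -/
structure IsUnif (W : WeierstrassCurve ℂ) (L : PeriodPair) : Prop where
  g₂_eq : L.g₂ = W.c₄ / 12
  g₃_eq : L.g₃ = W.c₆ / 216

variable {W : WeierstrassCurve ℂ} {L : PeriodPair}

theorem IsUnif.Δ_ne_zero (h : IsUnif W L) : W.Δ ≠ 0 := by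
  have h1 := (halfTriple_stdHalf L).discr_ne_zero
  unfold discr at h1
  rw [h.g₂_eq, h.g₃_eq] at h1
  intro h0
  apply h1
  have h2 := W.c_relation
  rw [h0] at h2
  linear_combination (-1 / 1728 : ℂ) * h2

/-- abscissa of the uniformisation. -/
def xC (W : WeierstrassCurve ℂ) (L : PeriodPair) (z : ℂ) : ℂ := ℘[L] z - W.b₂ / 12

/-- ordinate of the uniformisation. -/
def yC (W : WeierstrassCurve ℂ) (L : PeriodPair) (z : ℂ) : ℂ :=
  (℘'[L] z - W.a₁ * xC W L z - W.a₃) / 2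

theorem wP'_eq (z : ℂ) : ℘'[L] z = 2 * yC W L z + W.a₁ * xC W L z + W.a₃ := by
  unfold yC; ring

theorem wP_eq (z : ℂ) : ℘[L] z = xC W L z + W.b₂ / 12 := by
  unfold xC; ring

theorem IsUnif.equation (h : IsUnif W L) {z : ℂ} (hz : z ∉ L.lattice) :
    W.toAffine.Equation (xC W L z) (yC W L z) := by
  rw [Affine.equation_iff]
  have hsq := L.derivWeierstrassP_sq z hz
  rw [h.g₂_eq, h.g₃_eq, wP'_eq (W := W), wP_eq (W := W)] at hsq
  simp only [WeierstrassCurve.c₄, WeierstrassCurve.c₆, WeierstrassCurve.b₂, WeierstrassCurve.b₄,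
    WeierstrassCurve.b₆] at hsq
  linear_combination (1 / 4 : ℂ) * hsq

theorem IsUnif.nonsingular (h : IsUnif W L) {z : ℂ} (hz : z ∉ L.lattice) :
    W.toAffine.Nonsingular (xC W L z) (yC W L z) :=
  (Affine.equation_iff_nonsingular_of_Δ_ne_zero h.Δ_ne_zero).mp (h.equation hz)

open Classical in
/-- **the uniformisation map.** -/
def Phi (h : IsUnif W L) (z : ℂ) : W.toAffine.Point :=
  if hz : z ∈ L.lattice then 0 else Point.some _ _ (h.nonsingular hz)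

theorem Phi_of_mem (h : IsUnif W L) {z : ℂ} (hz : z ∈ L.lattice) : Phi h z = 0 := by
  unfold Phi; rw [dif_pos hz]

theorem Phi_of_notMem (h : IsUnif W L) {z : ℂ} (hz : z ∉ L.lattice) :
    Phi h z = Point.some _ _ (h.nonsingular hz) := by
  unfold Phi; rw [dif_neg hz]

theorem Phi_eq_zero_iff (h : IsUnif W L) {z : ℂ} : Phi h z = 0 ↔ z ∈ L.lattice := by
  constructor
  · intro h0
    by_contra hz
    rw [Phi_of_notMem h hz] at h0
    exact Point.some_ne_zero _ h0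
  · exact Phi_of_mem h

theorem some_eq_some {x y x' y' : ℂ} (hn : W.toAffine.Nonsingular x y)
    (hn' : W.toAffine.Nonsingular x' y') (hx : x = x') (hy : y = y') :
    Point.some _ _ hn = Point.some _ _ hn' := by
  subst hx hy; rfl

theorem xC_eq_of_sub_mem {z w : ℂ} (hm : z - w ∈ L.lattice) : xC W L z = xC W L w := by
  unfold xC; rw [wP_eq_of_sub_mem L hm]

theorem yC_eq_of_sub_mem {z w : ℂ} (hm : z - w ∈ L.lattice) : yC W L z = yC W L w := by
  unfold yC; rw [xC_eq_of_sub_mem hm, deriv_eq_of_sub_mem L hm]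

theorem Phi_eq_of_sub_mem (h : IsUnif W L) {z w : ℂ} (hm : z - w ∈ L.lattice) :
    Phi h z = Phi h w := by
  by_cases hw : w ∈ L.lattice
  · have hz : z ∈ L.lattice := by
      have := add_mem hm hw
      simpa using this
    rw [Phi_of_mem h hz, Phi_of_mem h hw]
  · have hz : z ∉ L.lattice := fun hz => hw (by simpa using sub_mem hz hm)
    rw [Phi_of_notMem h hz, Phi_of_notMem h hw]
    exact some_eq_some _ _ (xC_eq_of_sub_mem hm) (yC_eq_of_sub_mem hm)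

theorem xC_neg (z : ℂ) : xC W L (-z) = xC W L z := by
  unfold xC; rw [L.weierstrassP_neg]

theorem yC_neg (z : ℂ) : yC W L (-z) = W.toAffine.negY (xC W L z) (yC W L z) := by
  unfold yC Affine.negY
  rw [xC_neg, L.derivWeierstrassP_neg]
  ring

theorem Phi_neg (h : IsUnif W L) (z : ℂ) : Phi h (-z) = -Phi h z := by
  by_cases hz : z ∈ L.lattice
  · rw [Phi_of_mem h hz, Phi_of_mem h (neg_mem hz)]; rfl
  · have hnz : -z ∉ L.lattice := fun hh => hz (by simpa using neg_mem hh)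
    rw [Phi_of_notMem h hz, Phi_of_notMem h hnz, Point.neg_some]
    exact some_eq_some _ _ (xC_neg z) (yC_neg z)

lemma addX_algebra (a₁ a₂ a₃ x₁ x₂ x₃ y₁ y₂ : ℂ) (hB : x₁ - x₂ ≠ 0)
    (hid : (x₃ + x₁ + x₂ + (a₁ ^ 2 + 4 * a₂) / 4) * (x₁ - x₂) ^ 2 =
      1 / 4 * ((2 * y₁ + a₁ * x₁ + a₃) - (2 * y₂ + a₁ * x₂ + a₃)) ^ 2) :
    x₃ = ((y₁ - y₂) / (x₁ - x₂)) ^ 2 + a₁ * ((y₁ - y₂) / (x₁ - x₂)) - a₂ - x₁ - x₂ := by
  field_simp
  linear_combination hid

lemma addY_algebra (a₁ a₃ x₁ x₂ x₃ y₁ y₂ y₃ : ℂ) (hB : x₁ - x₂ ≠ 0)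
    (hid : 2 * y₃ + a₁ * x₃ + a₃ =
      -(((2 * y₁ + a₁ * x₁ + a₃) - (2 * y₂ + a₁ * x₂ + a₃)) / (x₁ - x₂)) * (x₃ - x₁) -
        (2 * y₁ + a₁ * x₁ + a₃)) :
    y₃ = -(((y₁ - y₂) / (x₁ - x₂)) * (x₃ - x₁) + y₁) - a₁ * x₃ - a₃ := by
  field_simp
  field_simp at hid
  linear_combination (1 / 2 : ℂ) * hid

/-- duplication: tangent slope -/
lemma dupX_algebra (a₁ a₂ a₃ a₄ x₁ x₃ y₁ g₂ : ℂ) (hB : 2 * y₁ + a₁ * x₁ + a₃ ≠ 0)
    (hg : g₂ = ((a₁ ^ 2 + 4 * a₂) ^ 2 - 24 * (2 * a₄ + a₁ * a₃)) / 12)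
    (hid : x₃ + (a₁ ^ 2 + 4 * a₂) / 12 =
      1 / 4 * ((6 * (x₁ + (a₁ ^ 2 + 4 * a₂) / 12) ^ 2 - g₂ / 2) / (2 * y₁ + a₁ * x₁ + a₃)) ^ 2 -
        (x₁ + (a₁ ^ 2 + 4 * a₂) / 12) - (x₁ + (a₁ ^ 2 + 4 * a₂) / 12)) :
    x₃ = ((3 * x₁ ^ 2 + 2 * a₂ * x₁ + a₄ - a₁ * y₁) / (y₁ - (-y₁ - a₁ * x₁ - a₃))) ^ 2 +
      a₁ * ((3 * x₁ ^ 2 + 2 * a₂ * x₁ + a₄ - a₁ * y₁) / (y₁ - (-y₁ - a₁ * x₁ - a₃))) -
        a₂ - x₁ - x₁ := by
  have hden : y₁ - (-y₁ - a₁ * x₁ - a₃) = 2 * y₁ + a₁ * x₁ + a₃ := by ring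
  rw [hden]
  have hnum : 6 * (x₁ + (a₁ ^ 2 + 4 * a₂) / 12) ^ 2 - g₂ / 2 =
      2 * (3 * x₁ ^ 2 + 2 * a₂ * x₁ + a₄ - a₁ * y₁) + a₁ * (2 * y₁ + a₁ * x₁ + a₃) := by
    rw [hg]; ring
  rw [hnum] at hid
  set N := 3 * x₁ ^ 2 + 2 * a₂ * x₁ + a₄ - a₁ * y₁ with hN
  set D := 2 * y₁ + a₁ * x₁ + a₃ with hD
  have e : (2 * N + a₁ * D) / D = 2 * (N / D) + a₁ := by field_simp
  rw [e] at hid
  linear_combination hid

lemma dupY_algebra (a₁ a₂ a₃ a₄ x₁ x₃ y₁ y₃ g₂ : ℂ) (hB : 2 * y₁ + a₁ * x₁ + a₃ ≠ 0)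
    (hg : g₂ = ((a₁ ^ 2 + 4 * a₂) ^ 2 - 24 * (2 * a₄ + a₁ * a₃)) / 12)
    (hid : 2 * y₃ + a₁ * x₃ + a₃ =
      -((6 * (x₁ + (a₁ ^ 2 + 4 * a₂) / 12) ^ 2 - g₂ / 2) / (2 * y₁ + a₁ * x₁ + a₃)) *
        ((x₃ + (a₁ ^ 2 + 4 * a₂) / 12) - (x₁ + (a₁ ^ 2 + 4 * a₂) / 12)) -
          (2 * y₁ + a₁ * x₁ + a₃)) :
    y₃ = -(((3 * x₁ ^ 2 + 2 * a₂ * x₁ + a₄ - a₁ * y₁) / (y₁ - (-y₁ - a₁ * x₁ - a₃))) *
      (x₃ - x₁) + y₁) - a₁ * x₃ - a₃ := by
  have hden : y₁ - (-y₁ - a₁ * x₁ - a₃) = 2 * y₁ + a₁ * x₁ + a₃ := by ring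
  rw [hden]
  have hnum : 6 * (x₁ + (a₁ ^ 2 + 4 * a₂) / 12) ^ 2 - g₂ / 2 =
      2 * (3 * x₁ ^ 2 + 2 * a₂ * x₁ + a₄ - a₁ * y₁) + a₁ * (2 * y₁ + a₁ * x₁ + a₃) := by
    rw [hg]; ring
  rw [hnum] at hid
  set N := 3 * x₁ ^ 2 + 2 * a₂ * x₁ + a₄ - a₁ * y₁ with hN
  have e : (2 * N + a₁ * (2 * y₁ + a₁ * x₁ + a₃)) / (2 * y₁ + a₁ * x₁ + a₃) =
      2 * (N / (2 * y₁ + a₁ * x₁ + a₃)) + a₁ := by field_simp
  rw [e] at hid
  linear_combination (1 / 2 : ℂ) * hid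

/-- generic case of the addition law. -/
theorem Phi_add_of_ne (h : IsUnif W L) {z w : ℂ} (hz : z ∉ L.lattice) (hw : w ∉ L.lattice)
    (hzw : z + w ∉ L.lattice) (hne : ℘[L] z ≠ ℘[L] w) :
    Phi h (z + w) = Phi h z + Phi h w := by
  have hx : xC W L z ≠ xC W L w := by
    unfold xC
    intro hh
    exact hne (by linear_combination hh)
  rw [Phi_of_notMem h hz, Phi_of_notMem h hw, Phi_of_notMem h hzw, Point.add_of_X_ne hx]
  have hB' : xC W L z - xC W L w ≠ 0 := sub_ne_zero.mpr hx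
  have hBeq : ℘[L] z - ℘[L] w = xC W L z - xC W L w := by unfold xC; ring
  have hX : xC W L (z + w) = W.toAffine.addX (xC W L z) (xC W L w)
      (W.toAffine.slope (xC W L z) (xC W L w) (yC W L z) (yC W L w)) := by
    rw [Affine.slope_of_X_ne hx]
    unfold Affine.addX
    have hf := addition_identity L hw hz hzw
    rw [wP'_eq (W := W) z, wP'_eq (W := W) w, hBeq, wP_eq (W := W) z, wP_eq (W := W) w,
      wP_eq (W := W) (z + w)] at hf
    simp only [WeierstrassCurve.b₂] at hf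
    refine addX_algebra W.a₁ W.a₂ W.a₃ _ _ _ _ _ hB' ?_
    linear_combination hf
  refine some_eq_some _ _ hX ?_
  unfold Affine.addY Affine.negAddY Affine.negY
  rw [← hX, Affine.slope_of_X_ne hx]
  have hf' := addition_formula_deriv L hw hz hzw hne
  rw [wP'_eq (W := W) z, wP'_eq (W := W) w, wP'_eq (W := W) (z + w), hBeq,
    wP_eq (W := W) z, wP_eq (W := W) (z + w)] at hf'
  refine addY_algebra W.a₁ W.a₃ _ _ _ _ _ _ hB' ?_
  linear_combination hf'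

/-- doubling case of the addition law. -/
theorem Phi_add_self (h : IsUnif W L) {z : ℂ} (hz : z ∉ L.lattice) (h2z : z + z ∉ L.lattice) :
    Phi h (z + z) = Phi h z + Phi h z := by
  have hd : ℘'[L] z ≠ 0 := deriv_ne_zero_of_add_self_notMem L hz h2z
  have hD : 2 * yC W L z + W.a₁ * xC W L z + W.a₃ ≠ 0 := by rwa [← wP'_eq (W := W) z]
  have hy : yC W L z ≠ W.toAffine.negY (xC W L z) (yC W L z) := by
    unfold Affine.negY
    intro hh
    apply hD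
    linear_combination hh
  rw [Phi_of_notMem h hz, Phi_of_notMem h h2z, Point.add_self_of_Y_ne hy]
  have hg : L.g₂ = ((W.a₁ ^ 2 + 4 * W.a₂) ^ 2 - 24 * (2 * W.a₄ + W.a₁ * W.a₃)) / 12 := by
    rw [h.g₂_eq]
    simp only [WeierstrassCurve.c₄, WeierstrassCurve.b₂, WeierstrassCurve.b₄]
  have hX : xC W L (z + z) = W.toAffine.addX (xC W L z) (xC W L z)
      (W.toAffine.slope (xC W L z) (xC W L z) (yC W L z) (yC W L z)) := by
    rw [Affine.slope_of_Y_ne rfl hy]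
    unfold Affine.addX Affine.negY
    have hf := duplication_formula L hz h2z hd
    rw [wP'_eq (W := W) z, wP_eq (W := W) z, wP_eq (W := W) (z + z)] at hf
    simp only [WeierstrassCurve.b₂] at hf
    exact dupX_algebra W.a₁ W.a₂ W.a₃ W.a₄ _ _ _ L.g₂ hD hg hf
  refine some_eq_some _ _ hX ?_
  unfold Affine.addY Affine.negAddY
  rw [← hX, Affine.slope_of_Y_ne rfl hy]
  unfold Affine.negY
  have hf' := duplication_formula_deriv L hz h2z hd
  rw [wP'_eq (W := W) z, wP'_eq (W := W) (z + z), wP_eq (W := W) z,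
    wP_eq (W := W) (z + z)] at hf'
  simp only [WeierstrassCurve.b₂] at hf'
  exact dupY_algebra W.a₁ W.a₂ W.a₃ W.a₄ _ _ _ _ L.g₂ hD hg hf'

/-- **`Phi` is additive.** -/
theorem Phi_add (h : IsUnif W L) (z w : ℂ) : Phi h (z + w) = Phi h z + Phi h w := by
  by_cases hz : z ∈ L.lattice
  · rw [Phi_of_mem h hz, zero_add]
    exact Phi_eq_of_sub_mem h (by simpa using hz)
  by_cases hw : w ∈ L.lattice
  · rw [Phi_of_mem h hw, add_zero]
    exact Phi_eq_of_sub_mem h (by simpa using hw)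
  by_cases hzw : z + w ∈ L.lattice
  · rw [Phi_of_mem h hzw]
    have e : Phi h w = Phi h (-z) := Phi_eq_of_sub_mem h (by
      have : w - -z = z + w := by ring
      rwa [this])
    rw [e, Phi_neg, add_neg_cancel]
  by_cases hne : ℘[L] z = ℘[L] w
  · rcases (wP_eq_iff L hz hw).mp hne with hm | hp
    · have e1 : Phi h w = Phi h z := Phi_eq_of_sub_mem h (by
        have : w - z = -(z - w) := by ring
        rw [this]; exact neg_mem hm)
      have e2 : Phi h (z + w) = Phi h (z + z) := Phi_eq_of_sub_mem h (by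
        have : z + w - (z + z) = -(z - w) := by ring
        rw [this]; exact neg_mem hm)
      have h2z : z + z ∉ L.lattice := by
        intro hh
        apply hzw
        have : z + w = (z + z) - (z - w) := by ring
        rw [this]; exact sub_mem hh hm
      rw [e1, e2]
      exact Phi_add_self h hz h2z
    · exact absurd hp hzw
  · exact Phi_add_of_ne h hz hw hzw hne

/-- the uniformisation as a group homomorphism. -/
def PhiHom (h : IsUnif W L) : ℂ →+ W.toAffine.Point where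
  toFun := Phi h
  map_zero' := Phi_of_mem h (zero_mem _)
  map_add' := Phi_add h

@[simp] theorem PhiHom_apply (h : IsUnif W L) (z : ℂ) : PhiHom h z = Phi h z := rfl

theorem Phi_eq_iff (h : IsUnif W L) {z w : ℂ} : Phi h z = Phi h w ↔ z - w ∈ L.lattice := by
  rw [← Phi_eq_zero_iff h]
  have := map_sub (PhiHom h) z w
  simp only [PhiHom_apply] at this
  rw [this, sub_eq_zero]

/-- **`Phi` is surjective.** -/
theorem Phi_surjective (h : IsUnif W L) : Function.Surjective (Phi h) := by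
  rintro (_ | ⟨x, y, hxy⟩)
  · exact ⟨0, Phi_of_mem h (zero_mem _)⟩
  · obtain ⟨z, hz, hzx⟩ := exists_wP_eq L (x + W.b₂ / 12)
    have hxz : xC W L z = x := by unfold xC; rw [hzx]; ring
    have heq := h.equation hz
    rw [hxz] at heq
    rcases Affine.Y_eq_of_X_eq heq hxy.1 rfl with hy | hy
    · refine ⟨z, ?_⟩
      rw [Phi_of_notMem h hz]
      exact some_eq_some _ _ hxz hy
    · refine ⟨-z, ?_⟩
      have hnz : -z ∉ L.lattice := fun hh => hz (by simpa using neg_mem hh)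
      rw [Phi_of_notMem h hnz]
      refine some_eq_some _ _ (by rw [xC_neg, hxz]) ?_
      rw [yC_neg, hxz, hy, Affine.negY_negY]

end Fermat.Agent.M15.Unif7
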