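/-
M15 / R1 (MOD-glob, helper7), chapter G3c: normalisation of lattice invariants.
`ζ(6) = π⁶/945`; `g₂(ℤτ+ℤ) = (2π)⁴/12 · E₄(τ)`, `g₃(ℤτ+ℤ) = (2π)⁶/216 · E₆(τ)`,
`g₂³ - 27 g₃² = (2π)¹² Δ(τ)`, and the same for scaled lattices; existence of a uniformising
lattice for every Weierstrass curve over `ℂ` with `Δ ≠ 0`.  Imported by no statement.
-/
import Fermat.Agent.M15.Unif7
import Fermat.Agent.X0.JInjective

set_option autoImplicit false

open UpperHalfPlane ModularForm EisensteinSeries Complex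
open scoped PeriodPair Real

noncomputable section

namespace Fermat.Agent.M15.LatNorm7

open Fermat.Agent.X0 Fermat.Agent.X0.LatticeEis Fermat.Agent.M15.Unif7

theorem bernoulli'_five : bernoulli' 5 = 0 := by
  have h1 : Nat.choose 5 2 = 10 := by decide
  have h2 : Nat.choose 5 4 = 5 := by decide
  have h3 : Nat.choose 5 3 = 10 := by decide
  rw [bernoulli'_def]
  norm_num [Finset.sum_range_succ, Finset.sum_range_zero, h1, h2, h3, bernoulli'_four,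
    bernoulli'_three, bernoulli'_two, bernoulli'_one, bernoulli'_zero]

theorem bernoulli'_six : bernoulli' 6 = 1 / 42 := by
  have h1 : Nat.choose 6 2 = 15 := by decide
  have h2 : Nat.choose 6 4 = 15 := by decide
  have h3 : Nat.choose 6 3 = 20 := by decide
  have h5 : Nat.choose 6 5 = 6 := by decide
  rw [bernoulli'_def]
  norm_num [Finset.sum_range_succ, Finset.sum_range_zero, h1, h2, h3, h5, bernoulli'_five,
    bernoulli'_four, bernoulli'_three, bernoulli'_two, bernoulli'_one, bernoulli'_zero]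

theorem riemannZeta_six : riemannZeta 6 = (π : ℂ) ^ 6 / 945 := by
  have h := riemannZeta_two_mul_nat (k := 3) (by norm_num)
  have hb : bernoulli (2 * 3) = 1 / 42 := by
    rw [bernoulli_eq_bernoulli'_of_ne_one (by norm_num)]
    exact bernoulli'_six
  have e : ((2 : ℂ) * (3 : ℕ)) = 6 := by norm_num
  rw [e, hb] at h
  rw [h]
  have hf : ((2 * 3 : ℕ).factorial : ℂ) = 720 := by
    norm_num [Nat.factorial]
  rw [hf]
  push_cast
  ring

theorem two_pi_ne_zero : (2 * (π : ℂ)) ≠ 0 :=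
  mul_ne_zero two_ne_zero (ofReal_ne_zero.mpr Real.pi_ne_zero)

theorem g₂_pairOfUHP' (z : ℍ) : (pairOfUHP z).g₂ = (2 * (π : ℂ)) ^ 4 / 12 * E₄ z := by
  rw [g₂_pairOfUHP, riemannZeta_four]; ring

theorem g₃_pairOfUHP' (z : ℍ) : (pairOfUHP z).g₃ = (2 * (π : ℂ)) ^ 6 / 216 * E₆ z := by
  rw [g₃_pairOfUHP, riemannZeta_six]; ring

theorem g₂_scalePair' (c : ℂ) (hc : c ≠ 0) (z : ℍ) :
    (scalePair c hc (pairOfUHP z)).g₂ = (c ^ 4)⁻¹ * ((2 * (π : ℂ)) ^ 4 / 12 * E₄ z) := by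
  rw [g₂_scalePair, g₂_pairOfUHP']

theorem g₃_scalePair' (c : ℂ) (hc : c ≠ 0) (z : ℍ) :
    (scalePair c hc (pairOfUHP z)).g₃ = (c ^ 6)⁻¹ * ((2 * (π : ℂ)) ^ 6 / 216 * E₆ z) := by
  rw [g₃_scalePair, g₃_pairOfUHP']

/-- the discriminant of the lattice `c (ℤ τ + ℤ)`. -/
theorem discr_scalePair (c : ℂ) (hc : c ≠ 0) (z : ℍ) :
    (scalePair c hc (pairOfUHP z)).g₂ ^ 3 - 27 * (scalePair c hc (pairOfUHP z)).g₃ ^ 2 =
      (c ^ 12)⁻¹ * ((2 * (π : ℂ)) ^ 12 * discriminant z) := by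
  rw [g₂_scalePair', g₃_scalePair', discriminant_eq_E₄_cube_sub_E₆_sq]
  field_simp
  ring

/-- the `j`-invariant of the lattice `c (ℤ τ + ℤ)`. -/
theorem j_scalePair (c : ℂ) (hc : c ≠ 0) (z : ℍ) :
    1728 * (scalePair c hc (pairOfUHP z)).g₂ ^ 3 /
      ((scalePair c hc (pairOfUHP z)).g₂ ^ 3 - 27 * (scalePair c hc (pairOfUHP z)).g₃ ^ 2) =
      jFun z := by
  rw [discr_scalePair, g₂_scalePair']
  unfold jFun
  have h1 := discriminant_ne_zero z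
  have h2 := two_pi_ne_zero
  field_simp
  ring

/-- **existence of a uniformising lattice.** -/
theorem exists_isUnif (W : WeierstrassCurve ℂ) (hΔ : W.Δ ≠ 0) :
    ∃ (τ : ℍ) (c : ℂ) (hc : c ≠ 0), IsUnif W (scalePair c hc (pairOfUHP τ)) := by
  obtain ⟨τ, hτ⟩ := jFun_surjective (W.c₄ ^ 3 / W.Δ)
  have hrel := W.c_relation
  have hd := discriminant_ne_zero τ
  have hd' := discriminant_eq_E₄_cube_sub_E₆_sq τ
  have h2 := two_pi_ne_zero
  have hΔ' : E₄ τ ^ 3 - E₆ τ ^ 2 ≠ 0 := by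
    intro h0; apply hd; rw [hd', h0]; simp
  have hcross : E₄ τ ^ 3 * W.c₆ ^ 2 = W.c₄ ^ 3 * E₆ τ ^ 2 := by
    unfold jFun at hτ
    rw [div_eq_div_iff hd hΔ, hd'] at hτ
    linear_combination (-1728 : ℂ) * hτ + (E₄ τ ^ 3) * hrel
  have hA : (W.c₄ / (2 * (π : ℂ)) ^ 4) ^ 3 - (W.c₆ / (2 * (π : ℂ)) ^ 6) ^ 2 ≠ 0 := by
    have : (W.c₄ / (2 * (π : ℂ)) ^ 4) ^ 3 - (W.c₆ / (2 * (π : ℂ)) ^ 6) ^ 2 =
        1728 * W.Δ / (2 * (π : ℂ)) ^ 12 := by
      rw [hrel]; field_simp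
    rw [this]
    exact div_ne_zero (mul_ne_zero (by norm_num) hΔ) (pow_ne_zero _ h2)
  obtain ⟨c, hc0, hc4, hc6⟩ := JInjective.exists_scaling hA hΔ' (by
    field_simp
    linear_combination -hcross)
  refine ⟨τ, c, hc0, ⟨?_, ?_⟩⟩
  · rw [g₂_scalePair']
    have : (c ^ 4)⁻¹ * ((2 * (π : ℂ)) ^ 4 / 12 * E₄ τ) =
        (2 * (π : ℂ)) ^ 4 / 12 * ((c ^ 4)⁻¹ * E₄ τ) := by ring
    rw [this, hc4]
    field_simp
  · rw [g₃_scalePair']
    have : (c ^ 6)⁻¹ * ((2 * (π : ℂ)) ^ 6 / 216 * E₆ τ) =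
        (2 * (π : ℂ)) ^ 6 / 216 * ((c ^ 6)⁻¹ * E₆ τ) := by ring
    rw [this, hc6]
    field_simp

end Fermat.Agent.M15.LatNorm7
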