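import Mathlib

set_option autoImplicit false

open Filter Topology
open scoped PeriodPair Nat

noncomputable section

namespace Fermat.Agent.M15.EllTaylor7

open PeriodPair

variable (L : PeriodPair)

/-- A function analytic at `0` whose first `n` derivatives vanish there is `z ^ n` times an
analytic function. -/
lemma exists_eq_pow_mul {f : ℂ → ℂ} {n : ℕ} (hf : AnalyticAt ℂ f 0)
    (h : ∀ i < n, iteratedDeriv i f 0 = 0) :
    ∃ g : ℂ → ℂ, AnalyticAt ℂ g 0 ∧ ∀ᶠ z in 𝓝 (0 : ℂ), f z = z ^ n * g z := by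
  obtain ⟨g, hg, h2⟩ := (natCast_le_analyticOrderAt hf).1
    ((natCast_le_analyticOrderAt_iff_iteratedDeriv_eq_zero hf).2 h)
  exact ⟨g, hg, by simpa using h2⟩

/-- `℘[L - 0] z = (g₂ / 20) z² + z⁴ h(z)` near `0`. -/
lemma exists_expansion_weierstrassPExcept :
    ∃ h : ℂ → ℂ, AnalyticAt ℂ h 0 ∧
      ∀ᶠ z in 𝓝 (0 : ℂ), ℘[L - (0 : ℂ)] z = L.g₂ / 20 * z ^ 2 + z ^ 4 * h z := by
  have hP : AnalyticAt ℂ ℘[L - (0 : ℂ)] 0 := L.analyticAt_weierstrassPExcept 0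
  have hf : AnalyticAt ℂ (fun z => ℘[L - (0 : ℂ)] z - L.g₂ / 20 * z ^ 2) 0 := by fun_prop
  obtain ⟨h, hh, he⟩ := exists_eq_pow_mul (n := 4) hf (by
    intro i hi
    have hc : ContDiffAt ℂ (i : ℕ∞) ℘[L - (0 : ℂ)] 0 := hP.contDiffAt
    have hc2 : ContDiffAt ℂ (i : ℕ∞) (fun z : ℂ => L.g₂ / 20 * z ^ 2) 0 := by fun_prop
    rw [iteratedDeriv_fun_sub hc hc2, L.iteratedDeriv_weierstrassPExcept_self,
      iteratedDeriv_const_mul_field, iteratedDeriv_fun_pow_zero]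
    interval_cases i
    · simp
    · simp [L.G_eq_zero_of_odd 3 (by decide)]
    · simp [PeriodPair.g₂]; norm_num [Nat.factorial]; ring
    · simp [L.G_eq_zero_of_odd 5 (by decide)])
  refine ⟨h, hh, he.mono fun z hz => ?_⟩
  linear_combination hz

/-- `℘'[L - 0] z = (g₂ / 10) z + z³ h(z)` near `0`. -/
lemma exists_expansion_derivWeierstrassPExcept :
    ∃ h : ℂ → ℂ, AnalyticAt ℂ h 0 ∧
      ∀ᶠ z in 𝓝 (0 : ℂ), ℘'[L - (0 : ℂ)] z = L.g₂ / 10 * z + z ^ 3 * h z := by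
  have hP : AnalyticAt ℂ ℘'[L - (0 : ℂ)] 0 := L.analyticAt_derivWeierstrassPExcept 0
  have hf : AnalyticAt ℂ (fun z => ℘'[L - (0 : ℂ)] z - L.g₂ / 10 * z ^ 1) 0 := by fun_prop
  obtain ⟨h, hh, he⟩ := exists_eq_pow_mul (n := 3) hf (by
    intro i hi
    have hc : ContDiffAt ℂ (i : ℕ∞) ℘'[L - (0 : ℂ)] 0 := hP.contDiffAt
    have hc2 : ContDiffAt ℂ (i : ℕ∞) (fun z : ℂ => L.g₂ / 10 * z ^ 1) 0 := by fun_prop
    rw [iteratedDeriv_fun_sub hc hc2, L.iteratedDeriv_derivWeierstrassPExcept_self,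
      iteratedDeriv_const_mul_field, iteratedDeriv_fun_pow_zero]
    interval_cases i
    · simp [L.G_eq_zero_of_odd 3 (by decide)]
    · simp [PeriodPair.g₂]; norm_num [Nat.factorial]; ring
    · simp [L.G_eq_zero_of_odd 5 (by decide)])
  refine ⟨h, hh, he.mono fun z hz => ?_⟩
  linear_combination hz

end Fermat.Agent.M15.EllTaylor7
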