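import Fermat.Agent.M15.EllDeriv7
import Fermat.Agent.M15.EllTaylor7

set_option autoImplicit false

open Filter Topology
open scoped PeriodPair Nat

noncomputable section

namespace Fermat.Agent.M15.EllShift7

open PeriodPair EllDeriv7 EllTaylor7

variable (L : PeriodPair)

/-- Taylor expansion with analytic remainder. -/
lemma exists_taylor {f : ℂ → ℂ} (hf : AnalyticAt ℂ f 0) (n : ℕ) :
    ∃ g : ℂ → ℂ, AnalyticAt ℂ g 0 ∧ ∀ᶠ z in 𝓝 (0 : ℂ),
      f z = ∑ i ∈ Finset.range n, iteratedDeriv i f 0 / (i ! : ℂ) * z ^ i + z ^ n * g z := by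
  set T : ℂ → ℂ := fun z => ∑ i ∈ Finset.range n, iteratedDeriv i f 0 / (i ! : ℂ) * z ^ i with hT
  have hTan : AnalyticAt ℂ T 0 := by
    rw [hT]
    exact Finset.analyticAt_fun_sum _ fun i _ => by fun_prop
  have hF : AnalyticAt ℂ (fun z => f z - T z) 0 := hf.sub hTan
  obtain ⟨g, hg, he⟩ := exists_eq_pow_mul (n := n) hF (by
    intro i hi
    have hc : ContDiffAt ℂ (i : ℕ∞) f 0 := hf.contDiffAt
    have hc2 : ContDiffAt ℂ (i : ℕ∞) T 0 := hTan.contDiffAt
    rw [iteratedDeriv_fun_sub hc hc2, hT, iteratedDeriv_fun_sum (fun j _ => by fun_prop)]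
    simp only [iteratedDeriv_const_mul_field, iteratedDeriv_fun_pow_zero]
    rw [Finset.sum_eq_single i]
    · simp only [if_true]
      have : ((i ! : ℕ) : ℂ) ≠ 0 := by exact_mod_cast Nat.factorial_ne_zero i
      field_simp
      ring
    · intro j _ hji
      simp [Ne.symm hji]
    · intro hi'
      exact absurd (Finset.mem_range.mpr hi) hi')
  refine ⟨g, hg, he.mono fun z hz => ?_⟩
  linear_combination hz

/-- `℘''' = 12 ℘ ℘'` off the lattice. -/
theorem deriv_deriv_derivWeierstrassP {w : ℂ} (hw : w ∉ L.lattice) :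
    deriv (deriv ℘'[L]) w = 12 * ℘[L] w * ℘'[L] w := by
  have heq : deriv ℘'[L] =ᶠ[𝓝 w] fun z => 6 * ℘[L] z ^ 2 - L.g₂ / 2 := by
    filter_upwards [(isOpen_compl_lattice L).mem_nhds hw] with z hz
    exact deriv_derivWeierstrassP L hz
  rw [heq.deriv_eq]
  have hP := hasDerivAt_weierstrassP L hw
  have := (((hP.fun_pow 2).const_mul 6).sub_const (L.g₂ / 2)).deriv
  rw [this]
  push_cast
  ring

/-- Expansion of `℘(z + w)` at `z = 0` to order `3` with analytic remainder. -/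
lemma exists_expansion_shift {w : ℂ} (hw : w ∉ L.lattice) :
    ∃ h : ℂ → ℂ, AnalyticAt ℂ h 0 ∧ ∀ᶠ z in 𝓝 (0 : ℂ),
      ℘[L] (z + w) = ℘[L] w + ℘'[L] w * z + (6 * ℘[L] w ^ 2 - L.g₂ / 2) / 2 * z ^ 2 +
        (12 * ℘[L] w * ℘'[L] w) / 6 * z ^ 3 + z ^ 4 * h z := by
  have hf : AnalyticAt ℂ (fun z => ℘[L] (z + w)) 0 := by
    have h1 : AnalyticAt ℂ ℘[L] (0 + w) := by
      rw [zero_add]; exact L.analyticOnNhd_weierstrassP w hw
    exact h1.comp_of_eq (f := fun z : ℂ => z + w) (by fun_prop) rfl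
  obtain ⟨h, hh, he⟩ := exists_taylor hf 4
  refine ⟨h, hh, he.mono fun z hz => ?_⟩
  rw [hz]
  have e0 : iteratedDeriv 0 (fun z => ℘[L] (z + w)) 0 = ℘[L] w := by simp
  have e1 : iteratedDeriv 1 (fun z => ℘[L] (z + w)) 0 = ℘'[L] w := by
    rw [iteratedDeriv_comp_add_const]
    simp [iteratedDeriv_one, L.deriv_weierstrassP]
  have e2 : iteratedDeriv 2 (fun z => ℘[L] (z + w)) 0 = 6 * ℘[L] w ^ 2 - L.g₂ / 2 := by
    rw [iteratedDeriv_comp_add_const]
    simp only [zero_add]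
    rw [iteratedDeriv_succ, iteratedDeriv_one, L.deriv_weierstrassP]
    exact deriv_derivWeierstrassP L hw
  have e3 : iteratedDeriv 3 (fun z => ℘[L] (z + w)) 0 = 12 * ℘[L] w * ℘'[L] w := by
    rw [iteratedDeriv_comp_add_const]
    simp only [zero_add]
    rw [iteratedDeriv_succ, iteratedDeriv_succ, iteratedDeriv_one, L.deriv_weierstrassP]
    exact deriv_deriv_derivWeierstrassP L hw
  simp only [Finset.sum_range_succ, Finset.sum_range_zero, e0, e1, e2, e3]
  norm_num [Nat.factorial]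

end Fermat.Agent.M15.EllShift7
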