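import Mathlib

set_option autoImplicit false

open Filter Topology
open scoped PeriodPair

noncomputable section

namespace Fermat.Agent.M15.EllBasic7

open PeriodPair

variable (L : PeriodPair)

/-- Liouville for lattice-periodic entire functions (public restatement of the argument inside
Mathlib's proof of the differential equation of `℘`). -/
theorem eq_of_periodic_of_differentiable {f : ℂ → ℂ} (hf : Differentiable ℂ f)
    (hper : ∀ (z : ℂ) (l : L.lattice), f (z + l) = f z) (x y : ℂ) : f x = f y :=
  hf.apply_eq_apply_of_bounded (IsZLattice.isCompact_range_of_periodic L.lattice _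
    hf.continuous fun z w hw ↦ by lift w to L.lattice using hw; exact hper z w).isBounded x y

/-- If `F` agrees with an analytic `g` on a punctured neighbourhood of `x` and at `x`, it is
analytic at `x`. -/
theorem analyticAt_of_eventuallyEq_nhdsNE {F g : ℂ → ℂ} {x : ℂ} (hg : AnalyticAt ℂ g x)
    (h : F =ᶠ[𝓝[≠] x] g) (hx : F x = g x) : AnalyticAt ℂ F x :=
  hg.congr (eventuallyEq_nhds_of_eventuallyEq_nhdsNE h hx).symm

/-- **Liouville for lattice-periodic meromorphic functions without poles.**  A meromorphic function
on `ℂ` which is `L`-periodic and has nonnegative order everywhere is constant on the set where it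
is analytic. -/
theorem exists_const_of_meromorphic_periodic {f : ℂ → ℂ} (hf : MeromorphicOn f Set.univ)
    (hord : ∀ x, 0 ≤ meromorphicOrderAt f x)
    (hper : ∀ (z : ℂ) (l : L.lattice), f (z + l) = f z) :
    ∃ c : ℂ, ∀ x, AnalyticAt ℂ f x → f x = c := by
  set g := toMeromorphicNFOn f Set.univ with hg
  have hgNF : MeromorphicNFOn g Set.univ := meromorphicNFOn_toMeromorphicNFOn f Set.univ
  have hgan : ∀ x, AnalyticAt ℂ g x := fun x => by
    rw [← (hgNF (Set.mem_univ x)).meromorphicOrderAt_nonneg_iff_analyticAt,
      meromorphicOrderAt_toMeromorphicNFOn hf (Set.mem_univ x)]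
    exact hord x
  have hgd : Differentiable ℂ g := fun x => (hgan x).differentiableAt
  have hfg : ∀ x, g =ᶠ[𝓝[≠] x] f := fun x => hf.toMeromorphicNFOn_eq_self_on_nhdsNE (Set.mem_univ x)
  have hgper : ∀ (z : ℂ) (l : L.lattice), g (z + l) = g z := by
    intro z l
    -- both sides are continuous in `z` and agree on a punctured neighbourhood
    have h1 : Tendsto (fun w => g (w + l)) (𝓝[≠] z) (𝓝 (g (z + l))) :=
      ((hgd.continuous.comp (continuous_add_const (l : ℂ))).tendsto z).mono_left nhdsWithin_le_nhds
    have h2 : Tendsto g (𝓝[≠] z) (𝓝 (g z)) := (hgd.continuous.tendsto z).mono_left nhdsWithin_le_nhds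
    have h3 : (fun w => g (w + l)) =ᶠ[𝓝[≠] z] g := by
      have ha : Tendsto (fun w : ℂ => w + l) (𝓝[≠] z) (𝓝[≠] (z + l)) := by
        refine tendsto_nhdsWithin_of_tendsto_nhds_of_eventually_within _
          (((continuous_add_const (l : ℂ)).tendsto z).mono_left nhdsWithin_le_nhds) ?_
        filter_upwards [self_mem_nhdsWithin] with w hw
        simpa using hw
      have hb := ha.eventually (hfg (z + l))
      filter_upwards [hb, hfg z] with w hw1 hw2
      rw [hw1, hw2, hper]
    exact tendsto_nhds_unique (h1.congr' h3) h2
  refine ⟨g 0, fun x hx => ?_⟩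
  have hxg : g x = f x := by
    have : MeromorphicNFAt f x := hx.meromorphicNFAt
    rw [hg, toMeromorphicNFOn_eq_toMeromorphicNFAt hf (Set.mem_univ x)]
    exact congrFun (toMeromorphicNFAt_eq_self.2 this) x
  rw [← hxg]
  exact eq_of_periodic_of_differentiable L hgd hgper x 0

end Fermat.Agent.M15.EllBasic7
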