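import Mathlib

set_option autoImplicit false

open Filter Topology
open scoped PeriodPair

noncomputable section

namespace Fermat.Agent.M15.EllDeriv7

open PeriodPair

variable (L : PeriodPair)

lemma countable_lattice : (L.lattice : Set ℂ).Countable := by
  have : Countable L.lattice := Countable.of_equiv _ L.latticeEquivProd.toEquiv.symm
  exact Set.countable_coe_iff.mp this

lemma isPreconnected_compl_lattice : IsPreconnected ((L.lattice : Set ℂ)ᶜ) :=
  ((countable_lattice L).isConnected_compl_of_one_lt_rank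
    (by simp only [Complex.rank_real_complex, Nat.one_lt_ofNat])).isPreconnected

lemma isOpen_compl_lattice : IsOpen ((L.lattice : Set ℂ)ᶜ) := L.isClosed_lattice.isOpen_compl

lemma hasDerivAt_weierstrassP {z : ℂ} (hz : z ∉ L.lattice) :
    HasDerivAt ℘[L] (℘'[L] z) z := by
  have h := ((L.analyticOnNhd_weierstrassP z hz).differentiableAt).hasDerivAt
  rwa [L.deriv_weierstrassP] at h

lemma differentiableAt_derivWeierstrassP {z : ℂ} (hz : z ∉ L.lattice) :
    DifferentiableAt ℂ ℘'[L] z := (L.analyticOnNhd_derivWeierstrassP z hz).differentiableAt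

/-- `℘'` is not identically zero near any point off the lattice. -/
lemma not_eventually_derivWeierstrassP_eq_zero {z₀ : ℂ} (hz₀ : z₀ ∉ L.lattice) :
    ¬ ∀ᶠ z in 𝓝 z₀, ℘'[L] z = 0 := by
  intro h
  have h0 : Set.EqOn ℘'[L] 0 ((L.lattice : Set ℂ)ᶜ) :=
    L.analyticOnNhd_derivWeierstrassP.eqOn_zero_of_preconnected_of_eventuallyEq_zero
      (isPreconnected_compl_lattice L) hz₀ h
  -- then `℘` has zero derivative on the connected open set `Lᶜ`, hence is constant there,
  -- contradicting the pole at `0`.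
  have hconst : ∀ z ∈ ((L.lattice : Set ℂ)ᶜ), ℘[L] z = ℘[L] z₀ := by
    have hd : DifferentiableOn ℂ ℘[L] ((L.lattice : Set ℂ)ᶜ) := L.differentiableOn_weierstrassP
    have hderiv : Set.EqOn (deriv ℘[L]) 0 ((L.lattice : Set ℂ)ᶜ) := by
      intro z hz
      rw [L.deriv_weierstrassP]; exact h0 hz
    intro z hz
    exact (isOpen_compl_lattice L).is_const_of_deriv_eq_zero (isPreconnected_compl_lattice L) hd
      hderiv hz hz₀
  -- `℘` is then continuous at `0` after all: contradiction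
  apply L.not_continuousAt_weierstrassP 0 (zero_mem _)
  have hev : ∀ᶠ z in 𝓝[≠] (0 : ℂ), ℘[L] z = ℘[L] z₀ := by
    have := L.compl_lattice_sdiff_singleton_mem_nhds 0
    filter_upwards [mem_nhdsWithin_of_mem_nhds this, self_mem_nhdsWithin] with z hz hz0
    refine hconst z ?_
    intro hzL
    exact hz ⟨hzL, hz0⟩
  -- order of pole is -2, but eventually constant means order ≥ 0
  have hord := L.order_weierstrassP 0 (zero_mem _)
  have h2 : meromorphicOrderAt ℘[L] 0 = meromorphicOrderAt (fun _ : ℂ => ℘[L] z₀) 0 :=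
    meromorphicOrderAt_congr hev
  rw [hord] at h2
  have h3 : (0 : WithTop ℤ) ≤ meromorphicOrderAt (fun _ : ℂ => ℘[L] z₀) 0 :=
    (analyticAt_const (𝕜 := ℂ) (v := ℘[L] z₀) (x := (0:ℂ))).meromorphicOrderAt_nonneg
  rw [← h2] at h3
  exact absurd h3 (by decide)

/-- `℘'' = 6 ℘² - g₂ / 2` off the lattice. -/
theorem deriv_derivWeierstrassP {z₀ : ℂ} (hz₀ : z₀ ∉ L.lattice) :
    deriv ℘'[L] z₀ = 6 * ℘[L] z₀ ^ 2 - L.g₂ / 2 := by
  set U : Set ℂ := (L.lattice : Set ℂ)ᶜ
  have hU : IsOpen U := isOpen_compl_lattice L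
  -- the derivative of the differential equation
  have key : ∀ z ∈ U, ℘'[L] z * (2 * deriv ℘'[L] z - (12 * ℘[L] z ^ 2 - L.g₂)) = 0 := by
    intro z hz
    have h1 : HasDerivAt (fun w => ℘'[L] w ^ 2) (2 * ℘'[L] z * deriv ℘'[L] z) z := by
      have := ((differentiableAt_derivWeierstrassP L hz).hasDerivAt).fun_pow 2
      simpa using this
    have h2 : HasDerivAt (fun w => 4 * ℘[L] w ^ 3 - L.g₂ * ℘[L] w - L.g₃)
        (4 * (3 * ℘[L] z ^ 2 * ℘'[L] z) - L.g₂ * ℘'[L] z) z := by
      have hP := hasDerivAt_weierstrassP L hz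
      have := (((hP.fun_pow 3).const_mul 4).sub (hP.const_mul L.g₂)).sub_const L.g₃
      simpa using this
    have heq : (fun w => ℘'[L] w ^ 2) =ᶠ[𝓝 z] fun w => 4 * ℘[L] w ^ 3 - L.g₂ * ℘[L] w - L.g₃ := by
      filter_upwards [hU.mem_nhds hz] with w hw
      exact L.derivWeierstrassP_sq w hw
    have := h1.unique (h2.congr_of_eventuallyEq heq)
    linear_combination this
  have hcont : ContinuousAt (fun z => 2 * deriv ℘'[L] z - (12 * ℘[L] z ^ 2 - L.g₂)) z₀ := by
    have h1 : AnalyticAt ℂ ℘'[L] z₀ := L.analyticOnNhd_derivWeierstrassP z₀ hz₀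
    have h2 : AnalyticAt ℂ ℘[L] z₀ := L.analyticOnNhd_weierstrassP z₀ hz₀
    have h3 : AnalyticAt ℂ (deriv ℘'[L]) z₀ := h1.deriv
    exact ((analyticAt_const.mul h3).sub (((analyticAt_const.mul (h2.pow 2))).sub
      analyticAt_const)).continuousAt
  rcases (L.analyticOnNhd_derivWeierstrassP z₀ hz₀).eventually_eq_zero_or_eventually_ne_zero with
    h | h
  · exact absurd h (not_eventually_derivWeierstrassP_eq_zero L hz₀)
  · have hev : ∀ᶠ z in 𝓝[≠] z₀, 2 * deriv ℘'[L] z - (12 * ℘[L] z ^ 2 - L.g₂) = 0 := by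
      filter_upwards [h, mem_nhdsWithin_of_mem_nhds (hU.mem_nhds hz₀)] with z hz hzU
      exact (mul_eq_zero.mp (key z hzU)).resolve_left hz
    have hlim : Tendsto (fun z => 2 * deriv ℘'[L] z - (12 * ℘[L] z ^ 2 - L.g₂)) (𝓝[≠] z₀)
        (𝓝 (2 * deriv ℘'[L] z₀ - (12 * ℘[L] z₀ ^ 2 - L.g₂))) :=
      hcont.tendsto.mono_left nhdsWithin_le_nhds
    have h0 : Tendsto (fun z => 2 * deriv ℘'[L] z - (12 * ℘[L] z ^ 2 - L.g₂)) (𝓝[≠] z₀) (𝓝 0) :=
      (tendsto_const_nhds).congr' (hev.mono fun z hz => hz.symm)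
    have := tendsto_nhds_unique hlim h0
    linear_combination this / 2

end Fermat.Agent.M15.EllDeriv7
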