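/-
Programme M15, chapter R1 (MOD-glob), helper7: **the additive Vélu formula** for Weierstrass `℘`.

For a period pair `L = (ω₁, ω₂)` and `p ≠ 0` put `L' = divPair L p = (ω₁ / p, ω₂)` (so that
`L'.lattice = L.lattice + ℤ ω₁ / p`).  Then, off `L'.lattice`,

  `℘[L'] z = ℘[L] z + ∑_{r = 1}^{p - 1} (℘[L] (z + r ω₁ / p) - ℘[L] (r ω₁ / p))`.

Proof: the difference is `L'`-periodic, meromorphic and without poles (the principal parts cancel at
`0`), hence constant by `EllBasic7.exists_const_of_meromorphic_periodic`, and the constant is `0`.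
Imports Mathlib + `EllBasic7` only.
-/
import Fermat.Agent.M15.EllBasic7
import Fermat.Agent.M15.EllDeriv7

set_option autoImplicit false

open Filter Topology
open scoped PeriodPair Nat

noncomputable section

namespace Fermat.Agent.M15.VeluAdd7

open PeriodPair EllBasic7 EllDeriv7

/-- The period pair `(ω₁ / p, ω₂)`. -/
def divPair (L : PeriodPair) (p : ℕ) (hp : p ≠ 0) : PeriodPair where
  ω₁ := L.ω₁ / p
  ω₂ := L.ω₂
  indep := by
    rw [LinearIndependent.pair_iff]
    intro s t h
    have hp' : (p : ℝ) ≠ 0 := by exact_mod_cast hp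
    have := LinearIndependent.pair_iff.mp L.indep (s / p) t (by
      rw [← h]
      simp only [Complex.real_smul]
      push_cast
      ring)
    refine ⟨?_, this.2⟩
    have h1 := this.1
    field_simp at h1
    simpa using h1

variable (L : PeriodPair) (p : ℕ) (hp : p ≠ 0)

@[simp] lemma divPair_ω₁ : (divPair L p hp).ω₁ = L.ω₁ / p := rfl
@[simp] lemma divPair_ω₂ : (divPair L p hp).ω₂ = L.ω₂ := rfl

/-- The division point `r ω₁ / p`. -/
def divPt (r : ℕ) : ℂ := (r : ℂ) * L.ω₁ / p

lemma divPt_zero : divPt L p 0 = 0 := by simp [divPt]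

include hp in
lemma divPt_self : divPt L p p = L.ω₁ := by
  have hp' : (p : ℂ) ≠ 0 := by exact_mod_cast hp
  simp only [divPt]
  field_simp

lemma divPt_succ (r : ℕ) : divPt L p (r + 1) = divPt L p r + L.ω₁ / p := by
  simp only [divPt]
  push_cast
  ring

lemma lattice_le_divPair : L.lattice ≤ (divPair L p hp).lattice := by
  intro x hx
  obtain ⟨m, n, rfl⟩ := mem_lattice.mp hx
  refine mem_lattice.mpr ⟨m * p, n, ?_⟩
  have hp' : (p : ℂ) ≠ 0 := by exact_mod_cast hp
  simp only [divPair_ω₁, divPair_ω₂]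
  push_cast
  field_simp

lemma divPt_mem_lattice_divPair (r : ℕ) : divPt L p r ∈ (divPair L p hp).lattice := by
  refine mem_lattice.mpr ⟨r, 0, ?_⟩
  simp only [divPair_ω₁, divPair_ω₂, divPt]
  push_cast
  ring

lemma divPt_notMem_lattice {r : ℕ} (hr0 : 0 < r) (hrp : r < p) : divPt L p r ∉ L.lattice := by
  intro h
  obtain ⟨m, n, e⟩ := mem_lattice.mp h
  have hp0 : p ≠ 0 := by omega
  have hp' : (p : ℝ) ≠ 0 := by exact_mod_cast hp0
  have hpc : (p : ℂ) ≠ 0 := by exact_mod_cast hp0
  have := LinearIndependent.pair_iff.mp L.indep ((m : ℝ) - (r : ℝ) / p) (n : ℝ) (by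
    simp only [Complex.real_smul, divPt] at e ⊢
    push_cast
    linear_combination e)
  have h1 : (m : ℝ) * p = r := by
    have := this.1
    field_simp at this
    linarith
  have h2 : m * (p : ℤ) = (r : ℤ) := by exact_mod_cast h1
  have hm : 0 < m := by
    by_contra hm
    rw [not_lt] at hm
    have : m * (p : ℤ) ≤ 0 := mul_nonpos_of_nonpos_of_nonneg hm (by positivity)
    have hr : (0 : ℤ) < r := by exact_mod_cast hr0
    omega
  have : (p : ℤ) ≤ m * p := le_mul_of_one_le_left (by positivity) hm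
  have hrp' : (r : ℤ) < p := by exact_mod_cast hrp
  omega

/-- `x + r ω₁ / p ∉ L` when `x ∉ L'`. -/
lemma add_divPt_notMem {x : ℂ} (hx : x ∉ (divPair L p hp).lattice) (r : ℕ) :
    x + divPt L p r ∉ L.lattice := fun h => hx (by
  have h1 := lattice_le_divPair L p hp h
  have h2 := divPt_mem_lattice_divPair L p hp r
  simpa using (divPair L p hp).lattice.sub_mem h1 h2)

/-- The full translate sum `∑_{r < p} ℘[L] (z + r ω₁ / p)`. -/
def trSum (z : ℂ) : ℂ := ∑ r ∈ Finset.range p, ℘[L] (z + divPt L p r)

/-- The Vélu defect `℘[L'] z - ∑_{r < p} ℘[L] (z + r ω₁ / p) + ∑_{1 ≤ r < p} ℘[L] (r ω₁ / p)`. -/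
def defect (z : ℂ) : ℂ :=
  ℘[divPair L p hp] z - trSum L p z + ∑ r ∈ Finset.Ico 1 p, ℘[L] (divPt L p r)

lemma trSum_add_coe (z : ℂ) (l : L.lattice) : trSum L p (z + l) = trSum L p z := by
  unfold trSum
  refine Finset.sum_congr rfl fun r _ => ?_
  rw [add_right_comm, L.weierstrassP_add_coe]

include hp in
lemma trSum_add_div (z : ℂ) : trSum L p (z + L.ω₁ / p) = trSum L p z := by
  unfold trSum
  have h1 : ∀ r : ℕ, z + L.ω₁ / p + divPt L p r = z + divPt L p (r + 1) := fun r => by
    rw [divPt_succ]; ring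
  simp only [h1]
  obtain ⟨q, rfl⟩ : ∃ q, p = q + 1 := Nat.exists_eq_succ_of_ne_zero hp
  rw [Finset.sum_range_succ (fun r => ℘[L] (z + divPt L (q + 1) (r + 1))) q,
    Finset.sum_range_succ' (fun r => ℘[L] (z + divPt L (q + 1) r)) q]
  rw [divPt_self L (q + 1) hp, divPt_zero, add_zero]
  have := L.weierstrassP_add_coe z ⟨L.ω₁, L.ω₁_mem_lattice⟩
  simp only at this
  rw [this]

/-- The group of periods of the defect. -/
def periods : AddSubgroup ℂ where
  carrier := {c | ∀ z, defect L p hp (z + c) = defect L p hp z}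
  zero_mem' := fun z => by rw [add_zero]
  add_mem' := fun {a b} ha hb z => by rw [← add_assoc, hb, ha]
  neg_mem' := fun {a} ha z => by
    have := ha (z + -a)
    rw [neg_add_cancel_right] at this
    exact this.symm

lemma divPair_lattice_le_periods :
    (divPair L p hp).lattice ≤ AddSubgroup.toIntSubmodule (periods L p hp) := by
  unfold PeriodPair.lattice
  rw [Submodule.span_le]
  rintro x (rfl | rfl)
  · intro z
    unfold defect
    have h1 := (divPair L p hp).weierstrassP_add_coe z
      ⟨(divPair L p hp).ω₁, (divPair L p hp).ω₁_mem_lattice⟩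
    simp only at h1
    rw [h1, divPair_ω₁, trSum_add_div L p hp]
  · intro z
    unfold defect
    have h1 := (divPair L p hp).weierstrassP_add_coe z
      ⟨(divPair L p hp).ω₂, (divPair L p hp).ω₂_mem_lattice⟩
    simp only at h1
    rw [h1, divPair_ω₂]
    have h2 := trSum_add_coe L p z ⟨L.ω₂, L.ω₂_mem_lattice⟩
    simp only at h2
    rw [h2]

lemma defect_add_coe (z : ℂ) (l : (divPair L p hp).lattice) :
    defect L p hp (z + l) = defect L p hp z :=
  divPair_lattice_le_periods L p hp l.2 z

lemma meromorphicAt_defect (x : ℂ) : MeromorphicAt (defect L p hp) x := by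
  unfold defect trSum
  refine (((divPair L p hp).meromorphic_weierstrassP x).sub
    (MeromorphicAt.fun_sum fun r _ => ?_)).add (MeromorphicAt.const _ x)
  exact meromorphicAt_fun_comp_add_const_iff_meromorphicAt.2 (L.meromorphic_weierstrassP _)

/-- The explicit regular function equal to the defect (everywhere, thanks to the junk values). -/
def defectReg (z : ℂ) : ℂ :=
  (weierstrassPExcept (divPair L p hp) 0) z - ℘[L - (0 : ℂ)] z -
    ∑ r ∈ Finset.Ico 1 p, (℘[L] (z + divPt L p r) - ℘[L] (divPt L p r))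

lemma wp_eq_except_add (L : PeriodPair) (z : ℂ) : ℘[L] z = ℘[L - (0 : ℂ)] z + 1 / z ^ 2 := by
  have h := L.weierstrassPExcept_def (0 : L.lattice) z
  simp only [ZeroMemClass.coe_zero, sub_zero] at h
  rw [h]
  simp

include hp in
lemma defect_eq_defectReg (z : ℂ) : defect L p hp z = defectReg L p hp z := by
  unfold defect defectReg trSum
  rw [Finset.range_eq_Ico, Finset.sum_eq_sum_Ico_succ_bot (Nat.pos_of_ne_zero hp),
    divPt_zero, add_zero, wp_eq_except_add (divPair L p hp) z, wp_eq_except_add L z,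
    Finset.sum_sub_distrib]
  ring

lemma analyticAt_defectReg_zero : AnalyticAt ℂ (defectReg L p hp) 0 := by
  unfold defectReg
  have h1 : AnalyticAt ℂ (weierstrassPExcept (divPair L p hp) 0) 0 :=
    (divPair L p hp).analyticAt_weierstrassPExcept 0
  have h2 : AnalyticAt ℂ ℘[L - (0 : ℂ)] 0 := L.analyticAt_weierstrassPExcept 0
  refine (h1.sub h2).sub (Finset.analyticAt_fun_sum _ fun r hr => ?_)
  have hr' := Finset.mem_Ico.mp hr
  have h3 : AnalyticAt ℂ ℘[L] (0 + divPt L p r) := by
    rw [zero_add]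
    exact L.analyticOnNhd_weierstrassP _ (divPt_notMem_lattice L p (by omega) hr'.2)
  exact (h3.comp_of_eq (f := fun z : ℂ => z + divPt L p r) (by fun_prop) rfl).sub analyticAt_const

lemma defectReg_zero : defectReg L p hp 0 = 0 := by
  unfold defectReg
  simp

lemma analyticAt_defect {x : ℂ} (hx : x ∉ (divPair L p hp).lattice) :
    AnalyticAt ℂ (defect L p hp) x := by
  unfold defect trSum
  refine (((divPair L p hp).analyticOnNhd_weierstrassP x hx).sub
    (Finset.analyticAt_fun_sum _ fun r _ => ?_)).add analyticAt_const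
  exact (L.analyticOnNhd_weierstrassP _ (add_divPt_notMem L p hp hx r)).comp_of_eq
    (f := fun z : ℂ => z + divPt L p r) (by fun_prop) rfl

lemma meromorphicOrderAt_defect_nonneg (x : ℂ) : 0 ≤ meromorphicOrderAt (defect L p hp) x := by
  by_cases hx : x ∈ (divPair L p hp).lattice
  · -- translate to `0`
    have hR : AnalyticAt ℂ (fun z => defectReg L p hp (z - x)) x := by
      have : AnalyticAt ℂ (defectReg L p hp) (x - x) := by
        rw [sub_self]; exact analyticAt_defectReg_zero L p hp
      exact this.comp_of_eq (f := fun z : ℂ => z - x) (by fun_prop) rfl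
    have he : defect L p hp = fun z => defectReg L p hp (z - x) := by
      funext z
      rw [← defect_eq_defectReg L p hp, ← defect_add_coe L p hp (z - x) ⟨x, hx⟩, sub_add_cancel]
    rw [he]
    exact hR.meromorphicOrderAt_nonneg
  · exact (analyticAt_defect L p hp hx).meromorphicOrderAt_nonneg

/-- **The additive Vélu formula**: `℘[L'] z = ℘[L] z + ∑_{1 ≤ r < p} (℘[L] (z + r ω₁/p) - ℘[L] (r ω₁/p))`
off `L' = L + ℤ ω₁ / p`. -/
theorem weierstrassP_divPair {z : ℂ} (hz : z ∉ (divPair L p hp).lattice) :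
    ℘[divPair L p hp] z =
      ℘[L] z + ∑ r ∈ Finset.Ico 1 p, (℘[L] (z + divPt L p r) - ℘[L] (divPt L p r)) := by
  obtain ⟨c, hc⟩ := exists_const_of_meromorphic_periodic (divPair L p hp)
    (fun x _ => meromorphicAt_defect L p hp x) (meromorphicOrderAt_defect_nonneg L p hp)
    (defect_add_coe L p hp)
  have h0 : AnalyticAt ℂ (defect L p hp) 0 := by
    have : defect L p hp = defectReg L p hp := funext (defect_eq_defectReg L p hp)
    rw [this]; exact analyticAt_defectReg_zero L p hp
  have hc0 : c = 0 := by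
    rw [← hc 0 h0, defect_eq_defectReg L p hp, defectReg_zero]
  have hz' := hc z (analyticAt_defect L p hp hz)
  rw [hc0] at hz'
  unfold defect trSum at hz'
  rw [Finset.range_eq_Ico, Finset.sum_eq_sum_Ico_succ_bot (Nat.pos_of_ne_zero hp),
    divPt_zero, add_zero] at hz'
  rw [Finset.sum_sub_distrib]
  linear_combination hz'

end Fermat.Agent.M15.VeluAdd7
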