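/-
Programme M15, chapter R1 (MOD-glob), helper7: **Vélu's invariants, analytic form**.

With `L' = divPair L p = (ω₁ / p, ω₂)` and `c_r = r ω₁ / p`:

  `g₂(L') = g₂(L) + ∑_{1 ≤ r < p} (60 ℘(c_r)² - 5 g₂(L))`,
  `g₃(L') = g₃(L) + ∑_{1 ≤ r < p} (140 ℘(c_r)³ - 21 g₂(L) ℘(c_r) - 14 g₃(L))`.

Proof: second and fourth Taylor coefficient at `0` of the additive Vélu formula
(`VeluAdd7.weierstrassP_divPair`), with `℘'' = 6℘² - g₂/2`, `℘'''' = 120℘³ - 18 g₂ ℘ - 12 g₃`.
-/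
import Fermat.Agent.M15.VeluAdd7
import Fermat.Agent.M15.EllShift7

set_option autoImplicit false

open Filter Topology
open scoped PeriodPair Nat

noncomputable section

namespace Fermat.Agent.M15.VeluInv7

open PeriodPair EllBasic7 EllDeriv7 EllShift7 VeluAdd7

variable (L : PeriodPair)

theorem iteratedDeriv_two_weierstrassP {c : ℂ} (hc : c ∉ L.lattice) :
    iteratedDeriv 2 ℘[L] c = 6 * ℘[L] c ^ 2 - L.g₂ / 2 := by
  rw [iteratedDeriv_succ, iteratedDeriv_one, L.deriv_weierstrassP]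
  exact deriv_derivWeierstrassP L hc

/-- `℘'''' = 120 ℘³ - 18 g₂ ℘ - 12 g₃` off the lattice. -/
theorem iteratedDeriv_four_weierstrassP {c : ℂ} (hc : c ∉ L.lattice) :
    iteratedDeriv 4 ℘[L] c = 120 * ℘[L] c ^ 3 - 18 * L.g₂ * ℘[L] c - 12 * L.g₃ := by
  rw [iteratedDeriv_succ, iteratedDeriv_succ, iteratedDeriv_succ, iteratedDeriv_one,
    L.deriv_weierstrassP]
  have heq : deriv (deriv ℘'[L]) =ᶠ[𝓝 c] fun z => 12 * ℘[L] z * ℘'[L] z := by
    filter_upwards [(isOpen_compl_lattice L).mem_nhds hc] with z hz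
    exact deriv_deriv_derivWeierstrassP L hz
  rw [heq.deriv_eq]
  have hP := hasDerivAt_weierstrassP L hc
  have hP' : HasDerivAt ℘'[L] (deriv ℘'[L] c) c :=
    (differentiableAt_derivWeierstrassP L hc).hasDerivAt
  have h := ((hP.const_mul (12 : ℂ)).mul hP').deriv
  have e : (fun z => 12 * ℘[L] z * ℘'[L] z) = fun z => (12 * ℘[L] z) * ℘'[L] z := rfl
  rw [e]
  simp only [Pi.mul_def] at h
  rw [h, deriv_derivWeierstrassP L hc]
  have hode := L.derivWeierstrassP_sq c hc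
  linear_combination 12 * hode

variable (p : ℕ) (hp : p ≠ 0)

/-- the regular defect vanishes near `0` -/
lemma defectReg_eventuallyEq_zero : defectReg L p hp =ᶠ[𝓝 (0 : ℂ)] 0 := by
  have h1 : ∀ᶠ z in 𝓝[≠] (0 : ℂ), defectReg L p hp z = 0 := by
    filter_upwards [mem_nhdsWithin_of_mem_nhds
      ((divPair L p hp).compl_lattice_sdiff_singleton_mem_nhds 0), self_mem_nhdsWithin] with z hz hz0
    have hz' : z ∉ (divPair L p hp).lattice := fun h => hz ⟨h, hz0⟩
    have := weierstrassP_divPair L p hp hz'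
    rw [← defect_eq_defectReg L p hp]
    unfold defect trSum
    rw [Finset.range_eq_Ico, Finset.sum_eq_sum_Ico_succ_bot (Nat.pos_of_ne_zero hp),
      divPt_zero, add_zero, this, Finset.sum_sub_distrib]
    ring
  exact eventuallyEq_nhds_of_eventuallyEq_nhdsNE h1 (defectReg_zero L p hp)

/-- iterated derivatives of the regular defect at `0`, `n ≥ 1` -/
lemma iteratedDeriv_defectReg {n : ℕ} (hn : n ≠ 0) :
    iteratedDeriv n (defectReg L p hp) 0 =
      (n + 1)! * (divPair L p hp).G (n + 2) - (n + 1)! * L.G (n + 2) -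
        ∑ r ∈ Finset.Ico 1 p, iteratedDeriv n ℘[L] (divPt L p r) := by
  have h1 : AnalyticAt ℂ (weierstrassPExcept (divPair L p hp) 0) 0 :=
    (divPair L p hp).analyticAt_weierstrassPExcept 0
  have h2 : AnalyticAt ℂ ℘[L - (0 : ℂ)] 0 := L.analyticAt_weierstrassPExcept 0
  have h3 : ∀ r ∈ Finset.Ico 1 p,
      AnalyticAt ℂ (fun z => ℘[L] (z + divPt L p r) - ℘[L] (divPt L p r)) 0 := by
    intro r hr
    have hr' := Finset.mem_Ico.mp hr
    have h3 : AnalyticAt ℂ ℘[L] (0 + divPt L p r) := by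
      rw [zero_add]
      exact L.analyticOnNhd_weierstrassP _ (divPt_notMem_lattice L p (by omega) hr'.2)
    exact (h3.comp_of_eq (f := fun z : ℂ => z + divPt L p r) (by fun_prop) rfl).sub
      analyticAt_const
  have h4 : AnalyticAt ℂ (fun z => ∑ r ∈ Finset.Ico 1 p,
      (℘[L] (z + divPt L p r) - ℘[L] (divPt L p r))) 0 := Finset.analyticAt_fun_sum _ h3
  have h12 : AnalyticAt ℂ (fun z => weierstrassPExcept (divPair L p hp) 0 z - ℘[L - (0 : ℂ)] z) 0 :=
    h1.sub h2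
  unfold defectReg
  rw [iteratedDeriv_fun_sub h12.contDiffAt h4.contDiffAt,
    iteratedDeriv_fun_sub h1.contDiffAt h2.contDiffAt,
    iteratedDeriv_fun_sum (fun r hr => (h3 r hr).contDiffAt),
    (divPair L p hp).iteratedDeriv_weierstrassPExcept_self, L.iteratedDeriv_weierstrassPExcept_self,
    if_neg hn, if_neg hn, PeriodPair.sumInvPow_zero, PeriodPair.sumInvPow_zero]
  congr 1
  refine Finset.sum_congr rfl fun r hr => ?_
  have hr' := Finset.mem_Ico.mp hr
  have hc : AnalyticAt ℂ (fun z => ℘[L] (z + divPt L p r)) 0 := by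
    have h3 : AnalyticAt ℂ ℘[L] (0 + divPt L p r) := by
      rw [zero_add]
      exact L.analyticOnNhd_weierstrassP _ (divPt_notMem_lattice L p (by omega) hr'.2)
    exact h3.comp_of_eq (f := fun z : ℂ => z + divPt L p r) (by fun_prop) rfl
  rw [iteratedDeriv_fun_sub hc.contDiffAt analyticAt_const.contDiffAt,
    iteratedDeriv_comp_add_const, iteratedDeriv_const, if_neg hn]
  simp

/-- **Vélu's `g₂`.** -/
theorem g₂_divPair : (divPair L p hp).g₂ =
    L.g₂ + ∑ r ∈ Finset.Ico 1 p, (60 * ℘[L] (divPt L p r) ^ 2 - 5 * L.g₂) := by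
  have h0 : iteratedDeriv 2 (defectReg L p hp) 0 = 0 := by
    rw [(defectReg_eventuallyEq_zero L p hp).iteratedDeriv_eq]
    simp
  rw [iteratedDeriv_defectReg L p hp (by norm_num)] at h0
  have hsum : ∑ r ∈ Finset.Ico 1 p, iteratedDeriv 2 ℘[L] (divPt L p r) =
      ∑ r ∈ Finset.Ico 1 p, (6 * ℘[L] (divPt L p r) ^ 2 - L.g₂ / 2) :=
    Finset.sum_congr rfl fun r hr => by
      have hr' := Finset.mem_Ico.mp hr
      exact iteratedDeriv_two_weierstrassP L (divPt_notMem_lattice L p (by omega) hr'.2)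
  rw [hsum] at h0
  have e : ∑ r ∈ Finset.Ico 1 p, (60 * ℘[L] (divPt L p r) ^ 2 - 5 * L.g₂) =
      10 * ∑ r ∈ Finset.Ico 1 p, (6 * ℘[L] (divPt L p r) ^ 2 - L.g₂ / 2) := by
    rw [Finset.mul_sum]
    exact Finset.sum_congr rfl fun r _ => by ring
  rw [e]
  have h6 : (((2 + 1 : ℕ)! : ℕ) : ℂ) = 6 := by norm_num [Nat.factorial]
  rw [h6, show (2 + 2 : ℕ) = 4 from rfl] at h0
  have hg : (divPair L p hp).g₂ = 60 * (divPair L p hp).G 4 := rfl
  have hg' : L.g₂ = 60 * L.G 4 := rfl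
  linear_combination hg - hg' + 10 * h0

/-- **Vélu's `g₃`.** -/
theorem g₃_divPair : (divPair L p hp).g₃ =
    L.g₃ + ∑ r ∈ Finset.Ico 1 p,
      (140 * ℘[L] (divPt L p r) ^ 3 - 21 * L.g₂ * ℘[L] (divPt L p r) - 14 * L.g₃) := by
  have h0 : iteratedDeriv 4 (defectReg L p hp) 0 = 0 := by
    rw [(defectReg_eventuallyEq_zero L p hp).iteratedDeriv_eq]
    simp
  rw [iteratedDeriv_defectReg L p hp (by norm_num)] at h0
  have hsum : ∑ r ∈ Finset.Ico 1 p, iteratedDeriv 4 ℘[L] (divPt L p r) =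
      ∑ r ∈ Finset.Ico 1 p,
        (120 * ℘[L] (divPt L p r) ^ 3 - 18 * L.g₂ * ℘[L] (divPt L p r) - 12 * L.g₃) :=
    Finset.sum_congr rfl fun r hr => by
      have hr' := Finset.mem_Ico.mp hr
      exact iteratedDeriv_four_weierstrassP L (divPt_notMem_lattice L p (by omega) hr'.2)
  rw [hsum] at h0
  have e : ∑ r ∈ Finset.Ico 1 p,
      (140 * ℘[L] (divPt L p r) ^ 3 - 21 * L.g₂ * ℘[L] (divPt L p r) - 14 * L.g₃) =
      (7 / 6 : ℂ) * ∑ r ∈ Finset.Ico 1 p,
        (120 * ℘[L] (divPt L p r) ^ 3 - 18 * L.g₂ * ℘[L] (divPt L p r) - 12 * L.g₃) := by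
    rw [Finset.mul_sum]
    exact Finset.sum_congr rfl fun r _ => by ring
  rw [e]
  have h6 : (((4 + 1 : ℕ)! : ℕ) : ℂ) = 120 := by norm_num [Nat.factorial]
  rw [h6, show (4 + 2 : ℕ) = 6 from rfl] at h0
  have hg : (divPair L p hp).g₃ = 140 * (divPair L p hp).G 6 := rfl
  have hg' : L.g₃ = 140 * L.G 6 := rfl
  linear_combination hg - hg' + (7 / 6 : ℂ) * h0

end Fermat.Agent.M15.VeluInv7
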