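/-
M15 / R1 (MOD-glob, helper7), chapter G4a: functions of a period pair only depend on its lattice;
swapping the two periods; the lattices `ω₁ (ℤ + ℤ τ)` with `τ = ω₂/ω₁`.
Imported by no statement.
-/
import Fermat.Agent.M15.LatNorm7
import Fermat.Agent.M15.VeluInv7
import Fermat.Agent.X0.AnDefs

set_option autoImplicit false

open UpperHalfPlane ModularForm EisensteinSeries Complex
open scoped PeriodPair Real

noncomputable section

namespace Fermat.Agent.M15.LatCongr7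

open PeriodPair Fermat.Agent.X0 Fermat.Agent.X0.LatticeEis Fermat.Agent.M15.LatNorm7
open Fermat.Agent.M15.VeluAdd7

theorem tsum_congr_submodule {S T : Submodule ℤ ℂ} (h : S = T) (f : ℂ → ℂ) :
    ∑' l : S, f l = ∑' l : T, f l := by
  subst h; rfl

theorem ω₁_ne_zero' (L : PeriodPair) : L.ω₁ ≠ 0 := by
  intro h
  have := LinearIndependent.pair_iff.mp L.indep 1 0 (by simp [h])
  norm_num at this

variable {L M : PeriodPair}

theorem G_congr (h : L.lattice = M.lattice) (k : ℕ) : L.G k = M.G k :=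
  tsum_congr_submodule h fun l => (l ^ k)⁻¹

theorem g₂_congr (h : L.lattice = M.lattice) : L.g₂ = M.g₂ := by
  unfold PeriodPair.g₂; rw [G_congr h]

theorem g₃_congr (h : L.lattice = M.lattice) : L.g₃ = M.g₃ := by
  unfold PeriodPair.g₃; rw [G_congr h]

theorem weierstrassP_congr (h : L.lattice = M.lattice) (z : ℂ) : ℘[L] z = ℘[M] z :=
  tsum_congr_submodule h fun l => 1 / (z - l) ^ 2 - 1 / l ^ 2

theorem derivWeierstrassP_congr (h : L.lattice = M.lattice) (z : ℂ) : ℘'[L] z = ℘'[M] z := by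
  unfold PeriodPair.derivWeierstrassP
  rw [tsum_congr_submodule h fun l => 2 / (z - l) ^ 3]

/-- swapping the periods does not change the lattice. -/
theorem lattice_eq_of_swap (h1 : M.ω₁ = L.ω₂) (h2 : M.ω₂ = L.ω₁) : M.lattice = L.lattice := by
  ext x
  rw [mem_lattice, mem_lattice]
  constructor
  · rintro ⟨m, n, rfl⟩
    exact ⟨n, m, by rw [h1, h2]; ring⟩
  · rintro ⟨m, n, rfl⟩
    exact ⟨n, m, by rw [h1, h2]; ring⟩

/-- the quotient `ω₂/ω₁` is not real. -/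
theorem im_div_ne_zero (L : PeriodPair) : (L.ω₂ / L.ω₁).im ≠ 0 := by
  intro h
  have h1 : L.ω₁ ≠ 0 := (ω₁_ne_zero' L)
  have hre : ((L.ω₂ / L.ω₁).re : ℂ) = L.ω₂ / L.ω₁ := by
    apply Complex.ext <;> simp [h]
  have := LinearIndependent.pair_iff.mp L.indep ((L.ω₂ / L.ω₁).re) (-1) (by
    simp only [Complex.real_smul, Complex.ofReal_neg, Complex.ofReal_one]
    rw [hre]
    field_simp
    ring)
  norm_num at this

/-- the point `ω₂/ω₁` of the upper half plane. -/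
def tauOf (L : PeriodPair) (h : 0 < (L.ω₂ / L.ω₁).im) : ℍ := ⟨L.ω₂ / L.ω₁, h⟩

@[simp] theorem coe_tauOf (L : PeriodPair) (h : 0 < (L.ω₂ / L.ω₁).im) :
    (tauOf L h : ℂ) = L.ω₂ / L.ω₁ := rfl

/-- `L = ω₁ (ℤ τ + ℤ)`, `τ = ω₂/ω₁`. -/
theorem lattice_eq_scalePair (L : PeriodPair) (h : 0 < (L.ω₂ / L.ω₁).im) :
    (scalePair L.ω₁ (ω₁_ne_zero' L) (pairOfUHP (tauOf L h))).lattice = L.lattice := by
  apply lattice_eq_of_swap
  · simp only [scalePair_ω₁, pairOfUHP_ω₁, coe_tauOf]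
    have := (ω₁_ne_zero' L)
    field_simp
  · simp only [scalePair_ω₂, pairOfUHP_ω₂, mul_one]

/-- the `j`-invariant of `L` is `j(ω₂/ω₁)`. -/
theorem j_eq_jFun (L : PeriodPair) (h : 0 < (L.ω₂ / L.ω₁).im) :
    1728 * L.g₂ ^ 3 / (L.g₂ ^ 3 - 27 * L.g₃ ^ 2) = jFun (tauOf L h) := by
  have hl := lattice_eq_scalePair L h
  rw [← g₂_congr hl, ← g₃_congr hl]
  exact j_scalePair _ _ _

/-- the discriminant of `L` in terms of `Δ(ω₂/ω₁)`. -/
theorem discr_eq (L : PeriodPair) (h : 0 < (L.ω₂ / L.ω₁).im) :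
    L.g₂ ^ 3 - 27 * L.g₃ ^ 2 =
      (L.ω₁ ^ 12)⁻¹ * ((2 * (π : ℂ)) ^ 12 * discriminant (tauOf L h)) := by
  have hl := lattice_eq_scalePair L h
  rw [← g₂_congr hl, ← g₃_congr hl]
  exact discr_scalePair _ _ _

section Div

variable (L : PeriodPair) (p : ℕ) [NeZero p] (h : 0 < (L.ω₂ / L.ω₁).im)

include h in
theorem im_div_divPair_pos : 0 < ((divPair L p (NeZero.ne p)).ω₂ / (divPair L p (NeZero.ne p)).ω₁).im := by
  have hp : (p : ℂ) ≠ 0 := Nat.cast_ne_zero.mpr (NeZero.ne p)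
  have h1 := (ω₁_ne_zero' L)
  have : (divPair L p (NeZero.ne p)).ω₂ / (divPair L p (NeZero.ne p)).ω₁ = (p : ℂ) * (L.ω₂ / L.ω₁) := by
    simp only [divPair_ω₁, divPair_ω₂]
    field_simp
  rw [this, show ((p : ℂ)) = ((p : ℝ) : ℂ) by push_cast; rfl, Complex.im_ofReal_mul]
  have hp' : (0 : ℝ) < p := by exact_mod_cast Nat.pos_of_ne_zero (NeZero.ne p)
  positivity

theorem tauOf_divPair :
    tauOf (divPair L p (NeZero.ne p)) (im_div_divPair_pos L p h) = scaleH p (tauOf L h) := by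
  apply UpperHalfPlane.ext
  have hp : (p : ℂ) ≠ 0 := Nat.cast_ne_zero.mpr (NeZero.ne p)
  have h1 := (ω₁_ne_zero' L)
  rw [coe_tauOf, coe_scaleH, coe_tauOf]
  simp only [divPair_ω₁, divPair_ω₂]
  field_simp

/-- **`j(L') = j(p τ)`** for `L' = ℤ ω₁/p + ℤ ω₂`, `τ = ω₂/ω₁`. -/
theorem j_divPair :
    1728 * (divPair L p (NeZero.ne p)).g₂ ^ 3 /
      ((divPair L p (NeZero.ne p)).g₂ ^ 3 - 27 * (divPair L p (NeZero.ne p)).g₃ ^ 2) =
      jdFun p (tauOf L h) := by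
  rw [j_eq_jFun _ (im_div_divPair_pos L p h), tauOf_divPair L p h]
  rfl

/-- **`Δ(L')/Δ(L) = p¹² Δ(pτ)/Δ(τ)`.** -/
theorem discr_divPair :
    (divPair L p (NeZero.ne p)).g₂ ^ 3 - 27 * (divPair L p (NeZero.ne p)).g₃ ^ 2 =
      (p : ℂ) ^ 12 * (discriminant (scaleH p (tauOf L h)) / discriminant (tauOf L h)) *
        (L.g₂ ^ 3 - 27 * L.g₃ ^ 2) := by
  rw [discr_eq _ (im_div_divPair_pos L p h), tauOf_divPair L p h, discr_eq L h]
  have hp : (p : ℂ) ≠ 0 := Nat.cast_ne_zero.mpr (NeZero.ne p)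
  have h1 := (ω₁_ne_zero' L)
  have h2 := discriminant_ne_zero (tauOf L h)
  simp only [divPair_ω₁]
  field_simp

end Div

end Fermat.Agent.M15.LatCongr7
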