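/-
M15 / R1 (MOD-glob, helper7), chapter G4b: adapted bases.
For a point `z` of exact order `p` (prime) in `ℂ/L` there is a basis `(ω₁', ω₂')` of `L` with
`z ≡ ω₁'/p (mod L)` and `Im (ω₂'/ω₁') > 0`.  Imported by no statement.
-/
import Fermat.Agent.M15.LatCongr7

set_option autoImplicit false

open Complex
open scoped PeriodPair

noncomputable section

namespace Fermat.Agent.M15.TorsBasis7

open PeriodPair Fermat.Agent.M15.LatCongr7

/-- the period pair obtained from `L` by an integral matrix of nonzero determinant. -/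
def transPair (L : PeriodPair) (a b c d : ℤ) (hdet : a * d - b * c ≠ 0) : PeriodPair where
  ω₁ := a * L.ω₁ + b * L.ω₂
  ω₂ := c * L.ω₁ + d * L.ω₂
  indep := by
    rw [LinearIndependent.pair_iff]
    intro s t h
    have h' := LinearIndependent.pair_iff.mp L.indep (s * a + t * c) (s * b + t * d) (by
      rw [← h]
      simp only [Complex.real_smul]
      push_cast
      ring)
    obtain ⟨h1, h2⟩ := h'
    have hd : ((a * d - b * c : ℤ) : ℝ) ≠ 0 := by exact_mod_cast hdet
    push_cast at hd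
    constructor
    · have : s * ((a : ℝ) * d - b * c) = 0 := by linear_combination (d : ℝ) * h1 - (c : ℝ) * h2
      exact (mul_eq_zero.mp this).resolve_right hd
    · have : t * ((a : ℝ) * d - b * c) = 0 := by linear_combination (a : ℝ) * h2 - (b : ℝ) * h1
      exact (mul_eq_zero.mp this).resolve_right hd

@[simp] theorem transPair_ω₁ (L : PeriodPair) (a b c d : ℤ) (hdet : a * d - b * c ≠ 0) :
    (transPair L a b c d hdet).ω₁ = a * L.ω₁ + b * L.ω₂ := rfl

@[simp] theorem transPair_ω₂ (L : PeriodPair) (a b c d : ℤ) (hdet : a * d - b * c ≠ 0) :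
    (transPair L a b c d hdet).ω₂ = c * L.ω₁ + d * L.ω₂ := rfl

theorem lattice_transPair (L : PeriodPair) (a b c d : ℤ) (hdet : a * d - b * c ≠ 0)
    (h1 : a * d - b * c = 1 ∨ a * d - b * c = -1) :
    (transPair L a b c d hdet).lattice = L.lattice := by
  ext x
  rw [mem_lattice, mem_lattice]
  constructor
  · rintro ⟨m, n, rfl⟩
    refine ⟨m * a + n * c, m * b + n * d, ?_⟩
    simp only [transPair_ω₁, transPair_ω₂]
    push_cast
    ring
  · rintro ⟨m, n, rfl⟩
    rcases h1 with h1 | h1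
    · have h1' : (a : ℂ) * d - b * c = 1 := by exact_mod_cast congrArg (Int.cast : ℤ → ℂ) h1
      refine ⟨m * d - n * c, -m * b + n * a, ?_⟩
      simp only [transPair_ω₁, transPair_ω₂]
      push_cast
      linear_combination (m * L.ω₁ + n * L.ω₂) * h1'
    · have h1' : (a : ℂ) * d - b * c = -1 := by exact_mod_cast congrArg (Int.cast : ℤ → ℂ) h1
      refine ⟨-m * d + n * c, m * b - n * a, ?_⟩
      simp only [transPair_ω₁, transPair_ω₂]
      push_cast
      linear_combination (-(m * L.ω₁ + n * L.ω₂)) * h1'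

/-- a primitive lift of a nonzero vector mod `p`. -/
theorem exists_coprime_lift {p : ℕ} (hp : p.Prime) {a b : ℤ} (h : ¬ ((p : ℤ) ∣ a ∧ (p : ℤ) ∣ b)) :
    ∃ a' b' : ℤ, IsCoprime a' b' ∧ (p : ℤ) ∣ a' - a ∧ (p : ℤ) ∣ b' - b := by
  have hpp : Prime (p : ℤ) := Nat.prime_iff_prime_int.mp hp
  by_cases ha : (p : ℤ) ∣ a
  · have hb : ¬ (p : ℤ) ∣ b := fun hb => h ⟨ha, hb⟩
    have hc : IsCoprime b (p : ℤ) := by
      rw [isCoprime_comm]
      exact (Prime.coprime_iff_not_dvd hpp).mpr hb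
    obtain ⟨u, v, huv⟩ := hc
    refine ⟨1 - u * b * (1 - a), b, ⟨1, u * (1 - a), by ring⟩, ⟨v * (1 - a), ?_⟩, by simp⟩
    linear_combination (-(1 - a)) * huv
  · have hc : IsCoprime a (p : ℤ) := by
      rw [isCoprime_comm]
      exact (Prime.coprime_iff_not_dvd hpp).mpr ha
    obtain ⟨u, v, huv⟩ := hc
    refine ⟨a, 1 - u * a * (1 - b), ⟨u * (1 - b), 1, by ring⟩, by simp, ⟨v * (1 - b), ?_⟩⟩
    linear_combination (-(1 - b)) * huv

/-- **adapted basis.** -/
theorem exists_adapted_basis (L : PeriodPair) {p : ℕ} (hp : p.Prime) {z : ℂ}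
    (hz : z ∉ L.lattice) (hpz : (p : ℂ) * z ∈ L.lattice) :
    ∃ M : PeriodPair, M.lattice = L.lattice ∧ M.ω₁ / p - z ∈ L.lattice ∧
      0 < (M.ω₂ / M.ω₁).im := by
  have hpC : (p : ℂ) ≠ 0 := Nat.cast_ne_zero.mpr hp.ne_zero
  obtain ⟨a, b, hab⟩ := mem_lattice.mp hpz
  have hnd : ¬ ((p : ℤ) ∣ a ∧ (p : ℤ) ∣ b) := by
    rintro ⟨⟨a₁, rfl⟩, ⟨b₁, rfl⟩⟩
    apply hz
    rw [mem_lattice]
    refine ⟨a₁, b₁, ?_⟩
    apply mul_left_cancel₀ hpC
    rw [← hab]
    push_cast
    ring
  obtain ⟨a', b', ⟨s, t, hst⟩, ⟨ka, hka⟩, ⟨kb, hkb⟩⟩ := exists_coprime_lift hp hnd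
  have hdet : a' * s - b' * (-t) = 1 := by linear_combination hst
  have hdet0 : a' * s - b' * (-t) ≠ 0 := by rw [hdet]; exact one_ne_zero
  set M₀ := transPair L a' b' (-t) s hdet0 with hM₀
  have hlat : M₀.lattice = L.lattice := lattice_transPair L _ _ _ _ hdet0 (Or.inl hdet)
  have hcong : M₀.ω₁ / p - z ∈ L.lattice := by
    rw [mem_lattice]
    refine ⟨ka, kb, ?_⟩
    have e1 : (a' : ℂ) = a + p * ka := by
      have := congrArg (Int.cast : ℤ → ℂ) hka
      push_cast at this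
      linear_combination this
    have e2 : (b' : ℂ) = b + p * kb := by
      have := congrArg (Int.cast : ℤ → ℂ) hkb
      push_cast at this
      linear_combination this
    have ez : z = (a * L.ω₁ + b * L.ω₂) / p := by
      rw [hab]; field_simp
    rw [hM₀, transPair_ω₁, ez, e1, e2]
    field_simp
    ring
  rcases lt_or_gt_of_ne (im_div_ne_zero M₀) with hneg | hpos
  · -- flip the sign of `ω₂`
    have hdet' : (1 : ℤ) * (-1) - 0 * 0 ≠ 0 := by norm_num
    refine ⟨transPair M₀ 1 0 0 (-1) hdet', ?_, ?_, ?_⟩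
    · rw [lattice_transPair M₀ _ _ _ _ hdet' (Or.inr (by norm_num)), hlat]
    · simpa using hcong
    · have : (transPair M₀ 1 0 0 (-1) hdet').ω₂ / (transPair M₀ 1 0 0 (-1) hdet').ω₁ =
          -(M₀.ω₂ / M₀.ω₁) := by
        simp only [transPair_ω₁, transPair_ω₂]
        push_cast
        ring
      rw [this, Complex.neg_im]
      linarith
  · exact ⟨M₀, hlat, hcong, hpos⟩

end Fermat.Agent.M15.TorsBasis7
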