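/-
M15 / R1 (MOD-glob, helper7), chapter G5b: the algebraic Vélu invariants `veluG2, veluG3, veluJ` of
a point `Q` on a Weierstrass curve over any field, and their analytic evaluation: if `L`
uniformises `W` over `ℂ` and `Q = Phi (ω₁/p)`, then `veluG2 = g₂(L')`, `veluG3 = g₃(L')`,
`veluJ = j(p τ)`, `veluRatio = p¹² Δ(pτ)/Δ(τ)` (`L' = ℤ ω₁/p + ℤ ω₂`, `τ = ω₂/ω₁`).
Imported by no statement.
-/
import Fermat.Agent.M15.TorsBasis7
import Fermat.Agent.M15.DictDefs8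
import Fermat.Agent.M15.EllDisc8

set_option autoImplicit false

open scoped PeriodPair

noncomputable section

namespace Fermat.Agent.M15.VeluDefs7

open WeierstrassCurve WeierstrassCurve.Affine
open Fermat.Agent.M15.DictDefs8

section Defs

variable {K : Type*} [Field K] [DecidableEq K]

/-- short-form abscissa `x(k • Q) + b₂/12`. -/
def veluX (E : WeierstrassCurve.Affine K) (Q : E.Point) (k : ℕ) : K := xOf (k • Q) + E.b₂ / 12

/-- Vélu's `g₂` of `E/⟨Q⟩`. -/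
def veluG2 (E : WeierstrassCurve.Affine K) (Q : E.Point) (p : ℕ) : K :=
  E.c₄ / 12 + ∑ k ∈ Finset.Ico 1 p, (60 * veluX E Q k ^ 2 - 5 * (E.c₄ / 12))

/-- Vélu's `g₃` of `E/⟨Q⟩`. -/
def veluG3 (E : WeierstrassCurve.Affine K) (Q : E.Point) (p : ℕ) : K :=
  E.c₆ / 216 + ∑ k ∈ Finset.Ico 1 p,
    (140 * veluX E Q k ^ 3 - 21 * (E.c₄ / 12) * veluX E Q k - 14 * (E.c₆ / 216))

/-- the `j`-invariant of `E/⟨Q⟩`. -/
def veluJ (E : WeierstrassCurve.Affine K) (Q : E.Point) (p : ℕ) : K :=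
  1728 * veluG2 E Q p ^ 3 / (veluG2 E Q p ^ 3 - 27 * veluG3 E Q p ^ 2)

end Defs

section Analytic

open PeriodPair Fermat.Agent.X0 Fermat.Agent.M15.Unif7 Fermat.Agent.M15.VeluAdd7
open Fermat.Agent.M15.VeluInv7 Fermat.Agent.M15.LatCongr7 Fermat.Agent.M15.EllDisc8
open Fermat.Agent.M15.EllHalf8 Fermat.Agent.M15.EllSub8

variable {W : WeierstrassCurve ℂ} {L : PeriodPair} (h : IsUnif W L) (p : ℕ) [NeZero p]

theorem nsmul_Phi (z : ℂ) (r : ℕ) : r • Phi h z = Phi h ((r : ℂ) * z) := by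
  have := map_nsmul (PhiHom h) r z
  simp only [PhiHom_apply, nsmul_eq_mul] at this
  exact this.symm

theorem xOf_Phi {z : ℂ} (hz : z ∉ L.lattice) : xOf (Phi h z) = ℘[L] z - W.b₂ / 12 := by
  rw [Phi_of_notMem h hz, xOf_some]
  rfl

omit [NeZero p] in
theorem veluX_Phi {r : ℕ} (hr0 : 0 < r) (hrp : r < p) :
    veluX W.toAffine (Phi h (L.ω₁ / p)) r = ℘[L] (divPt L p r) := by
  unfold veluX
  rw [nsmul_Phi]
  have e : (r : ℂ) * (L.ω₁ / p) = divPt L p r := by unfold divPt; ring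
  rw [e, xOf_Phi h (divPt_notMem_lattice L p hr0 hrp)]
  ring

theorem veluG2_Phi :
    veluG2 W.toAffine (Phi h (L.ω₁ / p)) p = (divPair L p (NeZero.ne p)).g₂ := by
  rw [g₂_divPair, h.g₂_eq]
  unfold veluG2
  congr 1
  refine Finset.sum_congr rfl fun r hr => ?_
  rw [Finset.mem_Ico] at hr
  rw [veluX_Phi h p (by omega) hr.2]

theorem veluG3_Phi :
    veluG3 W.toAffine (Phi h (L.ω₁ / p)) p = (divPair L p (NeZero.ne p)).g₃ := by
  rw [g₃_divPair, h.g₂_eq, h.g₃_eq]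
  unfold veluG3
  congr 1
  refine Finset.sum_congr rfl fun r hr => ?_
  rw [Finset.mem_Ico] at hr
  rw [veluX_Phi h p (by omega) hr.2]

/-- **`veluJ = j(pτ)`.** -/
theorem veluJ_Phi (hτ : 0 < (L.ω₂ / L.ω₁).im) :
    veluJ W.toAffine (Phi h (L.ω₁ / p)) p = jdFun p (tauOf L hτ) := by
  unfold veluJ
  rw [veluG2_Phi, veluG3_Phi]
  exact j_divPair L p hτ

/-- the `2`-torsion points come from a triple of half periods. -/
theorem exists_halfTriple {T : Fin 3 → W.toAffine.Point} (hT : IsTwoTors T) :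
    ∃ w : Fin 3 → ℂ, (∀ i, Phi h (w i) = T i) ∧ HalfTriple L w := by
  choose w hw using fun i => Phi_surjective h (T i)
  have hnot : ∀ i, w i ∉ L.lattice := fun i hi => (hT.2 i).1 (by rw [← hw i, Phi_of_mem h hi])
  have htwo : ∀ i, w i + w i ∈ L.lattice := fun i => by
    rw [← Phi_eq_zero_iff h, Phi_add, hw i, ← two_nsmul]
    exact (hT.2 i).2
  refine ⟨w, hw, ⟨fun i => ⟨hnot i, htwo i⟩, fun i k hik hmem => hik (hT.1 ?_)⟩⟩
  rw [← hw i, ← hw k]
  have h1 : Phi h (w i) + Phi h (w k) = 0 := by rw [← Phi_add, Phi_of_mem h hmem]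
  have h2 : Phi h (w k) + Phi h (w k) = 0 := by rw [← Phi_add, Phi_of_mem h (htwo k)]
  exact add_right_cancel (h1.trans h2.symm)

theorem veluFactor_Phi (hp : Odd p) {T : Fin 3 → W.toAffine.Point} {w : Fin 3 → ℂ}
    (hw : ∀ i, Phi h (w i) = T i) (hwT : HalfTriple L w) (i k : Fin 3) :
    veluFactor T (Phi h (L.ω₁ / p)) p i k = anFactor L p w i k := by
  unfold veluFactor anFactor
  refine Finset.prod_congr rfl fun r hr => ?_
  rw [Finset.mem_Icc] at hr
  have hp0 : 0 < p := Nat.pos_of_ne_zero (NeZero.ne p)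
  have e1 : xOf (T k) = ℘[L] (w k) - W.b₂ / 12 := by
    rw [← hw k, xOf_Phi h (hwT.half k).notMem]
  have e2 : xOf (T i + r • Phi h (L.ω₁ / p)) = ℘[L] (w i + r * (L.ω₁ / p)) - W.b₂ / 12 := by
    rw [← hw i, nsmul_Phi, ← Phi_add, xOf_Phi h]
    have := add_intCast_mul_aa_notMem (L := L) (p := p) hp (hwT.half i) (r : ℤ)
    simpa [aa] using this
  have e3 : xOf (r • Phi h (L.ω₁ / p)) = ℘[L] (r * (L.ω₁ / p)) - W.b₂ / 12 := by
    rw [nsmul_Phi, xOf_Phi h]
    have := natCast_mul_aa_notMem (L := L) (p := p) (r := r) (by omega) (by omega)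
    simpa [aa] using this
  rw [e1, e2, e3]
  congr 1 <;> ring

/-- **`veluRatio = p¹² Δ(pτ)/Δ(τ)`.** -/
theorem veluRatio_Phi (hp : Odd p) (hτ : 0 < (L.ω₂ / L.ω₁).im) {T : Fin 3 → W.toAffine.Point}
    (hT : IsTwoTors T) :
    veluRatio T (Phi h (L.ω₁ / p)) p =
      (p : ℂ) ^ 12 * (ModularForm.discriminant (scaleH p (tauOf L hτ)) /
        ModularForm.discriminant (tauOf L hτ)) := by
  obtain ⟨w, hw, hwT⟩ := exists_halfTriple h hT
  unfold veluRatio
  rw [veluFactor_Phi h p hp hw hwT, veluFactor_Phi h p hp hw hwT, veluFactor_Phi h p hp hw hwT]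
  have h1 := discr_subPair (L := L) (p := p) hp hwT
  have h2 : subPair L p = divPair L p (NeZero.ne p) := rfl
  have h3 := discr_divPair L p hτ
  have h0 : discr L ≠ 0 := hwT.discr_ne_zero
  unfold discr at h1 h0
  rw [h2, h3] at h1
  have := mul_right_cancel₀ h0 (h1.trans (mul_comm _ _))
  exact this.symm

end Analytic

end Fermat.Agent.M15.VeluDefs7
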