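/-
M15 / R1 (MOD-glob, helper7), chapter G5c: the Vélu invariants commute with field embeddings
(`Point.map`).  Imported by no statement.
-/
import Fermat.Agent.M15.VeluDefs7

set_option autoImplicit false
set_option linter.unusedSectionVars false

noncomputable section

namespace Fermat.Agent.M15.VeluMap7

open WeierstrassCurve WeierstrassCurve.Affine
open Fermat.Agent.M15.DictDefs8 Fermat.Agent.M15.VeluDefs7

universe r s u v

variable {R : Type r} {S : Type s} {F : Type u} {K : Type v} [CommRing R] [CommRing S]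
  [Field F] [Field K] [DecidableEq F] [DecidableEq K] {W' : Affine R}
  [Algebra R S] [Algebra R F] [Algebra S F] [IsScalarTower R S F] [Algebra R K] [Algebra S K]
  [IsScalarTower R S K] (f : F →ₐ[S] K)

theorem xOf_map (P : (W'⁄F).Point) : xOf (Point.map f P) = f (xOf P) := by
  rcases P with _ | ⟨x, y, h⟩
  · show xOf (0 : (W'⁄K).Point) = f (xOf (0 : (W'⁄F).Point))
    simp
  · rw [Point.map_some]
    simp

theorem b₂_map : (W'⁄K).b₂ = f (W'⁄F).b₂ := by
  rw [← Affine.map_baseChange (W := W') f, WeierstrassCurve.map_b₂]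
  rfl

theorem c₄_map : (W'⁄K).c₄ = f (W'⁄F).c₄ := by
  rw [← Affine.map_baseChange (W := W') f, WeierstrassCurve.map_c₄]
  rfl

theorem c₆_map : (W'⁄K).c₆ = f (W'⁄F).c₆ := by
  rw [← Affine.map_baseChange (W := W') f, WeierstrassCurve.map_c₆]
  rfl

theorem veluX_map (Q : (W'⁄F).Point) (k : ℕ) :
    veluX (W'⁄K) (Point.map f Q) k = f (veluX (W'⁄F) Q k) := by
  unfold veluX
  rw [← map_nsmul, xOf_map, b₂_map f]
  simp only [map_add, map_div₀, map_ofNat]

theorem veluG2_map (Q : (W'⁄F).Point) (p : ℕ) :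
    veluG2 (W'⁄K) (Point.map f Q) p = f (veluG2 (W'⁄F) Q p) := by
  unfold veluG2
  simp only [veluX_map, c₄_map f, map_add, map_sum, map_sub, map_mul, map_pow, map_div₀, map_ofNat]

theorem veluG3_map (Q : (W'⁄F).Point) (p : ℕ) :
    veluG3 (W'⁄K) (Point.map f Q) p = f (veluG3 (W'⁄F) Q p) := by
  unfold veluG3
  simp only [veluX_map, c₄_map f, c₆_map f, map_add, map_sum, map_sub, map_mul, map_pow, map_div₀,
    map_ofNat]

theorem veluJ_map (Q : (W'⁄F).Point) (p : ℕ) :
    veluJ (W'⁄K) (Point.map f Q) p = f (veluJ (W'⁄F) Q p) := by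
  unfold veluJ
  simp only [veluG2_map, veluG3_map, map_sub, map_mul, map_pow, map_div₀, map_ofNat]

theorem veluFactor_map (T : Fin 3 → (W'⁄F).Point) (Q : (W'⁄F).Point) (p : ℕ) (i k : Fin 3) :
    veluFactor (fun i => Point.map f (T i)) (Point.map f Q) p i k = f (veluFactor T Q p i k) := by
  unfold veluFactor
  rw [map_prod]
  refine Finset.prod_congr rfl fun r _ => ?_
  rw [← map_nsmul, ← map_add, xOf_map, xOf_map, xOf_map, map_div₀, map_sub, map_sub]

theorem veluRatio_map (T : Fin 3 → (W'⁄F).Point) (Q : (W'⁄F).Point) (p : ℕ) :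
    veluRatio (fun i => Point.map f (T i)) (Point.map f Q) p = f (veluRatio T Q p) := by
  unfold veluRatio
  simp only [veluFactor_map, map_pow, map_mul]

theorem isTwoTors_map {T : Fin 3 → (W'⁄F).Point} (hT : IsTwoTors T) :
    IsTwoTors fun i => Point.map f (T i) := by
  refine ⟨fun i k h => hT.1 (Point.map_injective f h), fun i => ⟨fun h => (hT.2 i).1 ?_, ?_⟩⟩
  · exact Point.map_injective f (h.trans (map_zero _).symm)
  · rw [← map_nsmul, (hT.2 i).2, map_zero]

theorem addOrderOf_map (Q : (W'⁄F).Point) : addOrderOf (Point.map f Q) = addOrderOf Q :=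
  addOrderOf_injective (Point.map f) (Point.map_injective f) Q

end Fermat.Agent.M15.VeluMap7
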