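/-
M15 / R1 (MOD-glob, helper7), chapter G6b: the point `τ₀` of the upper half plane and the place of
`X₀(p)` attached to `(E, Q)`, `E : y² + … ` over `ℤ`, `Q ∈ E(ℚbar)` of prime order `p`:
`j(τ₀) = ι(c₄³/Δ)`, `j(p τ₀) = ι(veluJ E Q p)`, `p¹² Δ(pτ₀)/Δ(τ₀) = ι(veluRatio T Q p)`,
and the values of `jF`, `jdF p p`, `uF p` at the place `pointPlaceD τ₀ 1`.
Imported by no statement.
-/
import Fermat.Agent.M15.VeluMap7
import Fermat.Agent.M15.PlaceVal7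
import Fermat.Agent.ES.KRON.Conjugates11
import Fermat.Agent.ES.P36.JDict26
import Fermat.Agent.U44.DescInst1
import Fermat.Agent.M15.CuspTors0

set_option autoImplicit false
set_option linter.unusedSectionVars false

open UpperHalfPlane hiding I
open scoped MatrixGroups PeriodPair

noncomputable section

namespace Fermat.Agent.M15.PlaceTau7

open WeierstrassCurve WeierstrassCurve.Affine AlgebraicCurve
open Fermat.Agent.X0 Fermat.Agent.X0.PointPlacesD Fermat.Agent.X0.FF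
open Fermat.Agent.RED.BASE.Unbranched14 Fermat.Agent.RED.BASE.Hauptmodul12
open Fermat.Agent.IG.AN.DeltaQuot19
open Fermat.Agent.M15.DictDefs8 Fermat.Agent.M15.VeluDefs7 Fermat.Agent.M15.VeluMap7
open Fermat.Agent.M15.Unif7 Fermat.Agent.M15.LatNorm7 Fermat.Agent.M15.LatCongr7
open Fermat.Agent.M15.TorsBasis7 Fermat.Agent.M15.PlaceVal7

/-! ### uniformisations with the same lattice -/

section Congr

variable {W : WeierstrassCurve ℂ} {L M : PeriodPair}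

theorem isUnif_congr (h : IsUnif W L) (hlat : M.lattice = L.lattice) : IsUnif W M :=
  ⟨(g₂_congr hlat).trans h.g₂_eq, (g₃_congr hlat).trans h.g₃_eq⟩

theorem Phi_congr (h : IsUnif W L) (h' : IsUnif W M) (hlat : M.lattice = L.lattice) (z : ℂ) :
    Phi h' z = Phi h z := by
  by_cases hz : z ∈ L.lattice
  · rw [Phi_of_mem h hz, Phi_of_mem h' (hlat ▸ hz)]
  · have hz' : z ∉ M.lattice := by rwa [hlat]
    rw [Phi_of_notMem h hz, Phi_of_notMem h' hz']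
    refine some_eq_some _ _ ?_ ?_
    · unfold xC; rw [weierstrassP_congr hlat]
    · unfold yC xC; rw [weierstrassP_congr hlat, derivWeierstrassP_congr hlat]

end Congr

/-! ### the point of the upper half plane -/

section Tau

variable {p : ℕ} [NeZero p] (hp : p.Prime) (Wq : WeierstrassCurve ℚ) (hΔ : Wq.Δ ≠ 0)

/-- the embedding `ℚbar → ℂ` as a `ℚ`-algebra map. -/
def iotaA : Kbar →ₐ[ℚ] ℂ := iotaK.toRatAlgHom

@[simp] theorem iotaA_apply (x : Kbar) : iotaA x = iotaK x := rfl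

include hp hΔ in
/-- **the point `τ₀` attached to `(E, Q)`.** -/
theorem exists_tau (Q : (Wq⁄Kbar).Point) (hQ : addOrderOf Q = p) :
    ∃ τ₀ : ℍ,
      jFun τ₀ = iotaK (algebraMap ℚ Kbar (Wq.c₄ ^ 3 / Wq.Δ)) ∧
      jdFun p τ₀ = iotaK (veluJ (Wq⁄Kbar) Q p) ∧
      (Odd p → ∀ T : Fin 3 → (Wq⁄Kbar).Point, IsTwoTors T →
        iotaK (veluRatio T Q p) = (p : ℂ) ^ 12 * deltaQuot p τ₀) := by
  have hc₄ : (Wq⁄ℂ).c₄ = ((Wq.c₄ : ℚ) : ℂ) := by
    show (Wq.map (algebraMap ℚ ℂ)).c₄ = _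
    rw [WeierstrassCurve.map_c₄]; rfl
  have hc₆ : (Wq⁄ℂ).c₆ = ((Wq.c₆ : ℚ) : ℂ) := by
    show (Wq.map (algebraMap ℚ ℂ)).c₆ = _
    rw [WeierstrassCurve.map_c₆]; rfl
  have hΔc : (Wq⁄ℂ).Δ = ((Wq.Δ : ℚ) : ℂ) := by
    show (Wq.map (algebraMap ℚ ℂ)).Δ = _
    rw [WeierstrassCurve.map_Δ]; rfl
  have hΔ' : ((Wq.Δ : ℚ) : ℂ) ≠ 0 := by exact_mod_cast hΔ
  have hΔc0 : (Wq⁄ℂ).Δ ≠ 0 := by rw [hΔc]; exact hΔ'
  obtain ⟨τ, c, hc, hL⟩ := exists_isUnif (Wq⁄ℂ) hΔc0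
  have hQc_ord : addOrderOf (Point.map iotaA Q) = p := by rw [addOrderOf_map, hQ]
  obtain ⟨z, hz⟩ := Phi_surjective hL (Point.map iotaA Q)
  have hz_not : z ∉ (X0.LatticeEis.scalePair c hc (X0.LatticeEis.pairOfUHP τ)).lattice := by
    intro hmem
    have : Point.map iotaA Q = 0 := by rw [← hz, Phi_of_mem hL hmem]
    rw [← AddMonoid.addOrderOf_eq_one_iff, hQc_ord] at this
    exact hp.one_lt.ne' this
  have hz_p : (p : ℂ) * z ∈ (X0.LatticeEis.scalePair c hc (X0.LatticeEis.pairOfUHP τ)).lattice := by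
    rw [← Phi_eq_zero_iff hL, ← nsmul_Phi, hz, ← hQc_ord]
    exact addOrderOf_nsmul_eq_zero _
  obtain ⟨M, hlat, hcong, hτ⟩ := exists_adapted_basis _ hp hz_not hz_p
  have hM : IsUnif (Wq⁄ℂ) M := isUnif_congr hL hlat
  have hPhiM : Phi hM (M.ω₁ / p) = Point.map iotaA Q := by
    rw [Phi_congr hL hM hlat, ← hz, Phi_eq_iff hL]
    exact hcong
  refine ⟨tauOf M hτ, ?_, ?_, ?_⟩
  · rw [← j_eq_jFun M hτ, hM.g₂_eq, hM.g₃_eq, hc₄, hc₆]
    have hrel := (Wq⁄ℂ).c_relation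
    rw [hc₄, hc₆, hΔc] at hrel
    have e : iotaK (algebraMap ℚ Kbar (Wq.c₄ ^ 3 / Wq.Δ)) =
        ((Wq.c₄ : ℚ) : ℂ) ^ 3 / ((Wq.Δ : ℚ) : ℂ) := by
      rw [map_div₀, map_div₀, map_pow, map_pow]
      simp
    rw [e, div_eq_div_iff _ hΔ']
    · linear_combination ((((Wq.c₄ : ℚ) : ℂ) ^ 3) / 1728) * hrel
    · intro h0
      apply hΔ'
      have : (1728 : ℂ) * ((Wq.Δ : ℚ) : ℂ) = 0 := by rw [hrel]; linear_combination (1728 : ℂ) * h0
      simpa using this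
  · rw [← veluJ_Phi hM p hτ, hPhiM]
    exact (veluJ_map iotaA Q p)
  · intro hodd T hT
    have h1 := veluRatio_Phi hM p hodd hτ (isTwoTors_map iotaA hT)
    rw [hPhiM, veluRatio_map iotaA T Q p] at h1
    exact h1

end Tau

/-! ### the place -/

section Place

variable (p : ℕ) [NeZero p]

theorem sub_ne_zero_of_ord_ne_zero {t : FF p} (v : Place Kbar (FF p)) (h : v.ord t ≠ 0)
    (c : Kbar) : t - algebraMap Kbar (FF p) c ≠ 0 := by
  intro h0
  apply h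
  rw [sub_eq_zero.mp h0, Fermat.Agent.X0.FF.ord_algebraMap]

theorem jdF_sub_ne_zero (c : Kbar) : jdF p p dvd_rfl - algebraMap Kbar (FF p) c ≠ 0 := by
  have hser : ((jdF p p dvd_rfl : FF p) : LaurentSeries Kbar).order = -(p : ℤ) := by
    rw [Fermat.Agent.ES.KRON.Conjugates11.coe_jdF_eq, Fermat.Agent.ES.P36.JDict26.order_qExpand_jqK]
  have hp0 : (-(p : ℤ)) ≠ 0 := by
    have := NeZero.ne p
    omega
  have hne : jdF p p dvd_rfl ≠ 0 := by
    intro h0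
    rw [h0] at hser
    apply hp0
    rw [← hser]
    simp
  apply sub_ne_zero_of_ord_ne_zero p (Fermat.Agent.U44.DescInst1.pInf p)
  rw [Fermat.Agent.U44.DescInst1.ord_pInf p hne, hser]
  exact hp0

theorem uF_sub_ne_zero (hp : p.Prime) (c : Kbar) : uF p - algebraMap Kbar (FF p) c ≠ 0 := by
  apply sub_ne_zero_of_ord_ne_zero p (Fermat.Agent.M15.CuspTors0.Pinf p)
  rw [Fermat.Agent.M15.CuspTors0.ord_uF_Pinf p hp]
  have := hp.one_lt
  omega

theorem isRealizedBy_jdF : IsRealizedBy (realizeData p) (jdF p p dvd_rfl) (jdFun p) := by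
  have h := isRealizedBy_coe (realizeData p) (jdR p p dvd_rfl)
  rw [coe_jdR, (realizeData p).jd_eq p dvd_rfl] at h
  exact h

theorem jdFun_mem_HolH : jdFun p ∈ HolH := by
  rw [← (realizeData p).jd_eq p dvd_rfl]
  exact (realizeData p).mem_HolH _

/-- the value of `j_p` at a point place. -/
theorem ord_jdF_sub_pos (τ₀ : ℍ) (cj : Kbar) (hc : jFun τ₀ = iotaK cj) (g : SL(2, ℤ)) (c' : Kbar)
    (h : jdFun p (g⁻¹ • τ₀) = iotaK c') :
    0 < (pointPlaceD (realizeData p) τ₀ cj hc g).ord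
      (jdF p p dvd_rfl - algebraMap Kbar (FF p) c') :=
  ord_sub_pos (realizeData p) (jdFun_mem_HolH p) (isRealizedBy_jdF p) τ₀ cj hc g c'
    (jdF_sub_ne_zero p c') h

/-- the value of the modular unit at a point place. -/
theorem ord_uF_sub_pos (hp : p.Prime) (τ₀ : ℍ) (cj : Kbar) (hc : jFun τ₀ = iotaK cj)
    (g : SL(2, ℤ)) (u₀ : Kbar) (h : deltaQuot p (g⁻¹ • τ₀) = iotaK u₀) :
    0 < (pointPlaceD (realizeData p) τ₀ cj hc g).ord (uF p - algebraMap Kbar (FF p) u₀) :=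
  ord_sub_pos (realizeData p) (deltaQuot_mem_HolH p) (isRealizedBy_uF p) τ₀ cj hc g u₀
    (uF_sub_ne_zero p hp u₀) h

/-- **(G6) the place of `X₀(p)` attached to `(E, Q)` and its three values.** -/
theorem exists_place (hp : p.Prime) (hodd : Odd p) (Wq : WeierstrassCurve ℚ) (hΔ : Wq.Δ ≠ 0)
    (Q : (Wq⁄Kbar).Point) (hQ : addOrderOf Q = p) :
    ∃ (τ₀ : ℍ) (hc : jFun τ₀ = iotaK (algebraMap ℚ Kbar (Wq.c₄ ^ 3 / Wq.Δ))),
      jdFun p τ₀ = iotaK (veluJ (Wq⁄Kbar) Q p) ∧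
      0 < (pointPlaceD (realizeData p) τ₀ _ hc 1).ord
        (jF p - algebraMap Kbar (FF p) (algebraMap ℚ Kbar (Wq.c₄ ^ 3 / Wq.Δ))) ∧
      0 < (pointPlaceD (realizeData p) τ₀ _ hc 1).ord
        (jdF p p dvd_rfl - algebraMap Kbar (FF p) (veluJ (Wq⁄Kbar) Q p)) ∧
      ∀ T : Fin 3 → (Wq⁄Kbar).Point, IsTwoTors T →
        0 < (pointPlaceD (realizeData p) τ₀ _ hc 1).ord
          (uF p - algebraMap Kbar (FF p) (veluRatio T Q p / (p : Kbar) ^ 12)) := by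
  obtain ⟨τ₀, hj, hjp, hu⟩ := exists_tau hp Wq hΔ Q hQ
  have h1 : ((1 : SL(2, ℤ))⁻¹ • τ₀) = τ₀ := by rw [inv_one, one_smul]
  refine ⟨τ₀, hj, hjp, pointPlaceD_ord_pos _ _ _ _ _, ?_, fun T hT => ?_⟩
  · exact ord_jdF_sub_pos p τ₀ _ hj 1 _ (by rw [h1, hjp])
  · refine ord_uF_sub_pos p hp τ₀ _ hj 1 _ ?_
    have hpC : (p : ℂ) ≠ 0 := Nat.cast_ne_zero.mpr hp.ne_zero
    rw [h1, map_div₀, hu hodd T hT, map_pow, map_natCast]
    field_simp

end Place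

end Fermat.Agent.M15.PlaceTau7
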