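import Mathlib
import Fermat.Agent.M15.DictDefs8
import Fermat.Agent.M15.LocModel8
import Fermat.Agent.M15.LocNormal8
import Fermat.Agent.M15.LocZero8

/-!
# M15 (MOD): the three points of order two exist (helper8)

Over an algebraically closed field of characteristic `≠ 2`, a Weierstrass curve with `Δ ≠ 0` has
a triple `T` with `IsTwoTors T`.
-/

set_option autoImplicit false
set_option linter.unusedSectionVars false
set_option linter.unusedVariables false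

open WeierstrassCurve WeierstrassCurve.Affine

namespace Fermat.Agent.M15.TwoTors8

open Fermat.Agent.S05 Fermat.Agent.S05.Transport Fermat.Agent.M15.DictDefs8
  Fermat.Agent.M15.LocModel8 Fermat.Agent.M15.LocNormal8

variable {K : Type*} [Field K] [DecidableEq K]

theorem isTwoTors_of_ne {E : WeierstrassCurve.Affine K} {P₀ P₁ P₂ : E.Point} (h01 : P₀ ≠ P₁)
    (h02 : P₀ ≠ P₂) (h12 : P₁ ≠ P₂) (h0 : P₀ ≠ 0 ∧ 2 • P₀ = 0) (h1 : P₁ ≠ 0 ∧ 2 • P₁ = 0)
    (h2 : P₂ ≠ 0 ∧ 2 • P₂ = 0) : IsTwoTors ![P₀, P₁, P₂] := by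
  refine ⟨?_, ?_⟩
  · intro i k hik
    fin_cases i <;> fin_cases k <;> simp_all
  · intro i
    fin_cases i
    · exact h0
    · exact h1
    · exact h2

theorem isTwoTors_map {W₁ W₂ : WeierstrassCurve K} {C : VariableChange K} (h : W₁ = C • W₂)
    {T : Fin 3 → W₁.toAffine.Point} (hT : IsTwoTors T) :
    IsTwoTors fun i => pointEquiv h (T i) := by
  refine ⟨fun i k hik => hT.1 ((pointEquiv h).injective hik), fun i => ⟨?_, ?_⟩⟩
  · intro h0
    apply (hT.2 i).1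
    have h0' : pointEquiv h (T i) = 0 := h0
    exact (pointEquiv h).injective (by rw [h0', map_zero])
  · rw [← map_nsmul, (hT.2 i).2, map_zero]

variable [IsAlgClosed K]

theorem exists_isTwoTors_wab {a b : K} (h2 : (2 : K) ≠ 0) (hb : b ≠ 0)
    (hd : a ^ 2 - 4 * b ≠ 0) : ∃ T : Fin 3 → (Wab a b).toAffine.Point, IsTwoTors T := by
  obtain ⟨δ, hδ⟩ := IsAlgClosed.exists_pow_nat_eq (a ^ 2 - 4 * b) (n := 2) (by norm_num)
  have hδ0 : δ ≠ 0 := by
    rintro rfl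
    apply hd
    rw [← hδ]; ring
  -- the two nonzero roots
  have key : ∀ ε : K, ε ^ 2 = 1 → ∃ ρ : K, ρ ^ 2 + a * ρ + b = 0 ∧ 2 * ρ + a = ε * δ := by
    intro ε hε
    refine ⟨(ε * δ - a) / 2, ?_, ?_⟩
    · field_simp
      linear_combination hδ + δ ^ 2 * hε
    · field_simp
      ring
  obtain ⟨ρ₁, hq₁, hd₁⟩ := key 1 (by ring)
  obtain ⟨ρ₂, hq₂, hd₂⟩ := key (-1) (by ring)
  have hρ₁0 : ρ₁ ≠ 0 := by
    rintro rfl
    apply hb
    linear_combination hq₁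
  have hρ₂0 : ρ₂ ≠ 0 := by
    rintro rfl
    apply hb
    linear_combination hq₂
  have hρ12 : ρ₁ ≠ ρ₂ := by
    intro h
    apply hδ0
    have : 2 * δ = 0 := by rw [h] at hd₁; linear_combination hd₂ - hd₁
    exact (mul_eq_zero.1 this).resolve_left h2
  clear key
  have hns : ∀ ρ ε : K, ε ≠ 0 → ρ ≠ 0 → ρ ^ 2 + a * ρ + b = 0 → 2 * ρ + a = ε * δ →
      (Wab a b).toAffine.Nonsingular ρ 0 := by
    intro ρ ε hε hρ hq hdd
    rw [Wab_nonsingular_iff]
    refine ⟨by linear_combination -ρ * hq, Or.inl ?_⟩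
    have e : 3 * ρ ^ 2 + 2 * a * ρ + b = ρ * (ε * δ) := by
      rw [← hdd]; linear_combination hq
    rw [e]
    exact mul_ne_zero hρ (mul_ne_zero hε hδ0)
  have h₁ := hns ρ₁ 1 one_ne_zero hρ₁0 hq₁ hd₁
  have h₂ := hns ρ₂ (-1) (neg_ne_zero.2 one_ne_zero) hρ₂0 hq₂ hd₂
  refine ⟨![T0 hb, Point.some ρ₁ 0 h₁, Point.some ρ₂ 0 h₂], isTwoTors_of_ne ?_ ?_ ?_ ?_ ?_ ?_⟩
  · intro h
    have := congrArg xOf h
    rw [xOf_T0] at this
    exact hρ₁0 this.symm
  · intro h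
    have := congrArg xOf h
    rw [xOf_T0] at this
    exact hρ₂0 this.symm
  · intro h
    have := congrArg xOf h
    exact hρ12 this
  · refine ⟨?_, ?_⟩
    · intro h
      have : (T0 hb : (Wab a b).toAffine.Point) ≠ 0 := by
        rw [T0]; exact Point.some_ne_zero _
      exact this h
    · rw [two_nsmul, T0_add_T0]
  · exact ⟨Point.some_ne_zero _, (two_nsmul_some_eq_zero_iff h2 h₁).2 rfl⟩
  · exact ⟨Point.some_ne_zero _, (two_nsmul_some_eq_zero_iff h2 h₂).2 rfl⟩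

/-- **The three points of order two.** -/
theorem exists_isTwoTors (E : WeierstrassCurve K) (h2 : (2 : K) ≠ 0) (hΔ : E.Δ ≠ 0) :
    ∃ T : Fin 3 → E.toAffine.Point, IsTwoTors T := by
  have h4K := four_ne_zero' h2
  obtain ⟨r₀, hr₀⟩ : ∃ r₀ : K, gOf E r₀ = 0 := by
    have hdeg : (Cubic.toPoly ⟨(4 : K), E.b₂, 2 * E.b₄, E.b₆⟩).degree ≠ 0 := by
      rw [Cubic.degree_of_a_ne_zero (by exact h4K)]
      norm_num
    obtain ⟨r₀, hr₀⟩ := IsAlgClosed.exists_root _ hdeg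
    refine ⟨r₀, ?_⟩
    simpa [Cubic.toPoly, gOf, Polynomial.IsRoot] using hr₀
  have hD := Δ_eq h2 hr₀
  have hb : bOf E r₀ ≠ 0 := by
    intro h; apply hΔ; rw [hD, h]; ring
  have hd : aOf E r₀ ^ 2 - 4 * bOf E r₀ ≠ 0 := by
    intro h; apply hΔ; rw [hD, h]; ring
  obtain ⟨T, hT⟩ := exists_isTwoTors_wab (a := aOf E r₀) (b := bOf E r₀) h2 hb hd
  exact ⟨_, isTwoTors_map (wab_eq h2 hr₀) hT⟩

end Fermat.Agent.M15.TwoTors8
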