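/-
M15 / WIRE (helper9), W6a: **the cuspidal class `c0 = cl (P0) (Pinf)` of `X₀(p)` is rational**
(`CuspFacts.rat`), for the concrete cusps of `M15/CuspTors0` (lead): `Pinf` = the place `q = 0`,
`P0` = the place where `j` has a pole of order `p`.

* `gal_smul_cl`   : `σ • cl P Q = cl (σ P) (σ Q)`;
* `gal_smul_Pinf`, `gal_smul_P0` : both cusps are fixed by the coefficientwise Galois action
  (`P0` because it is characterised by `ord (jF p) = -p` and `jF p` has rational coefficients);
* `isRat_c0`      : the field `rat` of `Contracts9.CuspFacts`;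
* `isRat_cl_iff_of_isRat` : for a place `x`, `cl x P0` is rational iff `cl x Pinf` is.
Imported by no statement.
-/
import Mathlib
import Fermat.Agent.M15.Contracts9
import Fermat.Agent.M15.CuspTors0
import Fermat.Agent.T33.Psi3C

set_option autoImplicit false
set_option linter.style.haveILetI false
set_option linter.unusedVariables false
set_option linter.unusedSectionVars false

noncomputable section

open AlgebraicCurve ModularCurve IntermediateField

namespace Fermat.Agent.M15.CuspRat9

open Fermat.Agent.M15.Contracts9 Fermat.Agent.M15.CuspTors0 Fermat.Agent.T33.Psi3C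
open Fermat.Agent.X0

variable (p : ℕ) [NeZero p]

/-- the Galois action on the class of `(P) - (Q)`. -/
theorem gal_smul_cl (σ : GQ) (P Q : Pl p) :
    σ • cl p P Q = cl p (gal p σ • P) (gal p σ • Q) := by
  unfold cl
  rw [galois_smul_pic0_def, SemilinearAut.pic0_smul_mk]
  refine congrArg Pic0.mk (Subtype.ext ?_)
  rw [SemilinearAut.coe_degZeroSMulHom]
  show gal p σ • (Finsupp.single P (1 : ℤ) - Finsupp.single Q 1 : Divisor Qb (modularFunctionFieldBar p)) =
    Finsupp.single (gal p σ • P) 1 - Finsupp.single (gal p σ • Q) 1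
  rw [smul_sub, SemilinearAut.smul_single, SemilinearAut.smul_single]

theorem gal_smul_Pinf (σ : GQ) : gal p σ • Pinf p = Pinf p :=
  Fermat.Agent.U44.DescInst1.gal_smul_pInf p σ

theorem gal_smul_jF (σ : GQ) : gal p σ • jF p = jF p :=
  gal_smul_jdF σ 1 (one_dvd p)

theorem gal_smul_P0 (hp : p.Prime) (σ : GQ) : gal p σ • P0 p hp = P0 p hp := by
  rw [eq_P0_iff]
  have h := SemilinearAut.ord_smul (gal p σ) (P0 p hp) (jF p)
  rw [gal_smul_jF] at h
  rw [h, ord_jF_P0]

/-- **(CUSP)(rat)**: `c0` is a rational point of `J₀(p)`. -/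
theorem isRat_c0 (hp : p.Prime) : IsRat p (cl p (P0 p hp) (Pinf p)) := by
  intro σ
  rw [gal_smul_cl, gal_smul_P0, gal_smul_Pinf]

/-- `cl x P0` is rational iff `cl x Pinf` is. -/
theorem isRat_cl_Pinf_iff (hp : p.Prime) (x : Pl p) :
    IsRat p (cl p x (Pinf p)) ↔ IsRat p (cl p x (P0 p hp)) := by
  have e : cl p x (Pinf p) = cl p x (P0 p hp) + cl p (P0 p hp) (Pinf p) := (cl_add_cl p _ _ _).symm
  constructor
  · intro h σ
    have h1 := h σ
    rw [e, smul_add, isRat_c0 p hp σ] at h1
    exact add_right_cancel h1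
  · intro h σ
    rw [e, smul_add, isRat_c0 p hp σ, h σ]

end Fermat.Agent.M15.CuspRat9
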