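import Mathlib
import Fermat.Agent.M15.DictDefs8
import Fermat.Agent.S05.Inertia

/-!
# M15 (MOD), the local half (helper8): from the local dictionary to the cusp criterion

Let `cj = j(E) = c₄³/Δ` and `cu` with `cu * veluRatio T Q p = p¹²` (the value of
`U = Δ(q)/Δ(q^p) = (uF p)⁻¹` at the point `x` of `X₀(p)` attached to `(E, ⟨Q⟩)`).  Then
`LocStatement v` gives exactly the hypotheses of the place-reduction lemma (`M15/RedCusp0`):

* `cj ∉ A`;
* `Q` in the zero component at `A`: `cu⁻¹ ∈ 𝔪_A` and `cu⁻¹ * cj^(p-2) ∈ 𝔪_A` (`x ↦` the cusp `∞`);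
* `Q` not in the zero component: `cu ∈ 𝔪_A` and `cu^(p-1) * cj^(p-2) ∈ 𝔪_A` (`x ↦` the cusp `0`).
-/

set_option autoImplicit false
set_option linter.unusedSectionVars false
set_option linter.unusedVariables false

open WeierstrassCurve WeierstrassCurve.Affine

namespace Fermat.Agent.M15.ModLocal8

open Fermat.Agent.M15.DictDefs8 Fermat.Agent.S05.Inertia

local notation "Qb" => AlgebraicClosure ℚ

section Abstract

variable {Γ₀ : Type*} [LinearOrderedCommGroupWithZero Γ₀]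

theorem lt_one_of_pow_lt_one {x : Γ₀} {n : ℕ} (h : x ^ n < 1) : x < 1 := by
  by_contra hx
  rw [not_lt] at hx
  exact absurd (one_le_pow₀ hx) (not_le.2 h)

/-- the two computations with exponents. -/
theorem val_cusp_zero {D c j : Γ₀} (hD0 : D ≠ 0) (hD : D < 1) {q : ℕ}
    (hc : c ^ (q + 2) = D ^ (q + 1)) (hj : j * D = 1) :
    c < 1 ∧ c ^ (q + 1) * j ^ q < 1 := by
  constructor
  · apply lt_one_of_pow_lt_one (n := q + 2)
    rw [hc]
    exact pow_lt_one₀ zero_le hD (by omega)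
  · apply lt_one_of_pow_lt_one (n := q + 2)
    have e : (c ^ (q + 1) * j ^ q) ^ (q + 2) * D ^ (q * (q + 2)) = D * D ^ (q * (q + 2)) := by
      rw [mul_pow, ← pow_mul, mul_comm (q + 1) (q + 2), pow_mul, hc, ← pow_mul, ← pow_mul,
        mul_assoc, ← mul_pow, hj, one_pow, mul_one, ← pow_succ']
      congr 1
      ring
    have := mul_right_cancel₀ (pow_ne_zero _ hD0) e
    rw [this]
    exact hD

theorem val_cusp_inf {D c j : Γ₀} (hD0 : D ≠ 0) (hD : D < 1) {q : ℕ}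
    (hc : c = D ^ (q + 1)) (hj : j * D = 1) :
    c < 1 ∧ c * j ^ q < 1 := by
  constructor
  · rw [hc]; exact pow_lt_one₀ zero_le hD (by omega)
  · have e : c * j ^ q = D := by
      rw [hc, pow_succ, mul_comm (D ^ q) D, mul_assoc, ← mul_pow, mul_comm D j, hj, one_pow,
        mul_one]
    rw [e]; exact hD

end Abstract

/-- **The local half of (MOD)** at a prime `v ≠ p` where `LocStatement v` is known. -/
theorem cusp_criterion {v : ℕ} (hv : v.Prime) (hLoc : LocStatement v) {p : ℕ} (hp : p.Prime)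
    (hp2 : p ≠ 2) (hvp : v ≠ p) (W : WeierstrassCurve ℤ) (hΔ : W.Δ ≠ 0)
    (hvΔ : (v : ℤ) ∣ W.Δ) (hvc : ¬ (v : ℤ) ∣ W.c₄) (A : ValuationSubring Qb)
    (hA : A.LiesOverPrime v)
    (T : Fin 3 → ((W.map (Int.castRingHom ℚ))⁄(AlgebraicClosure ℚ)).Point) (hT : IsTwoTors T)
    (Q : ((W.map (Int.castRingHom ℚ))⁄(AlgebraicClosure ℚ)).Point) (hQ : addOrderOf Q = p)
    {cj cu : Qb} (hcj : cj * ((W.Δ : ℤ) : Qb) = ((W.c₄ : ℤ) : Qb) ^ 3)
    (hcu : cu * veluRatio T Q p = (p : Qb) ^ 12) :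
    cj ∉ A ∧
    (W.InZeroComponentAt A Q →
      A.valuation cu⁻¹ < 1 ∧ A.valuation (cu⁻¹ * cj ^ (p - 2)) < 1) ∧
    (¬ W.InZeroComponentAt A Q →
      A.valuation cu < 1 ∧ A.valuation (cu ^ (p - 1) * cj ^ (p - 2)) < 1) := by
  set w := A.valuation with hw
  obtain ⟨q, rfl⟩ : ∃ q, p = q + 3 := by
    have := hp.two_le
    exact ⟨p - 3, by omega⟩
  have hD : w ((W.Δ : ℤ) : Qb) < 1 := (valuation_intCast_lt_one_iff hv hA _).2 hvΔ
  have hD0 : w ((W.Δ : ℤ) : Qb) ≠ 0 := by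
    rw [Valuation.ne_zero_iff]; exact_mod_cast hΔ
  have hc4 : w ((W.c₄ : ℤ) : Qb) = 1 := valuation_intCast_eq_one hv hA hvc
  have hwp : w ((q + 3 : ℕ) : Qb) = 1 := valuation_prime_eq_one hv hA hp hvp
  have hj : w cj * w ((W.Δ : ℤ) : Qb) = 1 := by
    rw [← map_mul, hcj, map_pow, hc4, one_pow]
  have hcuR : w cu * w (veluRatio T Q (q + 3)) = 1 := by
    rw [← map_mul, hcu, map_pow, hwp, one_pow]
  have hcu0 : w cu ≠ 0 := left_ne_zero_of_mul_eq_one hcuR
  have hR0 : w (veluRatio T Q (q + 3)) ≠ 0 := right_ne_zero_of_mul_eq_one hcuR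
  obtain ⟨hin, hout⟩ := hLoc hp hp2 hvp W hΔ hvΔ hvc A hA T hT Q hQ
  have e1 : q + 3 - 1 = (q + 1) + 1 := by omega
  have e2 : q + 3 - 2 = q + 1 := by omega
  refine ⟨?_, ?_, ?_⟩
  · intro hmem
    have h1 := (ValuationSubring.valuation_le_one_iff A _).2 hmem
    have : (1 : A.ValueGroup) < w cj := by
      by_contra hle
      rw [not_lt] at hle
      have : w cj * w ((W.Δ : ℤ) : Qb) < 1 := by
        calc w cj * w ((W.Δ : ℤ) : Qb) ≤ 1 * w ((W.Δ : ℤ) : Qb) := mul_le_mul_left hle _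
          _ = w ((W.Δ : ℤ) : Qb) := one_mul _
          _ < 1 := hD
      rw [hj] at this
      exact lt_irrefl _ this
    exact absurd h1 (not_le.2 this)
  · intro hz
    have hR := hin hz
    rw [e1] at hR
    have hci : w cu⁻¹ = w ((W.Δ : ℤ) : Qb) ^ ((q + 1) + 1) := by
      rw [map_inv₀, ← hR]
      exact inv_eq_of_mul_eq_one_right hcuR
    have := val_cusp_inf hD0 hD (q := q + 1) hci hj
    rw [e2, map_mul, map_pow]
    exact this
  · intro hz
    have hR := hout hz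
    rw [e1] at hR
    have hc : w cu ^ ((q + 1) + 2) = w ((W.Δ : ℤ) : Qb) ^ ((q + 1) + 1) := by
      have h1 : (w cu * w (veluRatio T Q (q + 3))) ^ (q + 3) = 1 := by rw [hcuR, one_pow]
      rw [mul_pow] at h1
      have h2 : w cu ^ (q + 3) * w (veluRatio T Q (q + 3)) ^ (q + 3) =
          w ((W.Δ : ℤ) : Qb) ^ ((q + 1) + 1) * w (veluRatio T Q (q + 3)) ^ (q + 3) := by
        rw [h1, mul_comm, hR]
      exact mul_right_cancel₀ (pow_ne_zero _ hR0) h2
    have := val_cusp_zero hD0 hD (q := q + 1) hc hj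
    rw [e1, e2, map_mul, map_pow, map_pow]
    exact this

end Fermat.Agent.M15.ModLocal8
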