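/-
M15 / WIRE (helper9), W2: THE concrete reduction package `redAt p : ∀ A, RedPkg p A` of programme M15.

For a valuation subring `A ≤ ℚ̄` whose residue characteristic is a prime `v ∤ p`:
  `(redAt p A).Φ = red_{A} ∘ π^*`,  `π^* = levelPullback (dvd_auxLevel v p) : J₀(p) → J₀(M)`,
  `M = auxLevel v p` (`lcm p 4`, resp. `lcm p 9` for `v = 2`),
  `red_A = (RedIface9.redModel v hv A hA M _).red hA : J₀(M)(ℚ̄) → Pic⁰(F̃_M)` (the concrete two-chart
  model of programme FF).  For every other `A` the target group is trivial.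

To avoid dependent `if`s the target is a product over the (subsingleton) index type
`Idx p A = {v // v.Prime ∧ ¬ v ∣ p ∧ A.LiesOverPrime v}`.

API for the other chapters:
* `redAt_apply`            : the `i`-th component of `(redAt p A).Φ z` is `red (π^* z)` (`rfl`);
* `redAt_eq_zero_iff`      : for `v` prime, `¬ v ∣ p`, `A` over `v`:
                             `(redAt p A).Φ z = 0 ↔ (redModel v hv A hA M _).red hA (π^* z) = 0`;
* `redAt_es`, `redAt_tors` : the fields `es`, `tors` of `Contracts9.RedFacts`;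
* `redFacts_redAt`         : `RedFacts p v hv A (redAt p A)` from the three remaining fields
                             (`hecke` = W3, `fin` = W4, `rig` = W5) stated for `red ∘ π^*`
                             (amendment 1 of `Contracts9`: `hecke` for `r ∤ 2 p` only).
Imported by no statement.
-/
import Mathlib
import Fermat.Agent.M15.Contracts9
import Fermat.Agent.FF.RedIface9
import Fermat.Agent.ES.TOP.SPFinal21
import Fermat.Agent.ES.FROB.FrobFacts12

set_option autoImplicit false
set_option linter.style.haveILetI false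
set_option linter.unusedVariables false
set_option linter.unusedSectionVars false
set_option synthInstance.maxHeartbeats 400000

noncomputable section

open AlgebraicCurve ModularCurve IntermediateField

namespace Fermat.Agent.M15.RedAt9

open Fermat.Agent.M15.Contracts9
open Fermat.Agent.FF.RedIface9
open Fermat.Agent.ES.HECKE.LevelPullback12 Fermat.Agent.ES.KRON.FrobPlace13
open Fermat.Agent.RED.Interface4 Fermat.Agent.RED.LVL
open Fermat.Agent.ES.HECKE Fermat.Agent.ES.RED Fermat.Agent.ES.KRON
open Fermat.Agent.ES.RED.Contract8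

/-- a valuation subring lies over at most one prime. -/
theorem liesOverPrime_unique {L : Type*} [Field L] {A : ValuationSubring L} {v w : ℕ}
    (hv : v.Prime) (hw : w.Prime) (hAv : A.LiesOverPrime v) (hAw : A.LiesOverPrime w) : v = w := by
  by_contra hne
  have hcop : IsCoprime (v : ℤ) (w : ℤ) :=
    Nat.isCoprime_iff_coprime.mpr ((Nat.coprime_primes hv hw).mpr hne)
  obtain ⟨a, b, hab⟩ := hcop
  have h1 : ((a : L) * (v : L) + (b : L) * (w : L)) = 1 := by
    have := congrArg (Int.cast : ℤ → L) hab
    push_cast at this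
    exact this
  have hv' : A.valuation (v : L) < 1 := hAv
  have hw' : A.valuation (w : L) < 1 := hAw
  have ha : A.valuation (a : L) ≤ 1 := (A.valuation_le_one_iff _).mpr (intCast_mem A a)
  have hb : A.valuation (b : L) ≤ 1 := (A.valuation_le_one_iff _).mpr (intCast_mem A b)
  have h2 : A.valuation ((a : L) * (v : L) + (b : L) * (w : L)) < 1 := by
    refine lt_of_le_of_lt (Valuation.map_add _ _ _) (max_lt ?_ ?_)
    · rw [map_mul]
      exact mul_lt_one_of_nonneg_of_lt_one_right ha zero_le hv'
    · rw [map_mul]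
      exact mul_lt_one_of_nonneg_of_lt_one_right hb zero_le hw'
  rw [h1, map_one] at h2
  exact lt_irrefl _ h2

/-- the index type: the residue characteristic of `A`, if it is a prime not dividing `p`. -/
def Idx (p : ℕ) (A : ValuationSubring Qb) : Type :=
  {v : ℕ // v.Prime ∧ ¬ v ∣ p ∧ A.LiesOverPrime v}

instance (p : ℕ) (A : ValuationSubring Qb) : Subsingleton (Idx p A) :=
  ⟨fun a b => Subtype.ext (liesOverPrime_unique a.2.1 b.2.1 a.2.2.2 b.2.2.2)⟩

variable (p : ℕ) [NeZero p]

/-- `red ∘ π^*` at `(v, A)`, the explicit form. -/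
def redPull (v : ℕ) (hv : v.Prime) (hvp : ¬ v ∣ p) (A : ValuationSubring Qb)
    (hA : A.LiesOverPrime v) : JZero p →+ JZeroC (kA A) (auxLevel v p) :=
  haveI : Fact v.Prime := ⟨hv⟩
  haveI := LevelDegree17.neZero_auxLevel v p
  ((redModel v hv A hA (auxLevel v p) (hauptLevel_auxLevel hv hvp)).red hA).comp
    (levelPullback (dvd_auxLevel v p))

/-- **THE reduction package of programme M15.** -/
def redAt (A : ValuationSubring Qb) : RedPkg p A where
  G := (i : Idx p A) → JZeroC (kA A) (auxLevel i.1 p)
  Φ := AddMonoidHom.mk' (fun z i => redPull p i.1 i.2.1 i.2.2.1 A i.2.2.2 z) (fun a b => by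
    funext i
    simp only [map_add, Pi.add_apply])

theorem redAt_apply (A : ValuationSubring Qb) (z : JZero p) (i : Idx p A) :
    (redAt p A).Φ z i = redPull p i.1 i.2.1 i.2.2.1 A i.2.2.2 z := rfl

theorem redAt_eq_zero_iff {v : ℕ} (hv : v.Prime) (hvp : ¬ v ∣ p) {A : ValuationSubring Qb}
    (hA : A.LiesOverPrime v) (z : JZero p) :
    (redAt p A).Φ z = 0 ↔ redPull p v hv hvp A hA z = 0 := by
  constructor
  · intro h
    have := congrFun h ⟨v, hv, hvp, hA⟩
    exact this
  · intro h
    funext i
    obtain rfl : i = ⟨v, hv, hvp, hA⟩ := Subsingleton.elim _ _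
    exact h

/-! ### Divisor form (for chapter MOD) -/

/-- the concrete model at `(v, A)` and level `auxLevel v p`. -/
def model (v : ℕ) (hv : v.Prime) (hvp : ¬ v ∣ p) (A : ValuationSubring Qb)
    (hA : A.LiesOverPrime v) :
    haveI := LevelDegree17.neZero_auxLevel v p
    RedModel v A (auxLevel v p) :=
  haveI := LevelDegree17.neZero_auxLevel v p
  redModel v hv A hA (auxLevel v p) (hauptLevel_auxLevel hv hvp)

/-- `redPull` on a class, as the class of `r_* (π^* D)`. -/
theorem redPull_mk {v : ℕ} (hv : v.Prime) (hvp : ¬ v ∣ p) {A : ValuationSubring Qb}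
    (hA : A.LiesOverPrime v)
    (D : Divisor.degZero (K := Qb) (F := modularFunctionFieldBar p)) :
    haveI : Fact v.Prime := ⟨hv⟩
    haveI := LevelDegree17.neZero_auxLevel v p
    redPull p v hv hvp A hA (Pic0.mk D) =
      Pic0.mk (reductionDegZeroAlong (model p v hv hvp A hA).rPl
        ((model p v hv hvp A hA).isPlaceReduction hA).1
        ⟨levelPullbackDiv (dvd_auxLevel v p) (D : Divisor Qb (modularFunctionFieldBar p)),
          levelPullbackDiv_mem_degZero (dvd_auxLevel v p) D.2⟩) :=
  rfl

/-- **criterion for chapter MOD**: `red (π^* cl(x - P)) = 0` as soon as the divisors `π^* x` and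
`π^* P` of level `auxLevel v p` have the same image under the place reduction `rPl`. -/
theorem redPull_cl_eq_zero {v : ℕ} (hv : v.Prime) (hvp : ¬ v ∣ p) {A : ValuationSubring Qb}
    (hA : A.LiesOverPrime v) (x P : Pl p)
    (h : haveI := LevelDegree17.neZero_auxLevel v p
      Finsupp.mapDomain (model p v hv hvp A hA).rPl
          (levelPullbackDiv (dvd_auxLevel v p) (Finsupp.single x (1 : ℤ))) =
        Finsupp.mapDomain (model p v hv hvp A hA).rPl
          (levelPullbackDiv (dvd_auxLevel v p) (Finsupp.single P (1 : ℤ)))) :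
    redPull p v hv hvp A hA (cl p x P) = 0 := by
  haveI : Fact v.Prime := ⟨hv⟩
  haveI := LevelDegree17.neZero_auxLevel v p
  unfold cl
  rw [redPull_mk]
  have e : reductionDegZeroAlong (model p v hv hvp A hA).rPl
        ((model p v hv hvp A hA).isPlaceReduction hA).1
        ⟨levelPullbackDiv (dvd_auxLevel v p)
          (Finsupp.single x (1 : ℤ) - Finsupp.single P 1 :
            Divisor Qb (modularFunctionFieldBar p)),
          levelPullbackDiv_mem_degZero (dvd_auxLevel v p) (sub_single_mem_degZero p x P)⟩ = 0 := by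
    apply Subtype.ext
    rw [coe_reductionDegZeroAlong]
    show Finsupp.mapDomain _ (levelPullbackDiv (dvd_auxLevel v p) _) = 0
    rw [map_sub, Finsupp.mapDomain_sub, h, sub_self]
  rw [e]
  rfl

/-! ### (es): Eichler–Shimura on rational points -/

/-- **(Φ2) for `redPull`**: `red (π^* (σ σ x - T_v (σ x) + v x)) = 0` for `σ` a Frobenius at `A`. -/
theorem redPull_phi_two {v : ℕ} (hv : v.Prime) (hvp : ¬ v ∣ p) {A : ValuationSubring Qb}
    (hA : A.LiesOverPrime v) (σ : GQ) (hσ : A.IsFrobeniusAt σ v) (x : JZero p) :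
    redPull p v hv hvp A hA (σ • σ • x - heckeOperatorBar p ⟨v, hv⟩ (σ • x) + v • x) = 0 := by
  haveI : Fact v.Prime := ⟨hv⟩
  haveI : NeZero v := ⟨hv.ne_zero⟩
  haveI := LevelDegree17.neZero_auxLevel v p
  haveI : IsAlgClosed (kA A) := KronInst10.isAlgClosed_residueField A
  haveI : CharP (kA A) v := KronInst10.charP_residueField A hv hA
  haveI : ExpChar (kA A) v := ExpChar.prime hv
  haveI := InputsMain19.hasPrincipalDivisors_level (auxLevel v p) v
  set m := redModel v hv A hA (auxLevel v p) (hauptLevel_auxLevel hv hvp) with hm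
  have hvM : ¬ v ∣ auxLevel v p := not_dvd_auxLevel hv hvp
  have hin := m.chartInputs hA
  have hfix : frobSemi (kA A) v (auxLevel v p) • m.T.S0.red m.T.S0.sB = m.T.S0.red m.T.S0.sB := by
    refine FrobPoles13.frobSemi_smul_tq (kA A) v (auxLevel v p) m.n m.e ?_
    rw [RedInst15.red_sB_eq_tRes m.n m.e (auxLevel v p) v hvM (m.tMem)
      (Fermat.Agent.RED.BASE.Hauptmodul12.tGenBase' m.hb) A hA m.T.S0 m.hS0 m.hs0]
    rfl
  exact Fermat.Agent.ES.TOP.PhiOneTwo21.phi_two (dvd_auxLevel v p) m.rPl (m.isPlaceReduction hA)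
    (m.principalGenerated hA) hv
    (fun σ hσ P => m.rPl_smul_frobenius hA hσ P)
    (Fermat.Agent.ES.TOP.PhiOneTwo21.red_heckeOperatorAlong_bar m.rPl (m.isPlaceReduction hA) (m.principalGenerated hA)
      hv hvM
      (AlongDegree25.heckeAlphaBarIntegral Qb (auxLevel v p) v hv hvM)
      (AlongDegree25.heckeBetaBarIntegral Qb (auxLevel v p) v hv hvM)
      (fun D => EsDivFinal24.es_div_final (auxLevel v p) v A m.T hin.1 hin.2 hvM _ _
        (InputsMain19.fundamentalIdentityAlong_beta (auxLevel v p) v hv hvM)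
        (AlongDegree25.finiteAlong_alpha Qb (auxLevel v p) v hv hvM)
        (InputsFinal15.normFormulaAlong_alpha (auxLevel v p) v hv hvM)
        (fun P hs b hb => ChartSpecOfChart18.mem_place_of_mem_chart' A m.T.S0.s P hs
          ((m.hS0.mem_iff b).1 hb))
        (fun P hs b hb => ChartSpecOfChart18.mem_place_of_mem_chart' A m.T.S1.s P hs
          ((m.hS1.mem_iff b).1 hb))
        hfix D))
    (fun x => LevelTop20.levelPullback_heckeOperatorAlong (dvd_auxLevel v p) hv hvM x)
    σ hσ x

/-- **(es)** for `redPull`: on rational points `red ∘ π^*` kills `(v + 1) - T_v`. -/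
theorem redPull_es {v : ℕ} (hv : v.Prime) (hvp : ¬ v ∣ p) {A : ValuationSubring Qb}
    (hA : A.LiesOverPrime v) (z : JZero p) (hz : IsRat p z) :
    redPull p v hv hvp A hA ((v + 1) • z - heckeOperatorBar p ⟨v, hv⟩ z) = 0 := by
  obtain ⟨σ, hσ⟩ := Fermat.Agent.ES.FROB.FrobFacts12.exists_isFrobeniusAt_of v hv A hA
  have h := redPull_phi_two p hv hvp hA σ hσ z
  rw [hz σ, hz σ] at h
  have e : (v + 1) • z - heckeOperatorBar p ⟨v, hv⟩ z =
      z - heckeOperatorBar p ⟨v, hv⟩ z + v • z := by
    rw [add_smul, one_smul]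
    abel
  rw [e]
  exact h

/-- **(tors)** for `redPull`: injective on prime-to-`v` torsion (Program H's core lemma at the
auxiliary level). -/
theorem redPull_tors {v : ℕ} (hv : v.Prime) (hvp : ¬ v ∣ p) {A : ValuationSubring Qb}
    (hA : A.LiesOverPrime v) (m : ℕ) (z : JZero p) (hm : ¬ v ∣ m) (hmz : m • z = 0)
    (hz : redPull p v hv hvp A hA z = 0) : z = 0 := by
  haveI : Fact v.Prime := ⟨hv⟩
  haveI := LevelDegree17.neZero_auxLevel v p
  set M := redModel v hv A hA (auxLevel v p) (hauptLevel_auxLevel hv hvp) with hM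
  exact Fermat.Agent.ES.TOP.SPMain12.Phi_three v p hv hvp A hA M.rPl (M.isPlaceReduction hA)
    (M.principalGenerated hA) m z hm hmz hz

/-- **`RedFacts` for `redAt`** from the three remaining fields, stated for `red ∘ π^*`. -/
theorem redFacts_redAt {v : ℕ} (hv : v.Prime) (hvp : ¬ v ∣ p) {A : ValuationSubring Qb}
    (hA : A.LiesOverPrime v)
    (hhecke : ∀ r : Nat.Primes, ¬ (r : ℕ) ∣ 2 * p → (r : ℕ) ≠ v → ∀ z : JZero p, IsRat p z →
      redPull p v hv hvp A hA z = 0 → redPull p v hv hvp A hA (heckeOperatorBar p r z) = 0)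
    (hfin : (Set.range fun z : ratSubgroup p => redPull p v hv hvp A hA z).Finite)
    (hrig : 3 ≤ v → ∀ z : JZero p, IsRat p z → v • z = 0 → redPull p v hv hvp A hA z = 0 → z = 0) :
    RedFacts p v hv A (redAt p A) where
  es := fun z hz => (redAt_eq_zero_iff p hv hvp hA _).mpr (redPull_es p hv hvp hA z hz)
  hecke := fun r hrp hrv z hz h =>
    (redAt_eq_zero_iff p hv hvp hA _).mpr
      (hhecke r hrp hrv z hz ((redAt_eq_zero_iff p hv hvp hA _).mp h))
  tors := fun m z hm hmz h =>
    redPull_tors p hv hvp hA m z hm hmz ((redAt_eq_zero_iff p hv hvp hA _).mp h)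
  fin := by
    refine Set.Finite.of_finite_image (f := fun g : (redAt p A).G => g ⟨v, hv, hvp, hA⟩) ?_ ?_
    · refine hfin.subset ?_
      rintro _ ⟨_, ⟨z, rfl⟩, rfl⟩
      exact ⟨z, rfl⟩
    · intro g _ g' _ hgg
      funext i
      obtain rfl : i = ⟨v, hv, hvp, hA⟩ := Subsingleton.elim _ _
      exact hgg
  rig := fun h3 z hz hvz h =>
    hrig h3 z hz hvz ((redAt_eq_zero_iff p hv hvp hA _).mp h)

end Fermat.Agent.M15.RedAt9
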