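/-
M15 / R1-(RED) (lead), file A: **the generic comparison lemma behind the place-reduction lemma.**

`A ≤ ℚ̄` over `ℓ ∤ M`, `r` a place reduction (`IsPlaceReductionModL A M r`).
* `mapDomain_eq_ord` : for `y ∈ intF A M` with `redF y ≠ 0`, `r_* (div y) = div (redF y)`
  (the Prelude contract, restated for `ChartIntegralA1.intF / redF`);
* `mapDomain_le_zeros` : **Lemma A.**  If `f ∈ intF A M` has nonzero reduction and `c ∈ 𝔪_A`, then
  every effective divisor `E ≤ (f - c)_0` satisfies `r_* E ≤ r_* (f)_0`: the functions `f` and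
  `f - c` have the same poles and the same reduction, hence `r_* (f - c)_0 = r_* (f)_0`.
Imported by no statement.
-/
import Mathlib
import Fermat.Agent.ES.RED.ChartIntegralA1
import Fermat.Agent.ES.KRON.ChartBridge24
import Fermat.Agent.RED.TOP.FbarFacts20
import Fermat.Prelude.Def_ModularCurve_ReductionModL

set_option autoImplicit false
set_option linter.unusedSectionVars false
set_option linter.unusedVariables false
set_option linter.style.haveILetI false

open HahnSeries ModularCurve AlgebraicCurve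

noncomputable section

namespace Fermat.Agent.M15.RedCuspA0

open Fermat.Agent.RED.Interface4 Fermat.Agent.ES.RED.ChartIntegralA1
open Fermat.Agent.ES.KRON.ChartBridge24

variable (A : ValuationSubring Qbar) (M : ℕ) [NeZero M] (ℓ : ℕ) [Fact ℓ.Prime]
  (hA : A.LiesOverPrime ℓ) (hℓM : ¬ ℓ ∣ M)
  {r : Place Qbar ↥(Fbar M) → Place (kA A) ↥(modularFunctionFieldFullC (kA A) M)}
  (hr : IsPlaceReductionModL A M r)

include hr in
/-- the Prelude contract for `intF / redF`. -/
theorem mapDomain_eq_ord (y : intF A M) (hne : redF A M ℓ hA hℓM y ≠ 0)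
    (D : Divisor Qbar ↥(Fbar M)) (hD : ∀ P, D P = P.ord ((y : intF A M) : Fbar M))
    (Q : Place (kA A) ↥(modularFunctionFieldFullC (kA A) M)) :
    Finsupp.mapDomain r D Q = Q.ord (redF A M ℓ hA hℓM y) := by
  have hy : coeffMap A.subtype (seriesHom A M y) ∈
      laurentBaseChange Qbar (modularFunctionFieldFull M) := by
    rw [coeffMap_seriesHom]
    exact ((y : intF A M) : Fbar M).2
  have hyk : coeffMap (IsLocalRing.residue ↥A) (seriesHom A M y) ∈
      modularFunctionFieldFullC (kA A) M := (redF A M ℓ hA hℓM y).2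
  have hne' : coeffMap (IsLocalRing.residue ↥A) (seriesHom A M y) ≠ 0 := fun h =>
    hne ((redF_eq_zero_iff A M ℓ hA hℓM y).mpr h)
  have e1 : (⟨coeffMap A.subtype (seriesHom A M y), hy⟩ :
      laurentBaseChange Qbar (modularFunctionFieldFull M)) = ((y : intF A M) : Fbar M) :=
    Subtype.ext (coeffMap_seriesHom A M y)
  have := hr.2 (seriesHom A M y) hy hyk hne' D (fun P => by rw [hD P, e1]) Q
  exact this

include hr in
/-- **Lemma A.** -/
theorem mapDomain_le_zeros (f : intF A M) (hne : redF A M ℓ hA hℓM f ≠ 0) (c : ↥A)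
    (hc : c ∈ IsLocalRing.maximalIdeal ↥A)
    (Zf E : Divisor Qbar ↥(Fbar M))
    (hZf : ∀ w, Zf w = max (w.ord ((f : intF A M) : Fbar M)) 0)
    (hE : ∀ w, E w ≤ max (w.ord (((f : intF A M) : Fbar M) - algebraMap Qbar ↥(Fbar M) (c : Qbar))) 0) :
    Finsupp.mapDomain r E ≤ Finsupp.mapDomain r Zf := by
  set cF : intF A M := ⟨algebraMap Qbar ↥(Fbar M) (c : Qbar), algebraMap_mem_intF A M c⟩ with hcF
  have hredc : redF A M ℓ hA hℓM cF = 0 := by
    rw [hcF, redF_algebraMap, (IsLocalRing.residue_eq_zero_iff c).mpr hc, map_zero]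
  have hredy : redF A M ℓ hA hℓM (f - cF) = redF A M ℓ hA hℓM f := by
    rw [map_sub, hredc, sub_zero]
  have hney : redF A M ℓ hA hℓM (f - cF) ≠ 0 := by rw [hredy]; exact hne
  have hf0 : ((f : intF A M) : Fbar M) ≠ 0 := by
    intro h
    apply hne
    have : f = 0 := Subtype.ext h
    rw [this, map_zero]
  have hy0 : ((f : intF A M) : Fbar M) - algebraMap Qbar ↥(Fbar M) (c : Qbar) ≠ 0 := by
    intro h
    apply hney
    have : f - cF = 0 := Subtype.ext h
    rw [this, map_zero]
  obtain ⟨Df, hDf, -⟩ := (Fermat.Agent.RED.TOP.FbarFacts20.hasPrincipalDivisors_bar M).exists_divisor _ hf0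
  obtain ⟨Dy, hDy, -⟩ := (Fermat.Agent.RED.TOP.FbarFacts20.hasPrincipalDivisors_bar M).exists_divisor _ hy0
  -- `r_* Dy = r_* Df`
  have hrr : Finsupp.mapDomain r Dy = Finsupp.mapDomain r Df := by
    ext Q
    rw [mapDomain_eq_ord A M ℓ hA hℓM hr (f - cF) hney Dy (fun P => hDy P) Q,
      mapDomain_eq_ord A M ℓ hA hℓM hr f hne Df (fun P => hDf P) Q, hredy]
  -- `E ≤ Zf + (Dy - Df)`
  have hle : E ≤ Zf + (Dy - Df) := by
    intro w
    rw [Finsupp.add_apply, Finsupp.sub_apply, hZf, hDy, hDf]
    refine le_trans (hE w) ?_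
    rcases lt_or_ge (w.ord ((f : intF A M) : Fbar M)) 0 with h | h
    · rw [ord_sub_const_of_neg w h, max_eq_right h.le]
      omega
    · have h2 := ord_sub_const_nonneg w h (c : Qbar)
      rw [max_eq_left h2, max_eq_left h]
      omega
  have := Finsupp.mapDomain_mono (f := r) hle
  rw [Finsupp.mapDomain_add, Finsupp.mapDomain_sub, hrr, sub_self, add_zero] at this
  exact this

end Fermat.Agent.M15.RedCuspA0
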