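/-
M15 / R1-(RED) (lead), file B: **zeros of `j` do not reduce onto reductions of poles of `j`.**

`m : RedModel ℓ A M` (level `M`, residue characteristic `ℓ ∤ M`), `r = m.rPl`.
If `Pj`, `Zj` are the polar and the zero divisor of `j` on `X₀(M)/ℚ̄`, then for every place `Q` of
the special fibre, `(r_* Pj) Q ≠ 0 → (r_* Zj) Q = 0`.

Proof: `div j̃ = r_* Zj - r_* Pj`, so `(j̃)_∞ = (r_* Pj - r_* Zj)^+ ≤ r_* Pj`; both sides have degree
`ψ(M)` (`[F̃_M : κ(j̃)] = ψ(M)` in characteristic `ℓ ∤ M`, separably, and `[F_M : ℚ̄(j)] = ψ(M)`),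
hence they are equal.
Imported by no statement.
-/
import Mathlib
import Fermat.Agent.M15.RedCuspA0
import Fermat.Agent.U44.GenusEq5
import Fermat.Agent.U44.DescInst1
import Fermat.Agent.U44.RegRed8
import Fermat.Agent.ES.RED.SumOrdSep15
import Fermat.Agent.ES.RED.SpecialGen25
import Fermat.Agent.ES.RED.SpecialDegree25
import Fermat.Agent.X0.FFSum
import Fermat.Agent.RR.Riemann
import Fermat.Agent.RED.PUR.DegBaseChange25

set_option autoImplicit false
set_option linter.unusedSectionVars false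
set_option linter.unusedVariables false
set_option linter.style.haveILetI false
set_option synthInstance.maxHeartbeats 400000

open HahnSeries ModularCurve AlgebraicCurve IntermediateField

noncomputable section

namespace Fermat.Agent.M15.RedCuspB0

open Fermat.Agent.RED.Interface4 Fermat.Agent.ES.RED.ChartIntegralA1
open Fermat.Agent.FF.RedIface9 Fermat.Agent.X0 Fermat.Agent.RR.LSpace Fermat.Agent.RR.Riemann
open Fermat.Agent.M15.RedCuspA0

/-! ### `j` is `A`-integral, with reduction `j̃` -/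

section J

variable (A : ValuationSubring Qbar) (M : ℕ) [NeZero M]

theorem jF_mem_intF : (jF M : ↥(Fbar M)) ∈ intF A M := by
  refine ⟨jqModC ↥A, ?_⟩
  rw [coeffMap_jqModC]
  exact (Fermat.Agent.U44.RegRed8.coe_jF_eq_jqModC (M := M)).symm

/-- `j` as an element of `intF`. -/
def jInt : intF A M := ⟨jF M, jF_mem_intF A M⟩

variable (ℓ : ℕ) [Fact ℓ.Prime] (hA : A.LiesOverPrime ℓ) (hℓM : ¬ ℓ ∣ M)

theorem coe_redF_jInt :
    ((redF A M ℓ hA hℓM (jInt A M) : ↥(modularFunctionFieldFullC (kA A) M)) :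
      LaurentSeries (kA A)) = jqModC (kA A) := by
  rw [coe_redF_eq_of (Y := jqModC ↥A) ℓ hA hℓM
    (by rw [coeffMap_jqModC]; exact (Fermat.Agent.U44.RegRed8.coe_jF_eq_jqModC (M := M)).symm),
    coeffMap_jqModC]

theorem redF_jInt_ne_zero : redF A M ℓ hA hℓM (jInt A M) ≠ 0 := by
  intro h
  have h1 := coe_redF_jInt A M ℓ hA hℓM
  rw [h] at h1
  have h2 := ModularCurve.coeff_jqModC_neg_one (kA A)
  rw [← h1] at h2
  exact one_ne_zero (h2.symm.trans (by simp))

end J

/-! ### degrees of pole divisors -/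

section Generic

variable {K F : Type*} [Field K] [Field F] [Algebra K F] [IsAlgClosed K]

theorem degree_poleDiv_charZero [CharZero K] (H : LHyp K F) {x : F} (hx : FF.IsGen K x)
    (hx0 : x ≠ 0) : Divisor.degree (poleDiv H hx0) = (Module.finrank K⟮x⟯ F : ℤ) := by
  rw [degree_poleDiv_eq_finsum, FF.sum_ord_poles hx]

theorem degree_poleDiv_sep (H : LHyp K F) {x : F} (hx : FF.IsGen K x)
    [Algebra.IsSeparable K⟮x⟯ F] (hx0 : x ≠ 0) :
    Divisor.degree (poleDiv H hx0) = (Module.finrank K⟮x⟯ F : ℤ) := by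
  rw [degree_poleDiv_eq_finsum, Fermat.Agent.ES.RED.SumOrdSep15.sum_ord_poles_sep hx]

end Generic

/-! ### `j̃` on the special fibre -/

section Special

open Fermat.Agent.U44.RegRed8 Fermat.Agent.ES.RED.SpecialGen25 Fermat.Agent.ES.RED.SpecialDegree25

variable {ℓ : ℕ} [Fact ℓ.Prime] {A : ValuationSubring Qbar} {M : ℕ} [NeZero M]
  (m : RedModel ℓ A M) (hA : A.LiesOverPrime ℓ)

include m hA in
theorem redF_jInt_eq : redF A M ℓ hA m.hℓM (jInt A M) = jb A M :=
  Subtype.ext (coe_redF_jInt A M ℓ hA m.hℓM)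

include m hA in
theorem relfinrank_jb :
    relfinrank (kA A)⟮jqModC (kA A)⟯ (modularFunctionFieldFullC (kA A) M) = dedekindPsi M := by
  haveI : CharP (kA A) ℓ := Fermat.Agent.ES.KRON.KronInst10.charP_residueField A Fact.out hA
  exact Fermat.Agent.RED.PUR.DegBaseChange25.relfinrank_fullC_eq_psi_of_charP ℓ (kA A) M m.hℓM

theorem dedekindPsi_ne_zero : dedekindPsi M ≠ 0 :=
  (Fermat.Agent.X0.GNPsi.gnp_dedekindPsi_pos (NeZero.ne M)).ne'

include m hA in
theorem isGen_jb : FF.IsGen (kA A) (jb A M) := by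
  refine isGen_of_relfinrank_ne_zero (modularFunctionFieldFullC (kA A) M) (jb A M)
    (Fermat.Agent.IG.VAL.OvBasics22.transcendental_jqModC (kA A)) ?_
  show relfinrank (kA A)⟮jqModC (kA A)⟯ (modularFunctionFieldFullC (kA A) M) ≠ 0
  rw [relfinrank_jb m hA]
  exact dedekindPsi_ne_zero

include m hA in
theorem finrank_jb :
    Module.finrank ↥((kA A)⟮jb A M⟯ : IntermediateField (kA A)
      ↥(modularFunctionFieldFullC (kA A) M)) ↥(modularFunctionFieldFullC (kA A) M) =
      dedekindPsi M := by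
  rw [finrank_adjoin_simple_eq_relfinrank]
  exact relfinrank_jb m hA

include m hA in
theorem isSeparable_jb :
    Algebra.IsSeparable ↥((kA A)⟮jb A M⟯ : IntermediateField (kA A)
      ↥(modularFunctionFieldFullC (kA A) M)) ↥(modularFunctionFieldFullC (kA A) M) := by
  haveI : IsAlgClosed (kA A) := Fermat.Agent.ES.KRON.KronInst10.isAlgClosed_residueField A
  haveI : CharP (kA A) ℓ := Fermat.Agent.ES.KRON.KronInst10.charP_residueField A Fact.out hA
  have hsep := (finite_and_separable_of_order (k := kA A) ℓ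
    (Fermat.Agent.IG.AN.ModPoly3.order_jqModC (kA A)) (modularFunctionFieldFullC (kA A) M)
    (adjoin_simple_le _ (jb A M)) (by
      show relfinrank (kA A)⟮jqModC (kA A)⟯ (modularFunctionFieldFullC (kA A) M) ≠ 0
      rw [relfinrank_jb m hA]
      exact dedekindPsi_ne_zero)).2
  exact isSeparable_adjoin_simple_of_extendScalars (h := hsep) _ (jb A M)

theorem jb_ne_zero : jb A M ≠ 0 := by
  intro h
  have h1 : jqModC (kA A) = 0 := congrArg Subtype.val h
  have h2 := ModularCurve.coeff_jqModC_neg_one (kA A)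
  rw [h1] at h2
  exact one_ne_zero (h2.symm.trans (by simp))

include m hA in
/-- **`deg (j̃)_∞ = ψ(M)`.** -/
theorem degree_poleDiv_jb :
    Divisor.degree (poleDiv (Fermat.Agent.U44.GenusEq5.lHyp_special m hA) (jb_ne_zero (A := A) (M := M))) =
      (dedekindPsi M : ℤ) := by
  haveI : IsAlgClosed (kA A) := Fermat.Agent.ES.KRON.KronInst10.isAlgClosed_residueField A
  haveI := isSeparable_jb m hA
  rw [degree_poleDiv_sep _ (isGen_jb m hA), finrank_jb m hA]

end Special

/-! ### `j` on the generic fibre -/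

section GenericFibre

variable (M : ℕ) [NeZero M]

theorem jF_ne_zero : (jF M : ↥(Fbar M)) ≠ 0 := by
  intro h
  apply (Fermat.Agent.RED.TOP.FbarFacts20.isGen_j M).transcendental
  rw [h]
  exact isAlgebraic_zero

/-- **`deg (j)_∞ = ψ(M)`.** -/
theorem degree_poleDiv_jF :
    Divisor.degree (poleDiv (Fermat.Agent.U44.DescInst1.lHyp M) (jF_ne_zero M)) =
      (dedekindPsi M : ℤ) := by
  rw [degree_poleDiv_charZero _ (Fermat.Agent.RED.TOP.FbarFacts20.isGen_j M)]
  congr 1
  exact Degree.finrank_adjoin M (Fermat.Agent.X0.realizeData M) (Fermat.Agent.X0.cuspData M)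

end GenericFibre

/-! ### Lemma B -/

section Main

open Fermat.Agent.U44.RegRed8

variable {ℓ : ℕ} [Fact ℓ.Prime] {A : ValuationSubring Qbar} {M : ℕ} [NeZero M]
  (m : RedModel ℓ A M) (hA : A.LiesOverPrime ℓ)

include hA in
/-- `div j̃ = r_* (j)_0 - r_* (j)_∞`. -/
theorem ord_jb_eq (Pj Zj : Divisor Qbar ↥(Fbar M))
    (hPj : ∀ w, Pj w = max 0 (-(w.ord (jF M : ↥(Fbar M)))))
    (hZj : ∀ w, Zj w = max (w.ord (jF M : ↥(Fbar M))) 0)
    (Q : Place (kA A) ↥(modularFunctionFieldFullC (kA A) M)) :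
    Finsupp.mapDomain m.rPl Zj Q - Finsupp.mapDomain m.rPl Pj Q = Q.ord (jb A M) := by
  have hDj : ∀ w, (Zj - Pj) w = w.ord (((jInt A M : intF A M) : ↥(Fbar M))) := by
    intro w
    rw [Finsupp.sub_apply, hZj, hPj]
    show _ = w.ord (jF M : ↥(Fbar M))
    rcases le_total (w.ord (jF M : ↥(Fbar M))) 0 with h | h
    · rw [max_eq_right h, max_eq_right (by omega)]
      omega
    · rw [max_eq_left h, max_eq_left (by omega)]
      omega
  have := mapDomain_eq_ord A M ℓ hA m.hℓM (m.isPlaceReduction hA) (jInt A M)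
    (redF_jInt_ne_zero A M ℓ hA m.hℓM) (Zj - Pj) hDj Q
  rw [Finsupp.mapDomain_sub, Finsupp.sub_apply, redF_jInt_eq m hA] at this
  exact this

include hA in
/-- **Lemma B**: a zero of `j` never reduces onto the reduction of a pole of `j`. -/
theorem zeros_disjoint_poles (Pj Zj : Divisor Qbar ↥(Fbar M))
    (hPj : ∀ w, Pj w = max 0 (-(w.ord (jF M : ↥(Fbar M)))))
    (hZj : ∀ w, Zj w = max (w.ord (jF M : ↥(Fbar M))) 0)
    (Q : Place (kA A) ↥(modularFunctionFieldFullC (kA A) M))
    (hQ : Finsupp.mapDomain m.rPl Pj Q ≠ 0) : Finsupp.mapDomain m.rPl Zj Q = 0 := by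
  have HLb := Fermat.Agent.U44.GenusEq5.lHyp_special m hA
  have hr := m.isPlaceReduction hA
  have hPj' : Pj = poleDiv (Fermat.Agent.U44.DescInst1.lHyp M) (jF_ne_zero M) := by
    ext w
    rw [hPj, poleDiv_apply]
  have hdegP : Divisor.degree Pj = (dedekindPsi M : ℤ) := by
    rw [hPj', degree_poleDiv_jF]
  have hZ0 : (0 : Divisor Qbar ↥(Fbar M)) ≤ Zj := fun w => by
    rw [hZj]; exact le_max_right _ _
  have hP0 : (0 : Divisor Qbar ↥(Fbar M)) ≤ Pj := fun w => by
    rw [hPj]; exact le_max_left _ _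
  have hZnn := Finsupp.mapDomain_nonneg (f := m.rPl) hZ0
  have hPnn := Finsupp.mapDomain_nonneg (f := m.rPl) hP0
  have hle : poleDiv HLb (jb_ne_zero (A := A) (M := M)) ≤ Finsupp.mapDomain m.rPl Pj := by
    intro Q'
    rw [poleDiv_apply, ← ord_jb_eq m hA Pj Zj hPj hZj Q']
    have h1 := hZnn Q'
    have h2 := hPnn Q'
    simp only [Finsupp.coe_zero, Pi.zero_apply] at h1 h2
    rcases le_total 0 (-(Finsupp.mapDomain m.rPl Zj Q' - Finsupp.mapDomain m.rPl Pj Q')) with h | h
    · rw [max_eq_right h]; omega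
    · rw [max_eq_left h]; exact h2
  have hdeg : Divisor.degree (Finsupp.mapDomain m.rPl Pj -
      poleDiv HLb (jb_ne_zero (A := A) (M := M))) = 0 := by
    rw [map_sub, degree_mapDomain_of_deg_eq hr.1, hdegP, degree_poleDiv_jb m hA, sub_self]
  have h0 := eq_zero_of_degree_eq_zero HLb (sub_nonneg.mpr hle) hdeg
  have hQ' : Finsupp.mapDomain m.rPl Pj Q - poleDiv HLb (jb_ne_zero (A := A) (M := M)) Q = 0 := by
    have := congrArg (fun D : Divisor (kA A) ↥(modularFunctionFieldFullC (kA A) M) => D Q) h0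
    simpa using this
  rw [poleDiv_apply, ← ord_jb_eq m hA Pj Zj hPj hZj Q] at hQ'
  have h1 := hZnn Q
  have h2 := hPnn Q
  simp only [Finsupp.coe_zero, Pi.zero_apply] at h1 h2
  rcases le_total 0 (-(Finsupp.mapDomain m.rPl Zj Q - Finsupp.mapDomain m.rPl Pj Q)) with h | h
  · rw [max_eq_right h] at hQ'; omega
  · rw [max_eq_left h] at hQ'; omega

end Main

end Fermat.Agent.M15.RedCuspB0
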