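/-
M15 / R1-(RED) (lead), file C: **the abstract cusp lemma.**

`N ∣ M`, `m : RedModel ℓ A M`, `r = m.rPl`, `π^* = levelPullbackDiv`.
* `pull_max`, `pull_max_neg`, `pull_single_le` : `π^*` of zero / polar divisors and of a point;
* `le_zeros` (Lemma A'): if `f ∈ F_N` has `A`-integral `q`-expansion with nonzero reduction and
  `f(x) = c ∈ 𝔪_A` then `r_* π^* (x) ≤ r_* π^* (f)_0`;
* `eq_cusp` (Lemma C): if `C` is a pole of `j`, `(f₁)_0 = n₁ (C)`, `(f₂)_0 = (C) + k (j)_0` and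
  `f₁(x), f₂(x) ∈ 𝔪_A`, then `r_* π^* (x) = r_* π^* (C)`.
Imported by no statement.
-/
import Mathlib
import Fermat.Agent.M15.RedCuspA0
import Fermat.Agent.M15.RedCuspB0
import Fermat.Agent.ES.HECKE.LevelPullback12

set_option autoImplicit false
set_option linter.unusedSectionVars false
set_option linter.unusedVariables false
set_option linter.style.haveILetI false
set_option synthInstance.maxHeartbeats 400000

open HahnSeries ModularCurve AlgebraicCurve IntermediateField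

noncomputable section

open scoped Classical

namespace Fermat.Agent.M15.RedCuspC0

open Fermat.Agent.RED.Interface4 Fermat.Agent.ES.RED.ChartIntegralA1
open Fermat.Agent.FF.RedIface9 Fermat.Agent.X0 Fermat.Agent.RR.LSpace
open Fermat.Agent.ES.HECKE.LevelPullback12
open Fermat.Agent.M15.RedCuspA0 Fermat.Agent.M15.RedCuspB0

section Pull

variable {N M : ℕ} [NeZero N] [NeZero M] (h : N ∣ M)

theorem levelIncl_jF : levelIncl h (jF N) = jF M := by
  apply Subtype.ext
  rw [coe_levelIncl]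
  exact (Fermat.Agent.U44.RegRed8.coe_jF_eq_jqModC (M := N)).trans
    (Fermat.Agent.U44.RegRed8.coe_jF_eq_jqModC (M := M)).symm

theorem pull_max (f : ↥(Fbar N)) (Zf : Divisor Qbar ↥(Fbar N))
    (hZf : ∀ v, Zf v = max (v.ord f) 0) (w : Place Qbar ↥(Fbar M)) :
    levelPullbackDiv h Zf w = max (w.ord (levelIncl h f)) 0 := by
  rw [levelPullbackDiv_apply, hZf, Place.ord_restrictAlong (levelIncl h) (levelIncl_isIntegral h)]
  have he : (0 : ℤ) ≤ (Place.ramificationIndexAlong (levelIncl h) w : ℤ) := Int.natCast_nonneg _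
  rw [mul_max_of_nonneg _ _ he, mul_zero]

theorem pull_max_neg (f : ↥(Fbar N)) (Pf : Divisor Qbar ↥(Fbar N))
    (hPf : ∀ v, Pf v = max 0 (-(v.ord f))) (w : Place Qbar ↥(Fbar M)) :
    levelPullbackDiv h Pf w = max 0 (-(w.ord (levelIncl h f))) := by
  rw [levelPullbackDiv_apply, hPf, Place.ord_restrictAlong (levelIncl h) (levelIncl_isIntegral h)]
  have he : (0 : ℤ) ≤ (Place.ramificationIndexAlong (levelIncl h) w : ℤ) := Int.natCast_nonneg _
  rw [mul_max_of_nonneg _ _ he, mul_zero, mul_neg]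

theorem pull_single_le (x : Place Qbar ↥(Fbar N)) (g : ↥(Fbar N)) (hx : 0 < x.ord g)
    (w : Place Qbar ↥(Fbar M)) :
    levelPullbackDiv h (Finsupp.single x (1 : ℤ)) w ≤ max (w.ord (levelIncl h g)) 0 := by
  rw [levelPullbackDiv_apply, Place.ord_restrictAlong (levelIncl h) (levelIncl_isIntegral h),
    Finsupp.single_apply]
  have he : (0 : ℤ) ≤ (Place.ramificationIndexAlong (levelIncl h) w : ℤ) := Int.natCast_nonneg _
  split_ifs with hw
  · rw [← hw]
    refine le_trans ?_ (le_max_left _ _)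
    nlinarith
  · rw [mul_zero]
    exact le_max_right _ _

theorem pull_nonneg {D : Divisor Qbar ↥(Fbar N)} (hD : 0 ≤ D) : 0 ≤ levelPullbackDiv h D := by
  intro w
  rw [levelPullbackDiv_apply]
  exact mul_nonneg (Int.natCast_nonneg _) (hD _)

theorem pull_mono {D E : Divisor Qbar ↥(Fbar N)} (hDE : D ≤ E) :
    levelPullbackDiv h D ≤ levelPullbackDiv h E := by
  have := pull_nonneg h (sub_nonneg.mpr hDE)
  rw [map_sub] at this
  exact sub_nonneg.mp this

end Pull

section Main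

variable {N M : ℕ} [NeZero N] [NeZero M] (h : N ∣ M)
variable {ℓ : ℕ} [Fact ℓ.Prime] {A : ValuationSubring Qbar}
  (m : RedModel ℓ A M) (hA : A.LiesOverPrime ℓ)

include hA in
/-- **Lemma A'.** -/
theorem le_zeros (f : ↥(Fbar N)) (hf : levelIncl h f ∈ intF A M)
    (hne : redF A M ℓ hA m.hℓM ⟨levelIncl h f, hf⟩ ≠ 0) (c : ↥A)
    (hc : c ∈ IsLocalRing.maximalIdeal ↥A) (x : Place Qbar ↥(Fbar N))
    (hx : f = algebraMap Qbar ↥(Fbar N) (c : Qbar) ∨
      0 < x.ord (f - algebraMap Qbar ↥(Fbar N) (c : Qbar)))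
    (Zf : Divisor Qbar ↥(Fbar N)) (hZf : ∀ v, Zf v = max (v.ord f) 0) :
    Finsupp.mapDomain m.rPl (levelPullbackDiv h (Finsupp.single x (1 : ℤ))) ≤
      Finsupp.mapDomain m.rPl (levelPullbackDiv h Zf) := by
  have hcomm : levelIncl h (algebraMap Qbar ↥(Fbar N) (c : Qbar)) =
      algebraMap Qbar ↥(Fbar M) (c : Qbar) := (levelIncl h).commutes _
  rcases hx with hx | hx
  · exfalso
    apply hne
    have e : (⟨levelIncl h f, hf⟩ : intF A M) =
        ⟨algebraMap Qbar ↥(Fbar M) (c : Qbar), algebraMap_mem_intF A M c⟩ :=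
      Subtype.ext (show levelIncl h f = algebraMap Qbar ↥(Fbar M) (c : Qbar) by rw [hx, hcomm])
    rw [e, redF_algebraMap, (IsLocalRing.residue_eq_zero_iff c).mpr hc, map_zero]
  · refine mapDomain_le_zeros A M ℓ hA m.hℓM (m.isPlaceReduction hA) ⟨levelIncl h f, hf⟩ hne c hc
      _ _ (fun w => pull_max h f Zf hZf w) (fun w => ?_)
    have := pull_single_le h x _ hx w
    rw [map_sub, hcomm] at this
    exact this

include hA in
/-- **Lemma C.** -/
theorem eq_cusp (C : Place Qbar ↥(Fbar N)) (hC : C.ord (jF N : ↥(Fbar N)) < 0) (n₁ k : ℕ)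
    (Zj : Divisor Qbar ↥(Fbar N)) (hZj : ∀ v, Zj v = max (v.ord (jF N : ↥(Fbar N))) 0)
    (f₁ f₂ : ↥(Fbar N))
    (hf₁ : levelIncl h f₁ ∈ intF A M) (hne₁ : redF A M ℓ hA m.hℓM ⟨levelIncl h f₁, hf₁⟩ ≠ 0)
    (hf₂ : levelIncl h f₂ ∈ intF A M) (hne₂ : redF A M ℓ hA m.hℓM ⟨levelIncl h f₂, hf₂⟩ ≠ 0)
    (hZ₁ : ∀ v, max (v.ord f₁) 0 = (n₁ : ℤ) * (Finsupp.single C (1 : ℤ)) v)
    (hZ₂ : ∀ v, max (v.ord f₂) 0 = (Finsupp.single C (1 : ℤ)) v + (k : ℤ) * Zj v)
    (c₁ c₂ : ↥A) (hc₁ : c₁ ∈ IsLocalRing.maximalIdeal ↥A) (hc₂ : c₂ ∈ IsLocalRing.maximalIdeal ↥A)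
    (x : Place Qbar ↥(Fbar N))
    (hx₁ : f₁ = algebraMap Qbar ↥(Fbar N) (c₁ : Qbar) ∨
      0 < x.ord (f₁ - algebraMap Qbar ↥(Fbar N) (c₁ : Qbar)))
    (hx₂ : f₂ = algebraMap Qbar ↥(Fbar N) (c₂ : Qbar) ∨
      0 < x.ord (f₂ - algebraMap Qbar ↥(Fbar N) (c₂ : Qbar))) :
    Finsupp.mapDomain m.rPl (levelPullbackDiv h (Finsupp.single x (1 : ℤ))) =
      Finsupp.mapDomain m.rPl (levelPullbackDiv h (Finsupp.single C (1 : ℤ))) := by
  have HLb := Fermat.Agent.U44.GenusEq5.lHyp_special m hA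
  have hr := m.isPlaceReduction hA
  set X := Finsupp.mapDomain m.rPl (levelPullbackDiv h (Finsupp.single x (1 : ℤ))) with hX
  set DC := Finsupp.mapDomain m.rPl (levelPullbackDiv h (Finsupp.single C (1 : ℤ))) with hDC
  set Zt := Finsupp.mapDomain m.rPl (levelPullbackDiv h Zj) with hZt
  -- first bound
  have hb₁ : X ≤ (n₁ : ℤ) • DC := by
    have := le_zeros h m hA f₁ hf₁ hne₁ c₁ hc₁ x hx₁ ((n₁ : ℤ) • Finsupp.single C (1 : ℤ))
      (fun v => by rw [Finsupp.smul_apply, smul_eq_mul, hZ₁])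
    rw [map_zsmul, Finsupp.mapDomain_smul] at this
    exact this
  -- second bound
  have hb₂ : X ≤ DC + (k : ℤ) • Zt := by
    have := le_zeros h m hA f₂ hf₂ hne₂ c₂ hc₂ x hx₂ (Finsupp.single C (1 : ℤ) + (k : ℤ) • Zj)
      (fun v => by rw [Finsupp.add_apply, Finsupp.smul_apply, smul_eq_mul, hZ₂])
    rw [map_add, map_zsmul, Finsupp.mapDomain_add, Finsupp.mapDomain_smul] at this
    exact this
  -- the polar divisor of `j`
  obtain ⟨Dj, hDj⟩ := Fermat.Agent.RED.TOP.FbarFacts20.exists_divisor_bar N (jF_ne_zero N)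
  set Pj : Divisor Qbar ↥(Fbar N) := Dj.mapRange (fun n => max 0 (-n)) (by simp) with hPjdef
  have hPj : ∀ v, Pj v = max 0 (-(v.ord (jF N : ↥(Fbar N)))) := fun v => by
    rw [hPjdef, Finsupp.mapRange_apply, hDj.1 v]
  have hCP : Finsupp.single C (1 : ℤ) ≤ Pj := by
    intro v
    rw [Finsupp.single_apply, hPj]
    split_ifs with hv
    · rw [← hv]
      refine le_trans ?_ (le_max_right _ _)
      omega
    · exact le_max_left _ _
  have hDCP : DC ≤ Finsupp.mapDomain m.rPl (levelPullbackDiv h Pj) :=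
    Finsupp.mapDomain_mono (pull_mono h hCP)
  have hB := zeros_disjoint_poles m hA (levelPullbackDiv h Pj) (levelPullbackDiv h Zj)
    (fun w => by rw [pull_max_neg h _ Pj hPj w, levelIncl_jF])
    (fun w => by rw [pull_max h _ Zj hZj w, levelIncl_jF])
  have hDC0 : 0 ≤ DC :=
    Finsupp.mapDomain_nonneg (pull_nonneg h (fun v => by
      rw [Finsupp.single_apply]; split_ifs <;> simp))
  -- `X ≤ DC`
  have hle : X ≤ DC := by
    intro Q
    have h1 := hb₁ Q
    have h2 := hb₂ Q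
    have h3 := hDC0 Q
    have h4 := hDCP Q
    rw [Finsupp.smul_apply, smul_eq_mul] at h1
    rw [Finsupp.add_apply, Finsupp.smul_apply, smul_eq_mul] at h2
    simp only [Finsupp.coe_zero, Pi.zero_apply] at h3
    rcases eq_or_lt_of_le h3 with h0 | hpos
    · rw [← h0, mul_zero] at h1
      rw [← h0]
      exact h1
    · have hZ0 : Zt Q = 0 := hB Q (by omega)
      rw [hZ0, mul_zero, add_zero] at h2
      exact h2
  -- degrees
  have hdeg : Divisor.degree (DC - X) = 0 := by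
    rw [hDC, hX, ← Finsupp.mapDomain_sub, ← map_sub, degree_mapDomain_of_deg_eq hr.1]
    have hmem : (Finsupp.single C (1 : ℤ) - Finsupp.single x 1 : Divisor Qbar ↥(Fbar N)) ∈
        Divisor.degZero (K := Qbar) (F := ↥(Fbar N)) := by
      rw [Divisor.mem_degZero, map_sub, Divisor.degree_single, Divisor.degree_single,
        Fermat.Agent.RED.TOP.FbarFacts20.deg_eq_one_bar,
        Fermat.Agent.RED.TOP.FbarFacts20.deg_eq_one_bar, sub_self]
    exact Divisor.mem_degZero.mp (levelPullbackDiv_mem_degZero h hmem)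
  have h0 := eq_zero_of_degree_eq_zero HLb (sub_nonneg.mpr hle) hdeg
  exact (sub_eq_zero.mp h0).symm

end Main

end Fermat.Agent.M15.RedCuspC0
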