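/-
M15 / R1-(RED) (lead): **THE PLACE-REDUCTION LEMMA** of chapter MOD.

`p` prime, `v` a prime not dividing `p`, `A ≤ ℚ̄` over `v`, `m = RedAt9.model p v hv hvp A hA`
(level `M = auxLevel v p`), `π^* = levelPullbackDiv (dvd_auxLevel v p)`, `r = m.rPl`.
For a place `x` of `ℚ̄(X₀(p))` with `j(x) = cj`:
* `red_eq_P0`   : if `U(x) = cU`, `U = (uF p)⁻¹ = Δ(q)/Δ(q^p)`, with `cU ∈ 𝔪_A` and
                  `cU^(p-1) cj^(p-2) ∈ 𝔪_A`, then `r_* π^* (x) = r_* π^* (P0)`;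
* `red_eq_Pinf` : if `u(x) = cu`, `u = uF p = Δ(q^p)/Δ(q)`, with `cu ∈ 𝔪_A` and
                  `cu cj^(p-2) ∈ 𝔪_A`, then `r_* π^* (x) = r_* π^* (Pinf)`;
* `redPull_cl_P0`, `redPull_cl_Pinf` : hence `redPull (cl x P0) = 0`, resp. `redPull (cl x Pinf) = 0`
  (the shape consumed by `RedAt9.redPull_cl_eq_zero`).
`c ∈ 𝔪_A` is written `A.valuation c < 1`.

Proof: `RedCuspC0.eq_cusp` with `f₁ = U`, `f₂ = U^(p-1) j^(p-2)` (zero divisor `(P0) + (p-2) (j)_0`),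
resp. `f₁ = u`, `f₂ = u j^(p-2)` (zero divisor `(Pinf) + (p-2) (j)_0`).
Imported by no statement.
-/
import Mathlib
import Fermat.Agent.M15.RedCuspC0
import Fermat.Agent.M15.CuspTors0
import Fermat.Agent.M15.RedAt9
import Fermat.Agent.ES.RED.PlaceValue13
import Fermat.Agent.IG.AN.DeltaQuotExp19

set_option autoImplicit false
set_option linter.unusedSectionVars false
set_option linter.unusedVariables false
set_option linter.style.haveILetI false
set_option linter.style.longLine false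
set_option synthInstance.maxHeartbeats 400000

open HahnSeries ModularCurve AlgebraicCurve IntermediateField

noncomputable section

open scoped Classical

namespace Fermat.Agent.M15.RedCusp0

open Fermat.Agent.RED.Interface4 Fermat.Agent.ES.RED.ChartIntegralA1
open Fermat.Agent.FF.RedIface9 Fermat.Agent.X0 Fermat.Agent.X0.FF Fermat.Agent.RR.LSpace
open Fermat.Agent.ES.HECKE.LevelPullback12
open Fermat.Agent.M15.RedCuspA0 Fermat.Agent.M15.RedCuspB0 Fermat.Agent.M15.RedCuspC0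
open Fermat.Agent.M15.Contracts9 Fermat.Agent.M15.CuspTors0
open Fermat.Agent.RED.BASE.Hauptmodul12 Fermat.Agent.IG.PR.Interface20
open Fermat.Agent.ES.RED.PlaceValue13

/-! ### integrality of the modular unit -/

section Unit

variable (p : ℕ) [NeZero p] {M : ℕ} [NeZero M] (h : p ∣ M) (A : ValuationSubring Qbar)

theorem coe_uF_inv : (((uF p)⁻¹ : FF p) : LaurentSeries Qbar) =
    Fermat.Agent.RED.BASE.DeltaMem19.uqInv p Qbar := by
  have h1 := Fermat.Agent.RED.BASE.DeltaMem19.uqInv_mul_uq p Qbar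
  have h2 : (((uF p)⁻¹ : FF p) : LaurentSeries Qbar) = (uq Qbar p)⁻¹ := by
    rw [IntermediateField.coe_inv]
    rfl
  rw [h2]
  exact (eq_inv_of_mul_eq_one_left h1).symm

theorem uF_mem : levelIncl h (uF p) ∈ intF A M := by
  refine ⟨uq ↥A p, ?_⟩
  rw [Fermat.Agent.IG.AN.DeltaQuotExp19.coeffMap_uq]
  show uq Qbar p = ((levelIncl h (uF p) : ↥(Fbar M)) : LaurentSeries Qbar)
  rw [coe_levelIncl]
  rfl

theorem uFinv_mem : levelIncl h (uF p)⁻¹ ∈ intF A M := by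
  refine ⟨Fermat.Agent.RED.BASE.DeltaMem19.uqInv p ↥A, ?_⟩
  rw [Fermat.Agent.RED.BASE.DeltaMem19.coeffMap_uqInv]
  show Fermat.Agent.RED.BASE.DeltaMem19.uqInv p Qbar =
    ((levelIncl h (uF p)⁻¹ : ↥(Fbar M)) : LaurentSeries Qbar)
  rw [coe_levelIncl, coe_uF_inv]

theorem jF_mem : levelIncl h (jF p) ∈ intF A M := by
  rw [levelIncl_jF]
  exact jF_mem_intF A M

/-- `u`, `U = u⁻¹`, `j` as `A`-integral functions of level `M`. -/
def uI : intF A M := ⟨levelIncl h (uF p), uF_mem p h A⟩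
def UI : intF A M := ⟨levelIncl h (uF p)⁻¹, uFinv_mem p h A⟩
def jI : intF A M := ⟨levelIncl h (jF p), jF_mem p h A⟩

theorem UI_mul_uI : UI p h A * uI p h A = 1 := by
  apply Subtype.ext
  show levelIncl h (uF p)⁻¹ * levelIncl h (uF p) = 1
  rw [← map_mul, inv_mul_cancel₀ (uF_ne_zero' p), map_one]

theorem jI_eq : jI p h A = jInt A M := Subtype.ext (levelIncl_jF h)

variable (ℓ : ℕ) [Fact ℓ.Prime] (hA : A.LiesOverPrime ℓ) (hℓM : ¬ ℓ ∣ M)

theorem redF_UI_ne_zero : redF A M ℓ hA hℓM (UI p h A) ≠ 0 := by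
  intro h0
  have := congrArg (redF A M ℓ hA hℓM) (UI_mul_uI p h A)
  rw [map_mul, h0, zero_mul, map_one] at this
  exact zero_ne_one this

theorem redF_uI_ne_zero : redF A M ℓ hA hℓM (uI p h A) ≠ 0 := by
  intro h0
  have := congrArg (redF A M ℓ hA hℓM) (UI_mul_uI p h A)
  rw [map_mul, h0, mul_zero, map_one] at this
  exact zero_ne_one this

theorem redF_jI_ne_zero : redF A M ℓ hA hℓM (jI p h A) ≠ 0 := by
  rw [jI_eq]
  exact redF_jInt_ne_zero A M ℓ hA hℓM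

end Unit

/-! ### values at a place -/

section Value

variable {N : ℕ} [NeZero N] (x : Place Qbar ↥(Fbar N))

theorem value_of_ord {f : ↥(Fbar N)} {c : Qbar}
    (hf : 0 < x.ord (f - algebraMap Qbar ↥(Fbar N) c)) :
    ∃ hm : f ∈ x.toValuationSubring,
      valueHom (Fermat.Agent.RED.TOP.FbarFacts20.isGen_j N) x ⟨f, hm⟩ = c := by
  have hm : f ∈ x.toValuationSubring := by
    apply mem_of_ord_nonneg
    by_contra hneg
    rw [not_le] at hneg
    rw [Fermat.Agent.ES.KRON.ChartBridge24.ord_sub_const_of_neg x hneg c] at hf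
    omega
  exact ⟨hm, (valueHom_eq_iff _ x ⟨f, hm⟩ c).mpr (Or.inr hf)⟩

theorem value_mul_pow {a b : ↥(Fbar N)} {ca cb : Qbar}
    (ha : 0 < x.ord (a - algebraMap Qbar ↥(Fbar N) ca))
    (hb : 0 < x.ord (b - algebraMap Qbar ↥(Fbar N) cb)) (s t : ℕ) :
    a ^ s * b ^ t = algebraMap Qbar ↥(Fbar N) (ca ^ s * cb ^ t) ∨
      0 < x.ord (a ^ s * b ^ t - algebraMap Qbar ↥(Fbar N) (ca ^ s * cb ^ t)) := by
  obtain ⟨hma, hva⟩ := value_of_ord x ha
  obtain ⟨hmb, hvb⟩ := value_of_ord x hb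
  have := (valueHom_eq_iff (Fermat.Agent.RED.TOP.FbarFacts20.isGen_j N) x
    ((⟨a, hma⟩ : x.toValuationSubring) ^ s * (⟨b, hmb⟩ : x.toValuationSubring) ^ t)
    (ca ^ s * cb ^ t)).mp (by rw [map_mul, map_pow, map_pow, hva, hvb])
  simpa using this

end Value

/-! ### the divisors of `U`, `u`, `U^(p-1) j^(p-2)`, `u j^(p-2)` -/

section Divisors

variable (p : ℕ) [NeZero p] (hp : p.Prime)

include hp

theorem cases_place (v : Pl p) :
    (v = P0 p hp ∧ v ≠ Pinf p ∧ v.ord (jF p) = -(p : ℤ)) ∨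
    (v = Pinf p ∧ v ≠ P0 p hp ∧ v.ord (jF p) = -1) ∨
    (v ≠ P0 p hp ∧ v ≠ Pinf p ∧ 0 ≤ v.ord (jF p)) := by
  by_cases h0 : v = P0 p hp
  · left
    refine ⟨h0, ?_, ?_⟩
    · rw [h0]; exact P0_ne_Pinf p hp
    · rw [h0]; exact ord_jF_P0 p hp
  by_cases hinf : v = Pinf p
  · right; left
    refine ⟨hinf, h0, ?_⟩
    rw [hinf]; exact ord_jF_Pinf p
  right; right
  refine ⟨h0, hinf, ?_⟩
  by_contra hneg
  rw [not_le] at hneg
  rcases eq_P0_or_eq_Pinf p hp hneg with h | h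
  · exact h0 h
  · exact hinf h

theorem ord_uF' (v : Pl p) :
    v.ord (uF p) = ((p : ℤ) - 1) * ((Finsupp.single (Pinf p) (1 : ℤ) : Divisor Qbar (FF p)) v -
      (Finsupp.single (P0 p hp) (1 : ℤ) : Divisor Qbar (FF p)) v) := by
  rw [ord_uF p hp v, Finsupp.sub_apply]

omit hp in
theorem jF_ne_zero' : (jF p : FF p) ≠ 0 := jF_ne_zero p

omit hp in
theorem ord_pow' (v : Pl p) (f : FF p) (n : ℕ) : v.ord (f ^ n) = (n : ℤ) * v.ord f := by
  rw [← zpow_natCast, Place.ord_zpow]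

theorem cast_sub_one : ((p - 1 : ℕ) : ℤ) = (p : ℤ) - 1 := by
  rw [Nat.cast_sub hp.one_lt.le, Nat.cast_one]

theorem cast_sub_two : ((p - 2 : ℕ) : ℤ) = (p : ℤ) - 2 := by
  rw [Nat.cast_sub hp.two_le, Nat.cast_ofNat]

theorem two_le_cast : (2 : ℤ) ≤ (p : ℤ) := by exact_mod_cast hp.two_le

/-- `(U)_0 = (p - 1) (P0)`. -/
theorem zeros_U (v : Pl p) :
    max (v.ord (uF p)⁻¹) 0 =
      ((p - 1 : ℕ) : ℤ) * (Finsupp.single (P0 p hp) (1 : ℤ) : Divisor Qbar (FF p)) v := by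
  have h2 := two_le_cast p hp
  rw [Place.ord_inv, ord_uF' p hp, cast_sub_one p hp, Finsupp.single_apply, Finsupp.single_apply]
  rcases cases_place p hp v with ⟨h0, hinf, -⟩ | ⟨hinf, h0, -⟩ | ⟨h0, hinf, -⟩
  · rw [if_neg (Ne.symm hinf), if_pos h0.symm]
    rw [max_eq_left (by nlinarith)]
    ring
  · rw [if_pos hinf.symm, if_neg (Ne.symm h0)]
    rw [max_eq_right (by nlinarith)]
    ring
  · rw [if_neg (Ne.symm hinf), if_neg (Ne.symm h0)]
    simp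

/-- `(u)_0 = (p - 1) (Pinf)`. -/
theorem zeros_u (v : Pl p) :
    max (v.ord (uF p)) 0 =
      ((p - 1 : ℕ) : ℤ) * (Finsupp.single (Pinf p) (1 : ℤ) : Divisor Qbar (FF p)) v := by
  have h2 := two_le_cast p hp
  rw [ord_uF' p hp, cast_sub_one p hp, Finsupp.single_apply, Finsupp.single_apply]
  rcases cases_place p hp v with ⟨h0, hinf, -⟩ | ⟨hinf, h0, -⟩ | ⟨h0, hinf, -⟩
  · rw [if_neg (Ne.symm hinf), if_pos h0.symm]
    rw [max_eq_right (by nlinarith)]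
    ring
  · rw [if_pos hinf.symm, if_neg (Ne.symm h0)]
    rw [max_eq_left (by nlinarith)]
    ring
  · rw [if_neg (Ne.symm hinf), if_neg (Ne.symm h0)]
    simp

/-- `(U^(p-1) j^(p-2))_0 = (P0) + (p - 2) (j)_0`. -/
theorem zeros_f2 (Zj : Divisor Qbar (FF p)) (hZj : ∀ v, Zj v = max (v.ord (jF p)) 0) (v : Pl p) :
    max (v.ord ((uF p)⁻¹ ^ (p - 1) * jF p ^ (p - 2))) 0 =
      (Finsupp.single (P0 p hp) (1 : ℤ) : Divisor Qbar (FF p)) v + ((p - 2 : ℕ) : ℤ) * Zj v := by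
  have h2 := two_le_cast p hp
  rw [v.ord_mul (pow_ne_zero _ (inv_ne_zero (uF_ne_zero' p))) (pow_ne_zero _ (jF_ne_zero' p)),
    ord_pow', ord_pow', Place.ord_inv, ord_uF' p hp, cast_sub_one p hp, cast_sub_two p hp, hZj,
    Finsupp.single_apply, Finsupp.single_apply]
  rcases cases_place p hp v with ⟨h0, hinf, hj⟩ | ⟨hinf, h0, hj⟩ | ⟨h0, hinf, hj⟩
  · rw [if_neg (Ne.symm hinf), if_pos h0.symm, hj]
    have e : ((p : ℤ) - 1) * -(((p : ℤ) - 1) * (0 - 1)) + ((p : ℤ) - 2) * -(p : ℤ) = 1 := by ring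
    rw [e, max_eq_right (by omega : -(p : ℤ) ≤ 0)]
    norm_num
  · rw [if_pos hinf.symm, if_neg (Ne.symm h0), hj]
    rw [max_eq_right (by nlinarith), max_eq_right (by norm_num)]
    ring
  · rw [if_neg (Ne.symm hinf), if_neg (Ne.symm h0), max_eq_left hj]
    rw [max_eq_left (by nlinarith)]
    ring

/-- `(u j^(p-2))_0 = (Pinf) + (p - 2) (j)_0`. -/
theorem zeros_g2 (Zj : Divisor Qbar (FF p)) (hZj : ∀ v, Zj v = max (v.ord (jF p)) 0) (v : Pl p) :
    max (v.ord (uF p ^ 1 * jF p ^ (p - 2))) 0 =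
      (Finsupp.single (Pinf p) (1 : ℤ) : Divisor Qbar (FF p)) v + ((p - 2 : ℕ) : ℤ) * Zj v := by
  have h2 := two_le_cast p hp
  rw [v.ord_mul (pow_ne_zero _ (uF_ne_zero' p)) (pow_ne_zero _ (jF_ne_zero' p)),
    ord_pow', ord_pow', ord_uF' p hp, cast_sub_two p hp, hZj,
    Finsupp.single_apply, Finsupp.single_apply]
  rcases cases_place p hp v with ⟨h0, hinf, hj⟩ | ⟨hinf, h0, hj⟩ | ⟨h0, hinf, hj⟩
  · rw [if_neg (Ne.symm hinf), if_pos h0.symm, hj]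
    rw [max_eq_right (by nlinarith), max_eq_right (by omega : -(p : ℤ) ≤ 0)]
    ring
  · rw [if_pos hinf.symm, if_neg (Ne.symm h0), hj]
    have e : ((1 : ℕ) : ℤ) * (((p : ℤ) - 1) * (1 - 0)) + ((p : ℤ) - 2) * -1 = 1 := by
      push_cast; ring
    rw [e, max_eq_right (by norm_num : (-1 : ℤ) ≤ 0)]
    norm_num
  · rw [if_neg (Ne.symm hinf), if_neg (Ne.symm h0), max_eq_left hj]
    rw [max_eq_left (by push_cast; nlinarith)]
    push_cast
    ring

end Divisors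

/-! ### the place-reduction lemma at a general level `M`, `p ∣ M` -/

section General

variable (p : ℕ) [NeZero p] (hp : p.Prime) {M : ℕ} [NeZero M] (h : p ∣ M)
variable {ℓ : ℕ} [Fact ℓ.Prime] {A : ValuationSubring Qbar}
  (m : RedModel ℓ A M) (hA : A.LiesOverPrime ℓ)

theorem exists_Zj : ∃ Zj : Divisor Qbar (FF p), ∀ v, Zj v = max (v.ord (jF p)) 0 := by
  obtain ⟨Dj, hDj⟩ := Fermat.Agent.RED.TOP.FbarFacts20.exists_divisor_bar p (jF_ne_zero p)
  refine ⟨Dj.mapRange (fun n => max n 0) (by simp), fun v => ?_⟩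
  rw [Finsupp.mapRange_apply, hDj.1 v]

theorem mem_maximalIdeal_of_valuation_lt {c : Qbar} (hc : A.valuation c < 1) :
    ∃ c' : ↥A, (c' : Qbar) = c ∧ c' ∈ IsLocalRing.maximalIdeal ↥A :=
  ⟨⟨c, (A.valuation_le_one_iff c).mp hc.le⟩, rfl,
    (A.valuation_lt_one_iff ⟨c, (A.valuation_le_one_iff c).mp hc.le⟩).mpr hc⟩

include hA in
/-- **reduction to the cusp `0`.** -/
theorem red_eq_P0_gen (x : Pl p) (cj cU : Qbar)
    (hj : 0 < x.ord (jF p - algebraMap Qbar (FF p) cj))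
    (hU : 0 < x.ord ((uF p)⁻¹ - algebraMap Qbar (FF p) cU))
    (h1 : A.valuation cU < 1) (h2 : A.valuation (cU ^ (p - 1) * cj ^ (p - 2)) < 1) :
    Finsupp.mapDomain m.rPl (levelPullbackDiv h (Finsupp.single x (1 : ℤ))) =
      Finsupp.mapDomain m.rPl (levelPullbackDiv h (Finsupp.single (P0 p hp) (1 : ℤ))) := by
  obtain ⟨Zj, hZj⟩ := exists_Zj p
  obtain ⟨c₁, hc₁e, hc₁⟩ := mem_maximalIdeal_of_valuation_lt h1
  obtain ⟨c₂, hc₂e, hc₂⟩ := mem_maximalIdeal_of_valuation_lt h2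
  have hf₂ : levelIncl h ((uF p)⁻¹ ^ (p - 1) * jF p ^ (p - 2)) ∈ intF A M := by
    rw [map_mul, map_pow, map_pow]
    exact mul_mem (pow_mem (uFinv_mem p h A) _) (pow_mem (jF_mem p h A) _)
  have hne₂ : redF A M ℓ hA m.hℓM ⟨levelIncl h ((uF p)⁻¹ ^ (p - 1) * jF p ^ (p - 2)), hf₂⟩ ≠ 0 := by
    have e : (⟨levelIncl h ((uF p)⁻¹ ^ (p - 1) * jF p ^ (p - 2)), hf₂⟩ : intF A M) =
        UI p h A ^ (p - 1) * jI p h A ^ (p - 2) := by
      apply Subtype.ext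
      show levelIncl h ((uF p)⁻¹ ^ (p - 1) * jF p ^ (p - 2)) =
        levelIncl h (uF p)⁻¹ ^ (p - 1) * levelIncl h (jF p) ^ (p - 2)
      rw [map_mul, map_pow, map_pow]
    rw [e, map_mul, map_pow, map_pow]
    exact mul_ne_zero (pow_ne_zero _ (redF_UI_ne_zero p h A ℓ hA m.hℓM))
      (pow_ne_zero _ (redF_jI_ne_zero p h A ℓ hA m.hℓM))
  refine eq_cusp h m hA (P0 p hp)
    (by rw [ord_jF_P0]; have := two_le_cast p hp; omega) (p - 1) (p - 2) Zj hZj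
    ((uF p)⁻¹) ((uF p)⁻¹ ^ (p - 1) * jF p ^ (p - 2))
    (uFinv_mem p h A) (redF_UI_ne_zero p h A ℓ hA m.hℓM) hf₂ hne₂
    (zeros_U p hp) (zeros_f2 p hp Zj hZj) c₁ c₂ hc₁ hc₂ x ?_ ?_
  · rw [hc₁e]; exact Or.inr hU
  · rw [hc₂e]; exact value_mul_pow x hU hj (p - 1) (p - 2)

include hA hp in
/-- **reduction to the cusp `∞`.** -/
theorem red_eq_Pinf_gen (x : Pl p) (cj cu : Qbar)
    (hj : 0 < x.ord (jF p - algebraMap Qbar (FF p) cj))
    (hu : 0 < x.ord (uF p - algebraMap Qbar (FF p) cu))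
    (h1 : A.valuation cu < 1) (h2 : A.valuation (cu * cj ^ (p - 2)) < 1) :
    Finsupp.mapDomain m.rPl (levelPullbackDiv h (Finsupp.single x (1 : ℤ))) =
      Finsupp.mapDomain m.rPl (levelPullbackDiv h (Finsupp.single (Pinf p) (1 : ℤ))) := by
  obtain ⟨Zj, hZj⟩ := exists_Zj p
  obtain ⟨c₁, hc₁e, hc₁⟩ := mem_maximalIdeal_of_valuation_lt h1
  have h2' : A.valuation (cu ^ 1 * cj ^ (p - 2)) < 1 := by rw [pow_one]; exact h2
  obtain ⟨c₂, hc₂e, hc₂⟩ := mem_maximalIdeal_of_valuation_lt h2'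
  have hf₂ : levelIncl h (uF p ^ 1 * jF p ^ (p - 2)) ∈ intF A M := by
    rw [map_mul, map_pow, map_pow]
    exact mul_mem (pow_mem (uF_mem p h A) _) (pow_mem (jF_mem p h A) _)
  have hne₂ : redF A M ℓ hA m.hℓM ⟨levelIncl h (uF p ^ 1 * jF p ^ (p - 2)), hf₂⟩ ≠ 0 := by
    have e : (⟨levelIncl h (uF p ^ 1 * jF p ^ (p - 2)), hf₂⟩ : intF A M) =
        uI p h A ^ 1 * jI p h A ^ (p - 2) := by
      apply Subtype.ext
      show levelIncl h (uF p ^ 1 * jF p ^ (p - 2)) =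
        levelIncl h (uF p) ^ 1 * levelIncl h (jF p) ^ (p - 2)
      rw [map_mul, map_pow, map_pow]
    rw [e, map_mul, map_pow, map_pow]
    exact mul_ne_zero (pow_ne_zero _ (redF_uI_ne_zero p h A ℓ hA m.hℓM))
      (pow_ne_zero _ (redF_jI_ne_zero p h A ℓ hA m.hℓM))
  refine eq_cusp h m hA (Pinf p)
    (by rw [ord_jF_Pinf]; norm_num) (p - 1) (p - 2) Zj hZj
    (uF p) (uF p ^ 1 * jF p ^ (p - 2))
    (uF_mem p h A) (redF_uI_ne_zero p h A ℓ hA m.hℓM) hf₂ hne₂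
    (zeros_u p hp) (zeros_g2 p hp Zj hZj) c₁ c₂ hc₁ hc₂ x ?_ ?_
  · rw [hc₁e]; exact Or.inr hu
  · rw [hc₂e]; exact value_mul_pow x hu hj 1 (p - 2)

end General

/-! ### the contract for chapter MOD -/

section Contract

open Fermat.Agent.M15.RedAt9 Fermat.Agent.RED.LVL

variable (p : ℕ) [NeZero p] (hp : p.Prime)

/-- **(RED), cusp `0`**: `Φ_A (cl x P0) = 0`. -/
theorem redPull_cl_P0 {v : ℕ} (hv : v.Prime) (hvp : ¬ v ∣ p) {A : ValuationSubring Qb}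
    (hA : A.LiesOverPrime v) (x : Pl p) (cj cU : Qb)
    (hj : 0 < x.ord (jF p - algebraMap Qb (FF p) cj))
    (hU : 0 < x.ord ((uF p)⁻¹ - algebraMap Qb (FF p) cU))
    (h1 : A.valuation cU < 1) (h2 : A.valuation (cU ^ (p - 1) * cj ^ (p - 2)) < 1) :
    redPull p v hv hvp A hA (cl p x (P0 p hp)) = 0 := by
  haveI : Fact v.Prime := ⟨hv⟩
  haveI := LevelDegree17.neZero_auxLevel v p
  exact redPull_cl_eq_zero p hv hvp hA x (P0 p hp)
    (red_eq_P0_gen p hp (dvd_auxLevel v p) (model p v hv hvp A hA) hA x cj cU hj hU h1 h2)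

include hp in
/-- **(RED), cusp `∞`**: `Φ_A (cl x Pinf) = 0`. -/
theorem redPull_cl_Pinf {v : ℕ} (hv : v.Prime) (hvp : ¬ v ∣ p) {A : ValuationSubring Qb}
    (hA : A.LiesOverPrime v) (x : Pl p) (cj cu : Qb)
    (hj : 0 < x.ord (jF p - algebraMap Qb (FF p) cj))
    (hu : 0 < x.ord (uF p - algebraMap Qb (FF p) cu))
    (h1 : A.valuation cu < 1) (h2 : A.valuation (cu * cj ^ (p - 2)) < 1) :
    redPull p v hv hvp A hA (cl p x (Pinf p)) = 0 := by
  haveI : Fact v.Prime := ⟨hv⟩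
  haveI := LevelDegree17.neZero_auxLevel v p
  exact redPull_cl_eq_zero p hv hvp hA x (Pinf p)
    (red_eq_Pinf_gen p hp (dvd_auxLevel v p) (model p v hv hvp A hA) hA x cj cu hj hu h1 h2)

end Contract

end Fermat.Agent.M15.RedCusp0
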