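/-
M15 / R1-(MOD), THE ASSEMBLY (helper8): from the data of (MOD-glob) for the place `x` of `X₀(p)`
attached to `(E, ⟨Q⟩)` (values of `j` and of the modular unit at `x`, Galois-fixedness) to
`Wire8.ModPointOdd p W Q (P0 p hp) (Pinf p) (redAt p)`, via
`DictLoc8.locStatement_of_odd` (LOC), `ModLocal8.cusp_criterion`, `RedCusp0.redPull_cl_P0/Pinf`
(RED), `RedAt9.redAt_eq_zero_iff` and `CuspRat9.gal_smul_cl`.  Imported by no statement.
-/
import Mathlib
import Fermat.Agent.M15.Wire8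
import Fermat.Agent.M15.RedCusp0
import Fermat.Agent.M15.CuspRat9
import Fermat.Agent.M15.DictLoc8
import Fermat.Agent.M15.ModLocal8
import Fermat.Agent.M15.TwoTors8
import Fermat.Agent.T33.Psi3C

set_option autoImplicit false
set_option linter.unusedSectionVars false
set_option linter.unusedVariables false
set_option linter.style.haveILetI false
set_option linter.style.longLine false
set_option synthInstance.maxHeartbeats 400000

open HahnSeries ModularCurve AlgebraicCurve IntermediateField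
open WeierstrassCurve WeierstrassCurve.Affine

noncomputable section

namespace Fermat.Agent.M15.ModPoint8

open Fermat.Agent.X0 Fermat.Agent.X0.FF Fermat.Agent.T33.Psi3C
open Fermat.Agent.M15.Contracts9 Fermat.Agent.M15.CuspTors0 Fermat.Agent.M15.CuspRat9
open Fermat.Agent.RED.BASE.Hauptmodul12
open Fermat.Agent.M15.RedAt9 Fermat.Agent.M15.RedCusp0
open Fermat.Agent.M15.DictDefs8 Fermat.Agent.M15.ModLocal8 Fermat.Agent.M15.DictLoc8
open Fermat.Agent.M15.Wire8

variable (p : ℕ) [NeZero p]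

/-- **The output of (MOD-glob)** for a place `x` of `ℚ̄(X₀(p))`: `x` is Galois-fixed,
`j(x) = j(E) = c₄³/Δ`, and the value `cu` of `U = (uF p)⁻¹ = Δ(q)/Δ(q^p)` at `x` satisfies
`cu · veluRatio T Q p = p¹²` for one triple `T` of points of order two. -/
structure ModData (W : WeierstrassCurve ℤ)
    (Q : ((W.map (Int.castRingHom ℚ))⁄(AlgebraicClosure ℚ)).Point) (x : Pl p) : Prop where
  fixed : ∀ σ : GQ, gal p σ • x = x
  values : ∃ (cj cu : Qb)
      (T : Fin 3 → ((W.map (Int.castRingHom ℚ))⁄(AlgebraicClosure ℚ)).Point),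
    IsTwoTors T ∧ cj * ((W.Δ : ℤ) : Qb) = ((W.c₄ : ℤ) : Qb) ^ 3 ∧
    cu * veluRatio T Q p = (p : Qb) ^ 12 ∧
    0 < x.ord (jF p - algebraMap Qb (FF p) cj) ∧
    0 < x.ord ((uF p)⁻¹ - algebraMap Qb (FF p) cu) ∧
    0 < x.ord (uF p - algebraMap Qb (FF p) cu⁻¹)

/-- **(MOD) at the odd primes**, from the data of (MOD-glob). -/
theorem modPointOdd_of_modData (hp : p.Prime) (hp2 : p ≠ 2) {W : WeierstrassCurve ℤ}
    {Q : ((W.map (Int.castRingHom ℚ))⁄(AlgebraicClosure ℚ)).Point} (hΔ : W.Δ ≠ 0)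
    (hQ : addOrderOf Q = p) {x : Pl p} (hx : ModData p W Q x) :
    ModPointOdd p W Q (P0 p hp) (Pinf p) (redAt p) := by
  obtain ⟨cj, cu, T, hT, hcj, hcu, hj, hU, hu⟩ := hx.values
  refine ⟨x, ?_, ?_⟩
  · intro σ
    rw [gal_smul_cl, hx.fixed σ, gal_smul_P0]
  · intro v hv hv2 hvp hvΔ hvc A hA
    have hvp' : ¬ v ∣ p := fun h => hvp ((Nat.prime_dvd_prime_iff_eq hv hp).1 h)
    obtain ⟨-, hin, hout⟩ := cusp_criterion hv (locStatement_of_odd hv hv2) hp hp2 hvp W hΔ hvΔ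
      hvc A hA T hT Q hQ hcj hcu
    constructor
    · intro hz
      obtain ⟨h1, h2⟩ := hin hz
      rw [redAt_eq_zero_iff p hv hvp' hA]
      exact redPull_cl_Pinf p hp hv hvp' hA x cj cu⁻¹ hj hu h1 h2
    · intro hz
      obtain ⟨h1, h2⟩ := hout hz
      rw [redAt_eq_zero_iff p hv hvp' hA]
      exact redPull_cl_P0 p hp hv hvp' hA x cj cu hj hU h1 h2

/-- **The field `ModPointOdd` of `Wire8.ContractsOdd`**, given (MOD-glob) as a hypothesis. -/
theorem modPointOdd_field (hp : p.Prime) (hp' : p ∉ ({2, 3, 5, 7, 13} : Finset ℕ))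
    (hglob : ∀ (W : WeierstrassCurve ℤ)
      (Q : ((W.map (Int.castRingHom ℚ))⁄(AlgebraicClosure ℚ)).Point),
      W.Δ ≠ 0 → (∀ σ : GQ, σ • Q = Q) → addOrderOf Q = p → ∃ x : Pl p, ModData p W Q x) :
    ∀ (W : WeierstrassCurve ℤ) (Q : ((W.map (Int.castRingHom ℚ))⁄(AlgebraicClosure ℚ)).Point),
      W.Δ ≠ 0 → (∀ σ : GQ, σ • Q = Q) → addOrderOf Q = p →
      ModPointOdd p W Q (P0 p hp) (Pinf p) (redAt p) := by
  intro W Q hΔ hQfix hQord
  have hp2 : p ≠ 2 := by
    intro h; apply hp'; simp [h]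
  obtain ⟨x, hx⟩ := hglob W Q hΔ hQfix hQord
  exact modPointOdd_of_modData p hp hp2 hΔ hQord hx

end Fermat.Agent.M15.ModPoint8
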