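/-
M15 / WIRE (helper9), file 1 of 3: the abstract deduction used by `s15_of_contracts`.
Pure group theory: two reduction maps with finite images on the rational points, a descent
statement at the prime `p'`, and injectivity on the `p'`-part of the cuspidal group give a
contradiction.  Imported by no statement.
-/
import Mathlib

set_option autoImplicit false
set_option linter.style.haveILetI false
set_option linter.unusedVariables false

namespace Fermat.Agent.M15.Core9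

/-- every element of a finite additive subgroup image is killed by the cardinality. -/
theorem card_nsmul_map_eq_zero {J G : Type*} [AddCommGroup J] [AddCommGroup G] (Rat : AddSubgroup J)
    (Φ : J →+ G) (hfin : (Set.range fun z : Rat => Φ z).Finite) (w : J) (hw : w ∈ Rat) :
    Nat.card (Rat.map Φ) • Φ w = 0 := by
  have hset : ((Rat.map Φ : AddSubgroup G) : Set G) = Set.range fun z : Rat => Φ z := by
    ext b
    constructor
    · rintro ⟨z, hz, rfl⟩
      exact ⟨⟨z, hz⟩, rfl⟩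
    · rintro ⟨⟨z, hz⟩, rfl⟩
      exact ⟨z, hz, rfl⟩
  haveI : Finite (Rat.map Φ) := by
    have : ((Rat.map Φ : AddSubgroup G) : Set G).Finite := by rw [hset]; exact hfin
    exact this.to_subtype
  have h := card_nsmul_eq_zero' (G := Rat.map Φ) (x := ⟨Φ w, w, hw, rfl⟩)
  have h' := congrArg Subtype.val h
  simpa using h'

/-- **The abstract deduction of WIRE.** -/
theorem core {J G1 Gl : Type*} [AddCommGroup J] [AddCommGroup G1] [AddCommGroup Gl]
    (Rat : AddSubgroup J) (Φ1 : J →+ G1) (Φl : J →+ Gl) (c0 y : J)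
    (p' v1 : ℕ) (hp' : p'.Prime) (hv1 : v1.Prime) (hne : v1 ≠ p')
    (hfin1 : (Set.range fun z : Rat => Φ1 z).Finite)
    (hfinl : (Set.range fun z : Rat => Φl z).Finite)
    (hy1 : Φ1 y = 0)
    (hyl : Φl (y + c0) = 0)
    (htors1 : ∀ (m : ℕ) (z : J), ¬ v1 ∣ m → m • z = 0 → Φ1 z = 0 → z = 0)
    (hinj : ∀ m : ℤ, Φl (m • c0) = 0 → (p' : ℤ) ∣ m)
    (hSD : ∀ k : ℕ, ∃ s : J →+ J,
      (Φ1 y = 0 → Φ1 (s y) = 0) ∧ (Φl (y + c0) = 0 → Φl (s (y + c0)) = 0) ∧
      ∃ m : ℤ, s c0 = m • c0 ∧ ¬ (p' : ℤ) ∣ m ∧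
      ∃ t w : J, t ∈ Rat ∧ (∃ n : ℕ, n ≠ 0 ∧ n • t = 0) ∧ w ∈ Rat ∧ s y = t + (p' ^ k) • w) :
    False := by
  classical
  set n1 := Nat.card (Rat.map Φ1) with hn1
  set nl := Nat.card (Rat.map Φl) with hnl
  have hk1 : ∀ w ∈ Rat, n1 • Φ1 w = 0 := fun w hw => card_nsmul_map_eq_zero Rat Φ1 hfin1 w hw
  have hkl : ∀ w ∈ Rat, nl • Φl w = 0 := fun w hw => card_nsmul_map_eq_zero Rat Φl hfinl w hw
  have hpos1 : n1 ≠ 0 := by
    have hset : ((Rat.map Φ1 : AddSubgroup G1) : Set G1) = Set.range fun z : Rat => Φ1 z := by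
      ext b
      constructor
      · rintro ⟨z, hz, rfl⟩; exact ⟨⟨z, hz⟩, rfl⟩
      · rintro ⟨⟨z, hz⟩, rfl⟩; exact ⟨z, hz, rfl⟩
    haveI : Finite (Rat.map Φ1) := by
      have : ((Rat.map Φ1 : AddSubgroup G1) : Set G1).Finite := by rw [hset]; exact hfin1
      exact this.to_subtype
    exact Nat.card_pos.ne'
  have hposl : nl ≠ 0 := by
    have hset : ((Rat.map Φl : AddSubgroup Gl) : Set Gl) = Set.range fun z : Rat => Φl z := by
      ext b
      constructor
      · rintro ⟨z, hz, rfl⟩; exact ⟨⟨z, hz⟩, rfl⟩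
      · rintro ⟨⟨z, hz⟩, rfl⟩; exact ⟨z, hz, rfl⟩
    haveI : Finite (Rat.map Φl) := by
      have : ((Rat.map Φl : AddSubgroup Gl) : Set Gl).Finite := by rw [hset]; exact hfinl
      exact this.to_subtype
    exact Nat.card_pos.ne'
  -- n1 * nl = p'^k * N'
  obtain ⟨k, N', hN', hkN⟩ := Nat.exists_eq_pow_mul_and_not_dvd (Nat.mul_ne_zero hpos1 hposl) p'
    hp'.ne_one
  obtain ⟨s, hs1, hsl, m, hsc, hm, t, w, htR, ⟨n, hn0, hnt⟩, hwR, hsy⟩ := hSD k
  have e1 : Φ1 (s y) = 0 := hs1 hy1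
  have el : Φl (s (y + c0)) = 0 := hsl hyl
  -- (n1 * nl) kills Φ1 w and Φl w
  have hw1 : (p' ^ k * N') • Φ1 w = 0 := by
    rw [← hkN, mul_nsmul, hk1 w hwR, smul_zero]
  have hwl : (p' ^ k * N') • Φl w = 0 := by
    rw [← hkN, mul_comm, mul_nsmul, hkl w hwR, smul_zero]
  -- N' • Φ1 t = 0
  have ht1 : Φ1 (N' • t) = 0 := by
    have h0 : Φ1 t + (p' ^ k) • Φ1 w = 0 := by
      rw [← map_nsmul, ← map_add, ← hsy, e1]
    have h1 : N' • (Φ1 t + (p' ^ k) • Φ1 w) = 0 := by rw [h0, smul_zero]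
    rw [smul_add, ← mul_nsmul, hw1, add_zero] at h1
    rw [map_nsmul, h1]
  -- split n = v1^e * n''
  obtain ⟨e, n'', hn'', hen⟩ := Nat.exists_eq_pow_mul_and_not_dvd hn0 v1 hv1.ne_one
  have hct : (v1 ^ e * N') • t = 0 := by
    apply htors1 n'' _ hn''
    · rw [← mul_nsmul, show (v1 ^ e * N') * n'' = N' * (v1 ^ e * n'') by ring, ← hen, mul_comm,
        mul_nsmul, hnt, smul_zero]
    · rw [mul_nsmul', map_nsmul, ht1, smul_zero]
  set c := v1 ^ e * N' with hc
  -- Φl (c • s y) = 0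
  have hcl : c • Φl (s y) = 0 := by
    have : c • s y = (v1 ^ e) • ((p' ^ k * N') • w) := by
      rw [hsy, smul_add, hct, zero_add, ← mul_nsmul, ← mul_nsmul, hc]
      congr 1
      ring
    rw [← map_nsmul, this, map_nsmul, map_nsmul, hwl, smul_zero]
  -- hence (c * m) • Φl c0 = 0
  have hcm : Φl (((c : ℤ) * m) • c0) = 0 := by
    have h0 : Φl (s y) + m • Φl c0 = 0 := by
      rw [← map_zsmul, ← hsc, ← map_add, ← map_add, el]
    have h1 : c • (Φl (s y) + m • Φl c0) = 0 := by rw [h0, smul_zero]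
    rw [smul_add, hcl, zero_add] at h1
    rw [map_zsmul, mul_zsmul, natCast_zsmul, h1]
  have hdvd := hinj _ hcm
  -- p' ∣ c * m is impossible
  have hp'Z : Prime (p' : ℤ) := Nat.prime_iff_prime_int.mp hp'
  rcases hp'Z.dvd_or_dvd hdvd with h | h
  · rw [hc] at h
    have h' : p' ∣ v1 ^ e * N' := by exact_mod_cast h
    rcases (Nat.Prime.dvd_mul hp').mp h' with h'' | h''
    · have := (Nat.prime_dvd_prime_iff_eq hp' hv1).mp (hp'.dvd_of_dvd_pow h'')
      exact hne this.symm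
    · exact hN' h''
  · exact hm h

end Fermat.Agent.M15.Core9
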