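/-
M15 / WIRE (helper9), file 3 of 3: `s15_of_contracts`: the contracts of `M15/Contracts9`
(for every prime level `p` outside `{2,3,5,7,13}`) imply the frozen statement S15 verbatim.
Imported by no statement.
-/
import Mathlib
import Fermat.Agent.M15.Core9
import Fermat.Agent.M15.Contracts9
import Fermat.Agent.Lib.FrobeniusExists

set_option autoImplicit false
set_option linter.style.haveILetI false
set_option linter.unusedVariables false

noncomputable section

namespace Fermat.Agent.M15.Wire9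

open ModularCurve AlgebraicCurve
open WeierstrassCurve WeierstrassCurve.Affine
open Fermat.Agent.M15.Contracts9

section Level

variable (p : ℕ) [NeZero p]

/-- stability of `{z rational, Φ z = 0}` under the Hecke ring. -/
theorem stable_of_mem_heckeRing {v : ℕ} {hv : v.Prime} {A : ValuationSubring Qb} {R : RedPkg p A}
    (hR : RedFacts p v hv A R)
    (hGal : ∀ (r : Nat.Primes) (σ : GQ) (z : JZero p),
      heckeOperatorBar p r (σ • z) = σ • heckeOperatorBar p r z)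
    {s : Module.End ℤ (JZero p)} (hs : s ∈ heckeRing p) :
    ∀ z : JZero p, IsRat p z → R.Φ z = 0 → IsRat p (s z) ∧ R.Φ (s z) = 0 := by
  unfold heckeRing at hs
  induction hs using Algebra.adjoin_induction with
  | mem t ht =>
    obtain ⟨r, hrp, rfl⟩ := ht
    intro z hz hΦ
    refine ⟨fun σ => by rw [← hGal, hz σ], ?_⟩
    by_cases hrv : (r : ℕ) = v
    · have hr : r = ⟨v, hv⟩ := Subtype.ext hrv
      have h := hR.es z hz
      rw [map_sub, map_nsmul, hΦ, smul_zero, zero_sub, neg_eq_zero] at h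
      rw [hr]; exact h
    · exact hR.hecke r hrp hrv z hz hΦ
  | algebraMap a =>
    intro z hz hΦ
    have e : (algebraMap ℤ (Module.End ℤ (JZero p)) a) z = a • z := by
      rw [Module.algebraMap_end_apply]
    rw [e]
    refine ⟨fun σ => ?_, by rw [map_zsmul, hΦ, smul_zero]⟩
    rw [gal_zsmul, hz σ]
  | add s t _ _ hs ht =>
    intro z hz hΦ
    obtain ⟨h1, h2⟩ := hs z hz hΦ
    obtain ⟨h3, h4⟩ := ht z hz hΦ
    refine ⟨fun σ => ?_, ?_⟩
    · rw [LinearMap.add_apply, smul_add, h1 σ, h3 σ]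
    · rw [LinearMap.add_apply, map_add, h2, h4, add_zero]
  | mul s t _ _ hs ht =>
    intro z hz hΦ
    obtain ⟨h3, h4⟩ := ht z hz hΦ
    exact hs (t z) h3 h4

end Level

theorem s15_of_contracts
    (h : ∀ (p : ℕ) (hp : p.Prime), p ∉ ({2, 3, 5, 7, 13} : Finset ℕ) →
      haveI : NeZero p := ⟨hp.ne_zero⟩; Contracts p) : S15Statement := by
  intro p hp hp' W hΔ Q hQfix hQord h2Δ h2c h2 h3Δ h3c h3 ℓ hℓ hℓp hℓΔ hℓc A hA hin
  haveI : NeZero p := ⟨hp.ne_zero⟩
  obtain ⟨P0, Pinf, R, hC, hGal, hRed, hMod, hSD⟩ := (h p hp hp').ex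
  by_cases hℓ2 : ℓ = 2
  · subst hℓ2; exact h2 A hA hin
  by_cases hℓ3 : ℓ = 3
  · subst hℓ3; exact h3 A hA hin
  obtain ⟨x, hxrat, hx⟩ := hMod W Q hΔ hQfix hQord
  -- the order of c0
  have hp2 : 2 ≤ p := hp.two_le
  have hfo : IsOfFinAddOrder (cl p P0 Pinf) :=
    isOfFinAddOrder_iff_nsmul_eq_zero.mpr ⟨p - 1, by omega, hC.tors⟩
  have hn0pos : 0 < addOrderOf (cl p P0 Pinf) := hfo.addOrderOf_pos
  have hn01 : addOrderOf (cl p P0 Pinf) ≠ 1 := by
    intro h1
    exact hC.ne_zero (AddMonoid.addOrderOf_eq_one_iff.mp h1)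
  set n0 := addOrderOf (cl p P0 Pinf) with hn0
  have hp'prime : n0.minFac.Prime := Nat.minFac_prime hn01
  have hp'dvd : n0.minFac ∣ n0 := Nat.minFac_dvd n0
  set p' := n0.minFac with hp'def
  -- p ∉ {2,3}
  have hp23 : p ≠ 2 ∧ p ≠ 3 := by
    constructor <;> intro hh <;> apply hp' <;> simp [hh]
  -- the auxiliary prime v1
  obtain ⟨v1, hv1, hv1ne, hv1p, hy1'⟩ : ∃ v1 : ℕ, v1.Prime ∧ v1 ≠ p' ∧ v1 ≠ p ∧
      ∀ A1 : ValuationSubring Qb, A1.LiesOverPrime v1 → (R A1).Φ (cl p x P0) = 0 := by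
    by_cases h3' : p' = 3
    · refine ⟨2, Nat.prime_two, by omega, fun hh => hp23.1 hh.symm, fun A1 hA1 => ?_⟩
      exact (hx 2 Nat.prime_two (fun hh => hp23.1 hh.symm) (by exact_mod_cast h2Δ)
        (by exact_mod_cast h2c) A1 hA1).2 (h2 A1 hA1)
    · refine ⟨3, Nat.prime_three, fun hh => h3' hh.symm, fun hh => hp23.2 hh.symm, fun A1 hA1 => ?_⟩
      exact (hx 3 Nat.prime_three (fun hh => hp23.2 hh.symm) (by exact_mod_cast h3Δ)
        (by exact_mod_cast h3c) A1 hA1).2 (h3 A1 hA1)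
  obtain ⟨A1, hA1⟩ := Fermat.Agent.Lib.FrobeniusExists.exists_valuationSubring_liesOverPrime v1 hv1
  have hR1 := hRed v1 hv1 hv1p A1 hA1
  have hRl := hRed ℓ hℓ hℓp A hA
  have hy1 := hy1' A1 hA1
  have hyl : (R A).Φ (cl p x P0 + cl p P0 Pinf) = 0 := by
    rw [cl_add_cl]
    exact (hx ℓ hℓ hℓp hℓΔ hℓc A hA).1 hin
  have hyrat : IsRat p (cl p x P0 + cl p P0 Pinf) := fun σ => by
    rw [smul_add, hxrat σ, hC.rat σ]
  -- injectivity on the p'-part of ⟨c0⟩
  have hinj : ∀ m : ℤ, (R A).Φ (m • cl p P0 Pinf) = 0 → (p' : ℤ) ∣ m := by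
    intro m hm
    obtain ⟨q, hq⟩ := hp'dvd
    have hqpos : q ≠ 0 := by
      rintro rfl
      rw [mul_zero] at hq
      omega
    set z := (m * (q : ℤ)) • cl p P0 Pinf with hz
    have hzΦ : (R A).Φ z = 0 := by
      rw [hz, mul_comm, mul_zsmul, map_zsmul, hm, smul_zero]
    have hzrat : IsRat p z := fun σ => by
      rw [hz, gal_zsmul, hC.rat σ]
    have hzp' : p' • z = 0 := by
      rw [hz, ← natCast_zsmul, ← mul_zsmul,
        show (p' : ℤ) * (m * (q : ℤ)) = m * ((n0 : ℕ) : ℤ) by rw [hq]; push_cast; ring,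
        mul_zsmul, natCast_zsmul, hn0, addOrderOf_nsmul_eq_zero, smul_zero]
    have hz0 : z = 0 := by
      by_cases hpl : p' = ℓ
      · have h3l : 3 ≤ ℓ := by
          have := hℓ.two_le
          omega
        exact hRl.rig h3l z hzrat (by rw [← hpl]; exact hzp') hzΦ
      · refine hRl.tors p' z (fun hd => hpl ?_) hzp' hzΦ
        exact ((Nat.prime_dvd_prime_iff_eq hℓ hp'prime).mp hd).symm
    rw [hz] at hz0
    have hdvd : ((n0 : ℕ) : ℤ) ∣ m * (q : ℤ) := (addOrderOf_dvd_iff_zsmul_eq_zero).mpr hz0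
    rw [hq] at hdvd
    push_cast at hdvd
    have hq' : (q : ℤ) ≠ 0 := by exact_mod_cast hqpos
    exact (mul_dvd_mul_iff_right hq').mp hdvd
  -- apply the abstract deduction
  refine Fermat.Agent.M15.Core9.core (ratSubgroup p) ((R A1).Φ) ((R A).Φ) (cl p P0 Pinf) (cl p x P0)
    p' v1 hp'prime hv1 hv1ne hR1.fin hRl.fin hy1 hyl hR1.tors hinj ?_
  intro k
  obtain ⟨s, hs, m, hsc, hm, t, w, ht, htt, hw, hsy⟩ := hSD p' hp'prime hp'dvd k (cl p x P0) hxrat
  refine ⟨s.toAddMonoidHom, ?_, ?_, m, hsc, hm, t, w, ht, htt, hw, hsy⟩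
  · intro h0
    exact (stable_of_mem_heckeRing p hR1 hGal hs _ hxrat h0).2
  · intro h0
    exact (stable_of_mem_heckeRing p hRl hGal hs _ hyrat h0).2

end Fermat.Agent.M15.Wire9
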