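/-
M15 / WIRE, variant (lead): `s15_of_contracts'`: S15 from contracts in which **nothing is asked at
the prime `2`**.

Difference with `Wire9.s15_of_contracts`: the auxiliary prime is always `v1 = 3`.  At `3` the
reduction map is injective on ALL rational torsion (`RedFacts.tors` for the prime-to-`3` part,
`RedFacts.rig` for the `3`-part), so `v1 ≠ p'` is not needed (`Core0.core'`), and the hypotheses of
S15 at `2` are simply not used.  Consequently
* `ModPointOdd` only asks for the reduction dichotomy at ODD primes `v ≠ p`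
  (chapter (LOC) at `ℓ = 2` is not needed);
* `RedFacts` is only asked at odd primes `v ≠ p`.
Imported by no statement.
-/
import Mathlib
import Fermat.Agent.M15.Core0
import Fermat.Agent.M15.Wire9

set_option autoImplicit false
set_option linter.style.haveILetI false
set_option linter.unusedVariables false

noncomputable section

namespace Fermat.Agent.M15.Wire0

open ModularCurve AlgebraicCurve
open WeierstrassCurve WeierstrassCurve.Affine
open Fermat.Agent.M15.Contracts9 Fermat.Agent.M15.Wire9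

section Level

variable (p : ℕ) [NeZero p]

/-- **(MOD), odd form**: as `Contracts9.ModPoint`, but only at odd primes `v`. -/
def ModPointOdd (W : WeierstrassCurve ℤ)
    (Q : ((W.map (Int.castRingHom ℚ))⁄(AlgebraicClosure ℚ)).Point) (P0 Pinf : Pl p)
    (R : ∀ A : ValuationSubring Qb, RedPkg p A) : Prop :=
  ∃ x : Pl p, IsRat p (cl p x P0) ∧
    ∀ v : ℕ, v.Prime → v ≠ p → v ≠ 2 → (v : ℤ) ∣ W.Δ → ¬ (v : ℤ) ∣ W.c₄ →
      ∀ A : ValuationSubring Qb, A.LiesOverPrime v →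
        (W.InZeroComponentAt A Q → (R A).Φ (cl p x Pinf) = 0) ∧
        (¬ W.InZeroComponentAt A Q → (R A).Φ (cl p x P0) = 0)

theorem ModPoint.odd {W : WeierstrassCurve ℤ}
    {Q : ((W.map (Int.castRingHom ℚ))⁄(AlgebraicClosure ℚ)).Point} {P0 Pinf : Pl p}
    {R : ∀ A : ValuationSubring Qb, RedPkg p A} (h : ModPoint p W Q P0 Pinf R) :
    ModPointOdd p W Q P0 Pinf R := by
  obtain ⟨x, hx, h⟩ := h
  exact ⟨x, hx, fun v hv hvp _ => h v hv hvp⟩

/-- at a prime `v ≥ 3` the reduction map is injective on rational torsion. -/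
theorem inj_on_rat_torsion {v : ℕ} {hv : v.Prime} {A : ValuationSubring Qb} {R : RedPkg p A}
    (hR : RedFacts p v hv A R) (h3 : 3 ≤ v) (z : JZero p) (hz : IsRat p z)
    (hn : ∃ n : ℕ, n ≠ 0 ∧ n • z = 0) (hΦ : R.Φ z = 0) : z = 0 := by
  obtain ⟨n, hn0, hnz⟩ := hn
  obtain ⟨e, n'', hn'', hen⟩ := Nat.exists_eq_pow_mul_and_not_dvd hn0 v hv.ne_one
  -- `v`-power torsion
  have hpow : ∀ (e : ℕ) (z : JZero p), IsRat p z → (v ^ e) • z = 0 → R.Φ z = 0 → z = 0 := by
    intro e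
    induction e with
    | zero =>
      intro z _ h _
      rwa [pow_zero, one_smul] at h
    | succ e ih =>
      intro z hz h hΦ
      have hwrat : IsRat p ((v ^ e) • z) := fun σ => by
        rw [← natCast_zsmul, gal_zsmul, hz σ]
      have hwv : v • ((v ^ e) • z) = 0 := by
        rw [← mul_nsmul, ← pow_succ]
        exact h
      have hwΦ : R.Φ ((v ^ e) • z) = 0 := by
        rw [map_nsmul, hΦ, smul_zero]
      exact ih z hz (hR.rig h3 _ hwrat hwv hwΦ) hΦ
  apply hpow e z hz ?_ hΦ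
  apply hR.tors n'' _ hn''
  · rw [← mul_nsmul, ← hen]
    exact hnz
  · rw [map_nsmul, hΦ, smul_zero]

end Level

/-- the contracts of all chapters, for one level `p`, with nothing asked at the prime `2`. -/
structure Contracts' (p : ℕ) [NeZero p] : Prop where
  ex : ∃ (P0 Pinf : Pl p) (R : ∀ A : ValuationSubring Qb, RedPkg p A),
    CuspFacts p P0 Pinf ∧
    (∀ (r : Nat.Primes) (σ : GQ) (z : JZero p),
      heckeOperatorBar p r (σ • z) = σ • heckeOperatorBar p r z) ∧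
    (∀ (v : ℕ) (hv : v.Prime), v ≠ p → v ≠ 2 → ∀ A : ValuationSubring Qb, A.LiesOverPrime v →
      RedFacts p v hv A (R A)) ∧
    (∀ (W : WeierstrassCurve ℤ) (Q : ((W.map (Int.castRingHom ℚ))⁄(AlgebraicClosure ℚ)).Point),
      W.Δ ≠ 0 → (∀ σ : GQ, σ • Q = Q) → addOrderOf Q = p → ModPointOdd p W Q P0 Pinf R) ∧
    (∀ p' : ℕ, p'.Prime → p' ∣ addOrderOf (cl p P0 Pinf) → SharpDescent p P0 Pinf p')

theorem Contracts.prime {p : ℕ} [NeZero p] (h : Contracts p) : Contracts' p := by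
  obtain ⟨P0, Pinf, R, hC, hGal, hRed, hMod, hSD⟩ := h.ex
  exact ⟨P0, Pinf, R, hC, hGal, fun v hv hvp _ => hRed v hv hvp,
    fun W Q hΔ hQ hord => ModPoint.odd p (hMod W Q hΔ hQ hord), hSD⟩

theorem s15_of_contracts'
    (h : ∀ (p : ℕ) (hp : p.Prime), p ∉ ({2, 3, 5, 7, 13} : Finset ℕ) →
      haveI : NeZero p := ⟨hp.ne_zero⟩; Contracts' p) : S15Statement := by
  intro p hp hp' W hΔ Q hQfix hQord h2Δ h2c h2 h3Δ h3c h3 ℓ hℓ hℓp hℓΔ hℓc A hA hin
  haveI : NeZero p := ⟨hp.ne_zero⟩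
  obtain ⟨P0, Pinf, R, hC, hGal, hRed, hMod, hSD⟩ := (h p hp hp').ex
  by_cases hℓ2 : ℓ = 2
  · subst hℓ2; exact h2 A hA hin
  by_cases hℓ3 : ℓ = 3
  · subst hℓ3; exact h3 A hA hin
  obtain ⟨x, hxrat, hx⟩ := hMod W Q hΔ hQfix hQord
  -- the order of c0
  have hp2 : 2 ≤ p := hp.two_le
  have hfo : IsOfFinAddOrder (cl p P0 Pinf) :=
    isOfFinAddOrder_iff_nsmul_eq_zero.mpr ⟨p - 1, by omega, hC.tors⟩
  have hn01 : addOrderOf (cl p P0 Pinf) ≠ 1 := by
    intro h1
    exact hC.ne_zero (AddMonoid.addOrderOf_eq_one_iff.mp h1)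
  set n0 := addOrderOf (cl p P0 Pinf) with hn0
  have hp'prime : n0.minFac.Prime := Nat.minFac_prime hn01
  have hp'dvd : n0.minFac ∣ n0 := Nat.minFac_dvd n0
  set p' := n0.minFac with hp'def
  have hp3 : (3 : ℕ) ≠ p := by
    intro hh; apply hp'; simp [← hh]
  -- the auxiliary prime is 3
  obtain ⟨A1, hA1⟩ := Fermat.Agent.Lib.FrobeniusExists.exists_valuationSubring_liesOverPrime 3
    Nat.prime_three
  have hR1 := hRed 3 Nat.prime_three hp3 (by norm_num) A1 hA1
  have hRl := hRed ℓ hℓ hℓp hℓ2 A hA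
  have hy1 : (R A1).Φ (cl p x P0) = 0 :=
    (hx 3 Nat.prime_three hp3 (by norm_num) (by exact_mod_cast h3Δ)
      (by exact_mod_cast h3c) A1 hA1).2 (h3 A1 hA1)
  have hyl : (R A).Φ (cl p x P0 + cl p P0 Pinf) = 0 := by
    rw [cl_add_cl]
    exact (hx ℓ hℓ hℓp hℓ2 hℓΔ hℓc A hA).1 hin
  have hyrat : IsRat p (cl p x P0 + cl p P0 Pinf) := fun σ => by
    rw [smul_add, hxrat σ, hC.rat σ]
  -- injectivity on the p'-part of ⟨c0⟩
  have hinj : ∀ m : ℤ, (R A).Φ (m • cl p P0 Pinf) = 0 → (p' : ℤ) ∣ m := by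
    intro m hm
    obtain ⟨q, hq⟩ := hp'dvd
    have hqpos : q ≠ 0 := by
      rintro rfl
      rw [mul_zero] at hq
      have := hfo.addOrderOf_pos
      omega
    set z := (m * (q : ℤ)) • cl p P0 Pinf with hz
    have hzΦ : (R A).Φ z = 0 := by
      rw [hz, mul_comm, mul_zsmul, map_zsmul, hm, smul_zero]
    have hzrat : IsRat p z := fun σ => by
      rw [hz, gal_zsmul, hC.rat σ]
    have hzp' : p' • z = 0 := by
      rw [hz, ← natCast_zsmul, ← mul_zsmul,
        show (p' : ℤ) * (m * (q : ℤ)) = m * ((n0 : ℕ) : ℤ) by rw [hq]; push_cast; ring,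
        mul_zsmul, natCast_zsmul, hn0, addOrderOf_nsmul_eq_zero, smul_zero]
    have hz0 : z = 0 := by
      by_cases hpl : p' = ℓ
      · have h3l : 3 ≤ ℓ := by
          have := hℓ.two_le
          omega
        exact hRl.rig h3l z hzrat (by rw [← hpl]; exact hzp') hzΦ
      · refine hRl.tors p' z (fun hd => hpl ?_) hzp' hzΦ
        exact ((Nat.prime_dvd_prime_iff_eq hℓ hp'prime).mp hd).symm
    rw [hz] at hz0
    have hdvd : ((n0 : ℕ) : ℤ) ∣ m * (q : ℤ) := (addOrderOf_dvd_iff_zsmul_eq_zero).mpr hz0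
    rw [hq] at hdvd
    push_cast at hdvd
    have hq' : (q : ℤ) ≠ 0 := by exact_mod_cast hqpos
    exact (mul_dvd_mul_iff_right hq').mp hdvd
  -- apply the abstract deduction
  refine Fermat.Agent.M15.Core0.core' (ratSubgroup p) ((R A1).Φ) ((R A).Φ) (cl p P0 Pinf)
    (cl p x P0) p' hp'prime hR1.fin hRl.fin hy1 hyl
    (fun z hz hn hΦ => inj_on_rat_torsion p hR1 (le_refl 3) z hz hn hΦ) hinj ?_
  intro k
  obtain ⟨s, hs, m, hsc, hm, t, w, ht, htt, hw, hsy⟩ := hSD p' hp'prime hp'dvd k (cl p x P0) hxrat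
  refine ⟨s.toAddMonoidHom, ?_, ?_, m, hsc, hm, t, w, ht, htt, hw, hsy⟩
  · intro h0
    exact (stable_of_mem_heckeRing p hR1 hGal hs _ hxrat h0).2
  · intro h0
    exact (stable_of_mem_heckeRing p hRl hGal hs _ hyrat h0).2

end Fermat.Agent.M15.Wire0
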