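/-
M15 / R1-(MOD), THE ASSEMBLY, final form (helper8).

`modPointOdd`: from helper7's (MOD-glob) statement (`ModGlob7.exists_rational_place`, here the
named Prop `GlobStatement p hp`) to the field of the reference wiring
`Wire0.ModPointOdd p W Q (P0 p hp) (Pinf p) (redAt p)`.

(MOD-glob) needs ONE valuation ring `A` with `v_A(p) = 1` and `j(E) ∉ A`: if there is an odd prime
`v₀ ≠ p` of multiplicative reduction we take `A` over it (then `j(E) ∉ A` by
`ModLocal8.cusp_criterion`); if there is none, `ModPointOdd` is vacuous and `x := P0` works.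
Imported by no statement.
-/
import Mathlib
import Fermat.Agent.M15.Wire0
import Fermat.Agent.M15.ModPoint8
import Fermat.Agent.Lib.FrobeniusExists

set_option autoImplicit false
set_option linter.unusedSectionVars false
set_option linter.unusedVariables false
set_option linter.style.haveILetI false
set_option linter.style.longLine false
set_option synthInstance.maxHeartbeats 400000

open HahnSeries ModularCurve AlgebraicCurve IntermediateField
open WeierstrassCurve WeierstrassCurve.Affine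

noncomputable section

namespace Fermat.Agent.M15.ModFinal8

open Fermat.Agent.X0 Fermat.Agent.X0.FF Fermat.Agent.T33.Psi3C
open Fermat.Agent.M15.Contracts9 Fermat.Agent.M15.CuspTors0 Fermat.Agent.M15.CuspRat9
open Fermat.Agent.RED.BASE.Hauptmodul12
open Fermat.Agent.M15.RedAt9 Fermat.Agent.M15.RedCusp0
open Fermat.Agent.M15.DictDefs8 Fermat.Agent.M15.ModLocal8 Fermat.Agent.M15.DictLoc8
open Fermat.Agent.S05.Inertia

variable (p : ℕ) [NeZero p]

/-- **The statement of (MOD-glob)** (helper7, `ModGlob7.exists_rational_place`), literal. -/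
def GlobStatement (hp : p.Prime) : Prop :=
  ∀ (W : WeierstrassCurve ℤ), W.Δ ≠ 0 →
    ∀ (Q : ((W.map (Int.castRingHom ℚ))⁄(AlgebraicClosure ℚ)).Point),
    (∀ σ : GQ, σ • Q = Q) → addOrderOf Q = p →
    ∀ (A : ValuationSubring Qb), A.valuation (p : Qb) = 1 →
    ∀ {cj : Qb}, cj * ((W.Δ : ℤ) : Qb) = ((W.c₄ : ℤ) : Qb) ^ 3 → cj ∉ A →
      ∃ x : Pl p, IsRat p (cl p x (P0 p hp)) ∧
        0 < x.ord (jF p - algebraMap Qb (FF p) cj) ∧
        ∀ T : Fin 3 → ((W.map (Int.castRingHom ℚ))⁄(AlgebraicClosure ℚ)).Point, IsTwoTors T →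
          ∀ cu : Qb, cu * veluRatio T Q p = (p : Qb) ^ 12 →
            0 < x.ord (uF p - algebraMap Qb (FF p) cu⁻¹) ∧
            0 < x.ord ((uF p)⁻¹ - algebraMap Qb (FF p) cu)

/-- `veluRatio ≠ 0`, from the local dictionary at one place of multiplicative reduction. -/
theorem veluRatio_ne_zero {v : ℕ} (hv : v.Prime) (hv2 : v ≠ 2) {hp : p.Prime} (hp2 : p ≠ 2)
    (hvp : v ≠ p) (W : WeierstrassCurve ℤ) (hΔ : W.Δ ≠ 0) (hvΔ : (v : ℤ) ∣ W.Δ)
    (hvc : ¬ (v : ℤ) ∣ W.c₄) (A : ValuationSubring Qb) (hA : A.LiesOverPrime v)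
    (T : Fin 3 → ((W.map (Int.castRingHom ℚ))⁄(AlgebraicClosure ℚ)).Point) (hT : IsTwoTors T)
    (Q : ((W.map (Int.castRingHom ℚ))⁄(AlgebraicClosure ℚ)).Point) (hQ : addOrderOf Q = p) :
    veluRatio T Q p ≠ 0 := by
  obtain ⟨hin, hout⟩ := locStatement_of_odd hv hv2 hp hp2 hvp W hΔ hvΔ hvc A hA T hT Q hQ
  have hD0 : A.valuation ((W.Δ : ℤ) : Qb) ≠ 0 := by
    rw [Valuation.ne_zero_iff]; exact_mod_cast hΔ
  intro h0
  by_cases hz : W.InZeroComponentAt A Q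
  · have := hin hz
    rw [h0, map_zero] at this
    exact pow_ne_zero _ hD0 this.symm
  · have := hout hz
    rw [h0, map_zero, zero_pow hp.ne_zero, zero_mul] at this
    exact zero_ne_one this

/-- **(MOD) at the odd primes** in the reference wiring, from (MOD-glob). -/
theorem modPointOdd (hp : p.Prime) (hp2 : p ≠ 2) (hglob : GlobStatement p hp)
    (W : WeierstrassCurve ℤ) (hΔ : W.Δ ≠ 0)
    (Q : ((W.map (Int.castRingHom ℚ))⁄(AlgebraicClosure ℚ)).Point)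
    (hQfix : ∀ σ : GQ, σ • Q = Q) (hQ : addOrderOf Q = p) :
    Fermat.Agent.M15.Wire0.ModPointOdd p W Q (P0 p hp) (Pinf p) (redAt p) := by
  by_cases hex : ∃ v : ℕ, v.Prime ∧ v ≠ p ∧ v ≠ 2 ∧ (v : ℤ) ∣ W.Δ ∧ ¬ (v : ℤ) ∣ W.c₄
  · obtain ⟨v₀, hv₀, hv₀p, hv₀2, hv₀Δ, hv₀c⟩ := hex
    obtain ⟨A₀, hA₀⟩ :=
      Fermat.Agent.Lib.FrobeniusExists.exists_valuationSubring_liesOverPrime v₀ hv₀
    have hΔQ : ((W.Δ : ℤ) : Qb) ≠ 0 := by exact_mod_cast hΔ
    set cj : Qb := ((W.c₄ : ℤ) : Qb) ^ 3 / ((W.Δ : ℤ) : Qb) with hcjdef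
    have hcj : cj * ((W.Δ : ℤ) : Qb) = ((W.c₄ : ℤ) : Qb) ^ 3 := div_mul_cancel₀ _ hΔQ
    -- a triple of points of order two
    have hEΔ : ((W.map (Int.castRingHom ℚ)).baseChange Qb).Δ ≠ 0 := by
      have : ((W.map (Int.castRingHom ℚ)).baseChange Qb).Δ = ((W.Δ : ℤ) : Qb) := by
        simp only [WeierstrassCurve.baseChange, map_Δ, eq_intCast, map_intCast]
      rw [this]; exact hΔQ
    obtain ⟨T, hT⟩ := Fermat.Agent.M15.TwoTors8.exists_isTwoTors
      ((W.map (Int.castRingHom ℚ)).baseChange Qb) two_ne_zero hEΔ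
    have hR0 : veluRatio T Q p ≠ 0 :=
      veluRatio_ne_zero p hv₀ hv₀2 (hp := hp) hp2 hv₀p W hΔ hv₀Δ hv₀c A₀ hA₀ T hT Q hQ
    set cu : Qb := (p : Qb) ^ 12 / veluRatio T Q p with hcudef
    have hcu : cu * veluRatio T Q p = (p : Qb) ^ 12 := div_mul_cancel₀ _ hR0
    have hcjA₀ : cj ∉ A₀ :=
      (cusp_criterion hv₀ (locStatement_of_odd hv₀ hv₀2) hp hp2 hv₀p W hΔ hv₀Δ hv₀c A₀ hA₀ T hT
        Q hQ hcj hcu).1
    obtain ⟨x, hxrat, hj, hval⟩ := hglob W hΔ Q hQfix hQ A₀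
      (valuation_prime_eq_one hv₀ hA₀ hp hv₀p) hcj hcjA₀
    obtain ⟨hu, hU⟩ := hval T hT cu hcu
    refine ⟨x, hxrat, fun v hv hvp hv2 hvΔ hvc A hA => ?_⟩
    have hvp' : ¬ v ∣ p := fun h => hvp ((Nat.prime_dvd_prime_iff_eq hv hp).1 h)
    obtain ⟨-, hin, hout⟩ := cusp_criterion hv (locStatement_of_odd hv hv2) hp hp2 hvp W hΔ hvΔ
      hvc A hA T hT Q hQ hcj hcu
    constructor
    · intro hz
      obtain ⟨h1, h2⟩ := hin hz
      rw [redAt_eq_zero_iff p hv hvp' hA]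
      exact redPull_cl_Pinf p hp hv hvp' hA x cj cu⁻¹ hj hu h1 h2
    · intro hz
      obtain ⟨h1, h2⟩ := hout hz
      rw [redAt_eq_zero_iff p hv hvp' hA]
      exact redPull_cl_P0 p hp hv hvp' hA x cj cu hj hU h1 h2
  · refine ⟨P0 p hp, ?_, fun v hv hvp hv2 hvΔ hvc A hA => absurd ⟨v, hv, hvp, hv2, hvΔ, hvc⟩ hex⟩
    intro σ
    rw [gal_smul_cl, gal_smul_P0]

/-- **The field `ModPointOdd` of `Wire0.Contracts'`**, given (MOD-glob). -/
theorem modPointOdd_field (hp : p.Prime) (hp' : p ∉ ({2, 3, 5, 7, 13} : Finset ℕ))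
    (hglob : GlobStatement p hp) :
    ∀ (W : WeierstrassCurve ℤ) (Q : ((W.map (Int.castRingHom ℚ))⁄(AlgebraicClosure ℚ)).Point),
      W.Δ ≠ 0 → (∀ σ : GQ, σ • Q = Q) → addOrderOf Q = p →
      Fermat.Agent.M15.Wire0.ModPointOdd p W Q (P0 p hp) (Pinf p) (redAt p) := by
  intro W Q hΔ hQfix hQord
  have hp2 : p ≠ 2 := by
    intro h; apply hp'; simp [h]
  exact modPointOdd p hp hp2 hglob W hΔ Q hQfix hQord

end Fermat.Agent.M15.ModFinal8
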