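/-
M15 / R1 (MOD-glob, helper7), chapter G7a: Laurent series with coefficients in a valuation ring.
`Good A F`: all coefficients of `F` lie in `A` and the leading coefficient is a unit of `A`;
closed under products.  If `F = P(J)` with `J = q^{-r} U`, `U(0) = 1`, `U` integral, is good, then
`P` has `A`-integral coefficients and unit leading coefficient, hence `P(c) ≠ 0` for `c ∉ A`.
Imported by no statement.
-/
import Fermat.Agent.X0.LevelOneRational

set_option autoImplicit false

open Polynomial

noncomputable section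

namespace Fermat.Agent.M15.LaurentInt7

open Fermat.Agent.X0

variable {K : Type*} [Field K]

/-- all coefficients in `A`, unit leading coefficient. -/
def Good (A : ValuationSubring K) (F : LaurentSeries K) : Prop :=
  (∀ n, F.coeff n ∈ A) ∧ A.valuation F.leadingCoeff = 1

variable {A : ValuationSubring K}

theorem Good.ne_zero {F : LaurentSeries K} (h : Good A F) : F ≠ 0 := by
  intro h0
  have := h.2
  rw [h0, HahnSeries.leadingCoeff_zero, map_zero] at this
  exact zero_ne_one this

theorem Good.mul {F G : LaurentSeries K} (hF : Good A F) (hG : Good A G) : Good A (F * G) := by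
  refine ⟨fun n => ?_, ?_⟩
  · rw [HahnSeries.coeff_mul]
    exact A.toSubring.sum_mem fun ij _ => A.mul_mem _ _ (hF.1 _) (hG.1 _)
  · rw [HahnSeries.leadingCoeff_mul, map_mul, hF.2, hG.2, one_mul]

theorem Good.one : Good A (1 : LaurentSeries K) := by
  refine ⟨fun n => ?_, ?_⟩
  · rw [HahnSeries.coeff_one]
    split_ifs
    · exact A.one_mem
    · exact A.zero_mem
  · rw [HahnSeries.leadingCoeff_one, map_one]

theorem Good.neg {F : LaurentSeries K} (hF : Good A F) : Good A (-F) := by
  refine ⟨fun n => ?_, ?_⟩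
  · rw [HahnSeries.coeff_neg]
    exact A.neg_mem _ (hF.1 n)
  · have : (-F).leadingCoeff = -F.leadingCoeff := by
      rw [HahnSeries.leadingCoeff_eq, HahnSeries.leadingCoeff_eq, HahnSeries.order_neg,
        HahnSeries.coeff_neg]
    rw [this, Valuation.map_neg, hF.2]

theorem Good.prod {ι : Type*} (s : Finset ι) (F : ι → LaurentSeries K)
    (h : ∀ i ∈ s, Good A (F i)) : Good A (∏ i ∈ s, F i) := by
  classical
  induction s using Finset.induction_on with
  | empty => simpa using Good.one
  | insert a s ha ih =>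
    rw [Finset.prod_insert ha]
    exact (h a (Finset.mem_insert_self a s)).mul
      (ih fun i hi => h i (Finset.mem_insert_of_mem hi))

/-- recognise the leading coefficient. -/
theorem good_of_coeff {F : LaurentSeries K} (hint : ∀ n, F.coeff n ∈ A) (n₀ : ℤ)
    (hlow : ∀ n < n₀, F.coeff n = 0) (hu : A.valuation (F.coeff n₀) = 1) : Good A F := by
  have hne : F.coeff n₀ ≠ 0 := by
    intro h0
    rw [h0, map_zero] at hu
    exact zero_ne_one hu
  have hF0 : F ≠ 0 := by
    intro h0
    rw [h0] at hne
    exact hne rfl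
  have hord : F.order = n₀ := by
    apply le_antisymm (HahnSeries.order_le_of_coeff_ne_zero hne)
    by_contra hlt
    rw [not_le] at hlt
    exact hF0 (HahnSeries.coeff_order_eq_zero.mp (hlow _ hlt))
  exact ⟨hint, by rw [HahnSeries.leadingCoeff_eq, hord, hu]⟩

/-- coefficients of `P(J)` below `-r deg P` vanish. -/
theorem coeff_aeval_eq_zero (r : ℕ) (U : PowerSeries K) (P : K[X]) (n : ℤ)
    (hn : n < -((r * P.natDegree : ℕ) : ℤ)) : (aeval (laurentOf r U) P).coeff n = 0 := by
  rw [aeval_eq_sum_range, HahnSeries.coeff_sum]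
  refine Finset.sum_eq_zero fun i hi => ?_
  have hi' : i ≤ P.natDegree := Nat.lt_succ_iff.mp (Finset.mem_range.mp hi)
  rw [Algebra.smul_def, lor_coeff_algebraMap_mul, lor_laurentOf_pow, lor_laurentOf_coeff,
    if_neg, mul_zero]
  have : r * i ≤ r * P.natDegree := Nat.mul_le_mul_left r hi'
  push_cast at hn ⊢
  have : ((r : ℤ) * i) ≤ (r : ℤ) * P.natDegree := by exact_mod_cast this
  omega

/-- **`P(c) ≠ 0` for `c ∉ A`** when `P(J)` is good. -/
theorem eval_ne_zero_of_good (r : ℕ) (hr : 0 < r) (U : PowerSeries K)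
    (hU0 : PowerSeries.constantCoeff U = 1) (hU : ∀ n, PowerSeries.coeff n U ∈ A) (P : K[X])
    (hF : Good A (aeval (laurentOf r U) P)) {c : K} (hc : c ∉ A) : P.eval c ≠ 0 := by
  set F := aeval (laurentOf r U) P with hFdef
  have hF0 : F ≠ 0 := hF.ne_zero
  have hP0 : P ≠ 0 := by
    intro h0
    apply hF0
    rw [hFdef, h0, map_zero]
  have hcoef : ∀ i, P.coeff i ∈ A :=
    lor_coeff_mem_of_aeval_mem A.toSubring r hr U hU0 hU P hF.1
  set d := P.natDegree with hd
  have htop : F.coeff (-((r * d : ℕ) : ℤ)) = P.coeff d := lor_coeff_aeval r hr U hU0 P d le_rfl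
  have hlc : P.coeff d ≠ 0 := by
    rw [hd, Polynomial.coeff_natDegree]
    exact Polynomial.leadingCoeff_ne_zero.mpr hP0
  have hord : F.order = -((r * d : ℕ) : ℤ) := by
    apply le_antisymm (HahnSeries.order_le_of_coeff_ne_zero (by rw [htop]; exact hlc))
    by_contra hlt
    rw [not_le] at hlt
    exact hF0 (HahnSeries.coeff_order_eq_zero.mp (coeff_aeval_eq_zero r U P _ hlt))
  have hv : A.valuation (P.coeff d) = 1 := by
    rw [← htop, ← hord, ← HahnSeries.leadingCoeff_eq]
    exact hF.2
  -- the valuation estimate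
  have hc1 : 1 < A.valuation c := by
    rw [← not_le, A.valuation_le_one_iff]
    exact hc
  have hvc0 : A.valuation c ≠ 0 := (zero_lt_one.trans hc1).ne'
  rw [Polynomial.eval_eq_sum_range, Finset.sum_range_succ]
  have hsmall : A.valuation (∑ i ∈ Finset.range d, P.coeff i * c ^ i) < A.valuation c ^ d := by
    refine Valuation.map_sum_lt _ (pow_ne_zero d hvc0) fun i hi => ?_
    rw [map_mul, map_pow]
    have hid : i < d := Finset.mem_range.mp hi
    calc A.valuation (P.coeff i) * A.valuation c ^ i ≤ 1 * A.valuation c ^ i :=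
          mul_le_mul_left ((A.valuation_le_one_iff _).mpr (hcoef i)) _
      _ = A.valuation c ^ i := one_mul _
      _ < A.valuation c ^ d := pow_lt_pow_right₀ hc1 hid
  have hbig : A.valuation (P.coeff d * c ^ d) = A.valuation c ^ d := by
    rw [map_mul, map_pow, hv, one_mul]
  intro h0
  have h1 : A.valuation (∑ i ∈ Finset.range d, P.coeff i * c ^ i + P.coeff d * c ^ d) =
      A.valuation c ^ d := by
    rw [Valuation.map_add_eq_of_lt_right _ (by rw [hbig]; exact hsmall), hbig]
  rw [h0, map_zero] at h1
  exact pow_ne_zero d hvc0 h1.symm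

end Fermat.Agent.M15.LaurentInt7
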