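/-
M15 / R1 (MOD-glob, helper7), chapter G7b: the cusp expansions of `j(pz)` at level `p` (prime),
in explicit coefficient form over `ℚbar`, and: the difference of two distinct expansions has
`A`-integral coefficients and a unit leading coefficient for every valuation ring `A` of `ℚbar`
in which `p` is a unit.  Imported by no statement.
-/
import Fermat.Agent.M15.LaurentInt7
import Fermat.Agent.X0.CuspDistinct
import Fermat.Agent.X0.CuspExpand
import Fermat.Agent.X0.RootsK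

set_option autoImplicit false
set_option linter.unusedSectionVars false

open UpperHalfPlane hiding I
open scoped MatrixGroups

noncomputable section

namespace Fermat.Agent.M15.DiscSepA7

open Fermat.Agent.X0 Fermat.Agent.X0.CuspDistinct Fermat.Agent.M15.LaurentInt7
open ModularCurve

/-! ### differences of roots of unity -/

section Roots

variable {K : Type*} [Field K] (A : ValuationSubring K)

theorem val_eq_one_of_pow_eq_one {ζ : K} {n : ℕ} (hn : n ≠ 0) (h : ζ ^ n = 1) :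
    A.valuation ζ = 1 := by
  have h1 : A.valuation ζ ^ n = 1 := by rw [← map_pow, h, map_one]
  exact (pow_eq_one_iff_of_nonneg zero_le hn).mp h1

theorem val_one_sub_eq_one {p : ℕ} (hp : p.Prime) (hpA : A.valuation (p : K) = 1) {η : K}
    (hη : η ^ p = 1) (hη1 : η ≠ 1) : A.valuation (1 - η) = 1 := by
  have : Fact p.Prime := ⟨hp⟩
  have hord : orderOf η = p := orderOf_eq_prime hη hη1
  have hprim : IsPrimitiveRoot η p := hord ▸ IsPrimitiveRoot.orderOf η
  obtain ⟨n, rfl⟩ : ∃ n, p = n + 1 := ⟨p - 1, by have := hp.pos; omega⟩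
  have hprod := hprim.prod_one_sub_pow_eq_order
  have hvη : A.valuation η = 1 := val_eq_one_of_pow_eq_one A (Nat.succ_ne_zero n) hη
  have hle : ∀ k : ℕ, A.valuation (1 - η ^ (k + 1)) ≤ 1 := by
    intro k
    rw [A.valuation_le_one_iff]
    exact A.toSubring.sub_mem A.one_mem (A.pow_mem ((A.valuation_le_one_iff _).mp hvη.le) _)
  have hv : A.valuation (∏ k ∈ Finset.range n, (1 - η ^ (k + 1))) = 1 := by
    rw [hprod]
    have : ((n : K) + 1) = ((n + 1 : ℕ) : K) := by push_cast; rfl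
    rw [this, hpA]
  rw [map_prod] at hv
  have hn0 : 0 < n := by
    have := hp.one_lt
    omega
  by_contra hne
  have hlt : A.valuation (1 - η ^ (0 + 1)) < 1 := lt_of_le_of_ne (hle 0) (by simpa using hne)
  have : ∏ k ∈ Finset.range n, A.valuation (1 - η ^ (k + 1)) < 1 := by
    rw [← Finset.prod_erase_mul _ _ (Finset.mem_range.mpr hn0)]
    calc _ ≤ 1 * A.valuation (1 - η ^ (0 + 1)) :=
          mul_le_mul_left (Finset.prod_le_one' fun k _ => hle k) _
      _ = A.valuation (1 - η ^ (0 + 1)) := one_mul _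
      _ < 1 := hlt
  rw [hv] at this
  exact lt_irrefl _ this

theorem val_inv_sub_inv_eq_one {p : ℕ} (hp : p.Prime) (hpA : A.valuation (p : K) = 1) {ζ ζ' : K}
    (hζ : ζ ^ p = 1) (hζ' : ζ' ^ p = 1) (hne : ζ ≠ ζ') : A.valuation (ζ⁻¹ - ζ'⁻¹) = 1 := by
  have hζ0 : ζ ≠ 0 := fun h => by rw [h, zero_pow hp.ne_zero] at hζ; exact zero_ne_one hζ
  have hζ'0 : ζ' ≠ 0 := fun h => by rw [h, zero_pow hp.ne_zero] at hζ'; exact zero_ne_one hζ'
  have e : ζ⁻¹ - ζ'⁻¹ = ζ⁻¹ * (1 - ζ * ζ'⁻¹) := by field_simp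
  have h1 : (ζ * ζ'⁻¹) ^ p = 1 := by rw [mul_pow, inv_pow, hζ, hζ', inv_one, mul_one]
  have h2 : ζ * ζ'⁻¹ ≠ 1 := by
    intro h
    apply hne
    field_simp at h
    exact h
  rw [e, map_mul, map_inv₀, val_eq_one_of_pow_eq_one A hp.ne_zero hζ, inv_one, one_mul,
    val_one_sub_eq_one A hp hpA h1 h2]

end Roots

/-! ### the cusp expansions of `j(pz)` -/

section Expansions

/-- the integer coefficients of `q j`, in `ℚbar`. -/
def jc (n : ℕ) : Kbar := ((PowerSeries.coeff n ModularCurve.jNum : ℤ) : Kbar)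

theorem jc_zero : jc 0 = 1 := by
  unfold jc
  rw [PowerSeries.coeff_zero_eq_constantCoeff_apply, ModularCurve.constantCoeff_jNum, Int.cast_one]

theorem jc_mem (A : ValuationSubring Kbar) (n : ℕ) : jc n ∈ A := by
  unfold jc
  exact intCast_mem A _

/-- `F = ζ⁻¹ (q^{a²} ζ)⁻¹ jNum(ζ q^{a²})`, coefficientwise. -/
def IsExp (a : ℕ) (ζ : Kbar) (F : LaurentSeries Kbar) : Prop :=
  ∀ k : ℤ, F.coeff k =
    if 0 ≤ k + ((a * a : ℕ) : ℤ) then
      (if a * a ∣ (k + ((a * a : ℕ) : ℤ)).toNat then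
        ζ⁻¹ * (ζ ^ ((k + ((a * a : ℕ) : ℤ)).toNat / (a * a)) *
          jc ((k + ((a * a : ℕ) : ℤ)).toNat / (a * a)))
      else 0)
    else 0

theorem IsExp.ext {a : ℕ} {ζ : Kbar} {F F' : LaurentSeries Kbar} (h : IsExp a ζ F)
    (h' : IsExp a ζ F') : F = F' := by
  ext k
  rw [h k, h' k]

theorem IsExp.coeff_low {a : ℕ} {ζ : Kbar} {F : LaurentSeries Kbar} (h : IsExp a ζ F) {k : ℤ}
    (hk : k < -((a * a : ℕ) : ℤ)) : F.coeff k = 0 := by
  rw [h k, if_neg (by omega)]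

theorem IsExp.coeff_lead {a : ℕ} (_ha : 0 < a) {ζ : Kbar} {F : LaurentSeries Kbar}
    (h : IsExp a ζ F) : F.coeff (-((a * a : ℕ) : ℤ)) = ζ⁻¹ := by
  rw [h _, if_pos (by omega)]
  have e0 : (-((a * a : ℕ) : ℤ) + ((a * a : ℕ) : ℤ)).toNat = 0 := by
    rw [neg_add_cancel]; rfl
  rw [e0, if_pos (dvd_zero _), Nat.zero_div, pow_zero, one_mul, jc_zero, mul_one]

theorem IsExp.coeff_mem (A : ValuationSubring Kbar) {a : ℕ} {ζ : Kbar} {n : ℕ} (hn : n ≠ 0)
    (hζ : ζ ^ n = 1) {F : LaurentSeries Kbar} (h : IsExp a ζ F) (k : ℤ) : F.coeff k ∈ A := by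
  have hv : A.valuation ζ = 1 := val_eq_one_of_pow_eq_one A hn hζ
  have h1 : ζ ∈ A := (A.valuation_le_one_iff _).mp hv.le
  have h2 : ζ⁻¹ ∈ A := by
    rw [← A.valuation_le_one_iff, map_inv₀, hv, inv_one]
  rw [h k]
  split_ifs
  · exact A.mul_mem _ _ h2 (A.mul_mem _ _ (A.pow_mem h1 _) (jc_mem A _))
  · exact A.zero_mem
  · exact A.zero_mem

end Expansions

section Cases

variable (p : ℕ) [NeZero p]

/-- the cusp expansion of `j(pz)` at `γ`. -/
def Tg (γ : SL(2, ℤ)) : LaurentSeries Kbar := (cuspData p).T γ (jdF p p (dvd_refl p))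

theorem coeff_cd_Q (a e : ℕ) (b : ℤ) (ha : 0 < a) (n : ℕ) :
    PowerSeries.coeff n (cd_Q a e b ha) =
      if a * a ∣ n then (cd_zeta e b)⁻¹ * ((cd_zeta e b) ^ (n / (a * a)) *
        ((PowerSeries.coeff (n / (a * a)) ModularCurve.jNum : ℤ) : ℂ)) else 0 := by
  unfold cd_Q
  rw [PowerSeries.coeff_C_mul, PowerSeries.coeff_expand]
  split_ifs with h
  · rw [PowerSeries.coeff_rescale, coeff_jNumC]
  · rw [mul_zero]

theorem isExp_Tg {γ : SL(2, ℤ)} {a e : ℕ} {b : ℤ} (ha : 0 < a) (he : 0 < e) (hae : a * e = p)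
    (hj : ∀ z : ℍ, jdFun p (γ • z) = jFun (Hermite.affH a e b ha he z)) (ζ : Kbar)
    (hζ : iotaK ζ = cd_zeta e b) : IsExp a ζ (Tg p γ) := by
  intro k
  apply iotaK_injective
  unfold Tg
  rw [coeff_T_jdF (realizeData p) (cuspData p) γ ha he hae hj k]
  split_ifs with h1 h2
  · rw [coeff_cd_Q, if_pos h2, map_mul, map_mul, map_inv₀, map_pow, hζ]
    unfold jc
    rw [map_intCast]
  · rw [coeff_cd_Q, if_neg h2, map_zero]
  · rw [map_zero]

theorem Tg_cases (hp : p.Prime) (γ : SL(2, ℤ)) :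
    IsExp p 1 (Tg p γ) ∨ ∃ ζ : Kbar, ζ ^ p = 1 ∧ IsExp 1 ζ (Tg p γ) := by
  obtain ⟨δ, a, e, b, ha, he, hae, hb0, hbe, _, _, _, _, hj⟩ := HermiteFull.exists_hermite_full γ p
  have hdvd : a ∣ p := ⟨e, hae.symm⟩
  rcases (Nat.dvd_prime hp).mp hdvd with h1 | h1
  · -- a = 1, e = p
    subst h1
    rw [one_mul] at hae
    subst hae
    right
    refine ⟨zetaK e ^ b.toNat, ?_, ?_⟩
    · rw [← pow_mul, mul_comm, pow_mul, zetaK_pow_self, one_pow]
    · apply isExp_Tg e ha he (one_mul e) hj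
      rw [iotaK_zetaK_pow]
      unfold cd_zeta
      have : ((b.toNat : ℕ) : ℂ) = (b : ℂ) := by
        have := Int.toNat_of_nonneg hb0
        exact_mod_cast congrArg (fun x : ℤ => (x : ℂ)) this
      rw [this]
  · -- a = p, e = 1
    subst h1
    have he1 : e = 1 := by
      have : a * e = a * 1 := by rw [hae, mul_one]
      exact Nat.eq_of_mul_eq_mul_left ha this
    subst he1
    have hb : b = 0 := by
      have : b < 1 := by exact_mod_cast hbe
      omega
    subst hb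
    left
    apply isExp_Tg a ha he hae hj
    rw [map_one]
    unfold cd_zeta
    simp

/-- **distinct expansions differ by a good series.** -/
theorem good_sub (hp : p.Prime) (A : ValuationSubring Kbar) (hpA : A.valuation (p : Kbar) = 1)
    (γ γ' : SL(2, ℤ)) (hne : Tg p γ ≠ Tg p γ') : Good A (Tg p γ - Tg p γ') := by
  have hp2 : 2 ≤ p := hp.two_le
  have hpp : 1 < p * p := by nlinarith
  -- the mixed case
  have mixed : ∀ (F F' : LaurentSeries Kbar) (ζ' : Kbar), IsExp p 1 F → ζ' ^ p = 1 →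
      IsExp 1 ζ' F' → Good A (F - F') := by
    intro F F' ζ' hF hζ' hF'
    refine good_of_coeff (fun n => ?_) (-((p * p : ℕ) : ℤ)) (fun n hn => ?_) ?_
    · rw [HahnSeries.coeff_sub]
      exact A.toSubring.sub_mem (hF.coeff_mem A one_ne_zero (one_pow 1) n)
        (hF'.coeff_mem A hp.ne_zero hζ' n)
    · rw [HahnSeries.coeff_sub, hF.coeff_low hn, hF'.coeff_low (by push_cast at hn ⊢; omega),
        sub_zero]
    · rw [HahnSeries.coeff_sub, hF.coeff_lead hp.pos, hF'.coeff_low (by push_cast; omega),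
        inv_one, sub_zero, map_one]
  rcases Tg_cases p hp γ with h | ⟨ζ, hζ, h⟩ <;> rcases Tg_cases p hp γ' with h' | ⟨ζ', hζ', h'⟩
  · exact absurd (h.ext h') hne
  · exact mixed _ _ ζ' h hζ' h'
  · have := (mixed _ _ ζ h' hζ h).neg
    rwa [neg_sub] at this
  · have hζne : ζ ≠ ζ' := by
      rintro rfl
      exact hne (h.ext h')
    refine good_of_coeff (fun n => ?_) (-((1 * 1 : ℕ) : ℤ)) (fun n hn => ?_) ?_
    · rw [HahnSeries.coeff_sub]
      exact A.toSubring.sub_mem (h.coeff_mem A hp.ne_zero hζ n) (h'.coeff_mem A hp.ne_zero hζ' n)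
    · rw [HahnSeries.coeff_sub, h.coeff_low hn, h'.coeff_low hn, sub_zero]
    · rw [HahnSeries.coeff_sub, h.coeff_lead one_pos, h'.coeff_lead one_pos]
      exact val_inv_sub_inv_eq_one A hp hpA hζ hζ' hζne

/-- equal expansions at `(rep y)⁻¹`, `(rep y')⁻¹` force equal cosets. -/
theorem eq_of_Tg_eq (rep : SL(2, ℤ) ⧸ CongruenceSubgroup.Gamma0 p → SL(2, ℤ))
    (hrep : ∀ x, (rep x : SL(2, ℤ) ⧸ CongruenceSubgroup.Gamma0 p) = x)
    {y y' : SL(2, ℤ) ⧸ CongruenceSubgroup.Gamma0 p}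
    (h : Tg p (rep y)⁻¹ = Tg p (rep y')⁻¹) : y = y' := by
  have hmem := mem_Gamma0_of_T_jdF_eq (realizeData p) (cuspData p) _ _ h
  rw [inv_inv] at hmem
  rw [← hrep y, ← hrep y']
  exact (QuotientGroup.eq.mpr hmem).symm

end Cases

end Fermat.Agent.M15.DiscSepA7
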