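/-
M15 / R1 (MOD-glob, helper7), chapter G8: **separation of the conjugates of `j(pz)`** at a point
`τ₀` whose `j`-value is not integral at a valuation ring `A` of `ℚbar` in which `p` is a unit:
the values `j(p · (rep y)⁻¹ τ₀)`, `y ∈ SL(2,ℤ)/Γ₀(p)`, are pairwise distinct.
Proof: the product over ordered pairs `y ≠ y'` of the differences is a polynomial `P(j)` in `j`
(`X0.intg_core`), and `P(J)` is a product of good Laurent series (`DiscSepA7.good_sub`), so `P`
is integral with unit leading coefficient and `P(c) ≠ 0` for `c ∉ A`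
(`LaurentInt7.eval_ne_zero_of_good`).  Imported by no statement.
-/
import Fermat.Agent.M15.DiscSepA7
import Fermat.Agent.X0.Integrality

set_option autoImplicit false
set_option linter.unusedSectionVars false

open UpperHalfPlane hiding I
open scoped MatrixGroups
open Polynomial

noncomputable section

namespace Fermat.Agent.M15.DiscSep7

open Fermat.Agent.X0 Fermat.Agent.X0.Analytic Fermat.Agent.M15.LaurentInt7 Fermat.Agent.M15.DiscSepA7
open ModularCurve

variable (p : ℕ) [NeZero p]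

/-- `J = j(q_p^p)` as a `laurentOf`. -/
theorem qExpand_jqK :
    qExpand Kbar p jqK =
      laurentOf (1 * p) ((jNum.map (Int.castRingHom Kbar)).expand p (NeZero.ne p)) := by
  have h1 : jqK = laurentOf 1 (jNum.map (Int.castRingHom Kbar)) := by
    rw [jqK_eq_jqModC, jqModC, laurentOf]
    norm_num
  rw [h1, qExpand_laurentOf]

theorem constantCoeff_U :
    PowerSeries.constantCoeff ((jNum.map (Int.castRingHom Kbar)).expand p (NeZero.ne p)) = 1 := by
  rw [PowerSeries.constantCoeff_expand, ← PowerSeries.coeff_zero_eq_constantCoeff_apply,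
    PowerSeries.coeff_map, PowerSeries.coeff_zero_eq_constantCoeff_apply, constantCoeff_jNum,
    map_one]

theorem coeff_U_mem (A : ValuationSubring Kbar) (n : ℕ) :
    PowerSeries.coeff n ((jNum.map (Int.castRingHom Kbar)).expand p (NeZero.ne p)) ∈ A := by
  rw [PowerSeries.coeff_expand]
  split_ifs
  · rw [PowerSeries.coeff_map]
    exact intCast_mem A _
  · exact A.zero_mem

/-- **separation of conjugates.** -/
theorem conj_ne (hp : p.Prime) (A : ValuationSubring Kbar) (hpA : A.valuation (p : Kbar) = 1)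
    (rep : SL(2, ℤ) ⧸ CongruenceSubgroup.Gamma0 p → SL(2, ℤ))
    (hrep : ∀ x, (rep x : SL(2, ℤ) ⧸ CongruenceSubgroup.Gamma0 p) = x)
    {τ₀ : ℍ} {cj : Kbar} (hτ : jFun τ₀ = iotaK cj) (hcj : cj ∉ A)
    {y y' : SL(2, ℤ) ⧸ CongruenceSubgroup.Gamma0 p} (hne : y ≠ y') :
    jdFun p ((rep y)⁻¹ • τ₀) ≠ jdFun p ((rep y')⁻¹ • τ₀) := by
  classical
  let _ : Fintype (SL(2, ℤ) ⧸ CongruenceSubgroup.Gamma0 p) := Fintype.ofFinite _
  set D := realizeData p with hD
  set C := cuspData p with hC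
  set u : Rsub p := jdR p p (dvd_refl p) with hu
  have hΘ : D.Θ u = jdFun p := D.jd_eq p (dvd_refl p)
  have hcoe : ((u : Rsub p) : FF p) = jdF p p (dvd_refl p) := coe_jdR p p (dvd_refl p)
  let ι := {a : (SL(2, ℤ) ⧸ CongruenceSubgroup.Gamma0 p) × (SL(2, ℤ) ⧸ CongruenceSubgroup.Gamma0 p) //
    a.1 ≠ a.2}
  let g : ι → ℍ → ℂ := fun a =>
    compSL (jdFun p) (rep a.1.1)⁻¹ - compSL (jdFun p) (rep a.1.2)⁻¹
  let T : ι → LaurentSeries Kbar := fun a => Tg p (rep a.1.1)⁻¹ - Tg p (rep a.1.2)⁻¹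
  have hpair : ∀ x : SL(2, ℤ) ⧸ CongruenceSubgroup.Gamma0 p,
      ((compSL (jdFun p) (rep x)⁻¹, Tg p (rep x)⁻¹) : (ℍ → ℂ) × LaurentSeries Kbar) ∈
        intgPairs p := by
    intro x
    refine ⟨?_, ?_⟩
    · show compSL (jdFun p) (rep x)⁻¹ ∈ HolH
      rw [← hΘ]
      exact compSL_mem_HolH (D.mem_HolH u) _
    · show IntgQN p (compSL (jdFun p) (rep x)⁻¹) (toC (Tg p (rep x)⁻¹))
      have := intg_T_spec p D C (rep x)⁻¹ u
      rw [hΘ, hcoe] at this
      exact this
  have hmem : ∀ a : ι, ((g a, T a) : (ℍ → ℂ) × LaurentSeries Kbar) ∈ intgPairs p := by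
    intro a
    have := (intgPairs p).sub_mem (hpair a.1.1) (hpair a.1.2)
    exact this
  have hperm : ∀ δ : SL(2, ℤ), ∃ σ : Equiv.Perm ι, ∀ x z, g x (δ • z) = g (σ x) z := by
    intro δ
    obtain ⟨σ₀, hσ₀⟩ := intg_perm p D rep hrep u δ
    rw [hΘ] at hσ₀
    refine ⟨(Equiv.prodCongr σ₀ σ₀).subtypeEquiv (fun a => ?_), fun x z => ?_⟩
    · simp only [Equiv.prodCongr_apply, Prod.map_fst, Prod.map_snd, ne_eq,
        EmbeddingLike.apply_eq_iff_eq]
    · show compSL (jdFun p) (rep x.1.1)⁻¹ (δ • z) - compSL (jdFun p) (rep x.1.2)⁻¹ (δ • z) =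
        compSL (jdFun p) (rep (σ₀ x.1.1))⁻¹ z - compSL (jdFun p) (rep (σ₀ x.1.2))⁻¹ z
      rw [hσ₀, hσ₀]
  obtain ⟨P, hP1, hP2⟩ := intg_core p g T (fun a => (hmem a).1) (fun a => (hmem a).2) hperm 0
  -- the constant coefficients
  have hc0 : ∀ {R : Type} [CommRing R] (t : ι → R),
      (∏ a, (X - Polynomial.C (t a))).coeff 0 = ∏ a, (-t a) := by
    intro R _ t
    rw [Polynomial.coeff_zero_eq_eval_zero, Polynomial.eval_prod]
    refine Finset.prod_congr rfl fun a _ => ?_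
    rw [Polynomial.eval_sub, Polynomial.eval_X, Polynomial.eval_C, zero_sub]
  rw [hc0] at hP1
  -- goodness
  have hgood : Good A (aeval (qExpand Kbar p jqK) P) := by
    rw [← hP1]
    refine Good.prod _ _ fun a _ => Good.neg ?_
    refine good_sub p hp A hpA _ _ fun h => ?_
    exact a.2 (eq_of_Tg_eq p rep hrep h)
  rw [qExpand_jqK] at hgood
  have hne0 : P.eval cj ≠ 0 :=
    eval_ne_zero_of_good (1 * p) (by have := hp.pos; omega) _ (constantCoeff_U p)
      (coeff_U_mem p A) P hgood hcj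
  have hne1 : (P.map iotaK).eval (jFun τ₀) ≠ 0 := by
    rw [hτ, Polynomial.eval_map, Polynomial.eval₂_at_apply]
    exact (map_ne_zero iotaK).mpr hne0
  rw [hP2 τ₀, hc0] at hne1
  have := Finset.prod_ne_zero_iff.mp hne1 ⟨(y, y'), hne⟩ (Finset.mem_univ _)
  intro heq
  apply this
  show -(compSL (jdFun p) (rep y)⁻¹ τ₀ - compSL (jdFun p) (rep y')⁻¹ τ₀) = 0
  show -(jdFun p ((rep y)⁻¹ • τ₀) - jdFun p ((rep y')⁻¹ • τ₀)) = 0
  rw [heq, sub_self, neg_zero]

end Fermat.Agent.M15.DiscSep7
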