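/-
M15 / R1 (MOD-glob, helper7), chapters G9-G10: **the place of `X₀(p)` attached to `(E, ⟨Q⟩)` is
Galois-fixed**, hence `cl (x) (P0)` is a rational point of `J₀(p)`.

* `pointPlaceD_eq_of_jd_eq`: over a `j`-value `cj` which is not integral at some valuation ring `A`
  with `v(p) = 1`, a point place over `cj` is determined by its value of `j(pz)`
  (`DiscSep7.conj_ne`);
* `gal_smul_pointPlaceD`: if `cj` and the value `cd` of `j(pz)` are fixed by `σ`, so is the place;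
* `exists_rational_place`: the interface consumed by the assembly of (MOD).
Imported by no statement.
-/
import Fermat.Agent.M15.PlaceTau7
import Fermat.Agent.M15.DiscSep7
import Fermat.Agent.M15.CuspRat9
import Fermat.Agent.X0.PointSurjT

set_option autoImplicit false
set_option linter.unusedSectionVars false

open UpperHalfPlane hiding I
open scoped MatrixGroups

noncomputable section

namespace Fermat.Agent.M15.ModGlob7

open WeierstrassCurve WeierstrassCurve.Affine AlgebraicCurve ModularCurve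
open Fermat.Agent.X0 Fermat.Agent.X0.PointPlacesD Fermat.Agent.X0.FF
open Fermat.Agent.RED.BASE.Unbranched14 Fermat.Agent.RED.BASE.Hauptmodul12
open Fermat.Agent.M15.DictDefs8 Fermat.Agent.M15.VeluDefs7 Fermat.Agent.M15.VeluMap7
open Fermat.Agent.M15.PlaceVal7 Fermat.Agent.M15.PlaceTau7 Fermat.Agent.M15.DiscSep7
open Fermat.Agent.M15.Contracts9 Fermat.Agent.M15.CuspTors0 Fermat.Agent.M15.CuspRat9
open Fermat.Agent.T33.Psi3C

variable (p : ℕ) [NeZero p]

/-! ### G9: uniqueness of the place -/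

theorem jdFun_smul_of_mem_Gamma0 {γ : SL(2, ℤ)} (hγ : γ ∈ CongruenceSubgroup.Gamma0 p) (z : ℍ) :
    jdFun p (γ • z) = jdFun p z := by
  have h := (realizeData p).invariant (jdR p p (dvd_refl p)) γ hγ
  rw [(realizeData p).jd_eq p (dvd_refl p)] at h
  exact congrFun h z

/-- **(G9)** a point place over a non-integral `j`-value is determined by its value of `j(pz)`. -/
theorem pointPlaceD_eq_of_jd_eq (hp : p.Prime) (A : ValuationSubring Kbar)
    (hpA : A.valuation (p : Kbar) = 1) {τ₀ : ℍ} {cj : Kbar} (hc : jFun τ₀ = iotaK cj)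
    (hcj : cj ∉ A) (g : SL(2, ℤ)) (h : jdFun p (g⁻¹ • τ₀) = jdFun p τ₀) :
    pointPlaceD (realizeData p) τ₀ cj hc g = pointPlaceD (realizeData p) τ₀ cj hc 1 := by
  set rep : SL(2, ℤ) ⧸ CongruenceSubgroup.Gamma0 p → SL(2, ℤ) := fun x => x.out with hrepdef
  have hrep : ∀ x, (rep x : SL(2, ℤ) ⧸ CongruenceSubgroup.Gamma0 p) = x :=
    fun x => QuotientGroup.out_eq' x
  -- values at the representatives
  have hval : ∀ a : SL(2, ℤ), jdFun p ((rep (a : SL(2, ℤ) ⧸ CongruenceSubgroup.Gamma0 p))⁻¹ • τ₀) =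
      jdFun p (a⁻¹ • τ₀) := by
    intro a
    have hmem : (rep (a : SL(2, ℤ) ⧸ CongruenceSubgroup.Gamma0 p))⁻¹ * a ∈
        CongruenceSubgroup.Gamma0 p := QuotientGroup.eq.mp (hrep _)
    have e : (rep (a : SL(2, ℤ) ⧸ CongruenceSubgroup.Gamma0 p))⁻¹ • τ₀ =
        ((rep (a : SL(2, ℤ) ⧸ CongruenceSubgroup.Gamma0 p))⁻¹ * a) • (a⁻¹ • τ₀) := by
      rw [← mul_smul]
      congr 1
      group
    rw [e, jdFun_smul_of_mem_Gamma0 p hmem]
  have hcos : ((g : SL(2, ℤ)) : SL(2, ℤ) ⧸ CongruenceSubgroup.Gamma0 p) =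
      ((1 : SL(2, ℤ)) : SL(2, ℤ) ⧸ CongruenceSubgroup.Gamma0 p) := by
    by_contra hne
    apply conj_ne p hp A hpA rep hrep hc hcj hne
    rw [hval g, hval 1, h, inv_one, one_smul]
  have hmem : g ∈ CongruenceSubgroup.Gamma0 p := by
    have := QuotientGroup.eq.mp hcos.symm
    rwa [inv_one, one_mul] at this
  have := pointPlaceD_mul_Gamma0 (realizeData p) τ₀ cj hc 1 g hmem
  rwa [one_mul] at this

/-! ### G10: Galois-fixedness -/

theorem gal_smul_const_sub (σ : GQ) {t : FF p} (ht : gal p σ • t = t) {c : Kbar} (hσ : σ c = c) :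
    gal p σ • (t - algebraMap Kbar (FF p) c) = t - algebraMap Kbar (FF p) c := by
  rw [smul_sub, ht, SemilinearAut.smul_algebraMap]
  congr 2

/-- **(G10)** the place over `(cj, cd)` is fixed by every `σ` fixing `cj` and `cd`. -/
theorem gal_smul_pointPlaceD (hp : p.Prime) (A : ValuationSubring Kbar)
    (hpA : A.valuation (p : Kbar) = 1) {τ₀ : ℍ} {cj cd : Kbar} (hc : jFun τ₀ = iotaK cj)
    (hcj : cj ∉ A) (hd : jdFun p τ₀ = iotaK cd) (σ : GQ) (hσj : σ cj = cj) (hσd : σ cd = cd) :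
    gal p σ • (pointPlaceD (realizeData p) τ₀ cj hc 1 : Pl p) =
      pointPlaceD (realizeData p) τ₀ cj hc 1 := by
  set x : Pl p := pointPlaceD (realizeData p) τ₀ cj hc 1 with hx
  have h1 : ((1 : SL(2, ℤ))⁻¹ • τ₀) = τ₀ := by rw [inv_one, one_smul]
  have hxj : 0 < x.ord (jF p - algebraMap Kbar (FF p) cj) := pointPlaceD_ord_pos _ _ _ _ _
  have hxd : 0 < x.ord (jdF p p dvd_rfl - algebraMap Kbar (FF p) cd) :=
    ord_jdF_sub_pos p τ₀ _ hc 1 _ (by rw [h1, hd])
  -- the same for the conjugate place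
  have hx'j : 0 < (gal p σ • x).ord (jF p - algebraMap Kbar (FF p) cj) := by
    have := SemilinearAut.ord_smul (gal p σ) x (jF p - algebraMap Kbar (FF p) cj)
    rw [gal_smul_const_sub p σ (gal_smul_jF p σ) hσj] at this
    rw [this]
    exact hxj
  have hx'd : 0 < (gal p σ • x).ord (jdF p p dvd_rfl - algebraMap Kbar (FF p) cd) := by
    have := SemilinearAut.ord_smul (gal p σ) x (jdF p p dvd_rfl - algebraMap Kbar (FF p) cd)
    rw [gal_smul_const_sub p σ (gal_smul_jdF σ p dvd_rfl) hσd] at this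
    rw [this]
    exact hxd
  obtain ⟨g, hg⟩ := PointSurjT.exists_pointPlaceD_eq (realizeData p) τ₀ (cuspData p) cj hc
    (gal p σ • x) hx'j
  rw [← hg] at hx'd ⊢
  have hval := val_eq_of_ord_sub_pos (realizeData p) (jdFun_mem_HolH p) (isRealizedBy_jdF p)
    τ₀ cj hc g cd hx'd
  exact pointPlaceD_eq_of_jd_eq p hp A hpA hc hcj g (by rw [hval, hd])

/-! ### the interface for the assembly of (MOD) -/

section Ord

variable {K F : Type*} [Field K] [Field F] [Algebra K F]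

/-- a function with value `c ≠ 0` at `v` has inverse with value `c⁻¹`. -/
theorem ord_inv_sub_inv_pos (v : Place K F) {f : F} {c : K} (hc : c ≠ 0)
    (h : 0 < v.ord (f - algebraMap K F c)) : 0 < v.ord (f⁻¹ - algebraMap K F c⁻¹) := by
  set a := algebraMap K F c with ha
  have ha0 : a ≠ 0 := (map_ne_zero (algebraMap K F)).mpr hc
  have hoa : v.ord a = 0 := ord_algebraMap v c
  have hfa : f - a ≠ 0 := by
    intro h0
    rw [h0, Place.ord_zero] at h
    exact lt_irrefl _ h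
  have hof : v.ord f = 0 := by
    have := ord_add_eq_of_lt v (f := a) (g := f - a) ha0 (by rw [hoa]; exact h)
    rw [add_sub_cancel] at this
    rw [this, hoa]
  have hf0 : f ≠ 0 := by
    intro h0
    rw [h0, zero_sub, ord_neg, hoa] at h
    exact lt_irrefl _ h
  have e : f⁻¹ - algebraMap K F c⁻¹ = -((f - a) * (f⁻¹ * a⁻¹)) := by
    rw [map_inv₀, ← ha]
    field_simp
    ring
  rw [e, ord_neg, Place.ord_mul _ hfa (mul_ne_zero (inv_ne_zero hf0) (inv_ne_zero ha0)),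
    Place.ord_mul _ (inv_ne_zero hf0) (inv_ne_zero ha0), Place.ord_inv, Place.ord_inv, hof, hoa]
  simpa using h

end Ord

/-- **the interface of chapter (MOD-glob), strong form**: a Galois-fixed place `x` of `X₀(p)` with
`j(x) = j(E)` and `u_p(x) = veluRatio / p¹²` (both forms); moreover `veluRatio ≠ 0`. -/
theorem exists_fixed_place (hp : p.Prime) (hodd : Odd p) (W : WeierstrassCurve ℤ)
    (hΔ : W.Δ ≠ 0) (Q : ((W.map (Int.castRingHom ℚ))⁄(AlgebraicClosure ℚ)).Point)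
    (hQfix : ∀ σ : GQ, σ • Q = Q) (hQ : addOrderOf Q = p)
    (A : ValuationSubring Qb) (hpA : A.valuation (p : Qb) = 1) {cj : Qb}
    (hcj : cj * ((W.Δ : ℤ) : Qb) = ((W.c₄ : ℤ) : Qb) ^ 3) (hcjA : cj ∉ A) :
    ∃ x : Pl p, (∀ σ : GQ, gal p σ • x = x) ∧
      0 < x.ord (jF p - algebraMap Qb (FF p) cj) ∧
      ∀ T : Fin 3 → ((W.map (Int.castRingHom ℚ))⁄(AlgebraicClosure ℚ)).Point, IsTwoTors T →
        veluRatio T Q p ≠ 0 ∧
        ∀ cu : Qb, cu * veluRatio T Q p = (p : Qb) ^ 12 →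
          0 < x.ord (uF p - algebraMap Qb (FF p) cu⁻¹) ∧
          0 < x.ord ((uF p)⁻¹ - algebraMap Qb (FF p) cu) := by
  have hΔq : (W.map (Int.castRingHom ℚ)).Δ ≠ 0 := by
    rw [WeierstrassCurve.map_Δ]
    simpa using hΔ
  obtain ⟨τ₀, hc, hjd, hxj, -, hxu⟩ := exists_place p hp hodd (W.map (Int.castRingHom ℚ)) hΔq Q hQ
  -- identify `cj`
  have hΔb : ((W.Δ : ℤ) : Qb) ≠ 0 := by exact_mod_cast hΔ
  have hcj' : algebraMap ℚ Kbar ((W.map (Int.castRingHom ℚ)).c₄ ^ 3 /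
      (W.map (Int.castRingHom ℚ)).Δ) = cj := by
    rw [WeierstrassCurve.map_Δ, WeierstrassCurve.map_c₄, map_div₀, map_pow, eq_intCast,
      eq_intCast, map_intCast, map_intCast, div_eq_iff hΔb, hcj]
  -- Galois-fixedness of the two values
  have hσj : ∀ σ : GQ, σ (algebraMap ℚ Kbar ((W.map (Int.castRingHom ℚ)).c₄ ^ 3 /
      (W.map (Int.castRingHom ℚ)).Δ)) = algebraMap ℚ Kbar ((W.map (Int.castRingHom ℚ)).c₄ ^ 3 /
      (W.map (Int.castRingHom ℚ)).Δ) := fun σ => σ.commutes _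
  have hσd : ∀ σ : GQ, σ (veluJ ((W.map (Int.castRingHom ℚ))⁄Kbar) Q p) =
      veluJ ((W.map (Int.castRingHom ℚ))⁄Kbar) Q p := by
    intro σ
    have h1 := veluJ_map (S := ℚ) (W' := W.map (Int.castRingHom ℚ)) σ.toAlgHom Q p
    have h2 : Point.map (W' := W.map (Int.castRingHom ℚ)) σ.toAlgHom Q = Q := hQfix σ
    rw [h2] at h1
    exact h1.symm
  have hcjA' : algebraMap ℚ Kbar ((W.map (Int.castRingHom ℚ)).c₄ ^ 3 /
      (W.map (Int.castRingHom ℚ)).Δ) ∉ A := by rw [hcj']; exact hcjA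
  have hfix : ∀ σ : GQ, gal p σ • (pointPlaceD (realizeData p) τ₀ _ hc 1 : Pl p) =
      pointPlaceD (realizeData p) τ₀ _ hc 1 := fun σ =>
    gal_smul_pointPlaceD p hp A hpA hc hcjA' hjd σ (hσj σ) (hσd σ)
  refine ⟨pointPlaceD (realizeData p) τ₀ _ hc 1, hfix, ?_, fun T hT => ?_⟩
  · rw [← hcj']
    exact hxj
  · have hpb : ((p : Qb)) ^ 12 ≠ 0 := pow_ne_zero _ (Nat.cast_ne_zero.mpr hp.ne_zero)
    have h1 := hxu T hT
    -- `veluRatio ≠ 0`: its quotient by `p¹²` is a value of `Δ(pz)/Δ(z)`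
    have hR0 : veluRatio T Q p ≠ 0 := by
      have hval := val_eq_of_ord_sub_pos (realizeData p)
        (Fermat.Agent.IG.AN.DeltaQuot19.deltaQuot_mem_HolH p) (isRealizedBy_uF p) τ₀ _ hc 1 _ h1
      intro h0
      rw [h0, zero_div, map_zero] at hval
      exact div_ne_zero (ModularForm.discriminant_ne_zero _) (ModularForm.discriminant_ne_zero _)
        hval
    refine ⟨hR0, fun cu hcu => ?_⟩
    have hmul : cu * veluRatio T Q p ≠ 0 := by rw [hcu]; exact hpb
    have hcu0 : cu ≠ 0 := left_ne_zero_of_mul hmul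
    have e : veluRatio T Q p / (p : Kbar) ^ 12 = cu⁻¹ := by
      rw [← hcu]
      field_simp
    rw [e] at h1
    refine ⟨h1, ?_⟩
    have := ord_inv_sub_inv_pos _ (inv_ne_zero hcu0) h1
    rwa [inv_inv] at this

/-- **the interface of chapter (MOD-glob)**: a place `x` of `X₀(p)` with `cl x P0` rational, with
`j(x) = j(E)` and `u_p(x) = veluRatio / p¹²` (both forms). -/
theorem exists_rational_place (hp : p.Prime) (hodd : Odd p) (W : WeierstrassCurve ℤ)
    (hΔ : W.Δ ≠ 0) (Q : ((W.map (Int.castRingHom ℚ))⁄(AlgebraicClosure ℚ)).Point)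
    (hQfix : ∀ σ : GQ, σ • Q = Q) (hQ : addOrderOf Q = p)
    (A : ValuationSubring Qb) (hpA : A.valuation (p : Qb) = 1) {cj : Qb}
    (hcj : cj * ((W.Δ : ℤ) : Qb) = ((W.c₄ : ℤ) : Qb) ^ 3) (hcjA : cj ∉ A) :
    ∃ x : Pl p, IsRat p (cl p x (P0 p hp)) ∧
      0 < x.ord (jF p - algebraMap Qb (FF p) cj) ∧
      ∀ T : Fin 3 → ((W.map (Int.castRingHom ℚ))⁄(AlgebraicClosure ℚ)).Point, IsTwoTors T →
        ∀ cu : Qb, cu * veluRatio T Q p = (p : Qb) ^ 12 →
          0 < x.ord (uF p - algebraMap Qb (FF p) cu⁻¹) ∧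
          0 < x.ord ((uF p)⁻¹ - algebraMap Qb (FF p) cu) := by
  obtain ⟨x, hfix, hj, hu⟩ := exists_fixed_place p hp hodd W hΔ Q hQfix hQ A hpA hcj hcjA
  refine ⟨x, fun σ => ?_, hj, fun T hT => (hu T hT).2⟩
  rw [gal_smul_cl, gal_smul_P0, hfix σ]

end Fermat.Agent.M15.ModGlob7
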