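/-
M15 / R1-(MOD) COMPLETE (helper8 + helper7): the field `ModPointOdd` of the reference wiring
`Wire0.Contracts'` for the concrete cusps `P0`, `Pinf` (`M15/CuspTors0`) and the concrete
reduction package `redAt p` (`M15/RedAt9`), UNCONDITIONALLY:

  `modPointOdd_final (p) (hp : p.Prime) (hp' : p ∉ {2,3,5,7,13}) W Q (hΔ) (hQfix) (hQord) :
      Wire0.ModPointOdd p W Q (P0 p hp) (Pinf p) (redAt p)`

= `ModFinal8.modPointOdd_field` applied to helper7's `ModGlob7.exists_rational_place`.
Imported by no statement.
-/
import Mathlib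
import Fermat.Agent.M15.ModFinal8
import Fermat.Agent.M15.ModGlob7

set_option autoImplicit false
set_option linter.unusedSectionVars false
set_option linter.unusedVariables false
set_option linter.style.haveILetI false
set_option linter.style.longLine false
set_option synthInstance.maxHeartbeats 400000

open WeierstrassCurve WeierstrassCurve.Affine

noncomputable section

namespace Fermat.Agent.M15.ModComplete8

open Fermat.Agent.M15.Contracts9 Fermat.Agent.M15.CuspTors0 Fermat.Agent.M15.RedAt9
open Fermat.Agent.M15.ModFinal8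

variable (p : ℕ) [NeZero p]

/-- (MOD-glob), in the form consumed by `ModFinal8`. -/
theorem globStatement (hp : p.Prime) (hodd : Odd p) : GlobStatement p hp :=
  fun W hΔ Q hQfix hQ A hpA _ hcj hcjA =>
    Fermat.Agent.M15.ModGlob7.exists_rational_place p hp hodd W hΔ Q hQfix hQ A hpA hcj hcjA

/-- **(MOD), complete**: the field `ModPointOdd` of `Wire0.Contracts'`. -/
theorem modPointOdd_final (hp : p.Prime) (hp' : p ∉ ({2, 3, 5, 7, 13} : Finset ℕ)) :
    ∀ (W : WeierstrassCurve ℤ) (Q : ((W.map (Int.castRingHom ℚ))⁄(AlgebraicClosure ℚ)).Point),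
      W.Δ ≠ 0 → (∀ σ : GQ, σ • Q = Q) → addOrderOf Q = p →
      Fermat.Agent.M15.Wire0.ModPointOdd p W Q (P0 p hp) (Pinf p) (redAt p) := by
  have hp2 : p ≠ 2 := by
    intro h; apply hp'; simp [h]
  exact modPointOdd_field p hp hp' (globStatement p hp (hp.odd_of_ne_two hp2))

end Fermat.Agent.M15.ModComplete8
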