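/-
Programme M15 (target S15), chapter (DEV) abstract Selmer dévissage, helper5: **definitions**.

Vocabulary of `W56/Defs9` (`H1g T M`, `H1D M q`, `H1I M q`, `resD`, `resDI`, `H1ur`), `Γ = Gal(ℚ̄/ℚ)`,
`k` any commutative ring, `M : Rep k Γ`.

* `H1A M`, `resA` : the cohomology of the decomposition group `⟨c⟩` at the real place;
* `LocCond M` : a family of local conditions (`L q ≤ H1D M q` for every prime, `L.inf ≤ H1A M`);
* `SelL T M L ≤ H1g T M` : the Selmer group; `mapG`, `mapD`, `mapI`, `mapA` and their compatibility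
  with the restriction maps; `LocCond.comapL` (preimage, for a SUB), `LocCond.mapL` (image, for a
  QUOTIENT);
* `invMapR`, `ker_invMapR`, `ker_delta0R` : invariants and the connecting map over a commutative ring
  (`W56/ChiLev4` has them over a field);
* `H0`, `H0I`, `ramL` and **the dévissage predicate `XiLe T p ℓ M L e`**:
  `#H¹_L(M) · ℓ^e · #M^{I_p} ≤ #H⁰(M) · #res_{I_p}(L_p) · #M`, all groups finite.
-/
import Mathlib
import Fermat.Agent.W56.Defs9

set_option autoImplicit false
set_option linter.unusedSectionVars false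

open CategoryTheory ExtCitation

namespace Fermat.Agent.M15.DevDefs5

open Fermat.Agent.PT.PRO Fermat.Agent.PT.BR Fermat.Agent.W56.Defs9
open Fermat.Agent.PT.PRO.LevelCoh28 Fermat.Agent.PT.PRO.LevelCohRes28

local notation "Γ" => (AlgebraicClosure ℚ ≃ₐ[ℚ] AlgebraicClosure ℚ)
local notation "Qbar" => AlgebraicClosure ℚ

noncomputable section

variable {k : Type} [CommRing k]

/-- `H¹(⟨c⟩, M)`, `c` the complex conjugation (level classes). -/
abbrev H1A (M : Rep k Γ) : Type :=
  LevelCoh28.H1 (LevelBridge13.pullBasis archimedeanLoc) (Rep.res archimedeanLoc M)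

/-- restriction to the decomposition group at the real place. -/
def resA (T : Finset Nat.Primes) (M : Rep k Γ) : H1g T M →ₗ[k] H1A M :=
  ShaBridge13.resH1 T archimedeanLoc M

/-- a family of local conditions: one for each prime, and one at the real place. -/
structure LocCond (M : Rep k Γ) where
  /-- the condition at the prime `q` -/
  fin : ∀ q : Nat.Primes, Submodule k (H1D M q)
  /-- the condition at the real place -/
  inf : Submodule k (H1A M)

instance (M : Rep k Γ) : CoeFun (LocCond M) fun _ => ∀ q : Nat.Primes, Submodule k (H1D M q) :=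
  ⟨LocCond.fin⟩

/-- `H¹_L(G_T, M)`: the classes whose restriction at every `q ∈ T` lies in `L q`, and whose
restriction at the real place lies in `L.inf`. -/
def SelL (T : Finset Nat.Primes) (M : Rep k Γ) (L : LocCond M) : Submodule k (H1g T M) :=
  (⨅ q ∈ T, (L q).comap (resD T M q)) ⊓ L.inf.comap (resA T M)

theorem mem_SelL_iff {T : Finset Nat.Primes} {M : Rep k Γ} {L : LocCond M} (x : H1g T M) :
    x ∈ SelL T M L ↔ (∀ q ∈ T, resD T M q x ∈ L q) ∧ resA T M x ∈ L.inf := by
  simp only [SelL, Submodule.mem_inf, Submodule.mem_iInf, Submodule.mem_comap]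

section Maps

variable {A B : Rep k Γ} (φ : A →ₗ[k] B) (hφ : ∀ g a, φ (A.ρ g a) = B.ρ g (φ a))

/-- the map induced on `H¹(G_T, -)`. -/
def mapG (T : Finset Nat.Primes) : H1g T A →ₗ[k] H1g T B :=
  LevelCoh28.mapH1 (𝓑 := LevelBridge13.globalBasis T) φ hφ

/-- the map induced on `H¹(D_q, -)`. -/
def mapD (q : Nat.Primes) : H1D A q →ₗ[k] H1D B q :=
  LevelCoh28.mapH1 (𝓑 := LevelBridge13.pullBasis (locD q)) (A := Rep.res (locD q) A)
    (B := Rep.res (locD q) B) φ (fun g a => hφ (locD q g) a)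

/-- the map induced on `H¹(I_q, -)`. -/
def mapI (q : Nat.Primes) : H1I A q →ₗ[k] H1I B q :=
  LevelCoh28.mapH1 (𝓑 := LevelBridge13.pullBasis (locI q)) (A := Rep.res (locI q) A)
    (B := Rep.res (locI q) B) φ (fun g a => hφ (locI q g) a)

theorem resD_mapG (T : Finset Nat.Primes) (q : Nat.Primes) (x : H1g T A) :
    resD T B q (mapG φ hφ T x) = mapD φ hφ q (resD T A q x) := by
  exact ppH1_mapH1 (locD q) (ShaBridge13.isLevelHom_pull T (locD q)) φ hφ
    (A' := Rep.res (locD q) A) (B' := Rep.res (locD q) B) φ (fun g a => hφ (locD q g) a)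
    (LinearMap.id : A →ₗ[k] Rep.res (locD q) A) (fun _ _ => rfl)
    (LinearMap.id : B →ₗ[k] Rep.res (locD q) B) (fun _ _ => rfl) (fun _ => rfl) x

theorem resDI_mapD (q : Nat.Primes) (x : H1D A q) :
    resDI B q (mapD φ hφ q x) = mapI φ hφ q (resDI A q x) := by
  exact ppH1_mapH1 (inertia q).subtype (isLevelHom_inertia q)
    (A := Rep.res (locD q) A) (B := Rep.res (locD q) B) φ (fun g a => hφ (locD q g) a)
    (A' := Rep.res (locI q) A) (B' := Rep.res (locI q) B) φ (fun g a => hφ (locI q g) a)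
    (LinearMap.id : Rep.res (locD q) A →ₗ[k] Rep.res (locI q) A) (fun _ _ => rfl)
    (LinearMap.id : Rep.res (locD q) B →ₗ[k] Rep.res (locI q) B) (fun _ _ => rfl)
    (fun _ => rfl) x

/-- the map induced on `H¹(⟨c⟩, -)`. -/
def mapA : H1A A →ₗ[k] H1A B :=
  LevelCoh28.mapH1 (𝓑 := LevelBridge13.pullBasis archimedeanLoc) (A := Rep.res archimedeanLoc A)
    (B := Rep.res archimedeanLoc B) φ (fun g a => hφ (archimedeanLoc g) a)

theorem resA_mapG (T : Finset Nat.Primes) (x : H1g T A) :
    resA T B (mapG φ hφ T x) = mapA φ hφ (resA T A x) := by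
  exact ppH1_mapH1 archimedeanLoc (ShaBridge13.isLevelHom_pull T archimedeanLoc) φ hφ
    (A' := Rep.res archimedeanLoc A) (B' := Rep.res archimedeanLoc B) φ
    (fun g a => hφ (archimedeanLoc g) a)
    (LinearMap.id : A →ₗ[k] Rep.res archimedeanLoc A) (fun _ _ => rfl)
    (LinearMap.id : B →ₗ[k] Rep.res archimedeanLoc B) (fun _ _ => rfl) (fun _ => rfl) x

/-- the induced condition on a submodule: preimage. -/
def LocCond.comapL (L : LocCond B) : LocCond A where
  fin q := (L q).comap (mapD φ hφ q)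
  inf := L.inf.comap (mapA φ hφ)

/-- the induced condition on a quotient: image. -/
def LocCond.mapL (L : LocCond A) : LocCond B where
  fin q := (L q).map (mapD φ hφ q)
  inf := L.inf.map (mapA φ hφ)

end Maps


/-! ### invariants and the connecting map, over a commutative ring -/

section Inv

universe u

variable {R G : Type u} [CommRing R] [Group G] {𝓑 : LevelBasis G} {A B C : Rep.{u} R G}
  (φ : A →ₗ[R] B) (hφ : ∀ g a, φ (A.ρ g a) = B.ρ g (φ a))
  (ψ : B →ₗ[R] C) (hψ : ∀ g b, ψ (B.ρ g b) = C.ρ g (ψ b))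
  (hinj : Function.Injective φ) (hsurj : Function.Surjective ψ)
  (hex : ∀ b, ψ b = 0 ↔ ∃ a, φ a = b) (hB : IsDiscrete 𝓑.sets B)

/-- The map induced on invariants by an equivariant linear map. -/
def invMapR : ↥A.ρ.invariants →ₗ[R] ↥B.ρ.invariants :=
  (φ ∘ₗ A.ρ.invariants.subtype).codRestrict B.ρ.invariants fun a g => by
    show B.ρ g (φ a.1) = φ a.1
    rw [← hφ, a.2 g]

@[simp] theorem invMapR_coe (a : ↥A.ρ.invariants) : (invMapR φ hφ a : B) = φ a.1 := rfl

include hinj in
theorem invMapR_injective : Function.Injective (invMapR φ hφ) := fun _ _ h =>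
  Subtype.ext (hinj (congrArg Subtype.val h))

include hinj hex in
theorem ker_invMapR : LinearMap.ker (invMapR ψ hψ) = LinearMap.range (invMapR φ hφ) := by
  ext b
  rw [LinearMap.mem_ker, LinearMap.mem_range]
  constructor
  · intro h
    have h0 : ψ b.1 = 0 := congrArg Subtype.val h
    obtain ⟨a, ha⟩ := (hex b.1).1 h0
    refine ⟨⟨a, fun g => hinj ?_⟩, Subtype.ext ha⟩
    rw [hφ, ha, b.2 g]
  · rintro ⟨a, rfl⟩
    exact Subtype.ext ((hex _).2 ⟨a.1, rfl⟩)

include hφ hψ hinj hex hB in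
theorem ker_delta0R :
    LinearMap.ker (delta0 φ hφ ψ hψ hinj hsurj hex hB) = LinearMap.range (invMapR ψ hψ) := by
  ext c
  rw [LinearMap.mem_ker, delta0_eq_zero_iff φ hφ ψ hψ hinj hsurj hex hB, LinearMap.mem_range]
  constructor
  · rintro ⟨b, hb, hbc⟩
    exact ⟨⟨b, hb⟩, Subtype.ext hbc⟩
  · rintro ⟨b, rfl⟩
    exact ⟨b.1, b.2, rfl⟩

end Inv

/-- `H⁰(ℚ, M)`. -/
abbrev H0 (M : Rep k Γ) : Submodule k M := M.ρ.invariants

/-- `H⁰(I_q, M)`. -/
abbrev H0I (M : Rep k Γ) (q : Nat.Primes) : Submodule k M := (Rep.res (locI q) M).ρ.invariants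

/-- the ramification of a local condition at `q`: its image in `H¹(I_q, M)`. -/
def ramL (M : Rep k Γ) (L : LocCond M) (q : Nat.Primes) : Submodule k (H1I M q) :=
  (L q).map (resDI M q)

/-- **the dévissage predicate**:
`#H¹_L(M) · ℓ^e · #M^{I_p} ≤ #H⁰(M) · #res_{I_p}(L_p) · #M`, all groups finite. -/
structure XiLe (T : Finset Nat.Primes) (p : Nat.Primes) (ℓ : ℕ) (M : Rep k Γ) (L : LocCond M)
    (e : ℕ) : Prop where
  finM : Finite M
  finSel : Finite ↥(SelL T M L)
  finLoc : Finite (H1D M p)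
  le : Nat.card ↥(SelL T M L) * ℓ ^ e * Nat.card ↥(H0I M p) ≤
    Nat.card ↥(H0 M) * Nat.card ↥(ramL M L p) * Nat.card M

end

end Fermat.Agent.M15.DevDefs5
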