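/-
Programme M15 (target S15), chapter (KUM), helper6: **the objects of the Kummer descent**.

`Γ = Gal(ℚ̄/ℚ)` acts on an abelian group `J` (`= J_0(p)(ℚ̄)`), a ring `𝕋` (the Hecke ring, NOT
assumed commutative) acts on `J` commuting with `Γ`, `ε : 𝕋 →+* ZMod ℓ` is the Eisenstein
character.

* `fixedPts J` (`= J(ℚ)`), `IsSmoothAct J`, `CommOnTors J 𝕋 ℓ` (commutativity on `J[ℓ^∞]`);
* `torsK J 𝕋 ℓ k = J[ℓ^k]` (a `𝕋`-submodule), `kerE J ℓ ε k = J[ℓ^k]_ε` (the generalised
  `ε`-eigenspace, an additive subgroup stable under `Γ`);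
* `GRep J ℓ ε k : Rep ℤ Γ`, the Galois module `G_k = J[ℓ^k]_ε`, `gval : G_k → J`;
* `UnramOutside J ℓ ε k T`: no ramification outside `T` in the direction of `G_k`;
* `exists_globalSets_le`: a subgroup of `Γ` which is open and contains all the inertia groups outside
  `T` contains `Gal(ℚ̄/F)` for a finite `F` unramified outside `T`;
* `isDiscrete_GRep`: `G_k` is a discrete `G_T`-module; `finite_torsK`, `finite_GRep`.
-/
import Mathlib
import Fermat.Agent.W56.Defs9
import Fermat.Agent.M15.KumLoc6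

set_option autoImplicit false
set_option linter.unusedSectionVars false
set_option linter.style.haveILetI false

open CategoryTheory ExtCitation

namespace Fermat.Agent.M15.KumRep6

open Fermat.Agent.PT.PRO Fermat.Agent.PT.BR Fermat.Agent.W56.Defs9 Fermat.Agent.M15.KumLoc6

local notation "Γ" => (AlgebraicClosure ℚ ≃ₐ[ℚ] AlgebraicClosure ℚ)
local notation "Qbar" => AlgebraicClosure ℚ

local instance isAlgClosureQbarK6 : IsAlgClosure ℚ Qbar := ⟨inferInstance, inferInstance⟩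
local instance isGaloisQbarK6 : IsGalois ℚ Qbar := IsAlgClosure.isGalois ℚ Qbar

noncomputable section

/-! ### Open subgroups containing the inertia groups outside `T` -/

section Open

variable (T : Finset Nat.Primes)

/-- A subgroup of `Γ` containing `Gal(ℚ̄/F₀)` for a finite `F₀` and all the inertia groups at the
primes outside `T` contains `Gal(ℚ̄/F)` for a finite `F` unramified outside `T`. -/
theorem exists_globalSets_le (H : Subgroup Γ)
    (hopen : ∃ F₀ : IntermediateField ℚ Qbar, FiniteDimensional ℚ F₀ ∧ F₀.fixingSubgroup ≤ H)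
    (hI : ∀ q : Nat.Primes, q ∉ T → ∀ A : ValuationSubring Qbar, A.LiesOverPrime (q : ℕ) →
      A.inertiaSubgroupIn ℚ ≤ H) :
    ∃ U ∈ LevelBridge13.globalSets T, U ≤ H := by
  obtain ⟨F₀, hF₀, hle⟩ := hopen
  have hopen' : IsOpen (H : Set Γ) :=
    Subgroup.isOpen_mono hle (IntermediateField.fixingSubgroup_isOpen F₀)
  have hclosed : IsClosed (H : Set Γ) := Subgroup.isClosed_of_isOpen H hopen'
  have hfix : (IntermediateField.fixedField H).fixingSubgroup = H :=
    InfiniteGalois.fixingSubgroup_fixedField ⟨H, hclosed⟩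
  have hF₁le : IntermediateField.fixedField H ≤ F₀ := by
    intro x hx
    rw [IntermediateField.mem_fixedField_iff] at hx
    rw [← InfiniteGalois.fixedField_fixingSubgroup F₀, IntermediateField.mem_fixedField_iff]
    intro s hs
    exact hx s (hle hs)
  have hfd : FiniteDimensional ℚ (IntermediateField.fixedField H) :=
    FiniteDimensional.of_injective (IntermediateField.inclusion hF₁le).toLinearMap
      (IntermediateField.inclusion_injective hF₁le)
  refine ⟨_, ⟨IntermediateField.fixedField H, ⟨hfd, fun q hq A hA => ?_⟩, rfl⟩, hfix.le⟩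
  rw [hfix]
  exact hI q hq A hA

end Open

/-! ### The objects -/

section Defs

variable (J : Type) [AddCommGroup J] [DistribMulAction Γ J]

/-- `J(ℚ) = J^Γ`. -/
def fixedPts : AddSubgroup J where
  carrier := {x | ∀ g : Γ, g • x = x}
  zero_mem' := fun g => smul_zero g
  add_mem' := fun hx hy g => by rw [smul_add, hx g, hy g]
  neg_mem' := fun hx g => by rw [smul_neg, hx g]

variable {J} in
theorem mem_fixedPts_iff (x : J) : x ∈ fixedPts J ↔ ∀ g : Γ, g • x = x := Iff.rfl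

/-- `J` is a smooth `Γ`-module: every point is fixed by `Gal(ℚ̄/F)` for some finite `F`. -/
def IsSmoothAct : Prop :=
  ∀ x : J, ∃ F : IntermediateField ℚ Qbar, FiniteDimensional ℚ F ∧
    ∀ s ∈ F.fixingSubgroup, s • x = x

variable (𝕋 : Type) [Ring 𝕋] [Module 𝕋 J] [SMulCommClass Γ 𝕋 J] (ℓ : ℕ)

/-- `𝕋` acts commutatively on `J[ℓ^∞]`. -/
def CommOnTors : Prop :=
  ∀ (s t : 𝕋) (x : J), (∃ j : ℕ, ℓ ^ j • x = 0) → s • t • x = t • s • x

/-- `J[ℓ^k]`, a `𝕋`-submodule. -/
def torsK (k : ℕ) : Submodule 𝕋 J where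
  carrier := {x | ℓ ^ k • x = 0}
  zero_mem' := smul_zero _
  add_mem' := fun {x y} hx hy => by
    have hx' : ℓ ^ k • x = 0 := hx
    have hy' : ℓ ^ k • y = 0 := hy
    show ℓ ^ k • (x + y) = 0
    rw [smul_add, hx', hy', add_zero]
  smul_mem' := fun s x hx => by
    have hx' : ℓ ^ k • x = 0 := hx
    show ℓ ^ k • (s • x) = 0
    rw [smul_comm, hx', smul_zero]

variable {J 𝕋 ℓ} in
theorem mem_torsK_iff {k : ℕ} (x : J) : x ∈ torsK J 𝕋 ℓ k ↔ ℓ ^ k • x = 0 := Iff.rfl

variable {J 𝕋 ℓ} in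
theorem torsK_mono {k k' : ℕ} (h : k ≤ k') : torsK J 𝕋 ℓ k ≤ torsK J 𝕋 ℓ k' := by
  intro x hx
  obtain ⟨d, rfl⟩ := Nat.exists_eq_add_of_le h
  rw [mem_torsK_iff] at hx ⊢
  rw [pow_add, mul_comm, mul_smul, hx, smul_zero]

variable {J 𝕋 ℓ} in
theorem smul_mem_torsK {k : ℕ} (g : Γ) {x : J} (hx : x ∈ torsK J 𝕋 ℓ k) :
    g • x ∈ torsK J 𝕋 ℓ k := by
  rw [mem_torsK_iff] at hx ⊢
  rw [smul_comm, hx, smul_zero]

variable {𝕋 ℓ}
variable (ε : 𝕋 →+* ZMod ℓ) (k : ℕ)

/-- `G_k = J[ℓ^k]_ε`: the points of `J[ℓ^k]` on which every element of `ker ε` is nilpotent. -/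
def kerE : AddSubgroup J where
  carrier := {x | ℓ ^ k • x = 0 ∧ ∀ a : 𝕋, ε a = 0 → ∃ N : ℕ, a ^ N • x = 0}
  zero_mem' := ⟨smul_zero _, fun _ _ => ⟨0, smul_zero _⟩⟩
  add_mem' := by
    rintro x y ⟨hx, hx'⟩ ⟨hy, hy'⟩
    refine ⟨by rw [smul_add, hx, hy, add_zero], fun a ha => ?_⟩
    obtain ⟨N, hN⟩ := hx' a ha
    obtain ⟨N', hN'⟩ := hy' a ha
    exact ⟨N + N', by
      rw [smul_add, pow_smul_eq_zero_of_le hN (Nat.le_add_right N N'),
        pow_smul_eq_zero_of_le hN' (Nat.le_add_left N' N), add_zero]⟩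
  neg_mem' := by
    rintro x ⟨hx, hx'⟩
    refine ⟨by rw [smul_neg, hx, neg_zero], fun a ha => ?_⟩
    obtain ⟨N, hN⟩ := hx' a ha
    exact ⟨N, by rw [smul_neg, hN, neg_zero]⟩

variable {J ε k} in
theorem mem_kerE_iff (x : J) :
    x ∈ kerE J ε k ↔ ℓ ^ k • x = 0 ∧ ∀ a : 𝕋, ε a = 0 → ∃ N : ℕ, a ^ N • x = 0 := Iff.rfl

variable {J ε k} in
theorem kerE_le_torsK {x : J} (hx : x ∈ kerE J ε k) : x ∈ torsK J 𝕋 ℓ k := hx.1

variable {J ε k} in
/-- `G_k` is stable under `Γ`. -/
theorem smul_mem_kerE (g : Γ) {x : J} (hx : x ∈ kerE J ε k) : g • x ∈ kerE J ε k := by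
  refine ⟨by rw [smul_comm, hx.1, smul_zero], fun a ha => ?_⟩
  obtain ⟨N, hN⟩ := hx.2 a ha
  exact ⟨N, by rw [← smul_comm, hN, smul_zero]⟩

variable {J ε k} in
/-- `G_k` is stable under `𝕋` (commutativity on torsion). -/
theorem tsmul_mem_kerE (hcomm : CommOnTors J 𝕋 ℓ) (s : 𝕋) {x : J} (hx : x ∈ kerE J ε k) :
    s • x ∈ kerE J ε k := by
  refine ⟨by rw [smul_comm, hx.1, smul_zero], fun a ha => ?_⟩
  obtain ⟨N, hN⟩ := hx.2 a ha
  exact ⟨N, by rw [hcomm _ _ _ ⟨k, hx.1⟩, hN, smul_zero]⟩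

/-- The relation with the eigenpart of the finite `𝕋`-module `J[ℓ^j]`. -/
theorem mem_eigenPart_torsK_iff {j : ℕ} (x : ↥(torsK J 𝕋 ℓ j)) :
    x ∈ eigenPart ℓ ε ↥(torsK J 𝕋 ℓ j) ↔ ∀ a : 𝕋, ε a = 0 → ∃ N : ℕ, a ^ N • (x : J) = 0 := by
  constructor
  · intro h a ha
    obtain ⟨N, hN⟩ := h a ha
    exact ⟨N, by simpa using congrArg Subtype.val hN⟩
  · intro h a ha
    obtain ⟨N, hN⟩ := h a ha
    exact ⟨N, Subtype.ext (by simpa using hN)⟩

/-- The action of `Γ` on a `Γ`-stable subgroup, as a representation over `ℤ`. -/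
def subRepr (H : AddSubgroup J) (hH : ∀ (g : Γ), ∀ x ∈ H, g • x ∈ H) : Representation ℤ Γ ↥H where
  toFun g := AddMonoidHom.toIntLinearMap
    { toFun := fun x => ⟨g • (x : J), hH g x x.2⟩
      map_zero' := Subtype.ext (smul_zero g)
      map_add' := fun x y => Subtype.ext (smul_add g (x : J) (y : J)) }
  map_one' := by
    ext x
    exact one_smul Γ (x : J)
  map_mul' g g' := by
    ext x
    exact mul_smul g g' (x : J)

theorem coe_subRepr (H : AddSubgroup J) (hH : ∀ (g : Γ), ∀ x ∈ H, g • x ∈ H) (g : Γ) (x : ↥H) :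
    ((subRepr J H hH g x : ↥H) : J) = g • (x : J) := rfl

/-- The Galois action on `G_k`. -/
def ρG : Representation ℤ Γ ↥(kerE J ε k) := subRepr J (kerE J ε k) (fun g _ hx => smul_mem_kerE g hx)

/-- `G_k = J[ℓ^k]_ε` as a `Γ`-module. -/
def GRep : Rep ℤ Γ := Rep.of (ρG J ε k)

/-- The underlying point of `J` of an element of `G_k`. -/
def gval (x : GRep J ε k) : J := (show ↥(kerE J ε k) from x).1

/-- An element of `G_k` from a point of `J`. -/
def gmk (x : J) (hx : x ∈ kerE J ε k) : GRep J ε k := (⟨x, hx⟩ : ↥(kerE J ε k))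

variable {J ε k}

@[simp] theorem gval_gmk (x : J) (hx : x ∈ kerE J ε k) : gval J ε k (gmk J ε k x hx) = x := rfl

theorem gval_mem (x : GRep J ε k) : gval J ε k x ∈ kerE J ε k := (show ↥(kerE J ε k) from x).2

theorem gval_injective : Function.Injective (gval J ε k) := fun _ _ h => Subtype.ext h

@[simp] theorem gval_zero : gval J ε k 0 = 0 := rfl

@[simp] theorem gval_add (x y : GRep J ε k) : gval J ε k (x + y) = gval J ε k x + gval J ε k y := rfl

@[simp] theorem gval_sub (x y : GRep J ε k) : gval J ε k (x - y) = gval J ε k x - gval J ε k y := rfl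

@[simp] theorem gval_neg (x : GRep J ε k) : gval J ε k (-x) = -gval J ε k x := rfl

@[simp] theorem gval_ρ (g : Γ) (x : GRep J ε k) :
    gval J ε k ((GRep J ε k).ρ g x) = g • gval J ε k x := rfl

theorem gmk_gval (x : GRep J ε k) : gmk J ε k (gval J ε k x) (gval_mem x) = x := rfl

variable (J ε k)

/-- "No ramification outside `T` in the direction of `G_k`": an inertia element at a prime outside
`T` which moves a point by an element of `G_k` does not move it at all.  (For `J = J_0(p)(ℚ̄)` and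
`T = {p, ℓ}` this is `inertia_comm` + `injective_torsion` of `ModularCurve.IsSpecialization`.) -/
def UnramOutside (T : Finset Nat.Primes) : Prop :=
  ∀ q : Nat.Primes, q ∉ T → ∀ A : ValuationSubring Qbar, A.LiesOverPrime (q : ℕ) →
    ∀ σ ∈ A.inertiaSubgroupIn ℚ, ∀ y : J, σ • y - y ∈ kerE J ε k → σ • y - y = 0

/-- `s • ·` on `G_k`, as a map of `Γ`-modules. -/
def smulG (hcomm : CommOnTors J 𝕋 ℓ) (s : 𝕋) : GRep J ε k →ₗ[ℤ] GRep J ε k :=
  AddMonoidHom.toIntLinearMap
    { toFun := fun x => gmk J ε k (s • gval J ε k x) (tsmul_mem_kerE hcomm s (gval_mem x))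
      map_zero' := gval_injective (by simp)
      map_add' := fun x y => gval_injective (by simp [smul_add]) }

variable {J ε k}

@[simp] theorem gval_smulG (hcomm : CommOnTors J 𝕋 ℓ) (s : 𝕋) (x : GRep J ε k) :
    gval J ε k (smulG J ε k hcomm s x) = s • gval J ε k x := rfl

theorem smulG_comm (hcomm : CommOnTors J 𝕋 ℓ) (s : 𝕋) (g : Γ) (a : GRep J ε k) :
    smulG J ε k hcomm s ((GRep J ε k).ρ g a) = (GRep J ε k).ρ g (smulG J ε k hcomm s a) :=
  gval_injective (by simp [smul_comm])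

end Defs

/-! ### Finiteness and discreteness -/

section Finite

variable {J : Type} [AddCommGroup J] [DistribMulAction Γ J]
  {𝕋 : Type} [Ring 𝕋] [Module 𝕋 J] [SMulCommClass Γ 𝕋 J] {ℓ : ℕ} (ε : 𝕋 →+* ZMod ℓ)

/-- `J[ℓ^k]` is finite as soon as `J[ℓ]` is. -/
theorem finite_torsK (hfin : Finite {x : J // ℓ • x = 0}) (k : ℕ) : Finite ↥(torsK J 𝕋 ℓ k) := by
  induction k with
  | zero =>
    have : Subsingleton ↥(torsK J 𝕋 ℓ 0) := by
      refine ⟨fun x y => Subtype.ext ?_⟩
      have hx : ℓ ^ 0 • (x : J) = 0 := x.2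
      have hy : ℓ ^ 0 • (y : J) = 0 := y.2
      rw [pow_zero, one_smul] at hx hy
      rw [hx, hy]
    exact Finite.of_subsingleton
  | succ k ih =>
    -- `x ↦ ℓ • x : J[ℓ^(k+1)] → J[ℓ^k]` has finite fibres (torsors under `J[ℓ]`)
    let f : ↥(torsK J 𝕋 ℓ (k + 1)) → ↥(torsK J 𝕋 ℓ k) := fun x =>
      ⟨ℓ • (x : J), by
        have hx : ℓ ^ (k + 1) • (x : J) = 0 := x.2
        show ℓ ^ k • (ℓ • (x : J)) = 0
        rw [← mul_smul, ← pow_succ]
        exact hx⟩
    rw [← Set.finite_univ_iff]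
    refine Set.Finite.of_finite_fibers f (Set.toFinite _) (fun y _ => ?_)
    rw [Set.univ_inter]
    by_cases hne : (f ⁻¹' {y}).Nonempty
    · obtain ⟨x₀, hx₀⟩ := hne
      let g : ↥(f ⁻¹' {y}) → {x : J // ℓ • x = 0} := fun x =>
        ⟨(x.1 : J) - (x₀ : J), by
          have h1 : ℓ • ((x.1 : ↥(torsK J 𝕋 ℓ (k + 1))) : J) = (y : J) :=
            congrArg Subtype.val (show f x.1 = y from x.2)
          have h2 : ℓ • (x₀ : J) = (y : J) := congrArg Subtype.val (show f x₀ = y from hx₀)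
          rw [smul_sub, h1, h2, sub_self]⟩
      have hg : Function.Injective g := by
        intro x x' hxx'
        have h1 : ((x.1 : ↥(torsK J 𝕋 ℓ (k + 1))) : J) - (x₀ : J) = (x'.1 : J) - (x₀ : J) :=
          congrArg Subtype.val hxx'
        exact Subtype.ext (Subtype.ext (sub_left_injective h1))
      exact Finite.of_injective g hg
    · rw [Set.not_nonempty_iff_eq_empty] at hne
      rw [hne]
      exact Set.finite_empty

theorem finite_kerE (hfin : Finite {x : J // ℓ • x = 0}) (k : ℕ) : Finite ↥(kerE J ε k) := by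
  haveI := finite_torsK (𝕋 := 𝕋) hfin k
  exact Finite.of_injective (fun x : ↥(kerE J ε k) => (⟨x.1, kerE_le_torsK x.2⟩ : ↥(torsK J 𝕋 ℓ k)))
    (fun x y h => Subtype.ext (by
      have h1 := congrArg (fun z : ↥(torsK J 𝕋 ℓ k) => (z : J)) h
      exact h1))

theorem finite_GRep (hfin : Finite {x : J // ℓ • x = 0}) (k : ℕ) : Finite (GRep J ε k) :=
  finite_kerE ε hfin k

/-- `G_k` is a discrete `G_T`-module. -/
theorem isDiscrete_GRep (hsm : IsSmoothAct J) (k : ℕ) (T : Finset Nat.Primes)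
    (hunr : UnramOutside J ε k T) :
    LevelCoh28.IsDiscrete (LevelBridge13.globalBasis T).sets (GRep J ε k) := by
  intro a
  -- the stabiliser of `a`
  let H : Subgroup Γ :=
    { carrier := {σ | σ • gval J ε k a = gval J ε k a}
      one_mem' := one_smul _ _
      mul_mem' := fun {σ τ} hσ hτ => by
        have hσ' : σ • gval J ε k a = gval J ε k a := hσ
        have hτ' : τ • gval J ε k a = gval J ε k a := hτ
        show (σ * τ) • gval J ε k a = gval J ε k a
        rw [mul_smul, hτ', hσ']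
      inv_mem' := fun {σ} hσ => by
        have hσ' : σ • gval J ε k a = gval J ε k a := hσ
        show σ⁻¹ • gval J ε k a = gval J ε k a
        rw [inv_smul_eq_iff, hσ'] }
  obtain ⟨F₀, hF₀, hfix⟩ := hsm (gval J ε k a)
  obtain ⟨U, hU, hUH⟩ := exists_globalSets_le T H ⟨F₀, hF₀, fun s hs => hfix s hs⟩
    (fun q hq A hA σ hσ => by
      have h1 : σ • gval J ε k a - gval J ε k a ∈ kerE J ε k :=
        (kerE J ε k).sub_mem (smul_mem_kerE σ (gval_mem a)) (gval_mem a)
      exact sub_eq_zero.1 (hunr q hq A hA σ hσ (gval J ε k a) h1))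
  exact ⟨U, hU, fun s hs => gval_injective (hUH hs)⟩

end Finite

end

end Fermat.Agent.M15.KumRep6
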