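/-
Programme M15 (target S15), chapter (KUM), helper6: **the `ε`-part of the `ℓ^k`-Kummer map**
`kum : J(ℚ) → H¹(G_T, G_k)`, `G_k = J[ℓ^k]_ε`.

For `x ∈ J(ℚ)` choose `z` with `ℓ^k z = x` and a projector `e : 𝕋` of `J[ℓ^k]` onto `G_k`; then
`σ ↦ e (σ z − z)` is a 1-cocycle with values in `G_k`, of a level unramified outside `T`
(`UnramOutside`), and its class depends neither on `z` nor on `e`.

* `IsProjK`, `exists_isProjK`, `isProjK_eq` : the projectors;
* `kcoc`, `kcoc_mem_Z1` : the cocycle; `kumClass` its class, `kumClass_eq` independence;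
* `kum : ↥(fixedPts J) →+ H1g T (GRep J ε k)`, `kum_eq` (KUM-1), `kum_eq_zero_iff` (KUM-2).
-/
import Mathlib
import Fermat.Agent.M15.KumRep6

set_option autoImplicit false
set_option linter.unusedSectionVars false
set_option linter.style.haveILetI false

open CategoryTheory ExtCitation groupCohomology

namespace Fermat.Agent.M15.KumMap6

open Fermat.Agent.PT.PRO Fermat.Agent.PT.BR Fermat.Agent.W56.Defs9 Fermat.Agent.M15.KumLoc6
  Fermat.Agent.M15.KumRep6

local notation "Γ" => (AlgebraicClosure ℚ ≃ₐ[ℚ] AlgebraicClosure ℚ)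
local notation "Qbar" => AlgebraicClosure ℚ

noncomputable section

variable {J : Type} [AddCommGroup J] [DistribMulAction Γ J]
  {𝕋 : Type} [Ring 𝕋] [Module 𝕋 J] [SMulCommClass Γ 𝕋 J] {ℓ : ℕ} [Fact ℓ.Prime]
  (ε : 𝕋 →+* ZMod ℓ) (k : ℕ)

/-! ### Projectors of `J[ℓ^k]` onto `G_k` -/

variable (J) in
/-- `e` maps `J[ℓ^k]` into `G_k` and is the identity on `G_k`. -/
structure IsProjK (e : 𝕋) : Prop where
  mem : ∀ u : J, ℓ ^ k • u = 0 → e • u ∈ kerE J ε k
  id : ∀ u ∈ kerE J ε k, e • u = u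

/-- Existence of a projector with `ε e = 1`. -/
theorem exists_isProjK (hfin : Finite {x : J // ℓ • x = 0}) (hcomm : CommOnTors J 𝕋 ℓ) :
    ∃ e : 𝕋, ε e = 1 ∧ IsProjK J ε k e := by
  haveI := finite_torsK (𝕋 := 𝕋) hfin k
  have hcomm' : ∀ (s t : 𝕋) (x : ↥(torsK J 𝕋 ℓ k)), s • t • x = t • s • x :=
    fun s t x => Subtype.ext (hcomm s t x ⟨k, x.2⟩)
  obtain ⟨e, he1, hmem, hid⟩ := exists_projector (ε := ε) (F := ↥(torsK J 𝕋 ℓ k)) hcomm'
  refine ⟨e, he1, ⟨fun u hu => ?_, fun u hu => ?_⟩⟩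
  · have h1 := (mem_eigenPart_torsK_iff J ε _).1 (hmem ⟨u, hu⟩)
    have h2 : ℓ ^ k • (e • u) = 0 := (e • (⟨u, hu⟩ : ↥(torsK J 𝕋 ℓ k))).2
    exact ⟨h2, h1⟩
  · have h1 : (⟨u, hu.1⟩ : ↥(torsK J 𝕋 ℓ k)) ∈ eigenPart ℓ ε ↥(torsK J 𝕋 ℓ k) :=
      (mem_eigenPart_torsK_iff J ε _).2 hu.2
    exact congrArg Subtype.val (hid _ h1)

variable {ε k}

/-- Two projectors agree on `J[ℓ^k]`. -/
theorem isProjK_eq (hcomm : CommOnTors J 𝕋 ℓ) {e e' : 𝕋} (he : IsProjK J ε k e)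
    (he' : IsProjK J ε k e') (u : J) (hu : ℓ ^ k • u = 0) : e • u = e' • u := by
  have hv : ℓ ^ k • (u - e • u) = 0 := by
    rw [smul_sub, hu, (he.mem u hu).1, sub_zero]
  have hev : e • (u - e • u) = 0 := by
    rw [smul_sub, he.id _ (he.mem u hu), sub_self]
  have h1 : e • (e' • (u - e • u)) = e' • (u - e • u) := he.id _ (he'.mem _ hv)
  have h2 : e' • (u - e • u) = 0 := by
    rw [← h1, hcomm e e' _ ⟨k, hv⟩, hev, smul_zero]
  rw [smul_sub, he'.id _ (he.mem u hu), sub_eq_zero] at h2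
  exact h2.symm

/-! ### Division -/

theorem exists_pow_div (hdiv : ∀ x : J, ∃ y : J, ℓ • y = x) (k : ℕ) (x : J) :
    ∃ z : J, ℓ ^ k • z = x := by
  induction k generalizing x with
  | zero => exact ⟨x, by rw [pow_zero, one_smul]⟩
  | succ k ih =>
    obtain ⟨y, hy⟩ := hdiv x
    obtain ⟨z, hz⟩ := ih y
    exact ⟨z, by rw [pow_succ, mul_comm, mul_smul, hz, hy]⟩

/-! ### The cocycle -/

/-- `σ ↦ e (σ z − z)`, with values in `J`. -/
def kfun (e : 𝕋) (z : J) (σ : Γ) : J := e • (σ • z - z)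

theorem pow_smul_sub_eq_zero {z : J} (hz : ℓ ^ k • z ∈ fixedPts J) (σ : Γ) :
    ℓ ^ k • (σ • z - z) = 0 := by
  rw [smul_sub, ← smul_comm σ, hz σ, sub_self]

theorem kfun_mem {e : 𝕋} (he : IsProjK J ε k e) {z : J} (hz : ℓ ^ k • z ∈ fixedPts J) (σ : Γ) :
    kfun e z σ ∈ kerE J ε k :=
  he.mem _ (pow_smul_sub_eq_zero hz σ)

/-- The Kummer cocycle with values in `G_k`. -/
def kcoc {e : 𝕋} (he : IsProjK J ε k e) {z : J} (hz : ℓ ^ k • z ∈ fixedPts J) : Γ → GRep J ε k :=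
  fun σ => gmk J ε k (kfun e z σ) (kfun_mem he hz σ)

@[simp] theorem gval_kcoc {e : 𝕋} (he : IsProjK J ε k e) {z : J} (hz : ℓ ^ k • z ∈ fixedPts J)
    (σ : Γ) : gval J ε k (kcoc he hz σ) = e • (σ • z - z) := rfl

theorem kcoc_mul {e : 𝕋} (he : IsProjK J ε k e) {z : J} (hz : ℓ ^ k • z ∈ fixedPts J) (σ τ : Γ) :
    kcoc he hz (σ * τ) = (GRep J ε k).ρ σ (kcoc he hz τ) + kcoc he hz σ := by
  apply gval_injective
  have h1 : (σ * τ) • z - z = σ • (τ • z - z) + (σ • z - z) := by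
    rw [mul_smul, smul_sub]
    abel
  rw [gval_add, gval_ρ, gval_kcoc, gval_kcoc, gval_kcoc, h1, smul_add, smul_comm σ e]

theorem kcoc_mem_cocycles {e : 𝕋} (he : IsProjK J ε k e) {z : J} (hz : ℓ ^ k • z ∈ fixedPts J) :
    kcoc he hz ∈ cocycles₁ (GRep J ε k) :=
  (mem_cocycles₁_iff _).2 (fun σ τ => kcoc_mul he hz σ τ)

/-- The cocycle vanishes on the inertia groups outside `T`. -/
theorem kcoc_eq_zero_of_inertia {T : Finset Nat.Primes} (hunr : UnramOutside J ε k T)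
    {e : 𝕋} (he : IsProjK J ε k e) {z : J} (hz : ℓ ^ k • z ∈ fixedPts J)
    {q : Nat.Primes} (hq : q ∉ T) {A : ValuationSubring Qbar} (hA : A.LiesOverPrime (q : ℕ))
    {σ : Γ} (hσ : σ ∈ A.inertiaSubgroupIn ℚ) : kcoc he hz σ = 0 := by
  apply gval_injective
  rw [gval_kcoc, gval_zero]
  have h1 : σ • (e • z) - e • z = e • (σ • z - z) := by rw [smul_sub, smul_comm σ e]
  have h2 : σ • (e • z) - e • z ∈ kerE J ε k := by
    rw [h1]
    exact kfun_mem he hz σ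
  rw [← h1]
  exact hunr q hq A hA σ hσ (e • z) h2

/-- The cocycle has a level unramified outside `T`. -/
theorem isLevel₁_kcoc (hsm : IsSmoothAct J) {T : Finset Nat.Primes} (hunr : UnramOutside J ε k T)
    {e : 𝕋} (he : IsProjK J ε k e) {z : J} (hz : ℓ ^ k • z ∈ fixedPts J) :
    LevelCoh28.IsLevel₁ (LevelBridge13.globalBasis T).sets (kcoc he hz) := by
  -- the right stabiliser of the cocycle
  let H : Subgroup Γ :=
    { carrier := {s | ∀ g : Γ, kcoc he hz (g * s) = kcoc he hz g}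
      one_mem' := fun g => by rw [mul_one]
      mul_mem' := fun {s t} hs ht g => by
        have hs' : ∀ g : Γ, kcoc he hz (g * s) = kcoc he hz g := hs
        have ht' : ∀ g : Γ, kcoc he hz (g * t) = kcoc he hz g := ht
        rw [← mul_assoc, ht', hs']
      inv_mem' := fun {s} hs g => by
        have hs' : ∀ g : Γ, kcoc he hz (g * s) = kcoc he hz g := hs
        have := hs' (g * s⁻¹)
        rw [inv_mul_cancel_right] at this
        exact this.symm }
  have hzero : ∀ s : Γ, kcoc he hz s = 0 → s ∈ H := by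
    intro s hs g
    rw [kcoc_mul, hs, map_zero, zero_add]
  obtain ⟨F₀, hF₀, hfix⟩ := hsm z
  obtain ⟨U, hU, hUH⟩ := exists_globalSets_le T H
    ⟨F₀, hF₀, fun s hs => hzero s (gval_injective (by
      rw [gval_kcoc, gval_zero, hfix s hs, sub_self, smul_zero]))⟩
    (fun q hq A hA σ hσ => hzero σ (kcoc_eq_zero_of_inertia hunr he hz hq hA hσ))
  exact ⟨U, hU, fun g s hs => hUH hs g⟩

theorem kcoc_mem_Z1 (hsm : IsSmoothAct J) {T : Finset Nat.Primes} (hunr : UnramOutside J ε k T)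
    {e : 𝕋} (he : IsProjK J ε k e) {z : J} (hz : ℓ ^ k • z ∈ fixedPts J) :
    kcoc he hz ∈ LevelCoh28.Z1 (LevelBridge13.globalBasis T) (GRep J ε k) :=
  ⟨kcoc_mem_cocycles he hz, isLevel₁_kcoc hsm hunr he hz⟩

/-! ### The class -/

/-- The class of the Kummer cocycle in `H¹(G_T, G_k)`. -/
def kumClass (hsm : IsSmoothAct J) {T : Finset Nat.Primes} (hunr : UnramOutside J ε k T)
    {e : 𝕋} (he : IsProjK J ε k e) {z : J} (hz : ℓ ^ k • z ∈ fixedPts J) : H1g T (GRep J ε k) :=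
  LevelCoh28.H1mk _ _ ⟨kcoc he hz, kcoc_mem_Z1 hsm hunr he hz⟩

/-- Two level cocycles differing by the coboundary of `g₀` have the same class. -/
theorem H1mk_eq_of_sub {T : Finset Nat.Primes}
    (c c' : ↥(LevelCoh28.Z1 (LevelBridge13.globalBasis T) (GRep J ε k))) (g₀ : GRep J ε k)
    (h : ∀ σ : Γ, (c : Γ → GRep J ε k) σ - (c' : Γ → GRep J ε k) σ =
      (GRep J ε k).ρ σ g₀ - g₀) :
    LevelCoh28.H1mk (LevelBridge13.globalBasis T) (GRep J ε k) c =
      LevelCoh28.H1mk (LevelBridge13.globalBasis T) (GRep J ε k) c' := by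
  rw [← sub_eq_zero, ← map_sub, LevelCoh28.H1mk_eq_zero_iff]
  refine ⟨g₀, ?_⟩
  funext σ
  rw [d₀₁_hom_apply]
  exact (h σ).symm

/-- **Independence**: the class depends only on `ℓ^k z`. -/
theorem kumClass_eq (hsm : IsSmoothAct J) (hcomm : CommOnTors J 𝕋 ℓ) {T : Finset Nat.Primes}
    (hunr : UnramOutside J ε k T) {e e' : 𝕋} (he : IsProjK J ε k e) (he' : IsProjK J ε k e')
    {z z' : J} (hz : ℓ ^ k • z ∈ fixedPts J) (hz' : ℓ ^ k • z' ∈ fixedPts J)
    (hzz' : ℓ ^ k • z = ℓ ^ k • z') :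
    kumClass hsm hunr he hz = kumClass hsm hunr he' hz' := by
  have hd : ℓ ^ k • (z - z') = 0 := by rw [smul_sub, hzz', sub_self]
  refine H1mk_eq_of_sub _ _ (gmk J ε k (e • (z - z')) (he.mem _ hd)) (fun σ => ?_)
  apply gval_injective
  show gval J ε k (kcoc he hz σ) - gval J ε k (kcoc he' hz' σ) = σ • (e • (z - z')) - e • (z - z')
  rw [gval_kcoc, gval_kcoc, ← isProjK_eq hcomm he he' _ (pow_smul_sub_eq_zero hz' σ), ← smul_sub,
    smul_comm σ e, ← smul_sub]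
  congr 1
  rw [smul_sub]
  abel

theorem kumClass_add (hsm : IsSmoothAct J) {T : Finset Nat.Primes} (hunr : UnramOutside J ε k T)
    {e : 𝕋} (he : IsProjK J ε k e) {z z' : J} (hz : ℓ ^ k • z ∈ fixedPts J)
    (hz' : ℓ ^ k • z' ∈ fixedPts J) (hzz' : ℓ ^ k • (z + z') ∈ fixedPts J) :
    kumClass hsm hunr he hzz' = kumClass hsm hunr he hz + kumClass hsm hunr he hz' := by
  rw [kumClass, kumClass, kumClass, ← map_add]
  congr 1
  apply Subtype.ext
  funext σ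
  apply gval_injective
  show gval J ε k (kcoc he hzz' σ) = gval J ε k (kcoc he hz σ) + gval J ε k (kcoc he hz' σ)
  rw [gval_kcoc, gval_kcoc, gval_kcoc, ← smul_add, smul_add]
  congr 1
  abel

/-! ### The Kummer map -/

section Kum

variable (ε k) (T : Finset Nat.Primes)
  (hsm : IsSmoothAct J) (hdiv : ∀ x : J, ∃ y : J, ℓ • y = x)
  (hfin : Finite {x : J // ℓ • x = 0}) (hcomm : CommOnTors J 𝕋 ℓ) (hunr : UnramOutside J ε k T)

/-- The chosen projector. -/
def e₀ (hfin : Finite {x : J // ℓ • x = 0}) (hcomm : CommOnTors J 𝕋 ℓ) : 𝕋 :=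
  (exists_isProjK ε k hfin hcomm).choose

theorem map_e₀ : ε (e₀ ε k hfin hcomm) = 1 := (exists_isProjK ε k hfin hcomm).choose_spec.1

theorem isProjK_e₀ : IsProjK J ε k (e₀ ε k hfin hcomm) :=
  (exists_isProjK ε k hfin hcomm).choose_spec.2

/-- The chosen division point. -/
def divPt (hdiv : ∀ x : J, ∃ y : J, ℓ • y = x) (x : J) : J := (exists_pow_div hdiv k x).choose

theorem pow_smul_divPt (x : J) : ℓ ^ k • divPt k hdiv x = x := (exists_pow_div hdiv k x).choose_spec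

theorem divPt_mem (x : ↥(fixedPts J)) : ℓ ^ k • divPt k hdiv (x : J) ∈ fixedPts J := by
  rw [pow_smul_divPt]
  exact x.2

/-- **The `ε`-part of the `ℓ^k`-Kummer map** `J(ℚ) → H¹(G_T, G_k)`. -/
def kum : ↥(fixedPts J) →+ H1g T (GRep J ε k) :=
  AddMonoidHom.mk' (fun x => kumClass hsm hunr (isProjK_e₀ ε k hfin hcomm) (divPt_mem k hdiv x))
    (fun x y => by
      have hxy : ℓ ^ k • (divPt k hdiv (x : J) + divPt k hdiv (y : J)) ∈ fixedPts J := by
        rw [smul_add, pow_smul_divPt, pow_smul_divPt]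
        exact (x + y).2
      rw [← kumClass_add hsm hunr (isProjK_e₀ ε k hfin hcomm) (divPt_mem k hdiv x)
        (divPt_mem k hdiv y) hxy]
      refine kumClass_eq hsm hcomm hunr _ _ _ _ ?_
      rw [pow_smul_divPt, smul_add, pow_smul_divPt, pow_smul_divPt]
      rfl)

theorem kum_apply (x : ↥(fixedPts J)) :
    kum ε k T hsm hdiv hfin hcomm hunr x =
      kumClass hsm hunr (isProjK_e₀ ε k hfin hcomm) (divPt_mem k hdiv x) := rfl

/-- The class of ANY division point with ANY projector is `kum x`. -/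
theorem kum_eq_kumClass (x : ↥(fixedPts J)) {z : J} (hz : ℓ ^ k • z = (x : J)) {e : 𝕋}
    (he : IsProjK J ε k e) :
    kum ε k T hsm hdiv hfin hcomm hunr x =
      kumClass hsm hunr he (show ℓ ^ k • z ∈ fixedPts J by rw [hz]; exact x.2) := by
  rw [kum_apply]
  refine kumClass_eq hsm hcomm hunr _ _ _ _ ?_
  rw [pow_smul_divPt, hz]

/-- (KUM-1) **cocycle description**: for ANY `z` with `ℓ^k z = x` and ANY `e : 𝕋` projecting
`J[ℓ^k]` onto `G_k`, `kum x` is the class of the `G_T`-level cocycle `σ ↦ e (σ z − z)`. -/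
theorem kum_eq (x : ↥(fixedPts J)) (z : J) (hz : ℓ ^ k • z = (x : J)) (e : 𝕋)
    (he : ∀ u : J, ℓ ^ k • u = 0 → e • u ∈ kerE J ε k)
    (he' : ∀ u ∈ kerE J ε k, e • u = u) :
    ∃ c : ↥(LevelCoh28.Z1 (LevelBridge13.globalBasis T) (GRep J ε k)),
      (∀ σ : Γ, gval J ε k ((c : Γ → GRep J ε k) σ) = e • (σ • z - z)) ∧
      kum ε k T hsm hdiv hfin hcomm hunr x = LevelCoh28.H1mk _ _ c := by
  have hP : IsProjK J ε k e := ⟨he, he'⟩
  have hz' : ℓ ^ k • z ∈ fixedPts J := by rw [hz]; exact x.2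
  exact ⟨⟨kcoc hP hz', kcoc_mem_Z1 hsm hunr hP hz'⟩, fun σ => rfl,
    kum_eq_kumClass ε k T hsm hdiv hfin hcomm hunr x hz hP⟩

/-- (KUM-2) **the kernel of the Kummer map**: `(J(ℚ)/ℓ^k J(ℚ))_ε ↪ H¹(G_T, G_k)`. -/
theorem kum_eq_zero_iff (x : ↥(fixedPts J)) :
    kum ε k T hsm hdiv hfin hcomm hunr x = 0 ↔
      ∃ s : 𝕋, ε s ≠ 0 ∧ ∃ m : J, (∀ g : Γ, g • m = m) ∧ s • (x : J) = ℓ ^ k • m := by
  have hP := isProjK_e₀ ε k hfin hcomm
  set e := e₀ ε k hfin hcomm with he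
  set z := divPt k hdiv (x : J) with hzdef
  have hz : ℓ ^ k • z = (x : J) := pow_smul_divPt k hdiv _
  have hz' : ℓ ^ k • z ∈ fixedPts J := divPt_mem k hdiv x
  constructor
  · intro h
    rw [kum_apply, kumClass, LevelCoh28.H1mk_eq_zero_iff] at h
    obtain ⟨g₀, hg₀⟩ := h
    have h1 : ∀ σ : Γ, e • (σ • z - z) = σ • gval J ε k g₀ - gval J ε k g₀ := by
      intro σ
      have h2 := congrFun hg₀ σ
      rw [d₀₁_hom_apply] at h2
      have h3 := congrArg (gval J ε k) h2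
      rw [gval_sub, gval_ρ] at h3
      exact h3.symm
    refine ⟨e, by rw [map_e₀]; exact one_ne_zero, e • z - gval J ε k g₀, fun g => ?_, ?_⟩
    · have h2 := h1 g
      rw [smul_sub, smul_comm g e]
      rw [smul_sub] at h2
      rw [sub_eq_sub_iff_add_eq_add] at h2 ⊢
      rw [add_comm (e • z), ← h2, add_comm]
    · rw [smul_sub, (gval_mem g₀).1, sub_zero, smul_comm, hz]
  · rintro ⟨s, hs, m, hm, hsm'⟩
    -- `u = s z − m` is `ℓ^k`-torsion
    have hu : ℓ ^ k • (s • z - m) = 0 := by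
      rw [smul_sub, smul_comm, hz, hsm', sub_self]
    -- a power of `s` is the identity on `G_k`
    haveI := finite_torsK (𝕋 := 𝕋) hfin k
    have hcomm' : ∀ (s t : 𝕋) (x : ↥(torsK J 𝕋 ℓ k)), s • t • x = t • s • x :=
      fun s t x => Subtype.ext (hcomm s t x ⟨k, x.2⟩)
    have hℓ' : ∀ x : ↥(torsK J 𝕋 ℓ k), ∃ j : ℕ, ℓ ^ j • x = 0 :=
      fun x => ⟨k, Subtype.ext (by
        simp)⟩
    obtain ⟨n, hn1, hn⟩ := exists_pow_smul_eq (ε := ε) hℓ' hcomm' hs
    have hpow : ∀ v ∈ kerE J ε k, s ^ n • v = v := by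
      intro v hv
      have h1 : (⟨v, hv.1⟩ : ↥(torsK J 𝕋 ℓ k)) ∈ eigenPart ℓ ε ↥(torsK J 𝕋 ℓ k) :=
        (mem_eigenPart_torsK_iff J ε _).2 hv.2
      exact congrArg Subtype.val (hn _ h1)
    obtain ⟨n', rfl⟩ : ∃ n', n = n' + 1 := ⟨n - 1, by omega⟩
    rw [kum_apply, kumClass, LevelCoh28.H1mk_eq_zero_iff]
    have hγ : s ^ n' • (e • (s • z - m)) ∈ kerE J ε k :=
      tsmul_mem_kerE hcomm _ (hP.mem _ hu)
    refine ⟨gmk J ε k _ hγ, ?_⟩
    funext σ
    rw [d₀₁_hom_apply]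
    apply gval_injective
    show σ • (s ^ n' • (e • (s • z - m))) - s ^ n' • (e • (s • z - m)) = e • (σ • z - z)
    have hv : e • (σ • z - z) ∈ kerE J ε k := kfun_mem hP hz' σ
    have htors : ℓ ^ k • (σ • z - z) = 0 := pow_smul_sub_eq_zero hz' σ
    -- `s • e (σ z − z) = σ (e u) − e u`
    set γ : J := e • (s • z - m) with hγdef
    have h1 : s • (e • (σ • z - z)) = σ • γ - γ := by
      have h2 : s • (σ • z - z) = σ • (s • z - m) - (s • z - m) := by
        rw [smul_sub, smul_sub, hm σ, smul_comm σ s]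
        abel
      rw [hcomm s e _ ⟨k, htors⟩, h2, hγdef, smul_comm σ e, smul_sub]
    calc σ • (s ^ n' • γ) - s ^ n' • γ = s ^ n' • (σ • γ - γ) := by
          rw [smul_sub, smul_comm σ (s ^ n')]
      _ = s ^ n' • (s • (e • (σ • z - z))) := by rw [h1]
      _ = s ^ (n' + 1) • (e • (σ • z - z)) := by rw [pow_succ, mul_smul]
      _ = e • (σ • z - z) := hpow _ hv

end Kum

end

end Fermat.Agent.M15.KumMap6
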