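/-
Programme M15 (target S15), chapter R2 (TORIC), helper3: **the object `Λ = T_ℓ(J)_ε`** and the
contracts of R2.

`Γ = Gal(ℚ̄/ℚ)` acts on an abelian group `J`, a ring `𝕋` acts on `J` commuting with `Γ`,
`ε : 𝕋 →+* ZMod ℓ` (vocabulary of `M15/KumRep6`).

* `Jeps J ε : AddSubgroup J` : `J[ℓ^∞]_ε`, the union of the `kerE J ε k = J[ℓ^k]_ε`; stable under `Γ`;
* `Lam J ε := TateModule ℓ ↥(Jeps J ε)` (`ES/J/TateModule13`): a `ℤ_[ℓ]`-module, torsion free,
  finite free as soon as `J[ℓ]` is finite; `rhoLam J ε : Γ →* Module.End ℤ_[ℓ] (Lam J ε)`;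
* `toTate J ε : Lam J ε →ₗ[ℤ_[ℓ]] TateModule ℓ J`, injective, `Γ`-equivariant, with image the sequences
  all of whose terms lie in `J[ℓ^∞]_ε` (so polynomial identities on `T_ℓ J` restrict to `Λ`);
* `projG J ε k : Lam J ε →+ GRep J ε k` : the projection to level `k`, `Γ`-equivariant, with kernel
  `ℓ^k Λ`; surjective when `J` is `ℓ`-divisible (`projG_surjective`, needs a projector of
  `J[ℓ^(k+1)]` onto its `ε`-part);
* the two contracts: `DetAt J ε p lam` (consumed: determinant of Frobenius lifts at `p` on `Λ`) and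
  `ToricBound J ε p lam` (delivered: the bounded-defect inequality at `p`).
-/
import Mathlib
import Fermat.Prelude.Def_EllipticCurve_FrobeniusTrace
import Fermat.Prelude.Def_FLTPrelim_Ramification
import Fermat.Agent.ES.J.TateModule13
import Fermat.Agent.M15.KumMap6
import Fermat.Agent.M15.DevDefs5

set_option autoImplicit false
set_option linter.unusedSectionVars false
set_option linter.style.haveILetI false

namespace Fermat.Agent.M15.ToricTate3

open Fermat.Agent.ES.J.TateModule13 Fermat.Agent.M15.KumRep6 Fermat.Agent.M15.KumMap6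
  Fermat.Agent.M15.KumLoc6 Fermat.Agent.M15.DevDefs5 Fermat.Agent.W56.Defs9

local notation "Γ" => (AlgebraicClosure ℚ ≃ₐ[ℚ] AlgebraicClosure ℚ)
local notation "Qbar" => AlgebraicClosure ℚ

noncomputable section

variable (J : Type) [AddCommGroup J] [DistribMulAction Γ J]
  {𝕋 : Type} [Ring 𝕋] [Module 𝕋 J] [SMulCommClass Γ 𝕋 J] {ℓ : ℕ} [hℓ : Fact ℓ.Prime]
  (ε : 𝕋 →+* ZMod ℓ)

/-! ### `J[ℓ^∞]_ε` -/

/-- `J[ℓ^∞]_ε`: the `ℓ`-power torsion points on which every element of `ker ε` is nilpotent. -/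
def Jeps : AddSubgroup J where
  carrier := {x | (∃ k : ℕ, ℓ ^ k • x = 0) ∧ ∀ a : 𝕋, ε a = 0 → ∃ N : ℕ, a ^ N • x = 0}
  zero_mem' := ⟨⟨0, smul_zero _⟩, fun _ _ => ⟨0, smul_zero _⟩⟩
  add_mem' := by
    rintro x y ⟨⟨k, hx⟩, hx'⟩ ⟨⟨k', hy⟩, hy'⟩
    refine ⟨⟨k + k', ?_⟩, fun a ha => ?_⟩
    · rw [smul_add, pow_add, mul_comm, mul_smul, hx, smul_zero, mul_comm, mul_smul, hy, smul_zero,
        add_zero]
    · obtain ⟨N, hN⟩ := hx' a ha
      obtain ⟨N', hN'⟩ := hy' a ha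
      exact ⟨N + N', by
        rw [smul_add, pow_smul_eq_zero_of_le hN (Nat.le_add_right N N'),
          pow_smul_eq_zero_of_le hN' (Nat.le_add_left N' N), add_zero]⟩
  neg_mem' := by
    rintro x ⟨⟨k, hx⟩, hx'⟩
    refine ⟨⟨k, by rw [smul_neg, hx, neg_zero]⟩, fun a ha => ?_⟩
    obtain ⟨N, hN⟩ := hx' a ha
    exact ⟨N, by rw [smul_neg, hN, neg_zero]⟩

variable {J ε}

theorem mem_Jeps_iff (x : J) :
    x ∈ Jeps J ε ↔ (∃ k : ℕ, ℓ ^ k • x = 0) ∧ ∀ a : 𝕋, ε a = 0 → ∃ N : ℕ, a ^ N • x = 0 :=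
  Iff.rfl

theorem kerE_le_Jeps (k : ℕ) : kerE J ε k ≤ Jeps J ε := fun _ hx => ⟨⟨k, hx.1⟩, hx.2⟩

theorem mem_kerE_of_mem_Jeps {x : J} (hx : x ∈ Jeps J ε) {k : ℕ} (hk : ℓ ^ k • x = 0) :
    x ∈ kerE J ε k := ⟨hk, hx.2⟩

theorem smul_mem_Jeps (g : Γ) {x : J} (hx : x ∈ Jeps J ε) : g • x ∈ Jeps J ε := by
  obtain ⟨⟨k, hk⟩, hx'⟩ := hx
  refine ⟨⟨k, by rw [smul_comm, hk, smul_zero]⟩, fun a ha => ?_⟩
  obtain ⟨N, hN⟩ := hx' a ha
  exact ⟨N, by rw [← smul_comm, hN, smul_zero]⟩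

variable (J ε)

/-- the action of `Γ` on `J[ℓ^∞]_ε`. -/
instance distribMulActionJeps : DistribMulAction Γ ↥(Jeps J ε) where
  smul g x := ⟨g • (x : J), smul_mem_Jeps g x.2⟩
  one_smul x := Subtype.ext (one_smul Γ (x : J))
  mul_smul g g' x := Subtype.ext (mul_smul g g' (x : J))
  smul_zero g := Subtype.ext (smul_zero g)
  smul_add g x y := Subtype.ext (smul_add g (x : J) (y : J))

@[simp] theorem coe_smul_Jeps (g : Γ) (x : ↥(Jeps J ε)) : ((g • x : ↥(Jeps J ε)) : J) = g • (x : J) :=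
  rfl

/-! ### `Λ = T_ℓ(J)_ε` -/

/-- **`Λ = T_ℓ(J)_ε`**, the `ℓ`-adic Tate module of `J[ℓ^∞]_ε`. -/
abbrev Lam : Type := TateModule ℓ ↥(Jeps J ε)

/-- **the Galois representation on `Λ`.** -/
def rhoLam : Γ →* Module.End ℤ_[ℓ] (Lam J ε) := rho ℓ ↥(Jeps J ε)

/-- the inclusion `Λ → T_ℓ J`. -/
def toTate : Lam J ε →ₗ[ℤ_[ℓ]] TateModule ℓ J := map (Jeps J ε).subtype

variable {J ε}

theorem proj_toTate (x : Lam J ε) (k : ℕ) : proj k (toTate J ε x) = ((proj k x : ↥(Jeps J ε)) : J) :=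
  rfl

theorem toTate_injective : Function.Injective (toTate J ε) := by
  intro x y h
  ext k
  have h1 := congrArg (proj k) h
  rw [proj_toTate, proj_toTate] at h1
  exact h1

theorem toTate_rhoLam (g : Γ) (x : Lam J ε) :
    toTate J ε (rhoLam J ε g x) = rho ℓ J g (toTate J ε x) := by
  ext k
  rfl

theorem proj_rhoLam (g : Γ) (x : Lam J ε) (k : ℕ) : proj k (rhoLam J ε g x) = g • proj k x := rfl

/-- the image of `Λ` in `T_ℓ J`. -/
theorem mem_range_toTate_iff (y : TateModule ℓ J) :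
    y ∈ LinearMap.range (toTate J ε) ↔ ∀ k, proj k y ∈ Jeps J ε := by
  constructor
  · rintro ⟨x, rfl⟩ k
    rw [proj_toTate]
    exact (proj k x).2
  · intro h
    refine ⟨⟨fun k => ⟨proj k y, h k⟩, ?_, fun k => ?_⟩, ?_⟩
    · exact Subtype.ext y.zero_apply'
    · exact Subtype.ext (y.p_smul_succ k)
    · ext k
      rfl

/-- a polynomial identity `Σ aᵢ gⁱ y = 0` valid on `T_ℓ J` restricts to `Λ`: the basic transfer. -/
theorem eq_zero_of_toTate_eq_zero {x : Lam J ε} (h : toTate J ε x = 0) : x = 0 :=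
  toTate_injective (by rw [h, map_zero])

/-! ### the projection to `G_k = J[ℓ^k]_ε` -/

theorem proj_mem_kerE (k : ℕ) (x : Lam J ε) : ((proj k x : ↥(Jeps J ε)) : J) ∈ kerE J ε k := by
  refine mem_kerE_of_mem_Jeps (proj k x).2 ?_
  have h := pow_smul_proj k x
  have h1 := congrArg (fun z : ↥(Jeps J ε) => (z : J)) h
  simpa using h1

variable (J ε)

/-- **the projection `Λ → G_k`.** -/
def projG (k : ℕ) : Lam J ε →+ GRep J ε k where
  toFun x := gmk J ε k ((proj k x : ↥(Jeps J ε)) : J) (proj_mem_kerE k x)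
  map_zero' := gval_injective (by simp)
  map_add' x y := gval_injective (by simp)

variable {J ε}

@[simp] theorem gval_projG (k : ℕ) (x : Lam J ε) :
    gval J ε k (projG J ε k x) = ((proj k x : ↥(Jeps J ε)) : J) := rfl

/-- `projG` is `Γ`-equivariant. -/
theorem projG_rhoLam (k : ℕ) (g : Γ) (x : Lam J ε) :
    projG J ε k (rhoLam J ε g x) = (GRep J ε k).ρ g (projG J ε k x) :=
  gval_injective (by rw [gval_projG, gval_ρ, gval_projG, proj_rhoLam]; rfl)

/-- the kernel of `projG k` is `ℓ^k Λ`. -/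
theorem projG_eq_zero_iff (k : ℕ) (x : Lam J ε) :
    projG J ε k x = 0 ↔ ∃ y : Lam J ε, x = ((ℓ ^ k : ℕ) : ℤ_[ℓ]) • y := by
  rw [← proj_eq_zero_iff]
  constructor
  · intro h
    have h1 := congrArg (gval J ε k) h
    rw [gval_projG, gval_zero] at h1
    exact Subtype.ext h1
  · intro h
    apply gval_injective
    rw [gval_projG, h, gval_zero]
    rfl

theorem projG_natCast_smul (k n : ℕ) (x : Lam J ε) :
    projG J ε k ((n : ℤ_[ℓ]) • x) = n • projG J ε k x := by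
  apply gval_injective
  rw [gval_projG, proj_natCast_smul]
  have : gval J ε k (n • projG J ε k x) = n • gval J ε k (projG J ε k x) := by
    induction n with
    | zero => simp
    | succ n ih => rw [succ_nsmul, succ_nsmul, gval_add, ih]
  rw [this, gval_projG]
  rfl

theorem projG_pow_smul (k : ℕ) (y : Lam J ε) :
    projG J ε k (((ℓ ^ k : ℕ) : ℤ_[ℓ]) • y) = 0 :=
  (projG_eq_zero_iff k _).2 ⟨y, rfl⟩

/-! ### surjectivity of the projection, given divisibility -/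

/-- `J[ℓ^∞]_ε` is `ℓ`-divisible if `J` is (a projector of `J[ℓ^(k+1)]` onto its `ε`-part maps a
division point to a division point). -/
theorem exists_smul_eq_of_mem_Jeps (hfin : Finite {x : J // ℓ • x = 0})
    (hcomm : CommOnTors J 𝕋 ℓ) (hdiv : ∀ x : J, ∃ y : J, ℓ • y = x) {x : J}
    (hx : x ∈ Jeps J ε) : ∃ y ∈ Jeps J ε, ℓ • y = x := by
  obtain ⟨⟨k, hk⟩, hx'⟩ := hx
  obtain ⟨y', hy'⟩ := hdiv x
  obtain ⟨e, -, he⟩ := exists_isProjK ε (k + 1) hfin hcomm
  have hy'k : ℓ ^ (k + 1) • y' = 0 := by rw [pow_succ, mul_smul, hy', hk]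
  have hxk : x ∈ kerE J ε (k + 1) := by
    refine ⟨?_, hx'⟩
    rw [pow_succ, mul_smul, smul_comm, hk, smul_zero]
  refine ⟨e • y', kerE_le_Jeps (k + 1) (he.mem y' hy'k), ?_⟩
  rw [smul_comm, hy', he.id x hxk]

/-- every point of `G_k` lifts to `Λ`, if `J` is `ℓ`-divisible. -/
theorem projG_surjective (hfin : Finite {x : J // ℓ • x = 0}) (hcomm : CommOnTors J 𝕋 ℓ)
    (hdiv : ∀ x : J, ∃ y : J, ℓ • y = x) (k : ℕ) : Function.Surjective (projG J ε k) := by
  intro w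
  -- a compatible sequence through `gval w` at level `k`
  have hdivE : ∀ x : ↥(Jeps J ε), ∃ y : ↥(Jeps J ε), ℓ • y = x := fun x => by
    obtain ⟨y, hy, hyx⟩ := exists_smul_eq_of_mem_Jeps (ε := ε) hfin hcomm hdiv x.2
    exact ⟨⟨y, hy⟩, Subtype.ext hyx⟩
  let w₀ : ↥(Jeps J ε) := ⟨gval J ε k w, kerE_le_Jeps k (gval_mem w)⟩
  have hw₀ : ℓ ^ k • w₀ = 0 := Subtype.ext (by
    have := (gval_mem w).1
    simpa [w₀] using this)
  -- upward: `u n` with `u 0 = w₀`, `ℓ • u (n+1) = u n`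
  let u : ℕ → ↥(Jeps J ε) := fun n => Nat.rec w₀ (fun _ y => (hdivE y).choose) n
  have hu0 : u 0 = w₀ := rfl
  have hu : ∀ n, ℓ • u (n + 1) = u n := fun n => (hdivE (u n)).choose_spec
  -- the sequence: `x j = ℓ^(k-j) • w₀` for `j ≤ k`, `u (j-k)` for `j ≥ k`
  let s : ℕ → ↥(Jeps J ε) := fun j => if j ≤ k then ℓ ^ (k - j) • w₀ else u (j - k)
  have hs0 : s 0 = 0 := by
    show (if 0 ≤ k then ℓ ^ (k - 0) • w₀ else u (0 - k)) = 0
    rw [if_pos (Nat.zero_le k), Nat.sub_zero, hw₀]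
  have hs : ∀ j, ℓ • s (j + 1) = s j := by
    intro j
    show ℓ • (if j + 1 ≤ k then ℓ ^ (k - (j + 1)) • w₀ else u (j + 1 - k)) =
      (if j ≤ k then ℓ ^ (k - j) • w₀ else u (j - k))
    by_cases h1 : j + 1 ≤ k
    · rw [if_pos h1, if_pos (by omega : j ≤ k), ← mul_smul, ← pow_succ']
      congr 2
      omega
    · rw [if_neg h1]
      by_cases h2 : j ≤ k
      · have hjk : j = k := by omega
        subst hjk
        rw [if_pos le_rfl, Nat.sub_self, pow_zero, one_smul]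
        have : j + 1 - j = 0 + 1 := by omega
        rw [this, hu 0, hu0]
      · rw [if_neg h2]
        have : j + 1 - k = (j - k) + 1 := by omega
        rw [this, hu]
  refine ⟨⟨s, hs0, hs⟩, ?_⟩
  apply gval_injective
  rw [gval_projG]
  show ((s k : ↥(Jeps J ε)) : J) = gval J ε k w
  show ((if k ≤ k then ℓ ^ (k - k) • w₀ else u (k - k) : ↥(Jeps J ε)) : J) = gval J ε k w
  rw [if_pos le_rfl, Nat.sub_self, pow_zero, one_smul]

/-! ### finiteness -/

theorem finite_Jeps_torsion (hfin : Finite {x : J // ℓ • x = 0}) :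
    Finite {y : ↥(Jeps J ε) // ℓ • y = 0} :=
  Finite.of_injective
    (fun y : {y : ↥(Jeps J ε) // ℓ • y = 0} => (⟨((y : ↥(Jeps J ε)) : J),
      congrArg (fun z : ↥(Jeps J ε) => (z : J)) y.2⟩ : {x : J // ℓ • x = 0}))
    (fun a b h => Subtype.ext (Subtype.ext (congrArg (fun z : {x : J // ℓ • x = 0} => (z : J)) h)))

/-- `Λ` is a finitely generated free `ℤ_[ℓ]`-module, if `J[ℓ]` is finite. -/
theorem finite_free_Lam (hfin : Finite {x : J // ℓ • x = 0}) :
    Module.Finite ℤ_[ℓ] (Lam J ε) ∧ Module.Free ℤ_[ℓ] (Lam J ε) := by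
  have := finite_Jeps_torsion (ε := ε) hfin
  exact ⟨module_finite, module_free⟩

/-! ### the contracts of R2 -/

variable (J ε)

/-- **(DET), the form consumed by R2**: on `Λ`, every Frobenius lift at `p` has determinant
`± p ^ lam`.  (`lam` is the exponent of the dévissage: `XiLe T p ℓ (GRep J ε k) L (k * lam)`.) -/
def DetAt (p lam : ℕ) : Prop :=
  ∀ (A : ValuationSubring Qbar) (φ : Γ), A.LiesOverPrime p → A.IsFrobeniusAt φ p →
    LinearMap.det (rhoLam J ε φ) = (p : ℤ_[ℓ]) ^ lam ∨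
      LinearMap.det (rhoLam J ε φ) = -(p : ℤ_[ℓ]) ^ lam

/-- **(TB), the contract delivered by R2**: the bounded-defect inequality at the bad prime `p`,
uniformly in the level `k` and for EVERY local condition. -/
def ToricBound (p : Nat.Primes) (lam : ℕ) : Prop :=
  ∃ C : ℕ, 0 < C ∧ ∀ (k : ℕ) (L : LocCond (GRep J ε k)),
    Nat.card ↥(ramL (GRep J ε k) L p) * Nat.card (GRep J ε k) ≤
      C * ℓ ^ (k * lam) * Nat.card ↥(H0I (GRep J ε k) p)

end

end Fermat.Agent.M15.ToricTate3
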