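/-
Programme M15 (S15), chapter (HALF), leaf (ES∀) (helper4): **Eichler–Shimura for ALL Galois elements.**

For `g ∈ Γ = Gal(ℚ̄/ℚ)` put `t_g := ρ(g) + χ_ℓ(g) ρ(g)⁻¹` on the Tate module `T_ℓ J₀(N)` (resp. on
`Λ = T_ℓ(J)_ε`).  Then `t_g` COMMUTES WITH `ρ(Γ)`.

* `commute_of_dense` (pure algebra; `ES/ALG/RelDense9` with "is a scalar" replaced by "commutes with
  `ρ(G)`"): if on a set `Φ` of group elements `ρ(σ)² - T_σ ρ(σ) + d(σ) = 0` with `T_σ` in the centraliser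
  of `ρ(G)`, and the powers of the elements of `Φ` are dense, then `ρ(g) + d(g) ρ(g)⁻¹` is in the
  centraliser for every `g` (Lucas sequence `s_{j+2} = s_{j+1} s_1 - d s_j` stays in the centraliser; the
  centraliser is closed).
* `esAll_TJ` : the statement on `TJ ℓ N` (Frobenius lifts: `TateJZero13.rhoT_frobenius`, `T_σ = T_r`
  commutes with Galois; density: Chebotarev `ChebQbar23` + continuity).
* `esAll_Lam` : the statement on `Lam J ε` of `M15/ToricTate3` (restriction along `toTate`).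
-/
import Mathlib
import Fermat.Agent.ES.ALG.RelDense9
import Fermat.Agent.ES.J.TateJZero13
import Fermat.Agent.ES.J.CycloChar8
import Fermat.Agent.ES.GAL.ChebQbar23
import Fermat.Agent.ES.KUM.FiniteTorsion15
import Fermat.Agent.M15.ToricTate3

set_option autoImplicit false
set_option linter.unusedSectionVars false
set_option linter.style.longLine false
set_option linter.style.haveILetI false

noncomputable section

namespace Fermat.Agent.M15.EsAll4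

open Module Fermat.Agent.ES.ALG.RelDense9

/-! ### pure algebra -/

section Algebra

variable {𝒪 : Type*} [CommRing 𝒪] {Λ : Type*} [AddCommGroup Λ] [Module 𝒪 Λ]

theorem endCongr_neg {I : Ideal 𝒪} {f g : End 𝒪 Λ} (h : EndCongr I f g) : EndCongr I (-f) (-g) :=
  fun v => by
    have := Submodule.neg_mem _ (h v)
    simpa [neg_sub, sub_eq_add_neg, add_comm] using this

theorem endCongr_sub {I : Ideal 𝒪} {f g f' g' : End 𝒪 Λ} (h : EndCongr I f g)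
    (h' : EndCongr I f' g') : EndCongr I (f - f') (g - g') := by
  rw [sub_eq_add_neg, sub_eq_add_neg]
  exact h.add (endCongr_neg h')

/-- an endomorphism of a finite free module which is `≡ 0` modulo each `I n`, `⋂ I n = 0`, is `0`. -/
theorem eq_zero_of_forall_congr [Module.Free 𝒪 Λ] [Module.Finite 𝒪 Λ] (I : ℕ → Ideal 𝒪)
    (hI : ∀ x : 𝒪, (∀ n, x ∈ I n) → x = 0) (X : End 𝒪 Λ) (hX : ∀ n, EndCongr (I n) X 0) :
    X = 0 := by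
  classical
  let b := Module.Free.chooseBasis 𝒪 Λ
  refine b.ext fun j => b.repr.injective (Finsupp.ext fun i => ?_)
  rw [LinearMap.zero_apply, map_zero, Finsupp.zero_apply]
  refine hI _ fun n => ?_
  have := repr_mem_of_mem_smul_top b (I n) (hX n (b j)) i
  simpa using this

/-- **Lucas in the centraliser**: if `F F' = F' F = 1` and `F + δ F'` commutes with `B`, then so does
`F^j + δ^j F'^j` for every `j`. -/
theorem lucas_commute {F F' B : End 𝒪 Λ} (hFF' : F * F' = 1) (hF'F : F' * F = 1) {δ : 𝒪}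
    (h : Commute (F + δ • F') B) (j : ℕ) : Commute (F ^ j + δ ^ j • F' ^ j) B := by
  suffices H : ∀ j : ℕ, Commute (F ^ j + δ ^ j • F' ^ j) B ∧
      Commute (F ^ (j + 1) + δ ^ (j + 1) • F' ^ (j + 1)) B from (H j).1
  intro j
  induction j with
  | zero =>
    refine ⟨?_, ?_⟩
    · simp only [pow_zero, one_smul]
      exact (Commute.one_left B).add_left (Commute.one_left B)
    · simpa using h
  | succ j ih =>
    obtain ⟨h0, h1⟩ := ih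
    refine ⟨h1, ?_⟩
    have hFp : ∀ m : ℕ, F ^ (m + 1) * F' = F ^ m := fun m => by
      rw [pow_succ, mul_assoc, hFF', mul_one]
    have hF'p : ∀ m : ℕ, F' ^ (m + 1) * F = F' ^ m := fun m => by
      rw [pow_succ, mul_assoc, hF'F, mul_one]
    have key : (F ^ (j + 1) + δ ^ (j + 1) • F' ^ (j + 1)) * (F + δ • F') =
        (F ^ (j + 1 + 1) + δ ^ (j + 1 + 1) • F' ^ (j + 1 + 1)) + δ • (F ^ j + δ ^ j • F' ^ j) := by
      simp only [add_mul, mul_add, smul_mul_assoc, mul_smul_comm, smul_add, smul_smul]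
      rw [hFp j, hF'p j, ← pow_succ F, ← pow_succ F']
      have e1 : δ ^ (j + 1) * δ = δ ^ (j + 1 + 1) := (pow_succ δ (j + 1)).symm
      have e2 : δ * δ ^ j = δ ^ (j + 1) := (pow_succ' δ j).symm
      rw [mul_comm δ (δ ^ (j + 1)), e1, e2]
      abel
    have hkey' : F ^ (j + 1 + 1) + δ ^ (j + 1 + 1) • F' ^ (j + 1 + 1) =
        (F ^ (j + 1) + δ ^ (j + 1) • F' ^ (j + 1)) * (F + δ • F') -
          δ • (F ^ j + δ ^ j • F' ^ j) := by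
      rw [key]; abel
    rw [hkey']
    exact (h1.mul_left h).sub_left (h0.smul_left δ)

theorem quadratic_of_inv {F F' : End 𝒪 Λ} (hF'F : F' * F = 1) (δ : 𝒪) :
    F * F - (F + δ • F') * F + δ • (1 : End 𝒪 Λ) = 0 := by
  rw [add_mul, smul_mul_assoc, hF'F]
  abel

variable [Module.Free 𝒪 Λ] [Module.Finite 𝒪 Λ]
variable {G : Type*} [Group G] (ρ : G →* End 𝒪 Λ) (d : G →* 𝒪ˣ)

/-- **(ES∀), abstract form.** -/
theorem commute_of_dense (I : ℕ → Ideal 𝒪) (hI : ∀ x : 𝒪, (∀ n, x ∈ I n) → x = 0)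
    (Φ : Set G)
    (hΦ : ∀ σ ∈ Φ, ∃ T : End 𝒪 Λ, (∀ h : G, Commute T (ρ h)) ∧
      ρ σ * ρ σ - T * ρ σ + ((d σ : 𝒪ˣ) : 𝒪) • (1 : End 𝒪 Λ) = 0)
    (hdense : ∀ (n : ℕ) (g : G), ∃ σ ∈ Φ, ∃ j : ℕ, EndCongr (I n) (ρ (g⁻¹ * σ ^ j)) 1 ∧
      ((d (g⁻¹ * σ ^ j) : 𝒪ˣ) : 𝒪) - 1 ∈ I n) (g h : G) :
    Commute (ρ g + ((d g : 𝒪ˣ) : 𝒪) • ρ g⁻¹) (ρ h) := by
  rw [Commute, SemiconjBy, ← sub_eq_zero]
  refine eq_zero_of_forall_congr I hI _ fun n => ?_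
  obtain ⟨σ, hσ, j, h1, h2⟩ := hdense n g
  obtain ⟨T, hT, hTσ⟩ := hΦ σ hσ
  -- `t_σ = T_σ`
  have hrel : ρ σ + ((d σ : 𝒪ˣ) : 𝒪) • ρ σ⁻¹ = T := by
    have := congrArg (fun x => x * ρ σ⁻¹) hTσ
    simp only [add_mul, sub_mul, smul_mul_assoc, mul_assoc, rho_mul_inv, mul_one, one_mul,
      zero_mul] at this
    rw [sub_add_eq_add_sub, sub_eq_zero] at this
    exact this
  have hs : Commute (ρ σ ^ j + ((d σ : 𝒪ˣ) : 𝒪) ^ j • ρ σ⁻¹ ^ j) (ρ h) :=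
    lucas_commute (rho_mul_inv ρ σ) (rho_inv_mul ρ σ) (by rw [hrel]; exact hT h) j
  -- congruences
  have hρ : EndCongr (I n) (ρ g) (ρ σ ^ j) := by
    have h4 := h1.mul_left (ρ g)
    rw [← map_mul, mul_inv_cancel_left, map_pow, mul_one] at h4
    exact h4.symm
  have hd : ((d g : 𝒪ˣ) : 𝒪) - ((d σ : 𝒪ˣ) : 𝒪) ^ j ∈ I n := by
    have h5 : ((d g : 𝒪ˣ) : 𝒪) - ((d σ : 𝒪ˣ) : 𝒪) ^ j =
        -(((d g : 𝒪ˣ) : 𝒪) * (((d (g⁻¹ * σ ^ j) : 𝒪ˣ) : 𝒪) - 1)) := by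
      have h6 : ((d g : 𝒪ˣ) : 𝒪) * ((d (g⁻¹ * σ ^ j) : 𝒪ˣ) : 𝒪) = ((d σ : 𝒪ˣ) : 𝒪) ^ j := by
        rw [← Units.val_mul, ← map_mul, mul_inv_cancel_left, map_pow, Units.val_pow_eq_pow_val]
      rw [mul_sub, h6, mul_one, neg_sub]
    rw [h5]
    exact (I n).neg_mem ((I n).mul_mem_left _ h2)
  have hinv : EndCongr (I n) (ρ g⁻¹) (ρ σ⁻¹ ^ j) := by
    refine hρ.inv (rho_inv_mul ρ g) ?_
    rw [← (show Commute (ρ σ) (ρ σ⁻¹) by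
      rw [Commute, SemiconjBy, rho_mul_inv, rho_inv_mul]).mul_pow, rho_mul_inv, one_pow]
  have ht : EndCongr (I n) (ρ g + ((d g : 𝒪ˣ) : 𝒪) • ρ g⁻¹)
      (ρ σ ^ j + ((d σ : 𝒪ˣ) : 𝒪) ^ j • ρ σ⁻¹ ^ j) := hρ.add (hinv.smul hd)
  have hfin := endCongr_sub (ht.mul_right (ρ h)) (ht.mul_left (ρ h))
  rw [show (ρ σ ^ j + ((d σ : 𝒪ˣ) : 𝒪) ^ j • ρ σ⁻¹ ^ j) * ρ h -
    ρ h * (ρ σ ^ j + ((d σ : 𝒪ˣ) : 𝒪) ^ j • ρ σ⁻¹ ^ j) = 0 from sub_eq_zero.mpr hs] at hfin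
  exact hfin

end Algebra

/-! ### the Tate module of `J₀(N)` -/

section Concrete

open ModularCurve Fermat.Agent.ES.J.TateJZero13 Fermat.Agent.ES.J.CycloChar8
  Fermat.Agent.ES.J.TateModule13

local notation "Qb" => AlgebraicClosure ℚ
local notation "Γ" => (AlgebraicClosure ℚ ≃ₐ[ℚ] AlgebraicClosure ℚ)

variable (ℓ : ℕ) [hℓ : Fact ℓ.Prime] (N : ℕ) [NeZero N]

theorem padic_eq_zero_of_forall_mem (x : ℤ_[ℓ])
    (hx : ∀ n : ℕ, x ∈ Ideal.span {(ℓ : ℤ_[ℓ]) ^ n}) : x = 0 := by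
  have h1 : x ∈ (⨅ n : ℕ, IsLocalRing.maximalIdeal ℤ_[ℓ] ^ n : Ideal ℤ_[ℓ]) := by
    rw [Submodule.mem_iInf]
    intro n
    rw [PadicInt.maximalIdeal_eq_span_p, Ideal.span_singleton_pow]
    exact hx n
  rw [Ideal.iInf_pow_eq_bot_of_isLocalRing _
    (IsLocalRing.maximalIdeal.isMaximal ℤ_[ℓ]).ne_top] at h1
  exact h1

/-- the Frobenius lifts at the primes not dividing `N ℓ`. -/
def frobSet : Set Γ := {σ | ∃ r : ℕ, r.Prime ∧ ¬ r ∣ N ∧ r ≠ ℓ ∧ ∃ A : ValuationSubring Qb,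
    A.LiesOverPrime r ∧ A.IsFrobeniusAt σ r}

theorem frobSet_rel (σ : Γ) (hσ : σ ∈ frobSet ℓ N) :
    ∃ T : Module.End ℤ_[ℓ] (TJ ℓ N), (∀ h : Γ, Commute T (rhoT ℓ N h)) ∧
      rhoT ℓ N σ * rhoT ℓ N σ - T * rhoT ℓ N σ +
        ((cyclo ℓ σ : ℤ_[ℓ]ˣ) : ℤ_[ℓ]) • (1 : Module.End ℤ_[ℓ] (TJ ℓ N)) = 0 := by
  obtain ⟨r, hr, hrN, hrℓ, A, hA, hfrob⟩ := hσ
  refine ⟨tT ℓ N ⟨r, hr⟩, fun h' => (commute_rhoT_tT h' _).symm, ?_⟩
  rw [cyclo_of_isFrobeniusAt ℓ hr hrℓ A hA hfrob]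
  exact rhoT_frobenius hr hrN hrℓ hA hfrob

set_option maxHeartbeats 400000 in
theorem frobSet_dense (hfin : {y : JZero N | ℓ • y = 0}.Finite) (n : ℕ) (g' : Γ) :
    ∃ σ ∈ frobSet ℓ N, ∃ j : ℕ,
      EndCongr (Ideal.span {(ℓ : ℤ_[ℓ]) ^ n}) (rhoT ℓ N (g'⁻¹ * σ ^ j)) 1 ∧
      ((cyclo ℓ (g'⁻¹ * σ ^ j) : ℤ_[ℓ]ˣ) : ℤ_[ℓ]) - 1 ∈ Ideal.span {(ℓ : ℤ_[ℓ]) ^ n} := by
  classical
  obtain ⟨L₂, hL₂, h2⟩ := rhoT_continuous (p := ℓ) (N := N) hfin n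
  obtain ⟨L₃, hL₃, h3⟩ := cyclo_sub_one_mem ℓ n
  have := hL₂
  have := hL₃
  obtain ⟨r, A, φ, j, hr, hrS, hA, hφ, hj⟩ :=
    Fermat.Agent.ES.GAL.ChebQbar23.exists_frobenius_inv_mul_pow_fixes (L₂ ⊔ L₃) g'
      (insert ℓ N.primeFactors)
  have hrℓ : r ≠ ℓ := fun h => hrS (h ▸ Finset.mem_insert_self _ _)
  have hrN : ¬ r ∣ N := fun hdvd =>
    hrS (Finset.mem_insert_of_mem (Nat.mem_primeFactors.mpr ⟨hr, hdvd, NeZero.ne N⟩))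
  refine ⟨φ, ⟨r, hr, hrN, hrℓ, A, hA, hφ⟩, j, ?_, ?_⟩
  · intro v
    rw [Module.End.one_apply]
    obtain ⟨y, hy⟩ := h2 _ (fun x hx => hj x (le_sup_left (a := L₂) (b := L₃) hx)) v
    rw [hy]
    exact Submodule.smul_mem_smul (Ideal.mem_span_singleton_self _) Submodule.mem_top
  · exact h3 _ (fun x hx => hj x (le_sup_right (a := L₂) (b := L₃) hx))

/-- **(ES∀) on `T_ℓ J₀(N)`**: `ρ(g) + χ_ℓ(g) ρ(g)⁻¹` commutes with `ρ(Γ)`. -/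
theorem esAll_TJ (hfin : {y : JZero N | ℓ • y = 0}.Finite) (g h : Γ) :
    Commute (rhoT ℓ N g + ((cyclo ℓ g : ℤ_[ℓ]ˣ) : ℤ_[ℓ]) • rhoT ℓ N g⁻¹) (rhoT ℓ N h) := by
  haveI := (finite_free (p := ℓ) (N := N) hfin).1
  haveI := (finite_free (p := ℓ) (N := N) hfin).2
  exact commute_of_dense (rhoT ℓ N) (cyclo ℓ) (fun n => Ideal.span {(ℓ : ℤ_[ℓ]) ^ n})
    (padic_eq_zero_of_forall_mem ℓ) (frobSet ℓ N) (frobSet_rel ℓ N)
    (frobSet_dense ℓ N hfin) g h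

/-! ### `Λ = T_ℓ(J)_ε` -/

open Fermat.Agent.M15.ToricTate3 in
/-- **(ES∀) on `Λ = T_ℓ(J₀(N))_ε`** (`M15/ToricTate3`): `ρ_Λ(g) + χ_ℓ(g) ρ_Λ(g)⁻¹` commutes with
`ρ_Λ(Γ)`. -/
theorem esAll_Lam {𝕋 : Type} [Ring 𝕋] [Module 𝕋 (JZero N)] [SMulCommClass Γ 𝕋 (JZero N)]
    (ε : 𝕋 →+* ZMod ℓ) (hfin : {y : JZero N | ℓ • y = 0}.Finite) (g h : Γ) :
    Commute (rhoLam (JZero N) ε g + ((cyclo ℓ g : ℤ_[ℓ]ˣ) : ℤ_[ℓ]) • rhoLam (JZero N) ε g⁻¹)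
      (rhoLam (JZero N) ε h) := by
  have key := esAll_TJ ℓ N hfin g h
  rw [Commute, SemiconjBy] at key ⊢
  refine LinearMap.ext fun x => toTate_injective ?_
  have hk := LinearMap.congr_fun key (toTate (JZero N) ε x)
  simp only [Module.End.mul_apply, LinearMap.add_apply, LinearMap.smul_apply, map_add, map_smul,
    toTate_rhoLam] at hk ⊢
  exact hk

/-- the operator `t_g = ρ_Λ(g) + χ_ℓ(g) ρ_Λ(g)⁻¹` of (HALF). -/
def tLam {𝕋 : Type} [Ring 𝕋] [Module 𝕋 (JZero N)] [SMulCommClass Γ 𝕋 (JZero N)]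
    (ε : 𝕋 →+* ZMod ℓ) (g : Γ) : Module.End ℤ_[ℓ] (ToricTate3.Lam (JZero N) ε) :=
  ToricTate3.rhoLam (JZero N) ε g +
    ((cyclo ℓ g : ℤ_[ℓ]ˣ) : ℤ_[ℓ]) • ToricTate3.rhoLam (JZero N) ε g⁻¹

theorem tLam_commute_rho {𝕋 : Type} [Ring 𝕋] [Module 𝕋 (JZero N)] [SMulCommClass Γ 𝕋 (JZero N)]
    (ε : 𝕋 →+* ZMod ℓ) (hfin : {y : JZero N | ℓ • y = 0}.Finite) (g h : Γ) :
    Commute (tLam ℓ N ε g) (ToricTate3.rhoLam (JZero N) ε h) := esAll_Lam ℓ N ε hfin g h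

/-- the `t_g` commute with each other. -/
theorem tLam_commute {𝕋 : Type} [Ring 𝕋] [Module 𝕋 (JZero N)] [SMulCommClass Γ 𝕋 (JZero N)]
    (ε : 𝕋 →+* ZMod ℓ) (hfin : {y : JZero N | ℓ • y = 0}.Finite) (g h : Γ) :
    Commute (tLam ℓ N ε g) (tLam ℓ N ε h) :=
  ((tLam_commute_rho ℓ N ε hfin g h).add_right
    ((tLam_commute_rho ℓ N ε hfin g h⁻¹).smul_right _))

/-- the quadratic relation `ρ(g)² - t_g ρ(g) + χ_ℓ(g) = 0` (a tautology). -/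
theorem rhoLam_quadratic {𝕋 : Type} [Ring 𝕋] [Module 𝕋 (JZero N)] [SMulCommClass Γ 𝕋 (JZero N)]
    (ε : 𝕋 →+* ZMod ℓ) (g : Γ) :
    ToricTate3.rhoLam (JZero N) ε g * ToricTate3.rhoLam (JZero N) ε g -
      tLam ℓ N ε g * ToricTate3.rhoLam (JZero N) ε g +
      ((cyclo ℓ g : ℤ_[ℓ]ˣ) : ℤ_[ℓ]) • (1 : Module.End ℤ_[ℓ] (ToricTate3.Lam (JZero N) ε)) = 0 := by
  exact quadratic_of_inv (rho_inv_mul (ToricTate3.rhoLam (JZero N) ε) g) _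

/-! ### unconditional forms (finiteness of `J₀(N)[ℓ]` is `ES/KUM/FiniteTorsion15`) -/

theorem finite_tors : {y : JZero N | ℓ • y = 0}.Finite :=
  haveI : NeZero ℓ := ⟨hℓ.out.ne_zero⟩
  Fermat.Agent.ES.KUM.FiniteTorsion15.finite_setOf_nsmul_eq_zero N ℓ

/-- **(ES∀) on `T_ℓ J₀(N)`, unconditional.** -/
theorem esAll_TJ' (g h : Γ) :
    Commute (rhoT ℓ N g + ((cyclo ℓ g : ℤ_[ℓ]ˣ) : ℤ_[ℓ]) • rhoT ℓ N g⁻¹) (rhoT ℓ N h) :=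
  esAll_TJ ℓ N (finite_tors ℓ N) g h

/-- **(ES∀) on `Λ = T_ℓ(J₀(N))_ε`, unconditional.** -/
theorem esAll_Lam' {𝕋 : Type} [Ring 𝕋] [Module 𝕋 (JZero N)] [SMulCommClass Γ 𝕋 (JZero N)]
    (ε : 𝕋 →+* ZMod ℓ) (g h : Γ) :
    Commute (ToricTate3.rhoLam (JZero N) ε g +
        ((cyclo ℓ g : ℤ_[ℓ]ˣ) : ℤ_[ℓ]) • ToricTate3.rhoLam (JZero N) ε g⁻¹)
      (ToricTate3.rhoLam (JZero N) ε h) :=
  esAll_Lam ℓ N ε (finite_tors ℓ N) g h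

end Concrete

end Fermat.Agent.M15.EsAll4
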