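/-
Programme M15 (S15), chapter (HALF), glue (CPM-Λ), part 1 (helper4): **pure algebra.**

* `exists_smul_eq_of_endCongr` : `f ≡ g mod π` on a finite free module ⇒ `f - g = π • w`;
* `mem_of_forall_endCongr` : a submodule `A` of `End 𝒪 Λ` (`𝒪` Noetherian local, `Λ` finite free) is
  `π`-adically closed: if `x ≡ a_n mod π^n` with `a_n ∈ A` for every `n`, then `x ∈ A`
  (Krull's intersection theorem for `End 𝒪 Λ ⧸ A`);
* `lucas_mem` : `F F' = F' F = 1`, `F + δ F' ∈ A` (a subalgebra) ⇒ `F^j + δ^j F'^j ∈ A`;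
* `mem_of_dense` : the abstract form of "`t_g ∈ A` for all `g`";
* `trace_restrict_eq` : `ι : Λ' → Λ` injective with a retraction `r`, `ι ∘ u' = u ∘ ι` ⇒
  `tr(u') = tr(u ∘ ι ∘ r)`.
-/
import Mathlib
import Fermat.Agent.ES.ALG.RelDense9
import Fermat.Agent.M15.EsAll4

set_option autoImplicit false
set_option linter.unusedSectionVars false
set_option linter.style.longLine false
set_option linter.style.haveILetI false

noncomputable section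

namespace Fermat.Agent.M15.CpmAlg4

open Module Fermat.Agent.ES.ALG.RelDense9 Fermat.Agent.M15.EsAll4

variable {𝒪 : Type*} [CommRing 𝒪] {Λ : Type*} [AddCommGroup Λ] [Module 𝒪 Λ]

/-- `f ≡ g mod π` on a finite free module ⇒ `f - g = π • w`. -/
theorem exists_smul_eq_of_endCongr [Module.Free 𝒪 Λ] [Module.Finite 𝒪 Λ] (π : 𝒪)
    {f g : End 𝒪 Λ} (h : EndCongr (Ideal.span {π}) f g) : ∃ w : End 𝒪 Λ, f - g = π • w := by
  classical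
  let b := Module.Free.chooseBasis 𝒪 Λ
  have hy : ∀ i, ∃ y : Λ, π • y = (f - g) (b i) := fun i => by
    have h1 := h (b i)
    rw [Submodule.ideal_span_singleton_smul, Submodule.mem_smul_pointwise_iff_exists] at h1
    obtain ⟨y, -, hy⟩ := h1
    exact ⟨y, by rw [hy, LinearMap.sub_apply]⟩
  choose y hy using hy
  refine ⟨b.constr 𝒪 y, b.ext fun i => ?_⟩
  rw [LinearMap.smul_apply, Basis.constr_basis, hy]

/-- **`π`-adic closedness** of submodules of `End 𝒪 Λ`. -/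
theorem mem_of_forall_endCongr [IsNoetherianRing 𝒪] [IsLocalRing 𝒪] [Module.Free 𝒪 Λ]
    [Module.Finite 𝒪 Λ] (π : 𝒪) (hπ : ¬ IsUnit π) (A : Submodule 𝒪 (End 𝒪 Λ)) (x : End 𝒪 Λ)
    (h : ∀ n : ℕ, ∃ a ∈ A, EndCongr (Ideal.span {π ^ n}) x a) : x ∈ A := by
  have hI : Ideal.span {π} ≠ ⊤ := by
    rw [Ne, Ideal.span_singleton_eq_top]
    exact hπ
  have key : A.mkQ x ∈ (⨅ i : ℕ, Ideal.span {π} ^ i • ⊤ : Submodule 𝒪 (End 𝒪 Λ ⧸ A)) := by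
    rw [Submodule.mem_iInf]
    intro n
    obtain ⟨a, ha, hxa⟩ := h n
    obtain ⟨w, hw⟩ := exists_smul_eq_of_endCongr (π ^ n) hxa
    have h1 : A.mkQ x = π ^ n • A.mkQ w := by
      have h0 : A.mkQ a = 0 := (Submodule.Quotient.mk_eq_zero A).2 ha
      rw [← map_smul, ← hw, map_sub, h0, sub_zero]
    rw [h1, Ideal.span_singleton_pow]
    exact Submodule.smul_mem_smul (Ideal.mem_span_singleton_self _) Submodule.mem_top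
  rw [Ideal.iInf_pow_smul_eq_bot_of_isLocalRing _ hI, Submodule.mem_bot] at key
  exact (Submodule.Quotient.mk_eq_zero A).1 key

/-- **Lucas in a subalgebra**. -/
theorem lucas_mem (A : Subalgebra 𝒪 (End 𝒪 Λ)) {F F' : End 𝒪 Λ} (hFF' : F * F' = 1)
    (hF'F : F' * F = 1) {δ : 𝒪} (h : F + δ • F' ∈ A) (j : ℕ) : F ^ j + δ ^ j • F' ^ j ∈ A := by
  suffices H : ∀ j : ℕ, F ^ j + δ ^ j • F' ^ j ∈ A ∧
      F ^ (j + 1) + δ ^ (j + 1) • F' ^ (j + 1) ∈ A from (H j).1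
  intro j
  induction j with
  | zero =>
    refine ⟨?_, ?_⟩
    · simp only [pow_zero, one_smul]
      exact A.add_mem A.one_mem A.one_mem
    · simpa using h
  | succ j ih =>
    obtain ⟨h0, h1⟩ := ih
    refine ⟨h1, ?_⟩
    have hFp : ∀ m : ℕ, F ^ (m + 1) * F' = F ^ m := fun m => by
      rw [pow_succ, mul_assoc, hFF', mul_one]
    have hF'p : ∀ m : ℕ, F' ^ (m + 1) * F = F' ^ m := fun m => by
      rw [pow_succ, mul_assoc, hF'F, mul_one]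
    have key : (F ^ (j + 1) + δ ^ (j + 1) • F' ^ (j + 1)) * (F + δ • F') =
        (F ^ (j + 1 + 1) + δ ^ (j + 1 + 1) • F' ^ (j + 1 + 1)) + δ • (F ^ j + δ ^ j • F' ^ j) := by
      simp only [add_mul, mul_add, smul_mul_assoc, mul_smul_comm, smul_add, smul_smul]
      rw [hFp j, hF'p j, ← pow_succ F, ← pow_succ F']
      have e1 : δ ^ (j + 1) * δ = δ ^ (j + 1 + 1) := (pow_succ δ (j + 1)).symm
      have e2 : δ * δ ^ j = δ ^ (j + 1) := (pow_succ' δ j).symm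
      rw [mul_comm δ (δ ^ (j + 1)), e1, e2]
      abel
    have hkey' : F ^ (j + 1 + 1) + δ ^ (j + 1 + 1) • F' ^ (j + 1 + 1) =
        (F ^ (j + 1) + δ ^ (j + 1) • F' ^ (j + 1)) * (F + δ • F') -
          δ • (F ^ j + δ ^ j • F' ^ j) := by
      rw [key]; abel
    rw [hkey']
    exact A.sub_mem (A.mul_mem h1 h) (A.smul_mem h0 δ)

variable {G : Type*} [Group G] (ρ : G →* End 𝒪 Λ) (d : G →* 𝒪ˣ)

/-- the congruence behind (ES∀): `t_g ≡ ρ(σ)^j + d(σ)^j ρ(σ)^{-j}` if `g⁻¹ σ^j ≡ 1`. -/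
theorem congr_lucas {I : Ideal 𝒪} {g σ : G} {j : ℕ}
    (h1 : EndCongr I (ρ (g⁻¹ * σ ^ j)) 1) (h2 : ((d (g⁻¹ * σ ^ j) : 𝒪ˣ) : 𝒪) - 1 ∈ I) :
    EndCongr I (ρ g + ((d g : 𝒪ˣ) : 𝒪) • ρ g⁻¹)
      (ρ σ ^ j + ((d σ : 𝒪ˣ) : 𝒪) ^ j • ρ σ⁻¹ ^ j) := by
  have hρ : EndCongr I (ρ g) (ρ σ ^ j) := by
    have h4 := h1.mul_left (ρ g)
    rw [← map_mul, mul_inv_cancel_left, map_pow, mul_one] at h4
    exact h4.symm
  have hd : ((d g : 𝒪ˣ) : 𝒪) - ((d σ : 𝒪ˣ) : 𝒪) ^ j ∈ I := by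
    have h5 : ((d g : 𝒪ˣ) : 𝒪) - ((d σ : 𝒪ˣ) : 𝒪) ^ j =
        -(((d g : 𝒪ˣ) : 𝒪) * (((d (g⁻¹ * σ ^ j) : 𝒪ˣ) : 𝒪) - 1)) := by
      have h6 : ((d g : 𝒪ˣ) : 𝒪) * ((d (g⁻¹ * σ ^ j) : 𝒪ˣ) : 𝒪) = ((d σ : 𝒪ˣ) : 𝒪) ^ j := by
        rw [← Units.val_mul, ← map_mul, mul_inv_cancel_left, map_pow, Units.val_pow_eq_pow_val]
      rw [mul_sub, h6, mul_one, neg_sub]
    rw [h5]
    exact I.neg_mem (I.mul_mem_left _ h2)
  have hinv : EndCongr I (ρ g⁻¹) (ρ σ⁻¹ ^ j) := by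
    refine hρ.inv (rho_inv_mul ρ g) ?_
    rw [← (show Commute (ρ σ) (ρ σ⁻¹) by
      rw [Commute, SemiconjBy, rho_mul_inv, rho_inv_mul]).mul_pow, rho_mul_inv, one_pow]
  exact hρ.add (hinv.smul hd)

/-- **`t_g ∈ A` for all `g`**, abstract form: `A` a subalgebra containing `t_σ` for `σ ∈ Φ`, the powers of
the elements of `Φ` dense. -/
theorem mem_of_dense [IsNoetherianRing 𝒪] [IsLocalRing 𝒪] [Module.Free 𝒪 Λ] [Module.Finite 𝒪 Λ]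
    (π : 𝒪) (hπ : ¬ IsUnit π) (A : Subalgebra 𝒪 (End 𝒪 Λ)) (Φ : Set G)
    (hΦ : ∀ σ ∈ Φ, ρ σ + ((d σ : 𝒪ˣ) : 𝒪) • ρ σ⁻¹ ∈ A)
    (hdense : ∀ (n : ℕ) (g : G), ∃ σ ∈ Φ, ∃ j : ℕ,
      EndCongr (Ideal.span {π ^ n}) (ρ (g⁻¹ * σ ^ j)) 1 ∧
      ((d (g⁻¹ * σ ^ j) : 𝒪ˣ) : 𝒪) - 1 ∈ Ideal.span {π ^ n}) (g : G) :
    ρ g + ((d g : 𝒪ˣ) : 𝒪) • ρ g⁻¹ ∈ A := by
  refine mem_of_forall_endCongr π hπ (Subalgebra.toSubmodule A) _ fun n => ?_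
  obtain ⟨σ, hσ, j, h1, h2⟩ := hdense n g
  exact ⟨_, lucas_mem A (rho_mul_inv ρ σ) (rho_inv_mul ρ σ) (hΦ σ hσ) j, congr_lucas ρ d h1 h2⟩

/-- trace of a restriction through a retraction. -/
theorem trace_restrict_eq {Λ' : Type*} [AddCommGroup Λ'] [Module 𝒪 Λ'] [Module.Free 𝒪 Λ]
    [Module.Finite 𝒪 Λ] [Module.Free 𝒪 Λ'] [Module.Finite 𝒪 Λ'] (ι : Λ' →ₗ[𝒪] Λ) (r : Λ →ₗ[𝒪] Λ')
    (hr : r ∘ₗ ι = LinearMap.id) (u' : End 𝒪 Λ') (u : End 𝒪 Λ) (hu : ι ∘ₗ u' = u ∘ₗ ι) :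
    LinearMap.trace 𝒪 Λ' u' = LinearMap.trace 𝒪 Λ (u * (ι ∘ₗ r)) := by
  have h1 : u' = r ∘ₗ (u ∘ₗ ι) := by
    rw [← hu, ← LinearMap.comp_assoc, hr, LinearMap.id_comp]
  rw [h1, LinearMap.trace_comp_comm']
  rfl

/-- lifting the elements of a generated algebra along an intertwiner. -/
theorem exists_lift_of_adjoin {Λ' : Type*} [AddCommGroup Λ'] [Module 𝒪 Λ'] (ι : Λ' →ₗ[𝒪] Λ)
    (S' : Set (End 𝒪 Λ')) (A : Subalgebra 𝒪 (End 𝒪 Λ))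
    (hS : ∀ t ∈ S', ∃ t' ∈ A, ι ∘ₗ t = t' ∘ₗ ι) (h : End 𝒪 Λ') (hh : h ∈ Algebra.adjoin 𝒪 S') :
    ∃ h' ∈ A, ι ∘ₗ h = h' ∘ₗ ι := by
  induction hh using Algebra.adjoin_induction with
  | mem t ht => exact hS t ht
  | algebraMap a =>
    refine ⟨algebraMap _ _ a, Subalgebra.algebraMap_mem _ a, LinearMap.ext fun x => ?_⟩
    simp only [LinearMap.comp_apply, Module.algebraMap_end_apply, map_smul]
  | add h₁ h₂ _ _ ih₁ ih₂ =>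
    obtain ⟨h₁', hm₁, e₁⟩ := ih₁
    obtain ⟨h₂', hm₂, e₂⟩ := ih₂
    refine ⟨h₁' + h₂', Subalgebra.add_mem _ hm₁ hm₂, ?_⟩
    rw [LinearMap.comp_add, LinearMap.add_comp, e₁, e₂]
  | mul h₁ h₂ _ _ ih₁ ih₂ =>
    obtain ⟨h₁', hm₁, e₁⟩ := ih₁
    obtain ⟨h₂', hm₂, e₂⟩ := ih₂
    refine ⟨h₁' * h₂', Subalgebra.mul_mem _ hm₁ hm₂, ?_⟩
    rw [Module.End.mul_eq_comp, Module.End.mul_eq_comp, ← LinearMap.comp_assoc, e₁,
      LinearMap.comp_assoc, e₂, LinearMap.comp_assoc]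

/-- **(CPM) descends to a retract**: `ι : Λ' → Λ` with retraction `r`, `E = ι ∘ r ∈ A`; if `tr(T ∘ c) = 0` for
all `T ∈ A` then `tr(h ∘ c') = 0` for all `h` in the algebra generated by `S'` (whose elements lift to `A`). -/
theorem trace_eq_zero_of_retract {Λ' : Type*} [AddCommGroup Λ'] [Module 𝒪 Λ'] [Module.Free 𝒪 Λ]
    [Module.Finite 𝒪 Λ] [Module.Free 𝒪 Λ'] [Module.Finite 𝒪 Λ'] (ι : Λ' →ₗ[𝒪] Λ) (r : Λ →ₗ[𝒪] Λ')
    (hr : r ∘ₗ ι = LinearMap.id) (A : Subalgebra 𝒪 (End 𝒪 Λ)) (hE : ι ∘ₗ r ∈ A)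
    (S' : Set (End 𝒪 Λ')) (hS : ∀ t ∈ S', ∃ t' ∈ A, ι ∘ₗ t = t' ∘ₗ ι)
    (c' : End 𝒪 Λ') (c : End 𝒪 Λ) (hc : ι ∘ₗ c' = c ∘ₗ ι)
    (hT0 : ∀ T ∈ A, LinearMap.trace 𝒪 Λ (T * c) = 0)
    (h : End 𝒪 Λ') (hh : h ∈ Algebra.adjoin 𝒪 S') : LinearMap.trace 𝒪 Λ' (h * c') = 0 := by
  obtain ⟨h', hh', e⟩ := exists_lift_of_adjoin ι S' A hS h hh
  have hu : ι ∘ₗ (h * c') = (h' * c) ∘ₗ ι := by
    rw [Module.End.mul_eq_comp, Module.End.mul_eq_comp, ← LinearMap.comp_assoc, e,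
      LinearMap.comp_assoc, hc, LinearMap.comp_assoc]
  rw [trace_restrict_eq ι r hr _ _ hu, LinearMap.trace_mul_comm, ← mul_assoc]
  exact hT0 _ (Subalgebra.mul_mem _ hE hh')

/-- transport of a trace identity along a linear equivalence, with a sign. -/
theorem trace_mul_eq_zero_of_conj {Λ' : Type*} [AddCommGroup Λ'] [Module 𝒪 Λ'] (e : Λ ≃ₗ[𝒪] Λ')
    (T c : End 𝒪 Λ) (i : End 𝒪 Λ') (hc : e.conj c = -i)
    (h0 : LinearMap.trace 𝒪 Λ' (e.conj T * i) = 0) : LinearMap.trace 𝒪 Λ (T * c) = 0 := by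
  have h1 : e.conj (T * c) = -(e.conj T * i) := by
    rw [Module.End.mul_eq_comp, LinearEquiv.conj_comp, hc, ← Module.End.mul_eq_comp, mul_neg]
  rw [← LinearMap.trace_conj' _ e, h1, map_neg, h0, neg_zero]

end Fermat.Agent.M15.CpmAlg4
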