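/-
Programme M15 (S15), chapter (HALF), glue (CPM-Λ), part 2 (helper4): **from the Tate module to `Λ = T_ℓ(J)_ε`.**

`J = J₀(N)(ℚ̄)`, `TJ = T_ℓ J`, `A = heckeAlgT ℓ N` the `ℤ_ℓ`-subalgebra of `End(TJ)` generated by the Hecke
operators `tT ℓ N r`, `r ∤ N`.

* `actT : 𝕋 →+* End(T_ℓ J)` : the action of a ring `𝕋` acting on `J`;
* `retr : T_ℓ J → Λ`, `(retr x)_k = e_k • x_k` (`e_k` the level `k` projectors of `KumMap6`), a retraction of
  `toTate : Λ → T_ℓ J`; `E = toTate ∘ retr ≡ actT e_k mod ℓ^k`;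
* `tTJ_mem` : `t_g = ρ(g) + χ(g) ρ(g)⁻¹ ∈ A` for every `g` (Chebotarev + `ℓ`-adic closedness of `A`);
* **`cpm_Lam`** : if `tr(T ∘ ρ(c) | TJ) = 0` for all `T ∈ A` (hypothesis `(T0)`, from (α1) + (α2)), then
  `tr(h ∘ ρ_Λ(c) | Λ) = 0` for all `h` in the `ℤ_ℓ`-algebra generated by the `t_g` on `Λ`.
-/
import Mathlib
import Fermat.Agent.M15.CpmAlg4
import Fermat.Agent.M15.EsAll4
import Fermat.Agent.M15.ToricTate3
import Fermat.Agent.M15.KumMap6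

set_option autoImplicit false
set_option linter.unusedSectionVars false
set_option linter.style.longLine false
set_option linter.style.haveILetI false

noncomputable section

namespace Fermat.Agent.M15.CpmLam4

open Module Fermat.Agent.ES.ALG.RelDense9 Fermat.Agent.M15.EsAll4 Fermat.Agent.M15.CpmAlg4
  Fermat.Agent.ES.J.TateModule13 Fermat.Agent.M15.KumRep6 Fermat.Agent.M15.KumMap6
  Fermat.Agent.M15.ToricTate3

local notation "Γ" => (AlgebraicClosure ℚ ≃ₐ[ℚ] AlgebraicClosure ℚ)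

/-! ### generic `J` -/

section Generic

variable {J : Type} [AddCommGroup J] [DistribMulAction Γ J]
  {𝕋 : Type} [Ring 𝕋] [Module 𝕋 J] [SMulCommClass Γ 𝕋 J] {ℓ : ℕ} [hℓ : Fact ℓ.Prime]

variable (J ℓ) in
/-- the action of `𝕋` on the Tate module. -/
def actT : 𝕋 →+* Module.End ℤ_[ℓ] (TateModule ℓ J) :=
  (mapEnd (p := ℓ) (J := J)).comp (Module.toAddMonoidEnd 𝕋 J)

theorem proj_actT (s : 𝕋) (x : TateModule ℓ J) (k : ℕ) : proj k (actT J ℓ s x) = s • proj k x := rfl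

variable (ε : 𝕋 →+* ZMod ℓ)

theorem IsProjK.of_succ {k : ℕ} {e : 𝕋} (he : IsProjK J ε (k + 1) e) : IsProjK J ε k e := by
  refine ⟨fun u hu => ?_, fun u hu => ?_⟩
  · have hu' : ℓ ^ (k + 1) • u = 0 := by rw [pow_succ, mul_comm, mul_smul, hu, smul_zero]
    refine ⟨?_, (he.mem u hu').2⟩
    rw [smul_comm, hu, smul_zero]
  · refine he.id u ⟨?_, hu.2⟩
    rw [pow_succ, mul_comm, mul_smul, hu.1, smul_zero]

variable (hfin : Finite {x : J // ℓ • x = 0}) (hcomm : CommOnTors J 𝕋 ℓ)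

/-- the chosen projector of level `k`. -/
def ek (k : ℕ) : 𝕋 := (exists_isProjK ε k hfin hcomm).choose

theorem ek_spec (k : ℕ) : IsProjK J ε k (ek ε hfin hcomm k) :=
  (exists_isProjK ε k hfin hcomm).choose_spec.2

theorem ek_succ_smul (k : ℕ) (u : J) (hu : ℓ ^ k • u = 0) :
    ek ε hfin hcomm (k + 1) • u = ek ε hfin hcomm k • u :=
  isProjK_eq hcomm (IsProjK.of_succ ε (ek_spec ε hfin hcomm (k + 1))) (ek_spec ε hfin hcomm k) u hu

/-- **the retraction `T_ℓ J → Λ`**: `(retr x)_k = e_k • x_k`. -/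
def retr : TateModule ℓ J →ₗ[ℤ_[ℓ]] Lam J ε where
  toFun x := ⟨fun k => ⟨ek ε hfin hcomm k • proj k x,
      kerE_le_Jeps k ((ek_spec ε hfin hcomm k).mem _ (pow_smul_proj k x))⟩, by
    refine ⟨Subtype.ext ?_, fun k => Subtype.ext ?_⟩
    · show ek ε hfin hcomm 0 • proj 0 x = 0
      rw [proj_apply, x.zero_apply', smul_zero]
    · show ℓ • (ek ε hfin hcomm (k + 1) • proj (k + 1) x) = ek ε hfin hcomm k • proj k x
      rw [smul_comm, proj_succ, ek_succ_smul ε hfin hcomm k _ (pow_smul_proj k x)]⟩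
  map_add' x y := by
    apply TateModule.ext'
    intro k
    apply Subtype.ext
    show ek ε hfin hcomm k • proj k (x + y) =
      ek ε hfin hcomm k • proj k x + ek ε hfin hcomm k • proj k y
    rw [map_add, smul_add]
  map_smul' a x := by
    apply TateModule.ext'
    intro k
    apply Subtype.ext
    show ek ε hfin hcomm k • proj k (a • x) = cf ℓ a k • (ek ε hfin hcomm k • proj k x)
    rw [proj_smul, smul_comm]

theorem proj_toTate_retr (x : TateModule ℓ J) (k : ℕ) :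
    proj k (toTate J ε (retr ε hfin hcomm x)) = ek ε hfin hcomm k • proj k x := rfl

theorem retr_toTate (y : Lam J ε) : retr ε hfin hcomm (toTate J ε y) = y := by
  apply TateModule.ext'
  intro k
  apply Subtype.ext
  show ek ε hfin hcomm k • ((proj k y : ↥(Jeps J ε)) : J) = ((proj k y : ↥(Jeps J ε)) : J)
  refine (ek_spec ε hfin hcomm k).id _ (mem_kerE_of_mem_Jeps (proj k y).2 ?_)
  have h := congrArg (fun z : ↥(Jeps J ε) => (z : J)) (pow_smul_proj k y)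
  simpa using h

theorem retr_comp_toTate : retr ε hfin hcomm ∘ₗ toTate J ε = LinearMap.id :=
  LinearMap.ext fun y => retr_toTate ε hfin hcomm y

/-- `E = toTate ∘ retr ≡ actT e_k mod ℓ^k`. -/
theorem endCongr_idem (k : ℕ) :
    EndCongr (Ideal.span {(ℓ : ℤ_[ℓ]) ^ k}) (toTate J ε ∘ₗ retr ε hfin hcomm)
      (actT J ℓ (ek ε hfin hcomm k)) := by
  intro v
  have h0 : proj k ((toTate J ε ∘ₗ retr ε hfin hcomm) v - actT J ℓ (ek ε hfin hcomm k) v) = 0 := by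
    rw [map_sub, LinearMap.comp_apply, proj_toTate_retr, proj_actT, sub_self]
  obtain ⟨y, hy⟩ := (proj_eq_zero_iff' k _).1 h0
  rw [hy]
  exact Submodule.smul_mem_smul (Ideal.mem_span_singleton_self _) Submodule.mem_top

end Generic

/-! ### `J = J₀(N)` -/

section Concrete

open ModularCurve Fermat.Agent.ES.J.TateJZero13 Fermat.Agent.ES.J.CycloChar8

variable (ℓ : ℕ) [hℓ : Fact ℓ.Prime] (N : ℕ) [NeZero N]

/-- **the `ℤ_ℓ`-algebra generated by the Hecke operators `T_r`, `r ∤ N`, on `T_ℓ J₀(N)`.** -/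
def heckeAlgT : Subalgebra ℤ_[ℓ] (Module.End ℤ_[ℓ] (TJ ℓ N)) :=
  Algebra.adjoin ℤ_[ℓ] {t | ∃ r : Nat.Primes, ¬ (r : ℕ) ∣ N ∧ t = tT ℓ N r}

theorem tT_mem (r : Nat.Primes) (hr : ¬ (r : ℕ) ∣ N) : tT ℓ N r ∈ heckeAlgT ℓ N :=
  Algebra.subset_adjoin ⟨r, hr, rfl⟩

theorem not_isUnit_prime : ¬ IsUnit (ℓ : ℤ_[ℓ]) := by
  have h := (PadicInt.irreducible_p (p := ℓ)).not_isUnit
  exact h

/-- **`t_g ∈ A` for every `g`.** -/
theorem tTJ_mem (g : Γ) :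
    rhoT ℓ N g + ((cyclo ℓ g : ℤ_[ℓ]ˣ) : ℤ_[ℓ]) • rhoT ℓ N g⁻¹ ∈ heckeAlgT ℓ N := by
  haveI := (finite_free (p := ℓ) (N := N) (finite_tors ℓ N)).1
  haveI := (finite_free (p := ℓ) (N := N) (finite_tors ℓ N)).2
  refine mem_of_dense (rhoT ℓ N) (cyclo ℓ) (ℓ : ℤ_[ℓ]) (not_isUnit_prime ℓ) (heckeAlgT ℓ N)
    (frobSet ℓ N) ?_ (frobSet_dense ℓ N (finite_tors ℓ N)) g
  rintro σ ⟨r, hr, hrN, hrℓ, A, hA, hfrob⟩
  have h1 := rhoT_frobenius hr hrN hrℓ hA hfrob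
  have hrel : rhoT ℓ N σ + ((cyclo ℓ σ : ℤ_[ℓ]ˣ) : ℤ_[ℓ]) • rhoT ℓ N σ⁻¹ = tT ℓ N ⟨r, hr⟩ := by
    rw [cyclo_of_isFrobeniusAt ℓ hr hrℓ A hA hfrob]
    have := congrArg (fun x => x * rhoT ℓ N σ⁻¹) h1
    simp only [add_mul, sub_mul, smul_mul_assoc, mul_assoc, rho_mul_inv, mul_one, one_mul,
      zero_mul] at this
    rw [sub_add_eq_add_sub, sub_eq_zero] at this
    exact this
  rw [hrel]
  exact tT_mem ℓ N ⟨r, hr⟩ hrN

variable {𝕋 : Type} [Ring 𝕋] [Module 𝕋 (JZero N)] [SMulCommClass Γ 𝕋 (JZero N)]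
  (ε : 𝕋 →+* ZMod ℓ)

/-- `toTate` intertwines `t_g` on `Λ` with `t_g` on `T_ℓ J₀(N)`. -/
theorem toTate_tLam (g : Γ) :
    toTate (JZero N) ε ∘ₗ tLam ℓ N ε g =
      (rhoT ℓ N g + ((cyclo ℓ g : ℤ_[ℓ]ˣ) : ℤ_[ℓ]) • rhoT ℓ N g⁻¹) ∘ₗ toTate (JZero N) ε := by
  refine LinearMap.ext fun x => ?_
  simp only [LinearMap.comp_apply, tLam, LinearMap.add_apply, LinearMap.smul_apply, map_add,
    map_smul, toTate_rhoLam]
  rfl

theorem toTate_comp_rhoLam (c : Γ) :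
    toTate (JZero N) ε ∘ₗ rhoLam (JZero N) ε c = rhoT ℓ N c ∘ₗ toTate (JZero N) ε :=
  LinearMap.ext fun x => toTate_rhoLam c x

/-- **(CPM) on `Λ`** from (T0) on `T_ℓ J₀(N)`. -/
theorem cpm_Lam (hcomm : CommOnTors (JZero N) 𝕋 ℓ)
    (hact : ∀ s : 𝕋, actT (JZero N) ℓ s ∈ heckeAlgT ℓ N) (c : Γ)
    (hT0 : ∀ T ∈ heckeAlgT ℓ N, LinearMap.trace ℤ_[ℓ] (TJ ℓ N) (T * rhoT ℓ N c) = 0)
    (h : Module.End ℤ_[ℓ] (Lam (JZero N) ε))
    (hh : h ∈ Algebra.adjoin ℤ_[ℓ] (Set.range (tLam ℓ N ε))) :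
    LinearMap.trace ℤ_[ℓ] (Lam (JZero N) ε) (h * rhoLam (JZero N) ε c) = 0 := by
  have hfin : Finite {x : JZero N // ℓ • x = 0} := (finite_tors ℓ N).to_subtype
  haveI := (finite_free (p := ℓ) (N := N) (finite_tors ℓ N)).1
  haveI := (finite_free (p := ℓ) (N := N) (finite_tors ℓ N)).2
  haveI := (finite_free_Lam (J := JZero N) (ε := ε) hfin).1
  haveI := (finite_free_Lam (J := JZero N) (ε := ε) hfin).2
  -- the idempotent lies in `A`
  have hE : toTate (JZero N) ε ∘ₗ retr ε hfin hcomm ∈ heckeAlgT ℓ N := by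
    refine mem_of_forall_endCongr (ℓ : ℤ_[ℓ]) (not_isUnit_prime ℓ)
      (Subalgebra.toSubmodule (heckeAlgT ℓ N)) _ fun n => ?_
    exact ⟨_, hact (ek ε hfin hcomm n), endCongr_idem ε hfin hcomm n⟩
  refine trace_eq_zero_of_retract (toTate (JZero N) ε) (retr ε hfin hcomm)
    (retr_comp_toTate ε hfin hcomm) (heckeAlgT ℓ N) hE (Set.range (tLam ℓ N ε)) ?_
    (rhoLam (JZero N) ε c) (rhoT ℓ N c) (toTate_comp_rhoLam ℓ N ε c) hT0 h hh
  rintro _ ⟨g, rfl⟩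
  exact ⟨_, tTJ_mem ℓ N g, toTate_tLam ℓ N ε g⟩

end Concrete

end Fermat.Agent.M15.CpmLam4
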