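/-
Programme M15 (target S15), chapter (HALF), leaf (α1), helper6, file 1: **complex conjugation on
functions on the upper half plane**.

`cjFun g z = conj (g (J • z))`, `J • z = -conj z`.
* `cjH : HolH →+* HolH` (conjugate-linear ring automorphism of the holomorphic functions on `ℍ`),
  `cjM : MerH →+* MerH` its extension to the meromorphic functions;
* `cjM_const : cjM (const c) = const (conj c)`;
* `slMer_cjM : slMer γ (cjM h) = cjM (slMer (jConjSL γ) h)` (`jConjSL γ = J γ J`, the Prelude's
  involution of `SL(2, ℤ)`).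
-/
import Mathlib
import Fermat.Agent.S21.ConjForm
import Fermat.Agent.ES.KUM.CReal5

set_option autoImplicit false
set_option linter.unusedSectionVars false

open UpperHalfPlane ModularCurve ModularCurve.Period
open scoped Topology Manifold MatrixGroups ComplexConjugate

noncomputable section

namespace Fermat.Agent.M15.ConjMer6

open Fermat.Agent.X0 Fermat.Agent.X0.SurjPoint Fermat.Agent.ES.KUM Fermat.Agent.S21.ConjForm

/-! ### On functions -/

/-- `g ↦ (z ↦ conj (g (-conj z)))`. -/
def cjFun (g : ℍ → ℂ) : ℍ → ℂ := fun z => conj (g (J • z))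

@[simp] theorem cjFun_apply (g : ℍ → ℂ) (z : ℍ) : cjFun g z = conj (g (J • z)) := rfl

theorem cjFun_cjFun (g : ℍ → ℂ) : cjFun (cjFun g) = g := by
  funext z
  rw [cjFun_apply, cjFun_apply, J_smul_J_smul, Complex.conj_conj]

theorem cjFun_add (g h : ℍ → ℂ) : cjFun (g + h) = cjFun g + cjFun h := by
  funext z
  simp only [cjFun_apply, Pi.add_apply, map_add]

theorem cjFun_mul (g h : ℍ → ℂ) : cjFun (g * h) = cjFun g * cjFun h := by
  funext z
  simp only [cjFun_apply, Pi.mul_apply, map_mul]

theorem cjFun_const (c : ℂ) : cjFun (fun _ => c) = fun _ => conj c := rfl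

/-- `cjFun` and `compSL`. -/
theorem compSL_cjFun (g : ℍ → ℂ) (γ : SL(2, ℤ)) :
    compSL (cjFun g) γ = cjFun (compSL g (jConjSL γ)) := by
  funext z
  show conj (g (J • (γ • z))) = conj (g (jConjSL γ • (J • z)))
  rw [jConjSL_smul_J_smul]

/-- `cjFun` preserves holomorphy. -/
theorem mdifferentiable_cjFun {g : ℍ → ℂ} (hg : MDifferentiable 𝓘(ℂ) 𝓘(ℂ) g) :
    MDifferentiable 𝓘(ℂ) 𝓘(ℂ) (cjFun g) := by
  rw [UpperHalfPlane.mdifferentiable_iff] at hg ⊢
  -- `G = g ∘ ofComplex` is differentiable on the upper half plane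
  set G : ℂ → ℂ := g ∘ ofComplex with hG
  -- `G₁ u = G (-u)` on the lower half plane
  have hG₁ : ∀ u : ℂ, u.im < 0 → DifferentiableAt ℂ (fun u => G (-u)) u := by
    intro u hu
    have h1 : DifferentiableAt ℂ G (-u) :=
      (hg (-u) (by simpa using hu)).differentiableAt
        (isOpen_upperHalfPlaneSet.mem_nhds (by simpa using hu))
    exact h1.comp u (differentiable_neg u)
  intro w hw
  have hw' : 0 < w.im := hw
  have h2 : DifferentiableAt ℂ (conj ∘ (fun u => G (-u)) ∘ conj) (conj (conj w)) :=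
    (hG₁ (conj w) (by simpa using hw')).conj_conj
  rw [Complex.conj_conj] at h2
  refine (h2.differentiableWithinAt).congr (fun y hy => ?_) ?_
  · have hy' : 0 < y.im := hy
    show conj (g (J • ofComplex y)) = conj (G (-conj y))
    rw [J_smul, hG, Function.comp_apply, ofComplex_apply_of_im_pos hy']
  · show conj (g (J • ofComplex w)) = conj (G (-conj w))
    rw [J_smul, hG, Function.comp_apply, ofComplex_apply_of_im_pos hw']

/-! ### On `HolH` -/

/-- complex conjugation on the holomorphic functions on `ℍ`. -/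
def cjH : HolH →+* HolH where
  toFun f := ⟨cjFun f.1, mdifferentiable_cjFun f.2⟩
  map_one' := Subtype.ext (by
    show cjFun (fun _ => (1 : ℂ)) = fun _ => (1 : ℂ)
    rw [cjFun_const, map_one])
  map_mul' f g := Subtype.ext (cjFun_mul f.1 g.1)
  map_zero' := Subtype.ext (by
    show cjFun (fun _ => (0 : ℂ)) = fun _ => (0 : ℂ)
    rw [cjFun_const, map_zero])
  map_add' f g := Subtype.ext (cjFun_add f.1 g.1)

@[simp] theorem coe_cjH (f : HolH) : ((cjH f : HolH) : ℍ → ℂ) = cjFun f.1 := rfl

theorem cjH_cjH (f : HolH) : cjH (cjH f) = f := Subtype.ext (cjFun_cjFun f.1)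

theorem cjH_injective : Function.Injective cjH := fun f g h => by
  rw [← cjH_cjH f, h, cjH_cjH]

theorem cjH_algebraMap (c : ℂ) : cjH (algebraMap ℂ HolH c) = algebraMap ℂ HolH (conj c) :=
  Subtype.ext (cjFun_const c)

theorem compSLHom_cjH (γ : SL(2, ℤ)) (f : HolH) :
    compSLHom γ (cjH f) = cjH (compSLHom (jConjSL γ) f) :=
  Subtype.ext (compSL_cjFun f.1 γ)

/-! ### On `MerH` -/

/-- complex conjugation on the meromorphic functions on `ℍ`. -/
def cjM : MerH →+* MerH :=
  IsFractionRing.lift (A := HolH) (K := MerH) (g := (algebraMap HolH MerH).comp cjH)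
    ((IsFractionRing.injective HolH MerH).comp cjH_injective)

theorem cjM_algebraMap (a : HolH) :
    cjM (algebraMap HolH MerH a) = algebraMap HolH MerH (cjH a) :=
  IsFractionRing.lift_algebraMap _ a

theorem cjM_div (a b : HolH) :
    cjM (algebraMap HolH MerH a / algebraMap HolH MerH b) =
      algebraMap HolH MerH (cjH a) / algebraMap HolH MerH (cjH b) := by
  rw [map_div₀, cjM_algebraMap, cjM_algebraMap]

theorem cjM_const (c : ℂ) :
    cjM (algebraMap HolH MerH (algebraMap ℂ HolH c)) =
      algebraMap HolH MerH (algebraMap ℂ HolH (conj c)) := by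
  rw [cjM_algebraMap, cjH_algebraMap]

theorem cjM_cjM (h : MerH) : cjM (cjM h) = h := by
  obtain ⟨a, b, -, rfl⟩ := exists_div_MerH h
  rw [cjM_div, cjM_div, cjH_cjH, cjH_cjH]

/-- **`slMer γ ∘ cjM = cjM ∘ slMer (J γ J)`.** -/
theorem slMer_cjM (γ : SL(2, ℤ)) (h : MerH) :
    slMer γ (cjM h) = cjM (slMer (jConjSL γ) h) := by
  obtain ⟨a, b, -, rfl⟩ := exists_div_MerH h
  rw [cjM_div, slMer_div, slMer_div, cjM_div, compSLHom_cjH, compSLHom_cjH]

end Fermat.Agent.M15.ConjMer6
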