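/-
Programme M15 (target S15), chapter (HALF), leaf (α1), helper6, file 2: **complex conjugation on
`F_ℂ = ℂ(j_d : d ∣ N) ⊂ ℂ((q))` (coefficientwise) is `cjM` on the analytic side**.

* `hasQExp_cjFun` : if `g` has the convergent `q`-expansion `x` then `z ↦ conj (g (-conj z))` has
  the `q`-expansion `x` with conjugated coefficients;
* `conjC N : SemilinearAut ℂ (FC N)` = the Prelude's `arithmeticGalois` at the Prelude's
  `complexConjAlgEquiv : ℂ ≃ₐ[ℚ] ℂ`; it preserves `R_ℂ = ℂ[j_d]` (`conjRC`);
* `realC_conjRC : realC N (conjRC u) = cjH (realC N u)`;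
* **`realMer_conjC : realMer N (conjC N • f) = cjM (realMer N f)`**.
-/
import Mathlib
import Fermat.Prelude.Def_GaloisRep_ComplexConjugation
import Fermat.Prelude.Def_ModularCurve_ArithmeticGalois
import Fermat.Agent.X0.QExpRing
import Fermat.Agent.M15.ConjMer6

set_option autoImplicit false
set_option linter.unusedSectionVars false

open UpperHalfPlane ModularCurve HahnSeries AlgebraicCurve
open scoped Topology Manifold MatrixGroups ComplexConjugate

noncomputable section

namespace Fermat.Agent.M15.ConjQExp6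

open Fermat.Agent.X0 Fermat.Agent.X0.Analytic Fermat.Agent.X0.SurjPoint Fermat.Agent.X0.JQExp
  Fermat.Agent.ES.KUM Fermat.Agent.S21.ConjForm Fermat.Agent.M15.ConjMer6

/-! ### Taylor series of `conj ∘ G ∘ conj` -/

theorem iteratedDeriv_conj_conj (G : ℂ → ℂ) (n : ℕ) :
    iteratedDeriv n (conj ∘ G ∘ conj) = conj ∘ iteratedDeriv n G ∘ conj := by
  induction n with
  | zero => simp only [iteratedDeriv_zero]
  | succ n ih => rw [iteratedDeriv_succ, ih, deriv_conj_conj, ← iteratedDeriv_succ]

theorem tps_conj_conj (G : ℂ → ℂ) : tps (conj ∘ G ∘ conj) = (tps G).map (starRingEnd ℂ) := by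
  ext m
  rw [PowerSeries.coeff_map, tps_coeff, tps_coeff, iteratedDeriv_conj_conj]
  simp only [Function.comp_apply, map_zero, map_mul, map_inv₀, map_natCast]

theorem qH_J_smul (z : ℍ) : qH (J • z) = conj (qH z) := by
  unfold qH Function.Periodic.qParam
  rw [coe_J_smul, ← Complex.exp_conj]
  congr 1
  simp only [map_div₀, map_mul, Complex.conj_I, Complex.conj_ofReal, map_ofNat, Complex.ofReal_one,
    map_one]
  ring

/-- **conjugation of convergent `q`-expansions.** -/
theorem hasQExp_cjFun {x : LaurentSeries ℂ} {g : ℍ → ℂ} (h : HasQExp x g) (φ : ℂ →+* ℂ)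
    (hφ : ∀ z, φ z = conj z) : HasQExp (coeffMap φ x) (cjFun g) := by
  obtain ⟨m, G, hG, hx, hg⟩ := h
  have hφ' : φ = starRingEnd ℂ := RingHom.ext hφ
  refine ⟨m, conj ∘ G ∘ conj, ?_, ?_, ?_⟩
  · intro q hq
    have hq' : conj q ∈ Metric.ball (0 : ℂ) 1 := by
      rw [mem_ball_zero_iff] at hq ⊢
      rwa [RCLike.norm_conj]
    have h1 : DifferentiableAt ℂ G (conj q) :=
      (hG (conj q) hq').differentiableAt (Metric.isOpen_ball.mem_nhds hq')
    have h2 := h1.conj_conj
    rw [Complex.conj_conj] at h2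
    exact h2.differentiableWithinAt
  · rw [hx, tps_conj_conj, hφ', lau_eq_laurentOf, lau_eq_laurentOf, coeffMap_laurentOf]
  · intro z
    have h1 := hg (J • z)
    rw [qH_J_smul] at h1
    show conj (g (J • z)) * qH z ^ m = conj (G (conj (qH z)))
    rw [← h1, map_mul, map_pow, Complex.conj_conj]

/-! ### Complex conjugation on `F_ℂ` -/

variable (N : ℕ) [NeZero N]

/-- complex conjugation of the coefficients, as a semilinear automorphism of `F_ℂ`. -/
def conjC : SemilinearAut ℂ (FC N) :=
  arithmeticGalois (modularFunctionFieldFull N) complexConjAlgEquiv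

theorem coe_conjC_smul (f : FC N) :
    ((conjC N • f : FC N) : LaurentSeries ℂ) =
      coeffMap (complexConjAlgEquiv : ℂ →+* ℂ) (f : LaurentSeries ℂ) := rfl

theorem conjC_smul_algebraMap (c : ℂ) :
    conjC N • algebraMap ℂ (FC N) c = algebraMap ℂ (FC N) (conj c) :=
  arithmeticRingAut_algebraMap (modularFunctionFieldFull N) complexConjAlgEquiv c

theorem conjC_smul_mul (f g : FC N) : conjC N • (f * g) = conjC N • f * conjC N • g :=
  smul_mul' (conjC N) f g

theorem conjC_smul_jdC (d : ℕ) [NeZero d] (hd : d ∣ N) : conjC N • jdC N d hd = jdC N d hd := by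
  apply Subtype.ext
  rw [coe_conjC_smul, coe_jdC, coeffMap_coeffEmb]

theorem conjC_smul_mem_RC {f : FC N} (hf : f ∈ RC N) : conjC N • f ∈ RC N := by
  unfold RC at hf ⊢
  induction hf using Algebra.adjoin_induction with
  | mem y hy =>
      obtain ⟨d, hne, hd, rfl⟩ := hy
      haveI := hne
      rw [conjC_smul_jdC]
      exact Algebra.subset_adjoin (jdC_mem_genSetC N d hd)
  | algebraMap c =>
      rw [conjC_smul_algebraMap]
      exact Subalgebra.algebraMap_mem _ _
  | add y z _ _ hy hz =>
      rw [smul_add]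
      exact add_mem hy hz
  | mul y z _ _ hy hz =>
      rw [conjC_smul_mul]
      exact mul_mem hy hz

/-- complex conjugation on `R_ℂ = ℂ[j_d : d ∣ N]`. -/
def conjRC (u : RC N) : RC N := ⟨conjC N • (u : FC N), conjC_smul_mem_RC N u.2⟩

@[simp] theorem coe_conjRC (u : RC N) : ((conjRC N u : RC N) : FC N) = conjC N • (u : FC N) := rfl

/-- **the realisation of `R_ℂ` intertwines the two conjugations.** -/
theorem realC_conjRC (u : RC N) : realC N (conjRC N u) = cjH (realC N u) := by
  apply Subtype.ext
  apply realC_eq_of_hasQExp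
  rw [coe_conjRC, coe_conjC_smul]
  exact hasQExp_cjFun (hasQExp_realC N u) _ (fun _ => rfl)

theorem conjRC_ne_zero {u : RC N} (hu : u ≠ 0) : conjRC N u ≠ 0 := by
  intro h
  apply hu
  have h1 : conjC N • (u : FC N) = 0 := congrArg Subtype.val h
  have h2 : (u : FC N) = 0 := by
    have := congrArg (fun f => (conjC N)⁻¹ • f) h1
    simpa using this
  exact Subtype.ext h2

/-- **the realisation of `F_ℂ` intertwines the two conjugations.** -/
theorem realMer_conjC (f : FC N) : realMer N (conjC N • f) = cjM (realMer N f) := by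
  obtain ⟨u, s, -, rfl⟩ := exists_divC_ne_zero N f
  have h1 : conjC N • ((u : FC N) / (s : FC N)) =
      ((conjRC N u : RC N) : FC N) / ((conjRC N s : RC N) : FC N) := by
    rw [coe_conjRC, coe_conjRC, div_eq_mul_inv, conjC_smul_mul, div_eq_mul_inv]
    congr 1
    exact smul_inv'' (conjC N) (s : FC N)
  rw [h1, map_div₀, map_div₀, realMer_coe, realMer_coe, realMer_coe, realMer_coe, cjM_div,
    realC_conjRC, realC_conjRC]

end Fermat.Agent.M15.ConjQExp6
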