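/-
Programme M15 (target S15), chapter (HALF), leaf (α1), helper6, file 3: **base change of places,
divisors and divisor classes along `k ⊆ K` is equivariant for compatible semilinear automorphisms**
(setting of `J/DESC/ConstExt24`, `ExtPic22`; generalises `ExtPic22.smul_extPlace/…` from automorphisms
fixing `ι Fk` pointwise to pairs `(g₀, g)` with `g • ι f = ι (g₀ • f)`).
-/
import Mathlib
import Fermat.Agent.J.DESC.ExtPic22

set_option autoImplicit false
set_option linter.unusedSectionVars false

namespace Fermat.Agent.M15.ExtSemi6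

open AlgebraicCurve Fermat.Agent.X0 Fermat.Agent.J.DESC.ConstExt24 Fermat.Agent.J.DESC.ExtPic22
open scoped Pointwise

noncomputable section

universe u v w x

variable {k : Type u} {K : Type v} {Fk : Type w} {FK : Type x} [Field k] [Field K] [Field Fk]
  [Field FK] [Algebra k K] [Algebra k Fk] [Algebra K FK]
  [IsAlgClosed k] [CharZero k] [IsAlgClosed K] [CharZero K] {ι : Fk →+* FK}
  (hι : IsConstExt (k := k) (K := K) ι) {x : Fk} (hx : FF.IsGen k x) {X : FK} (hX : FF.IsGen K X)
  (g : SemilinearAut K FK) (g₀ : SemilinearAut k Fk) (hg : ∀ f : Fk, g • ι f = ι (g₀ • f))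

include hg in
theorem inv_smul_map (a : Fk) : g⁻¹ • ι a = ι (g₀⁻¹ • a) := by
  rw [inv_smul_eq_iff, hg, smul_inv_smul]

include hg in
/-- compatible semilinear automorphisms preserve "lying over". -/
theorem liesOver_smul_smul {v' : Place K FK} {w : Place k Fk} (h : LiesOver ι v' w) :
    LiesOver ι (g • v') (g₀ • w) := by
  intro a
  rw [SemilinearAut.smul_toValuationSubring, SemilinearAut.smul_toValuationSubring,
    ValuationSubring.mem_pointwise_smul_iff_inv_smul_mem,
    ValuationSubring.mem_pointwise_smul_iff_inv_smul_mem, inv_smul_map g g₀ hg, h]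

include hx hg in
theorem smul_extPlace (w : Place k Fk) :
    g • extPlace ι hι hX w = extPlace ι hι hX (g₀ • w) :=
  eq_extPlace_of_liesOver hι hx hX (liesOver_smul_smul g g₀ hg (extPlace_liesOver hι hX w))

include hx hg in
theorem smul_extDiv (D : Divisor k Fk) :
    g • extDiv hι hX D = extDiv hι hX (g₀ • D) := by
  rw [SemilinearAut.divisor_smul_def, SemilinearAut.divisor_smul_def, extDiv_apply, extDiv_apply,
    ← Finsupp.mapDomain_comp, ← Finsupp.mapDomain_comp]
  congr 1
  funext w
  exact smul_extPlace hι hx hX g g₀ hg w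

include hg in
theorem smul_extPic0 (y : Pic0 k Fk) :
    g • extPic0 hι hx hX y = extPic0 hι hx hX (g₀ • y) := by
  obtain ⟨D, rfl⟩ := Pic0.mk_surjective y
  rw [extPic0_mk, SemilinearAut.pic0_smul_mk, SemilinearAut.pic0_smul_mk, extPic0_mk]
  refine congrArg Pic0.mk (Subtype.ext ?_)
  rw [SemilinearAut.coe_degZeroSMulHom, coe_extDegZero, coe_extDegZero,
    SemilinearAut.coe_degZeroSMulHom, smul_extDiv hι hx hX g g₀ hg]

end

end Fermat.Agent.M15.ExtSemi6
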