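/-
Programme M15 (target S15), chapter (HALF), leaf (α1), helper6, file 4: **the Kummer system of
`J_0(N)` and complex conjugation**.

`c = complexConjugation ∈ Gal(ℚ̄/ℚ)` (Prelude), `conjC N` = complex conjugation of the coefficients
of `F_ℂ ⊂ ℂ((q))`, `cjM` = `h ↦ conj h(-conj z)` on meromorphic functions on `ℍ`.

* `conjC_smul_extPic0C : conjC N • extPic0C N x = extPic0C N (c • x)`;
* `isKum_conj` : if `χ` is the Kummer character of (the base change of) `x` at level `n`, then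
  `γ ↦ conj (χ (J γ J))` is the Kummer character of `c • x`;
* `kappa_conj` : on `J_0(N)[p^k]`, `κ_k (c • x) = - κ_k x ∘ (γ ↦ J γ J)` (additively);
* **`tateEquivJ_conj`** : under `T_p J_0(N) ≅ Hom_par(Γ_0(N), ℤ_p)` the complex conjugation
  corresponds to `-charInvolution` (Prelude's involution induced by `γ ↦ J γ J`).
-/
import Mathlib
import Fermat.Agent.M15.ConjQExp6
import Fermat.Agent.M15.ExtSemi6
import Fermat.Agent.ES.J.KummerSystemFinal24

set_option autoImplicit false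
set_option linter.unusedSectionVars false
set_option linter.style.longLine false
set_option synthInstance.maxHeartbeats 400000

open AlgebraicCurve ModularCurve CongruenceSubgroup ModularCurve.Period
open scoped MatrixGroups ComplexConjugate

noncomputable section

namespace Fermat.Agent.M15.ConjKum6

open Fermat.Agent.X0 Fermat.Agent.X0.SurjPoint Fermat.Agent.ES.KUM Fermat.Agent.ES.KUM.KumInst18
  Fermat.Agent.ES.KUM.KummerAbstract17 Fermat.Agent.ES.KUM.FieldL25
open Fermat.Agent.J.DESC.DescentFinal24 Fermat.Agent.J.DESC.ExtPic22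
open Fermat.Agent.ES.J.TateModule13 Fermat.Agent.ES.J.TateChar11 Fermat.Agent.ES.J.TateJZero13
open Fermat.Agent.ES.J.KummerSystemJ24
open Fermat.Agent.M15.ConjMer6 Fermat.Agent.M15.ConjQExp6

attribute [local instance] instAlgebraQbarComplex instTowerQbarComplex

variable (N : ℕ) [NeZero N]

/-! ### Base change and the two conjugations -/

/-- the complex conjugation of `Gal(ℚ̄/ℚ)` acting on `F_ℚ̄`. -/
def conjQ : SemilinearAut Qb (FQ N) :=
  arithmeticGalois (modularFunctionFieldFull N) complexConjugation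

theorem conjC_smul_bcQC (f : FQ N) : conjC N • bcQC N f = bcQC N (conjQ N • f) := by
  apply Subtype.ext
  rw [coe_conjC_smul, coe_bcQC, coe_bcQC]
  show _ = coeffMap (algebraMap Qb ℂ) (coeffMap ((complexConjugation : Qb ≃ₐ[ℚ] Qb) : Qb →+* Qb)
    (f : LaurentSeries Qb))
  rw [coeffMap_coeffMap, coeffMap_coeffMap]
  refine coeffMap_congr (RingHom.ext fun a => ?_) _
  exact (complexEmbedding_complexConjugation a).symm

/-- **base change of classes intertwines the two conjugations.** -/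
theorem conjC_smul_extPic0C (x : JZero N) :
    conjC N • extPic0C N x = extPic0C N (complexConjugation • x) :=
  Fermat.Agent.M15.ExtSemi6.smul_extPic0 (isConstExt_bcQC N) (isGen_jL Qb N) (isGen_jL ℂ N)
    (conjC N) (conjQ N) (conjC_smul_bcQC N) x

/-! ### The conjugate character -/

/-- complex conjugation on `ℂˣ`. -/
def conjU : ℂˣ →* ℂˣ := Units.map ((starRingEnd ℂ : ℂ →+* ℂ) : ℂ →* ℂ)

@[simp] theorem coe_conjU (z : ℂˣ) : ((conjU z : ℂˣ) : ℂ) = conj (z : ℂ) := rfl

/-- `χ ↦ (γ ↦ conj (χ (J γ J)))`. -/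
def conjChar (χ : ↥(Gamma0 N) →* ℂˣ) : ↥(Gamma0 N) →* ℂˣ :=
  conjU.comp (χ.comp (jConjGamma0 N))

@[simp] theorem conjChar_apply (χ : ↥(Gamma0 N) →* ℂˣ) (γ : ↥(Gamma0 N)) :
    conjChar N χ γ = conjU (χ (jConjGamma0 N γ)) := rfl

/-- for a root of unity, `conj z = z⁻¹`. -/
theorem conjU_eq_inv {z : ℂˣ} {n : ℕ} (hn : n ≠ 0) (hz : z ^ n = 1) : conjU z = z⁻¹ := by
  have h1 : ‖(z : ℂ)‖ = 1 := by
    have h2 : (z : ℂ) ^ n = 1 := by
      have := congrArg (fun u : ℂˣ => (u : ℂ)) hz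
      simpa using this
    exact Complex.norm_eq_one_of_pow_eq_one h2 hn
  apply eq_inv_of_mul_eq_one_left
  apply Units.ext
  show conj (z : ℂ) * (z : ℂ) = 1
  rw [mul_comm, Complex.mul_conj, Complex.normSq_eq_norm_sq, h1]
  norm_num

/-! ### (α1), the Kummer relation -/

/-- **the Kummer character of the complex conjugate class.** -/
theorem isKum_conj (n : ℕ) (x : JZero N) (χ : ↥(Gamma0 N) →* ℂˣ)
    (h : IsKum (settingC N) n (extPic0C N x) χ) :
    IsKum (settingC N) n (extPic0C N (complexConjugation • x)) (conjChar N χ) := by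
  obtain ⟨D, f, m, ⟨hD, hf, hdiv, hpow⟩, heig⟩ := h
  refine ⟨SemilinearAut.degZeroSMulHom (conjC N) D, conjC N • f, cjM m, ⟨?_, ?_, ?_, ?_⟩, ?_⟩
  · rw [← SemilinearAut.pic0_smul_mk, hD, conjC_smul_extPic0C]
  · exact (smul_ne_zero_iff_ne (conjC N)).2 hf
  · intro v
    rw [SemilinearAut.coe_degZeroSMulHom, SemilinearAut.divisor_smul_apply, hdiv]
    have h1 := SemilinearAut.ord_smul (conjC N) ((conjC N)⁻¹ • v) f
    rw [smul_inv_smul] at h1
    exact h1.symm
  · rw [← map_pow, hpow]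
    exact (realMer_conjC N f).symm
  · intro γ
    have h1 := heig (jConjGamma0 N γ)
    rw [settingC_act] at h1 ⊢
    rw [slMer_cjM]
    have h2 : jConjSL ((γ : ↥(Gamma0 N)) : SL(2, ℤ)) =
        ((jConjGamma0 N γ : ↥(Gamma0 N)) : SL(2, ℤ)) := rfl
    rw [h2, h1, map_mul, settingC_ι, settingC_ι, cjM_const]
    rfl

variable (p : ℕ) [hp : Fact p.Prime]

/-! ### The Kummer maps `κ_k` -/

/-- `χ ↦ χ ∘ (γ ↦ J γ J)` on the characters of `Γ_0(N)`, additively. -/
def jX : X (Gamma0 N) →+ X (Gamma0 N) where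
  toFun χ := Additive.ofMul ((Additive.toMul χ).comp (jConjGamma0 N))
  map_zero' := rfl
  map_add' _ _ := rfl

theorem toMul_jX (χ : X (Gamma0 N)) (γ : ↥(Gamma0 N)) :
    (Additive.toMul (jX N χ)) γ = (Additive.toMul χ) (jConjGamma0 N γ) := rfl

theorem smul_mem_tors {k : ℕ} (σ : Qb ≃ₐ[ℚ] Qb) {x : JZero N} (hx : x ∈ tors (JZero N) (p ^ k)) :
    σ • x ∈ tors (JZero N) (p ^ k) := by
  rw [mem_tors] at hx ⊢
  have h := map_nsmul (DistribSMul.toAddMonoidHom (JZero N) σ) (p ^ k) x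
  change σ • (p ^ k • x) = p ^ k • (σ • x) at h
  rw [← h, hx]
  exact smul_zero (A := JZero N) σ

/-- **(α1) at finite level**: `κ_k (c • x) = -(κ_k x ∘ (γ ↦ J γ J))`. -/
theorem kappa_conj (k : ℕ) (x : ↥(tors (JZero N) (p ^ k))) :
    (Fermat.Agent.ES.J.KummerSystemFinal24.kummerSystemJ p N).κ k
        ⟨complexConjugation • (x : JZero N), smul_mem_tors N p complexConjugation x.2⟩ =
      - jX N ((Fermat.Agent.ES.J.KummerSystemFinal24.kummerSystemJ p N).κ k x) := by
  rw [Fermat.Agent.ES.J.KummerSystemFinal24.kummerSystemJ_κ,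
    Fermat.Agent.ES.J.KummerSystemFinal24.kummerSystemJ_κ]
  set z : ↥(Pic0.torsion ℂ (FC N) (p ^ k)) := extTors (p ^ k) x with hz
  have h1 : IsKum (settingC N) (p ^ k) (extPic0C N (x : JZero N)) (kumCharOf N (p ^ k) z) :=
    isKum_kummerC N _ z
  have h2 := isKum_conj N (p ^ k) (x : JZero N) _ h1
  set y : ↥(Pic0.torsion ℂ (FC N) (p ^ k)) :=
    extTors (p ^ k) ⟨complexConjugation • (x : JZero N), smul_mem_tors N p complexConjugation x.2⟩
    with hy
  have h3 := kummerC_eq_of_isKum N (p ^ k) y h2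
  apply Additive.toMul.injective
  show kumCharOf N (p ^ k) y = ((kumCharOf N (p ^ k) z).comp (jConjGamma0 N))⁻¹
  rw [h3]
  ext γ
  rw [conjChar_apply, MonoidHom.inv_apply, MonoidHom.comp_apply,
    conjU_eq_inv (NeZero.ne (p ^ k)) (kummerC_pow_eq_one N (p ^ k) z _)]

/-! ### The Tate module -/

/-- `fullEquiv` intertwines `χ ↦ χ ∘ (γ ↦ J γ J)` with the Prelude's `charInvolution`. -/
theorem fullEquiv_jX (y : TateModule p (X (Gamma0 N))) :
    fullEquiv p (Gamma0 N) (map (jX N) y) =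
      charInvolution N ℤ_[p] ℤ_[p] (fullEquiv p (Gamma0 N) y) := by
  refine AddMonoidHom.ext fun γ => ?_
  have h := fullEquiv_map_of_prod (p := p) (Finset.univ : Finset Unit)
    (fun _ γ => jConjGamma0 N γ) (jX N)
    (fun χ γ => by rw [toMul_jX, Finset.univ_unique, Finset.prod_singleton]) y (Additive.toMul γ)
  rw [Finset.univ_unique, Finset.sum_singleton] at h
  exact h

/-- **(α1)**: under `T_p J_0(N) ≅ Hom_par(Γ_0(N), ℤ_p)` complex conjugation is
`-charInvolution`. -/
theorem tateEquivJ_conj (x : TJ p N) :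
    ((Fermat.Agent.ES.J.KummerSystemFinal24.tateEquivJ p N (rhoT p N complexConjugation x) :
        ↥(parabolicHoms ℤ_[p] (Gamma0 N) ℤ_[p])) : Additive (Gamma0 N) →+ ℤ_[p]) =
      - charInvolution N ℤ_[p] ℤ_[p]
        ((Fermat.Agent.ES.J.KummerSystemFinal24.tateEquivJ p N x :
          ↥(parabolicHoms ℤ_[p] (Gamma0 N) ℤ_[p])) : Additive (Gamma0 N) →+ ℤ_[p]) := by
  set KS := Fermat.Agent.ES.J.KummerSystemFinal24.kummerSystemJ p N with hKS
  show ((KS.tateEquiv (rhoT p N complexConjugation x) : ↥(parabolicHoms ℤ_[p] (Gamma0 N) ℤ_[p])) :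
      Additive (Gamma0 N) →+ ℤ_[p]) = - charInvolution N ℤ_[p] ℤ_[p]
        ((KS.tateEquiv x : ↥(parabolicHoms ℤ_[p] (Gamma0 N) ℤ_[p])) : Additive (Gamma0 N) →+ ℤ_[p])
  rw [KummerSystem.tateEquiv_apply, KummerSystem.tateEquiv_apply, coe_parEquiv, coe_parEquiv,
    ← fullEquiv_jX, ← map_neg]
  congr 1
  apply TateModule.ext'
  intro k
  show KS.κ k (KummerSystem.comp (rhoT p N complexConjugation x) k) =
    - jX N (KS.κ k (KummerSystem.comp x k))
  rw [← kappa_conj N p k (KummerSystem.comp x k)]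
  rfl

end Fermat.Agent.M15.ConjKum6
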