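/-
Programme M15 (S15), chapter (HALF), leaf (α2) (helper1): **the trace of `t ∘ charInvolution` on
`Hom_par(Γ₀(N), R)` vanishes** for every `t` in the algebra generated by the double coset operators
`T_l`, `l ∤ N`.

Over `ℂ`, Eichler-Shimura (`FaithInst26.periodEquiv : S₂ × S₂ ≃ Par_ℂ`, `(f, g) ↦ (1+ι) P f + (1-ι) P g`)
carries the action of a Hecke operator `x` to `x × x` and `ι = charInvolution` to `id × (-id)`, so
`x ι ↔ x × (-x)` has trace `0`.  The bases `lamBasis`, `parBasis` of `ParLattice11` transfer the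
statement to `ℤ`, then to any torsion free commutative ring `R` (monomials + linearity of the trace).

* `invPar N R`, `dcGen N R`, `dcAlg N R`, `commute_invPar`, `invPar_mul_self`;
* `trace_heckeLam_mul_invPar` (the `ℤ`-form for `FaithFinal26.heckeLam`);
* `trace_mul_invPar` (**(α2)**).
-/
import Mathlib
import Fermat.Agent.ES.HEQ.FaithFinal26

set_option autoImplicit false
set_option linter.unusedSectionVars false

open ModularCurve ModularCurve.Period CongruenceSubgroup CuspForm
open scoped MatrixGroups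

noncomputable section

namespace Fermat.Agent.M15.HalfTrace1

open Fermat.Agent.ES.HEQ.Faith26 Fermat.Agent.ES.HEQ.FaithInst26 Fermat.Agent.ES.HEQ.FaithFinal26
  Fermat.Agent.ES.HEQ.DoubleCoset27 Fermat.Agent.ES.HEQ.DoubleCosetPar27
  Fermat.Agent.ES.HEQ.ParLattice11

/-! ### Definitions -/

section Defs

variable (N : ℕ) (R : Type*) [CommRing R]

/-- `ψ ↦ ψ ∘ (γ ↦ ε γ ε)`, `ε = diag(1, -1)`, on `Hom_par(Γ₀(N), R)`. -/
def invPar : Module.End R ↥(parabolicHoms R (Gamma0 N) R) :=
  (charInvolution N R R).restrict fun _ h => charInvolution_mem_parabolicHoms N R R h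

theorem coe_invPar (φ : ↥(parabolicHoms R (Gamma0 N) R)) :
    ((invPar N R φ : ↥(parabolicHoms R (Gamma0 N) R)) : Additive (Gamma0 N) →+ R) =
      charInvolution N R R (φ : Additive (Gamma0 N) →+ R) := rfl

theorem invPar_mul_self : invPar N R * invPar N R = 1 := by
  apply LinearMap.ext
  intro φ
  apply Subtype.ext
  show charInvolution N R R (charInvolution N R R (φ : Additive (Gamma0 N) →+ R)) = φ
  exact charInvolution_charInvolution N R R _

/-- the double coset operators `T_l`, `l` prime, `l ∤ N`, on `Hom_par(Γ₀(N), R)`. -/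
def dcGen : Set (Module.End R ↥(parabolicHoms R (Gamma0 N) R)) :=
  {t | ∃ (l : ℕ) (hl : l.Prime) (hlN : ¬ l ∣ N),
    t = (haveI : Fact l.Prime := ⟨hl⟩; tdcPar hlN R R)}

/-- the `R`-algebra generated by the double coset operators. -/
def dcAlg : Subalgebra R (Module.End R ↥(parabolicHoms R (Gamma0 N) R)) :=
  Algebra.adjoin R (dcGen N R)

theorem commute_invPar {t : Module.End R ↥(parabolicHoms R (Gamma0 N) R)}
    (ht : t ∈ dcAlg N R) : Commute t (invPar N R) := by
  unfold dcAlg at ht
  induction ht using Algebra.adjoin_induction with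
  | mem t ht =>
    obtain ⟨l, hl, hlN, rfl⟩ := ht
    have : Fact l.Prime := ⟨hl⟩
    apply LinearMap.ext
    intro φ
    apply Subtype.ext
    show tdcAdd hlN (charInvolution N R R (φ : Additive (Gamma0 N) →+ R)) =
      charInvolution N R R (tdcAdd hlN (φ : Additive (Gamma0 N) →+ R))
    exact tdcAdd_charInvolution hlN R _
  | algebraMap r => exact Algebra.commute_algebraMap_left r _
  | add x y _ _ hx hy => exact hx.add_left hy
  | mul x y _ _ hx hy => exact hx.mul_left hy

end Defs

/-! ### The complex side -/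

section Complex

variable (N : ℕ) [NeZero N]

theorem periodMap_neg (g : CuspForm (Gamma0 N) 2) : periodMap N (-g) = -periodMap N g := by
  have := (Fermat.Agent.S21.Primitive.periodMapLinear N).map_neg g
  simpa using this

/-- under Eichler-Shimura `ι` is `id × (-id)`. -/
theorem invPar_periodEquiv (f g : CuspForm (Gamma0 N) 2) :
    invPar N ℂ (periodEquiv N (f, g)) = periodEquiv N (f, -g) := by
  apply Subtype.ext
  rw [coe_invPar, coe_periodEquiv, coe_periodEquiv,
    Fermat.Agent.S21.Primitive.periodHomPair_apply,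
    Fermat.Agent.S21.Primitive.periodHomPair_apply, periodMap_neg, map_add, map_sub, map_add,
    charInvolution_charInvolution, charInvolution_charInvolution, map_neg]
  abel

instance finite_parC : Module.Finite ℂ ↥(ParC N) :=
  Module.Finite.of_basis (parBasis ℂ (fg_Gamma0 N))

theorem finite_cuspForm : Module.Finite ℂ (CuspForm (Gamma0 N) 2) := by
  have : Module.Finite ℂ (CuspForm (Gamma0 N) 2 × CuspForm (Gamma0 N) 2) :=
    Module.Finite.equiv (periodEquiv N).symm
  exact Module.Finite.of_injective (LinearMap.inl ℂ (CuspForm (Gamma0 N) 2)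
    (CuspForm (Gamma0 N) 2)) LinearMap.inl_injective

/-- **the complex statement.** -/
theorem trace_conjHom_mul_invPar (x : Module.End ℂ (CuspForm (Gamma0 N) 2)) :
    LinearMap.trace ℂ ↥(ParC N) (conjHom (periodEquiv N) x * invPar N ℂ) = 0 := by
  have := finite_cuspForm N
  have h1 : conjHom (periodEquiv N) x * invPar N ℂ = (periodEquiv N).conj (x.prodMap (-x)) := by
    apply LinearMap.ext
    intro w
    obtain ⟨⟨f, g⟩, rfl⟩ := (periodEquiv N).surjective w
    rw [Module.End.mul_apply, invPar_periodEquiv, conjHom_apply_apply, LinearEquiv.conj_apply,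
      LinearMap.comp_apply, LinearMap.comp_apply, LinearEquiv.coe_coe, LinearEquiv.coe_coe,
      LinearEquiv.symm_apply_apply, LinearMap.prodMap_apply, map_neg, LinearMap.neg_apply]
  rw [h1, LinearMap.trace_conj', LinearMap.trace_prodMap', map_neg, add_neg_cancel]

end Complex

/-! ### Transfer of traces along `castPar` -/

section Transfer

theorem trace_transfer {Γ : Subgroup SL(2, ℤ)} (hΓ : Γ.FG) (R : Type*) [CommRing R]
    [IsAddTorsionFree R] (tZ : Module.End ℤ ↥(parabolicHoms ℤ Γ ℤ))
    (tR : Module.End R ↥(parabolicHoms R Γ R))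
    (h : ∀ φ, tR (castPar Γ R φ) = castPar Γ R (tZ φ)) :
    LinearMap.trace R ↥(parabolicHoms R Γ R) tR =
      ((LinearMap.trace ℤ ↥(parabolicHoms ℤ Γ ℤ) tZ : ℤ) : R) := by
  classical
  rw [LinearMap.trace_eq_matrix_trace R (parBasis R hΓ),
    LinearMap.trace_eq_matrix_trace ℤ (lamBasis hΓ), Matrix.trace, Matrix.trace, Int.cast_sum]
  refine Finset.sum_congr rfl fun i _ => ?_
  rw [Matrix.diag_apply, Matrix.diag_apply, LinearMap.toMatrix_apply, LinearMap.toMatrix_apply,
    parBasis_apply, h, parBasis_repr, castPar_apply, lamBasis_repr, lamBasis_apply]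

theorem castPar_invPar (N : ℕ) (R : Type*) [CommRing R] (φ : ↥(parabolicHoms ℤ (Gamma0 N) ℤ)) :
    invPar N R (castPar (Gamma0 N) R φ) = castPar (Gamma0 N) R (invPar N ℤ φ) := by
  apply Subtype.ext
  refine AddMonoidHom.ext fun γ => ?_
  rfl

end Transfer

/-! ### The integral statement -/

section Integral

variable (N : ℕ) [NeZero N]

/-- **the `ℤ`-form for the action of the anemic Hecke algebra on `Λ`.** -/
theorem trace_heckeLam_mul_invPar (S : Set ℕ) (hS : ∀ q : ℕ, q.Prime → q ∣ N → q ∈ S)
    (x : ↥(heckeAlgebra N 2 S)) :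
    LinearMap.trace ℤ ↥(Lam N) (heckeLam S hS x * invPar N ℤ) = 0 := by
  have h := trace_transfer (fg_Gamma0 N) ℂ (heckeLam S hS x * invPar N ℤ)
    (conjHom (periodEquiv N) (x : Module.End ℂ (CuspForm (Gamma0 N) 2)) * invPar N ℂ)
    (fun φ => by
      rw [Module.End.mul_apply, Module.End.mul_apply, castPar_invPar, ← castParC_eq_castPar]
      exact (c_latticeHom (periodEquiv N) (castParC_injective N) (heckeGenerators N 2 S)
        (stab_of_mem_heckeGenerators (dcData N) S hS) x (invPar N ℤ φ)).symm)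
  rw [trace_conjHom_mul_invPar] at h
  exact_mod_cast h.symm

/-- the primes dividing `N`. -/
def primesOf : Set ℕ := {q | q.Prime ∧ q ∣ N}

theorem dcGen_int : dcGen N ℤ = dcGenerators N (primesOf N) := by
  ext t
  constructor
  · rintro ⟨l, hl, hlN, rfl⟩
    exact ⟨l, hl, hlN, fun h => hlN h.2, rfl⟩
  · rintro ⟨l, hl, hlN, -, rfl⟩
    exact ⟨l, hl, hlN, rfl⟩

theorem trace_mul_invPar_int {t : Module.End ℤ ↥(parabolicHoms ℤ (Gamma0 N) ℤ)}
    (ht : t ∈ dcAlg N ℤ) :
    LinearMap.trace ℤ ↥(parabolicHoms ℤ (Gamma0 N) ℤ) (t * invPar N ℤ) = 0 := by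
  have hS : ∀ q : ℕ, q.Prime → q ∣ N → q ∈ primesOf N := fun q h1 h2 => ⟨h1, h2⟩
  have h1 : t ∈ dcAlgebra N (primesOf N) := by
    unfold dcAlgebra
    rw [← dcGen_int]
    exact ht
  rw [← range_heckeLam (primesOf N) hS] at h1
  obtain ⟨x, rfl⟩ := h1
  exact trace_heckeLam_mul_invPar N (primesOf N) hS x

end Integral

/-! ### General coefficients -/

section General

variable (N : ℕ) [NeZero N] (R : Type*) [CommRing R] [IsAddTorsionFree R]

/-- every monomial in the double coset operators over `R` comes from one over `ℤ`. -/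
theorem exists_int_of_mem_closure {m : Module.End R ↥(parabolicHoms R (Gamma0 N) R)}
    (hm : m ∈ Submonoid.closure (dcGen N R)) :
    ∃ mZ : Module.End ℤ ↥(parabolicHoms ℤ (Gamma0 N) ℤ), mZ ∈ dcAlg N ℤ ∧
      ∀ φ, m (castPar (Gamma0 N) R φ) = castPar (Gamma0 N) R (mZ φ) := by
  induction hm using Submonoid.closure_induction with
  | mem t ht =>
    obtain ⟨l, hl, hlN, rfl⟩ := ht
    have : Fact l.Prime := ⟨hl⟩
    refine ⟨tdcPar hlN ℤ ℤ, Algebra.subset_adjoin ⟨l, hl, hlN, rfl⟩, fun φ => ?_⟩
    apply Subtype.ext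
    exact tdcAdd_comp hlN (Int.castAddHom R) (φ : Additive (Gamma0 N) →+ ℤ)
  | one => exact ⟨1, one_mem _, fun φ => rfl⟩
  | mul x y _ _ hx hy =>
    obtain ⟨xZ, hxZ, hx'⟩ := hx
    obtain ⟨yZ, hyZ, hy'⟩ := hy
    refine ⟨xZ * yZ, mul_mem hxZ hyZ, fun φ => ?_⟩
    rw [Module.End.mul_apply, Module.End.mul_apply, hy', hx']

/-- **(α2)**: the trace of `t ∘ charInvolution` on `Hom_par(Γ₀(N), R)` vanishes for every `t` in the
algebra generated by the double coset operators. -/
theorem trace_mul_invPar_of_mem_span {t : Module.End R ↥(parabolicHoms R (Gamma0 N) R)}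
    (ht' : t ∈ Submodule.span R (Submonoid.closure (dcGen N R) :
      Set (Module.End R ↥(parabolicHoms R (Gamma0 N) R)))) :
    LinearMap.trace R ↥(parabolicHoms R (Gamma0 N) R) (t * invPar N R) = 0 := by
  induction ht' using Submodule.span_induction with
  | mem m hm =>
    obtain ⟨mZ, hmZ, hcompat⟩ := exists_int_of_mem_closure N R hm
    rw [trace_transfer (fg_Gamma0 N) R (mZ * invPar N ℤ) (m * invPar N R) (fun φ => by
      rw [Module.End.mul_apply, Module.End.mul_apply, castPar_invPar, hcompat]),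
      trace_mul_invPar_int N hmZ, Int.cast_zero]
  | zero => rw [zero_mul, map_zero]
  | add x y _ _ hx hy => rw [add_mul, map_add, hx, hy, add_zero]
  | smul r x _ hx => rw [smul_mul_assoc, map_smul, hx, smul_zero]

theorem trace_mul_invPar {t : Module.End R ↥(parabolicHoms R (Gamma0 N) R)}
    (ht : t ∈ dcAlg N R) :
    LinearMap.trace R ↥(parabolicHoms R (Gamma0 N) R) (t * invPar N R) = 0 := by
  apply trace_mul_invPar_of_mem_span
  rw [← Algebra.adjoin_eq_span]
  exact ht

end General

end Fermat.Agent.M15.HalfTrace1
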