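/-
Programme M15 (S15), chapter (HALF), glue (CPM-Λ), part 4 (helper4): **(T0)** = (α1-T) + (α2) transported to
the Tate module.

`Φ = tateEquivJ ℓ N : T_ℓ J₀(N) ≃ Hom_par(Γ₀(N), ℤ_ℓ)` carries `tT ℓ N r` to the double coset operator
`tdcPar` (`KummerSystemFinal24.heckeCompatJ`) and `rhoT c` to `-invPar` (`ConjKum6.tateEquivJ_conj`), so
`HalfTrace1.trace_mul_invPar` gives

* `trace_T0` : `tr(T ∘ ρ(c) | T_ℓ J₀(N)) = 0` for every `T ∈ heckeAlgT ℓ N`;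
* `cpm_Lam'` : (CPM) on `Λ = T_ℓ(J₀(N))_ε`, unconditionally (generic `(𝕋, ε)`).
-/
import Mathlib
import Fermat.Agent.M15.CpmLam4
import Fermat.Agent.M15.HalfTrace1
import Fermat.Agent.M15.ConjKum6
import Fermat.Agent.ES.J.KummerSystemFinal24

set_option autoImplicit false
set_option linter.unusedSectionVars false
set_option linter.style.longLine false
set_option linter.style.haveILetI false

open ModularCurve ModularCurve.Period CongruenceSubgroup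

noncomputable section

namespace Fermat.Agent.M15.CpmTrace4

open Module Fermat.Agent.M15.EsAll4 Fermat.Agent.M15.CpmAlg4 Fermat.Agent.M15.CpmLam4
  Fermat.Agent.ES.J.TateModule13 Fermat.Agent.M15.KumRep6 Fermat.Agent.M15.ToricTate3
  Fermat.Agent.ES.J.TateJZero13 Fermat.Agent.ES.J.CycloChar8 Fermat.Agent.M15.HalfTrace1
  Fermat.Agent.ES.J.KummerSystemFinal24 Fermat.Agent.ES.HEQ.DoubleCoset27
  Fermat.Agent.ES.HEQ.DoubleCosetPar27 Fermat.Agent.ES.J.TateChar11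

local notation "Γ" => (AlgebraicClosure ℚ ≃ₐ[ℚ] AlgebraicClosure ℚ)

variable (ℓ : ℕ) [hℓ : Fact ℓ.Prime] (N : ℕ) [NeZero N]

/-- `Φ ∘ tT r ∘ Φ⁻¹ = tdcPar`. -/
theorem conj_tT (r : ℕ) [hr : Fact r.Prime] (hrN : ¬ r ∣ N) :
    (tateEquivJ ℓ N).conj (tT ℓ N ⟨r, hr.out⟩) = tdcPar hrN ℤ_[ℓ] ℤ_[ℓ] := by
  refine LinearMap.ext fun φ => Subtype.ext ?_
  rw [LinearEquiv.conj_apply_apply, coe_tdcPar]
  have h := (kummerSystemJ ℓ N).tateEquiv_map hrN (heckeOperatorBar N ⟨r, hr.out⟩).toAddMonoidHom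
    (fun k y hfy => heckeCompatJ ℓ N r hr.out hrN k y hfy) ((tateEquivJ ℓ N).symm φ)
  have h2 : (kummerSystemJ ℓ N).tateEquiv ((tateEquivJ ℓ N).symm φ) = φ :=
    (tateEquivJ ℓ N).apply_symm_apply φ
  rw [h2] at h
  exact h

/-- `Φ ∘ ρ(c) ∘ Φ⁻¹ = -invPar`. -/
theorem conj_rhoT_conj :
    (tateEquivJ ℓ N).conj (rhoT ℓ N complexConjugation) = -invPar N ℤ_[ℓ] := by
  refine LinearMap.ext fun φ => Subtype.ext ?_
  rw [LinearEquiv.conj_apply_apply]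
  have h := Fermat.Agent.M15.ConjKum6.tateEquivJ_conj N ℓ ((tateEquivJ ℓ N).symm φ)
  rw [(tateEquivJ ℓ N).apply_symm_apply φ] at h
  rw [h]
  rfl

/-- `Φ ∘ T ∘ Φ⁻¹ ∈ dcAlg` for `T ∈ heckeAlgT`. -/
theorem conj_mem_dcAlg {T : Module.End ℤ_[ℓ] (TJ ℓ N)} (hT : T ∈ heckeAlgT ℓ N) :
    (tateEquivJ ℓ N).conj T ∈ dcAlg N ℤ_[ℓ] := by
  unfold heckeAlgT at hT
  induction hT using Algebra.adjoin_induction with
  | mem t ht =>
    obtain ⟨r, hrN, rfl⟩ := ht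
    haveI : Fact (r : ℕ).Prime := ⟨r.2⟩
    have h := conj_tT ℓ N (r : ℕ) hrN
    rw [show (⟨(r : ℕ), (Fact.out : (r : ℕ).Prime)⟩ : Nat.Primes) = r from rfl] at h
    rw [h]
    exact Algebra.subset_adjoin ⟨(r : ℕ), r.2, hrN, rfl⟩
  | algebraMap a =>
    have h : (tateEquivJ ℓ N).conj (algebraMap ℤ_[ℓ] (Module.End ℤ_[ℓ] (TJ ℓ N)) a) =
        algebraMap ℤ_[ℓ] _ a := by
      refine LinearMap.ext fun φ => ?_
      rw [LinearEquiv.conj_apply_apply, Module.algebraMap_end_apply, Module.algebraMap_end_apply,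
        map_smul, LinearEquiv.apply_symm_apply]
    rw [h]
    exact Subalgebra.algebraMap_mem _ a
  | add x y _ _ hx hy =>
    rw [map_add]
    exact Subalgebra.add_mem _ hx hy
  | mul x y _ _ hx hy =>
    rw [Module.End.mul_eq_comp, LinearEquiv.conj_comp]
    exact Subalgebra.mul_mem _ hx hy

/-- **(T0)**: `tr(T ∘ ρ(c) | T_ℓ J₀(N)) = 0` for every `T` in the Hecke algebra. -/
theorem trace_T0 (T : Module.End ℤ_[ℓ] (TJ ℓ N)) (hT : T ∈ heckeAlgT ℓ N) :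
    LinearMap.trace ℤ_[ℓ] (TJ ℓ N) (T * rhoT ℓ N complexConjugation) = 0 :=
  trace_mul_eq_zero_of_conj (tateEquivJ ℓ N) T (rhoT ℓ N complexConjugation) (invPar N ℤ_[ℓ])
    (conj_rhoT_conj ℓ N) (trace_mul_invPar N ℤ_[ℓ] (conj_mem_dcAlg ℓ N hT))

variable {𝕋 : Type} [Ring 𝕋] [Module 𝕋 (JZero N)] [SMulCommClass Γ 𝕋 (JZero N)]
  (ε : 𝕋 →+* ZMod ℓ)

/-- **(CPM) on `Λ = T_ℓ(J₀(N))_ε`**: `tr(h ∘ ρ_Λ(c)) = 0` for every `h` in the `ℤ_ℓ`-algebra generated by the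
`t_g = ρ_Λ(g) + χ_ℓ(g) ρ_Λ(g)⁻¹`. -/
theorem cpm_Lam' (hcomm : CommOnTors (JZero N) 𝕋 ℓ)
    (hact : ∀ s : 𝕋, actT (JZero N) ℓ s ∈ heckeAlgT ℓ N)
    (h : Module.End ℤ_[ℓ] (Lam (JZero N) ε))
    (hh : h ∈ Algebra.adjoin ℤ_[ℓ] (Set.range (tLam ℓ N ε))) :
    LinearMap.trace ℤ_[ℓ] (Lam (JZero N) ε) (h * rhoLam (JZero N) ε complexConjugation) = 0 :=
  cpm_Lam ℓ N ε hcomm hact complexConjugation (trace_T0 ℓ N) h hh

end Fermat.Agent.M15.CpmTrace4
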