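/-
M15 / WIRE (helper9), W8 = (HC): **the Hecke operators `T_r`, `T_{r'}` (`r ≠ r'` primes not dividing
the level `N`) commute on `J₀(N)(ℚ̄)`**, honestly, from the correspondence definition
`T_r = (α_r)_* (β_r)^*` of the Prelude.

Proof.  `T_r T_{r'} = (α_r)_* (β_r)^* (α_{r'})_* (β_{r'})^*`.  The middle `(β_r)^* (α_{r'})_*` is turned into
`(α')_* (β')^*` by ONE application of the generic base change `BaseChange19.pullbackAlong_pushforwardAlong`
in the square
      Fbar N ──α_{r'}──▶ Fbar (N r')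
        │β_r                │β' : f(q) ↦ f(q^r)
        ▼                   ▼
      Fbar (N r) ──α'──▶ Fbar (N r r')
whose norm compatibility follows (`NormCompat12.normAlong_compat_of_adjoin`) from
`Fbar (N r r') = Fbar (N r)(j(q^{r r'}))`, proved at the cusp `0` exactly like `LevelTop20.adjoin_jl_eq_top`.
Hence `T_r T_{r'} = ι_* φ^*` with `ι : Fbar N → Fbar (N r r')` the inclusion and `φ : f(q) ↦ f(q^{r r'})`,
an expression which is symmetric in `(r, r')`.
Imported by no statement.
-/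
import Mathlib
import Fermat.Agent.ES.HECKE.LevelTop20
import Fermat.Agent.ES.HECKE.LevelCompatPic12
import Fermat.Agent.ES.HECKE.NormCompat12
import Fermat.Agent.ES.HECKE.NormFormula15
import Fermat.Agent.ES.HECKE.PointFormula28
import Fermat.Agent.M15.Contracts9

set_option autoImplicit false
set_option linter.style.haveILetI false
set_option linter.unusedVariables false
set_option linter.unusedSectionVars false
set_option synthInstance.maxHeartbeats 400000

noncomputable section

open AlgebraicCurve ModularCurve IntermediateField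

namespace Fermat.Agent.M15.HeckeComm9

open Fermat.Agent.X0 Fermat.Agent.RED.BASE.Interface12 Fermat.Agent.RED.LVL.FrickeExp19
open Fermat.Agent.ES.HECKE Fermat.Agent.ES.HECKE.LevelPullback12 Fermat.Agent.RED.TOP

local notation "Qb" => AlgebraicClosure ℚ

/-! ### Generic: push-forward is functorial (all places of degree one) -/

section Tower

variable {K F F₁ G₁ : Type*} [Field K] [Field F] [Field F₁] [Field G₁]
  [Algebra K F] [Algebra K F₁] [Algebra K G₁]
  [Algebra F F₁] [Algebra F₁ G₁] [Algebra F G₁]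
  [IsScalarTower K F F₁] [IsScalarTower K F₁ G₁] [IsScalarTower K F G₁]
  [IsScalarTower F F₁ G₁]
  [Algebra.IsIntegral F F₁] [Algebra.IsIntegral F₁ G₁] [Algebra.IsIntegral F G₁]

theorem inertiaDeg_eq_one_of_deg {K F F' : Type*} [Field K] [Field F] [Field F'] [Algebra K F]
    [Algebra K F'] [Algebra F F'] [IsScalarTower K F F'] [Algebra.IsIntegral F F']
    (w : Place K F') (hw : w.deg = 1) : w.inertiaDeg F = 1 := by
  have h := w.deg_restrict_mul_inertiaDeg (F := F)
  rw [hw] at h
  exact Nat.eq_one_of_mul_eq_one_left h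

/-- `pushforward` is functorial in towers, when all places have degree one. -/
theorem pushforward_pushforward (hdeg₁ : ∀ w : Place K F₁, w.deg = 1)
    (hdeg₂ : ∀ w : Place K G₁, w.deg = 1) (D : Divisor K G₁) :
    Divisor.pushforward F (Divisor.pushforward F₁ D) = Divisor.pushforward F D := by
  induction D using Finsupp.induction with
  | zero => simp
  | single_add w n D _ _ ih =>
    rw [map_add, map_add, map_add, ih]
    congr 1
    rw [Divisor.pushforward_single, Divisor.pushforward_single, Divisor.pushforward_single,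
      BaseChange19.restrict_restrict, inertiaDeg_eq_one_of_deg w (hdeg₂ w),
      inertiaDeg_eq_one_of_deg (F := F) (w.restrict F₁) (hdeg₁ _),
      inertiaDeg_eq_one_of_deg (F := F) w (hdeg₂ w)]
    simp

end Tower

section Along

variable {K F F₁ G₁ : Type*} [Field K] [Field F] [Field F₁] [Field G₁]
  [Algebra K F] [Algebra K F₁] [Algebra K G₁]

/-- Functoriality of `pushforwardAlong` (all places of degree one). -/
theorem pushforwardAlong_comp (φ : F →ₐ[K] F₁) (ψ : F₁ →ₐ[K] G₁) (hφ : φ.toRingHom.IsIntegral)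
    (hψ : ψ.toRingHom.IsIntegral) (hψφ : (ψ.comp φ).toRingHom.IsIntegral)
    (hdeg₁ : ∀ w : Place K F₁, w.deg = 1) (hdeg₂ : ∀ w : Place K G₁, w.deg = 1)
    (D : Divisor K G₁) :
    Divisor.pushforwardAlong (ψ.comp φ) hψφ D =
      Divisor.pushforwardAlong φ hφ (Divisor.pushforwardAlong ψ hψ D) := by
  letI := algebraAlong φ
  letI := algebraAlong ψ
  letI := algebraAlong (ψ.comp φ)
  haveI := isScalarTower_along φ
  haveI := isScalarTower_along ψ
  haveI := isScalarTower_along (ψ.comp φ)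
  haveI := isIntegral_along φ hφ
  haveI := isIntegral_along ψ hψ
  haveI := isIntegral_along (ψ.comp φ) hψφ
  haveI : IsScalarTower F F₁ G₁ := IsScalarTower.of_algebraMap_eq (fun _ => rfl)
  exact (pushforward_pushforward (F := F) (F₁ := F₁) (G₁ := G₁) hdeg₁ hdeg₂ D).symm

/-- `pullbackAlong` only depends on the map. -/
theorem pullbackAlong_congr [HasPrincipalDivisors K F₁] {φ ψ : F →ₐ[K] F₁} (h : φ = ψ)
    (hφ : φ.toRingHom.IsIntegral) (hψ : ψ.toRingHom.IsIntegral) (D : Divisor K F) :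
    Divisor.pullbackAlong φ hφ D = Divisor.pullbackAlong ψ hψ D := by
  subst h
  rfl

/-- `pushforwardAlong` only depends on the map. -/
theorem pushforwardAlong_congr {φ ψ : F →ₐ[K] F₁} (h : φ = ψ)
    (hφ : φ.toRingHom.IsIntegral) (hψ : ψ.toRingHom.IsIntegral) (D : Divisor K F₁) :
    Divisor.pushforwardAlong φ hφ D = Divisor.pushforwardAlong ψ hψ D := by
  subst h
  rfl

end Along

/-! ### `Fbar (M ℓ) = Fbar M (j(q^d))` whenever `ℓ ∤ M ℓ / d` -/

section Degree

variable {M ℓ : ℕ} [NeZero M] [NeZero ℓ]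

/-- the degree of `j(q^d)` over `α(Fbar M)` is at least `ℓ`, if `M ℓ = d k` with `ℓ ∤ k`. -/
theorem le_natDegree_minpoly_jdF (hℓ : ℓ.Prime) (hℓM : ¬ ℓ ∣ M) (d k : ℕ) [NeZero d] [NeZero k]
    (hdk : M * ℓ = d * k) (hk : ¬ ℓ ∣ k) :
    letI := algebraAlong (heckeAlphaBar Qb M ℓ)
    ℓ ≤ (minpoly (modularFunctionFieldBar M) (jdF (M * ℓ) d ⟨k, hdk⟩)).natDegree := by
  letI := algebraAlong (heckeAlphaBar Qb M ℓ)
  haveI : FiniteDimensional (modularFunctionFieldBar M) (modularFunctionFieldBar (M * ℓ)) :=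
    AlongDegree25.finiteAlong_alpha Qb M ℓ hℓ hℓM
  set y : modularFunctionFieldBar (M * ℓ) := jdF (M * ℓ) d ⟨k, hdk⟩ with hy
  set τ : modularFunctionFieldBar (M * ℓ) →+* LaurentSeries Kbar :=
    (cuspData (M * ℓ)).T ModularGroup.S with hτ
  letI : Algebra (modularFunctionFieldBar M) (LaurentSeries Kbar) :=
    (τ.comp (algebraMap (modularFunctionFieldBar M) (modularFunctionFieldBar (M * ℓ)))).toAlgebra
  let φ : modularFunctionFieldBar (M * ℓ) →ₐ[modularFunctionFieldBar M] LaurentSeries Kbar :=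
    { τ with commutes' := fun _ => rfl }
  have hφ : Function.Injective φ := τ.injective
  have hmin : minpoly (modularFunctionFieldBar M) (φ y) =
      minpoly (modularFunctionFieldBar M) y := minpoly.algHom_eq φ hφ y
  rw [← hmin]
  have hval : φ y = qExpand Kbar k jqK := T_S_jdF (M * ℓ) d k hdk
  have hord : (φ y).order = -(k : ℤ) := by rw [hval]; exact order_qExpand_jqK k
  have hy0 : φ y ≠ 0 := by
    intro h0
    rw [h0, HahnSeries.order_zero] at hord
    have : (k : ℤ) = 0 := by omega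
    exact NeZero.ne k (by exact_mod_cast this)
  have hcop : IsCoprime (φ y).order (ℓ : ℤ) := by
    rw [hord]
    have h1 : Nat.Coprime k ℓ := ((Nat.Prime.coprime_iff_not_dvd hℓ).mpr hk).symm
    exact (Nat.isCoprime_iff_coprime.mpr h1).neg_left
  have hF : ∀ a : modularFunctionFieldBar M,
      algebraMap (modularFunctionFieldBar M) (LaurentSeries Kbar) a ∈
        Set.range (qExpand Kbar ℓ) := fun a => T_S_mem_range M (M * ℓ) ℓ rfl a
  have hint : IsIntegral (modularFunctionFieldBar M) (φ y) :=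
    (isIntegral_algHom_iff φ hφ).mpr
      (Algebra.IsIntegral.isIntegral (R := modularFunctionFieldBar M) y)
  exact Fermat.Agent.IG.PR.RamDeg25.le_natDegree_minpoly hy0 hcop hF hint

/-- `Fbar (M ℓ) = α(Fbar M)(j(q^d))`, if `M ℓ = d k` with `ℓ ∤ k`. -/
theorem adjoin_jdF_eq_top (hℓ : ℓ.Prime) (hℓM : ¬ ℓ ∣ M) (d k : ℕ) [NeZero d] [NeZero k]
    (hdk : M * ℓ = d * k) (hk : ¬ ℓ ∣ k) :
    letI := algebraAlong (heckeAlphaBar Qb M ℓ)
    IntermediateField.adjoin (modularFunctionFieldBar M) {jdF (M * ℓ) d ⟨k, hdk⟩} = ⊤ := by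
  letI := algebraAlong (heckeAlphaBar Qb M ℓ)
  haveI : FiniteDimensional (modularFunctionFieldBar M) (modularFunctionFieldBar (M * ℓ)) :=
    AlongDegree25.finiteAlong_alpha Qb M ℓ hℓ hℓM
  have hfr : Module.finrank (modularFunctionFieldBar M) (modularFunctionFieldBar (M * ℓ)) = ℓ + 1 :=
    AlongDegree25.finrankAlong_alpha Qb M ℓ hℓ hℓM
  rw [Field.primitive_element_iff_minpoly_natDegree_eq, hfr]
  have hdvd : (minpoly (modularFunctionFieldBar M) (jdF (M * ℓ) d ⟨k, hdk⟩)).natDegree ∣ ℓ + 1 := by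
    rw [← hfr]
    exact minpoly.degree_dvd (Algebra.IsIntegral.isIntegral _)
  exact LevelTop20.eq_succ_of_dvd_of_le hℓ.two_le hdvd
    (le_natDegree_minpoly_jdF hℓ hℓM d k hdk hk)

end Degree

/-! ### The maps `f(q) ↦ f(q^d)` between levels -/

section Frob

/-- `coeffEmb` commutes with `q ↦ q^n`. -/
theorem coeffEmb_qExpand (n : ℕ) [NeZero n] (x : LaurentSeries ℚ) :
    coeffEmb Qb (qExpand ℚ n x) = qExpand Qb n (coeffEmb Qb x) :=
  ModularCurve.coeffMap_qExpand _ n x

/-- `f(q) ↦ f(q^d)` from level `A` to level `B`, `A d ∣ B`. -/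
def frobTo {A B : ℕ} [NeZero A] [NeZero B] (d : ℕ) [NeZero d] (h : A * d ∣ B) :
    modularFunctionFieldBar A →ₐ[Qb] modularFunctionFieldBar B :=
  haveI : NeZero (A * d) := ⟨mul_ne_zero (NeZero.ne A) (NeZero.ne d)⟩
  (levelIncl h).comp (heckeBetaBar Qb A d)

@[simp]
theorem coe_frobTo {A B : ℕ} [NeZero A] [NeZero B] (d : ℕ) [NeZero d] (h : A * d ∣ B)
    (x : modularFunctionFieldBar A) :
    ((frobTo d h x : modularFunctionFieldBar B) : LaurentSeries Qb) =
      qExpand Qb d (x : LaurentSeries Qb) := by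
  haveI : NeZero (A * d) := ⟨mul_ne_zero (NeZero.ne A) (NeZero.ne d)⟩
  unfold frobTo
  rw [AlgHom.comp_apply, coe_levelIncl, coe_heckeBetaBar]

end Frob

/-! ### The base-change square -/

section Square

variable (N r r' : ℕ) [NeZero N] [NeZero r] [NeZero r']

instance neZero_mul' : NeZero (N * r) := ⟨mul_ne_zero (NeZero.ne N) (NeZero.ne r)⟩

theorem dvd_top : N * r' * r ∣ N * r * r' := dvd_of_eq (by ring)

/-- the square commutes: `α' ∘ β_r = β' ∘ α_{r'}`. -/
theorem square_comm :
    (heckeAlphaBar Qb (N * r) r').comp (heckeBetaBar Qb N r) =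
      (frobTo r (dvd_top N r r')).comp (heckeAlphaBar Qb N r') := by
  apply AlgHom.ext
  intro x
  apply Subtype.ext
  rw [AlgHom.comp_apply, AlgHom.comp_apply, coe_heckeAlphaBar, coe_heckeBetaBar, coe_frobTo,
    coe_heckeAlphaBar]

/-- `β' (j(q^{r'})) = j(q^{r r'})`. -/
theorem frobTo_jl :
    frobTo r (dvd_top N r r') (LevelTop20.jl N r') =
      jdF (N * r * r') (r * r') ⟨N, by ring⟩ := by
  apply Subtype.ext
  rw [coe_frobTo, LevelTop20.coe_jl, Fermat.Agent.X0.FracR.coe_jdF, ← coeffEmb_qExpand,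
    qExpand_qExpand]

variable {N r r'}

/-- **norm compatibility** in the square. -/
theorem norm_compat (hr : r.Prime) (hr' : r'.Prime) (hrN : ¬ r ∣ N) (hr'N : ¬ r' ∣ N)
    (hne : r ≠ r') (f : modularFunctionFieldBar (N * r')) :
    BaseChange19.normAlong (heckeAlphaBar Qb (N * r) r') (frobTo r (dvd_top N r r') f) =
      heckeBetaBar Qb N r (BaseChange19.normAlong (heckeAlphaBar Qb N r') f) := by
  have hr'Nr : ¬ r' ∣ N * r := by
    intro h
    rcases (Nat.Prime.dvd_mul hr').mp h with h | h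
    · exact hr'N h
    · exact hne ((Nat.prime_dvd_prime_iff_eq hr' hr).mp h).symm
  refine NormCompat12.normAlong_compat_of_adjoin (heckeAlphaBar Qb N r') (heckeBetaBar Qb N r)
    (heckeAlphaBar Qb (N * r) r') (frobTo r (dvd_top N r r')) (square_comm N r r')
    (AlongDegree25.finiteAlong_alpha Qb N r' hr' hr'N)
    (AlongDegree25.finiteAlong_alpha Qb (N * r) r' hr' hr'Nr)
    (by rw [AlongDegree25.finrankAlong_alpha Qb N r' hr' hr'N,
      AlongDegree25.finrankAlong_alpha Qb (N * r) r' hr' hr'Nr]) (LevelTop20.jl N r') ?_ f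
  rw [frobTo_jl]
  exact adjoin_jdF_eq_top hr' hr'Nr (r * r') N (by ring) hr'N

end Square

/-! ### The composite `T_r T_{r'}` through the top level -/

section Composite

variable {N r r' : ℕ} [NeZero N] [NeZero r] [NeZero r']

attribute [local instance] FbarFacts20.hasPrincipalDivisors_bar

theorem not_dvd_mul_of_ne (hr : r.Prime) (hr' : r'.Prime) (hr'N : ¬ r' ∣ N) (hne : r ≠ r') :
    ¬ r' ∣ N * r := by
  intro h
  rcases (Nat.Prime.dvd_mul hr').mp h with h | h
  · exact hr'N h
  · exact hne ((Nat.prime_dvd_prime_iff_eq hr' hr).mp h).symm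

/-- integrality of `f(q) ↦ f(q^d)`, `d` prime not dividing the source level. -/
theorem frobTo_isIntegral {A B : ℕ} [NeZero A] [NeZero B] {d : ℕ} [NeZero d] (hd : d.Prime)
    (hdA : ¬ d ∣ A) (h : A * d ∣ B) : (frobTo d h).toRingHom.IsIntegral := by
  haveI : NeZero (A * d) := ⟨mul_ne_zero (NeZero.ne A) (NeZero.ne d)⟩
  exact BaseChange19.isIntegral_comp (heckeBetaBar Qb A d) (levelIncl h)
    (AlongDegree25.heckeBetaBarIntegral Qb A d hd hdA) (levelIncl_isIntegral h)

theorem top_dvd₁ : N ∣ N * r * r' := ⟨r * r', by ring⟩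

/-- the inclusion into the top level factors through level `N r`. -/
theorem alpha_comp_alpha :
    (heckeAlphaBar Qb (N * r) r').comp (heckeAlphaBar Qb N r) = levelIncl (top_dvd₁ (r := r) (r' := r')) := by
  apply AlgHom.ext
  intro x
  apply Subtype.ext
  rw [AlgHom.comp_apply, coe_heckeAlphaBar, coe_heckeAlphaBar, coe_levelIncl]

instance neZero_mul'' : NeZero (r * r') := ⟨mul_ne_zero (NeZero.ne r) (NeZero.ne r')⟩

theorem top_dvd₂ : N * (r * r') ∣ N * r * r' := dvd_of_eq (by ring)

/-- `f(q) ↦ f(q^{r r'})` factors through level `N r'`. -/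
theorem frob_comp_beta :
    (frobTo r (dvd_top N r r')).comp (heckeBetaBar Qb N r') =
      frobTo (r * r') (top_dvd₂ (N := N) (r := r) (r' := r')) := by
  apply AlgHom.ext
  intro x
  apply Subtype.ext
  rw [AlgHom.comp_apply, coe_frobTo, coe_heckeBetaBar, coe_frobTo, qExpand_qExpand]

/-- the symmetric expression only depends on the numbers `T`, `d`. -/
theorem psi_congr {T₁ T₂ : ℕ} [NeZero T₁] [NeZero T₂] (hT : T₁ = T₂) {d₁ d₂ : ℕ} [NeZero d₁]
    [NeZero d₂] (hd : d₁ = d₂) (h₁ : N ∣ T₁) (h₂ : N ∣ T₂) (h₁' : N * d₁ ∣ T₁) (h₂' : N * d₂ ∣ T₂)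
    (hι₁ : (levelIncl h₁).toRingHom.IsIntegral) (hι₂ : (levelIncl h₂).toRingHom.IsIntegral)
    (hφ₁ : (frobTo d₁ h₁').toRingHom.IsIntegral) (hφ₂ : (frobTo d₂ h₂').toRingHom.IsIntegral)
    (D : Divisor Qb (modularFunctionFieldBar N)) :
    Divisor.pushforwardAlong (levelIncl h₁) hι₁ (Divisor.pullbackAlong (frobTo d₁ h₁') hφ₁ D) =
      Divisor.pushforwardAlong (levelIncl h₂) hι₂ (Divisor.pullbackAlong (frobTo d₂ h₂') hφ₂ D) := by
  subst hT
  subst hd
  rfl

/-- **`T_r T_{r'}` on divisors, through the top level `N r r'`**: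
`(α_r)_* (β_r)^* (α_{r'})_* (β_{r'})^* = ι_* φ^*`, `ι` the inclusion, `φ : f(q) ↦ f(q^{r r'})`. -/
theorem heckeDivBar_heckeDivBar (hr : r.Prime) (hr' : r'.Prime) (hrN : ¬ r ∣ N) (hr'N : ¬ r' ∣ N)
    (hne : r ≠ r') (hι : (levelIncl (top_dvd₁ (N := N) (r := r) (r' := r'))).toRingHom.IsIntegral)
    (hφ : (frobTo (r * r') (top_dvd₂ (N := N) (r := r) (r' := r'))).toRingHom.IsIntegral)
    (D : Divisor Qb (modularFunctionFieldBar N)) :
    heckeDivBar (AlongDegree25.heckeAlphaBarIntegral Qb N r hr hrN)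
        (AlongDegree25.heckeBetaBarIntegral Qb N r hr hrN)
        (heckeDivBar (AlongDegree25.heckeAlphaBarIntegral Qb N r' hr' hr'N)
          (AlongDegree25.heckeBetaBarIntegral Qb N r' hr' hr'N) D) =
      Divisor.pushforwardAlong (levelIncl (top_dvd₁ (N := N) (r := r) (r' := r'))) hι
        (Divisor.pullbackAlong (frobTo (r * r') (top_dvd₂ (N := N) (r := r) (r' := r'))) hφ D) := by
  have hr'Nr : ¬ r' ∣ N * r := not_dvd_mul_of_ne hr hr' hr'N hne
  have hrNr' : ¬ r ∣ N * r' := not_dvd_mul_of_ne hr' hr hrN hne.symm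
  have hα := AlongDegree25.heckeAlphaBarIntegral Qb N r hr hrN
  have hβ := AlongDegree25.heckeBetaBarIntegral Qb N r hr hrN
  have hα' := AlongDegree25.heckeAlphaBarIntegral Qb N r' hr' hr'N
  have hβ' := AlongDegree25.heckeBetaBarIntegral Qb N r' hr' hr'N
  have hA' := AlongDegree25.heckeAlphaBarIntegral Qb (N * r) r' hr' hr'Nr
  have hB' : (frobTo r (dvd_top N r r')).toRingHom.IsIntegral :=
    frobTo_isIntegral hr hrNr' (dvd_top N r r')
  have e : ∀ (E : Divisor Qb (modularFunctionFieldBar N)),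
      heckeDivBar hα hβ E = Divisor.pushforwardAlong (heckeAlphaBar Qb N r) hα
        (Divisor.pullbackAlong (heckeBetaBar Qb N r) hβ E) := fun _ => rfl
  have e' : ∀ (E : Divisor Qb (modularFunctionFieldBar N)),
      heckeDivBar hα' hβ' E = Divisor.pushforwardAlong (heckeAlphaBar Qb N r') hα'
        (Divisor.pullbackAlong (heckeBetaBar Qb N r') hβ' E) := fun _ => rfl
  rw [e, e',
    BaseChange19.pullbackAlong_pushforwardAlong (heckeAlphaBar Qb N r') (heckeBetaBar Qb N r)
      (heckeAlphaBar Qb (N * r) r') (frobTo r (dvd_top N r r')) (square_comm N r r')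
      hα' hβ hA' hB'
      (AlongDegree25.finiteAlong_alpha Qb N r' hr' hr'N)
      (AlongDegree25.finiteAlong_alpha Qb (N * r) r' hr' hr'Nr)
      (InputsFinal15.normFormulaAlong_alpha N r' hr' hr'N)
      (InputsFinal15.normFormulaAlong_alpha (N * r) r' hr' hr'Nr)
      (norm_compat hr hr' hrN hr'N hne),
    ← pushforwardAlong_comp (heckeAlphaBar Qb N r) (heckeAlphaBar Qb (N * r) r') hα hA'
      (BaseChange19.isIntegral_comp _ _ hα hA')
      (fun w => FbarFacts20.deg_eq_one_bar _ w) (fun w => FbarFacts20.deg_eq_one_bar _ w),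
    ← BaseChange19.pullbackAlong_comp (heckeBetaBar Qb N r') (frobTo r (dvd_top N r r')) hβ' hB'
      (BaseChange19.isIntegral_comp _ _ hβ' hB')]
  rw [pushforwardAlong_congr alpha_comp_alpha _ hι, pullbackAlong_congr frob_comp_beta _ hφ]

/-- integrality of `f(q) ↦ f(q^{r r'})`. -/
theorem frobTo_mul_isIntegral (hr : r.Prime) (hr' : r'.Prime) (hrN : ¬ r ∣ N) (hr'N : ¬ r' ∣ N)
    (hne : r ≠ r') :
    (frobTo (r * r') (top_dvd₂ (N := N) (r := r) (r' := r'))).toRingHom.IsIntegral := by
  rw [← frob_comp_beta]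
  exact BaseChange19.isIntegral_comp _ _ (AlongDegree25.heckeBetaBarIntegral Qb N r' hr' hr'N)
    (frobTo_isIntegral hr (not_dvd_mul_of_ne hr' hr hrN hne.symm) (dvd_top N r r'))

/-- **(HC) on divisors**: the correspondences `T_r` and `T_{r'}` commute. -/
theorem heckeDivBar_comm (hr : r.Prime) (hr' : r'.Prime) (hrN : ¬ r ∣ N) (hr'N : ¬ r' ∣ N)
    (hne : r ≠ r') (D : Divisor Qb (modularFunctionFieldBar N)) :
    heckeDivBar (AlongDegree25.heckeAlphaBarIntegral Qb N r hr hrN)
        (AlongDegree25.heckeBetaBarIntegral Qb N r hr hrN)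
        (heckeDivBar (AlongDegree25.heckeAlphaBarIntegral Qb N r' hr' hr'N)
          (AlongDegree25.heckeBetaBarIntegral Qb N r' hr' hr'N) D) =
      heckeDivBar (AlongDegree25.heckeAlphaBarIntegral Qb N r' hr' hr'N)
        (AlongDegree25.heckeBetaBarIntegral Qb N r' hr' hr'N)
        (heckeDivBar (AlongDegree25.heckeAlphaBarIntegral Qb N r hr hrN)
          (AlongDegree25.heckeBetaBarIntegral Qb N r hr hrN) D) := by
  rw [heckeDivBar_heckeDivBar hr hr' hrN hr'N hne (levelIncl_isIntegral _)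
      (frobTo_mul_isIntegral hr hr' hrN hr'N hne) D,
    heckeDivBar_heckeDivBar hr' hr hr'N hrN hne.symm (levelIncl_isIntegral _)
      (frobTo_mul_isIntegral hr' hr hr'N hrN hne.symm) D]
  exact psi_congr (by ring) (mul_comm r r') _ _ _ _ _ _ _ _ D

/-- **(HC) on `J₀(N)(ℚ̄)`**: `T_r T_{r'} = T_{r'} T_r` for distinct primes not dividing `N`. -/
theorem heckeOperatorAlong_comm (hr : r.Prime) (hr' : r'.Prime) (hrN : ¬ r ∣ N) (hr'N : ¬ r' ∣ N)
    (hne : r ≠ r') (x : JZero N) :
    heckeOperatorAlong Qb N r (heckeOperatorAlong Qb N r' x) =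
      heckeOperatorAlong Qb N r' (heckeOperatorAlong Qb N r x) := by
  obtain ⟨D, rfl⟩ := Pic0.mk_surjective x
  rw [PointFormula28.heckeOperatorAlong_mk (AlongDegree25.heckeAlphaBarIntegral Qb N r' hr' hr'N)
      (AlongDegree25.heckeBetaBarIntegral Qb N r' hr' hr'N)
      (InputsMain19.fundamentalIdentityAlong_beta N r' hr' hr'N)
      (AlongDegree25.finiteAlong_alpha Qb N r' hr' hr'N)
      (InputsFinal15.normFormulaAlong_alpha N r' hr' hr'N),
    PointFormula28.heckeOperatorAlong_mk (AlongDegree25.heckeAlphaBarIntegral Qb N r hr hrN)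
      (AlongDegree25.heckeBetaBarIntegral Qb N r hr hrN)
      (InputsMain19.fundamentalIdentityAlong_beta N r hr hrN)
      (AlongDegree25.finiteAlong_alpha Qb N r hr hrN)
      (InputsFinal15.normFormulaAlong_alpha N r hr hrN),
    PointFormula28.heckeOperatorAlong_mk (AlongDegree25.heckeAlphaBarIntegral Qb N r hr hrN)
      (AlongDegree25.heckeBetaBarIntegral Qb N r hr hrN)
      (InputsMain19.fundamentalIdentityAlong_beta N r hr hrN)
      (AlongDegree25.finiteAlong_alpha Qb N r hr hrN)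
      (InputsFinal15.normFormulaAlong_alpha N r hr hrN),
    PointFormula28.heckeOperatorAlong_mk (AlongDegree25.heckeAlphaBarIntegral Qb N r' hr' hr'N)
      (AlongDegree25.heckeBetaBarIntegral Qb N r' hr' hr'N)
      (InputsMain19.fundamentalIdentityAlong_beta N r' hr' hr'N)
      (AlongDegree25.finiteAlong_alpha Qb N r' hr' hr'N)
      (InputsFinal15.normFormulaAlong_alpha N r' hr' hr'N)]
  refine congrArg Pic0.mk (Subtype.ext ?_)
  exact heckeDivBar_comm hr hr' hrN hr'N hne (D : Divisor Qb (modularFunctionFieldBar N))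

end Composite

/-! ### Consequences: the Hecke ring of `Contracts9` is commutative -/

section Ring

open Fermat.Agent.M15.Contracts9

variable (N : ℕ) [NeZero N]

/-- **(HC)** in the Prelude's notation: `T_r T_{r'} = T_{r'} T_r` for primes not dividing `N`. -/
theorem heckeOperatorBar_mul_comm (r r' : Nat.Primes) (hrN : ¬ (r : ℕ) ∣ N) (hr'N : ¬ (r' : ℕ) ∣ N) :
    heckeOperatorBar N r * heckeOperatorBar N r' = heckeOperatorBar N r' * heckeOperatorBar N r := by
  by_cases hne : (r : ℕ) = r'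
  · have : r = r' := Subtype.ext hne
    rw [this]
  · haveI : NeZero (r : ℕ) := ⟨r.2.ne_zero⟩
    haveI : NeZero (r' : ℕ) := ⟨r'.2.ne_zero⟩
    apply LinearMap.ext
    intro x
    exact heckeOperatorAlong_comm r.2 r'.2 hrN hr'N hne x

variable (p : ℕ) [NeZero p]

/-- the generators of `heckeRing p` commute (`p` prime). -/
theorem heckeRing_generators_commute :
    ∀ a ∈ {t | ∃ r : Nat.Primes, ¬ (r : ℕ) ∣ 2 * p ∧ t = heckeOperatorBar p r},
      ∀ b ∈ {t | ∃ r : Nat.Primes, ¬ (r : ℕ) ∣ 2 * p ∧ t = heckeOperatorBar p r},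
        a * b = b * a := by
  rintro _ ⟨r, hr, rfl⟩ _ ⟨r', hr', rfl⟩
  exact heckeOperatorBar_mul_comm p r r'
    (fun h => hr (h.trans (dvd_mul_left p 2)))
    (fun h => hr' (h.trans (dvd_mul_left p 2)))

/-- **`heckeRing p` is commutative.**  (The hypothesis `hp` is kept for compatibility.) -/
theorem isMulCommutative_heckeRing (hp : p.Prime) : IsMulCommutative (heckeRing p) :=
  Algebra.isMulCommutative_adjoin ℤ (heckeRing_generators_commute p)

/-- `T_r` commutes with every element of `heckeRing p`, for every prime `r ∤ p` (including `2`). -/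
theorem heckeOperatorBar_mul_comm_of_mem (r : Nat.Primes) (hr : ¬ (r : ℕ) ∣ p)
    {s : Module.End ℤ (JZero p)} (hs : s ∈ heckeRing p) :
    heckeOperatorBar p r * s = s * heckeOperatorBar p r := by
  unfold heckeRing at hs
  induction hs using Algebra.adjoin_induction with
  | mem t ht =>
    obtain ⟨r', hr', rfl⟩ := ht
    exact heckeOperatorBar_mul_comm p r r' hr (fun h => hr' (h.trans (dvd_mul_left p 2)))
  | algebraMap a => exact (Algebra.commutes a _).symm
  | add s t _ _ hs ht => rw [mul_add, add_mul, hs, ht]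
  | mul s t _ _ hs ht => rw [← mul_assoc, hs, mul_assoc, ht, mul_assoc]

/-- elementwise form. -/
theorem heckeRing_mul_comm (hp : p.Prime) {s t : Module.End ℤ (JZero p)} (hs : s ∈ heckeRing p)
    (ht : t ∈ heckeRing p) : s * t = t * s := by
  haveI := isMulCommutative_heckeRing p hp
  have h := mul_comm' (⟨s, hs⟩ : heckeRing p) ⟨t, ht⟩
  exact congrArg Subtype.val h

end Ring

end Fermat.Agent.M15.HeckeComm9
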