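/-
Programme M15 (target S15), chapter (KUM), helper6: **the sharp descent** (KUM-5').

`M = J(ℚ)`, `kum : M → H¹(G_T, G_k)` the `ε`-part of the `ℓ^k`-Kummer map (`KumMap6`).  If
* the Kummer classes killed by `ρI` (restriction to inertia at the level) lie in a finite `Sel`,
* the image of `ρI ∘ kum` has at most `c` elements,
* `#Sel * c ≤ #H⁰(ℚ, G_k)` (the Selmer count of DEV/R2/R3),
* `M[ℓ^∞]` is finite,
then for every `y ∈ M` there are `s : 𝕋` with `ε s = 1`, a rational `ℓ`-power torsion point `t` and a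
rational `w` with `s • y = t + ℓ^k • w` (`= SharpDescent`).

`descent_bdd` (helper3's bounded-defect variant): the same conclusion for every `k` from
`#kum_k(M) ≤ C · #H⁰(ℚ, G_k)` for all `k`, with `C` independent of `k`.

Proof: `N = ker kum = {y | ∃ s, ε s ≠ 0, s y ∈ ℓ^k M}` (`kum_eq_zero_iff`); `T_ε = M[ℓ^∞]_ε` finite;
`T_ε ∩ N = ℓ^k T_ε`; `#kum(T_ε) = #(T_ε/ℓ^k T_ε) = #T_ε[ℓ^k] = #H⁰(G_k) ≥ #Sel·c ≥ #kum(M)`, hence
`kum(T_ε) = kum(M)`, i.e. `M = T_ε + N`.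
-/
import Mathlib
import Fermat.Agent.M15.KumMap6

set_option autoImplicit false
set_option linter.unusedSectionVars false
set_option linter.style.haveILetI false

open CategoryTheory ExtCitation groupCohomology

namespace Fermat.Agent.M15.KumDescent6

open Fermat.Agent.PT.PRO Fermat.Agent.PT.BR Fermat.Agent.W56.Defs9 Fermat.Agent.M15.KumLoc6
  Fermat.Agent.M15.KumRep6 Fermat.Agent.M15.KumMap6

local notation "Γ" => (AlgebraicClosure ℚ ≃ₐ[ℚ] AlgebraicClosure ℚ)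
local notation "Qbar" => AlgebraicClosure ℚ

/-! ### Generic counting -/

section Card

/-- `#A = #range f * #ker f`. -/
theorem card_eq_range_mul_ker {A B : Type*} [AddGroup A] [AddGroup B] (f : A →+ B) :
    Nat.card A = Nat.card f.range * Nat.card f.ker := by
  rw [AddSubgroup.card_eq_card_quotient_mul_card_addSubgroup f.ker]
  congr 1
  exact Nat.card_congr (QuotientAddGroup.quotientKerEquivRange f).toEquiv

/-- A group with a homomorphism with finite kernel and finite range is finite. -/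
theorem finite_of_ker_range {A B : Type*} [AddGroup A] [AddGroup B] (f : A →+ B)
    [Finite f.ker] [Finite f.range] : Finite A := by
  apply Nat.finite_of_card_ne_zero
  rw [card_eq_range_mul_ker f]
  exact Nat.mul_ne_zero Nat.card_pos.ne' Nat.card_pos.ne'

/-- For an endomorphism of a finite group, `#range * #ker = #A`; for two homomorphisms out of the
same finite group with `ker g = range μ`: `#range g = #ker μ`. -/
theorem card_range_eq_card_ker {A B : Type*} [AddGroup A] [AddGroup B] [Finite A]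
    (g : A →+ B) (μ : A →+ A) (h : g.ker = μ.range) : Nat.card g.range = Nat.card μ.ker := by
  have h1 := card_eq_range_mul_ker g
  have h2 := card_eq_range_mul_ker μ
  rw [h] at h1
  have hpos : 0 < Nat.card μ.range := Nat.card_pos
  have h3 : Nat.card g.range * Nat.card μ.range = Nat.card μ.ker * Nat.card μ.range := by
    rw [← h1, h2, mul_comm]
  exact Nat.eq_of_mul_eq_mul_right hpos h3

end Card

noncomputable section

variable {J : Type} [AddCommGroup J] [DistribMulAction Γ J]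
  {𝕋 : Type} [Ring 𝕋] [Module 𝕋 J] [SMulCommClass Γ 𝕋 J] {ℓ : ℕ} [Fact ℓ.Prime]
  (ε : 𝕋 →+* ZMod ℓ) (k : ℕ)

/-! ### Powers acting as the identity on `G_j` -/

theorem exists_pow_smul_eq_kerE (hfin : Finite {x : J // ℓ • x = 0}) (hcomm : CommOnTors J 𝕋 ℓ)
    (j : ℕ) {s : 𝕋} (hs : ε s ≠ 0) :
    ∃ n : ℕ, ∀ v ∈ kerE J ε j, s ^ (n + 1) • v = v := by
  haveI := finite_torsK (𝕋 := 𝕋) hfin j
  have hcomm' : ∀ (s t : 𝕋) (x : ↥(torsK J 𝕋 ℓ j)), s • t • x = t • s • x :=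
    fun s t x => Subtype.ext (hcomm s t x ⟨j, x.2⟩)
  have hℓ' : ∀ x : ↥(torsK J 𝕋 ℓ j), ∃ i : ℕ, ℓ ^ i • x = 0 :=
    fun x => ⟨j, Subtype.ext (by simp)⟩
  obtain ⟨n, hn1, hn⟩ := exists_pow_smul_eq (ε := ε) hℓ' hcomm' hs
  obtain ⟨n', rfl⟩ : ∃ n', n = n' + 1 := ⟨n - 1, by omega⟩
  refine ⟨n', fun v hv => ?_⟩
  have h1 : (⟨v, hv.1⟩ : ↥(torsK J 𝕋 ℓ j)) ∈ eigenPart ℓ ε ↥(torsK J 𝕋 ℓ j) :=
    (mem_eigenPart_torsK_iff J ε _).2 hv.2
  exact congrArg Subtype.val (hn _ h1)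

/-! ### The finite group `T_ε = M[ℓ^∞]_ε` -/

/-- `T_ε`: the rational `ℓ`-power torsion points in the `ε`-eigenpart. -/
def Teps : AddSubgroup ↥(fixedPts J) where
  carrier := {x | (∃ j : ℕ, ℓ ^ j • (x : J) = 0) ∧ ∀ a : 𝕋, ε a = 0 → ∃ N : ℕ, a ^ N • (x : J) = 0}
  zero_mem' := ⟨⟨0, smul_zero _⟩, fun _ _ => ⟨0, smul_zero _⟩⟩
  add_mem' := by
    rintro x y ⟨⟨j, hj⟩, hx⟩ ⟨⟨j', hj'⟩, hy⟩
    refine ⟨⟨j + j', ?_⟩, fun a ha => ?_⟩
    · rw [AddSubgroup.coe_add, smul_add, pow_add, mul_comm, mul_smul, hj, smul_zero, zero_add,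
        mul_comm, mul_smul, hj', smul_zero]
    · obtain ⟨N, hN⟩ := hx a ha
      obtain ⟨N', hN'⟩ := hy a ha
      exact ⟨N + N', by
        rw [AddSubgroup.coe_add, smul_add, pow_smul_eq_zero_of_le hN (Nat.le_add_right N N'),
          pow_smul_eq_zero_of_le hN' (Nat.le_add_left N' N), add_zero]⟩
  neg_mem' := by
    rintro x ⟨⟨j, hj⟩, hx⟩
    refine ⟨⟨j, by rw [AddSubgroup.coe_neg, smul_neg, hj, neg_zero]⟩, fun a ha => ?_⟩
    obtain ⟨N, hN⟩ := hx a ha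
    exact ⟨N, by rw [AddSubgroup.coe_neg, smul_neg, hN, neg_zero]⟩

theorem finite_Teps
    (htors : Finite {x : J // (∀ g : Γ, g • x = x) ∧ ∃ j : ℕ, ℓ ^ j • x = 0}) :
    Finite ↥(Teps (J := J) ε) :=
  Finite.of_injective
    (fun t : ↥(Teps (J := J) ε) =>
      (⟨((t : ↥(fixedPts J)) : J), (t : ↥(fixedPts J)).2, t.2.1⟩ :
        {x : J // (∀ g : Γ, g • x = x) ∧ ∃ j : ℕ, ℓ ^ j • x = 0}))
    (fun t t' h => by
      have h' := Subtype.ext_iff.1 h
      exact Subtype.ext (Subtype.ext h'))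

/-- Multiplication by `ℓ^k` on `T_ε`. -/
def mulT : ↥(Teps (J := J) ε) →+ ↥(Teps (J := J) ε) := nsmulAddMonoidHom (ℓ ^ k)

theorem coe_mulT (t : ↥(Teps (J := J) ε)) :
    (((mulT ε k t : ↥(Teps (J := J) ε)) : ↥(fixedPts J)) : J) = ℓ ^ k • ((t : ↥(fixedPts J)) : J) := by
  simp [mulT]

/-- `T_ε[ℓ^k] = H⁰(ℚ, G_k)`. -/
def kerMulTEquiv :
    ↥(mulT (J := J) ε k).ker ≃ {x : J // (∀ g : Γ, g • x = x) ∧ x ∈ kerE J ε k} where
  toFun t := ⟨(((t : ↥(Teps (J := J) ε)) : ↥(fixedPts J)) : J),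
    ((t : ↥(Teps (J := J) ε)) : ↥(fixedPts J)).2, by
      have h1 : mulT ε k (t : ↥(Teps (J := J) ε)) = 0 := t.2
      have h2 := coe_mulT ε k (t : ↥(Teps (J := J) ε))
      rw [h1] at h2
      exact ⟨h2.symm, (t : ↥(Teps (J := J) ε)).2.2⟩⟩
  invFun x := ⟨⟨⟨x.1, x.2.1⟩, ⟨⟨k, x.2.2.1⟩, x.2.2.2⟩⟩, by
    rw [AddMonoidHom.mem_ker]
    apply Subtype.ext
    apply Subtype.ext
    rw [coe_mulT]
    exact x.2.2.1⟩
  left_inv _ := rfl
  right_inv _ := rfl

/-! ### The descent -/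

section Descent

variable (T : Finset Nat.Primes)
  (hsm : IsSmoothAct J) (hdiv : ∀ x : J, ∃ y : J, ℓ • y = x)
  (hfin : Finite {x : J // ℓ • x = 0}) (hcomm : CommOnTors J 𝕋 ℓ) (hunr : UnramOutside J ε k T)

/-- `kum` restricted to `T_ε`. -/
def kumT : ↥(Teps (J := J) ε) →+ H1g T (GRep J ε k) :=
  (kum ε k T hsm hdiv hfin hcomm hunr).comp (Teps (J := J) ε).subtype

/-- `ker (kum | T_ε) = ℓ^k T_ε`. -/
theorem ker_kumT : (kumT ε k T hsm hdiv hfin hcomm hunr).ker = (mulT (J := J) ε k).range := by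
  ext t
  rw [AddMonoidHom.mem_ker, AddMonoidHom.mem_range]
  constructor
  · intro h
    have h' : kum ε k T hsm hdiv hfin hcomm hunr (t : ↥(fixedPts J)) = 0 := h
    obtain ⟨s, hs, m, hm, hsm'⟩ := (kum_eq_zero_iff ε k T hsm hdiv hfin hcomm hunr _).1 h'
    obtain ⟨⟨j, hj⟩, heig⟩ := t.2
    -- `m` is `ℓ^(j+k)`-torsion
    have hmt : ℓ ^ (j + k) • m = 0 := by
      rw [pow_add, mul_smul, ← hsm', smul_comm, hj, smul_zero]
    obtain ⟨e₁, he₁, hP⟩ := exists_isProjK (J := J) ε (j + k) hfin hcomm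
    set u : 𝕋 := e₁ * s with hu
    have hεu : ε u ≠ 0 := by rw [hu, map_mul, he₁, one_mul]; exact hs
    obtain ⟨n, hn⟩ := exists_pow_smul_eq_kerE ε hfin hcomm (j + k) hεu
    -- `t ∈ G_(j+k)`
    have htG : ((t : ↥(fixedPts J)) : J) ∈ kerE J ε (j + k) :=
      ⟨by rw [pow_add, mul_comm, mul_smul, hj, smul_zero], heig⟩
    have hm' : e₁ • m ∈ kerE J ε (j + k) := hP.mem m hmt
    have hum : u ^ n • (e₁ • m) ∈ kerE J ε (j + k) := tsmul_mem_kerE hcomm _ hm'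
    -- `u • t = ℓ^k • (e₁ • m)`
    have h1 : u • ((t : ↥(fixedPts J)) : J) = ℓ ^ k • (e₁ • m) := by
      rw [hu, mul_smul, hsm', smul_comm]
    have h2 : ((t : ↥(fixedPts J)) : J) = ℓ ^ k • (u ^ n • (e₁ • m)) := by
      rw [← hn _ htG, pow_succ, mul_smul, h1, smul_comm]
    -- the preimage
    have hfix : ∀ g : Γ, g • (u ^ n • (e₁ • m)) = u ^ n • (e₁ • m) := by
      intro g
      rw [smul_comm g, smul_comm g, hm g]
    refine ⟨⟨⟨u ^ n • (e₁ • m), hfix⟩, ⟨⟨j + k, hum.1⟩, hum.2⟩⟩, ?_⟩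
    apply Subtype.ext
    apply Subtype.ext
    rw [coe_mulT]
    exact h2.symm
  · rintro ⟨t', rfl⟩
    show kum ε k T hsm hdiv hfin hcomm hunr ((mulT ε k t' : ↥(Teps (J := J) ε)) : ↥(fixedPts J)) = 0
    rw [kum_eq_zero_iff]
    refine ⟨1, by rw [map_one]; exact one_ne_zero, ((t' : ↥(fixedPts J)) : J),
      (t' : ↥(fixedPts J)).2, ?_⟩
    rw [one_smul, coe_mulT]

/-- `#kum(T_ε) = #H⁰(ℚ, G_k)`. -/
theorem card_range_kumT
    (htors : Finite {x : J // (∀ g : Γ, g • x = x) ∧ ∃ j : ℕ, ℓ ^ j • x = 0}) :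
    Nat.card (kumT ε k T hsm hdiv hfin hcomm hunr).range =
      Nat.card {x : J // (∀ g : Γ, g • x = x) ∧ x ∈ kerE J ε k} := by
  haveI := finite_Teps ε htors
  rw [card_range_eq_card_ker _ (mulT (J := J) ε k) (ker_kumT ε k T hsm hdiv hfin hcomm hunr)]
  exact Nat.card_congr (kerMulTEquiv ε k)

theorem range_kumT_le :
    (kumT ε k T hsm hdiv hfin hcomm hunr).range ≤ (kum ε k T hsm hdiv hfin hcomm hunr).range := by
  rintro _ ⟨t, rfl⟩
  exact ⟨(t : ↥(fixedPts J)), rfl⟩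

/-- `#kum(M) ≤ #Sel * c`, and `kum(M)` is finite. -/
theorem card_range_kum_le
    (Sel : AddSubgroup (H1g T (GRep J ε k))) [Finite Sel]
    {X : Type} [AddCommGroup X] (ρI : H1g T (GRep J ε k) →+ X)
    (hSel : ∀ x : ↥(fixedPts J), ρI (kum ε k T hsm hdiv hfin hcomm hunr x) = 0 →
      kum ε k T hsm hdiv hfin hcomm hunr x ∈ Sel)
    (c : ℕ) (hfinI : (Set.range (ρI.comp (kum ε k T hsm hdiv hfin hcomm hunr))).Finite)
    (hc : Nat.card ↥(Set.range (ρI.comp (kum ε k T hsm hdiv hfin hcomm hunr))) ≤ c) :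
    Finite ↥(kum ε k T hsm hdiv hfin hcomm hunr).range ∧
      Nat.card ↥(kum ε k T hsm hdiv hfin hcomm hunr).range ≤ Nat.card Sel * c := by
  set f := kum ε k T hsm hdiv hfin hcomm hunr with hf
  let h : ↥f.range →+ X := ρI.comp f.range.subtype
  -- the kernel of `h` embeds into `Sel`
  have hker : ∀ v : ↥h.ker, ((v : ↥f.range) : H1g T (GRep J ε k)) ∈ Sel := by
    intro v
    obtain ⟨x, hx⟩ := (v : ↥f.range).2
    have h1 : ρI ((v : ↥f.range) : H1g T (GRep J ε k)) = 0 := v.2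
    rw [← hx] at h1 ⊢
    exact hSel x h1
  let ι : ↥h.ker → ↥Sel := fun v => ⟨_, hker v⟩
  have hι : Function.Injective ι := fun v v' hvv' => by
    have h' := Subtype.ext_iff.1 hvv'
    exact Subtype.ext (Subtype.ext h')
  haveI : Finite ↥h.ker := Finite.of_injective ι hι
  have hkercard : Nat.card ↥h.ker ≤ Nat.card Sel := Nat.card_le_card_of_injective ι hι
  -- the range of `h` is the range of `ρI ∘ kum`
  haveI : Finite ↥(Set.range (ρI.comp f)) := hfinI.to_subtype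
  let κ : ↥h.range → ↥(Set.range (ρI.comp f)) := fun w => ⟨(w : X), by
    obtain ⟨v, hv⟩ := w.2
    obtain ⟨x, hx⟩ := v.2
    exact ⟨x, by rw [← hv]; show ρI (f x) = ρI (v : H1g T (GRep J ε k)); rw [hx]⟩⟩
  have hκ : Function.Injective κ := fun w w' hww' => by
    have h' := Subtype.ext_iff.1 hww'
    exact Subtype.ext h'
  haveI : Finite ↥h.range := Finite.of_injective κ hκ
  have hrangecard : Nat.card ↥h.range ≤ c := (Nat.card_le_card_of_injective κ hκ).trans hc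
  refine ⟨finite_of_ker_range h, ?_⟩
  rw [card_eq_range_mul_ker h, mul_comm]
  exact Nat.mul_le_mul hkercard hrangecard

/-- (KUM-5') **THE SHARP DESCENT** at level `ℓ^k`. -/
theorem descent
    (htors : Finite {x : J // (∀ g : Γ, g • x = x) ∧ ∃ j : ℕ, ℓ ^ j • x = 0})
    (Sel : AddSubgroup (H1g T (GRep J ε k))) [Finite Sel]
    {X : Type} [AddCommGroup X] (ρI : H1g T (GRep J ε k) →+ X)
    (hSel : ∀ x : ↥(fixedPts J), ρI (kum ε k T hsm hdiv hfin hcomm hunr x) = 0 →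
      kum ε k T hsm hdiv hfin hcomm hunr x ∈ Sel)
    (c : ℕ) (hfinI : (Set.range (ρI.comp (kum ε k T hsm hdiv hfin hcomm hunr))).Finite)
    (hc : Nat.card ↥(Set.range (ρI.comp (kum ε k T hsm hdiv hfin hcomm hunr))) ≤ c)
    (hcount : Nat.card Sel * c ≤ Nat.card {x : J // (∀ g : Γ, g • x = x) ∧ x ∈ kerE J ε k}) :
    ∀ y : J, (∀ g : Γ, g • y = y) → ∃ s : 𝕋, ε s = 1 ∧ ∃ t w : J,
      (∀ g : Γ, g • t = t) ∧ (∃ j : ℕ, ℓ ^ j • t = 0) ∧ (∀ g : Γ, g • w = w) ∧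
        s • y = t + ℓ ^ k • w := by
  intro y hy
  set f := kum ε k T hsm hdiv hfin hcomm hunr with hf
  set g := kumT ε k T hsm hdiv hfin hcomm hunr with hg
  obtain ⟨hfinR, hcardR⟩ := card_range_kum_le ε k T hsm hdiv hfin hcomm hunr Sel ρI hSel c hfinI hc
  -- `kum(T_ε) = kum(M)`
  have hle : (g.range : Set (H1g T (GRep J ε k))) ⊆ (f.range : Set (H1g T (GRep J ε k))) :=
    range_kumT_le ε k T hsm hdiv hfin hcomm hunr
  have hcard : (f.range : Set (H1g T (GRep J ε k))).ncard ≤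
      (g.range : Set (H1g T (GRep J ε k))).ncard := by
    rw [← Nat.card_coe_set_eq, ← Nat.card_coe_set_eq]
    calc Nat.card ↥f.range ≤ Nat.card Sel * c := hcardR
      _ ≤ Nat.card {x : J // (∀ g : Γ, g • x = x) ∧ x ∈ kerE J ε k} := hcount
      _ = Nat.card ↥g.range := (card_range_kumT ε k T hsm hdiv hfin hcomm hunr htors).symm
  have heq : (g.range : Set (H1g T (GRep J ε k))) = (f.range : Set (H1g T (GRep J ε k))) :=
    Set.eq_of_subset_of_ncard_le hle hcard (Set.toFinite _)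
  have hy' : f ⟨y, hy⟩ ∈ (g.range : Set (H1g T (GRep J ε k))) := by
    rw [heq]
    exact ⟨⟨y, hy⟩, rfl⟩
  obtain ⟨t, ht⟩ := hy'
  -- `y − t ∈ ker kum`
  have hzero : f (⟨y, hy⟩ - (t : ↥(fixedPts J))) = 0 := by
    rw [map_sub, sub_eq_zero]
    exact ht.symm
  obtain ⟨s, hs, m, hm, hsm'⟩ := (kum_eq_zero_iff ε k T hsm hdiv hfin hcomm hunr _).1 hzero
  -- normalise `ε s = 1`
  set c' : ℕ := ((ε s)⁻¹).val with hc'
  have hεc : ((c' : 𝕋) * s) = (c' : 𝕋) * s := rfl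
  have hε1 : ε ((c' : 𝕋) * s) = 1 := by
    rw [map_mul, map_natCast, hc', ZMod.natCast_zmod_val, inv_mul_cancel₀ hs]
  obtain ⟨⟨j, hj⟩, -⟩ := t.2
  have hsub : s • (y - ((t : ↥(fixedPts J)) : J)) = ℓ ^ k • m := hsm'
  refine ⟨(c' : 𝕋) * s, hε1, ((c' : 𝕋) * s) • ((t : ↥(fixedPts J)) : J), c' • m, ?_, ⟨j, ?_⟩, ?_, ?_⟩
  · intro γ
    rw [smul_comm γ, (t : ↥(fixedPts J)).2 γ]
  · rw [smul_comm, hj, smul_zero]
  · intro γ
    rw [smul_comm γ, hm γ]
  · have h1 : ((c' : 𝕋) * s) • (y - ((t : ↥(fixedPts J)) : J)) = ℓ ^ k • (c' • m) := by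
      rw [mul_smul, hsub, Nat.cast_smul_eq_nsmul, smul_comm]
    rw [smul_sub, sub_eq_iff_eq_add] at h1
    rw [h1, add_comm]

end Descent

/-! ### The descent from a bounded defect (helper3's (BD)) -/

section Bounded

variable (T : Finset Nat.Primes)
  (hsm : IsSmoothAct J) (hdiv : ∀ x : J, ∃ y : J, ℓ • y = x)
  (hfin : Finite {x : J // ℓ • x = 0}) (hcomm : CommOnTors J 𝕋 ℓ) (hunr : UnramOutside J ε k T)

/-- Kummer classes at level `ℓ^k` are killed by `ℓ^k`. -/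
theorem pow_smul_kum (x : ↥(fixedPts J)) :
    ℓ ^ k • kum ε k T hsm hdiv hfin hcomm hunr x = 0 := by
  rw [← map_nsmul, kum_eq_zero_iff]
  refine ⟨1, by rw [map_one]; exact one_ne_zero, (x : J), x.2, ?_⟩
  rw [one_smul, AddSubgroup.coe_nsmul]

/-- If `#kum(M) ≤ C · #H⁰(ℚ, G_k)` then `ℓ^C` maps `kum(M)` into `kum(T_ε)`. -/
theorem pow_smul_mem_range_kumT
    (htors : Finite {x : J // (∀ g : Γ, g • x = x) ∧ ∃ j : ℕ, ℓ ^ j • x = 0})
    (C : ℕ)
    (hfinR : (Set.range (kum ε k T hsm hdiv hfin hcomm hunr)).Finite)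
    (hbd : Nat.card ↥(Set.range (kum ε k T hsm hdiv hfin hcomm hunr)) ≤
      C * Nat.card {x : J // (∀ g : Γ, g • x = x) ∧ x ∈ kerE J ε k})
    (y : ↥(fixedPts J)) :
    ℓ ^ C • kum ε k T hsm hdiv hfin hcomm hunr y ∈
      (kumT ε k T hsm hdiv hfin hcomm hunr).range := by
  have hℓ : ℓ.Prime := Fact.out
  set f := kum ε k T hsm hdiv hfin hcomm hunr with hf
  set g := kumT ε k T hsm hdiv hfin hcomm hunr with hg
  have hgf : g.range ≤ f.range := range_kumT_le ε k T hsm hdiv hfin hcomm hunr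
  haveI : Finite ↥f.range := hfinR.to_subtype
  haveI : Finite ↥g.range :=
    Finite.of_injective (fun w : ↥g.range => (⟨w.1, hgf w.2⟩ : ↥f.range))
      (fun w w' h => Subtype.ext (congrArg (fun z : ↥f.range => (z : H1g T (GRep J ε k))) h))
  let φ : ↥f.range →+ (H1g T (GRep J ε k)) ⧸ g.range :=
    (QuotientAddGroup.mk' g.range).comp f.range.subtype
  have hφ : ∀ v : ↥f.range, φ v = QuotientAddGroup.mk (v : H1g T (GRep J ε k)) := fun _ => rfl
  haveI : Finite ↥φ.range := (Set.finite_range φ).to_subtype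
  -- `ker φ ≃ range g`
  have hker : Nat.card ↥φ.ker = Nat.card ↥g.range :=
    Nat.card_congr
      { toFun := fun v => ⟨((v : ↥f.range) : H1g T (GRep J ε k)),
          (QuotientAddGroup.eq_zero_iff _).1 (v.2 : φ (v : ↥f.range) = 0)⟩
        invFun := fun w => ⟨⟨w.1, hgf w.2⟩, (QuotientAddGroup.eq_zero_iff _).2 w.2⟩
        left_inv := fun _ => rfl
        right_inv := fun _ => rfl }
  have h1 := card_eq_range_mul_ker φ
  have hcardg : Nat.card ↥g.range =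
      Nat.card {x : J // (∀ g : Γ, g • x = x) ∧ x ∈ kerE J ε k} :=
    card_range_kumT ε k T hsm hdiv hfin hcomm hunr htors
  have h2 : Nat.card ↥φ.range ≤ C := by
    have h3 : Nat.card ↥φ.range * Nat.card ↥g.range ≤ C * Nat.card ↥g.range := by
      calc Nat.card ↥φ.range * Nat.card ↥g.range = Nat.card ↥f.range := by rw [h1, hker]
        _ ≤ C * Nat.card {x : J // (∀ g : Γ, g • x = x) ∧ x ∈ kerE J ε k} := hbd
        _ = C * Nat.card ↥g.range := by rw [hcardg]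
    exact Nat.le_of_mul_le_mul_right h3 Nat.card_pos
  -- the class of `f y`
  set q : (H1g T (GRep J ε k)) ⧸ g.range := QuotientAddGroup.mk (f y) with hq
  have hqmem : q ∈ φ.range := ⟨⟨f y, y, rfl⟩, rfl⟩
  have hd1 : addOrderOf q ∣ Nat.card ↥φ.range := AddSubgroup.addOrderOf_dvd_natCard _ hqmem
  have hd2 : addOrderOf q ∣ ℓ ^ k := by
    apply addOrderOf_dvd_of_nsmul_eq_zero
    rw [hq, ← QuotientAddGroup.mk_nsmul, pow_smul_kum]
    rfl
  obtain ⟨a, -, ha⟩ := (Nat.dvd_prime_pow hℓ).1 hd2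
  have hle : ℓ ^ a ≤ C := by
    rw [← ha]
    exact (Nat.le_of_dvd Nat.card_pos hd1).trans h2
  have haC : a ≤ C := (Nat.lt_pow_self hℓ.one_lt).le.trans hle
  have hzero : ℓ ^ C • q = 0 := by
    apply addOrderOf_dvd_iff_nsmul_eq_zero.1
    rw [ha]
    exact pow_dvd_pow ℓ haC
  rw [hq, ← QuotientAddGroup.mk_nsmul] at hzero
  exact (QuotientAddGroup.eq_zero_iff _).1 hzero

end Bounded

/-- (KUM-5'') **THE DESCENT FROM A BOUNDED DEFECT**: if `#kum_k(M) ≤ C · #H⁰(ℚ, G_k)` for all `k`,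
with `C` independent of `k`, then every rational point is, up to an operator `s` with `ε s = 1`,
a rational `ℓ`-power torsion point plus an `ℓ^k`-th multiple of a rational point. -/
theorem descent_bdd (T : Finset Nat.Primes)
    (hsm : IsSmoothAct J) (hdiv : ∀ x : J, ∃ y : J, ℓ • y = x)
    (hfin : Finite {x : J // ℓ • x = 0}) (hcomm : CommOnTors J 𝕋 ℓ)
    (hunr : ∀ k : ℕ, UnramOutside J ε k T)
    (htors : Finite {x : J // (∀ g : Γ, g • x = x) ∧ ∃ j : ℕ, ℓ ^ j • x = 0})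
    (C : ℕ)
    (hfinR : ∀ k : ℕ, (Set.range (kum ε k T hsm hdiv hfin hcomm (hunr k))).Finite)
    (hbd : ∀ k : ℕ, Nat.card ↥(Set.range (kum ε k T hsm hdiv hfin hcomm (hunr k))) ≤
      C * Nat.card {x : J // (∀ g : Γ, g • x = x) ∧ x ∈ kerE J ε k}) :
    ∀ (k : ℕ) (y : J), (∀ g : Γ, g • y = y) → ∃ s : 𝕋, ε s = 1 ∧ ∃ t w : J,
      (∀ g : Γ, g • t = t) ∧ (∃ j : ℕ, ℓ ^ j • t = 0) ∧ (∀ g : Γ, g • w = w) ∧
        s • y = t + ℓ ^ k • w := by
  intro k y hy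
  set f := kum ε (k + C) T hsm hdiv hfin hcomm (hunr (k + C)) with hf
  obtain ⟨t0, ht0⟩ := pow_smul_mem_range_kumT ε (k + C) T hsm hdiv hfin hcomm (hunr (k + C)) htors C
    (hfinR (k + C)) (hbd (k + C)) ⟨y, hy⟩
  have ht0' : f (t0 : ↥(fixedPts J)) = ℓ ^ C • f ⟨y, hy⟩ := ht0
  have hzero : f (ℓ ^ C • (⟨y, hy⟩ : ↥(fixedPts J)) - (t0 : ↥(fixedPts J))) = 0 := by
    rw [map_sub, map_nsmul, sub_eq_zero]
    exact ht0'.symm
  obtain ⟨s, hs, m, hm, hsm'⟩ :=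
    (kum_eq_zero_iff ε (k + C) T hsm hdiv hfin hcomm (hunr (k + C)) _).1 hzero
  have hsub : s • (ℓ ^ C • y - ((t0 : ↥(fixedPts J)) : J)) = ℓ ^ (k + C) • m := hsm'
  -- normalise `ε s = 1`
  set c' : ℕ := ((ε s)⁻¹).val with hc'
  have hε1 : ε ((c' : 𝕋) * s) = 1 := by
    rw [map_mul, map_natCast, hc', ZMod.natCast_zmod_val, inv_mul_cancel₀ hs]
  obtain ⟨⟨j, hj⟩, -⟩ := t0.2
  set s' : 𝕋 := (c' : 𝕋) * s with hs'
  have hsub' : s' • (ℓ ^ C • y) = s' • ((t0 : ↥(fixedPts J)) : J) + ℓ ^ (k + C) • (c' • m) := by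
    have h1 : s' • (ℓ ^ C • y - ((t0 : ↥(fixedPts J)) : J)) = ℓ ^ (k + C) • (c' • m) := by
      rw [hs', mul_smul, hsub, Nat.cast_smul_eq_nsmul, smul_comm]
    rw [smul_sub, sub_eq_iff_eq_add] at h1
    rw [h1, add_comm]
  -- the torsion point
  have hu : ℓ ^ C • (s' • y - ℓ ^ k • (c' • m)) = s' • ((t0 : ↥(fixedPts J)) : J) := by
    rw [smul_sub, smul_comm (ℓ ^ C) s' y, hsub', ← mul_smul (ℓ ^ C) (ℓ ^ k), ← pow_add,
      add_comm C k, add_sub_cancel_right]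
  refine ⟨s', hε1, s' • y - ℓ ^ k • (c' • m), c' • m, ?_, ⟨j + C, ?_⟩, ?_, ?_⟩
  · intro γ
    rw [smul_sub, smul_comm γ s' y, hy γ, smul_comm γ (ℓ ^ k), smul_comm γ c' m, hm γ]
  · rw [pow_add, mul_smul, hu, smul_comm, hj, smul_zero]
  · intro γ
    rw [smul_comm γ, hm γ]
  · rw [sub_add_cancel]

end

end Fermat.Agent.M15.KumDescent6
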