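/-
Programme M15 (target S15), chapter (KUM), helper6: **the character of a ring acting on a cyclic
group of prime order**.

`𝕋` a ring acting on an abelian group `J`, `c : J` of exact order `ℓ` (prime) such that every
`s : 𝕋` maps `c` to an integer multiple of `c`.  Then `s ↦ (the multiplier mod ℓ)` is a ring
homomorphism `epsOf : 𝕋 →+* ZMod ℓ`, characterised by `epsOf s = m ↔ s • c = m • c`.
(For `𝕋` = the Hecke ring of `J_0(p)` and `c` a multiple of the cuspidal class `(0) - (∞)` this is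
the Eisenstein character `T_r ↦ r + 1`.)  Mathlib only.
-/
import Mathlib

set_option autoImplicit false

namespace Fermat.Agent.M15.KumEps6

noncomputable section

variable {J : Type*} [AddCommGroup J] {𝕋 : Type*} [Ring 𝕋] [Module 𝕋 J] {ℓ : ℕ} [Fact ℓ.Prime]
  (c : J) (hc : addOrderOf c = ℓ) (heig : ∀ s : 𝕋, ∃ m : ℤ, s • c = m • c)

include hc in
/-- the multiplier is well defined modulo `ℓ`. -/
theorem intCast_eq_iff_zsmul_eq (m m' : ℤ) : ((m : ZMod ℓ) = m') ↔ m • c = m' • c := by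
  rw [ZMod.intCast_eq_intCast_iff_dvd_sub, ← hc, addOrderOf_dvd_iff_zsmul_eq_zero, sub_smul,
    sub_eq_zero, eq_comm]

/-- a chosen integer multiplier. -/
def eigInt (s : 𝕋) : ℤ := Classical.choose (heig s)

theorem eigInt_spec (s : 𝕋) : s • c = eigInt c heig s • c := Classical.choose_spec (heig s)

/-- the character `𝕋 →+* ZMod ℓ` by which `𝕋` acts on `⟨c⟩`. -/
def epsOf : 𝕋 →+* ZMod ℓ where
  toFun s := (eigInt c heig s : ZMod ℓ)
  map_one' := by
    have h := eigInt_spec c heig 1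
    rw [one_smul] at h
    have h' : (1 : ℤ) • c = eigInt c heig 1 • c := by rw [one_smul]; exact h
    have := (intCast_eq_iff_zsmul_eq c hc 1 (eigInt c heig 1)).2 h'
    rw [← this, Int.cast_one]
  map_mul' s t := by
    have h : (eigInt c heig (s * t)) • c = (eigInt c heig s * eigInt c heig t) • c := by
      rw [← eigInt_spec, mul_smul, eigInt_spec c heig t, smul_comm, eigInt_spec c heig s,
        ← mul_smul, mul_comm]
    have := (intCast_eq_iff_zsmul_eq c hc _ _).2 h
    rw [this, Int.cast_mul]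
  map_zero' := by
    have h := eigInt_spec c heig 0
    rw [zero_smul] at h
    have h' : (0 : ℤ) • c = eigInt c heig 0 • c := by rw [zero_smul]; exact h
    have := (intCast_eq_iff_zsmul_eq c hc 0 (eigInt c heig 0)).2 h'
    rw [← this, Int.cast_zero]
  map_add' s t := by
    have h : (eigInt c heig (s + t)) • c = (eigInt c heig s + eigInt c heig t) • c := by
      rw [← eigInt_spec, add_smul, add_smul, ← eigInt_spec, ← eigInt_spec]
    have := (intCast_eq_iff_zsmul_eq c hc _ _).2 h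
    rw [this, Int.cast_add]

/-- characterisation of the character. -/
theorem epsOf_eq_iff (s : 𝕋) (m : ℤ) : epsOf c hc heig s = (m : ZMod ℓ) ↔ s • c = m • c := by
  show ((eigInt c heig s : ℤ) : ZMod ℓ) = (m : ZMod ℓ) ↔ _
  rw [intCast_eq_iff_zsmul_eq c hc, ← eigInt_spec]

theorem epsOf_eq (s : 𝕋) (m : ℤ) (h : s • c = m • c) : epsOf c hc heig s = (m : ZMod ℓ) :=
  (epsOf_eq_iff c hc heig s m).2 h

/-- if `s • c₀ = m • c₀` for an element `c₀` with `c = n • c₀`, then `ε s = m`. -/
theorem epsOf_eq_of_nsmul {c₀ : J} {n : ℕ} (hn : c = n • c₀) (s : 𝕋) (m : ℤ)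
    (h : s • c₀ = m • c₀) : epsOf c hc heig s = (m : ZMod ℓ) := by
  apply epsOf_eq
  rw [hn, smul_comm, h, smul_comm]

/-- `ε s = 1` and `s • c₀ = m • c₀` with `c = n • c₀` imply `ℓ ∤ m`. -/
theorem not_dvd_of_epsOf_eq_one {c₀ : J} {n : ℕ} (hn : c = n • c₀) (s : 𝕋) (m : ℤ)
    (h : s • c₀ = m • c₀) (h1 : epsOf c hc heig s = 1) : ¬ (ℓ : ℤ) ∣ m := by
  intro hdvd
  have h2 := epsOf_eq_of_nsmul c hc heig hn s m h
  rw [h1] at h2
  have h3 : ((m : ℤ) : ZMod ℓ) = 0 := (ZMod.intCast_zmod_eq_zero_iff_dvd m ℓ).2 hdvd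
  rw [h3] at h2
  exact one_ne_zero h2

end

end Fermat.Agent.M15.KumEps6
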