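/-
Programme M15 (target S15), chapter (KUM), helper6: **the instance** `J = J_0(p)(ℚ̄)`,
`𝕋 = heckeRing p` (Contracts9), `ε =` the Eisenstein character at a prime `ℓ ∣ ord (cl P0 Pinf)`.

* `Module ↥(heckeRing p) (JZero p)` is Mathlib's (`Subalgebra.moduleLeft` + `Module.End.applyModule`),
  `s • x = s x`;
* `instSMulCommClass` : the Galois action commutes with the Hecke ring (`HeckeGalois12`);
* `commOnTors` : the Hecke ring is commutative (`HeckeComm9`);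
* `epsChar` : `heckeRing p →+* ZMod ℓ`, `epsChar ⟨T_r, _⟩ = r + 1`, and
  `epsChar s = 1 → ∃ m, s c0 = m • c0 ∧ ¬ ℓ ∣ m`;
* `Wk` : the Galois module `W_k = J[ℓ^k]_ε` (`= KumRep6.GRep`), `h0Equiv`;
* `isSmoothAct_jzero`, `finite_tors_jzero`;
* `sharpDescent_of_bdd` : helper3's bounded defect (BD) ⇒ `SharpDescent p P0 Pinf ℓ` (Contracts9).
-/
import Mathlib
import Fermat.Agent.M15.Contracts9
import Fermat.Agent.M15.HeckeComm9
import Fermat.Agent.ES.HECKE.HeckeGalois12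
import Fermat.Agent.ES.GAL.OpenStab12
import Fermat.Agent.ES.KUM.FiniteTorsion15
import Fermat.Agent.M15.KumEps6
import Fermat.Agent.M15.KumDescent6

set_option autoImplicit false
set_option linter.unusedSectionVars false
set_option linter.style.haveILetI false

open CategoryTheory ExtCitation ModularCurve AlgebraicCurve

namespace Fermat.Agent.M15.KumInst6

open Fermat.Agent.PT.PRO Fermat.Agent.PT.BR Fermat.Agent.W56.Defs9
open Fermat.Agent.M15.Contracts9 Fermat.Agent.M15.KumLoc6 Fermat.Agent.M15.KumRep6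
  Fermat.Agent.M15.KumMap6 Fermat.Agent.M15.KumDescent6 Fermat.Agent.M15.KumEps6

noncomputable section

variable (p : ℕ) [NeZero p]

/-! ### The Hecke ring acting on `J_0(p)` -/

theorem smul_def (s : ↥(heckeRing p)) (x : JZero p) :
    s • x = (s : Module.End ℤ (JZero p)) x := rfl

/-- every element of the Hecke ring commutes with the Galois action. -/
theorem heckeRing_apply_smul {s : Module.End ℤ (JZero p)} (hs : s ∈ heckeRing p) (σ : GQ)
    (x : JZero p) : s (σ • x) = σ • s x := by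
  unfold heckeRing at hs
  induction hs using Algebra.adjoin_induction generalizing x with
  | mem E hE =>
    obtain ⟨r, -, rfl⟩ := hE
    exact Fermat.Agent.ES.HECKE.HeckeGalois12.heckeOperatorBar_smul p r σ x
  | algebraMap a =>
    rw [Module.algebraMap_end_apply, Module.algebraMap_end_apply, gal_zsmul]
  | add E₁ E₂ _ _ h₁ h₂ =>
    rw [LinearMap.add_apply, LinearMap.add_apply, h₁, h₂, smul_add]
  | mul E₁ E₂ _ _ h₁ h₂ =>
    rw [Module.End.mul_apply, Module.End.mul_apply, h₂, h₁]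

instance instSMulCommClass : SMulCommClass GQ ↥(heckeRing p) (JZero p) :=
  ⟨fun σ s x => (heckeRing_apply_smul p s.2 σ x).symm⟩

/-- the Hecke ring acts commutatively (on everything). -/
theorem commOnTors (hp : p.Prime) (ℓ : ℕ) : CommOnTors (JZero p) ↥(heckeRing p) ℓ := by
  intro s t x _
  show (s : Module.End ℤ (JZero p)) ((t : Module.End ℤ (JZero p)) x) =
    (t : Module.End ℤ (JZero p)) ((s : Module.End ℤ (JZero p)) x)
  rw [← Module.End.mul_apply, ← Module.End.mul_apply,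
    Fermat.Agent.M15.HeckeComm9.heckeRing_mul_comm p hp s.2 t.2]

/-- `T_r ∈ heckeRing p` for `r ∤ 2 p` (amendment 1 of `Contracts9`). -/
theorem heckeOperatorBar_mem (r : Nat.Primes) (hr : ¬ (r : ℕ) ∣ 2 * p) :
    heckeOperatorBar p r ∈ heckeRing p :=
  Algebra.subset_adjoin ⟨r, hr, rfl⟩

/-- `T_r` as an element of the Hecke ring. -/
def Tr (r : Nat.Primes) (hr : ¬ (r : ℕ) ∣ 2 * p) : ↥(heckeRing p) :=
  ⟨heckeOperatorBar p r, heckeOperatorBar_mem p r hr⟩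

/-! ### The Eisenstein character -/

section Eps

variable (P0 Pinf : Pl p) (hcusp : CuspFacts p P0 Pinf)

include hcusp in
/-- the Hecke ring acts on the cuspidal class through integers. -/
theorem exists_int_smul_cl {s : Module.End ℤ (JZero p)} (hs : s ∈ heckeRing p) :
    ∃ m : ℤ, s (cl p P0 Pinf) = m • cl p P0 Pinf := by
  unfold heckeRing at hs
  induction hs using Algebra.adjoin_induction with
  | mem E hE =>
    obtain ⟨r, hr, rfl⟩ := hE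
    have hr' : (r : ℕ) ≠ p := fun h => hr (by rw [h]; exact dvd_mul_left p 2)
    exact ⟨(((r : ℕ) + 1 : ℕ) : ℤ), by rw [hcusp.eigen r hr', natCast_zsmul]⟩
  | algebraMap a => exact ⟨a, by rw [Module.algebraMap_end_apply]⟩
  | add E₁ E₂ _ _ h₁ h₂ =>
    obtain ⟨m₁, h₁⟩ := h₁
    obtain ⟨m₂, h₂⟩ := h₂
    exact ⟨m₁ + m₂, by rw [LinearMap.add_apply, h₁, h₂]; exact (add_zsmul _ _ _).symm⟩
  | mul E₁ E₂ _ _ h₁ h₂ =>
    obtain ⟨m₁, h₁⟩ := h₁
    obtain ⟨m₂, h₂⟩ := h₂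
    exact ⟨m₂ * m₁, by rw [Module.End.mul_apply, h₂, map_zsmul, h₁, mul_zsmul]⟩

variable (ℓ : ℕ) [Fact ℓ.Prime]

/-- the element of order `ℓ` in `⟨c0⟩`. -/
def c1 : JZero p := (addOrderOf (cl p P0 Pinf) / ℓ) • cl p P0 Pinf

include hcusp in
theorem addOrderOf_cl_ne_zero (hp : p.Prime) : addOrderOf (cl p P0 Pinf) ≠ 0 := by
  intro h
  have h1 : addOrderOf (cl p P0 Pinf) ∣ p - 1 := addOrderOf_dvd_of_nsmul_eq_zero hcusp.tors
  rw [h, zero_dvd_iff] at h1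
  have := hp.two_le
  omega

include hcusp in
theorem addOrderOf_c1 (hp : p.Prime) (hℓ : ℓ ∣ addOrderOf (cl p P0 Pinf)) :
    addOrderOf (c1 p P0 Pinf ℓ) = ℓ := by
  have hℓ' : ℓ.Prime := Fact.out
  have hn0 := addOrderOf_cl_ne_zero p P0 Pinf hcusp hp
  obtain ⟨d, hd⟩ := hℓ
  have hd0 : d ≠ 0 := by
    rintro rfl
    rw [mul_zero] at hd
    exact hn0 hd
  have hdiv : addOrderOf (cl p P0 Pinf) / ℓ = d := by
    rw [hd, Nat.mul_div_cancel_left d hℓ'.pos]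
  unfold c1
  rw [hdiv, addOrderOf_nsmul_of_dvd hd0 ⟨ℓ, by rw [hd, mul_comm]⟩, hd,
    Nat.mul_div_cancel _ (Nat.pos_of_ne_zero hd0)]

include hcusp in
theorem exists_int_smul_c1 (s : ↥(heckeRing p)) :
    ∃ m : ℤ, s • c1 p P0 Pinf ℓ = m • c1 p P0 Pinf ℓ := by
  obtain ⟨m, hm⟩ := exists_int_smul_cl p P0 Pinf hcusp s.2
  refine ⟨m, ?_⟩
  rw [smul_def]
  unfold c1
  rw [map_nsmul, hm, smul_comm]

/-- **the Eisenstein character** of the Hecke ring at `ℓ ∣ ord (cl P0 Pinf)`. -/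
def epsChar (hp : p.Prime) (hℓ : ℓ ∣ addOrderOf (cl p P0 Pinf)) : ↥(heckeRing p) →+* ZMod ℓ :=
  epsOf (c1 p P0 Pinf ℓ) (addOrderOf_c1 p P0 Pinf hcusp ℓ hp hℓ)
    (exists_int_smul_c1 p P0 Pinf hcusp ℓ)

variable (hp : p.Prime) (hℓ : ℓ ∣ addOrderOf (cl p P0 Pinf))

/-- if `s c0 = m • c0` then `ε s = m`. -/
theorem epsChar_eq (s : ↥(heckeRing p)) (m : ℤ)
    (h : (s : Module.End ℤ (JZero p)) (cl p P0 Pinf) = m • cl p P0 Pinf) :
    epsChar p P0 Pinf hcusp ℓ hp hℓ s = (m : ZMod ℓ) :=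
  epsOf_eq_of_nsmul (c1 p P0 Pinf ℓ) _ _ (c₀ := cl p P0 Pinf) rfl s m h

/-- `ε (T_r) = r + 1`. -/
theorem epsChar_Tr (r : Nat.Primes) (hr : ¬ (r : ℕ) ∣ 2 * p) :
    epsChar p P0 Pinf hcusp ℓ hp hℓ (Tr p r hr) = ((r : ℕ) : ZMod ℓ) + 1 := by
  have hr' : (r : ℕ) ≠ p := fun h => hr (by rw [h]; exact dvd_mul_left p 2)
  have h := epsChar_eq p P0 Pinf hcusp ℓ hp hℓ (Tr p r hr) (((r : ℕ) + 1 : ℕ) : ℤ)
    (by show heckeOperatorBar p r (cl p P0 Pinf) = _; rw [hcusp.eigen r hr', natCast_zsmul])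
  rw [h]
  push_cast
  rfl

/-- `ε s = 1 ⇒ s c0 = m • c0` with `ℓ ∤ m`. -/
theorem exists_int_of_epsChar_eq_one (s : ↥(heckeRing p))
    (h1 : epsChar p P0 Pinf hcusp ℓ hp hℓ s = 1) :
    ∃ m : ℤ, (s : Module.End ℤ (JZero p)) (cl p P0 Pinf) = m • cl p P0 Pinf ∧ ¬ (ℓ : ℤ) ∣ m := by
  obtain ⟨m, hm⟩ := exists_int_smul_cl p P0 Pinf hcusp s.2
  exact ⟨m, hm, not_dvd_of_epsOf_eq_one (c1 p P0 Pinf ℓ) _ _ (c₀ := cl p P0 Pinf) rfl s m hm h1⟩

/-- **the Galois module `W_k = J_0(p)[ℓ^k]_ε`**. -/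
abbrev Wk (k : ℕ) : Rep ℤ GQ := GRep (JZero p) (epsChar p P0 Pinf hcusp ℓ hp hℓ) k

end Eps

/-! ### The standing hypotheses of (KUM) that are already in the tree -/

theorem isSmoothAct_jzero : IsSmoothAct (JZero p) := by
  intro x
  obtain ⟨L, hL, H⟩ := Fermat.Agent.ES.GAL.OpenStab12.hasLevel_pic0 p x
  exact ⟨L, hL, fun s hs => H s fun a ha => (IntermediateField.mem_fixingSubgroup_iff L s).1 hs a ha⟩

theorem finite_tors_jzero (n : ℕ) [NeZero n] : Finite {x : JZero p // n • x = 0} :=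
  (Fermat.Agent.ES.KUM.FiniteTorsion15.finite_setOf_nsmul_eq_zero p n).to_subtype

/-! ### `H⁰(ℚ, G_k)` -/

section H0

variable {J : Type} [AddCommGroup J] [DistribMulAction GQ J]
  {𝕋 : Type} [Ring 𝕋] [Module 𝕋 J] [SMulCommClass GQ 𝕋 J] {ℓ : ℕ} [Fact ℓ.Prime]
  (ε : 𝕋 →+* ZMod ℓ) (k : ℕ)

/-- `H⁰(ℚ, G_k)` is the set of rational points of `J[ℓ^k]_ε`. -/
def h0Equiv : ↥(GRep J ε k).ρ.invariants ≃ {x : J // (∀ g : GQ, g • x = x) ∧ x ∈ kerE J ε k} where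
  toFun a := ⟨gval J ε k a.1, fun g => by
      have h := a.2 g
      have h' := congrArg (gval J ε k) h
      simpa using h', gval_mem a.1⟩
  invFun x := ⟨gmk J ε k x.1 x.2.2, fun g => gval_injective (by simpa using x.2.1 g)⟩
  left_inv a := Subtype.ext (gval_injective (by simp))
  right_inv x := Subtype.ext (by simp)

end H0

/-! ### (BD) ⇒ `SharpDescent` -/

/-- **(BD) ⇒ (SD)**: if `#kum_k(J(ℚ)) ≤ C · #H⁰(ℚ, W_k)` for all `k`, then `SharpDescent` at `ℓ`. -/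
theorem sharpDescent_of_bdd (hp : p.Prime) (P0 Pinf : Pl p) (hcusp : CuspFacts p P0 Pinf)
    (ℓ : ℕ) [Fact ℓ.Prime] (hℓ : ℓ ∣ addOrderOf (cl p P0 Pinf)) (T : Finset Nat.Primes)
    (hdiv : ∀ x : JZero p, ∃ y : JZero p, ℓ • y = x)
    (hunr : ∀ k : ℕ, UnramOutside (JZero p) (epsChar p P0 Pinf hcusp ℓ hp hℓ) k T)
    (htors : Finite {x : JZero p // (∀ g : GQ, g • x = x) ∧ ∃ j : ℕ, ℓ ^ j • x = 0})
    (C : ℕ)
    (hfinR : ∀ k : ℕ, (Set.range (kum (epsChar p P0 Pinf hcusp ℓ hp hℓ) k T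
      (isSmoothAct_jzero p) hdiv
      (haveI : NeZero ℓ := ⟨(Fact.out : ℓ.Prime).ne_zero⟩; finite_tors_jzero p ℓ)
      (commOnTors p hp ℓ) (hunr k))).Finite)
    (hbd : ∀ k : ℕ, Nat.card ↥(Set.range (kum (epsChar p P0 Pinf hcusp ℓ hp hℓ) k T
      (isSmoothAct_jzero p) hdiv
      (haveI : NeZero ℓ := ⟨(Fact.out : ℓ.Prime).ne_zero⟩; finite_tors_jzero p ℓ)
      (commOnTors p hp ℓ) (hunr k))) ≤
      C * Nat.card {x : JZero p // (∀ g : GQ, g • x = x) ∧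
        x ∈ kerE (JZero p) (epsChar p P0 Pinf hcusp ℓ hp hℓ) k}) :
    SharpDescent p P0 Pinf ℓ := by
  intro k y hy
  obtain ⟨s, hs1, t, w, ht, ⟨j, hj⟩, hw, hsy⟩ :=
    descent_bdd (epsChar p P0 Pinf hcusp ℓ hp hℓ) T (isSmoothAct_jzero p) hdiv _
      (commOnTors p hp ℓ) hunr htors C hfinR hbd k y hy
  obtain ⟨m, hm, hℓm⟩ := exists_int_of_epsChar_eq_one p P0 Pinf hcusp ℓ hp hℓ s hs1
  refine ⟨(s : Module.End ℤ (JZero p)), s.2, m, hm, hℓm, t, w, ht, ⟨ℓ ^ j, ?_, hj⟩, hw, hsy⟩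
  exact pow_ne_zero _ (Fact.out : ℓ.Prime).ne_zero

end

end Fermat.Agent.M15.KumInst6
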