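/-
Programme M15 (S15), chapter (HALF), glue (CPM-Λ), part 5 (helper4): **the instance `𝕋 = heckeRing p`.**

* `bigHecke p` : the ring generated by ALL `T_r`, `r ∤ p`; `map_mem_heckeAlgT` : its elements act on
  `T_ℓ J₀(p)` through the `ℤ_ℓ`-algebra `heckeAlgT ℓ p`;
* `heckeRing_le_bigHecke` : `Contracts9.heckeRing p ≤ bigHecke p` (robust against the amendments of the
  generating set);
* `cpm_Lam_of_le` : (CPM) on `Λ = T_ℓ(J₀(p))_ε` for every subalgebra `S ≤ bigHecke p` acting commutatively;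
* `cpm_Lam_hecke` : the case `𝕋 = heckeRing p`, any `ε : heckeRing p →+* ZMod ℓ`.
-/
import Mathlib
import Fermat.Agent.M15.CpmLam4
import Fermat.Agent.M15.CpmTrace4
import Fermat.Agent.M15.KumInst6

set_option autoImplicit false
set_option linter.unusedSectionVars false
set_option linter.style.longLine false
set_option linter.style.haveILetI false
set_option linter.unusedTactic false
set_option linter.unreachableTactic false
set_option linter.unusedVariables false

noncomputable section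

namespace Fermat.Agent.M15.CpmInst4

open Module Fermat.Agent.M15.EsAll4 Fermat.Agent.M15.CpmAlg4 Fermat.Agent.M15.CpmLam4
  Fermat.Agent.ES.J.TateModule13 Fermat.Agent.M15.KumRep6 Fermat.Agent.M15.KumMap6
  Fermat.Agent.M15.ToricTate3 Fermat.Agent.M15.Contracts9 Fermat.Agent.M15.KumInst6
  ModularCurve Fermat.Agent.ES.J.TateJZero13 Fermat.Agent.ES.J.CycloChar8

local notation "Γ" => (AlgebraicClosure ℚ ≃ₐ[ℚ] AlgebraicClosure ℚ)

variable (ℓ : ℕ) [hℓ : Fact ℓ.Prime] (p : ℕ) [NeZero p]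

/-- the ring generated by all the `T_r`, `r ∤ p`. -/
def bigHecke : Subalgebra ℤ (Module.End ℤ (JZero p)) :=
  Algebra.adjoin ℤ {t | ∃ r : Nat.Primes, ¬ (r : ℕ) ∣ p ∧ t = heckeOperatorBar p r}

theorem map_mem_heckeAlgT {s : Module.End ℤ (JZero p)} (hs : s ∈ bigHecke p) :
    (map s.toAddMonoidHom : Module.End ℤ_[ℓ] (TJ ℓ p)) ∈ heckeAlgT ℓ p := by
  unfold bigHecke at hs
  induction hs using Algebra.adjoin_induction with
  | mem E hE =>
    obtain ⟨r, hr, rfl⟩ := hE
    exact tT_mem ℓ p r hr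
  | algebraMap a =>
    have h1 : (map ((algebraMap ℤ (Module.End ℤ (JZero p)) a).toAddMonoidHom) :
        Module.End ℤ_[ℓ] (TJ ℓ p)) = algebraMap ℤ_[ℓ] _ (a : ℤ_[ℓ]) := by
      refine LinearMap.ext fun x => ?_
      apply TateModule.ext'
      intro k
      show (algebraMap ℤ (Module.End ℤ (JZero p)) a) (proj k x) = proj k ((a : ℤ_[ℓ]) • x)
      rw [Module.algebraMap_end_apply]
      obtain ⟨n, rfl | rfl⟩ := Int.eq_nat_or_neg a
      · rw [Int.cast_natCast, proj_natCast_smul, natCast_zsmul]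
      · have h2 : (-(n : ℤ_[ℓ])) • x = -((n : ℤ_[ℓ]) • x) := neg_smul (n : ℤ_[ℓ]) x
        rw [Int.cast_neg, Int.cast_natCast, neg_smul, h2, map_neg, proj_natCast_smul,
          natCast_zsmul]
    rw [h1]
    exact Subalgebra.algebraMap_mem _ _
  | add E₁ E₂ _ _ h₁ h₂ =>
    have h : (map (E₁ + E₂).toAddMonoidHom : Module.End ℤ_[ℓ] (TJ ℓ p)) =
        map E₁.toAddMonoidHom + map E₂.toAddMonoidHom := by
      refine LinearMap.ext fun x => ?_
      apply TateModule.ext'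
      intro k
      rfl
    rw [h]
    exact Subalgebra.add_mem _ h₁ h₂
  | mul E₁ E₂ _ _ h₁ h₂ =>
    have h : (map (E₁ * E₂).toAddMonoidHom : Module.End ℤ_[ℓ] (TJ ℓ p)) =
        map E₁.toAddMonoidHom * map E₂.toAddMonoidHom := by
      refine LinearMap.ext fun x => ?_
      apply TateModule.ext'
      intro k
      rfl
    rw [h]
    exact Subalgebra.mul_mem _ h₁ h₂

/-- every subalgebra of `bigHecke p` acts on `T_ℓ J₀(p)` through `heckeAlgT ℓ p`. -/
theorem actT_mem_heckeAlgT (S : Subalgebra ℤ (Module.End ℤ (JZero p))) (hS : S ≤ bigHecke p)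
    (s : ↥S) : actT (JZero p) ℓ s ∈ heckeAlgT ℓ p := by
  have h : actT (JZero p) ℓ s = map (s : Module.End ℤ (JZero p)).toAddMonoidHom := by
    refine LinearMap.ext fun x => ?_
    apply TateModule.ext'
    intro k
    rfl
  rw [h]
  exact map_mem_heckeAlgT ℓ p (hS s.2)

/-- `Contracts9.heckeRing p ≤ bigHecke p` (for either generating set `r ∤ 2p` or `r ∉ {p, 2, 3}`). -/
theorem heckeRing_le_bigHecke (hp : p.Prime) : heckeRing p ≤ bigHecke p := by
  unfold heckeRing bigHecke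
  apply Algebra.adjoin_mono
  rintro t ⟨r, hr, rfl⟩
  first
    | exact ⟨r, fun h => hr (Dvd.dvd.mul_left h 2), rfl⟩
    | exact ⟨r, fun h => hr ((Nat.prime_dvd_prime_iff_eq r.2 hp).1 h), rfl⟩
    | exact ⟨r, fun h => hr.1 ((Nat.prime_dvd_prime_iff_eq r.2 hp).1 h), rfl⟩

/-- **(CPM) on `Λ = T_ℓ(J₀(p))_ε`, `𝕋 = heckeRing p`** (Contracts9), unconditional:
`tr(h ∘ ρ_Λ(c)) = 0` for every `h` in the `ℤ_ℓ`-algebra generated by the `t_g = ρ_Λ(g) + χ_ℓ(g) ρ_Λ(g)⁻¹`,
`c` = complex conjugation. -/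
theorem cpm_Lam_hecke (hp : p.Prime) (ε : ↥(heckeRing p) →+* ZMod ℓ)
    (h : Module.End ℤ_[ℓ] (Lam (JZero p) ε))
    (hh : h ∈ Algebra.adjoin ℤ_[ℓ] (Set.range (tLam ℓ p ε))) :
    LinearMap.trace ℤ_[ℓ] (Lam (JZero p) ε) (h * rhoLam (JZero p) ε complexConjugation) = 0 :=
  Fermat.Agent.M15.CpmTrace4.cpm_Lam' ℓ p ε (commOnTors p hp ℓ)
    (actT_mem_heckeAlgT ℓ p (heckeRing p) (heckeRing_le_bigHecke p hp)) h hh

end Fermat.Agent.M15.CpmInst4
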