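/-
Programme M15 (S15), chapter (DIV), leaf (f) (lead): **divisibility of `Pic⁰` descends from `K` to `k`**
for an extension `k ⊆ K` of algebraically closed constant fields, given only that the `n`-torsion over
`K` is finite.

Setting of `J/DESC/ExtPic22`.  If `n • z = extPic0 y` then the `Aut(K/k)`-orbit of `z` lies in the
finite set `z + Pic⁰(FK)[n]`, so `z` is fixed by a subgroup of finite index, hence (by
`mem_range_extPic0_of_finiteIndex`) `z = extPic0 w`, and `n • w = y` by injectivity of `extPic0`.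

Concrete form: `ℚ̄ ⊆ ℂ`, `F = modularFunctionFieldFull N`:
`JZero N` is `n`-divisible as soon as `Pic⁰(F_ℂ)` is.
-/
import Mathlib
import Fermat.Agent.J.DESC.ExtPic22
import Fermat.Agent.J.DESC.DescentFinal24

set_option autoImplicit false
set_option linter.unusedSectionVars false
set_option linter.style.longLine false

namespace Fermat.Agent.M15.DivDescent0

open AlgebraicCurve Fermat.Agent.X0 Fermat.Agent.J.DESC.ConstExt24
  Fermat.Agent.J.DESC.ExtPic22

noncomputable section

universe u v w x

variable {k : Type u} {K : Type v} {Fk : Type w} {FK : Type x} [Field k] [Field K] [Field Fk]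
  [Field FK] [Algebra k K] [Algebra k Fk] [Algebra K FK]
  [IsAlgClosed k] [CharZero k] [IsAlgClosed K] [CharZero K] {ι : Fk →+* FK}
  (hι : IsConstExt (k := k) (K := K) ι) {x : Fk} (hx : FF.IsGen k x) {X : FK} (hX : FF.IsGen K X)
  (ρ : (K ≃ₐ[k] K) →* SemilinearAut K FK)

include hι hx hX in
/-- **An `n`-th division point over `K` of a class defined over `k` is defined over `k`.** -/
theorem exists_extPic0_eq_of_zsmul_eq
    (hbase : ∀ (σ : K ≃ₐ[k] K) (c : K), SemilinearAut.baseAut (ρ σ) c = σ c)
    (hfix : ∀ (σ : K ≃ₐ[k] K) (f : Fk), ρ σ • ι f = ι f)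
    (hinv : ∀ h : FK, (∀ σ : K ≃ₐ[k] K, ρ σ • h = h) → h ∈ Set.range ι)
    (n : ℕ) [Finite (Pic0.torsion K FK n)] (y : Pic0 k Fk) (z : Pic0 K FK)
    (hz : (n : ℤ) • z = extPic0 hι hx hX y) :
    ∃ w : Pic0 k Fk, extPic0 hι hx hX w = z ∧ (n : ℤ) • w = y := by
  classical
  -- the difference `ρ σ • z - z` is `n`-torsion
  have hdiff : ∀ σ : K ≃ₐ[k] K, ρ σ • z - z ∈ Pic0.torsion K FK n := by
    intro σ
    rw [Pic0.mem_torsion, zsmul_sub, ← SemilinearAut.smul_zsmul, hz,
      smul_extPic0 hι hx hX (ρ σ) (hfix σ) y, sub_self]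
  -- the map `σ ↦ ρ σ • z - z` into the finite torsion group
  let φ : (K ≃ₐ[k] K) → Pic0.torsion K FK n := fun σ => ⟨ρ σ • z - z, hdiff σ⟩
  -- the stabiliser of `z`
  let H : Subgroup (K ≃ₐ[k] K) :=
    { carrier := {σ | ρ σ • z = z}
      one_mem' := by simp
      mul_mem' := by
        intro a b ha hb
        simp only [Set.mem_ofPred_eq] at ha hb ⊢
        rw [map_mul, mul_smul, hb, ha]
      inv_mem' := by
        intro a ha
        simp only [Set.mem_ofPred_eq] at ha ⊢
        rw [map_inv]
        conv_lhs => rw [← ha]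
        rw [inv_smul_smul] }
  have hHmem : ∀ σ, σ ∈ H ↔ ρ σ • z = z := fun σ => Iff.rfl
  -- cosets of `H` inject into the torsion group via `φ`
  have hfin : Finite ((K ≃ₐ[k] K) ⧸ H) := by
    let ψ : ((K ≃ₐ[k] K) ⧸ H) → Pic0.torsion K FK n :=
      Quotient.lift φ (by
        intro a b hab
        have hab' : a⁻¹ * b ∈ H := QuotientGroup.leftRel_apply.mp hab
        rw [hHmem, map_mul, map_inv] at hab'
        have h1 : ρ b • z = ρ a • z := by
          have := congrArg (fun t => ρ a • t) hab'
          simp only [mul_smul, smul_inv_smul] at this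
          exact this
        apply Subtype.ext
        show ρ a • z - z = ρ b • z - z
        rw [h1])
    have hψ : Function.Injective ψ := by
      intro a b
      induction a using QuotientGroup.induction_on
      induction b using QuotientGroup.induction_on
      rename_i a b
      intro h
      have h1 : ρ a • z - z = ρ b • z - z := congrArg Subtype.val h
      have h2 : ρ a • z = ρ b • z := by
        have := congrArg (fun t => t + z) h1
        simpa using this
      apply QuotientGroup.eq.mpr
      rw [hHmem, map_mul, map_inv, mul_smul, ← h2, inv_smul_smul]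
    exact Finite.of_injective ψ hψ
  have hH : H.FiniteIndex := Subgroup.finiteIndex_of_finite_quotient
  obtain ⟨w, hw⟩ := mem_range_extPic0_of_finiteIndex hι hx hX ρ hbase hfix H z
    (fun σ hσ => (hHmem σ).mp hσ)
  refine ⟨w, hw, ?_⟩
  apply extPic0_injective hι hx hX ρ hfix hinv
  rw [map_zsmul, hw, hz]

end

/-! ### The concrete form `ℚ̄ ⊆ ℂ` for the modular function fields -/

section Concrete

open ModularCurve Fermat.Agent.J.DESC.DescentFinal24 Fermat.Agent.J.DESC.DescentC24
  Fermat.Agent.ES.KUM.FieldL25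

attribute [local instance] instAlgebraQbarComplex instTowerQbarComplex

variable (N : ℕ) [NeZero N]

/-- **(DIV-f)**: if `Pic⁰(F_ℂ)` is `n`-divisible and its `n`-torsion is finite then `J₀(N)(ℚ̄)` is
`n`-divisible. -/
theorem jzero_divisible_of_complex (n : ℕ) [Finite (Pic0.torsion ℂ (FCx N) n)]
    (hdiv : ∀ z : Pic0 ℂ (FCx N), ∃ z' : Pic0 ℂ (FCx N), (n : ℤ) • z' = z)
    (y : JZero N) : ∃ w : JZero N, n • w = y := by
  obtain ⟨z', hz'⟩ := hdiv (extPic0C N y)
  obtain ⟨w, -, hw⟩ :=
    exists_extPic0_eq_of_zsmul_eq (isConstExt_bcQC N) (isGen_jL Qb N) (isGen_jL ℂ N) (rhoC N)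
      (baseAut_rhoC N) (rhoC_smul_bcQC N) (mem_range_bcQC_of_fixed N) n y z' hz'
  exact ⟨w, by rw [← natCast_zsmul]; exact hw⟩

end Concrete

end Fermat.Agent.M15.DivDescent0
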