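/-
Programme M15 (S15), chapter (DIV), leaf (P8) (lead): the form of `DivDescent0.jzero_divisible_of_complex`
which needs only that every `ℚ̄`-rational class is `n`-divisible in `Pic⁰(F_ℂ)`.
-/
import Mathlib
import Fermat.Agent.M15.DivDescent0

set_option autoImplicit false
set_option linter.unusedSectionVars false
set_option linter.style.longLine false

namespace Fermat.Agent.M15.DivDescentB0

open AlgebraicCurve Fermat.Agent.X0 Fermat.Agent.J.DESC.ConstExt24
  Fermat.Agent.J.DESC.ExtPic22 Fermat.Agent.M15.DivDescent0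
open ModularCurve Fermat.Agent.J.DESC.DescentFinal24 Fermat.Agent.J.DESC.DescentC24
  Fermat.Agent.ES.KUM.FieldL25

attribute [local instance] instAlgebraQbarComplex instTowerQbarComplex

variable (N : ℕ) [NeZero N]

/-- **(DIV-P8)**: if every `ℚ̄`-rational class is `n`-divisible in `Pic⁰(F_ℂ)` and the `n`-torsion of
`Pic⁰(F_ℂ)` is finite then `J₀(N)(ℚ̄)` is `n`-divisible. -/
theorem jzero_divisible_of_rational (n : ℕ) [Finite (Pic0.torsion ℂ (FCx N) n)]
    (hdiv : ∀ y : JZero N, ∃ z' : Pic0 ℂ (FCx N), (n : ℤ) • z' = extPic0C N y)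
    (y : JZero N) : ∃ w : JZero N, n • w = y := by
  obtain ⟨z', hz'⟩ := hdiv y
  obtain ⟨w, -, hw⟩ :=
    exists_extPic0_eq_of_zsmul_eq (isConstExt_bcQC N) (isGen_jL Qb N) (isGen_jL ℂ N) (rhoC N)
      (baseAut_rhoC N) (rhoC_smul_bcQC N) (mem_range_bcQC_of_fixed N) n y z' hz'
  exact ⟨w, by rw [← natCast_zsmul]; exact hw⟩

end Fermat.Agent.M15.DivDescentB0
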