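/-
Programme M15 (S15), chapter (DIV), algebraic route (helper4), file 1: DEFINITIONS.

`F / K` a function field all of whose places have degree one (`RR.LSpace.LHyp K F`).
* `valHom H v : O_v →+* K`, the value (residue) map at a place, and `valAt H v h : K` (value of a
  function, `0` if `h` has a pole); characterisation `valAt_eq_iff`, equivariance `valAt_smul` under
  semilinear automorphisms.
Constant field extension `ι : Fk → FK` (setting of `J/DESC/ConstExt24`):
* `IsGenericPlace ι v` : `ord_v (ι f) = 0` for all `f ≠ 0` (⇔ `v ∉ range extPlace`);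
* `phi H ι v : Fk → K`, `f ↦ (ι f)(v)`; for generic `v` a ring homomorphism (`phiHom`), injective,
  `k`-linear; `phi (ρ σ • v) = σ ∘ phi v`.
-/
import Mathlib
import Fermat.Prelude.Def_AlgebraicCurve_BaseChangeGalois
import Fermat.Agent.RR.LSpace
import Fermat.Agent.X0.FFDict
import Fermat.Agent.J.DESC.ConstExt24
import Fermat.Agent.J.DESC.FiniteOrbit22

set_option autoImplicit false
set_option linter.unusedSectionVars false
set_option linter.style.longLine false

noncomputable section

open AlgebraicCurve

namespace Fermat.Agent.M15.DivDefs4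

open Fermat.Agent.X0 Fermat.Agent.RR.LSpace Fermat.Agent.J.DESC.ConstExt24
  Fermat.Agent.J.DESC.FiniteOrbit22

/-! ### the value map at a place -/

section Val

variable {K F : Type*} [Field K] [Field F] [Algebra K F] (H : LHyp K F) (v : Place K F)

include H in
theorem bijective_algebraMap_residueField :
    Function.Bijective (algebraMap K v.ResidueField) := by
  refine ⟨(algebraMap K v.ResidueField).injective, ?_⟩
  have h1 : Module.finrank K v.ResidueField = 1 := H.deg_eq_one v
  have h2 := Subalgebra.bot_eq_top_of_finrank_eq_one h1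
  intro y
  have : y ∈ (⊥ : Subalgebra K v.ResidueField) := by rw [h2]; exact Algebra.mem_top
  exact Algebra.mem_bot.mp this

/-- `K ≃ κ(v)`. -/
def resEquiv : K ≃+* v.ResidueField :=
  RingEquiv.ofBijective (algebraMap K v.ResidueField) (bijective_algebraMap_residueField H v)

/-- **the value map** `O_v → K`. -/
def valHom : v.toValuationSubring →+* K :=
  ((resEquiv H v).symm : v.ResidueField →+* K).comp (IsLocalRing.residue v.toValuationSubring)

theorem resEquiv_valHom (a : v.toValuationSubring) :
    algebraMap K v.ResidueField (valHom H v a) = IsLocalRing.residue v.toValuationSubring a := by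
  have : resEquiv H v (valHom H v a) = IsLocalRing.residue v.toValuationSubring a := by
    simp [valHom]
  exact this

theorem valHom_algebraMap (c : K) : valHom H v (algebraMap K v.toValuationSubring c) = c := by
  apply (bijective_algebraMap_residueField H v).1
  rw [resEquiv_valHom]
  rfl

theorem valHom_eq_iff (a : v.toValuationSubring) (c : K) :
    valHom H v a = c ↔
      a - algebraMap K v.toValuationSubring c ∈ IsLocalRing.maximalIdeal v.toValuationSubring := by
  rw [← (bijective_algebraMap_residueField H v).1.eq_iff, resEquiv_valHom,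
    ← IsLocalRing.residue_eq_zero_iff, map_sub, sub_eq_zero]
  rfl

theorem valHom_eq_iff' (a : v.toValuationSubring) (c : K) :
    valHom H v a = c ↔
      (a : F) - algebraMap K F c = 0 ∨ 0 < v.ord ((a : F) - algebraMap K F c) := by
  rw [valHom_eq_iff, FF.mem_maximalIdeal_iff]
  constructor
  · rintro (h | h)
    · left
      have := congrArg Subtype.val h
      simpa using this
    · right
      simpa using h
  · rintro (h | h)
    · left
      apply Subtype.ext
      simpa using h
    · right
      simpa using h

theorem valHom_eq_zero_iff (a : v.toValuationSubring) :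
    valHom H v a = 0 ↔ a = 0 ∨ 0 < v.ord (a : F) := by
  rw [valHom_eq_iff, map_zero, sub_zero, FF.mem_maximalIdeal_iff]

open Classical in
/-- **the value of a function at a place** (`0` at a pole). -/
def valAt (h : F) : K :=
  if hh : h ∈ v.toValuationSubring then valHom H v ⟨h, hh⟩ else 0

theorem valAt_of_mem {h : F} (hh : h ∈ v.toValuationSubring) : valAt H v h = valHom H v ⟨h, hh⟩ :=
  dif_pos hh

theorem mem_of_ord_sub_pos {h : F} {c : K}
    (hc : h - algebraMap K F c = 0 ∨ 0 < v.ord (h - algebraMap K F c)) :
    h ∈ v.toValuationSubring := by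
  have h1 : h - algebraMap K F c ∈ v.toValuationSubring := by
    rcases hc with hc | hc
    · rw [hc]; exact zero_mem _
    · exact FF.mem_of_ord_nonneg v hc.le
  have := add_mem h1 (v.algebraMap_mem' c)
  rwa [sub_add_cancel] at this

/-- characterisation of the value. -/
theorem valAt_eq_of {h : F} {c : K}
    (hc : h - algebraMap K F c = 0 ∨ 0 < v.ord (h - algebraMap K F c)) : valAt H v h = c := by
  have hh := mem_of_ord_sub_pos v hc
  rw [valAt_of_mem H v hh, valHom_eq_iff']
  exact hc

theorem valAt_spec {h : F} (hh : h ∈ v.toValuationSubring) :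
    h - algebraMap K F (valAt H v h) = 0 ∨ 0 < v.ord (h - algebraMap K F (valAt H v h)) := by
  have := (valHom_eq_iff' H v ⟨h, hh⟩ (valAt H v h)).mp (valAt_of_mem H v hh).symm
  exact this

theorem valAt_algebraMap (c : K) : valAt H v (algebraMap K F c) = c :=
  valAt_eq_of H v (Or.inl (sub_self _))

theorem valAt_add {h h' : F} (hh : h ∈ v.toValuationSubring) (hh' : h' ∈ v.toValuationSubring) :
    valAt H v (h + h') = valAt H v h + valAt H v h' := by
  rw [valAt_of_mem H v hh, valAt_of_mem H v hh', valAt_of_mem H v (add_mem hh hh'), ← map_add]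
  rfl

theorem valAt_mul {h h' : F} (hh : h ∈ v.toValuationSubring) (hh' : h' ∈ v.toValuationSubring) :
    valAt H v (h * h') = valAt H v h * valAt H v h' := by
  rw [valAt_of_mem H v hh, valAt_of_mem H v hh', valAt_of_mem H v (mul_mem hh hh'), ← map_mul]
  rfl

theorem valAt_eq_zero_iff {h : F} (hh : h ∈ v.toValuationSubring) :
    valAt H v h = 0 ↔ h = 0 ∨ 0 < v.ord h := by
  rw [valAt_of_mem H v hh, valHom_eq_zero_iff]
  constructor
  · rintro (h0 | h0)
    · left; exact congrArg Subtype.val h0
    · right; exact h0
  · rintro (h0 | h0)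
    · left; exact Subtype.ext h0
    · right; exact h0

/-- **equivariance of the value** under semilinear automorphisms. -/
theorem valAt_smul (g : SemilinearAut K F) {h : F} (hh : h ∈ v.toValuationSubring) :
    valAt H (g • v) (g • h) = SemilinearAut.baseAut g (valAt H v h) := by
  apply valAt_eq_of
  rcases valAt_spec H v hh with h0 | h0
  · left
    rw [← SemilinearAut.smul_algebraMap, ← smul_sub, h0, smul_zero]
  · right
    rw [ord_smul_sub_const]
    exact h0

end Val

/-! ### generic places of a constant field extension -/

section Generic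

universe u v w x

variable {k : Type u} {K : Type v} {Fk : Type w} {FK : Type x} [Field k] [Field K] [Field Fk]
  [Field FK] [Algebra k K] [Algebra k Fk] [Algebra K FK]

/-- a place of `FK` is **generic** (over `k`) if all nonzero functions coming from `Fk` are units
at it. -/
def IsGenericPlace (ι : Fk →+* FK) (v : Place K FK) : Prop :=
  ∀ f : Fk, f ≠ 0 → v.ord (ι f) = 0

variable (H : LHyp K FK) (ι : Fk →+* FK)

theorem IsGenericPlace.mem {v : Place K FK} (hv : IsGenericPlace ι v) (f : Fk) :
    ι f ∈ v.toValuationSubring := by
  rcases eq_or_ne f 0 with rfl | hf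
  · rw [map_zero]; exact zero_mem _
  · exact FF.mem_of_ord_nonneg v (by rw [hv f hf])

/-- the value of `ι f` at `v`. -/
def phi (v : Place K FK) (f : Fk) : K := valAt H v (ι f)

/-- for a generic place, `phi` is a ring homomorphism. -/
def phiHom {v : Place K FK} (hv : IsGenericPlace ι v) : Fk →+* K :=
  (valHom H v).comp (ι.codRestrict v.toValuationSubring.toSubring fun f => hv.mem ι f)

theorem phiHom_apply {v : Place K FK} (hv : IsGenericPlace ι v) (f : Fk) :
    phiHom H ι hv f = phi H ι v f := by
  rw [phi, valAt_of_mem H v (hv.mem ι f)]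
  rfl

theorem phi_injective {v : Place K FK} (hv : IsGenericPlace ι v) :
    Function.Injective (phi H ι v) := by
  have : phi H ι v = phiHom H ι hv := funext fun f => (phiHom_apply H ι hv f).symm
  rw [this]
  exact (phiHom H ι hv).injective

theorem phi_ne_zero {v : Place K FK} (hv : IsGenericPlace ι v) {f : Fk} (hf : f ≠ 0) :
    phi H ι v f ≠ 0 := by
  intro h0
  have := phi_injective H ι hv (a₁ := f) (a₂ := 0)
  apply hf
  apply this
  rw [h0, ← phiHom_apply H ι hv, map_zero]

theorem phi_spec {v : Place K FK} (hv : IsGenericPlace ι v) (f : Fk) :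
    ι f - algebraMap K FK (phi H ι v f) = 0 ∨ 0 < v.ord (ι f - algebraMap K FK (phi H ι v f)) :=
  valAt_spec H v (hv.mem ι f)

variable [IsAlgClosed k] [CharZero k] [IsAlgClosed K] [CharZero K] {ι}
  (hι : IsConstExt (k := k) (K := K) ι) {x : Fk} (hx : FF.IsGen k x) {X : FK} (hX : FF.IsGen K X)

include hι hx in
/-- generic ⇔ not the extension of a place of `Fk`. -/
theorem isGenericPlace_iff (v : Place K FK) :
    IsGenericPlace ι v ↔ v ∉ Set.range (extPlace ι hι hX) := by
  rw [mem_range_extPlace_iff hι hx hX]
  constructor
  · rintro hv ⟨f, hf, hpos⟩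
    rw [hv f hf] at hpos
    exact lt_irrefl _ hpos
  · intro hno f hf
    push Not at hno
    have h1 := hno f hf
    have h2 := hno f⁻¹ (inv_ne_zero hf)
    rw [map_inv₀, v.ord_inv] at h2
    omega

include hι in
theorem phi_algebraMap {v : Place K FK} (c : k) :
    phi H ι v (algebraMap k Fk c) = algebraMap k K c := by
  rw [phi, hι.comm, valAt_algebraMap]

section Action

variable {G : Type*} [Group G] (ρ : G →* SemilinearAut K FK)
  (hfix : ∀ (g : G) (f : Fk), ρ g • ι f = ι f)

include hfix in
theorem isGenericPlace_smul {v : Place K FK} (hv : IsGenericPlace ι v) (g : G) :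
    IsGenericPlace ι (ρ g • v) := by
  intro f hf
  have h1 := SemilinearAut.ord_smul (ρ g) v (ι f)
  rw [hfix g f] at h1
  rw [h1, hv f hf]

include hfix in
/-- **`phi (σ v) = σ ∘ phi v`.** -/
theorem phi_smul {v : Place K FK} (hv : IsGenericPlace ι v) (g : G) (f : Fk) :
    phi H ι (ρ g • v) f = SemilinearAut.baseAut (ρ g) (phi H ι v f) := by
  have h1 := valAt_smul H v (ρ g) (hv.mem ι f)
  rw [hfix g f] at h1
  exact h1

end Action

end Generic

end Fermat.Agent.M15.DivDefs4
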