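/-
Programme M15 (S15), chapter (DIV), algebraic route (helper4), file 2: FIELD THEORY.

`k ⊆ K` fields, `K` algebraically closed.
* `acl T : IntermediateField k K`, the algebraic closure in `K` of `k(T)`; it is algebraically closed
  (`isAlgClosed_acl`); `acl_le_of_subset`.
* **(ALG)** `mem_of_finite_orbit`: an element of `K` with finite orbit under `Aut(K/M)`, `M`
  algebraically closed, lies in `M`.
* **(EXT)** `exists_algEquiv_extending`: an isomorphism between intermediate fields of `Ω / M` over
  which `Ω` has the same transcendence degree extends to an automorphism of `Ω`.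
* **(TRANS)** `exists_algEquiv_comp`: two `M`-embeddings of a field of finite transcendence degree into
  an algebraically closed `Ω` differ by an `M`-automorphism of `Ω`.
* `natCard_algHom_eq`: the number of `k`-embeddings `A → Ω` with prescribed value at `x` is
  `[A : k(x)]` (characteristic zero).
* `map_mem_acl`: `ψ f ∈ acl {ψ x}` if `f` is algebraic over `k(x)`.
* `indep_of_isAlgebraic_adjoin` (exchange / counting through Mathlib's algebraic matroid).
-/
import Mathlib
import Fermat.Agent.ES.GAL.AutTranscendental10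

set_option autoImplicit false
set_option linter.unusedSectionVars false
set_option linter.style.longLine false
set_option linter.style.haveILetI false

noncomputable section

open IntermediateField MvPolynomial
open scoped IntermediateField.algebraAdjoinAdjoin

namespace Fermat.Agent.M15.DivField4

/-! ### the algebraic closure of `k(T)` in `K` -/

section Acl

variable {k K : Type*} [Field k] [Field K] [Algebra k K]

/-- algebraic closure in `K` of `k(T)`. -/
def acl (T : Set K) : IntermediateField k K :=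
  (algebraicClosure ↥(IntermediateField.adjoin k T) K).restrictScalars k

theorem mem_acl_iff {T : Set K} {c : K} :
    c ∈ acl (k := k) T ↔ IsAlgebraic ↥(IntermediateField.adjoin k T) c := by
  rw [acl, IntermediateField.mem_restrictScalars, mem_algebraicClosure_iff]

theorem isAlgebraic_adjoin_iff {T : Set K} {c : K} :
    IsAlgebraic ↥(Algebra.adjoin k T) c ↔ IsAlgebraic ↥(IntermediateField.adjoin k T) c := by
  constructor
  · intro h
    exact h.extendScalars (R := ↥(Algebra.adjoin k T)) (S := ↥(IntermediateField.adjoin k T))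
      (FaithfulSMul.algebraMap_injective _ _)
  · intro h
    exact h.restrictScalars ↥(Algebra.adjoin k T)

theorem mem_acl_iff' {T : Set K} {c : K} :
    c ∈ acl (k := k) T ↔ IsAlgebraic ↥(Algebra.adjoin k T) c := by
  rw [mem_acl_iff, isAlgebraic_adjoin_iff]

theorem not_mem_acl_iff {T : Set K} {c : K} :
    c ∉ acl (k := k) T ↔ Transcendental ↥(Algebra.adjoin k T) c := by
  rw [mem_acl_iff']
  rfl

theorem subset_acl (T : Set K) : T ⊆ acl (k := k) T := by
  intro c hc
  rw [SetLike.mem_coe, mem_acl_iff]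
  exact isAlgebraic_algebraMap
    (⟨c, IntermediateField.subset_adjoin k T hc⟩ : ↥(IntermediateField.adjoin k T))

set_option synthInstance.maxHeartbeats 400000 in
instance isAlgClosed_acl [IsAlgClosed K] (T : Set K) : IsAlgClosed ↥(acl (k := k) T) := by
  have h : IsAlgClosure ↥(IntermediateField.adjoin k T)
      ↥(algebraicClosure ↥(IntermediateField.adjoin k T) K) := inferInstance
  exact h.isAlgClosed

/-- an element of `K` algebraic over an algebraically closed intermediate field lies in it. -/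
theorem mem_of_isAlgebraic (M : IntermediateField k K) [IsAlgClosed ↥M] {c : K}
    (hc : IsAlgebraic ↥M c) : c ∈ M := by
  by_contra hcM
  have hc' : c ∉ Set.range (algebraMap ↥M K) := by
    rintro ⟨m, rfl⟩
    exact hcM m.2
  exact Fermat.Agent.ES.GAL.AutTranscendental10.transcendental_of_not_mem_range hc' hc

/-- `acl T ≤ M` if `T ⊆ M`, `M` algebraically closed. -/
theorem acl_le_of_subset {T : Set K} (M : IntermediateField k K) [IsAlgClosed ↥M]
    (h : T ⊆ M) : acl (k := k) T ≤ M := by
  intro c hc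
  rw [mem_acl_iff] at hc
  apply mem_of_isAlgebraic M
  have hle : IntermediateField.adjoin k T ≤ M := IntermediateField.adjoin_le_iff.mpr h
  letI : Algebra ↥(IntermediateField.adjoin k T) ↥M :=
    (IntermediateField.inclusion hle).toRingHom.toAlgebra
  haveI : IsScalarTower ↥(IntermediateField.adjoin k T) ↥M K :=
    IsScalarTower.of_algebraMap_eq (fun _ => rfl)
  exact hc.extendScalars (R := ↥(IntermediateField.adjoin k T)) (S := ↥M)
    (IntermediateField.inclusion hle).injective

theorem acl_mono [IsAlgClosed K] {T T' : Set K} (h : T ⊆ T') : acl (k := k) T ≤ acl (k := k) T' :=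
  acl_le_of_subset _ (h.trans (subset_acl T'))

end Acl

/-! ### (ALG): finite orbit ⇒ in `M` -/

section Alg

variable {k K : Type*} [Field k] [Field K] [Algebra k K] [IsAlgClosed K]

/-- an `M`-automorphism, as an element of the fixing subgroup. -/
theorem restrictScalars_mem_fixingSubgroup (M : IntermediateField k K) (σ : K ≃ₐ[↥M] K) :
    σ.restrictScalars k ∈ M.fixingSubgroup := by
  rw [IntermediateField.mem_fixingSubgroup_iff]
  intro c hc
  exact σ.commutes ⟨c, hc⟩

/-- **(ALG)** an element with finite orbit under `Aut(K/M)`, `M` algebraically closed, lies in `M`. -/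
theorem mem_of_finite_orbit (M : IntermediateField k K) [IsAlgClosed ↥M] {c : K}
    (h : {d : K | ∃ σ ∈ M.fixingSubgroup, σ c = d}.Finite) : c ∈ M := by
  by_contra hc
  have hc' : c ∉ Set.range (algebraMap ↥M K) := by
    rintro ⟨m, rfl⟩
    exact hc m.2
  have htr := Fermat.Agent.ES.GAL.AutTranscendental10.transcendental_of_not_mem_range hc'
  have hinf := Fermat.Agent.ES.GAL.AutTranscendental10.infinite_orbit htr
  apply hinf
  refine h.subset ?_
  rintro _ ⟨σ, rfl⟩
  exact ⟨σ.restrictScalars k, restrictScalars_mem_fixingSubgroup M σ, rfl⟩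

end Alg

/-! ### (EXT) and (TRANS) -/

section Ext

universe u v w

variable {M : Type u} {Ω : Type v} [Field M] [Field Ω] [Algebra M Ω] [IsAlgClosed Ω]

/-- **(EXT)**: an `M`-isomorphism between two intermediate fields of the algebraically closed field
`Ω` over which `Ω` has the same transcendence degree extends to an `M`-automorphism of `Ω`. -/
theorem exists_algEquiv_extending (E E' : IntermediateField M Ω) (τ : E ≃ₐ[M] E')
    (htr : Algebra.trdeg E Ω = Algebra.trdeg E' Ω) :
    ∃ σ : Ω ≃ₐ[M] Ω, ∀ e : E, σ (e : Ω) = (τ e : Ω) := by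
  classical
  obtain ⟨ι, x, hx⟩ := exists_isTranscendenceBasis' (R := E) (A := Ω)
  obtain ⟨ι', x', hx'⟩ := exists_isTranscendenceBasis' (R := E') (A := Ω)
  have hcard : Cardinal.mk ι = Cardinal.mk ι' := by
    rw [hx.cardinalMk_eq_trdeg, hx'.cardinalMk_eq_trdeg, htr]
  obtain ⟨b⟩ := Cardinal.eq.mp hcard
  letI := IsAlgClosed.isAlgClosure_of_transcendence_basis x hx
  letI := IsAlgClosed.isAlgClosure_of_transcendence_basis x' hx'
  let e : Algebra.adjoin E (Set.range x) ≃+* Algebra.adjoin E' (Set.range x') :=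
    hx.1.aevalEquiv.symm.toRingEquiv.trans
      ((MvPolynomial.mapEquiv ι τ.toRingEquiv).trans
        ((MvPolynomial.renameEquiv E' b).toRingEquiv.trans hx'.1.aevalEquiv.toRingEquiv))
  let σ₀ : Ω ≃+* Ω := IsAlgClosure.equivOfEquiv Ω Ω e
  have hσ₀ : ∀ y : Algebra.adjoin E (Set.range x),
      σ₀ (algebraMap _ Ω y) = algebraMap _ Ω (e y) := fun y =>
    IsAlgClosure.equivOfEquiv_algebraMap Ω Ω e y
  have hE : ∀ a : E, σ₀ (a : Ω) = (τ a : Ω) := by
    intro a
    have h1 : (a : Ω) = algebraMap (Algebra.adjoin E (Set.range x)) Ω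
        (hx.1.aevalEquiv (C a)) := by
      rw [AlgebraicIndependent.algebraMap_aevalEquiv, aeval_C]
      rfl
    have h2 : e (hx.1.aevalEquiv (C a)) = hx'.1.aevalEquiv (C (τ a)) := by
      show hx'.1.aevalEquiv ((MvPolynomial.renameEquiv E' b)
        ((MvPolynomial.mapEquiv ι τ.toRingEquiv)
          (hx.1.aevalEquiv.symm (hx.1.aevalEquiv (C a))))) = _
      rw [AlgEquiv.symm_apply_apply]
      simp
    rw [h1, hσ₀, h2, AlgebraicIndependent.algebraMap_aevalEquiv, aeval_C]
    rfl
  have hcomm : ∀ r : M, σ₀ (algebraMap M Ω r) = algebraMap M Ω r := by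
    intro r
    have h1 : algebraMap M Ω r = ((algebraMap M E r : E) : Ω) := rfl
    rw [h1, hE, τ.commutes]
    rfl
  exact ⟨AlgEquiv.ofRingEquiv (f := σ₀) hcomm, hE⟩

variable {A : Type w} [Field A] [Algebra M A]

/-- a field embedding, as an isomorphism onto its field range. -/
def equivFieldRange (ψ : A →ₐ[M] Ω) : A ≃ₐ[M] ψ.fieldRange :=
  AlgEquiv.ofBijective (ψ.codRestrict ψ.fieldRange.toSubalgebra fun a => ⟨a, rfl⟩)
    ⟨fun _ _ h => ψ.injective (congrArg Subtype.val h), fun ⟨_, a, rfl⟩ => ⟨a, rfl⟩⟩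

@[simp] theorem coe_equivFieldRange (ψ : A →ₐ[M] Ω) (a : A) :
    ((equivFieldRange ψ a : ψ.fieldRange) : Ω) = ψ a := rfl

theorem trdeg_fieldRange (ψ : A →ₐ[M] Ω) :
    Cardinal.lift.{w} (Algebra.trdeg M ψ.fieldRange) = Cardinal.lift.{v} (Algebra.trdeg M A) :=
  (equivFieldRange ψ).symm.lift_trdeg_eq

theorem trdeg_eq_of_fieldRange [FinTrdeg M A] (ψ ψ' : A →ₐ[M] Ω) :
    Algebra.trdeg ψ.fieldRange Ω = Algebra.trdeg ψ'.fieldRange Ω := by
  have h1 := trdeg_add_eq M ψ.fieldRange (A := Ω)
  have h2 := trdeg_add_eq M ψ'.fieldRange (A := Ω)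
  have h3 : Algebra.trdeg M ψ.fieldRange = Algebra.trdeg M ψ'.fieldRange := by
    apply Cardinal.lift_injective.{w}
    rw [trdeg_fieldRange, trdeg_fieldRange]
  have h4 : Algebra.trdeg M ψ.fieldRange < Cardinal.aleph0 := by
    rw [← Cardinal.lift_lt_aleph0.{v, w}, trdeg_fieldRange, Cardinal.lift_lt_aleph0]
    exact trdeg_lt_aleph0 M A
  rw [← h2, h3] at h1
  exact Cardinal.eq_of_add_eq_add_left h1 (h3 ▸ h4)

/-- **(TRANS)**: two `M`-embeddings of a field of finite transcendence degree into the algebraically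
closed field `Ω` differ by an `M`-automorphism of `Ω`. -/
theorem exists_algEquiv_comp [FinTrdeg M A] (ψ ψ' : A →ₐ[M] Ω) :
    ∃ σ : Ω ≃ₐ[M] Ω, ∀ a : A, σ (ψ a) = ψ' a := by
  obtain ⟨σ, hσ⟩ := exists_algEquiv_extending ψ.fieldRange ψ'.fieldRange
    ((equivFieldRange ψ).symm.trans (equivFieldRange ψ')) (trdeg_eq_of_fieldRange ψ ψ')
  refine ⟨σ, fun a => ?_⟩
  have := hσ (equivFieldRange ψ a)
  rw [coe_equivFieldRange] at this
  rw [this, AlgEquiv.trans_apply, AlgEquiv.symm_apply_apply, coe_equivFieldRange]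

end Ext

/-! ### counting embeddings with a prescribed value -/

section Count

variable {k A Ω : Type*} [Field k] [Field A] [Field Ω] [Algebra k A] [Algebra k Ω]

/-- the equalizer of two `k`-embeddings, as an intermediate field. -/
def eqField (ψ ψ' : A →ₐ[k] Ω) : IntermediateField k A where
  carrier := {a | ψ a = ψ' a}
  mul_mem' := fun {a b} ha hb => by
    simp only [Set.mem_ofPred_eq] at ha hb ⊢
    rw [map_mul, map_mul, ha, hb]
  one_mem' := by simp
  add_mem' := fun {a b} ha hb => by
    simp only [Set.mem_ofPred_eq] at ha hb ⊢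
    rw [map_add, map_add, ha, hb]
  zero_mem' := by simp
  algebraMap_mem' := fun c => by simp
  inv_mem' := fun a ha => by
    simp only [Set.mem_ofPred_eq] at ha ⊢
    rw [map_inv₀, map_inv₀, ha]

theorem mem_eqField {ψ ψ' : A →ₐ[k] Ω} {a : A} : a ∈ eqField ψ ψ' ↔ ψ a = ψ' a := Iff.rfl

theorem eq_on_adjoin_simple {ψ ψ' : A →ₐ[k] Ω} {x : A} (h : ψ x = ψ' x) {a : A}
    (ha : a ∈ k⟮x⟯) : ψ a = ψ' a := by
  have : k⟮x⟯ ≤ eqField ψ ψ' := by
    rw [adjoin_simple_le_iff]
    exact h
  exact this ha

/-- **the number of `k`-embeddings `A → Ω` with prescribed value at `x`** is `[A : k(x)]`. -/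
theorem natCard_algHom_eq [IsAlgClosed Ω] [CharZero k] (x : A) [FiniteDimensional k⟮x⟯ A]
    (ψ₀ : A →ₐ[k] Ω) :
    Nat.card {ψ : A →ₐ[k] Ω // ψ x = ψ₀ x} = Module.finrank k⟮x⟯ A := by
  letI : Algebra k⟮x⟯ Ω := ((ψ₀ : A →+* Ω).comp (algebraMap k⟮x⟯ A)).toAlgebra
  have halg : ∀ a : k⟮x⟯, algebraMap k⟮x⟯ Ω a = ψ₀ (a : A) := fun a => rfl
  haveI : IsScalarTower k k⟮x⟯ Ω := IsScalarTower.of_algebraMap_eq (fun c => by
    rw [halg]
    exact (ψ₀.commutes c).symm)
  haveI : CharZero k⟮x⟯ := charZero_of_injective_algebraMap (algebraMap k k⟮x⟯).injective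
  rw [← AlgHom.natCard_of_splits k⟮x⟯ A Ω (fun _ => IsAlgClosed.splits _)]
  symm
  apply Nat.card_congr
  refine
    { toFun := fun ψ => ⟨ψ.restrictScalars k, ?_⟩
      invFun := fun ψ => { (ψ.1 : A →+* Ω) with commutes' := ?_ }
      left_inv := ?_
      right_inv := ?_ }
  · have := ψ.commutes ⟨x, mem_adjoin_simple_self k x⟩
    rw [halg] at this
    exact this
  · intro a
    rw [halg]
    exact eq_on_adjoin_simple ψ.2 a.2
  · intro ψ
    ext a
    rfl
  · intro ψ
    ext a
    rfl

/-- the image under a `k`-embedding of an element algebraic over `k(x)` is algebraic over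
`k(ψ x)`. -/
theorem map_mem_acl (ψ : A →ₐ[k] Ω) {x f : A} (hf : IsAlgebraic k⟮x⟯ f) :
    ψ f ∈ acl (k := k) {ψ x} := by
  rw [mem_acl_iff]
  have hmem : ∀ a : k⟮x⟯, ψ (a : A) ∈ IntermediateField.adjoin k {ψ x} := by
    intro a
    have h1 : ψ (a : A) ∈ (k⟮x⟯).map ψ := ⟨a, a.2, rfl⟩
    rw [IntermediateField.adjoin_map, Set.image_singleton] at h1
    exact h1
  let j : k⟮x⟯ →+* ↥(IntermediateField.adjoin k {ψ x}) :=
    ((ψ : A →+* Ω).comp (algebraMap k⟮x⟯ A)).codRestrict
      (IntermediateField.adjoin k {ψ x}).toSubfield.toSubring hmem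
  obtain ⟨p, hp0, hp⟩ := hf
  refine ⟨p.map j, (Polynomial.map_ne_zero_iff j.injective).mpr hp0, ?_⟩
  rw [Polynomial.aeval_def, Polynomial.eval₂_map]
  have hcomp : (algebraMap ↥(IntermediateField.adjoin k {ψ x}) Ω).comp j =
      (ψ : A →+* Ω).comp (algebraMap k⟮x⟯ A) := by
    ext a
    rfl
  rw [hcomp]
  have h2 := Polynomial.hom_eval₂ p (algebraMap k⟮x⟯ A) (ψ : A →+* Ω) f
  rw [Polynomial.aeval_def] at hp
  rw [hp, map_zero] at h2
  exact h2.symm

end Count

/-! ### exchange / counting -/

section Exchange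

open AlgebraicIndependent

variable {k K : Type*} [Field k] [Field K] [Algebra k K]

/-- **counting**: an algebraically independent set `I` algebraic over `k(T)` with `#T ≤ #I`, `T`
finite: then `T` is algebraically independent and `#T = #I`. -/
theorem indep_of_isAlgebraic_adjoin {I T : Set K} (hI : AlgebraicIndepOn k id I) (hT : T.Finite)
    (hIT : ∀ c ∈ I, IsAlgebraic (Algebra.adjoin k T) c) (hcard : T.encard ≤ I.encard) :
    AlgebraicIndepOn k id T ∧ T.encard = I.encard := by
  have hI' : (matroid k K).Indep I := matroid_indep_iff.mpr hI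
  have hsub : I ⊆ (matroid k K).closure T := by
    intro c hc
    rw [matroid_closure_eq]
    exact hIT c hc
  have h1 : I.encard ≤ (matroid k K).eRk T := by
    rw [← Matroid.eRk_closure_eq]
    exact hI'.encard_le_eRk_of_subset hsub
  have h2 := (matroid k K).eRk_le_encard T
  have h3 : (matroid k K).eRk T = T.encard := le_antisymm h2 (hcard.trans h1)
  refine ⟨matroid_indep_iff.mp ((Matroid.indep_iff_eRk_eq_encard_of_finite hT).mpr h3), ?_⟩
  exact le_antisymm hcard (h3 ▸ h1)

end Exchange

end Fermat.Agent.M15.DivField4
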