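/-
Programme M15 (S15), chapter (DIV), algebraic route (helper4), file 3: GENERIC PLACES ARE DETERMINED
BY THEIR VALUE MAP (P2).

Setting of `J/DESC/ExtPic22` (`k ⊆ K` algebraically closed of characteristic zero, `ι : Fk → FK` a
constant field extension, `Aut(K/k)` acting on `FK` through `ρ`).
* `isGen_map` : `ι x` is a generator of `FK`; `finrank_map` : `[FK : K(ι x)] = [Fk : k(x)]`.
* `phiAlg` : the value map of a generic place as a `k`-embedding `Fk → K`.
* `isGenericPlace_of_zero` : the zeros of `ι x - t`, `t ∉ k`, are generic.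
* `exists_smul_phi_eq` : `Aut(K/k)` is transitive on the `k`-embeddings `Fk → K`.
* **(P2)** `eq_of_phi_eq` : two generic places with the same value map are equal.  (Counting: the
  zeros of `ι x - t` map ONTO the `[Fk : k(x)]` embeddings with `x ↦ t`, and there are at most
  `[FK : K(ι x)]` of them.)
* `ord_sub_phi_eq_one` : `ι x - φ_v(x)` is a uniformiser at a generic place `v`.
-/
import Mathlib
import Fermat.Agent.M15.DivDefs4
import Fermat.Agent.M15.DivField4
import Fermat.Agent.J.DESC.ExtPic22

set_option autoImplicit false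
set_option linter.unusedSectionVars false
set_option linter.style.longLine false
set_option linter.style.haveILetI false

noncomputable section

open AlgebraicCurve IntermediateField

namespace Fermat.Agent.M15.DivGeneric4

open Fermat.Agent.X0 Fermat.Agent.RR.LSpace Fermat.Agent.J.DESC.ConstExt24
  Fermat.Agent.J.DESC.FiniteOrbit22 Fermat.Agent.J.DESC.ExtPic22
  Fermat.Agent.M15.DivDefs4 Fermat.Agent.M15.DivField4

/-! ### zeros of a generator -/

section Zeros

variable {K F : Type*} [Field K] [Field F] [Algebra K F] [IsAlgClosed K] [CharZero K] {X : F}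

theorem finrank_pos (hX : FF.IsGen K X) : 0 < Module.finrank K⟮X⟯ F := by
  haveI := hX.finite
  exact Module.finrank_pos

/-- a generator takes every value. -/
theorem exists_zero (hX : FF.IsGen K X) (c : K) :
    ∃ v : Place K F, 0 < v.ord (X - algebraMap K F c) := by
  by_contra hne
  push Not at hne
  have h1 := FF.sum_ord_fibre hX c
  have h2 : ∑ᶠ (v : Place K F) (_ : 0 < v.ord (X - algebraMap K F c)),
      v.ord (X - algebraMap K F c) = 0 := by
    apply finsum_eq_zero_of_forall_eq_zero
    intro v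
    have hv : ¬ 0 < v.ord (X - algebraMap K F c) := not_lt.mpr (hne v)
    simp [hv]
  rw [h2] at h1
  have := finrank_pos hX
  omega

/-- the number of zeros of `X - c` is at most `[F : K(X)]`. -/
theorem ncard_fibre_le (hX : FF.IsGen K X) (c : K) :
    {v : Place K F | 0 < v.ord (X - algebraMap K F c)}.ncard ≤ Module.finrank K⟮X⟯ F := by
  classical
  have hfin := FF.finite_fibre hX c
  have h1 := FF.sum_ord_fibre hX c
  have h2 : ∑ᶠ (v : Place K F) (_ : 0 < v.ord (X - algebraMap K F c)),
      v.ord (X - algebraMap K F c) = ∑ v ∈ hfin.toFinset, v.ord (X - algebraMap K F c) :=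
    finsum_mem_eq_finite_toFinset_sum _ hfin
  rw [h2] at h1
  have h3 : (hfin.toFinset.card : ℤ) ≤ ∑ v ∈ hfin.toFinset, v.ord (X - algebraMap K F c) := by
    have := Finset.card_nsmul_le_sum hfin.toFinset (fun v => v.ord (X - algebraMap K F c)) 1
      (fun v hv => by
        rw [Set.Finite.mem_toFinset] at hv
        exact hv)
    simpa using this
  rw [Set.ncard_eq_toFinset_card _ hfin]
  omega

/-- if there are `[F : K(X)]` zeros of `X - c`, all are simple. -/
theorem ord_eq_one_of_ncard_fibre (hX : FF.IsGen K X) (c : K)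
    (hcard : Module.finrank K⟮X⟯ F ≤ {v : Place K F | 0 < v.ord (X - algebraMap K F c)}.ncard)
    {v : Place K F} (hv : 0 < v.ord (X - algebraMap K F c)) :
    v.ord (X - algebraMap K F c) = 1 := by
  classical
  have hfin := FF.finite_fibre hX c
  have h1 := FF.sum_ord_fibre hX c
  have h2 : ∑ᶠ (v : Place K F) (_ : 0 < v.ord (X - algebraMap K F c)),
      v.ord (X - algebraMap K F c) = ∑ v ∈ hfin.toFinset, v.ord (X - algebraMap K F c) :=
    finsum_mem_eq_finite_toFinset_sum _ hfin
  rw [h2] at h1
  rw [Set.ncard_eq_toFinset_card _ hfin] at hcard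
  by_contra hne
  have hv2 : 2 ≤ v.ord (X - algebraMap K F c) := by omega
  have hvmem : v ∈ hfin.toFinset := by
    rw [Set.Finite.mem_toFinset]
    exact hv
  have h3 : ((hfin.toFinset.erase v).card : ℤ) ≤
      ∑ u ∈ hfin.toFinset.erase v, u.ord (X - algebraMap K F c) := by
    have := Finset.card_nsmul_le_sum (hfin.toFinset.erase v)
      (fun u => u.ord (X - algebraMap K F c)) 1
      (fun u hu => by
        have hu' := Finset.mem_of_mem_erase hu
        rw [Set.Finite.mem_toFinset] at hu'
        exact hu')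
    simpa using this
  rw [← Finset.add_sum_erase _ _ hvmem] at h1
  have h4 := Finset.card_erase_of_mem hvmem
  have h5 : 0 < hfin.toFinset.card := Finset.card_pos.mpr ⟨v, hvmem⟩
  omega

end Zeros

/-! ### the constant field extension -/

section Ext

universe u v w x

variable {k : Type u} {K : Type v} {Fk : Type w} {FK : Type x} [Field k] [Field K] [Field Fk]
  [Field FK] [Algebra k K] [Algebra k Fk] [Algebra K FK]
  [IsAlgClosed k] [CharZero k] [IsAlgClosed K] [CharZero K] {ι : Fk →+* FK}
  (H : LHyp K FK) (hι : IsConstExt (k := k) (K := K) ι) {x : Fk} (hx : FF.IsGen k x) {X : FK}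
  (hX : FF.IsGen K X)

include hι hx hX in
theorem transcendental_map : Transcendental K (ι x) := by
  intro halg
  obtain ⟨c, hc⟩ := FF.eq_algebraMap_of_isAlgebraic halg
  obtain ⟨w, hw⟩ := exists_zero hx 0
  rw [map_zero, sub_zero] at hw
  have h1 := ord_extPlace hι hx hX w x
  rw [hc, FF.ord_algebraMap] at h1
  omega

include hι hx hX in
/-- `ι x` is a generator of `FK`. -/
theorem isGen_map : FF.IsGen K (ι x) := hX.of_transcendental (transcendental_map hι hx hX)

include hι hx hX in
/-- **`[FK : K(ι x)] = [Fk : k(x)]`.** -/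
theorem finrank_map : Module.finrank K⟮ι x⟯ FK = Module.finrank k⟮x⟯ Fk := by
  have h1 := FF.sum_ord_zeros (isGen_map hι hx hX)
  have h2 := FF.sum_ord_zeros hx
  have hset : {v : Place K FK | 0 < v.ord (ι x)} =
      extPlace ι hι hX '' {w : Place k Fk | 0 < w.ord x} := by
    ext v
    constructor
    · intro hv
      have hv' : 0 < v.ord (ι x) := hv
      obtain ⟨w, rfl⟩ := (mem_range_extPlace_iff hι hx hX v).mpr ⟨x, hx.ne_zero, hv'⟩
      refine ⟨w, ?_, rfl⟩
      rw [ord_extPlace hι hx hX] at hv'
      exact hv'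
    · rintro ⟨w, hw, rfl⟩
      show 0 < (extPlace ι hι hX w).ord (ι x)
      rw [ord_extPlace hι hx hX]
      exact hw
  have h3 : ∑ᶠ (v : Place K FK) (_ : 0 < v.ord (ι x)), v.ord (ι x) =
      ∑ᶠ v ∈ {v : Place K FK | 0 < v.ord (ι x)}, v.ord (ι x) := rfl
  rw [h3, hset, finsum_mem_image ((extPlace_injective hι hX).injOn)] at h1
  have h4 : ∑ᶠ w ∈ {w : Place k Fk | 0 < w.ord x}, (extPlace ι hι hX w).ord (ι x) =
      ∑ᶠ (w : Place k Fk) (_ : 0 < w.ord x), w.ord x :=
    finsum_mem_congr rfl (fun w _ => ord_extPlace hι hx hX w x)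
  rw [h4, h2] at h1
  exact_mod_cast h1.symm

/-- the value map of a generic place, as a `k`-embedding `Fk → K`. -/
def phiAlg {v : Place K FK} (hv : IsGenericPlace ι v) : Fk →ₐ[k] K :=
  { phiHom H ι hv with
    commutes' := fun c => by
      show phiHom H ι hv (algebraMap k Fk c) = algebraMap k K c
      rw [phiHom_apply, phi_algebraMap H hι] }

theorem phiAlg_apply {v : Place K FK} (hv : IsGenericPlace ι v) (f : Fk) :
    phiAlg H hι hv f = phi H ι v f := phiHom_apply H ι hv f

include hι hx in
/-- the value of `x` at a generic place is not in `k`. -/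
theorem phi_gen_notMem {v : Place K FK} (hv : IsGenericPlace ι v) :
    phi H ι v x ∉ Set.range (algebraMap k K) := by
  rintro ⟨c, hc⟩
  rw [← phi_algebraMap H hι (v := v) c] at hc
  have := phi_injective H ι hv hc
  apply hx.transcendental
  rw [← this]
  exact isAlgebraic_algebraMap c

include hι hx hX in
/-- a generic place is a zero of `ι x - φ_v(x)`. -/
theorem ord_sub_phi_pos {v : Place K FK} (hv : IsGenericPlace ι v) :
    0 < v.ord (ι x - algebraMap K FK (phi H ι v x)) := by
  rcases phi_spec H ι hv x with h | h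
  · exact absurd h ((isGen_map hι hx hX).sub_algebraMap_ne_zero _)
  · exact h

include hι hx hX in
/-- **the zeros of `ι x - t`, `t ∉ k`, are generic.** -/
theorem isGenericPlace_of_zero {t : K} (ht : t ∉ Set.range (algebraMap k K)) {v : Place K FK}
    (hv : 0 < v.ord (ι x - algebraMap K FK t)) : IsGenericPlace ι v := by
  rw [isGenericPlace_iff hι hx hX]
  rintro ⟨w, rfl⟩
  have hmem : ι x ∈ (extPlace ι hι hX w).toValuationSubring := by
    have h1 := FF.mem_of_ord_nonneg _ hv.le
    have h2 := add_mem h1 ((extPlace ι hι hX w).algebraMap_mem' t)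
    rwa [sub_add_cancel] at h2
  have hord : 0 ≤ w.ord x := by
    rw [← ord_extPlace hι hx hX w x]
    exact FF.ord_nonneg_of_mem _ hmem
  obtain ⟨c, hc | hc⟩ := FF.exists_ord_sub_pos hx w (FF.mem_of_ord_nonneg w hord)
  · apply hx.transcendental
    rw [hc]
    exact isAlgebraic_algebraMap c
  · rw [← ord_extPlace hι hx hX w, map_sub, hι.comm] at hc
    have hne : algebraMap K FK (algebraMap k K c) - algebraMap K FK t ≠ 0 := by
      rw [← map_sub, Ne, map_eq_zero, sub_eq_zero]
      intro h
      exact ht ⟨c, h⟩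
    have heq : ι x - algebraMap K FK t - (ι x - algebraMap K FK (algebraMap k K c)) =
        algebraMap K FK (algebraMap k K c) - algebraMap K FK t := by ring
    have h3 := FF.ord_sub_ge (extPlace ι hι hX w)
      (f := ι x - algebraMap K FK t) (g := ι x - algebraMap K FK (algebraMap k K c))
      (by rw [heq]; exact hne)
    rw [heq, ← map_sub, FF.ord_algebraMap] at h3
    have := lt_min hv hc
    omega

include hι hx hX in
/-- the value of `x` at a zero of `ι x - t`. -/
theorem phi_of_zero {t : K} {v : Place K FK}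
    (hv : 0 < v.ord (ι x - algebraMap K FK t)) : phi H ι v x = t :=
  valAt_eq_of H v (Or.inr hv)

variable (ρ : (K ≃ₐ[k] K) →* SemilinearAut K FK)
  (hbase : ∀ (σ : K ≃ₐ[k] K) (c : K), SemilinearAut.baseAut (ρ σ) c = σ c)
  (hfix : ∀ (σ : K ≃ₐ[k] K) (f : Fk), ρ σ • ι f = ι f)

include hbase hfix in
theorem phi_smul' {v : Place K FK} (hv : IsGenericPlace ι v) (σ : K ≃ₐ[k] K) (f : Fk) :
    phi H ι (ρ σ • v) f = σ (phi H ι v f) := by
  rw [phi_smul H ρ hfix hv σ f, hbase]

include hι hx in
/-- **`Aut(K/k)` is transitive on the `k`-embeddings `Fk → K`.** -/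
theorem exists_algEquiv_phi_eq {v : Place K FK} (hv : IsGenericPlace ι v) (ψ : Fk →ₐ[k] K) :
    ∃ σ : K ≃ₐ[k] K, ∀ f : Fk, σ (phi H ι v f) = ψ f := by
  haveI := hx.essFiniteType
  obtain ⟨σ, hσ⟩ := exists_algEquiv_comp (phiAlg H hι hv) ψ
  exact ⟨σ, fun f => by rw [← phiAlg_apply H hι hv]; exact hσ f⟩

/-- the set of zeros of `ι x - t`. -/
def zeroSet (ι : Fk →+* FK) (x : Fk) (t : K) : Set (Place K FK) :=
  {u : Place K FK | 0 < u.ord (ι x - algebraMap K FK t)}

include hι hx hX in
theorem finite_zeroSet (t : K) : (zeroSet ι x t).Finite :=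
  FF.finite_fibre (isGen_map hι hx hX) t

/-- the map from the zeros of `ι x - t` to the embeddings with `x ↦ t`. -/
def zeroToEmb {v : Place K FK} (hv : IsGenericPlace ι v) :
    zeroSet ι x (phi H ι v x) → {ψ : Fk →ₐ[k] K // ψ x = phiAlg H hι hv x} := fun u =>
  ⟨phiAlg H hι (isGenericPlace_of_zero hι hx hX (phi_gen_notMem H hι hx hv) u.2), by
    rw [phiAlg_apply, phiAlg_apply]
    exact phi_of_zero H hι hx hX u.2⟩

include hbase hfix in
theorem zeroToEmb_surjective {v : Place K FK} (hv : IsGenericPlace ι v) :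
    Function.Surjective (zeroToEmb H hι hx hX hv) := by
  rintro ⟨ψ, hψ⟩
  obtain ⟨σ, hσ⟩ := exists_algEquiv_phi_eq H hι hx hv ψ
  have hgen : IsGenericPlace ι (ρ σ • v) := isGenericPlace_smul ρ hfix hv σ
  have hphi : ∀ f, phi H ι (ρ σ • v) f = ψ f := fun f => by
    rw [phi_smul' H ρ hbase hfix hv σ f, hσ]
  have hmem : ρ σ • v ∈ zeroSet ι x (phi H ι v x) := by
    have h1 := ord_sub_phi_pos H hι hx hX hgen
    rw [hphi, hψ, phiAlg_apply] at h1
    exact h1
  refine ⟨⟨ρ σ • v, hmem⟩, ?_⟩
  apply Subtype.ext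
  apply AlgHom.ext
  intro f
  show phiAlg H hι _ f = ψ f
  rw [phiAlg_apply, hphi]

include hbase hfix in
theorem zeroToEmb_bijective {v : Place K FK} (hv : IsGenericPlace ι v) :
    Function.Bijective (zeroToEmb H hι hx hX hv) := by
  haveI : Finite (zeroSet ι x (phi H ι v x)) := (finite_zeroSet hι hx hX _).to_subtype
  apply (zeroToEmb_surjective H hι hx hX ρ hbase hfix hv).bijective_of_nat_card_le
  haveI := hx.finite
  rw [natCard_algHom_eq x (phiAlg H hι hv), Nat.card_coe_set_eq, ← finrank_map hι hx hX]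
  exact ncard_fibre_le (isGen_map hι hx hX) _

include hι hx hX hbase hfix in
/-- **(P2)**: two generic places with the same value map are equal. -/
theorem eq_of_phi_eq {v w : Place K FK} (hv : IsGenericPlace ι v) (hw : IsGenericPlace ι w)
    (h : ∀ f : Fk, phi H ι v f = phi H ι w f) : v = w := by
  have hvm : v ∈ zeroSet ι x (phi H ι v x) := ord_sub_phi_pos H hι hx hX hv
  have hwm : w ∈ zeroSet ι x (phi H ι v x) := by
    have := ord_sub_phi_pos H hι hx hX hw
    rw [← h] at this
    exact this
  have hinj := (zeroToEmb_bijective H hι hx hX ρ hbase hfix hv).1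
  have heq : zeroToEmb H hι hx hX hv ⟨v, hvm⟩ = zeroToEmb H hι hx hX hv ⟨w, hwm⟩ := by
    apply Subtype.ext
    apply AlgHom.ext
    intro f
    show phiAlg H hι _ f = phiAlg H hι _ f
    rw [phiAlg_apply, phiAlg_apply, h]
  exact congrArg Subtype.val (hinj heq)

include hι hx hX hbase hfix in
/-- `ι x - φ_v(x)` is a uniformiser at a generic place. -/
theorem ord_sub_phi_eq_one {v : Place K FK} (hv : IsGenericPlace ι v) :
    v.ord (ι x - algebraMap K FK (phi H ι v x)) = 1 := by
  apply ord_eq_one_of_ncard_fibre (isGen_map hι hx hX) _ _ (ord_sub_phi_pos H hι hx hX hv)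
  haveI : Finite (zeroSet ι x (phi H ι v x)) := (finite_zeroSet hι hx hX _).to_subtype
  have h1 := Nat.card_le_card_of_surjective _ (zeroToEmb_surjective H hι hx hX ρ hbase hfix hv)
  haveI := hx.finite
  rw [natCard_algHom_eq x (phiAlg H hι hv), Nat.card_coe_set_eq, ← finrank_map hι hx hX] at h1
  exact h1

end Ext

end Fermat.Agent.M15.DivGeneric4
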