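/-
Programme M15 (S15), chapter (DIV), algebraic route (helper4), file 4: CONJUGACY OF GENERIC PLACES (P5).

Setting of `J/DESC/ExtPic22`; `M` an algebraically closed intermediate field of `K / k`,
`G_M = M.fixingSubgroup = Aut(K/M)`.
* `phi_mem_of_finite_orbit` : a generic place with finite `G_M`-orbit has all its values in `M`.
* `smul_eq_self` : `G_M` fixes the generic places whose `x`-value lies in `M`.
* `fieldM M ι` : the subfield `M·ι(Fk)` of `FK`; it is fixed by `G_M`, finitely generated over `M`, and
  its nonzero elements are units at every generic place with `x`-value outside `M`.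
* **(P5)** `exists_smul_eq` : `G_M` is transitive on the generic places with `x`-value outside `M`.
* `IsIndepGeneric S` (finite sets of generic places with algebraically independent `x`-values) and
  `exists_smul_image_eq` : two such sets of the same cardinality are conjugate under `Aut(K/k)`.
-/
import Mathlib
import Fermat.Agent.M15.DivGeneric4

set_option autoImplicit false
set_option linter.unusedSectionVars false
set_option linter.style.longLine false
set_option linter.style.haveILetI false

noncomputable section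

open AlgebraicCurve IntermediateField

namespace Fermat.Agent.M15.DivConj4

open Fermat.Agent.X0 Fermat.Agent.RR.LSpace Fermat.Agent.J.DESC.ConstExt24
  Fermat.Agent.J.DESC.FiniteOrbit22 Fermat.Agent.J.DESC.ExtPic22
  Fermat.Agent.M15.DivDefs4 Fermat.Agent.M15.DivField4 Fermat.Agent.M15.DivGeneric4

universe u v w x

variable {k : Type u} {K : Type v} {Fk : Type w} {FK : Type x} [Field k] [Field K] [Field Fk]
  [Field FK] [Algebra k K] [Algebra k Fk] [Algebra K FK]
  [IsAlgClosed k] [CharZero k] [IsAlgClosed K] [CharZero K] {ι : Fk →+* FK}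
  (H : LHyp K FK) (hι : IsConstExt (k := k) (K := K) ι) {x : Fk} (hx : FF.IsGen k x) {X : FK}
  (hX : FF.IsGen K X)
  (ρ : (K ≃ₐ[k] K) →* SemilinearAut K FK)
  (hbase : ∀ (σ : K ≃ₐ[k] K) (c : K), SemilinearAut.baseAut (ρ σ) c = σ c)
  (hfix : ∀ (σ : K ≃ₐ[k] K) (f : Fk), ρ σ • ι f = ι f)

/-! ### orbits under `G_M` -/

include hbase hfix in
/-- **a generic place with finite `G_M`-orbit has its values in `M`.** -/
theorem phi_mem_of_finite_orbit (M : IntermediateField k K) [IsAlgClosed ↥M] {v : Place K FK}
    (hv : IsGenericPlace ι v)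
    (hfin : {u : Place K FK | ∃ σ ∈ M.fixingSubgroup, ρ σ • v = u}.Finite) (f : Fk) :
    phi H ι v f ∈ M := by
  apply mem_of_finite_orbit M
  refine (hfin.image (fun u => phi H ι u f)).subset ?_
  rintro _ ⟨σ, hσ, rfl⟩
  exact ⟨ρ σ • v, ⟨σ, hσ, rfl⟩, phi_smul' H ρ hbase hfix hv σ f⟩

include hι hx in
/-- all values of a generic place are algebraic over `k(φ_v(x))`. -/
theorem phi_mem_of_gen_mem (M : IntermediateField k K) [IsAlgClosed ↥M] {v : Place K FK}
    (hv : IsGenericPlace ι v) (h : phi H ι v x ∈ M) (f : Fk) : phi H ι v f ∈ M := by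
  haveI := hx.finite
  have hf : IsAlgebraic k⟮x⟯ f := Algebra.IsAlgebraic.isAlgebraic f
  have h1 := map_mem_acl (phiAlg H hι hv) hf
  rw [phiAlg_apply, phiAlg_apply] at h1
  exact acl_le_of_subset M (Set.singleton_subset_iff.mpr h) h1

include hι hx hX hbase hfix in
/-- **`G_M` fixes the generic places whose `x`-value lies in `M`.** -/
theorem smul_eq_self (M : IntermediateField k K) [IsAlgClosed ↥M] {v : Place K FK}
    (hv : IsGenericPlace ι v) (h : phi H ι v x ∈ M) {σ : K ≃ₐ[k] K} (hσ : σ ∈ M.fixingSubgroup) :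
    ρ σ • v = v := by
  apply eq_of_phi_eq H hι hx hX ρ hbase hfix (isGenericPlace_smul ρ hfix hv σ) hv
  intro f
  rw [phi_smul' H ρ hbase hfix hv σ f]
  exact (IntermediateField.mem_fixingSubgroup_iff M σ).mp hσ _ (phi_mem_of_gen_mem H hι hx M hv h f)

/-! ### the field `M·ι(Fk)` -/

/-- the subfield of `FK` generated by `M` and `ι(Fk)`. -/
def fieldM (M : IntermediateField k K) (ι : Fk →+* FK) : IntermediateField ↥M FK :=
  IntermediateField.adjoin ↥M (Set.range ι)

theorem map_mem_fieldM (M : IntermediateField k K) (f : Fk) : ι f ∈ fieldM M ι :=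
  IntermediateField.subset_adjoin _ _ ⟨f, rfl⟩

include hbase hfix in
/-- `G_M` fixes `M·ι(Fk)` pointwise. -/
theorem smul_eq_of_mem_fieldM (M : IntermediateField k K) {σ : K ≃ₐ[k] K}
    (hσ : σ ∈ M.fixingSubgroup) {h : FK} (hh : h ∈ fieldM M ι) : ρ σ • h = h := by
  induction hh using IntermediateField.adjoin_induction with
  | mem a ha =>
    obtain ⟨f, rfl⟩ := ha
    exact hfix σ f
  | algebraMap m =>
    have h1 : algebraMap ↥M FK m = algebraMap K FK (m : K) := rfl
    rw [h1, SemilinearAut.smul_algebraMap, hbase]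
    congr 1
    exact (IntermediateField.mem_fixingSubgroup_iff M σ).mp hσ _ m.2
  | add a b _ _ ha hb => rw [smul_add, ha, hb]
  | inv a _ ha => rw [smul_inv'', ha]
  | mul a b _ _ ha hb => rw [smul_mul', ha, hb]

include hbase hfix in
/-- **the nonzero elements of `M·ι(Fk)` are units at a generic place with `x`-value outside `M`.** -/
theorem ord_eq_zero_of_mem_fieldM (M : IntermediateField k K) [IsAlgClosed ↥M] {v : Place K FK}
    (hv : IsGenericPlace ι v) (hvM : phi H ι v x ∉ M) {h : FK} (hh : h ∈ fieldM M ι)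
    (h0 : h ≠ 0) : v.ord h = 0 := by
  by_contra hne
  apply hvM
  apply phi_mem_of_finite_orbit H ρ hbase hfix M hv
  refine (divOf H h0).support.finite_toSet.subset ?_
  rintro _ ⟨σ, hσ, rfl⟩
  rw [Finset.mem_coe, Finsupp.mem_support_iff, divOf_apply]
  have h1 := SemilinearAut.ord_smul (ρ σ) v h
  rw [smul_eq_of_mem_fieldM ρ hbase hfix M hσ hh] at h1
  rw [h1]
  exact hne

include hι hx in
/-- `M·ι(Fk)` is finitely generated over `M`. -/
theorem fg_fieldM (M : IntermediateField k K) : (fieldM M ι).FG := by
  haveI := hx.essFiniteType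
  obtain ⟨s, hs, htop⟩ := IntermediateField.fg_def.mp
    (IntermediateField.fg_top_iff.mpr (inferInstance : Algebra.EssFiniteType k Fk))
  rw [IntermediateField.fg_def]
  refine ⟨ι '' s, hs.image ι, ?_⟩
  apply le_antisymm
  · exact IntermediateField.adjoin.mono _ _ _ (Set.image_subset_range ι s)
  · rw [fieldM, IntermediateField.adjoin_le_iff]
    rintro _ ⟨f, rfl⟩
    have hf : f ∈ IntermediateField.adjoin k s := by rw [htop]; exact IntermediateField.mem_top
    induction hf using IntermediateField.adjoin_induction with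
    | mem a ha => exact IntermediateField.subset_adjoin _ _ ⟨a, ha, rfl⟩
    | algebraMap c =>
      rw [SetLike.mem_coe, hι.comm]
      exact (IntermediateField.adjoin ↥M (ι '' s)).algebraMap_mem
        (⟨algebraMap k K c, M.algebraMap_mem c⟩ : ↥M)
    | add a b _ _ ha hb =>
      rw [map_add]
      exact add_mem ha hb
    | inv a _ ha =>
      rw [map_inv₀]
      exact inv_mem ha
    | mul a b _ _ ha hb =>
      rw [map_mul]
      exact mul_mem ha hb

include hι hx in
theorem finTrdeg_fieldM (M : IntermediateField k K) : FinTrdeg ↥M ↥(fieldM M ι) := by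
  haveI : Algebra.EssFiniteType ↥M ↥(fieldM M ι) :=
    IntermediateField.essFiniteType_iff.mpr (fg_fieldM hι hx M)
  infer_instance

/-- the value map on `M·ι(Fk)` at a place where all its elements are regular. -/
def valAlgM (M : IntermediateField k K) (v : Place K FK)
    (hmem : ∀ h ∈ fieldM M ι, h ∈ v.toValuationSubring) : ↥(fieldM M ι) →ₐ[↥M] K :=
  { (valHom H v).comp
      ((fieldM M ι).val.toRingHom.codRestrict v.toValuationSubring.toSubring
        fun h => hmem h.1 h.2) with
    commutes' := fun m => by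
      show valHom H v ⟨algebraMap K FK (m : K), _⟩ = (m : K)
      exact valHom_algebraMap H v (m : K) }

theorem valAlgM_apply (M : IntermediateField k K) (v : Place K FK)
    (hmem : ∀ h ∈ fieldM M ι, h ∈ v.toValuationSubring) (h : ↥(fieldM M ι)) :
    valAlgM H M v hmem h = valAt H v (h : FK) := by
  rw [valAt_of_mem H v (hmem h.1 h.2)]
  rfl

include hι hx hX hbase hfix in
/-- **(P5)**: `G_M` is transitive on the generic places with `x`-value outside `M`. -/
theorem exists_smul_eq (M : IntermediateField k K) [IsAlgClosed ↥M] {v w : Place K FK}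
    (hv : IsGenericPlace ι v) (hw : IsGenericPlace ι w) (hvM : phi H ι v x ∉ M)
    (hwM : phi H ι w x ∉ M) : ∃ σ ∈ M.fixingSubgroup, ρ σ • v = w := by
  have hmem : ∀ {u : Place K FK}, IsGenericPlace ι u → phi H ι u x ∉ M →
      ∀ h ∈ fieldM M ι, h ∈ u.toValuationSubring := by
    intro u hu huM h hh
    rcases eq_or_ne h 0 with rfl | h0
    · exact zero_mem _
    · exact FF.mem_of_ord_nonneg u
        (by rw [ord_eq_zero_of_mem_fieldM H ρ hbase hfix M hu huM hh h0])
  haveI := finTrdeg_fieldM hι hx M
  obtain ⟨σ, hσ⟩ := exists_algEquiv_comp (valAlgM H M v (hmem hv hvM)) (valAlgM H M w (hmem hw hwM))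
  refine ⟨σ.restrictScalars k, restrictScalars_mem_fixingSubgroup M σ, ?_⟩
  apply eq_of_phi_eq H hι hx hX ρ hbase hfix (isGenericPlace_smul ρ hfix hv _) hw
  intro f
  rw [phi_smul' H ρ hbase hfix hv _ f]
  have h1 := hσ ⟨ι f, map_mem_fieldM M f⟩
  rw [valAlgM_apply, valAlgM_apply] at h1
  exact h1

/-! ### independent generic sets -/

open Classical in
/-- **independent generic**: a finite set of generic places whose `x`-values are algebraically
independent over `k`. -/
def IsIndepGeneric (H : LHyp K FK) (ι : Fk →+* FK) (x : Fk) (S : Finset (Place K FK)) : Prop :=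
  (∀ v ∈ S, IsGenericPlace ι v) ∧
    AlgebraicIndepOn k (fun v : Place K FK => phi H ι v x) (S : Set (Place K FK))

theorem IsIndepGeneric.mono {S T : Finset (Place K FK)} (hT : IsIndepGeneric (k := k) H ι x T)
    (hST : S ⊆ T) : IsIndepGeneric (k := k) H ι x S :=
  ⟨fun v hv => hT.1 v (hST hv), hT.2.mono (Finset.coe_subset.mpr hST)⟩

open Classical in
theorem isIndepGeneric_insert_iff {S : Finset (Place K FK)} {v : Place K FK} (hv : v ∉ S) :
    IsIndepGeneric (k := k) H ι x (insert v S) ↔
      IsIndepGeneric (k := k) H ι x S ∧ IsGenericPlace ι v ∧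
        phi H ι v x ∉ acl (k := k) ((fun u : Place K FK => phi H ι u x) '' (S : Set (Place K FK))) := by
  rw [IsIndepGeneric, IsIndepGeneric, Finset.coe_insert,
    AlgebraicIndepOn.insert_iff (by exact_mod_cast hv), not_mem_acl_iff]
  constructor
  · rintro ⟨h1, h2, h3⟩
    exact ⟨⟨fun u hu => h1 u (Finset.mem_insert_of_mem hu), h2⟩,
      h1 v (Finset.mem_insert_self v S), h3⟩
  · rintro ⟨⟨h1, h2⟩, h3, h4⟩
    refine ⟨fun u hu => ?_, h2, h4⟩
    rcases Finset.mem_insert.mp hu with rfl | hu
    · exact h3
    · exact h1 u hu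

open Classical in
include hbase hfix in
/-- independent generic sets are permuted by `Aut(K/k)`. -/
theorem IsIndepGeneric.image_smul {S : Finset (Place K FK)}
    (hS : IsIndepGeneric (k := k) H ι x S) (σ : K ≃ₐ[k] K) :
    IsIndepGeneric (k := k) H ι x (S.image fun v => ρ σ • v) := by
  refine ⟨?_, ?_⟩
  · intro u hu
    obtain ⟨v, hv, rfl⟩ := Finset.mem_image.mp hu
    exact isGenericPlace_smul ρ hfix (hS.1 v hv) σ
  · rw [Finset.coe_image]
    have hinj : Function.Injective fun v : Place K FK => ρ σ • v := MulAction.injective (ρ σ)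
    let e := Equiv.Set.image (fun v : Place K FK => ρ σ • v) (S : Set (Place K FK)) hinj
    show AlgebraicIndependent k fun u : ↥((fun v : Place K FK => ρ σ • v) '' (S : Set (Place K FK))) =>
      phi H ι (u : Place K FK) x
    rw [← algebraicIndependent_equiv e]
    have h1 := hS.2.map' (f := (σ : K →ₐ[k] K)) σ.injective
    convert h1 using 1
    funext v
    show phi H ι (ρ σ • (v : Place K FK)) x = σ (phi H ι (v : Place K FK) x)
    exact phi_smul' H ρ hbase hfix (hS.1 v v.2) σ x

open Classical in
include hι hx hX hbase hfix in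
/-- **two independent generic sets of the same cardinality are conjugate.** -/
theorem exists_smul_image_eq : ∀ (n : ℕ) {S S' : Finset (Place K FK)},
    IsIndepGeneric (k := k) H ι x S → IsIndepGeneric (k := k) H ι x S' → S.card = n → S'.card = n →
    ∃ σ : K ≃ₐ[k] K, (S.image fun v => ρ σ • v) = S' := by
  intro n
  induction n with
  | zero =>
    intro S S' _ _ h1 h2
    rw [Finset.card_eq_zero] at h1 h2
    exact ⟨1, by rw [h1, h2]; rfl⟩
  | succ n ih =>
    intro S S' hS hS' h1 h2
    obtain ⟨v, hvS⟩ : S.Nonempty := Finset.card_pos.mp (by omega)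
    obtain ⟨w, hwS'⟩ : S'.Nonempty := Finset.card_pos.mp (by omega)
    have hS₁ := hS.mono H (Finset.erase_subset v S)
    have hS'₁ := hS'.mono H (Finset.erase_subset w S')
    obtain ⟨σ₁, hσ₁⟩ := ih hS₁ hS'₁ (by rw [Finset.card_erase_of_mem hvS]; omega)
      (by rw [Finset.card_erase_of_mem hwS']; omega)
    set T := S'.erase w with hT
    set M := acl (k := k) ((fun u : Place K FK => phi H ι u x) '' (T : Set (Place K FK))) with hM
    have hinj : Function.Injective fun v : Place K FK => ρ σ₁ • v := MulAction.injective (ρ σ₁)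
    -- the image of `S` under `σ₁`
    have himg : (S.image fun v => ρ σ₁ • v) = insert (ρ σ₁ • v) T := by
      conv_lhs => rw [← Finset.insert_erase hvS]
      rw [Finset.image_insert, hσ₁]
    have hv₁T : ρ σ₁ • v ∉ T := by
      rw [← hσ₁]
      intro hmem
      obtain ⟨u, hu, hueq⟩ := Finset.mem_image.mp hmem
      have := hinj hueq
      rw [this] at hu
      exact Finset.notMem_erase v S hu
    have hwT : w ∉ T := Finset.notMem_erase w S'
    have hIG₁ := (isIndepGeneric_insert_iff H hv₁T).mp (himg ▸ hS.image_smul H ρ hbase hfix σ₁)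
    have hIG₂ := (isIndepGeneric_insert_iff H hwT).mp
      (by rw [hT, Finset.insert_erase hwS']; exact hS')
    obtain ⟨σ₂, hσ₂M, hσ₂⟩ := exists_smul_eq H hι hx hX ρ hbase hfix M hIG₁.2.1 hIG₂.2.1
      hIG₁.2.2 hIG₂.2.2
    refine ⟨σ₂ * σ₁, ?_⟩
    have hcomp : (fun u : Place K FK => ρ (σ₂ * σ₁) • u) =
        (fun u : Place K FK => ρ σ₂ • u) ∘ fun u : Place K FK => ρ σ₁ • u := by
      funext u
      rw [map_mul, mul_smul]
      rfl
    rw [hcomp, ← Finset.image_image, himg, Finset.image_insert, hσ₂]
    have hfixT : (T.image fun u => ρ σ₂ • u) = T := by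
      conv_rhs => rw [← Finset.image_id (s := T)]
      apply Finset.image_congr
      intro u hu
      have hu' : u ∈ T := hu
      exact smul_eq_self H hι hx hX ρ hbase hfix M (hIG₂.1.1 u hu')
        (subset_acl _ ⟨u, hu', rfl⟩) hσ₂M
    rw [hfixT, hT, Finset.insert_erase hwS']

end Fermat.Agent.M15.DivConj4
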