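/-
Programme M15 (S15), chapter (DIV), algebraic route (helper4), file 5: INDEPENDENT GENERIC PLACES
IMPOSE INDEPENDENT CONDITIONS ON DIFFERENTIALS (P3).

Setting of `J/DESC/ExtPic22`.
* `canonW` : the canonical divisor `div(d(ι x))`; it is `Aut(K/k)`-invariant (`smul_canonW`).
* `sumDiv S = Σ_{v ∈ S} v`.
* `finrank_add_card_le` : for `S` independent generic with `#S ≤ g`:
  `dim L(W - Σ_S v) + #S ≤ g`.
* **(P3)** `finrank_L_sumDiv` : for `S` independent generic with `#S = g`: `dim L(Σ_S v) = 1`.
-/
import Mathlib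
import Fermat.Agent.M15.DivConj4
import Fermat.Agent.RR.RRMain
import Fermat.Agent.U44.CanonSep0
import Fermat.Agent.J.DESC.NormalForm10

set_option autoImplicit false
set_option linter.unusedSectionVars false
set_option linter.style.longLine false
set_option linter.style.haveILetI false

noncomputable section

open AlgebraicCurve IntermediateField KaehlerDifferential

namespace Fermat.Agent.M15.DivIndep4

open Fermat.Agent.X0 Fermat.Agent.X0.FF Fermat.Agent.RR.LSpace Fermat.Agent.J.DESC.ConstExt24
  Fermat.Agent.J.DESC.FiniteOrbit22 Fermat.Agent.J.DESC.ExtPic22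
  Fermat.Agent.M15.DivDefs4 Fermat.Agent.M15.DivField4 Fermat.Agent.M15.DivGeneric4
  Fermat.Agent.M15.DivConj4 Fermat.Agent.J.DESC.NormalForm10

universe u v w x

variable {k : Type u} {K : Type v} {Fk : Type w} {FK : Type x} [Field k] [Field K] [Field Fk]
  [Field FK] [Algebra k K] [Algebra k Fk] [Algebra K FK]
  [IsAlgClosed k] [CharZero k] [IsAlgClosed K] [CharZero K] {ι : Fk →+* FK}
  (H : LHyp K FK) (hι : IsConstExt (k := k) (K := K) ι) {x : Fk} (hx : FF.IsGen k x) {X : FK}
  (hX : FF.IsGen K X)
  (ρ : (K ≃ₐ[k] K) →* SemilinearAut K FK)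
  (hbase : ∀ (σ : K ≃ₐ[k] K) (c : K), SemilinearAut.baseAut (ρ σ) c = σ c)
  (hfix : ∀ (σ : K ≃ₐ[k] K) (f : Fk), ρ σ • ι f = ι f)

/-! ### sums of places -/

/-- `Σ_{v ∈ S} v`. -/
def sumDiv (S : Finset (Place K FK)) : Divisor K FK := ∑ v ∈ S, Finsupp.single v 1

open Classical in
theorem sumDiv_insert {S : Finset (Place K FK)} {v : Place K FK} (hv : v ∉ S) :
    sumDiv (insert v S) = Finsupp.single v 1 + sumDiv S := by
  rw [sumDiv, Finset.sum_insert hv]
  rfl

open Classical in
theorem sumDiv_apply (S : Finset (Place K FK)) (u : Place K FK) :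
    sumDiv S u = if u ∈ S then 1 else 0 := by
  rw [sumDiv, Finsupp.finsetSum_apply]
  simp only [Finsupp.single_apply]
  rw [Finset.sum_ite_eq' S u]

include H in
theorem degree_sumDiv (S : Finset (Place K FK)) : Divisor.degree (sumDiv S) = S.card := by
  rw [sumDiv, map_sum]
  simp [degree_single H]

theorem sumDiv_nonneg (S : Finset (Place K FK)) : 0 ≤ sumDiv S := by
  classical
  intro u
  rw [sumDiv_apply]
  split_ifs <;> simp

open Classical in
theorem smul_sumDiv (g : SemilinearAut K FK) (S : Finset (Place K FK)) :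
    g • sumDiv S = sumDiv (S.image fun v => g • v) := by
  rw [sumDiv, sumDiv, Finset.smul_sum, Finset.sum_image (fun a _ b _ h => MulAction.injective g h)]
  exact Finset.sum_congr rfl fun v _ => SemilinearAut.smul_single g v 1

open Classical in
include hι hx hX hbase hfix in
/-- `G_M` fixes `Σ_S v` if the `x`-values of the (generic) places of `S` lie in `M`. -/
theorem smul_sumDiv_eq (M : IntermediateField k K) [IsAlgClosed ↥M] {S : Finset (Place K FK)}
    (hS : ∀ v ∈ S, IsGenericPlace ι v) (hSM : ∀ v ∈ S, phi H ι v x ∈ M) {σ : K ≃ₐ[k] K}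
    (hσ : σ ∈ M.fixingSubgroup) : ρ σ • sumDiv S = sumDiv S := by
  rw [smul_sumDiv]
  congr 1
  conv_rhs => rw [← Finset.image_id (s := S)]
  apply Finset.image_congr
  intro u hu
  exact smul_eq_self H hι hx hX ρ hbase hfix M (hS u hu) (hSM u hu) hσ

/-! ### the canonical divisor `div(d(ι x))` -/

include H hι hx hX in
/-- `HasCanonicalDivisor` in the abstract setting. -/
theorem hasCanonicalDivisor : HasCanonicalDivisor (K := K) (F := FK) := by
  have hX' := isGen_map hι hx hX
  haveI := hX'.finite
  haveI : CharZero K⟮ι x⟯ := charZero_of_injective_algebraMap (algebraMap K K⟮ι x⟯).injective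
  exact Fermat.Agent.U44.CanonSep0.hasCanonicalDivisor hX' H

include hι hx hX hfix in
/-- **the order of `d(ι x)` is `Aut(K/k)`-invariant.** -/
theorem ordDifferential_smul (σ : K ≃ₐ[k] K) (v : Place K FK) :
    (ρ σ • v).ordDifferential (D K FK (ι x)) = v.ordDifferential (D K FK (ι x)) := by
  have hX' := isGen_map hι hx hX
  have HG := Fermat.Agent.X0.FFGenus.genusHyp hX'
  rcases HG.pole_or_zero v with h | ⟨c, hc⟩
  · have h1 : (ρ σ • v).ord (ι x) = v.ord (ι x) := by
      have := SemilinearAut.ord_smul (ρ σ) v (ι x)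
      rwa [hfix] at this
    rw [HG.ordDifferential_dx_of_pole h, HG.ordDifferential_dx_of_pole (h1 ▸ h), h1]
  · have h1 : (ρ σ • v).ord (ι x - algebraMap K FK (SemilinearAut.baseAut (ρ σ) c)) =
        v.ord (ι x - algebraMap K FK c) := by
      have := ord_smul_sub_const (ρ σ) v (ι x) c
      rwa [hfix] at this
    rw [HG.ordDifferential_dx_of_zero hc, HG.ordDifferential_dx_of_zero (h1 ▸ hc), h1]

variable [HasCanonicalDivisor (K := K) (F := FK)]

/-- the canonical divisor `div(d(ι x))`. -/
def canonW : Divisor K FK := canonicalDivisorOf (D_ne_zero (isGen_map hι hx hX))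

theorem canonW_apply (v : Place K FK) :
    canonW hι hx hX v = v.ordDifferential (D K FK (ι x)) :=
  canonicalDivisorOf_apply (D_ne_zero (isGen_map hι hx hX)) v

include hfix in
theorem smul_canonW (σ : K ≃ₐ[k] K) : ρ σ • canonW hι hx hX = canonW hι hx hX := by
  ext u
  rw [SemilinearAut.divisor_smul_apply, canonW_apply, canonW_apply]
  have h1 := ordDifferential_smul hι hx hX ρ hfix σ ((ρ σ)⁻¹ • u)
  rw [smul_inv_smul] at h1
  exact h1.symm

/-! ### (P3) -/

open Classical in
include H hbase hfix in
/-- **independent generic places impose independent conditions on the differentials.** -/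
theorem finrank_add_card_le : ∀ S : Finset (Place K FK), IsIndepGeneric (k := k) H ι x S →
    S.card ≤ genus K FK →
    Module.finrank K (riemannRochSpace (canonW hι hx hX - sumDiv S)) + S.card ≤ genus K FK := by
  have hX' := isGen_map hι hx hX
  intro S
  induction S using Finset.induction_on with
  | empty =>
    intro _ _
    rw [sumDiv, Finset.sum_empty, sub_zero, Finset.card_empty, add_zero]
    exact (Fermat.Agent.RR.RRMain.finrank_L_canonical hX' (D_ne_zero hX')
      (canonW_apply hι hx hX)).le
  | insert v S₁ hv ih =>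
    intro hS hcard
    obtain ⟨hS₁, hvgen, hvM⟩ := (isIndepGeneric_insert_iff H hv).mp hS
    rw [Finset.card_insert_of_notMem hv] at hcard ⊢
    have ih' := ih hS₁ (by omega)
    set W := canonW hι hx hX with hW
    set M := acl (k := k) ((fun u : Place K FK => phi H ι u x) '' (S₁ : Set (Place K FK))) with hM
    have hVV₁ : riemannRochSpace (W - sumDiv (insert v S₁)) ≤ riemannRochSpace (W - sumDiv S₁) := by
      apply L_mono
      rw [sumDiv_insert hv]
      intro u
      have h1 : (0 : ℤ) ≤ (Finsupp.single v (1 : ℤ)) u := by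
        rw [Finsupp.single_apply]
        split_ifs <;> simp
      simp only [Finsupp.coe_sub, Finsupp.coe_add, Pi.sub_apply, Pi.add_apply]
      omega
    haveI : FiniteDimensional K (riemannRochSpace (W - sumDiv S₁)) :=
      Fermat.Agent.RR.RRMain.finiteDimensional_L hX' _
    by_cases hbot : riemannRochSpace (W - sumDiv S₁) = ⊥
    · have h0 : riemannRochSpace (W - sumDiv (insert v S₁)) = ⊥ := eq_bot_iff.mpr (hbot ▸ hVV₁)
      rw [h0, finrank_bot]
      omega
    · have hlt : riemannRochSpace (W - sumDiv (insert v S₁)) < riemannRochSpace (W - sumDiv S₁) := by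
        refine lt_of_le_of_ne hVV₁ fun heq => ?_
        obtain ⟨h, hhV₁, hh0⟩ := Submodule.exists_mem_ne_zero_of_ne_bot hbot
        apply hvM
        apply phi_mem_of_finite_orbit H ρ hbase hfix M hvgen ?_ x
        refine ((divOf H hh0).support ∪ W.support).finite_toSet.subset ?_
        rintro _ ⟨σ, hσ, rfl⟩
        by_contra hnot
        rw [Finset.mem_coe, Finset.mem_union, not_or, Finsupp.mem_support_iff,
          Finsupp.mem_support_iff, not_not, not_not, divOf_apply] at hnot
        obtain ⟨hn1, hn2⟩ := hnot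
        -- `σ⁻¹ h ∈ V₁ = V`
        have hσ' : σ⁻¹ ∈ M.fixingSubgroup := inv_mem hσ
        have hinv : ρ σ⁻¹ • (W - sumDiv S₁) = W - sumDiv S₁ := by
          rw [smul_sub, hW, smul_canonW hι hx hX ρ hfix,
            smul_sumDiv_eq H hι hx hX ρ hbase hfix M hS₁.1
              (fun u hu => subset_acl _ ⟨u, hu, rfl⟩) hσ']
        have hh' : ρ σ⁻¹ • h ∈ riemannRochSpace (W - sumDiv S₁) := by
          have := (smul_mem_L_iff (ρ σ⁻¹) (W - sumDiv S₁) h).mpr hhV₁
          rwa [hinv] at this
        rw [← heq] at hh'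
        have hh'0 : ρ σ⁻¹ • h ≠ 0 := fun h0 => hh0 ((smul_eq_zero_iff _ _).mp h0)
        have h3 := (mem_L_iff hh'0).mp hh' v
        have h4 : v.ord (ρ σ⁻¹ • h) = (ρ σ • v).ord h := by
          have := SemilinearAut.ord_smul (ρ σ) v (ρ σ⁻¹ • h)
          rw [map_inv, smul_inv_smul] at this
          rw [map_inv]
          exact this.symm
        have h5 : W v = W (ρ σ • v) := by
          rw [hW, canonW_apply, canonW_apply, ordDifferential_smul hι hx hX ρ hfix]
        have h6 : (W - sumDiv (insert v S₁)) v = W v - 1 := by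
          rw [Finsupp.sub_apply, sumDiv_apply, if_pos (Finset.mem_insert_self v S₁)]
        rw [h6, h4, hn1, h5, hn2] at h3
        omega
      have := Submodule.finrank_lt_finrank_of_lt hlt
      omega

include H hι hx hX hbase hfix in
/-- **(P3)**: `g` independent generic places span a divisor with `l = 1`. -/
theorem finrank_L_sumDiv {S : Finset (Place K FK)} (hS : IsIndepGeneric (k := k) H ι x S)
    (hcard : S.card = genus K FK) : Module.finrank K (riemannRochSpace (sumDiv S)) = 1 := by
  have hX' := isGen_map hι hx hX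
  have h1 := finrank_add_card_le H hι hx hX ρ hbase hfix S hS hcard.le
  have h2 := Fermat.Agent.RR.RRMain.riemann_roch_genus hX' (D_ne_zero hX')
    (canonW_apply hι hx hX) (sumDiv S)
  rw [degree_sumDiv H] at h2
  have h3 : canonicalDivisorOf (D_ne_zero hX') = canonW hι hx hX := rfl
  omega

end Fermat.Agent.M15.DivIndep4
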