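/-
Programme M15 (S15), chapter (DIV), algebraic route (helper4), file 6: GENERIC CLASSES (P4).

Setting of `J/DESC/ExtPic22`; `P₀` a non-generic place fixed by `Aut(K/k)`, `g = genus K FK`.
* `genClass P₀ S = [Σ_S v - #S · P₀] ∈ Pic⁰(FK)`; `smul_genClass` (equivariance);
* `normalFormPic_genClass` : for `S` independent generic with `#S = g` the normal form of `genClass P₀ S`
  is `Σ_S v`;
* `minPole_le_genus`;
* **(P4)** `exists_eq_genClass` : a class `u'` such that `genClass P₀ S` has finite orbit under every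
  `G_L` (`L` algebraically closed) fixing `u'` is itself `genClass P₀ S'` for an independent generic `S'`
  with `#S' = g`.
-/
import Mathlib
import Fermat.Agent.M15.DivIndep4
import Fermat.Agent.J.DESC.NormalFormInj10

set_option autoImplicit false
set_option linter.unusedSectionVars false
set_option linter.style.longLine false
set_option linter.style.haveILetI false

noncomputable section

open AlgebraicCurve IntermediateField KaehlerDifferential

namespace Fermat.Agent.M15.DivCount4

open Fermat.Agent.X0 Fermat.Agent.X0.FF Fermat.Agent.RR.LSpace Fermat.Agent.J.DESC.ConstExt24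
  Fermat.Agent.J.DESC.FiniteOrbit22 Fermat.Agent.J.DESC.ExtPic22
  Fermat.Agent.M15.DivDefs4 Fermat.Agent.M15.DivField4 Fermat.Agent.M15.DivGeneric4
  Fermat.Agent.M15.DivConj4 Fermat.Agent.M15.DivIndep4 Fermat.Agent.J.DESC.NormalForm10
  Fermat.Agent.J.DESC.NormalFormInj10

universe u v w x

variable {k : Type u} {K : Type v} {Fk : Type w} {FK : Type x} [Field k] [Field K] [Field Fk]
  [Field FK] [Algebra k K] [Algebra k Fk] [Algebra K FK]
  [IsAlgClosed k] [CharZero k] [IsAlgClosed K] [CharZero K] {ι : Fk →+* FK}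
  (H : LHyp K FK) (hR : RiemannHyp K FK) (hι : IsConstExt (k := k) (K := K) ι) {x : Fk}
  (hx : FF.IsGen k x) {X : FK} (hX : FF.IsGen K X)
  (ρ : (K ≃ₐ[k] K) →* SemilinearAut K FK)
  (hbase : ∀ (σ : K ≃ₐ[k] K) (c : K), SemilinearAut.baseAut (ρ σ) c = σ c)
  (hfix : ∀ (σ : K ≃ₐ[k] K) (f : Fk), ρ σ • ι f = ι f)
  (P₀ : Place K FK)

/-! ### generic classes -/

/-- `Σ_S v - #S · P₀`. -/
def genDiv (S : Finset (Place K FK)) : Divisor K FK :=
  sumDiv S - Finsupp.single P₀ (S.card : ℤ)

include H in
theorem genDiv_mem_degZero (S : Finset (Place K FK)) :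
    genDiv P₀ S ∈ Divisor.degZero (K := K) (F := FK) := by
  rw [Divisor.mem_degZero, genDiv, map_sub, degree_sumDiv H, degree_single H, sub_self]

/-- **the class of `Σ_S v - #S · P₀`.** -/
def genClass (S : Finset (Place K FK)) : Pic0 K FK :=
  Pic0.mk ⟨genDiv P₀ S, genDiv_mem_degZero H P₀ S⟩

open Classical in
/-- equivariance of `genClass`. -/
theorem smul_genClass (g : SemilinearAut K FK) (hg : g • P₀ = P₀) (S : Finset (Place K FK)) :
    g • genClass H P₀ S = genClass H P₀ (S.image fun v => g • v) := by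
  rw [genClass, SemilinearAut.pic0_smul_mk, genClass]
  congr 1
  apply Subtype.ext
  rw [SemilinearAut.coe_degZeroSMulHom]
  show g • genDiv P₀ S = genDiv P₀ (S.image fun v => g • v)
  rw [genDiv, genDiv, smul_sub, smul_sumDiv, SemilinearAut.smul_single, hg,
    Finset.card_image_of_injective _ (MulAction.injective g)]

variable [HasCanonicalDivisor (K := K) (F := FK)]

include hι hx hX in
/-- Riemann: `l(D) ≥ deg D + 1 - g`. -/
theorem riemann_genus (D : Divisor K FK) :
    Divisor.degree D + 1 - (genus K FK : ℤ) ≤ (Module.finrank K (riemannRochSpace D) : ℤ) := by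
  have hX' := isGen_map hι hx hX
  have h2 := Fermat.Agent.RR.RRMain.riemann_roch_genus hX' (D_ne_zero hX')
    (canonW_apply hι hx hX) D
  have h3 : (0 : ℤ) ≤ (Module.finrank K (riemannRochSpace (canonicalDivisorOf (D_ne_zero hX') - D)) : ℤ) :=
    Int.natCast_nonneg _
  omega

include hι hx hX in
/-- the least pole order of a class is at most the genus. -/
theorem minPole_le_genus (D : Divisor K FK) (hD : Divisor.degree D = 0) :
    minPole H hR P₀ D ≤ genus K FK := by
  apply minPole_le
  intro hbot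
  have h1 := riemann_genus hι hx hX (shift P₀ D (genus K FK))
  rw [hbot, finrank_bot, degree_shift H, hD] at h1
  push_cast at h1
  omega

include hι hx hX in
theorem minPolePic_le_genus (u : Pic0 K FK) : minPolePic H hR P₀ u ≤ genus K FK :=
  minPole_le_genus H hR hι hx hX P₀ _
    (Divisor.mem_degZero.mp (Quotient.out u : Divisor.degZero (K := K) (F := FK)).2)

include hι hx hX hbase hfix in
/-- **the normal form of a generic class.** -/
theorem normalFormPic_genClass {S : Finset (Place K FK)} (hS : IsIndepGeneric (k := k) H ι x S)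
    (hcard : S.card = genus K FK) (hP₀ : ¬ IsGenericPlace ι P₀) :
    normalFormPic H hR P₀ (genClass H P₀ S) = sumDiv S := by
  classical
  have hdeg : Divisor.degree (genDiv P₀ S) = 0 := Divisor.mem_degZero.mp (genDiv_mem_degZero H P₀ S)
  rw [genClass, normalFormPic_mk]
  have hP₀S : P₀ ∉ S := fun h => hP₀ (hS.1 P₀ h)
  have h1 := finrank_L_sumDiv H hι hx hX ρ hbase hfix hS hcard
  have hone : (1 : FK) ∈ riemannRochSpace (sumDiv S) := by
    rw [mem_L_iff one_ne_zero]
    intro v
    have := sumDiv_nonneg S v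
    simp only [Finsupp.coe_zero, Pi.zero_apply] at this
    rw [v.ord_one]
    omega
  -- `#S ≤ minPole`
  have hm : S.card ≤ minPole H hR P₀ (genDiv P₀ S) := by
    by_contra hlt
    rw [not_le] at hlt
    have hne := L_minPole_ne_bot H hR P₀ (genDiv P₀ S)
    obtain ⟨f, hf, hf0⟩ := Submodule.exists_mem_ne_zero_of_ne_bot hne
    set m := minPole H hR P₀ (genDiv P₀ S) with hmdef
    have hfS : f ∈ riemannRochSpace (sumDiv S) := by
      refine L_mono ?_ hf
      intro v
      rw [shift, genDiv]
      simp only [Finsupp.coe_add, Finsupp.coe_sub, Pi.add_apply, Pi.sub_apply,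
        Finsupp.single_apply]
      split_ifs <;> omega
    obtain ⟨c, hc⟩ := (finrank_eq_one_iff_of_nonzero' (⟨1, hone⟩ : riemannRochSpace (sumDiv S))
      (by intro h0; exact one_ne_zero (congrArg Subtype.val h0))).mp h1 ⟨f, hfS⟩
    have hc' : f = algebraMap K FK c := by
      have := congrArg Subtype.val hc
      simp only [SetLike.val_smul] at this
      rw [← this, Algebra.smul_def, mul_one]
    have h2 := (mem_L_iff hf0).mp hf P₀
    rw [hc', FF.ord_algebraMap, shift, genDiv] at h2
    simp only [Finsupp.coe_add, Finsupp.coe_sub, Pi.add_apply, Pi.sub_apply,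
      Finsupp.single_apply, if_true] at h2
    rw [sumDiv_apply, if_neg hP₀S] at h2
    omega
  have hcl : sumDiv S - Finsupp.single P₀ ((S.card : ℕ) : ℤ) - genDiv P₀ S ∈
      Divisor.principal (K := K) (F := FK) := by
    rw [genDiv, sub_self]
    exact zero_mem _
  exact (eq_normalForm_of_nonneg H hR P₀ hdeg (sumDiv_nonneg S) hm hcl).2.symm

/-! ### (P4) -/

omit [IsAlgClosed k] [CharZero k] [IsAlgClosed K] [CharZero K] [HasCanonicalDivisor (K := K) (F := FK)] in
theorem injOn_of_indepOn {τ : Place K FK → K} {S : Set (Place K FK)}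
    (h : AlgebraicIndepOn k τ S) : Set.InjOn τ S := by
  intro a ha b hb hab
  have := h.injective (a₁ := ⟨a, ha⟩) (a₂ := ⟨b, hb⟩) hab
  exact congrArg Subtype.val this

omit [IsAlgClosed k] [CharZero k] [IsAlgClosed K] [CharZero K] [HasCanonicalDivisor (K := K) (F := FK)] in
theorem indepOn_image_iff {τ : Place K FK → K} {S : Set (Place K FK)} (hinj : Set.InjOn τ S) :
    AlgebraicIndepOn k τ S ↔ AlgebraicIndepOn k id (τ '' S) :=
  algebraicIndependent_image hinj

open Classical in
include hR hι hx hX hbase hfix in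
/-- **(P4)**. -/
theorem exists_eq_genClass (hP₀ : ¬ IsGenericPlace ι P₀) (hP₀fix : ∀ σ : K ≃ₐ[k] K, ρ σ • P₀ = P₀)
    {S : Finset (Place K FK)} (hS : IsIndepGeneric (k := k) H ι x S)
    (hcard : S.card = genus K FK) (u' : Pic0 K FK)
    (hFIN : ∀ L : IntermediateField k K, IsAlgClosed ↥L →
      (∀ σ ∈ L.fixingSubgroup, ρ σ • u' = u') →
      {y : Pic0 K FK | ∃ σ ∈ L.fixingSubgroup, ρ σ • genClass H P₀ S = y}.Finite) :
    ∃ S' : Finset (Place K FK), IsIndepGeneric (k := k) H ι x S' ∧ S'.card = genus K FK ∧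
      u' = genClass H P₀ S' := by
  set τ : Place K FK → K := fun v => phi H ι v x with hτ
  set D' := normalFormPic H hR P₀ u' with hD'
  have hD'nn : 0 ≤ D' := normalFormPic_nonneg H hR P₀ u'
  have hdeg : Divisor.degree D' = (minPolePic H hR P₀ u' : ℤ) := degree_normalFormPic H hR P₀ u'
  have hm'g : minPolePic H hR P₀ u' ≤ genus K FK := minPolePic_le_genus H hR hι hx hX P₀ u'
  set G' : Finset (Place K FK) := D'.support.filter fun v => IsGenericPlace ι v with hG'
  set L := acl (k := k) (τ '' (G' : Set (Place K FK))) with hL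
  -- (3) `G_L` fixes the places of `D'`
  have hfixv : ∀ σ ∈ L.fixingSubgroup, ∀ v ∈ D'.support, ρ σ • v = v := by
    intro σ hσ v hv
    by_cases hgen : IsGenericPlace ι v
    · have hvG' : v ∈ G' := Finset.mem_filter.mpr ⟨hv, hgen⟩
      exact smul_eq_self H hι hx hX ρ hbase hfix L hgen (subset_acl _ ⟨v, hvG', rfl⟩) hσ
    · rw [isGenericPlace_iff hι hx hX, not_not] at hgen
      obtain ⟨w, rfl⟩ := hgen
      exact smul_extPlace hι hx hX (ρ σ) (hfix σ) w
  have hfixD : ∀ σ ∈ L.fixingSubgroup, ρ σ • D' = D' := by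
    intro σ hσ
    conv_lhs => rw [← Finsupp.sum_single D', Finsupp.sum, Finset.smul_sum]
    conv_rhs => rw [← Finsupp.sum_single D', Finsupp.sum]
    refine Finset.sum_congr rfl fun v hv => ?_
    rw [SemilinearAut.smul_single, hfixv σ hσ v hv]
  -- (4) `G_L` fixes `u'`
  have hfixu : ∀ σ ∈ L.fixingSubgroup, ρ σ • u' = u' := fun σ hσ =>
    (smul_eq_iff_smul_normalFormPic_eq H hR P₀ (ρ σ) (hP₀fix σ) u').mpr (hfixD σ hσ)
  -- (5) finite orbit of `u`
  have hfinu := hFIN L inferInstance hfixu
  -- (6) finite orbits of the places of `S`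
  have hnf : ∀ σ : K ≃ₐ[k] K, normalFormPic H hR P₀ (ρ σ • genClass H P₀ S) =
      sumDiv (S.image fun v => ρ σ • v) := by
    intro σ
    rw [smul_genClass H P₀ (ρ σ) (hP₀fix σ)]
    exact normalFormPic_genClass H hR hι hx hX ρ hbase hfix P₀
      (hS.image_smul H ρ hbase hfix σ)
      (by rw [Finset.card_image_of_injective _ (MulAction.injective (ρ σ)), hcard]) hP₀
  have hfinS : ∀ v ∈ S, {u : Place K FK | ∃ σ ∈ L.fixingSubgroup, ρ σ • v = u}.Finite := by
    intro v hv
    have h1 : (⋃ E ∈ (normalFormPic H hR P₀) '' {y : Pic0 K FK |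
        ∃ σ ∈ L.fixingSubgroup, ρ σ • genClass H P₀ S = y},
        ((E : Divisor K FK).support : Set (Place K FK))).Finite :=
      Set.Finite.biUnion (hfinu.image _) fun E _ => E.support.finite_toSet
    refine h1.subset ?_
    rintro _ ⟨σ, hσ, rfl⟩
    rw [Set.mem_iUnion₂]
    refine ⟨_, ⟨_, ⟨σ, hσ, rfl⟩, rfl⟩, ?_⟩
    rw [hnf σ, Finset.mem_coe, Finsupp.mem_support_iff, sumDiv_apply,
      if_pos (Finset.mem_image_of_mem _ hv)]
    exact one_ne_zero
  -- (7) the values of `S` lie in `L`
  have hSL : ∀ v ∈ S, τ v ∈ L := fun v hv =>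
    phi_mem_of_finite_orbit H ρ hbase hfix L (hS.1 v hv) (hfinS v hv) x
  -- (8) counting
  have hinjS : Set.InjOn τ (S : Set (Place K FK)) := injOn_of_indepOn hS.2
  have hI : AlgebraicIndepOn k id (τ '' (S : Set (Place K FK))) := (indepOn_image_iff hinjS).mp hS.2
  have hcardI : (τ '' (S : Set (Place K FK))).encard = (genus K FK : ℕ∞) := by
    rw [hinjS.encard_image, Set.encard_coe_eq_coe_finsetCard, hcard]
  have hsupp_le : (D'.support.card : ℤ) ≤ Divisor.degree D' := by
    rw [degree_eq_sum H]
    have := Finset.card_nsmul_le_sum D'.support (fun v => D' v) 1 (fun v hv => by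
      have h1 := hD'nn v
      have h2 := Finsupp.mem_support_iff.mp hv
      simp only [Finsupp.coe_zero, Pi.zero_apply] at h1
      omega)
    simpa using this
  have hG'card : G'.card ≤ D'.support.card := Finset.card_filter_le _ _
  have hTcard : (G'.image τ).card ≤ G'.card := Finset.card_image_le
  have hT_eq : (τ '' (G' : Set (Place K FK))) = ((G'.image τ : Finset K) : Set K) := by
    rw [Finset.coe_image]
  have hcardT : (τ '' (G' : Set (Place K FK))).encard ≤ (τ '' (S : Set (Place K FK))).encard := by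
    rw [hcardI, hT_eq, Set.encard_coe_eq_coe_finsetCard]
    have : (G'.image τ).card ≤ genus K FK := by
      have : (D'.support.card : ℤ) ≤ (genus K FK : ℤ) := by omega
      omega
    exact_mod_cast this
  obtain ⟨hTind, hTcard'⟩ := indep_of_isAlgebraic_adjoin hI
    (by rw [hT_eq]; exact Finset.finite_toSet _)
    (by
      rintro _ ⟨v, hv, rfl⟩
      exact mem_acl_iff'.mp (hSL v hv)) hcardT
  rw [hcardI, hT_eq, Set.encard_coe_eq_coe_finsetCard] at hTcard'
  have hTg : (G'.image τ).card = genus K FK := by exact_mod_cast hTcard'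
  have hsuppg : (D'.support.card : ℤ) ≤ (genus K FK : ℤ) := by omega
  have hG'g : G'.card = genus K FK := by omega
  have hsupp_g : D'.support.card = genus K FK := by omega
  have hmin_g : minPolePic H hR P₀ u' = genus K FK := by omega
  have hinjG' : Set.InjOn τ (G' : Set (Place K FK)) :=
    Finset.card_image_iff.mp (by rw [hTg, hG'g])
  have hIG : IsIndepGeneric (k := k) H ι x G' :=
    ⟨fun v hv => (Finset.mem_filter.mp hv).2, (indepOn_image_iff hinjG').mpr hTind⟩
  -- (9) `D' = Σ_{G'} v`
  have hG'supp : G' = D'.support :=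
    Finset.eq_of_subset_of_card_le (Finset.filter_subset _ _) (by omega)
  have hD'one : ∀ v ∈ D'.support, D' v = 1 := by
    have hsum : ∑ v ∈ D'.support, (D' v - 1) = 0 := by
      rw [Finset.sum_sub_distrib, ← degree_eq_sum H, hdeg, hmin_g]
      simp [hsupp_g]
    have hnn : ∀ v ∈ D'.support, 0 ≤ D' v - 1 := by
      intro v hv
      have h1 := hD'nn v
      have h2 := Finsupp.mem_support_iff.mp hv
      simp only [Finsupp.coe_zero, Pi.zero_apply] at h1
      omega
    intro v hv
    have := (Finset.sum_eq_zero_iff_of_nonneg hnn).mp hsum v hv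
    omega
  have hD'eq : D' = sumDiv G' := by
    ext v
    rw [sumDiv_apply, hG'supp]
    by_cases hv : v ∈ D'.support
    · rw [if_pos hv, hD'one v hv]
    · rw [if_neg hv]
      exact Finsupp.notMem_support_iff.mp hv
  -- (10) conclusion
  refine ⟨G', hIG, hG'g, ?_⟩
  rw [← mk_normalFormPic' H hR P₀ u', genClass]
  congr 1
  apply Subtype.ext
  show normalFormPic H hR P₀ u' - Finsupp.single P₀ ((minPolePic H hR P₀ u' : ℕ) : ℤ) = genDiv P₀ G'
  rw [genDiv, ← hD', hD'eq, hmin_g, hG'g]

end Fermat.Agent.M15.DivCount4
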