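/-
Programme M15 (S15), chapter (DIV), algebraic route (helper4), file 7: THE THEOREM.

Setting of `J/DESC/ExtPic22` (`k ⊆ K` algebraically closed of characteristic zero, `ι : Fk → FK` a
constant field extension, `Aut(K/k)` acting on `FK` through `ρ`), `g = genus K FK`.  Assume `K / k`
contains `g` algebraically independent elements and `Pic⁰(FK)[n]` is finite.  Then:
* `exists_isIndepGeneric` : there is an independent generic set `S` with `#S = g`;
* (P6) `exists_zsmul_eq_genClass` : the generic class `u = genClass P₀ S` is `n`-divisible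
  (`n • u` is again a generic class, hence a conjugate `σ u` of `u`, and `u = n • σ⁻¹ u`);
* (P7) **`exists_zsmul_eq_extPic0`** : every class coming from `Fk` is `n`-divisible in `Pic⁰(FK)`
  (`u + x` is a generic class, hence `= τ u`, and `x = τ u - u = n • (τ w - w)`).
(Weil's generic point argument.)
-/
import Mathlib
import Fermat.Agent.M15.DivCount4
import Fermat.Agent.RR.LHypGen

set_option autoImplicit false
set_option linter.unusedSectionVars false
set_option linter.style.longLine false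
set_option linter.style.haveILetI false

noncomputable section

open AlgebraicCurve IntermediateField KaehlerDifferential

namespace Fermat.Agent.M15.DivMain4

open Fermat.Agent.X0 Fermat.Agent.X0.FF Fermat.Agent.RR.LSpace Fermat.Agent.J.DESC.ConstExt24
  Fermat.Agent.J.DESC.FiniteOrbit22 Fermat.Agent.J.DESC.ExtPic22
  Fermat.Agent.M15.DivDefs4 Fermat.Agent.M15.DivField4 Fermat.Agent.M15.DivGeneric4
  Fermat.Agent.M15.DivConj4 Fermat.Agent.M15.DivIndep4 Fermat.Agent.M15.DivCount4
  Fermat.Agent.J.DESC.NormalForm10 Fermat.Agent.J.DESC.NormalFormInj10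

universe u v w x

variable {k : Type u} {K : Type v} {Fk : Type w} {FK : Type x} [Field k] [Field K] [Field Fk]
  [Field FK] [Algebra k K] [Algebra k Fk] [Algebra K FK]
  [IsAlgClosed k] [CharZero k] [IsAlgClosed K] [CharZero K] {ι : Fk →+* FK}
  (H : LHyp K FK) (hR : RiemannHyp K FK) (hι : IsConstExt (k := k) (K := K) ι) {x : Fk}
  (hx : FF.IsGen k x) {X : FK} (hX : FF.IsGen K X)
  (ρ : (K ≃ₐ[k] K) →* SemilinearAut K FK)
  (hbase : ∀ (σ : K ≃ₐ[k] K) (c : K), SemilinearAut.baseAut (ρ σ) c = σ c)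
  (hfix : ∀ (σ : K ≃ₐ[k] K) (f : Fk), ρ σ • ι f = ι f)
  (P₀ : Place K FK)

/-! ### existence of independent generic sets -/

open Classical in
include hι hx hX in
theorem exists_isIndepGeneric {m : ℕ} (t : Fin m → K) (ht : AlgebraicIndependent k t) :
    ∃ S : Finset (Place K FK), IsIndepGeneric (k := k) H ι x S ∧ S.card = m := by
  have hX' := isGen_map hι hx hX
  have htk : ∀ i, t i ∉ Set.range (algebraMap k K) := by
    rintro i ⟨c, hc⟩
    apply ht.transcendental i
    rw [← hc]
    exact isAlgebraic_algebraMap c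
  choose v hv using fun i => exists_zero hX' (t i)
  have hτ : ∀ i, phi H ι (v i) x = t i := fun i => phi_of_zero H hι hx hX (hv i)
  have hinj : Function.Injective v := by
    intro i j hij
    apply ht.injective
    rw [← hτ i, ← hτ j, hij]
  refine ⟨Finset.univ.image v, ⟨?_, ?_⟩, ?_⟩
  · intro u hu
    obtain ⟨i, -, rfl⟩ := Finset.mem_image.mp hu
    exact isGenericPlace_of_zero hι hx hX (htk i) (hv i)
  · rw [Finset.coe_image, Finset.coe_univ, Set.image_univ]
    let e : Fin m ≃ ↥(Set.range v) := Equiv.ofInjective v hinj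
    show AlgebraicIndependent k fun u : ↥(Set.range v) => phi H ι (u : Place K FK) x
    rw [← algebraicIndependent_equiv e]
    convert ht using 1
    funext i
    exact hτ i
  · rw [Finset.card_image_of_injective _ hinj, Finset.card_univ, Fintype.card_fin]

section Canon

variable [HasCanonicalDivisor (K := K) (F := FK)]

/-! ### (P6): generic classes are divisible -/

open Classical in
include hR hι hx hX hbase hfix in
/-- a class satisfying the finiteness hypothesis of (P4) is a conjugate of `genClass P₀ S`. -/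
theorem exists_smul_genClass_eq (hP₀ : ¬ IsGenericPlace ι P₀)
    (hP₀fix : ∀ σ : K ≃ₐ[k] K, ρ σ • P₀ = P₀)
    {S : Finset (Place K FK)} (hS : IsIndepGeneric (k := k) H ι x S)
    (hcard : S.card = genus K FK) (u' : Pic0 K FK)
    (hFIN : ∀ L : IntermediateField k K, IsAlgClosed ↥L →
      (∀ σ ∈ L.fixingSubgroup, ρ σ • u' = u') →
      {y : Pic0 K FK | ∃ σ ∈ L.fixingSubgroup, ρ σ • genClass H P₀ S = y}.Finite) :
    ∃ σ : K ≃ₐ[k] K, ρ σ • genClass H P₀ S = u' := by
  obtain ⟨S', hS', hcard', rfl⟩ :=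
    exists_eq_genClass H hR hι hx hX ρ hbase hfix P₀ hP₀ hP₀fix hS hcard u' hFIN
  obtain ⟨σ, hσ⟩ := exists_smul_image_eq H hι hx hX ρ hbase hfix (genus K FK) hS hS' hcard hcard'
  exact ⟨σ, by rw [smul_genClass H P₀ (ρ σ) (hP₀fix σ), hσ]⟩

include hR hι hx hX hbase hfix in
/-- **(P6)**: a generic class is `n`-divisible. -/
theorem exists_zsmul_eq_genClass (hP₀ : ¬ IsGenericPlace ι P₀)
    (hP₀fix : ∀ σ : K ≃ₐ[k] K, ρ σ • P₀ = P₀)
    {S : Finset (Place K FK)} (hS : IsIndepGeneric (k := k) H ι x S)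
    (hcard : S.card = genus K FK) (n : ℕ) [Finite (Pic0.torsion K FK n)] :
    ∃ w : Pic0 K FK, (n : ℤ) • w = genClass H P₀ S := by
  set u := genClass H P₀ S with hu
  obtain ⟨σ, hσ⟩ := exists_smul_genClass_eq H hR hι hx hX ρ hbase hfix P₀ hP₀ hP₀fix hS hcard
    ((n : ℤ) • u) (by
      intro L _ hL
      have hfin : ((fun t : Pic0 K FK => u + t) ''
          ((Pic0.torsion K FK n : AddSubgroup (Pic0 K FK)) : Set (Pic0 K FK))).Finite :=
        (Set.toFinite _).image _
      refine hfin.subset ?_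
      rintro _ ⟨τ, hτ, rfl⟩
      refine ⟨ρ τ • u - u, ?_, add_sub_cancel _ _⟩
      rw [SetLike.mem_coe, Pic0.mem_torsion, zsmul_sub, ← SemilinearAut.smul_zsmul, hL τ hτ,
        sub_self])
  refine ⟨(ρ σ)⁻¹ • u, ?_⟩
  rw [← SemilinearAut.smul_zsmul, ← hσ, inv_smul_smul]

/-! ### (P7): classes coming from `Fk` are divisible -/

include hι hx hX hbase hfix in
/-- **(DIV), abstract form**: every class of `Pic⁰(Fk)` is `n`-divisible in `Pic⁰(FK)`, provided
`K / k` contains `genus` algebraically independent elements and `Pic⁰(FK)[n]` is finite. -/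
theorem exists_zsmul_eq_extPic0_aux (n : ℕ) [Finite (Pic0.torsion K FK n)]
    (hbig : ∃ t : Fin (genus K FK) → K, AlgebraicIndependent k t) (y : Pic0 k Fk) :
    ∃ z' : Pic0 K FK, (n : ℤ) • z' = extPic0 hι hx hX y := by
  have H : LHyp K FK := Fermat.Agent.RR.LHypGen.lHyp_of_isGen hX
  have hR : RiemannHyp K FK := Fermat.Agent.RR.LHypGen.riemann_inequality_of_isGen hX
  have Hk : LHyp k Fk := Fermat.Agent.RR.LHypGen.lHyp_of_isGen hx
  obtain ⟨w₀⟩ := Hk.nonempty
  set P₀ := extPlace ι hι hX w₀ with hP₀def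
  have hP₀ : ¬ IsGenericPlace ι P₀ := by
    rw [isGenericPlace_iff hι hx hX, not_not]
    exact ⟨w₀, rfl⟩
  have hP₀fix : ∀ σ : K ≃ₐ[k] K, ρ σ • P₀ = P₀ := fun σ =>
    smul_extPlace hι hx hX (ρ σ) (hfix σ) w₀
  obtain ⟨t, ht⟩ := hbig
  obtain ⟨S, hS, hcard⟩ := exists_isIndepGeneric H hι hx hX t ht
  set u := genClass H P₀ S with hu
  obtain ⟨w, hw⟩ := exists_zsmul_eq_genClass H hR hι hx hX ρ hbase hfix P₀ hP₀ hP₀fix hS hcard n
  set x' := extPic0 hι hx hX y with hx'
  have hx'fix : ∀ σ : K ≃ₐ[k] K, ρ σ • x' = x' := fun σ =>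
    smul_extPic0 hι hx hX (ρ σ) (hfix σ) y
  obtain ⟨σ, hσ⟩ := exists_smul_genClass_eq H hR hι hx hX ρ hbase hfix P₀ hP₀ hP₀fix hS hcard
    (u + x') (by
      intro L _ hL
      refine (Set.finite_singleton u).subset ?_
      rintro _ ⟨τ, hτ, rfl⟩
      have h1 := hL τ hτ
      rw [smul_add, hx'fix] at h1
      rw [Set.mem_singleton_iff]
      exact add_right_cancel h1)
  refine ⟨ρ σ • w - w, ?_⟩
  rw [zsmul_sub, ← SemilinearAut.smul_zsmul, hw, hσ]
  abel

end Canon

include hι hx hX hbase hfix in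
/-- **(DIV), abstract form** (Weil's generic point argument): every class of `Pic⁰(Fk)` is
`n`-divisible in `Pic⁰(FK)`, provided `K / k` has infinite transcendence degree and `Pic⁰(FK)[n]` is
finite. -/
theorem exists_zsmul_eq_extPic0 (n : ℕ) [Finite (Pic0.torsion K FK n)]
    (hbig : ∀ m : ℕ, ∃ t : Fin m → K, AlgebraicIndependent k t) (y : Pic0 k Fk) :
    ∃ z' : Pic0 K FK, (n : ℤ) • z' = extPic0 hι hx hX y := by
  haveI := hasCanonicalDivisor (Fermat.Agent.RR.LHypGen.lHyp_of_isGen hX) hι hx hX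
  exact exists_zsmul_eq_extPic0_aux hι hx hX ρ hbase hfix n (hbig _) y

end Fermat.Agent.M15.DivMain4
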