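/-
Programme M15 (S15), chapter (DIV), algebraic route (helper4), file 8: THE CONCRETE THEOREM
**`J₀(N)(ℚ̄)` is a divisible group.**

`jzero_divisible (N) [NeZero N] (n) (hn : n ≠ 0) (x : JZero N) : ∃ y, n • y = x`
from `DivMain4.exists_zsmul_eq_extPic0` (Weil's generic point argument for `ℚ̄ ⊆ ℂ`),
`DivDescentB0.jzero_divisible_of_rational` (descent of division points) and
`FiniteTorsion15.finite_torsionC` (finiteness of `Pic⁰(F_ℂ)[n]`); the transcendence degree of `ℂ / ℚ̄` is
infinite by cardinality.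
-/
import Mathlib
import Fermat.Agent.M15.DivMain4
import Fermat.Agent.M15.DivDescentB0
import Fermat.Agent.ES.KUM.FiniteTorsion15

set_option autoImplicit false
set_option linter.unusedSectionVars false
set_option linter.style.longLine false
set_option linter.style.haveILetI false

noncomputable section

namespace Fermat.Agent.M15.DivFinal4

open AlgebraicCurve Fermat.Agent.X0 Fermat.Agent.J.DESC.ConstExt24
  Fermat.Agent.J.DESC.ExtPic22
open ModularCurve Fermat.Agent.J.DESC.DescentFinal24 Fermat.Agent.J.DESC.DescentC24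
  Fermat.Agent.ES.KUM.FieldL25
open Cardinal

attribute [local instance] instAlgebraQbarComplex instTowerQbarComplex

/-- `ℂ / ℚ̄` has infinite transcendence degree. -/
theorem exists_algebraicIndependent (m : ℕ) : ∃ t : Fin m → ℂ, AlgebraicIndependent Qb t := by
  obtain ⟨ι, b, hb⟩ := exists_isTranscendenceBasis' (R := Qb) (A := ℂ)
  have hQ : #Qb ≤ ℵ₀ := by
    haveI : Algebra.IsAlgebraic ℚ (AlgebraicClosure ℚ) := AlgebraicClosure.isAlgebraic ℚ
    have h1 := Algebra.IsAlgebraic.cardinalMk_le_max ℚ (AlgebraicClosure ℚ)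
    rwa [Cardinal.mkRat, max_self] at h1
  have hC : ℵ₀ < #ℂ := by
    rw [Cardinal.mk_complex]
    exact Cardinal.aleph0_lt_continuum
  have h2 := IsAlgClosed.cardinal_eq_cardinal_transcendence_basis_of_aleph0_lt' b hb hQ hC
  have hinf : Infinite ι := by
    rw [← Cardinal.aleph0_le_mk_iff, ← h2]
    exact hC.le
  obtain ⟨e⟩ : Nonempty (Fin m ↪ ι) :=
    ⟨(⟨fun i => (i : ℕ), Fin.val_injective⟩ : Fin m ↪ ℕ).trans (Infinite.natEmbedding ι)⟩
  exact ⟨b ∘ e, hb.1.comp e e.injective⟩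

variable (N : ℕ) [NeZero N]

/-- every `ℚ̄`-rational class is `n`-divisible in `Pic⁰(F_ℂ)`. -/
theorem exists_zsmul_eq_extPic0C (n : ℕ) (hn : n ≠ 0) (y : JZero N) :
    ∃ z' : Pic0 ℂ (FCx N), (n : ℤ) • z' = extPic0C N y := by
  haveI : NeZero n := ⟨hn⟩
  haveI : Finite (Pic0.torsion ℂ (FCx N) n) := Fermat.Agent.ES.KUM.FiniteTorsion15.finite_torsionC N n
  exact Fermat.Agent.M15.DivMain4.exists_zsmul_eq_extPic0 (isConstExt_bcQC N) (isGen_jL Qb N)
    (isGen_jL ℂ N) (rhoC N) (baseAut_rhoC N) (rhoC_smul_bcQC N) n exists_algebraicIndependent y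

/-- **(DIV)**: `J₀(N)(ℚ̄)` is divisible. -/
theorem jzero_divisible (n : ℕ) (hn : n ≠ 0) (x : JZero N) : ∃ y : JZero N, n • y = x := by
  haveI : NeZero n := ⟨hn⟩
  haveI : Finite (Pic0.torsion ℂ (FCx N) n) := Fermat.Agent.ES.KUM.FiniteTorsion15.finite_torsionC N n
  exact Fermat.Agent.M15.DivDescentB0.jzero_divisible_of_rational N n
    (exists_zsmul_eq_extPic0C N n hn) x

end Fermat.Agent.M15.DivFinal4
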