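/-
Programme M15 (target S15), chapter R2 (TORIC), helper3: **`Pic⁰` of a rational function field is
trivial**, and `J₀(1)(ℚ̄) = 0`.

`K` algebraically closed of characteristic zero, `F = K(x)` (i.e. `x` a transcendental generator with
`[F : K(x)] = 1`).  Then `x` has a unique pole `v_∞`, every other place `v` is the unique zero of
`x - a_v` for a unique `a_v : K`, `div (x - a_v) = v - v_∞`, and every divisor of degree `0` is
principal (`isPrincipal_of_degree_eq_zero`); hence `Pic0 K F` is trivial (`pic0_eq_zero`).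

Instance: `jzero_one_eq_zero : ∀ y : JZero 1, y = 0` (`[ℚ̄(X₀(1)) : ℚ̄(j)] = ψ(1) = 1`, `X0/Degree`).
-/
import Mathlib
import Fermat.Agent.X0.FFSum
import Fermat.Agent.RED.TOP.FbarFacts20

set_option autoImplicit false
set_option linter.unusedSectionVars false

open AlgebraicCurve IntermediateField

namespace Fermat.Agent.M15.PicZero3

open Fermat.Agent.X0 Fermat.Agent.X0.FF

/-! ### a sum of positive integers equal to `1` has one term -/

theorem unique_of_finsum_eq_one {ι : Type*} {s : Set ι} (hs : s.Finite) (g : ι → ℤ)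
    (hg : ∀ i ∈ s, 1 ≤ g i) (hsum : ∑ᶠ (i : ι) (_ : i ∈ s), g i = 1) :
    ∃ i₀ ∈ s, g i₀ = 1 ∧ ∀ i ∈ s, i = i₀ := by
  classical
  rw [finsum_mem_eq_finite_toFinset_sum g hs] at hsum
  have hcard : (hs.toFinset.card : ℤ) ≤ 1 := by
    have h1 : ∑ _i ∈ hs.toFinset, (1 : ℤ) ≤ ∑ i ∈ hs.toFinset, g i :=
      Finset.sum_le_sum fun i hi => hg i (hs.mem_toFinset.1 hi)
    rw [Finset.sum_const, nsmul_eq_mul, mul_one, hsum] at h1
    exact h1
  have hne : hs.toFinset.Nonempty := by
    rw [Finset.nonempty_iff_ne_empty]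
    intro h
    rw [h, Finset.sum_empty] at hsum
    exact zero_ne_one hsum
  have hcard1 : hs.toFinset.card = 1 := by
    have := Finset.card_pos.2 hne
    omega
  obtain ⟨i₀, hi₀⟩ := Finset.card_eq_one.1 hcard1
  refine ⟨i₀, hs.mem_toFinset.1 (by rw [hi₀]; exact Finset.mem_singleton_self _), ?_, ?_⟩
  · rw [hi₀, Finset.sum_singleton] at hsum
    exact hsum
  · intro i hi
    have : i ∈ hs.toFinset := hs.mem_toFinset.2 hi
    rw [hi₀] at this
    exact Finset.mem_singleton.1 this

variable {K F : Type*} [Field K] [Field F] [Algebra K F] [IsAlgClosed K] [CharZero K]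

/-! ### the unique zero and the unique pole of a generator of degree one -/

theorem exists_unique_zero {y : F} (hy : IsGen K y) (h1 : Module.finrank K⟮y⟯ F = 1) :
    ∃ v₀ : Place K F, v₀.ord y = 1 ∧ ∀ w : Place K F, 0 < w.ord y → w = v₀ := by
  have hsum := sum_ord_zeros hy
  rw [h1] at hsum
  obtain ⟨v₀, -, h0, huniq⟩ := unique_of_finsum_eq_one (finite_zeros hy) (fun v => v.ord y)
    (fun v hv => hv) (by exact_mod_cast hsum)
  exact ⟨v₀, h0, fun w hw => huniq w hw⟩

theorem exists_unique_pole {y : F} (hy : IsGen K y) (h1 : Module.finrank K⟮y⟯ F = 1) :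
    ∃ v₀ : Place K F, v₀.ord y = -1 ∧ ∀ w : Place K F, w.ord y < 0 → w = v₀ := by
  have h1' : Module.finrank K⟮y⁻¹⟯ F = 1 := by rw [adjoin_inv]; exact h1
  obtain ⟨v₀, h0, huniq⟩ := exists_unique_zero hy.inv h1'
  refine ⟨v₀, ?_, fun w hw => huniq w ?_⟩
  · rw [v₀.ord_inv] at h0
    omega
  · rw [w.ord_inv]
    omega

/-! ### the divisor of `x - a` -/

/-- for every place `v` other than the pole `v_∞` of `x`, the divisor `v - v_∞` is principal. -/
theorem single_sub_single_mem {x : F} (hx : IsGen K x) (h1 : Module.finrank K⟮x⟯ F = 1)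
    {vinf : Place K F} (hpole : ∀ w : Place K F, w.ord x < 0 → w = vinf)
    (v : Place K F) :
    (Finsupp.single v 1 - Finsupp.single vinf 1 : Divisor K F) ∈
      Divisor.principal (K := K) (F := F) := by
  classical
  by_cases hv : v = vinf
  · rw [hv, sub_self]
    exact zero_mem _
  -- `x` is regular at `v`
  have hvx : 0 ≤ v.ord x := by
    by_contra h
    exact hv (hpole v (not_le.1 h))
  obtain ⟨c, hc | hc⟩ := exists_ord_sub_pos hx v (mem_of_ord_nonneg v hvx)
  · exact absurd (hc ▸ isAlgebraic_algebraMap (R := K) (A := F) c) hx.transcendental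
  set y : F := x - algebraMap K F c with hy_def
  have hy : IsGen K y := hx.sub_algebraMap c
  have hy1 : Module.finrank K⟮y⟯ F = 1 := by rw [hy_def, adjoin_sub_algebraMap]; exact h1
  obtain ⟨v₀, hv₀, hzero⟩ := exists_unique_zero hy hy1
  obtain ⟨vinf', hvinf', hpole'⟩ := exists_unique_pole hy hy1
  have hvv₀ : v = v₀ := hzero v hc
  have hinf : vinf' = vinf := by
    apply hpole
    have hxy : x = y + algebraMap K F c := by rw [hy_def, sub_add_cancel]
    have h2 : vinf'.ord (y + algebraMap K F c) = vinf'.ord y :=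
      ord_add_eq_of_lt vinf' hy.ne_zero (by rw [hvinf', ord_algebraMap]; norm_num)
    rw [hxy, h2, hvinf']
    norm_num
  refine ⟨y, hy.ne_zero, fun w => ?_⟩
  rw [Finsupp.sub_apply, Finsupp.single_apply, Finsupp.single_apply]
  by_cases hwv : v = w
  · subst hwv
    rw [if_pos rfl, if_neg (fun h => hv h.symm), sub_zero, hvv₀, hv₀]
  · rw [if_neg hwv]
    by_cases hwi : vinf = w
    · subst hwi
      rw [if_pos rfl, ← hinf, hvinf']
      norm_num
    · rw [if_neg hwi, sub_zero]
      -- `w` is neither a zero nor a pole of `y`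
      rcases lt_trichotomy (w.ord y) 0 with h | h | h
      · exact absurd ((hpole' w h).trans hinf).symm hwi
      · exact h.symm
      · exact absurd ((hzero w h).trans hvv₀.symm).symm hwv

/-! ### divisors of degree zero are principal -/

theorem degree_eq_sum {x : F} (hx : IsGen K x) (D : Divisor K F) :
    Divisor.degree D = ∑ v ∈ D.support, D v := by
  rw [Divisor.degree, Finsupp.liftAddHom_apply, Finsupp.sum]
  refine Finset.sum_congr rfl fun v _ => ?_
  rw [AddMonoidHom.coe_mulRight, deg_eq_one hx v, Nat.cast_one]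
  exact mul_one _

theorem isPrincipal_of_degree_eq_zero {x : F} (hx : IsGen K x) (h1 : Module.finrank K⟮x⟯ F = 1)
    (D : Divisor K F) (hD : Divisor.degree D = 0) : D ∈ Divisor.principal (K := K) (F := F) := by
  classical
  obtain ⟨vinf, -, hpole⟩ := exists_unique_pole hx h1
  have hdec : D = ∑ v ∈ D.support,
      D v • (Finsupp.single v 1 - Finsupp.single vinf 1 : Divisor K F) := by
    have h2 : ∑ v ∈ D.support, D v • (Finsupp.single vinf 1 : Divisor K F) = 0 := by
      rw [← Finset.sum_smul, ← degree_eq_sum hx, hD, zero_smul]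
    have h3 : ∑ v ∈ D.support, D v • (Finsupp.single v 1 : Divisor K F) = D := by
      conv_rhs => rw [← Finsupp.sum_single D]
      rw [Finsupp.sum]
      refine Finset.sum_congr rfl fun v _ => ?_
      rw [Finsupp.smul_single, smul_eq_mul, mul_one]
    simp only [smul_sub]
    rw [Finset.sum_sub_distrib, h2, h3, sub_zero]
  rw [hdec]
  exact AddSubgroup.sum_mem _ fun v _ =>
    AddSubgroup.zsmul_mem _ (single_sub_single_mem hx h1 hpole v) _

/-- **`Pic⁰` of a rational function field is trivial.** -/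
theorem pic0_eq_zero {x : F} (hx : IsGen K x) (h1 : Module.finrank K⟮x⟯ F = 1) (y : Pic0 K F) :
    y = 0 := by
  obtain ⟨D, rfl⟩ := Pic0.mk_surjective y
  show (QuotientAddGroup.mk D : Pic0 K F) = 0
  rw [QuotientAddGroup.eq_zero_iff]
  exact isPrincipal_of_degree_eq_zero hx h1 D.1 D.2

/-! ### level one -/

/-- **`J₀(1)(ℚ̄) = 0`.** -/
theorem jzero_one_eq_zero (y : ModularCurve.JZero 1) : y = 0 := by
  have hx := Fermat.Agent.RED.TOP.FbarFacts20.isGen_j 1
  have h1 := Degree.finrank_adjoin 1 (realizeData 1) (cuspData 1)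
  rw [ModularCurve.dedekindPsi_one] at h1
  exact pic0_eq_zero hx h1 y

end Fermat.Agent.M15.PicZero3
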