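/-
Programme M15 (target S15), chapter R2 (TORIC), helper3: **the lattice inequality** (pure algebra).

Setting: `Λ` an `R`-module, `f : Λ → Λ` linear ("Frobenius"), `p : ℤ`, with
`(f² - p²)(f² - 1)² = 0`; `𝒩 ≤ ker (f² - p²)` ("the image of monodromy"); `W` an abelian group with a
surjection `π : Λ → W` whose kernel is `m Λ` (`m = ℓ ^ k`), and `g : W → W` induced by `f`.

For `S = {w ∈ W | g w - p w ∈ π 𝒩}` (the classes of `W / π 𝒩` on which Frobenius acts through `p`):

* `exists_mem_of_mem_S` : every `w ∈ S` satisfies `c² • w ∈ π (ker (f² - p²))`, `c = (p² - 1)²`;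
* `card_S_le` : `#S ≤ #W[c²] · #π(ker (f² - p²))`.

No hypothesis on ranks, no duality.  This is the only "count" the bounded-defect descent needs at
the bad prime `p`: `#W[c²]` is bounded independently of `k`, and `#π(ker (f² - p²)) = ℓ ^ (k λ)`.
-/
import Mathlib

set_option autoImplicit false

open Polynomial

namespace Fermat.Agent.M15.ToricLattice3

noncomputable section

variable {R : Type*} [CommRing R]

/-! ### Four polynomials -/

/-- `P₁ = (X² - 1)²`. -/
def P1 (R : Type*) [CommRing R] : R[X] := (X ^ 2 - 1) ^ 2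

/-- `P₂ = X² - p²`. -/
def P2 (p : R) : R[X] := X ^ 2 - C (p ^ 2)

/-- `Q₂ = X² + p² - 2`. -/
def Q2 (p : R) : R[X] := X ^ 2 + C (p ^ 2) - 2

/-- `Q = (X + p)(X² - 1 + (p² - 1))`, a quasi-inverse of `X - p` modulo `P₁`. -/
def Qinv (p : R) : R[X] := (X + C p) * (X ^ 2 - 1 + C (p ^ 2 - 1))

/-- the constant `c = (p² - 1)²`. -/
def cst (p : R) : R := (p ^ 2 - 1) ^ 2

theorem P1_sub (p : R) : P1 R - P2 p * Q2 p = C (cst p) := by
  simp only [P1, P2, Q2, cst, map_pow, map_sub, map_one]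
  ring

theorem lin_mul_Qinv (p : R) : (X - C p) * Qinv p = P1 R - C (cst p) := by
  simp only [P1, Qinv, cst, map_pow, map_sub, map_one]
  ring

theorem key_identity (p : R) :
    C (cst p) * C (cst p) =
      C (cst p) * P1 R - Q2 p * (P2 p * P1 R) + (Qinv p * (P2 p * Q2 p)) * (X - C p) := by
  linear_combination (-(C (cst p))) * P1_sub p + (-(P2 p * Q2 p)) * lin_mul_Qinv p

/-! ### The core inclusion -/

variable {Λ : Type*} [AddCommGroup Λ] [Module R Λ]

theorem aeval_lin (f : Module.End R Λ) (p : R) (x : Λ) :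
    aeval f (X - C p) x = f x - p • x := by
  simp [Module.algebraMap_end_apply]

/-- **core**: if `(f² - p²)(f² - 1)² = 0`, `n ∈ ker (f² - p²)` and `f x - p x = n + m y`, then
`c² x ∈ ker (f² - p²) + m Λ`. -/
theorem core (f : Module.End R Λ) (p : R) (hf : aeval f (P2 p * P1 R) = 0) {x n y : Λ} (m : R)
    (hn : aeval f (P2 p) n = 0) (hx : f x - p • x = n + m • y) :
    ∃ a z : Λ, aeval f (P2 p) a = 0 ∧ (cst p * cst p) • x = a + m • z := by
  refine ⟨cst p • aeval f (P1 R) x, aeval f (Qinv p * (P2 p * Q2 p)) y, ?_, ?_⟩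
  · rw [map_smul]
    have h : aeval f (P2 p) (aeval f (P1 R) x) = aeval f (P2 p * P1 R) x := by
      rw [map_mul, Module.End.mul_apply]
    rw [h, hf, LinearMap.zero_apply, smul_zero]
  · have h1 : (cst p * cst p) • x = aeval f (C (cst p) * C (cst p)) x := by
      rw [← C_mul, aeval_C, Module.algebraMap_end_apply]
    have hL : aeval f (X - C p) x = n + m • y := by rw [aeval_lin, hx]
    have hsplit : aeval f (C (cst p) * P1 R - Q2 p * (P2 p * P1 R) +
        (Qinv p * (P2 p * Q2 p)) * (X - C p)) x =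
        cst p • aeval f (P1 R) x - aeval f (Q2 p) (aeval f (P2 p * P1 R) x) +
          aeval f (Qinv p * (P2 p * Q2 p)) (aeval f (X - C p) x) := by
      rw [map_add, map_sub, map_mul (aeval f) (C (cst p)), map_mul (aeval f) (Q2 p),
        map_mul (aeval f) (Qinv p * (P2 p * Q2 p)), aeval_C]
      simp only [LinearMap.add_apply, LinearMap.sub_apply, Module.End.mul_apply,
        Module.algebraMap_end_apply]
    have h3 : aeval f (Qinv p * (P2 p * Q2 p)) n = 0 := by
      have h : Qinv p * (P2 p * Q2 p) = (Qinv p * Q2 p) * P2 p := by ring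
      rw [h, map_mul, Module.End.mul_apply, hn, map_zero]
    rw [h1, key_identity p, hsplit, hf, LinearMap.zero_apply, map_zero, sub_zero, hL, map_add, h3,
      zero_add, map_smul]

/-! ### Counting -/

section Count

variable (f : Module.End R Λ) (p : ℤ) (𝒩 : Submodule R Λ)
variable {W : Type*} [AddCommGroup W] (π : Λ →+ W) (g : W →+ W) (m : ℕ)

/-- the integer `c² = (p² - 1)⁴`. -/
def cc (p : ℤ) : ℤ := cst p * cst p

/-- `Λ_p = ker (f² - p²)`. -/
def Lp : Submodule R Λ := LinearMap.ker (aeval f (P2 ((p : ℤ) : R)))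

/-- `S = {w | g w - p w ∈ π 𝒩}`. -/
def S : AddSubgroup W :=
  (AddSubgroup.map π 𝒩.toAddSubgroup).comap (g - (p : ℤ) • AddMonoidHom.id W)

/-- `T = {w | c² w ∈ π Λ_p}`. -/
def T : AddSubgroup W :=
  (AddSubgroup.map π (Lp (R := R) f p).toAddSubgroup).comap (cc p • AddMonoidHom.id W)

theorem mem_S_iff (w : W) : w ∈ S p 𝒩 π g ↔ ∃ n ∈ 𝒩, π n = g w - p • w := by
  simp [S, AddSubgroup.mem_comap, AddSubgroup.mem_map]

theorem mem_T_iff (w : W) :
    w ∈ T (R := R) f p π ↔ ∃ a ∈ Lp (R := R) f p, π a = cc p • w := by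
  simp [T, AddSubgroup.mem_comap, AddSubgroup.mem_map]

variable {f p 𝒩 π g m}

theorem cast_cst (p : ℤ) : ((cst p : ℤ) : R) = cst ((p : ℤ) : R) := by
  simp [cst]

/-- **`S ≤ T`.** -/
theorem S_le_T (hf : aeval f (P2 ((p : ℤ) : R) * P1 R) = 0)
    (h𝒩 : 𝒩 ≤ Lp (R := R) f p)
    (hπ : Function.Surjective π)
    (hker : ∀ x : Λ, π x = 0 → ∃ y : Λ, x = ((m : ℕ) : R) • y)
    (hm : ∀ y : Λ, π (((m : ℕ) : R) • y) = 0)
    (hg : ∀ x : Λ, π (f x) = g (π x)) :
    S p 𝒩 π g ≤ T (R := R) f p π := by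
  intro w hw
  obtain ⟨n, hn, hnw⟩ := (mem_S_iff p 𝒩 π g w).1 hw
  obtain ⟨x, rfl⟩ := hπ w
  have h1 : π (f x - ((p : ℤ) : R) • x - n) = 0 := by
    rw [map_sub, map_sub, hg, hnw, Int.cast_smul_eq_zsmul, map_zsmul]
    abel
  obtain ⟨y, hy⟩ := hker _ h1
  have hx : f x - ((p : ℤ) : R) • x = n + ((m : ℕ) : R) • y := by
    rw [← hy]; abel
  obtain ⟨a, z, ha, haz⟩ := core f ((p : ℤ) : R) hf ((m : ℕ) : R) (h𝒩 hn) hx
  refine (mem_T_iff f p π _).2 ⟨a, ha, ?_⟩
  have h2 : π ((cst ((p : ℤ) : R) * cst ((p : ℤ) : R)) • x) = cc p • π x := by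
    rw [← cast_cst, ← Int.cast_mul, Int.cast_smul_eq_zsmul, map_zsmul]
    rfl
  rw [← h2, haz, map_add, hm, add_zero]

/-- **the count**: `#S ≤ #W[c²] · #π(Λ_p)`. -/
theorem card_S_le [Finite W] (hf : aeval f (P2 ((p : ℤ) : R) * P1 R) = 0)
    (h𝒩 : 𝒩 ≤ Lp (R := R) f p)
    (hπ : Function.Surjective π)
    (hker : ∀ x : Λ, π x = 0 → ∃ y : Λ, x = ((m : ℕ) : R) • y)
    (hm : ∀ y : Λ, π (((m : ℕ) : R) • y) = 0)
    (hg : ∀ x : Λ, π (f x) = g (π x)) :
    Nat.card ↥(S p 𝒩 π g) ≤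
      Nat.card ↥(cc p • AddMonoidHom.id W).ker *
        Nat.card ↥(AddSubgroup.map π (Lp (R := R) f p).toAddSubgroup) := by
  classical
  have hST := S_le_T (R := R) hf h𝒩 hπ hker hm hg
  have h1 : Nat.card ↥(S p 𝒩 π g) ≤ Nat.card ↥(T (R := R) f p π) :=
    Nat.card_le_card_of_injective (AddSubgroup.inclusion hST) (AddSubgroup.inclusion_injective hST)
  refine h1.trans ?_
  -- the homomorphism `T → π Λ_p`, `w ↦ c² w`
  let ψ : ↥(T (R := R) f p π) →+ ↥(AddSubgroup.map π (Lp (R := R) f p).toAddSubgroup) :=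
    { toFun := fun w => ⟨cc p • (w : W), AddSubgroup.mem_comap.1 w.2⟩
      map_zero' := by ext; simp
      map_add' := fun a b => by ext; simp [smul_add] }
  have hψker : ∀ w : ↥(T (R := R) f p π), w ∈ ψ.ker → (w : W) ∈ (cc p • AddMonoidHom.id W).ker := by
    intro w hw
    have : ψ w = 0 := hw
    have h0 : cc p • (w : W) = 0 := congrArg Subtype.val this
    simpa [AddMonoidHom.mem_ker] using h0
  have h2 : Nat.card ↥(T (R := R) f p π) = Nat.card ↥ψ.ker * Nat.card ↥ψ.range := by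
    rw [AddSubgroup.card_eq_card_quotient_mul_card_addSubgroup ψ.ker, mul_comm,
      Nat.card_congr (QuotientAddGroup.quotientKerEquivRange ψ).toEquiv]
  rw [h2]
  refine Nat.mul_le_mul ?_ ?_
  · exact Nat.card_le_card_of_injective
      (fun w : ↥ψ.ker => (⟨((w : ↥(T (R := R) f p π)) : W), hψker _ w.2⟩ :
        ↥(cc p • AddMonoidHom.id W).ker))
      (fun a b h => by
        have h' := congrArg Subtype.val h
        dsimp only at h'
        exact Subtype.ext (Subtype.ext h'))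
  · exact Nat.card_le_card_of_injective (fun w : ↥ψ.range => (w : ↥(AddSubgroup.map π _)))
      Subtype.val_injective

end Count

end

end Fermat.Agent.M15.ToricLattice3
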