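/-
Programme M15 (target S15), chapter R2 (TORIC), helper3: **the monodromy lands in the toric part**,
pure algebra.

`Λ` a torsion-free module over a commutative ring `R`, `f N : End_R Λ`, `p : R` with

* `(f² - p²)(f² - 1)² = 0` (the Frobenius relation), and
* `f N = p N f` (the tame relation `φ σ φ⁻¹ = σ^p` for `σ = 1 + N`, `N² = 0`).

Then `(f² - p²) N = 0`, provided `p (p² - 1)(p⁴ - 1) ≠ 0`: **`P2_mul_eq_zero`**.

Proof: with `F = f²`, `s = p²` one has `q(F) N = N q(sF)`; hence `N P(F) = 0` and `N P(sF) = 0` for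
`P = (X - s)(X - 1)²`, and the two polynomials `P`, `P(sX)` have gcd `X - 1` up to the constant
`s (s - 1)(s² - 1)²`.  So `N (F - 1) = 0` and `(F - s) N = s N (F - 1) = 0`.

Also: `one_add_pow_of_sq_zero` (`(1 + N)^j = 1 + j N` if `N² = 0`) and `mul_eq_smul_mul_of_conj`
(the relation `f N = p N f` from `f (1 + N) = (1 + N)^p f`).
-/
import Mathlib
import Fermat.Agent.M15.ToricLattice3

set_option autoImplicit false
set_option linter.unusedSectionVars false

open Polynomial

namespace Fermat.Agent.M15.ToricAlg3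

open Fermat.Agent.M15.ToricLattice3

variable {R : Type*} [CommRing R] {Λ : Type*} [AddCommGroup Λ] [Module R Λ]

/-- `(1 + N)^j = 1 + j N` if `N² = 0`. -/
theorem one_add_pow_of_sq_zero {N : Module.End R Λ} (hN : N * N = 0) (j : ℕ) :
    (1 + N) ^ j = 1 + j • N := by
  induction j with
  | zero => simp
  | succ j ih =>
    rw [pow_succ, ih, mul_add, mul_one, add_mul, one_mul, smul_mul_assoc, hN, smul_zero, add_zero,
      succ_nsmul]
    abel

/-- `f (1 + N) = (1 + N)^p f` and `N² = 0` give `f N = p N f`. -/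
theorem mul_eq_smul_mul_of_conj {f N : Module.End R Λ} (hN : N * N = 0) (p : ℕ)
    (h : f * (1 + N) = (1 + N) ^ p * f) : f * N = (p : R) • (N * f) := by
  rw [one_add_pow_of_sq_zero hN, mul_add, mul_one, add_mul, one_mul, smul_mul_assoc] at h
  rw [Nat.cast_smul_eq_nsmul]
  exact add_left_cancel h

/-- the Bezout identity: `a P - m P' = c (X - 1)`. -/
theorem bezout (s : R) :
    (C ((s - 1) * (s * (s + 2)) ^ 2) + C (s ^ 2) * (C (s * (s + 2)) * X
        + C (s ^ 2 + s + 1 - s * (s + 2) * (s + 1)))) * ((X - C s) * (X - 1) ^ 2)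
      - (C (s * (s + 2)) * X + C (s ^ 2 + s + 1 - s * (s + 2) * (s + 1)))
        * ((X - 1) * (C s * X - 1) ^ 2)
      = C ((s - 1) * (s ^ 2 - 1) ^ 2) * (X - 1 : R[X]) := by
  simp only [C_mul, C_add, C_sub, C_pow, C_1, C_ofNat]
  ring

variable [IsDomain R] [Module.IsTorsionFree R Λ]

/-- **the monodromy lands in `ker (f² - p²)`.** -/
theorem P2_mul_eq_zero (f N : Module.End R Λ) (p : R) (hp : p ≠ 0)
    (hc : (p ^ 2 - 1) * ((p ^ 2) ^ 2 - 1) ^ 2 ≠ 0)
    (hf : aeval f (P2 p * P1 R) = 0) (hN : f * N = p • (N * f)) :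
    aeval f (P2 p) * N = 0 := by
  set F : Module.End R Λ := f * f with hF
  set s : R := p ^ 2 with hs
  have hs0 : s ≠ 0 := pow_ne_zero 2 hp
  -- the twisted commutation
  have hFN : F * N = s • (N * F) := by
    rw [hF, mul_assoc, hN, mul_smul_comm, ← mul_assoc, hN, smul_mul_assoc, smul_smul, ← pow_two,
      mul_assoc]
  have h1 : (F - 1) * N = N * (s • F - 1) := by
    rw [sub_mul, one_mul, hFN, mul_sub, mul_one, mul_smul_comm]
  have h2 : (F - s • (1 : Module.End R Λ)) * N = s • (N * (F - 1)) := by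
    rw [sub_mul, smul_mul_assoc, one_mul, hFN, mul_sub, mul_one, smul_sub]
  -- the Frobenius relation in terms of `F`
  have h6 : aeval f (P2 p) = F - s • (1 : Module.End R Λ) := by
    rw [P2, map_sub, aeval_X_pow, aeval_C, Algebra.algebraMap_eq_smul_one, pow_two]
  have h7 : aeval f (P1 R) = (F - 1) * (F - 1) := by
    rw [P1, map_pow, map_sub, aeval_X_pow, map_one, pow_two f, pow_two]
  have hP : (F - s • (1 : Module.End R Λ)) * ((F - 1) * (F - 1)) = 0 := by
    rw [← h6, ← h7, ← map_mul]
    exact hf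
  have e1 : aeval F ((X - C s) * (X - 1) ^ 2 : R[X]) = 0 := by
    simp only [map_mul, map_sub, map_pow, aeval_X, aeval_C, map_one,
      Algebra.algebraMap_eq_smul_one]
    rw [pow_two]
    exact hP
  -- `N P(F) = 0`
  have hA : N * aeval F ((X - C s) * (X - 1) ^ 2 : R[X]) = 0 := by rw [e1, mul_zero]
  -- `N P(sF) = 0`
  have hB : N * aeval F ((X - 1) * (C s * X - 1) ^ 2 : R[X]) = 0 := by
    have e2 : aeval F ((X - 1) * (C s * X - 1) ^ 2 : R[X]) = (F - 1) * ((s • F - 1) * (s • F - 1)) := by
      simp only [map_mul, map_sub, map_pow, aeval_X, aeval_C, map_one,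
        Algebra.algebraMap_eq_smul_one, smul_mul_assoc, one_mul]
      rw [pow_two]
    have h3 : (F - s • (1 : Module.End R Λ)) * ((F - 1) * (F - 1)) * N =
        s • (N * ((F - 1) * ((s • F - 1) * (s • F - 1)))) := by
      calc (F - s • (1 : Module.End R Λ)) * ((F - 1) * (F - 1)) * N
          = (F - s • (1 : Module.End R Λ)) * ((F - 1) * ((F - 1) * N)) := by
            simp only [mul_assoc]
        _ = (F - s • (1 : Module.End R Λ)) * ((F - 1) * (N * (s • F - 1))) := by
            rw [h1]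
        _ = (F - s • (1 : Module.End R Λ)) * (((F - 1) * N) * (s • F - 1)) := by
            simp only [mul_assoc]
        _ = ((F - s • (1 : Module.End R Λ)) * N) * ((s • F - 1) * (s • F - 1)) := by
            rw [h1]; simp only [mul_assoc]
        _ = s • (N * ((F - 1) * ((s • F - 1) * (s • F - 1)))) := by
            rw [h2, smul_mul_assoc]; simp only [mul_assoc]
    rw [hP, zero_mul] at h3
    rw [e2]
    rcases smul_eq_zero.1 h3.symm with h | h
    · exact absurd h hs0
    · exact h
  -- Bezout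
  have hcomm : ∀ a b : R[X], N * aeval F b = 0 → N * aeval F (a * b) = 0 := by
    intro a b hb
    rw [mul_comm a b, map_mul, ← mul_assoc, hb, zero_mul]
  have hbez : N * aeval F _ = N * aeval F _ := congrArg (fun q : R[X] => N * aeval F q) (bezout s)
  rw [map_sub, mul_sub, hcomm _ _ hA, hcomm _ _ hB, sub_zero] at hbez
  have h4 : N * aeval F (C ((s - 1) * (s ^ 2 - 1) ^ 2) * (X - 1 : R[X])) =
      ((s - 1) * (s ^ 2 - 1) ^ 2) • (N * (F - 1)) := by
    rw [map_mul, aeval_C, map_sub, aeval_X, map_one, Algebra.algebraMap_eq_smul_one,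
      smul_mul_assoc, one_mul, mul_smul_comm]
  rw [h4] at hbez
  have h5 : N * (F - 1) = 0 := by
    rcases smul_eq_zero.1 hbez.symm with h | h
    · exact absurd h hc
    · exact h
  rw [h6, h2, h5, smul_zero]

end Fermat.Agent.M15.ToricAlg3
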