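/-
Programme M15 (target S15), chapter R2 (TORIC), helper3: **the group theory of the ramified classes**
(Mathlib only).

`D` a group acting on a finite abelian group `M` through `ρ : D →* AddMonoid.End M`, `I ≤ D`,
`φ, τ ∈ D`, `p : ℕ`, and a finite family of 1-cocycles `c x : D → M` (`x : X`).

* `IsCoc`, `IsCoc.apply_pow`, `IsCoc.pow_sub_mem` : cocycle identities on powers;
* `NM ρ τ = (ρ τ - 1) M`, `Sset ρ φ τ p = {w | ρ φ w - p w ∈ NM}`, `MI ρ I = M^I`;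
* **`card_mul_le`** : if `τ ∈ I` generates the image of `I` under `(ρ, c)` (`hgen`), the tame relation
  `(ρ, c)(φ τ φ⁻¹) = (ρ, c)(τ ^ p)` holds, and the restrictions to `I` of the `c x` are pairwise
  non-cohomologous, then `#X · #M ≤ #S · #M^I`;
* `aff` : the affine action `D →* Perm (Y → M)`, `σ ↦ (a ↦ ρ σ ∘ a + c · σ)`, which remembers
  `(ρ σ, c · σ)` (`aff_eq_iff`), and `aff_pow_eq_one` : unipotent elements have `ℓ`-power order;
* `exists_gen` : a generator of a finite cyclic image.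
-/
import Mathlib

set_option autoImplicit false
set_option linter.unusedSectionVars false

open Finset

namespace Fermat.Agent.M15.ToricGroup3

variable {D M : Type*} [Group D] [AddCommGroup M] (ρ : D →* AddMonoid.End M)

/-! ### cocycles -/

/-- a 1-cocycle of `D` with values in `M`. -/
def IsCoc (c : D → M) : Prop := ∀ g h : D, c (g * h) = c g + ρ g (c h)

variable {ρ}

theorem IsCoc.apply_one {c : D → M} (hc : IsCoc ρ c) : c 1 = 0 := by
  have h := hc 1 1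
  rw [mul_one, map_one] at h
  have h' : c 1 = c 1 + c 1 := h
  have : c 1 + 0 = c 1 + c 1 := by rw [add_zero]; exact h'
  exact (add_left_cancel this).symm

theorem IsCoc.apply_pow {c : D → M} (hc : IsCoc ρ c) (τ : D) (j : ℕ) :
    c (τ ^ j) = ∑ i ∈ range j, (ρ τ ^ i) (c τ) := by
  induction j with
  | zero => rw [pow_zero, hc.apply_one, range_zero, sum_empty]
  | succ j ih =>
    rw [pow_succ, hc, ih, sum_range_succ, map_pow]

theorem IsCoc.apply_inv {c : D → M} (hc : IsCoc ρ c) (g : D) : c g⁻¹ = -(ρ g⁻¹ (c g)) := by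
  have h := hc g⁻¹ g
  rw [inv_mul_cancel, hc.apply_one] at h
  exact eq_neg_of_add_eq_zero_left h.symm

theorem IsCoc.sub {c c' : D → M} (hc : IsCoc ρ c) (hc' : IsCoc ρ c') :
    IsCoc ρ (fun g => c g - c' g) := fun g h => by
  show c (g * h) - c' (g * h) = c g - c' g + ρ g (c h - c' h)
  rw [hc, hc', map_sub]
  abel

/-! ### the three subgroups -/

variable (ρ)

/-- `N M = (ρ τ - 1) M`. -/
def NM (τ : D) : AddSubgroup M := AddMonoidHom.range (ρ τ - 1 : AddMonoid.End M)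

/-- `S = {w | ρ φ w - p w ∈ N M}`. -/
def Sset (φ τ : D) (p : ℕ) : AddSubgroup M :=
  (NM ρ τ).comap (ρ φ - (p : AddMonoid.End M) : AddMonoid.End M)

/-- `M^I`. -/
def MI (I : Subgroup D) : AddSubgroup M where
  carrier := {m | ∀ σ ∈ I, ρ σ m = m}
  zero_mem' := fun σ _ => map_zero (ρ σ)
  add_mem' := fun {a b} ha hb σ hσ => by rw [map_add, ha σ hσ, hb σ hσ]
  neg_mem' := fun {a} ha σ hσ => by rw [map_neg, ha σ hσ]

variable {ρ}

theorem mem_NM_iff {τ : D} {z : M} : z ∈ NM ρ τ ↔ ∃ m : M, ρ τ m - m = z := by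
  constructor
  · rintro ⟨m, rfl⟩
    exact ⟨m, rfl⟩
  · rintro ⟨m, rfl⟩
    exact ⟨m, rfl⟩

theorem natCast_end_apply (p : ℕ) (w : M) : ((p : AddMonoid.End M)) w = p • w := by
  induction p with
  | zero => simp
  | succ p ih =>
    rw [Nat.cast_succ, succ_nsmul, ← ih]
    rfl

theorem mem_Sset_iff {φ τ : D} {p : ℕ} {w : M} :
    w ∈ Sset ρ φ τ p ↔ ρ φ w - p • w ∈ NM ρ τ := by
  show ρ φ w - ((p : AddMonoid.End M)) w ∈ NM ρ τ ↔ _
  rw [natCast_end_apply]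

theorem mem_MI_iff {I : Subgroup D} {m : M} : m ∈ MI ρ I ↔ ∀ σ ∈ I, ρ σ m = m := Iff.rfl

/-- `(t ^ n - 1) z ∈ (t - 1) M`. -/
theorem pow_sub_one_mem (τ : D) (n : ℕ) (z : M) : (ρ τ ^ n) z - z ∈ NM ρ τ := by
  have h := mul_geom_sum (ρ τ) n
  refine ⟨(∑ i ∈ range n, ρ τ ^ i : AddMonoid.End M) z, ?_⟩
  have h' := congrArg (fun e : AddMonoid.End M => e z) h
  exact h'

/-- `c (τ ^ n) - n c τ ∈ (ρ τ - 1) M`. -/
theorem IsCoc.pow_sub_mem {c : D → M} (hc : IsCoc ρ c) (τ : D) (n : ℕ) :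
    c (τ ^ n) - n • c τ ∈ NM ρ τ := by
  rw [hc.apply_pow]
  have h : ∑ i ∈ range n, (ρ τ ^ i) (c τ) - n • c τ = ∑ i ∈ range n, ((ρ τ ^ i) (c τ) - c τ) := by
    rw [sum_sub_distrib, sum_const, card_range]
  rw [h]
  exact AddSubgroup.sum_mem _ fun i _ => pow_sub_one_mem τ i (c τ)

/-- `N M` is stable under `ρ φ`, given the tame relation for `ρ`. -/
theorem rho_mem_NM {φ τ : D} {p : ℕ} (hfrob : ρ (φ * τ * φ⁻¹) = ρ τ ^ p) {n : M}
    (hn : n ∈ NM ρ τ) : ρ φ n ∈ NM ρ τ := by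
  obtain ⟨m, rfl⟩ := mem_NM_iff.1 hn
  have h1 : ρ φ (ρ τ m) = (ρ τ ^ p) (ρ φ m) := by
    rw [← hfrob]
    show (ρ φ * ρ τ) m = (ρ (φ * τ * φ⁻¹) * ρ φ) m
    rw [← map_mul, ← map_mul, inv_mul_cancel_right]
  rw [map_sub, h1]
  exact pow_sub_one_mem τ p _

/-! ### the main inequality -/

section Main

variable {I : Subgroup D} {φ τ : D} {p : ℕ} {X : Type*} {c : X → D → M}

/-- the ramified part of a cocycle at the generator lies in `S`. -/
theorem coc_mem_Sset (hc : ∀ x, IsCoc ρ (c x)) (hfrob1 : ρ (φ * τ * φ⁻¹) = ρ τ ^ p)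
    (hfrob2 : ∀ x, c x (φ * τ * φ⁻¹) = c x (τ ^ p)) (x : X) {n : M} (hn : n ∈ NM ρ τ) :
    c x τ + n ∈ Sset ρ φ τ p := by
  rw [mem_Sset_iff]
  -- `ρ φ (c τ) = c (τ^p) + ρ τ ^ p (c φ) - c φ`
  have h1 : c x (φ * τ) = c x φ + ρ φ (c x τ) := hc x φ τ
  have h2 : c x (φ * τ) = c x (τ ^ p) + (ρ τ ^ p) (c x φ) := by
    have e : φ * τ = (φ * τ * φ⁻¹) * φ := by group
    rw [e, hc x, hfrob2, hfrob1]
  have h3 : ρ φ (c x τ) = c x (τ ^ p) + (ρ τ ^ p) (c x φ) - c x φ := by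
    rw [← h2, h1]; abel
  have h4 : ρ φ (c x τ + n) - p • (c x τ + n) =
      (c x (τ ^ p) - p • c x τ) + ((ρ τ ^ p) (c x φ) - c x φ) + (ρ φ n - p • n) := by
    rw [map_add, h3, smul_add]; abel
  rw [h4]
  refine (NM ρ τ).add_mem ((NM ρ τ).add_mem ((hc x).pow_sub_mem τ p) (pow_sub_one_mem τ p _)) ?_
  exact (NM ρ τ).sub_mem (rho_mem_NM hfrob1 hn) ((NM ρ τ).nsmul_mem hn p)

/-- if `c x τ - c y τ ∈ N M` then `c x - c y` is a coboundary on `I`. -/
theorem exists_cobound (hc : ∀ x, IsCoc ρ (c x))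
    (hgen : ∀ σ ∈ I, ∃ j : ℕ, ρ σ = ρ τ ^ j ∧ ∀ x, c x σ = c x (τ ^ j)) (x y : X)
    (h : c x τ - c y τ ∈ NM ρ τ) : ∃ m : M, ∀ σ ∈ I, c x σ - c y σ = ρ σ m - m := by
  obtain ⟨m, hm⟩ := mem_NM_iff.1 h
  refine ⟨m, fun σ hσ => ?_⟩
  obtain ⟨j, hρ, hcj⟩ := hgen σ hσ
  rw [hcj x, hcj y, (hc x).apply_pow, (hc y).apply_pow, ← sum_sub_distrib, hρ]
  have h1 : ∀ i ∈ range j, (ρ τ ^ i) (c x τ) - (ρ τ ^ i) (c y τ) =
      (ρ τ ^ (i + 1)) m - (ρ τ ^ i) m := by
    intro i _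
    rw [← map_sub, ← hm, map_sub, pow_succ]
    rfl
  rw [sum_congr rfl h1, sum_range_sub (fun i => (ρ τ ^ i) m), pow_zero]
  rfl

variable [Finite M]

theorem card_eq_MI_mul_NM (hτ : τ ∈ I) (hgen : ∀ σ ∈ I, ∃ j : ℕ, ρ σ = ρ τ ^ j) :
    Nat.card M = Nat.card ↥(MI ρ I) * Nat.card ↥(NM ρ τ) := by
  set N : M →+ M := (ρ τ - 1 : AddMonoid.End M) with hN
  have h1 : Nat.card M = Nat.card ↥N.ker * Nat.card ↥N.range := by
    rw [AddSubgroup.card_eq_card_quotient_mul_card_addSubgroup N.ker, mul_comm,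
      Nat.card_congr (QuotientAddGroup.quotientKerEquivRange N).toEquiv]
  have h2 : N.ker = MI ρ I := by
    ext m
    rw [AddMonoidHom.mem_ker, mem_MI_iff]
    have hNm : N m = ρ τ m - m := rfl
    rw [hNm, sub_eq_zero]
    constructor
    · intro h σ hσ
      obtain ⟨j, hj⟩ := hgen σ hσ
      rw [hj]
      clear hj
      induction j with
      | zero => rfl
      | succ j ih => rw [pow_succ]; show (ρ τ ^ j) (ρ τ m) = m; rw [h, ih]
    · intro h
      exact h τ hτ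
  rw [h1, h2]
  rfl

/-- **the main inequality**: `#X · #M ≤ #S · #M^I`. -/
theorem card_mul_le [Finite X] (hc : ∀ x, IsCoc ρ (c x)) (hτ : τ ∈ I)
    (hgen : ∀ σ ∈ I, ∃ j : ℕ, ρ σ = ρ τ ^ j ∧ ∀ x, c x σ = c x (τ ^ j))
    (hfrob1 : ρ (φ * τ * φ⁻¹) = ρ τ ^ p) (hfrob2 : ∀ x, c x (φ * τ * φ⁻¹) = c x (τ ^ p))
    (hinj : ∀ x y, (∃ m : M, ∀ σ ∈ I, c x σ - c y σ = ρ σ m - m) → x = y) :
    Nat.card X * Nat.card M ≤ Nat.card ↥(Sset ρ φ τ p) * Nat.card ↥(MI ρ I) := by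
  have h1 := card_eq_MI_mul_NM (ρ := ρ) hτ (fun σ hσ => (hgen σ hσ).imp fun j hj => hj.1)
  -- the injection `X × N M → S`
  let F : X × ↥(NM ρ τ) → ↥(Sset ρ φ τ p) := fun z =>
    ⟨c z.1 τ + (z.2 : M), coc_mem_Sset hc hfrob1 hfrob2 z.1 z.2.2⟩
  have hF : Function.Injective F := by
    rintro ⟨x, n⟩ ⟨y, n'⟩ hxy
    have h2 : c x τ + (n : M) = c y τ + (n' : M) := congrArg Subtype.val hxy
    have h3 : c x τ - c y τ = (n' : M) - (n : M) := by
      rw [sub_eq_sub_iff_add_eq_add, h2, add_comm]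
    have h4 : c x τ - c y τ ∈ NM ρ τ := by rw [h3]; exact (NM ρ τ).sub_mem n'.2 n.2
    have hxy' : x = y := hinj x y (exists_cobound hc hgen x y h4)
    subst hxy'
    have h5 : (n : M) = (n' : M) := add_left_cancel h2
    exact Prod.ext rfl (Subtype.ext h5)
  have h2 : Nat.card (X × ↥(NM ρ τ)) ≤ Nat.card ↥(Sset ρ φ τ p) :=
    Nat.card_le_card_of_injective F hF
  rw [Nat.card_prod] at h2
  calc Nat.card X * Nat.card M
      = Nat.card X * Nat.card ↥(NM ρ τ) * Nat.card ↥(MI ρ I) := by rw [h1]; ring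
    _ ≤ Nat.card ↥(Sset ρ φ τ p) * Nat.card ↥(MI ρ I) := Nat.mul_le_mul_right _ h2

end Main

/-! ### the affine action -/

section Aff

variable {Y : Type*} (c : Y → D → M) (hc : ∀ y, IsCoc ρ (c y))

/-- `a ↦ ρ σ ∘ a + c · σ`. -/
def affFun (ρ : D →* AddMonoid.End M) (c : Y → D → M) (σ : D) : Function.End (Y → M) :=
  fun a y => ρ σ (a y) + c y σ

include hc in
theorem affFun_mul (σ σ' : D) : affFun ρ c (σ * σ') = affFun ρ c σ * affFun ρ c σ' := by
  funext a y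
  show ρ (σ * σ') (a y) + c y (σ * σ') = ρ σ (ρ σ' (a y) + c y σ') + c y σ
  rw [hc y, map_mul, map_add]
  show ρ σ (ρ σ' (a y)) + _ = _
  abel

include hc in
theorem affFun_one : affFun ρ c 1 = 1 := by
  funext a y
  show ρ 1 (a y) + c y 1 = a y
  rw [(hc y).apply_one, map_one, add_zero]
  rfl

/-- the affine action as a homomorphism to the symmetric group. -/
def aff : D →* Equiv.Perm (Y → M) :=
  MonoidHom.toHomPerm
    { toFun := affFun ρ c
      map_one' := affFun_one c hc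
      map_mul' := affFun_mul c hc }

theorem aff_apply (σ : D) (a : Y → M) (y : Y) : aff c hc σ a y = ρ σ (a y) + c y σ := rfl

/-- the affine action remembers the cocycles, and `ρ` if one of the cocycles vanishes. -/
theorem aff_eq_iff {σ σ' : D} (y₀ : Y) (h₀ : ∀ g, c y₀ g = 0) (h : aff c hc σ = aff c hc σ') :
    ρ σ = ρ σ' ∧ ∀ y, c y σ = c y σ' := by
  have hc' : ∀ y, c y σ = c y σ' := by
    intro y
    have := congrFun (congrFun (congrArg (fun e : Equiv.Perm (Y → M) => (e : (Y → M) → (Y → M))) h)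
      (fun _ => 0)) y
    simpa [aff_apply] using this
  refine ⟨?_, hc'⟩
  ext m
  have := congrFun (congrFun (congrArg (fun e : Equiv.Perm (Y → M) => (e : (Y → M) → (Y → M))) h)
    (fun _ => m)) y₀
  simpa [aff_apply, h₀] using this

/-- a unipotent element acts with `n`-power order, if `n` kills `M`. -/
theorem aff_pow_eq_one {σ : D} (hu : ∀ m : M, ρ σ (ρ σ m) + m = ρ σ m + ρ σ m) {n : ℕ}
    (hn : ∀ m : M, n • m = 0) : aff c hc σ ^ (n * n) = 1 := by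
  -- `ρ σ ^ j m = m + j • (ρ σ m - m)`
  have h1 : ∀ (j : ℕ) (m : M), (ρ σ ^ j) m = m + j • (ρ σ m - m) := by
    intro j
    induction j with
    | zero => intro m; simp
    | succ j ih =>
      intro m
      rw [pow_succ]
      show (ρ σ ^ j) (ρ σ m) = _
      rw [ih, succ_nsmul]
      have h2 : ρ σ (ρ σ m) - ρ σ m = ρ σ m - m := by
        rw [sub_eq_sub_iff_add_eq_add]; exact hu m
      rw [h2]; abel
  have h2 : ρ (σ ^ n) = 1 := by
    ext m
    rw [map_pow, h1, hn, add_zero]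
    rfl
  have h3 : ∀ y, c y (σ ^ (n * n)) = 0 := by
    intro y
    rw [pow_mul, (hc y).apply_pow, h2]
    simp only [one_pow, AddMonoid.End.coe_one, id_eq, sum_const, card_range]
    exact hn _
  rw [← map_pow]
  ext a y
  rw [aff_apply, h3, add_zero, pow_mul, map_pow, h2, one_pow]
  rfl

end Aff

/-! ### generators of finite cyclic images -/

theorem exists_gen {H : Type*} [Group H] [Finite H] (F : D →* H) (I : Subgroup D)
    (hcyc : IsCyclic (F.comp I.subtype).range) :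
    ∃ τ ∈ I, ∀ σ ∈ I, ∃ j : ℕ, F σ = F τ ^ j := by
  obtain ⟨⟨g, hgR⟩, hg⟩ := hcyc.exists_generator
  obtain ⟨τ, hτ⟩ := hgR
  refine ⟨(τ : D), τ.2, fun σ hσ => ?_⟩
  have hmem := hg ⟨F σ, ⟨⟨σ, hσ⟩, rfl⟩⟩
  rw [← mem_powers_iff_mem_zpowers] at hmem
  obtain ⟨j, hj⟩ := hmem
  refine ⟨j, ?_⟩
  have h1 := congrArg Subtype.val hj
  simp only [SubmonoidClass.coe_pow] at h1
  rw [← h1, ← hτ]
  rfl

/-- coprime orders. -/
theorem eq_one_of_pow_eq_one_of_coprime {H : Type*} [Group H] {x : H} {a b : ℕ}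
    (ha : x ^ a = 1) (hb : x ^ b = 1) (hab : Nat.Coprime a b) : x = 1 := by
  have h1 := orderOf_dvd_of_pow_eq_one ha
  have h2 := orderOf_dvd_of_pow_eq_one hb
  have h3 : orderOf x ∣ 1 := by
    rw [← hab]
    exact Nat.dvd_gcd h1 h2
  exact orderOf_eq_one_iff.1 (Nat.dvd_one.1 h3)

end Fermat.Agent.M15.ToricGroup3
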