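/-
Programme M15 (target S15), chapter R2 (TORIC), helper3: **the ramified classes at `p`**, in the
vocabulary of `W56/Defs9` and `M15/DevDefs5`.

`M : Rep k Γ` finite, smooth, killed by `n` prime to `p`, with unipotent inertia at the place
`primeLocalPlace p` (`(σ - 1)² = 0` for every `σ` of the inertia group).  For a Frobenius element `φ`
at that place put `N M = ∑_σ (σ - 1) M` (`NMall`) and `S = {w | φ w - p w ∈ N M}` (`Sall`).  Then for
EVERY local condition `L`

  **`card_ramL_mul_le`** : `#res_{I_p}(L_p) · #M ≤ #S · #M^{I_p}`.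

Proof: finitely many level cocycles of `Γ_p = Gal(ℚ̄_p/ℚ_p)` representing `ramL` are packed into one
homomorphism `aff : Γ_p → Perm (Y → M)` (`ToricGroup3.aff`); its restriction to inertia factors
through the inertia group of `Γ`, is continuous and of `ℓ`-power order, hence has cyclic image
(`W56/TameInertia8`) and satisfies the tame relation (`M15/TameRel3`); conclude by
`ToricGroup3.card_mul_le`.
-/
import Mathlib
import Fermat.Agent.W56.H1urCard8
import Fermat.Agent.M15.DevDefs5
import Fermat.Agent.M15.TameRel3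
import Fermat.Agent.M15.ToricGroup3

set_option autoImplicit false
set_option linter.unusedSectionVars false
set_option linter.style.haveILetI false

open CategoryTheory ExtCitation groupCohomology

namespace Fermat.Agent.M15.ToricCoh3

open Fermat.Agent.PT.PRO Fermat.Agent.PT.BR Fermat.Agent.W56.Defs9
open Fermat.Agent.PT.PRO.LevelCoh28 Fermat.Agent.PT.PRO.LevelCohRes28
open Fermat.Agent.M15.DevDefs5 Fermat.Agent.M15.ToricGroup3

local notation "Γ" => (AlgebraicClosure ℚ ≃ₐ[ℚ] AlgebraicClosure ℚ)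
local notation "Qbar" => AlgebraicClosure ℚ

noncomputable section

variable {k : Type} [CommRing k] (M : Rep k Γ) (p : Nat.Primes)

/-! ### the objects on the `Γ`-side -/

/-- `N M = ∑_σ (σ - 1) M`, `σ` in the inertia group at `primeLocalPlace p`. -/
def NMall : AddSubgroup M :=
  AddSubgroup.closure
    {z | ∃ σ ∈ (primeLocalPlace p).inertiaSubgroupIn ℚ, ∃ m : M, z = M.ρ σ m - m}

/-- `S = {w | φ w - p w ∈ N M}`. -/
def Sall (φ : Γ) : AddSubgroup M :=
  (NMall M p).comap ((M.ρ φ).toAddMonoidHom - (p : ℕ) • AddMonoidHom.id M)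

variable {M p}

theorem mem_Sall_iff {φ : Γ} {w : M} : w ∈ Sall M p φ ↔ M.ρ φ w - (p : ℕ) • w ∈ NMall M p := by
  show ((M.ρ φ).toAddMonoidHom - (p : ℕ) • AddMonoidHom.id M) w ∈ NMall M p ↔ _
  rw [AddMonoidHom.sub_apply, AddMonoidHom.smul_apply]
  rfl

theorem sub_mem_NMall {σ : Γ} (hσ : σ ∈ (primeLocalPlace p).inertiaSubgroupIn ℚ) (m : M) :
    M.ρ σ m - m ∈ NMall M p :=
  AddSubgroup.subset_closure ⟨σ, hσ, m, rfl⟩

variable (M p)

/-! ### the action of the local group -/

/-- `ρ` on `Γ_p`, with values in the additive endomorphisms. -/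
def rhoD : primeLocalGaloisGroup p →* AddMonoid.End M where
  toFun g := (M.ρ (locD p g)).toAddMonoidHom
  map_one' := by
    ext m
    show M.ρ (locD p 1) m = m
    rw [map_one, map_one]
    rfl
  map_mul' g h := by
    ext m
    show M.ρ (locD p (g * h)) m = M.ρ (locD p g) (M.ρ (locD p h) m)
    rw [map_mul, map_mul]
    rfl

variable {M p}

@[simp] theorem rhoD_apply (g : primeLocalGaloisGroup p) (m : M) :
    rhoD M p g m = M.ρ (locD p g) m := rfl

/-- level cocycles of `Γ_p` are cocycles for `rhoD`. -/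
theorem isCoc_of_mem_Z1
    (c : ↥(Z1 (LevelBridge13.pullBasis (locD p)) (Rep.res (locD p) M))) :
    IsCoc (rhoD M p) (c : primeLocalGaloisGroup p → M) := by
  intro g h
  have h1 := (mem_cocycles₁_iff (c : primeLocalGaloisGroup p → M)).1 c.2.1 g h
  rw [h1, add_comm]
  rfl

/-- a level cocycle of `Γ_p` is invariant under right translation by `locD⁻¹ Gal(ℚ̄/F)`. -/
theorem exists_field_of_mem_Z1
    (c : ↥(Z1 (LevelBridge13.pullBasis (locD p)) (Rep.res (locD p) M))) :
    ∃ F : IntermediateField ℚ Qbar, FiniteDimensional ℚ F ∧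
      ∀ g s : primeLocalGaloisGroup p, locD p s ∈ F.fixingSubgroup →
        (c : primeLocalGaloisGroup p → M) (g * s) = (c : primeLocalGaloisGroup p → M) g := by
  obtain ⟨_, ⟨F, hF, rfl⟩, hinv⟩ := c.2.2
  exact ⟨F, hF, fun g s hs => hinv g s hs⟩

/-- a level cocycle vanishes on `locD⁻¹ Gal(ℚ̄/F)`. -/
theorem apply_eq_zero_of_mem
    (c : ↥(Z1 (LevelBridge13.pullBasis (locD p)) (Rep.res (locD p) M)))
    {F : IntermediateField ℚ Qbar}
    (hF : ∀ g s : primeLocalGaloisGroup p, locD p s ∈ F.fixingSubgroup →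
        (c : primeLocalGaloisGroup p → M) (g * s) = (c : primeLocalGaloisGroup p → M) g)
    {s : primeLocalGaloisGroup p} (hs : locD p s ∈ F.fixingSubgroup) :
    (c : primeLocalGaloisGroup p → M) s = 0 := by
  have h := hF 1 s hs
  rw [one_mul, (isCoc_of_mem_Z1 c).apply_one] at h
  exact h

/-! ### the inertia group of `Γ_p` surjects onto the inertia group of the place -/

variable (p) in
/-- `I_p → I_A`. -/
def psi : ↥(inertia p) →* ↥((primeLocalPlace p).inertiaSubgroupIn ℚ) :=
  (locI p).codRestrict _ (locI_mem p)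

@[simp] theorem coe_psi (s : ↥(inertia p)) :
    (psi p s : Γ) = locD p (s : primeLocalGaloisGroup p) := rfl

theorem psi_surjective : Function.Surjective (psi p) := by
  rintro ⟨σ, hσ⟩
  obtain ⟨τ, hτ⟩ := Fermat.Agent.W56.DecompOnto0.exists_primeLocalToGlobal_eq_of_mem_inertia p hσ
  refine ⟨⟨τ, ?_⟩, Subtype.ext hτ⟩
  show locD p τ ∈ (primeLocalPlace p).inertiaSubgroupIn ℚ
  rw [show locD p τ = σ from hτ]
  exact hσ

/-- the affine action is trivial at `σ` if `ρ σ = 1` and all the cocycles vanish at `σ`. -/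
theorem aff_eq_one_of {D N Y : Type*} [Group D] [AddCommGroup N] {ρ : D →* AddMonoid.End N}
    (c : Y → D → N) (hc : ∀ y, IsCoc ρ (c y)) {σ : D} (h1 : ∀ m, ρ σ m = m)
    (h2 : ∀ y, c y σ = 0) : aff c hc σ = 1 := by
  ext a y
  rw [aff_apply, h1, h2, add_zero]
  rfl

/-! ### a common field of definition -/

/-- a finite module with smooth action, and finitely many level cocycles of `Γ_p`, are trivialised
by one finite extension of `ℚ`. -/
theorem exists_common_field [Finite M]
    (hsm : ∀ m : M, ∃ F : IntermediateField ℚ Qbar, FiniteDimensional ℚ F ∧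
      ∀ s ∈ F.fixingSubgroup, M.ρ s m = m)
    {X : Type} [Finite X]
    (d : X → ↥(Z1 (LevelBridge13.pullBasis (locD p)) (Rep.res (locD p) M))) :
    ∃ F₀ : IntermediateField ℚ Qbar, FiniteDimensional ℚ F₀ ∧
      (∀ s ∈ F₀.fixingSubgroup, ∀ m : M, M.ρ s m = m) ∧
      ∀ (x : X) (s : primeLocalGaloisGroup p), locD p s ∈ F₀.fixingSubgroup →
        (d x : primeLocalGaloisGroup p → M) s = 0 := by
  choose Fm hFm using hsm
  choose Fx hFx using fun x => exists_field_of_mem_Z1 (d x)
  haveI : ∀ m, FiniteDimensional ℚ (Fm m) := fun m => (hFm m).1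
  haveI : ∀ x, FiniteDimensional ℚ (Fx x) := fun x => (hFx x).1
  haveI h1 : FiniteDimensional ℚ (⨆ m, Fm m : IntermediateField ℚ Qbar) :=
    IntermediateField.finiteDimensional_iSup_of_finite
  haveI h2 : FiniteDimensional ℚ (⨆ x, Fx x : IntermediateField ℚ Qbar) :=
    IntermediateField.finiteDimensional_iSup_of_finite
  refine ⟨(⨆ m, Fm m) ⊔ (⨆ x, Fx x), IntermediateField.finiteDimensional_sup _ _, ?_, ?_⟩
  · intro s hs m
    refine (hFm m).2 s (IntermediateField.fixingSubgroup_antitone ?_ hs)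
    exact le_sup_of_le_left (le_iSup Fm m)
  · intro x s hs
    refine apply_eq_zero_of_mem (d x) (hFx x).2 (IntermediateField.fixingSubgroup_antitone ?_ hs)
    exact le_sup_of_le_right (le_iSup Fx x)

/-! ### the count for a finite family of level cocycles -/

/-- the cocycles of the family, with the zero cocycle added. -/
def cocOpt {X : Type} (d : X → ↥(Z1 (LevelBridge13.pullBasis (locD p)) (Rep.res (locD p) M))) :
    Option X → primeLocalGaloisGroup p → M
  | none => fun _ => 0
  | some x => (d x : primeLocalGaloisGroup p → M)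

theorem isCoc_cocOpt {X : Type}
    (d : X → ↥(Z1 (LevelBridge13.pullBasis (locD p)) (Rep.res (locD p) M))) (y : Option X) :
    IsCoc (rhoD M p) (cocOpt d y) := by
  cases y with
  | none =>
    intro g h
    show (0 : M) = 0 + rhoD M p g 0
    rw [map_zero, add_zero]
  | some x => exact isCoc_of_mem_Z1 (d x)

theorem card_mul_le_of_family [Finite M]
    (hsm : ∀ m : M, ∃ F : IntermediateField ℚ Qbar, FiniteDimensional ℚ F ∧
      ∀ s ∈ F.fixingSubgroup, M.ρ s m = m)
    {n : ℕ} (hn : ∀ m : M, n • m = 0) (hnp : Nat.Coprime n p)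
    (hunip : ∀ σ ∈ (primeLocalPlace p).inertiaSubgroupIn ℚ, ∀ m : M,
      M.ρ σ (M.ρ σ m) + m = M.ρ σ m + M.ρ σ m)
    {X : Type} [Finite X]
    (d : X → ↥(Z1 (LevelBridge13.pullBasis (locD p)) (Rep.res (locD p) M)))
    (hinj : ∀ x y : X, (∃ m : M, ∀ σ ∈ inertia p,
      (d x : primeLocalGaloisGroup p → M) σ - (d y : primeLocalGaloisGroup p → M) σ =
        M.ρ (locD p σ) m - m) → x = y)
    {φ : Γ} (hφ : (primeLocalPlace p).IsFrobeniusAt φ p) :
    Nat.card X * Nat.card M ≤ Nat.card ↥(Sall M p φ) * Nat.card ↥(H0I M p) := by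
  classical
  have hA := Fermat.Agent.W56.UnipSel8.liesOverPrime_primeLocalPlace p
  obtain ⟨F₀, hF₀fd, hF₀M, hF₀d⟩ := exists_common_field hsm d
  haveI := hF₀fd
  set c := cocOpt d with hc_def
  have hc := isCoc_cocOpt d
  have hcs : ∀ (y : Option X) (s : primeLocalGaloisGroup p), locD p s ∈ F₀.fixingSubgroup →
      c y s = 0 := by
    intro y s hs
    cases y with
    | none => rfl
    | some x => exact hF₀d x s hs
  set Faff := aff c hc with hFaff
  -- triviality of `Faff` on `locD⁻¹ Gal(ℚ̄/F₀)`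
  have htriv : ∀ s : primeLocalGaloisGroup p, locD p s ∈ F₀.fixingSubgroup → Faff s = 1 :=
    fun s hs => aff_eq_one_of c hc (fun m => hF₀M _ hs m) (fun y => hcs y s hs)
  -- the descent of `Faff` to the inertia group of the place
  have hker : (psi p).ker ≤ (Faff.comp (inertia p).subtype).ker := by
    intro s hs
    rw [MonoidHom.mem_ker] at hs ⊢
    have h1 : locD p (s : primeLocalGaloisGroup p) = 1 := by
      rw [← coe_psi, hs]; rfl
    refine htriv _ ?_
    show locD p (s : primeLocalGaloisGroup p) ∈ F₀.fixingSubgroup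
    rw [h1]
    exact one_mem _
  set f : ↥((primeLocalPlace p).inertiaSubgroupIn ℚ) →* Equiv.Perm (Option X → M) :=
    (psi p).liftOfRightInverse (Function.surjInv psi_surjective)
      (Function.rightInverse_surjInv psi_surjective) ⟨Faff.comp (inertia p).subtype, hker⟩ with hf
  have hfpsi : ∀ s : ↥(inertia p), f (psi p s) = Faff (s : primeLocalGaloisGroup p) := fun s =>
    MonoidHom.liftOfRightInverse_comp_apply _ _ _ _ s
  -- continuity
  have hcont : ∀ σ : ↥((primeLocalPlace p).inertiaSubgroupIn ℚ),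
      (∀ x ∈ F₀, (σ : Γ) x = x) → f σ = 1 := by
    intro σ hσ
    obtain ⟨s, rfl⟩ := psi_surjective σ
    rw [hfpsi]
    refine htriv _ ?_
    rw [IntermediateField.mem_fixingSubgroup_iff]
    exact hσ
  -- prime-to-`p` order
  have hn0 : 0 < n := by
    rcases Nat.eq_zero_or_pos n with h | h
    · exfalso
      rw [h, Nat.coprime_zero_left] at hnp
      exact p.2.one_lt.ne' hnp
    · exact h
  have hord : ∀ s : ↥(inertia p), Faff (s : primeLocalGaloisGroup p) ^ (n * n) = 1 := fun s =>
    aff_pow_eq_one c hc (fun m => hunip _ s.2 m) hn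
  have hH : ∀ (σ : ↥((primeLocalPlace p).inertiaSubgroupIn ℚ)) (a : ℕ),
      f σ ^ (p : ℕ) ^ a = 1 → f σ = 1 := by
    intro σ a h
    obtain ⟨s, rfl⟩ := psi_surjective σ
    rw [hfpsi] at h ⊢
    refine eq_one_of_pow_eq_one_of_coprime (hord s) h ?_
    exact Nat.Coprime.pow_right _ (Nat.Coprime.mul_left hnp hnp)
  have hcyc := Fermat.Agent.W56.TameInertia8.isCyclic_range_of_inertia p.2 hA f F₀ hcont hH
  have hrange : (Faff.comp (inertia p).subtype).range = f.range := by
    ext g
    constructor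
    · rintro ⟨s, rfl⟩
      exact ⟨psi p s, hfpsi s⟩
    · rintro ⟨σ, rfl⟩
      obtain ⟨s, rfl⟩ := psi_surjective σ
      exact ⟨s, (hfpsi s).symm⟩
  have hcyc' : IsCyclic (Faff.comp (inertia p).subtype).range := by
    rw [hrange]; exact hcyc
  obtain ⟨τ, hτ, hgen0⟩ := exists_gen Faff (inertia p) hcyc'
  -- Frobenius
  obtain ⟨φD, hφD⟩ :=
    Fermat.Agent.W56.DecompOnto0.exists_primeLocalToGlobal_eq p hφ.mem_decompositionSubgroup
  have hconj : φD * τ * φD⁻¹ ∈ inertia p :=
    (Fermat.Agent.W56.H1urCard8.normal_inertia p).conj_mem τ hτ φD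
  have hfrob : Faff (φD * τ * φD⁻¹) = Faff (τ ^ (p : ℕ)) := by
    have h1 := Fermat.Agent.M15.TameRel3.tame_relation p.2 hA f F₀ hcont hH hφ (psi p ⟨τ, hτ⟩)
    have h2 : psi p ⟨φD * τ * φD⁻¹, hconj⟩ =
        ⟨φ * (psi p ⟨τ, hτ⟩ : Γ) * φ⁻¹,
          Fermat.Agent.M15.TameRel3.conj_mem_inertia p.2 hA hφ.mem_decompositionSubgroup
            (psi p ⟨τ, hτ⟩).2⟩ := by
      apply Subtype.ext
      show locD p (φD * τ * φD⁻¹) = φ * locD p τ * φ⁻¹
      rw [map_mul, map_mul, map_inv]
      rw [show locD p φD = φ from hφD]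
    rw [← h2, hfpsi, hfpsi] at h1
    rw [map_pow]
    exact h1
  obtain ⟨hfrob1, hfrob2⟩ := aff_eq_iff c hc none (fun _ => rfl) hfrob
  have hgen : ∀ σ ∈ inertia p, ∃ j : ℕ, rhoD M p σ = rhoD M p τ ^ j ∧
      ∀ x : X, (d x : primeLocalGaloisGroup p → M) σ =
        (d x : primeLocalGaloisGroup p → M) (τ ^ j) := by
    intro σ hσ
    obtain ⟨j, hj⟩ := hgen0 σ hσ
    rw [← map_pow] at hj
    obtain ⟨h1, h2⟩ := aff_eq_iff c hc none (fun _ => rfl) hj
    refine ⟨j, ?_, fun x => h2 (some x)⟩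
    rw [h1, map_pow]
  have hmain := card_mul_le (ρ := rhoD M p) (I := inertia p) (φ := φD) (τ := τ) (p := (p : ℕ))
    (c := fun x : X => (d x : primeLocalGaloisGroup p → M)) (fun x => isCoc_of_mem_Z1 (d x))
    hτ hgen (by rw [hfrob1, map_pow]) (fun x => hfrob2 (some x))
    (fun x y h => hinj x y h)
  -- comparison with the `Γ`-side objects
  have hS : Nat.card ↥(Sset (rhoD M p) φD τ (p : ℕ)) ≤ Nat.card ↥(Sall M p φ) := by
    have hle : Sset (rhoD M p) φD τ (p : ℕ) ≤ Sall M p φ := by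
      intro w hw
      rw [mem_Sset_iff] at hw
      rw [mem_Sall_iff]
      obtain ⟨m, hm⟩ := mem_NM_iff.1 hw
      have h1 : M.ρ φ w - (p : ℕ) • w = M.ρ (locD p τ) m - m := by
        rw [← show locD p φD = φ from hφD]
        exact hm.symm
      rw [h1]
      exact sub_mem_NMall hτ m
    exact Nat.card_le_card_of_injective (AddSubgroup.inclusion hle)
      (AddSubgroup.inclusion_injective hle)
  have hI : Nat.card ↥(MI (rhoD M p) (inertia p)) = Nat.card ↥(H0I M p) := by
    refine Nat.card_congr (Equiv.subtypeEquivRight fun m => ?_)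
    constructor
    · intro h g
      exact h g.1 g.2
    · intro h σ hσ
      exact h ⟨σ, hσ⟩
  calc Nat.card X * Nat.card M
      ≤ Nat.card ↥(Sset (rhoD M p) φD τ (p : ℕ)) * Nat.card ↥(MI (rhoD M p) (inertia p)) := hmain
    _ ≤ Nat.card ↥(Sall M p φ) * Nat.card ↥(H0I M p) := by
        rw [hI]
        exact Nat.mul_le_mul_right _ hS

/-! ### the ramified classes -/

/-- every element of `ramL` is the restriction to inertia of the class of a level cocycle of
`Γ_p`. -/
theorem exists_coc_of_mem_ramL (L : LocCond M) (x : ↥(ramL M L p)) :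
    ∃ d : ↥(Z1 (LevelBridge13.pullBasis (locD p)) (Rep.res (locD p) M)),
      resDI M p (H1mk _ _ d) = (x : H1I M p) := by
  obtain ⟨y, -, hy⟩ := x.2
  obtain ⟨d, rfl⟩ := H1mk_surjective _ _ y
  exact ⟨d, hy⟩

/-- two level cocycles of `Γ_p` which differ by a coboundary on inertia have the same restriction
to inertia. -/
theorem resDI_eq_of_cobound
    (d d' : ↥(Z1 (LevelBridge13.pullBasis (locD p)) (Rep.res (locD p) M)))
    (h : ∃ m : M, ∀ σ ∈ inertia p,
      (d : primeLocalGaloisGroup p → M) σ - (d' : primeLocalGaloisGroup p → M) σ =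
        M.ρ (locD p σ) m - m) :
    resDI M p (H1mk _ _ d) = resDI M p (H1mk _ _ d') := by
  obtain ⟨m, hm⟩ := h
  rw [← sub_eq_zero, ← map_sub, ← map_sub]
  show H1mk _ _ _ = 0
  rw [H1mk_eq_zero_iff]
  refine ⟨m, ?_⟩
  funext σ
  rw [d₀₁_hom_apply]
  exact (hm σ.1 σ.2).symm

/-- **the ramified classes at `p` are bounded by `S`**:
`#res_{I_p}(L_p) · #M ≤ #S · #M^{I_p}`, for EVERY local condition `L`. -/
theorem card_ramL_mul_le [Finite M]
    (hsm : ∀ m : M, ∃ F : IntermediateField ℚ Qbar, FiniteDimensional ℚ F ∧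
      ∀ s ∈ F.fixingSubgroup, M.ρ s m = m)
    {n : ℕ} (hn : ∀ m : M, n • m = 0) (hnp : Nat.Coprime n p)
    (hunip : ∀ σ ∈ (primeLocalPlace p).inertiaSubgroupIn ℚ, ∀ m : M,
      M.ρ σ (M.ρ σ m) + m = M.ρ σ m + M.ρ σ m)
    (L : LocCond M) {φ : Γ} (hφ : (primeLocalPlace p).IsFrobeniusAt φ p) :
    Nat.card ↥(ramL M L p) * Nat.card M ≤ Nat.card ↥(Sall M p φ) * Nat.card ↥(H0I M p) := by
  by_cases hfin : Finite ↥(ramL M L p)
  · choose d hd using exists_coc_of_mem_ramL (M := M) (p := p) L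
    refine card_mul_le_of_family hsm hn hnp hunip d (fun x y h => ?_) hφ
    apply Subtype.ext
    rw [← hd x, ← hd y]
    exact resDI_eq_of_cobound (d x) (d y) h
  · rw [not_finite_iff_infinite] at hfin
    rw [Nat.card_eq_zero_of_infinite, zero_mul]
    exact Nat.zero_le _

end

end Fermat.Agent.M15.ToricCoh3
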