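/-
Programme M15 (target S15), chapter R2 (TORIC), helper3: **ranks and cardinalities**.

`R` a principal ideal domain, `Λ` a finite free `R`-module, `f : Λ → Λ` linear with
`(f² - p²)(f² - 1)² = 0`, `c = (p² - 1)² ≠ 0`.  With `Λ_p = ker (f² - p²)`, `Λ₁ = ker (f² - 1)²`:

* `Λ_p ⊕ Λ₁ → Λ` is injective with cokernel killed by `c`, hence `det f = det (f|Λ_p) det (f|Λ₁)`
  (`det_eq_mul`), `det (f|Λ₁)² = 1`, `det (f|Λ_p)² = p ^ (2 rank Λ_p)`:
  **`det_sq`** : `(det f)² = (p²) ^ rank Λ_p`, and **`finrank_Kp_eq`** : `rank Λ_p = lam` as soon as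
  `det f = ± p ^ lam` and `p` is not a root of unity;
* cardinalities: `exists_surj_of_basis` (a quotient of a free module of rank `n` killed by `m` is a
  quotient of `(R/m)ⁿ`), `card_map_le`, `card_ker_zsmul_le`;
* over `ℤ_[ℓ]`: `card_quot_pow`, `finite_quot`;
* **`card_S_le_pow`** : in the setting of `ToricLattice3.card_S_le` with `R = ℤ_[ℓ]`, `m = ℓ ^ k`:
  `#S ≤ C · ℓ ^ (k · rank Λ_p)` with `C = #(ℤ_ℓ/c²) ^ rank Λ` independent of `k`.
-/
import Mathlib
import Fermat.Agent.M15.ToricLattice3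

set_option autoImplicit false
set_option linter.unusedSectionVars false

open Polynomial Module

namespace Fermat.Agent.M15.ToricRank3

open Fermat.Agent.M15.ToricLattice3

noncomputable section

/-! ### the determinant -/

section Det

variable {R : Type*} [CommRing R] [IsDomain R] [IsPrincipalIdealRing R]
variable {Λ : Type*} [AddCommGroup Λ] [Module R Λ] [Module.Finite R Λ] [Module.Free R Λ]
variable (f : Module.End R Λ) (p : R)

/-- `Λ_p = ker (f² - p²)`. -/
def Kp : Submodule R Λ := LinearMap.ker (aeval f (P2 p))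

/-- `Λ₁ = ker (f² - 1)²`. -/
def K1 : Submodule R Λ := LinearMap.ker (aeval f (P1 R))

theorem aeval_comm (q : R[X]) (x : Λ) : aeval f q (f x) = f (aeval f q x) := by
  have h : aeval f (q * X) = aeval f (X * q) := by rw [mul_comm]
  rw [map_mul, map_mul, aeval_X] at h
  exact LinearMap.congr_fun h x

theorem aeval_comm' (q q' : R[X]) (x : Λ) :
    aeval f q (aeval f q' x) = aeval f q' (aeval f q x) := by
  have h : aeval f (q * q') = aeval f (q' * q) := by rw [mul_comm]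
  rw [map_mul, map_mul] at h
  exact LinearMap.congr_fun h x

theorem f_mem_Kp {x : Λ} (hx : x ∈ Kp f p) : f x ∈ Kp f p := by
  have hx' : aeval f (P2 p) x = 0 := hx
  show aeval f (P2 p) (f x) = 0
  rw [aeval_comm, hx', map_zero]

theorem f_mem_K1 {x : Λ} (hx : x ∈ K1 f) : f x ∈ K1 f := by
  have hx' : aeval f (P1 R) x = 0 := hx
  show aeval f (P1 R) (f x) = 0
  rw [aeval_comm, hx', map_zero]

/-- `f` on `Λ_p`. -/
def fp : Module.End R ↥(Kp f p) := f.restrict fun _ hx => f_mem_Kp f p hx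

/-- `f` on `Λ₁`. -/
def f1 : Module.End R ↥(K1 f) := f.restrict fun _ hx => f_mem_K1 f hx

@[simp] theorem coe_fp (x : ↥(Kp f p)) : ((fp f p x : ↥(Kp f p)) : Λ) = f x := rfl

@[simp] theorem coe_f1 (x : ↥(K1 f)) : ((f1 f x : ↥(K1 f)) : Λ) = f x := rfl

/-- `ι : Λ_p × Λ₁ → Λ`. -/
def iota : (↥(Kp f p) × ↥(K1 f)) →ₗ[R] Λ := (Kp f p).subtype.coprod (K1 f).subtype

@[simp] theorem iota_apply (a : ↥(Kp f p)) (b : ↥(K1 f)) : iota f p (a, b) = (a : Λ) + (b : Λ) := by
  simp [iota]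

variable {f p}

theorem cst_smul_eq (x : Λ) :
    cst p • x = aeval f (P1 R) x - aeval f (P2 p) (aeval f (Q2 p) x) := by
  have h : aeval f (C (cst p)) x = aeval f (P1 R - P2 p * Q2 p) x := by rw [P1_sub]
  rw [aeval_C, Module.algebraMap_end_apply, map_sub, map_mul, LinearMap.sub_apply,
    Module.End.mul_apply] at h
  exact h

theorem eq_zero_of_mem_inf (hc : cst p ≠ 0) {x : Λ} (hp : x ∈ Kp f p) (h1 : x ∈ K1 f) : x = 0 := by
  have hp' : aeval f (P2 p) x = 0 := hp
  have h1' : aeval f (P1 R) x = 0 := h1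
  have h := cst_smul_eq (f := f) (p := p) x
  rw [h1', aeval_comm', hp', map_zero, sub_zero] at h
  rcases smul_eq_zero.1 h with h0 | h0
  · exact absurd h0 hc
  · exact h0

theorem iota_injective (hc : cst p ≠ 0) : Function.Injective (iota f p) := by
  rw [← LinearMap.ker_eq_bot, LinearMap.ker_eq_bot']
  rintro ⟨a, b⟩ hab
  rw [iota_apply] at hab
  have ha : (a : Λ) = -(b : Λ) := eq_neg_of_add_eq_zero_left hab
  have ha1 : (a : Λ) ∈ K1 f := by rw [ha]; exact (K1 f).neg_mem b.2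
  have ha0 : (a : Λ) = 0 := eq_zero_of_mem_inf hc a.2 ha1
  have hb0 : (b : Λ) = 0 := by rw [ha0] at hab; simpa using hab
  exact Prod.ext (Subtype.ext ha0) (Subtype.ext hb0)

variable (f p) in
/-- `θ : Λ → Λ_p × Λ₁`, `x ↦ (P₁(f) x, -P₂(f) Q₂(f) x)`, with `ι ∘ θ = c`. -/
def theta (hf : aeval f (P2 p * P1 R) = 0) : Λ →ₗ[R] (↥(Kp f p) × ↥(K1 f)) :=
  LinearMap.prod
    ((aeval f (P1 R)).codRestrict (Kp f p) fun x => by
      show aeval f (P2 p) (aeval f (P1 R) x) = 0
      have h : aeval f (P2 p) (aeval f (P1 R) x) = aeval f (P2 p * P1 R) x := by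
        rw [map_mul, Module.End.mul_apply]
      rw [h, hf, LinearMap.zero_apply])
    ((-(aeval f (P2 p * Q2 p))).codRestrict (K1 f) fun x => by
      show aeval f (P1 R) ((-(aeval f (P2 p * Q2 p))) x) = 0
      rw [LinearMap.neg_apply, map_neg]
      have h : aeval f (P1 R) (aeval f (P2 p * Q2 p) x) = aeval f (Q2 p) (aeval f (P2 p * P1 R) x) := by
        have e : P1 R * (P2 p * Q2 p) = Q2 p * (P2 p * P1 R) := by ring
        have := congrArg (fun q => aeval f q x) e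
        simpa only [map_mul, Module.End.mul_apply] using this
      rw [h, hf, LinearMap.zero_apply, map_zero, neg_zero])

theorem iota_theta (hf : aeval f (P2 p * P1 R) = 0) (x : Λ) :
    iota f p (theta f p hf x) = cst p • x := by
  rw [cst_smul_eq (f := f) (p := p) x]
  show iota f p (_, _) = _
  rw [iota_apply]
  show aeval f (P1 R) x + (-(aeval f (P2 p * Q2 p))) x = _
  rw [LinearMap.neg_apply, map_mul, Module.End.mul_apply]
  abel

theorem theta_injective (hf : aeval f (P2 p * P1 R) = 0) (hc : cst p ≠ 0) :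
    Function.Injective (theta f p hf) := by
  rw [← LinearMap.ker_eq_bot, LinearMap.ker_eq_bot']
  intro x hx
  have h := iota_theta hf x
  rw [hx, map_zero] at h
  rcases smul_eq_zero.1 h.symm with h0 | h0
  · exact absurd h0 hc
  · exact h0

theorem finrank_prod_eq (hf : aeval f (P2 p * P1 R) = 0) (hc : cst p ≠ 0) :
    finrank R (↥(Kp f p) × ↥(K1 f)) = finrank R Λ :=
  le_antisymm (LinearMap.finrank_le_finrank_of_injective (iota_injective hc))
    (LinearMap.finrank_le_finrank_of_injective (theta_injective hf hc))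

theorem f_iota (x : ↥(Kp f p) × ↥(K1 f)) :
    f (iota f p x) = iota f p ((fp f p).prodMap (f1 f) x) := by
  obtain ⟨a, b⟩ := x
  rw [iota_apply, map_add]
  show _ = iota f p (fp f p a, f1 f b)
  rw [iota_apply]
  rfl

/-- **`det f = det (f|Λ_p) · det (f|Λ₁)`.** -/
theorem det_eq_mul (hf : aeval f (P2 p * P1 R) = 0) (hc : cst p ≠ 0) :
    LinearMap.det f = LinearMap.det (fp f p) * LinearMap.det (f1 f) := by
  obtain ⟨e⟩ := FiniteDimensional.nonempty_linearEquiv_of_finrank_eq (finrank_prod_eq hf hc).symm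
  -- `e : Λ ≃ Λ_p × Λ₁`
  set g : Λ →ₗ[R] Λ := (iota f p).comp (e : Λ →ₗ[R] (↥(Kp f p) × ↥(K1 f))) with hg
  set P : Module.End R (↥(Kp f p) × ↥(K1 f)) := (fp f p).prodMap (f1 f) with hP
  set f' : Module.End R Λ :=
    (e.symm : (↥(Kp f p) × ↥(K1 f)) →ₗ[R] Λ).comp (P.comp (e : Λ →ₗ[R] (↥(Kp f p) × ↥(K1 f))))
    with hf'
  have hginj : Function.Injective g := by
    rw [hg]
    exact (iota_injective hc).comp e.injective
  have hdetg : LinearMap.det g ≠ 0 := by
    intro h0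
    rw [LinearMap.det_eq_zero_iff_ker_ne_bot] at h0
    exact h0 (LinearMap.ker_eq_bot.2 hginj)
  have hcomm : f.comp g = g.comp f' := by
    apply LinearMap.ext
    intro x
    show f (iota f p (e x)) = iota f p (e (e.symm (P (e x))))
    rw [LinearEquiv.apply_symm_apply, f_iota]
  have h1 : LinearMap.det f * LinearMap.det g = LinearMap.det g * LinearMap.det f' := by
    rw [← LinearMap.det_comp, ← LinearMap.det_comp, hcomm]
  have h2 : LinearMap.det f = LinearMap.det f' := by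
    rw [mul_comm] at h1
    exact mul_left_cancel₀ hdetg h1
  have h3 : LinearMap.det f' = LinearMap.det P := by
    have := LinearMap.det_conj P e.symm
    rw [LinearEquiv.symm_symm] at this
    exact this
  rw [h2, h3, hP, LinearMap.det_prodMap]

/-- a nilpotent perturbation of the identity has determinant one. -/
theorem det_one_add_of_isNilpotent {M : Type*} [AddCommGroup M] [Module R M] [Module.Finite R M]
    [Module.Free R M] {n : Module.End R M} (hn : IsNilpotent n) :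
    LinearMap.det (1 + n) = 1 := by
  have hneg : IsNilpotent (-n) := hn.neg
  have h1 := LinearMap.eval_charpoly (-n) (1 : R)
  rw [IsNilpotent.charpoly_eq_X_pow_finrank hneg, eval_pow, eval_X, one_pow, map_one,
    sub_neg_eq_add] at h1
  exact h1.symm

theorem det_f1_sq : LinearMap.det (f1 f) ^ 2 = 1 := by
  set n : Module.End R ↥(K1 f) := f1 f * f1 f - 1 with hn
  have hnn : n * n = 0 := by
    apply LinearMap.ext
    intro x
    apply Subtype.ext
    have hx : aeval f (P1 R) (x : Λ) = 0 := x.2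
    have h2 : ∀ y : ↥(K1 f), ((n y : ↥(K1 f)) : Λ) = aeval f (X ^ 2 - 1 : R[X]) (y : Λ) := by
      intro y
      rw [hn]
      simp [pow_two, Module.End.mul_apply]
    rw [Module.End.mul_apply, h2, h2, LinearMap.zero_apply, ZeroMemClass.coe_zero]
    have h3 : aeval f (X ^ 2 - 1 : R[X]) (aeval f (X ^ 2 - 1 : R[X]) (x : Λ)) =
        aeval f (P1 R) (x : Λ) := by
      rw [P1, pow_two (X ^ 2 - 1 : R[X]), map_mul, Module.End.mul_apply]
    rw [h3, hx]
  have hnil : IsNilpotent n := ⟨2, by rw [pow_two, hnn]⟩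
  have h1 : f1 f * f1 f = 1 + n := by rw [hn]; abel
  rw [pow_two, ← map_mul, h1]
  exact det_one_add_of_isNilpotent hnil

theorem det_fp_sq : LinearMap.det (fp f p) ^ 2 = (p ^ 2) ^ finrank R ↥(Kp f p) := by
  have h1 : fp f p * fp f p = (p ^ 2) • (1 : Module.End R ↥(Kp f p)) := by
    apply LinearMap.ext
    intro x
    apply Subtype.ext
    have hx : aeval f (P2 p) (x : Λ) = 0 := x.2
    rw [P2, map_sub, map_pow, aeval_X, aeval_C, LinearMap.sub_apply, Module.algebraMap_end_apply,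
      pow_two f, Module.End.mul_apply] at hx
    rw [Module.End.mul_apply, LinearMap.smul_apply, Module.End.one_apply]
    show f (f (x : Λ)) = (p ^ 2) • (x : Λ)
    exact sub_eq_zero.1 hx
  rw [pow_two, ← map_mul, h1, LinearMap.det_smul, map_one, mul_one]

/-- **`(det f)² = (p²) ^ rank Λ_p`.** -/
theorem det_sq (hf : aeval f (P2 p * P1 R) = 0) (hc : cst p ≠ 0) :
    LinearMap.det f ^ 2 = (p ^ 2) ^ finrank R ↥(Kp f p) := by
  rw [det_eq_mul hf hc, mul_pow, det_f1_sq, mul_one, det_fp_sq]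

/-- **`rank ker (f² - p²) = lam`** when `det f = ± p ^ lam` and `p` is not a root of unity. -/
theorem finrank_Kp_eq (hf : aeval f (P2 p * P1 R) = 0) (hc : cst p ≠ 0)
    (hinj : ∀ a b : ℕ, p ^ a = p ^ b → a = b) {lam : ℕ}
    (hdet : LinearMap.det f = p ^ lam ∨ LinearMap.det f = -p ^ lam) :
    finrank R ↥(Kp f p) = lam := by
  have h1 : LinearMap.det f ^ 2 = p ^ (2 * lam) := by
    rcases hdet with h | h
    · rw [h, ← pow_mul, mul_comm]
    · rw [h, neg_pow, ← pow_mul, mul_comm lam 2]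
      simp
  rw [det_sq hf hc, ← pow_mul] at h1
  have := hinj _ _ h1
  omega

end Det

/-! ### quotients of free modules killed by `m` -/

section Count

variable {R : Type*} [CommRing R]

/-- a homomorphism from a free module of finite rank which kills `m N` factors (set-theoretically,
on the level of images) through `(R/m)^ι`. -/
theorem exists_surj_of_basis {N : Type*} [AddCommGroup N] [Module R N] {ι : Type*} [Fintype ι]
    (b : Basis ι R N) {X : Type*} [AddCommGroup X] (π : N →+ X) (m : R)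
    (hm : ∀ y : N, π (m • y) = 0) :
    ∃ g : (ι → R ⧸ Ideal.span {m}) → N, ∀ n : N, ∃ c, π (g c) = π n := by
  classical
  refine ⟨fun c => ∑ i, (Quotient.out (c i)) • b i, fun n => ?_⟩
  refine ⟨fun i => Ideal.Quotient.mk _ (b.repr n i), ?_⟩
  -- the difference of the two coefficient vectors is divisible by `m`
  have hd : ∀ i, ∃ d : R,
      Quotient.out (Ideal.Quotient.mk (Ideal.span {m}) (b.repr n i)) - b.repr n i = m * d := by
    intro i
    have h1 : Ideal.Quotient.mk (Ideal.span {m})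
        (Quotient.out (Ideal.Quotient.mk (Ideal.span {m}) (b.repr n i))) =
        Ideal.Quotient.mk (Ideal.span {m}) (b.repr n i) := Quotient.out_eq _
    rw [Ideal.Quotient.eq, Ideal.mem_span_singleton] at h1
    obtain ⟨d, hd⟩ := h1
    exact ⟨d, hd⟩
  choose d hd using hd
  have hn : n = ∑ i, b.repr n i • b i := (b.sum_repr n).symm
  have h2 : ∑ i, Quotient.out (Ideal.Quotient.mk (Ideal.span {m}) (b.repr n i)) • b i =
      n + m • ∑ i, d i • b i := by
    conv_rhs => rw [hn]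
    rw [Finset.smul_sum, ← Finset.sum_add_distrib]
    refine Finset.sum_congr rfl fun i _ => ?_
    rw [← mul_smul, ← add_smul, ← hd i]
    congr 1
    ring
  show π (∑ i, Quotient.out (Ideal.Quotient.mk (Ideal.span {m}) (b.repr n i)) • b i) = π n
  rw [h2, map_add, hm, add_zero]

variable {Λ : Type*} [AddCommGroup Λ] [Module R Λ]

/-- the image of a free submodule of rank `r` under a map killing `m Λ` has at most `#(R/m)^r`
elements. -/
theorem card_map_le [Nontrivial R] (N : Submodule R Λ) [Module.Free R ↥N] [Module.Finite R ↥N]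
    {W : Type*} [AddCommGroup W] (π : Λ →+ W) (m : R) (hm : ∀ y : Λ, π (m • y) = 0)
    [Finite (R ⧸ Ideal.span {m})] :
    Nat.card ↥(AddSubgroup.map π N.toAddSubgroup) ≤
      Nat.card (R ⧸ Ideal.span {m}) ^ finrank R ↥N := by
  classical
  let b := Module.finBasis R ↥N
  let π' : ↥N →+ W := π.comp N.subtype.toAddMonoidHom
  obtain ⟨g, hg⟩ := exists_surj_of_basis b π' m (fun y => by
    show π (((m • y : ↥N)) : Λ) = 0
    rw [Submodule.coe_smul]
    exact hm _)
  let F : (Fin (finrank R ↥N) → R ⧸ Ideal.span {m}) → ↥(AddSubgroup.map π N.toAddSubgroup) :=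
    fun c => ⟨π' (g c), ⟨((g c : ↥N) : Λ), (g c).2, rfl⟩⟩
  have hF : Function.Surjective F := by
    rintro ⟨w, a, ha, rfl⟩
    obtain ⟨c, hc⟩ := hg ⟨a, ha⟩
    exact ⟨c, Subtype.ext hc⟩
  have h1 := Nat.card_le_card_of_surjective F hF
  rw [Nat.card_fun, Nat.card_eq_fintype_card (α := Fin (finrank R ↥N)), Fintype.card_fin] at h1
  exact h1

/-- the `a`-torsion of a finite quotient `W` of a free module `Λ` of rank `n` has at most
`#(R/a)^n` elements. -/
theorem card_ker_zsmul_le [Nontrivial R] [Module.Free R Λ] [Module.Finite R Λ]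
    {W : Type*} [AddCommGroup W] [Finite W] (π : Λ →+ W) (hπ : Function.Surjective π) (a : ℤ)
    [Finite (R ⧸ Ideal.span {((a : ℤ) : R)})] :
    Nat.card ↥(a • AddMonoidHom.id W).ker ≤
      Nat.card (R ⧸ Ideal.span {((a : ℤ) : R)}) ^ finrank R Λ := by
  classical
  set ψ : W →+ W := a • AddMonoidHom.id W with hψ
  -- `#ker ψ = #(W / range ψ)`
  have h1 : Nat.card W = Nat.card ↥ψ.ker * Nat.card ↥ψ.range := by
    rw [AddSubgroup.card_eq_card_quotient_mul_card_addSubgroup ψ.ker, mul_comm,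
      Nat.card_congr (QuotientAddGroup.quotientKerEquivRange ψ).toEquiv]
  have h2 : Nat.card W = Nat.card (W ⧸ ψ.range) * Nat.card ↥ψ.range :=
    AddSubgroup.card_eq_card_quotient_mul_card_addSubgroup ψ.range
  have hpos : 0 < Nat.card ↥ψ.range := Nat.card_pos
  have h3 : Nat.card ↥ψ.ker = Nat.card (W ⧸ ψ.range) :=
    Nat.eq_of_mul_eq_mul_right hpos (h1.symm.trans h2)
  rw [h3]
  -- `W / range ψ` is a quotient of `Λ` killed by `a`
  let b := Module.finBasis R Λ
  let π' : Λ →+ W ⧸ ψ.range := (QuotientAddGroup.mk' ψ.range).comp π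
  obtain ⟨g, hg⟩ := exists_surj_of_basis b π' ((a : ℤ) : R) (fun y => by
    show (QuotientAddGroup.mk' ψ.range) (π (((a : ℤ) : R) • y)) = 0
    rw [QuotientAddGroup.mk'_apply, QuotientAddGroup.eq_zero_iff, Int.cast_smul_eq_zsmul,
      map_zsmul]
    exact ⟨π y, by simp [hψ]⟩)
  have hsurj : Function.Surjective fun c => π' (g c) := by
    intro w
    obtain ⟨w', rfl⟩ := QuotientAddGroup.mk'_surjective ψ.range w
    obtain ⟨x, rfl⟩ := hπ w'
    obtain ⟨c, hc⟩ := hg x
    exact ⟨c, hc⟩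
  have h4 := Nat.card_le_card_of_surjective _ hsurj
  rw [Nat.card_fun, Nat.card_eq_fintype_card (α := Fin (finrank R Λ)), Fintype.card_fin] at h4
  exact h4

end Count

/-! ### the ring `ℤ_[ℓ]` -/

section Padic

variable (ℓ : ℕ) [hℓ : Fact ℓ.Prime]

/-- `#(ℤ_ℓ / ℓ^k) = ℓ^k`. -/
theorem card_quot_pow (k : ℕ) :
    Nat.card (ℤ_[ℓ] ⧸ Ideal.span {((ℓ ^ k : ℕ) : ℤ_[ℓ])}) = ℓ ^ k := by
  have hker : RingHom.ker (PadicInt.toZModPow (p := ℓ) k) = Ideal.span {((ℓ ^ k : ℕ) : ℤ_[ℓ])} := by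
    rw [PadicInt.ker_toZModPow, Nat.cast_pow]
  have hsurj : Function.Surjective (PadicInt.toZModPow (p := ℓ) k) := by
    intro x
    exact ⟨(x.val : ℤ_[ℓ]), by rw [map_natCast, ZMod.natCast_zmod_val]⟩
  have e := (Ideal.quotEquivOfEq hker.symm).trans (RingHom.quotientKerEquivOfSurjective hsurj)
  have : NeZero (ℓ ^ k) := ⟨pow_ne_zero k hℓ.out.ne_zero⟩
  rw [Nat.card_congr e.toEquiv, Nat.card_eq_fintype_card, ZMod.card]

/-- `ℤ_ℓ / a` is finite for `a ≠ 0`. -/
theorem finite_quot {a : ℤ_[ℓ]} (ha : a ≠ 0) : Finite (ℤ_[ℓ] ⧸ Ideal.span {a}) := by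
  have hu : a = (PadicInt.unitCoeff ha : ℤ_[ℓ]) * (ℓ : ℤ_[ℓ]) ^ a.valuation :=
    PadicInt.unitCoeff_spec ha
  have hspan : Ideal.span {a} = Ideal.span {((ℓ ^ a.valuation : ℕ) : ℤ_[ℓ])} := by
    rw [Nat.cast_pow]
    conv_lhs => rw [hu]
    rw [mul_comm]
    exact Ideal.span_singleton_mul_right_unit (PadicInt.unitCoeff ha).isUnit _
  rw [hspan]
  apply Nat.finite_of_card_ne_zero
  rw [card_quot_pow]
  exact pow_ne_zero _ hℓ.out.ne_zero

end Padic

/-! ### the final count -/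

section Final

variable {ℓ : ℕ} [hℓ : Fact ℓ.Prime]
variable {Λ : Type*} [AddCommGroup Λ] [Module ℤ_[ℓ] Λ] [Module.Finite ℤ_[ℓ] Λ] [Module.Free ℤ_[ℓ] Λ]
variable {f : Module.End ℤ_[ℓ] Λ} {p : ℤ} {𝒩 : Submodule ℤ_[ℓ] Λ}
variable {W : Type*} [AddCommGroup W] {π : Λ →+ W} {g : W →+ W}

/-- the constant of the toric bound: `#(ℤ_ℓ / c²) ^ rank Λ`, `c² = (p² - 1)⁴`. -/
def toricConst (ℓ : ℕ) [Fact ℓ.Prime] (Λ : Type*) [AddCommGroup Λ] [Module ℤ_[ℓ] Λ] (p : ℤ) : ℕ :=
  Nat.card (ℤ_[ℓ] ⧸ Ideal.span {((cc p : ℤ) : ℤ_[ℓ])}) ^ finrank ℤ_[ℓ] Λ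

theorem cc_cast_ne_zero (hp : p ^ 2 ≠ 1) : ((cc p : ℤ) : ℤ_[ℓ]) ≠ 0 := by
  have h : cc p ≠ 0 := by
    unfold cc cst
    have : p ^ 2 - 1 ≠ 0 := sub_ne_zero.2 hp
    positivity
  exact_mod_cast h

theorem toricConst_pos (hp : p ^ 2 ≠ 1) : 0 < toricConst ℓ Λ p := by
  have := finite_quot ℓ (cc_cast_ne_zero (ℓ := ℓ) hp)
  exact pow_pos Nat.card_pos _

/-- **the count**: `#S ≤ C · ℓ ^ (k · rank Λ_p)`, `C` independent of `k`. -/
theorem card_S_le_pow [Finite W] (hp : p ^ 2 ≠ 1) (k : ℕ)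
    (hf : aeval f (P2 ((p : ℤ) : ℤ_[ℓ]) * P1 ℤ_[ℓ]) = 0)
    (h𝒩 : 𝒩 ≤ Lp (R := ℤ_[ℓ]) f p)
    (hπ : Function.Surjective π)
    (hker : ∀ x : Λ, π x = 0 → ∃ y : Λ, x = (((ℓ ^ k : ℕ) : ℕ) : ℤ_[ℓ]) • y)
    (hm : ∀ y : Λ, π ((((ℓ ^ k : ℕ) : ℕ) : ℤ_[ℓ]) • y) = 0)
    (hg : ∀ x : Λ, π (f x) = g (π x)) :
    Nat.card ↥(S p 𝒩 π g) ≤
      toricConst ℓ Λ p * ℓ ^ (k * finrank ℤ_[ℓ] ↥(Kp f ((p : ℤ) : ℤ_[ℓ]))) := by
  have h1 := card_S_le (R := ℤ_[ℓ]) (m := ℓ ^ k) hf h𝒩 hπ hker hm hg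
  refine h1.trans (Nat.mul_le_mul ?_ ?_)
  · have := finite_quot ℓ (cc_cast_ne_zero (ℓ := ℓ) hp)
    exact card_ker_zsmul_le (R := ℤ_[ℓ]) π hπ (cc p)
  · have hfin : Finite (ℤ_[ℓ] ⧸ Ideal.span {(((ℓ ^ k : ℕ) : ℕ) : ℤ_[ℓ])}) := by
      apply Nat.finite_of_card_ne_zero
      rw [card_quot_pow]
      exact pow_ne_zero _ hℓ.out.ne_zero
    have h2 := card_map_le (R := ℤ_[ℓ]) (Lp (R := ℤ_[ℓ]) f p) π (((ℓ ^ k : ℕ) : ℕ) : ℤ_[ℓ]) hm
    rw [card_quot_pow, ← pow_mul] at h2
    exact h2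

end Final

end

end Fermat.Agent.M15.ToricRank3
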