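/-
Programme M15 (target S15), chapter R2 (TORIC), helper3: **assembly of the toric bound**, for an
abstract `Γ`-module `J` (vocabulary of `M15/KumRep6`, `M15/ToricTate3`).

Inputs, at a prime `p ≠ ℓ`:

* `UnipAt J ℓ p` : `(τ - 1)² = 0` on `J[ℓ^∞]` for `τ` in the inertia group at `p`   (S34's input);
* `FrobAt J ℓ p` : `(φ² - p²)(φ² - 1)² = 0` on `J[ℓ^∞]` for `φ` a Frobenius at `p`   (S35's input);
* `J` smooth, `J[ℓ]` finite, `𝕋` commutative on torsion, `J` `ℓ`-divisible;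
* `DetAt J ε p lam` : `det (φ | Λ) = ± p ^ lam`.

Output: **`toricBound`** : `ToricBound J ε p lam`.
-/
import Mathlib
import Fermat.Agent.M15.ToricTate3
import Fermat.Agent.M15.ToricRank3
import Fermat.Agent.M15.ToricCoh3
import Fermat.Agent.M15.ToricAlg3

set_option autoImplicit false
set_option linter.unusedSectionVars false
set_option linter.style.haveILetI false

open CategoryTheory ExtCitation Polynomial

namespace Fermat.Agent.M15.ToricAsm3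

open Fermat.Agent.ES.J.TateModule13 Fermat.Agent.M15.KumRep6 Fermat.Agent.M15.KumMap6
  Fermat.Agent.M15.KumLoc6 Fermat.Agent.M15.DevDefs5 Fermat.Agent.W56.Defs9
  Fermat.Agent.M15.ToricTate3 Fermat.Agent.M15.ToricGroup3 Fermat.Agent.M15.ToricCoh3
  Fermat.Agent.M15.ToricLattice3 Fermat.Agent.M15.ToricRank3 Fermat.Agent.M15.ToricAlg3

local notation "Γ" => (AlgebraicClosure ℚ ≃ₐ[ℚ] AlgebraicClosure ℚ)
local notation "Qbar" => AlgebraicClosure ℚ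

noncomputable section

/-! ### the tame relation on a finite module with unipotent inertia -/

section Conj

variable {k : Type} [CommRing k] (M : Rep.{0} k Γ) (p : Nat.Primes)

/-- `ρ` with values in the additive endomorphisms, on the inertia group at `p`. -/
def rhoI : ↥((primeLocalPlace p).inertiaSubgroupIn ℚ) →* AddMonoid.End M where
  toFun g := (M.ρ (g : Γ)).toAddMonoidHom
  map_one' := by
    ext m
    show M.ρ ((1 : ↥((primeLocalPlace p).inertiaSubgroupIn ℚ)) : Γ) m = m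
    rw [Subgroup.coe_one, map_one]
    rfl
  map_mul' g h := by
    ext m
    show M.ρ ((g * h : ↥((primeLocalPlace p).inertiaSubgroupIn ℚ)) : Γ) m =
      M.ρ (g : Γ) (M.ρ (h : Γ) m)
    rw [Subgroup.coe_mul, map_mul]
    rfl

variable {M p}

@[simp] theorem rhoI_apply (g : ↥((primeLocalPlace p).inertiaSubgroupIn ℚ)) (m : M) :
    rhoI M p g m = M.ρ (g : Γ) m := rfl

/-- **the tame relation**: `ρ (φ σ φ⁻¹) = ρ (σ ^ p)` on a finite smooth module killed by an integer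
prime to `p`, with unipotent inertia at `p`. -/
theorem rho_conj_eq [Finite M]
    (hsm : ∀ m : M, ∃ F : IntermediateField ℚ Qbar, FiniteDimensional ℚ F ∧
      ∀ s ∈ F.fixingSubgroup, M.ρ s m = m)
    {n : ℕ} (hn : ∀ m : M, n • m = 0) (hnp : Nat.Coprime n p)
    (hunip : ∀ σ ∈ (primeLocalPlace p).inertiaSubgroupIn ℚ, ∀ m : M,
      M.ρ σ (M.ρ σ m) + m = M.ρ σ m + M.ρ σ m)
    {φ : Γ} (hφ : (primeLocalPlace p).IsFrobeniusAt φ p) {σ : Γ}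
    (hσ : σ ∈ (primeLocalPlace p).inertiaSubgroupIn ℚ) (m : M) :
    M.ρ (φ * σ * φ⁻¹) m = M.ρ (σ ^ (p : ℕ)) m := by
  classical
  have hA := Fermat.Agent.W56.UnipSel8.liesOverPrime_primeLocalPlace p
  obtain ⟨F₀, hF₀fd, hF₀M, -⟩ := exists_common_field (M := M) (p := p) hsm
    (fun x : PEmpty => x.elim)
  haveI := hF₀fd
  let c : Unit → ↥((primeLocalPlace p).inertiaSubgroupIn ℚ) → M := fun _ _ => 0
  have hc : ∀ y, IsCoc (rhoI M p) (c y) := by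
    intro y g h
    show (0 : M) = 0 + rhoI M p g 0
    rw [map_zero, add_zero]
  set F := aff c hc with hF
  have hcont : ∀ s : ↥((primeLocalPlace p).inertiaSubgroupIn ℚ),
      (∀ x ∈ F₀, (s : Γ) x = x) → F s = 1 := by
    intro s hs
    refine aff_eq_one_of c hc (fun m => ?_) (fun _ => rfl)
    exact hF₀M _ ((IntermediateField.mem_fixingSubgroup_iff F₀ _).2 hs) m
  have hord : ∀ s : ↥((primeLocalPlace p).inertiaSubgroupIn ℚ), F s ^ (n * n) = 1 := fun s =>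
    aff_pow_eq_one c hc (fun m => hunip _ s.2 m) hn
  have hH : ∀ (s : ↥((primeLocalPlace p).inertiaSubgroupIn ℚ)) (a : ℕ),
      F s ^ (p : ℕ) ^ a = 1 → F s = 1 := by
    intro s a h
    refine eq_one_of_pow_eq_one_of_coprime (hord s) h ?_
    exact Nat.Coprime.pow_right _ (Nat.Coprime.mul_left hnp hnp)
  have h1 := Fermat.Agent.M15.TameRel3.tame_relation p.2 hA F F₀ hcont hH hφ ⟨σ, hσ⟩
  rw [← map_pow] at h1
  have h2 := (aff_eq_iff c hc () (fun _ => rfl) h1).1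
  exact congrArg (fun e : AddMonoid.End M => e m) h2

end Conj

/-! ### the two geometric inputs -/

variable (J : Type) [AddCommGroup J] [DistribMulAction Γ J]
  {𝕋 : Type} [Ring 𝕋] [Module 𝕋 J] [SMulCommClass Γ 𝕋 J] {ℓ : ℕ} [hℓ : Fact ℓ.Prime]
  (ε : 𝕋 →+* ZMod ℓ)

/-- **(F0)**: `(τ - 1)² = 0` on `J[ℓ^∞]`, `τ` in the inertia group at `p`. -/
def UnipAt (ℓ : ℕ) (p : Nat.Primes) : Prop :=
  ∀ τ ∈ (primeLocalPlace p).inertiaSubgroupIn ℚ, ∀ (k : ℕ) (y : J), ℓ ^ k • y = 0 →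
    τ • τ • y + y = τ • y + τ • y

/-- **(F2)**: `(φ² - p²)(φ² - 1)² = 0` on `J[ℓ^∞]`, `φ` a Frobenius at `p`. -/
def FrobAt (ℓ : ℕ) (p : Nat.Primes) : Prop :=
  ∀ φ : Γ, (primeLocalPlace p).IsFrobeniusAt φ p → ∀ (k : ℕ) (y : J), ℓ ^ k • y = 0 →
    (φ ^ 6) • y + (1 + 2 * (p : ℕ) ^ 2) • ((φ ^ 2) • y) =
      (2 + (p : ℕ) ^ 2) • ((φ ^ 4) • y) + (p : ℕ) ^ 2 • y

variable {J ε}

/-! ### the finite levels -/

theorem gval_nsmul (k n : ℕ) (m : GRep J ε k) : gval J ε k (n • m) = n • gval J ε k m := by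
  induction n with
  | zero => simp
  | succ n ih => rw [succ_nsmul, succ_nsmul, gval_add, ih]

theorem pow_smul_GRep (k : ℕ) (m : GRep J ε k) : ℓ ^ k • m = 0 := by
  apply gval_injective
  rw [gval_nsmul, gval_zero]
  exact (gval_mem m).1

theorem smooth_GRep (hsm : IsSmoothAct J) (k : ℕ) (m : GRep J ε k) :
    ∃ F : IntermediateField ℚ Qbar, FiniteDimensional ℚ F ∧
      ∀ s ∈ F.fixingSubgroup, (GRep J ε k).ρ s m = m := by
  obtain ⟨F, hF, h⟩ := hsm (gval J ε k m)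
  exact ⟨F, hF, fun s hs => gval_injective (by rw [gval_ρ, h s hs])⟩

theorem unip_GRep {p : Nat.Primes} (h0 : UnipAt J ℓ p) (k : ℕ) :
    ∀ σ ∈ (primeLocalPlace p).inertiaSubgroupIn ℚ, ∀ m : GRep J ε k,
      (GRep J ε k).ρ σ ((GRep J ε k).ρ σ m) + m = (GRep J ε k).ρ σ m + (GRep J ε k).ρ σ m := by
  intro σ hσ m
  apply gval_injective
  rw [gval_add, gval_add, gval_ρ, gval_ρ]
  exact h0 σ hσ k _ (gval_mem m).1

theorem coprime_pow {p : Nat.Primes} (hℓp : ℓ ≠ (p : ℕ)) (k : ℕ) : Nat.Coprime (ℓ ^ k) p :=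
  Nat.Coprime.pow_left k ((Nat.coprime_primes hℓ.out p.2).2 hℓp)

/-- the tame relation on `J[ℓ^∞]_ε`. -/
theorem smul_conj_eq {p : Nat.Primes} (hsm : IsSmoothAct J) (hfin : Finite {x : J // ℓ • x = 0})
    (hℓp : ℓ ≠ (p : ℕ)) (h0 : UnipAt J ℓ p)
    {φ : Γ} (hφ : (primeLocalPlace p).IsFrobeniusAt φ p) {σ : Γ}
    (hσ : σ ∈ (primeLocalPlace p).inertiaSubgroupIn ℚ) (k : ℕ) {z : J} (hz : z ∈ kerE J ε k) :
    (φ * σ * φ⁻¹) • z = (σ ^ (p : ℕ)) • z := by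
  haveI := finite_GRep ε hfin k
  have h := rho_conj_eq (M := GRep J ε k) (smooth_GRep hsm k) (pow_smul_GRep k)
    (coprime_pow hℓp k) (unip_GRep h0 k) hφ hσ (gmk J ε k z hz)
  have h' := congrArg (gval J ε k) h
  rw [gval_ρ, gval_ρ, gval_gmk] at h'
  exact h'

/-! ### the lattice `Λ` -/

section Lattice

variable {p : Nat.Primes}

theorem coe_proj_rhoLam (g : Γ) (x : Lam J ε) (k : ℕ) :
    ((proj k (rhoLam J ε g x) : ↥(Jeps J ε)) : J) = g • ((proj k x : ↥(Jeps J ε)) : J) := rfl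

/-- the tame relation on `Λ`. -/
theorem rhoLam_conj (hsm : IsSmoothAct J) (hfin : Finite {x : J // ℓ • x = 0})
    (hℓp : ℓ ≠ (p : ℕ)) (h0 : UnipAt J ℓ p)
    {φ : Γ} (hφ : (primeLocalPlace p).IsFrobeniusAt φ p) {σ : Γ}
    (hσ : σ ∈ (primeLocalPlace p).inertiaSubgroupIn ℚ) :
    rhoLam J ε (φ * σ * φ⁻¹) = rhoLam J ε σ ^ (p : ℕ) := by
  rw [← map_pow]
  apply LinearMap.ext
  intro x
  ext k
  show ((proj k (rhoLam J ε (φ * σ * φ⁻¹) x) : ↥(Jeps J ε)) : J) =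
    ((proj k (rhoLam J ε (σ ^ (p : ℕ)) x) : ↥(Jeps J ε)) : J)
  rw [coe_proj_rhoLam, coe_proj_rhoLam]
  exact smul_conj_eq hsm hfin hℓp h0 hφ hσ k (proj_mem_kerE k x)

/-- unipotency on `Λ`. -/
theorem rhoLam_sub_one_sq (h0 : UnipAt J ℓ p) {σ : Γ}
    (hσ : σ ∈ (primeLocalPlace p).inertiaSubgroupIn ℚ) :
    (rhoLam J ε σ - 1) * (rhoLam J ε σ - 1) = 0 := by
  apply LinearMap.ext
  intro x
  ext k
  have hz : ℓ ^ k • ((proj k x : ↥(Jeps J ε)) : J) = 0 := (proj_mem_kerE k x).1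
  have h := h0 σ hσ k _ hz
  show σ • (σ • ((proj k x : ↥(Jeps J ε)) : J) - ((proj k x : ↥(Jeps J ε)) : J)) -
    (σ • ((proj k x : ↥(Jeps J ε)) : J) - ((proj k x : ↥(Jeps J ε)) : J)) = 0
  rw [smul_sub, sub_sub_sub_eq, h]
  abel

/-- the Frobenius relation on `Λ`, in the form of `ES/N35/TateFrob12.tate_frob`. -/
theorem rhoLam_frob (h2 : FrobAt J ℓ p) {φ : Γ} (hφ : (primeLocalPlace p).IsFrobeniusAt φ p)
    (x : Lam J ε) :
    (rhoLam J ε φ ^ 6) x + ((1 + 2 * (p : ℕ) ^ 2 : ℕ) : ℤ_[ℓ]) • (rhoLam J ε φ ^ 2) x =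
      ((2 + (p : ℕ) ^ 2 : ℕ) : ℤ_[ℓ]) • (rhoLam J ε φ ^ 4) x +
        (((p : ℕ) ^ 2 : ℕ) : ℤ_[ℓ]) • x := by
  rw [← map_pow, ← map_pow, ← map_pow]
  ext k
  have hz : ℓ ^ k • ((proj k x : ↥(Jeps J ε)) : J) = 0 := (proj_mem_kerE k x).1
  have h := h2 φ hφ k _ hz
  show ((proj k (rhoLam J ε (φ ^ 6) x + ((1 + 2 * (p : ℕ) ^ 2 : ℕ) : ℤ_[ℓ]) •
      rhoLam J ε (φ ^ 2) x) : ↥(Jeps J ε)) : J) =
    ((proj k (((2 + (p : ℕ) ^ 2 : ℕ) : ℤ_[ℓ]) • rhoLam J ε (φ ^ 4) x +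
      (((p : ℕ) ^ 2 : ℕ) : ℤ_[ℓ]) • x) : ↥(Jeps J ε)) : J)
  rw [map_add, map_add, proj_natCast_smul, proj_natCast_smul, proj_natCast_smul,
    AddSubgroup.coe_add, AddSubgroup.coe_add, AddSubgroup.coe_nsmul, AddSubgroup.coe_nsmul,
    AddSubgroup.coe_nsmul, coe_proj_rhoLam, coe_proj_rhoLam, coe_proj_rhoLam]
  exact h

/-- the polynomial `(X² - q²)(X² - 1)²`, expanded. -/
theorem P2_mul_P1 {R : Type*} [CommRing R] (q : R) :
    P2 q * P1 R = X ^ 6 + C (1 + 2 * q ^ 2) * X ^ 2 - (C (2 + q ^ 2) * X ^ 4 + C (q ^ 2)) := by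
  simp only [P2, P1, C_mul, C_add, C_pow, C_1, C_ofNat]
  ring

theorem aeval_sextic {R Λ : Type*} [CommRing R] [AddCommGroup Λ] [Module R Λ]
    (f : Module.End R Λ) (a b c : R) (x : Λ) :
    aeval f (X ^ 6 + C a * X ^ 2 - (C b * X ^ 4 + C c)) x =
      (f ^ 6) x + a • (f ^ 2) x - (b • (f ^ 4) x + c • x) := by
  simp only [map_sub, map_add, map_mul, aeval_C, aeval_X_pow, LinearMap.sub_apply,
    LinearMap.add_apply, Module.End.mul_apply, Module.algebraMap_end_apply]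

/-- **(F2) on `Λ`**: `(f² - p²)(f² - 1)² = 0`. -/
theorem aeval_rhoLam (h2 : FrobAt J ℓ p) {φ : Γ} (hφ : (primeLocalPlace p).IsFrobeniusAt φ p) :
    aeval (rhoLam J ε φ) (P2 ((((p : ℕ) : ℤ) : ℤ) : ℤ_[ℓ]) * P1 ℤ_[ℓ]) = 0 := by
  apply LinearMap.ext
  intro x
  have h := rhoLam_frob (ε := ε) h2 hφ x
  rw [P2_mul_P1, aeval_sextic, LinearMap.zero_apply, sub_eq_zero]
  push_cast at h
  rw [Int.cast_natCast]
  exact h

/-- the relation `f N = p N f`, `f = ρ(φ)`, `N = ρ(σ) - 1`. -/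
theorem rhoLam_mul_sub_one (hsm : IsSmoothAct J) (hfin : Finite {x : J // ℓ • x = 0})
    (hℓp : ℓ ≠ (p : ℕ)) (h0 : UnipAt J ℓ p)
    {φ : Γ} (hφ : (primeLocalPlace p).IsFrobeniusAt φ p) {σ : Γ}
    (hσ : σ ∈ (primeLocalPlace p).inertiaSubgroupIn ℚ) :
    rhoLam J ε φ * (rhoLam J ε σ - 1) =
      (((p : ℕ) : ℕ) : ℤ_[ℓ]) • ((rhoLam J ε σ - 1) * rhoLam J ε φ) := by
  refine mul_eq_smul_mul_of_conj (rhoLam_sub_one_sq h0 hσ) (p : ℕ) ?_
  rw [add_sub_cancel, ← rhoLam_conj hsm hfin hℓp h0 hφ hσ, ← map_mul, ← map_mul,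
    inv_mul_cancel_right]

/-- the monodromy submodule `𝒩 = ∑_σ (σ - 1) Λ`. -/
def monoSub (J : Type) [AddCommGroup J] [DistribMulAction Γ J]
    {𝕋 : Type} [Ring 𝕋] [Module 𝕋 J] [SMulCommClass Γ 𝕋 J] {ℓ : ℕ} [Fact ℓ.Prime]
    (ε : 𝕋 →+* ZMod ℓ) (p : Nat.Primes) : Submodule ℤ_[ℓ] (Lam J ε) :=
  Submodule.span ℤ_[ℓ]
    {z | ∃ σ ∈ (primeLocalPlace p).inertiaSubgroupIn ℚ, ∃ x : Lam J ε, z = rhoLam J ε σ x - x}

theorem natCast_ne_zero' (n : ℕ) (hn : n ≠ 0) : ((n : ℕ) : ℤ_[ℓ]) ≠ 0 := by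
  exact_mod_cast hn

/-- **the monodromy lands in the toric part `Λ_p = ker (f² - p²)`.** -/
theorem monoSub_le (hsm : IsSmoothAct J) (hfin : Finite {x : J // ℓ • x = 0})
    (hℓp : ℓ ≠ (p : ℕ)) (h0 : UnipAt J ℓ p) (h2 : FrobAt J ℓ p)
    {φ : Γ} (hφ : (primeLocalPlace p).IsFrobeniusAt φ p) :
    monoSub J ε p ≤ Lp (R := ℤ_[ℓ]) (rhoLam J ε φ) ((p : ℕ) : ℤ) := by
  haveI := (finite_free_Lam (ε := ε) hfin).1
  haveI := (finite_free_Lam (ε := ε) hfin).2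
  refine Submodule.span_le.2 ?_
  rintro _ ⟨σ, hσ, x, rfl⟩
  have hp2 : 2 ≤ (p : ℕ) := p.2.two_le
  have hpz : ((((p : ℕ) : ℤ) : ℤ) : ℤ_[ℓ]) = (((p : ℕ) : ℕ) : ℤ_[ℓ]) := Int.cast_natCast _
  have hf := aeval_rhoLam (ε := ε) h2 hφ
  have hN := rhoLam_mul_sub_one (ε := ε) hsm hfin hℓp h0 hφ hσ
  rw [← hpz] at hN
  have hp0 : ((((p : ℕ) : ℤ) : ℤ) : ℤ_[ℓ]) ≠ 0 := by
    rw [hpz]; exact natCast_ne_zero' _ (by omega)
  have hc : ((((((p : ℕ) : ℤ) : ℤ) : ℤ_[ℓ])) ^ 2 - 1) *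
      ((((((p : ℕ) : ℤ) : ℤ) : ℤ_[ℓ]) ^ 2) ^ 2 - 1) ^ 2 ≠ 0 := by
    have h1 : (((p : ℕ) : ℤ) ^ 2 - 1) * ((((p : ℕ) : ℤ) ^ 2) ^ 2 - 1) ^ 2 ≠ 0 := by
      have hpz2 : (2 : ℤ) ≤ ((p : ℕ) : ℤ) := by exact_mod_cast hp2
      have h3 : (1 : ℤ) < ((p : ℕ) : ℤ) ^ 2 := by nlinarith
      have h4 : (1 : ℤ) < (((p : ℕ) : ℤ) ^ 2) ^ 2 := by nlinarith
      have h5 : ((p : ℕ) : ℤ) ^ 2 - 1 ≠ 0 := by omega
      have h6 : (((p : ℕ) : ℤ) ^ 2) ^ 2 - 1 ≠ 0 := by omega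
      exact mul_ne_zero h5 (pow_ne_zero 2 h6)
    exact_mod_cast h1
  have h := P2_mul_eq_zero (rhoLam J ε φ) (rhoLam J ε σ - 1) _ hp0 hc hf hN
  have h' := LinearMap.congr_fun h x
  rw [Module.End.mul_apply, LinearMap.zero_apply] at h'
  exact h'

end Lattice

/-! ### the toric bound -/

section Main

variable {p : Nat.Primes}

/-- `N M ≤ π(𝒩)`. -/
theorem exists_monoSub_of_mem_NMall (hfin : Finite {x : J // ℓ • x = 0})
    (hcomm : CommOnTors J 𝕋 ℓ) (hdiv : ∀ x : J, ∃ y : J, ℓ • y = x) (k : ℕ)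
    {z : GRep J ε k} (hz : z ∈ NMall (GRep J ε k) p) :
    ∃ n ∈ monoSub J ε p, projG J ε k n = z := by
  unfold NMall at hz
  induction hz using AddSubgroup.closure_induction with
  | mem z hz =>
    obtain ⟨σ, hσ, m, rfl⟩ := hz
    obtain ⟨x, rfl⟩ := projG_surjective (ε := ε) hfin hcomm hdiv k m
    refine ⟨rhoLam J ε σ x - x, Submodule.subset_span ⟨σ, hσ, x, rfl⟩, ?_⟩
    rw [map_sub, projG_rhoLam]
  | zero => exact ⟨0, Submodule.zero_mem _, map_zero _⟩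
  | add a b _ _ ha hb =>
    obtain ⟨n, hn, rfl⟩ := ha
    obtain ⟨n', hn', rfl⟩ := hb
    exact ⟨n + n', Submodule.add_mem _ hn hn', map_add _ _ _⟩
  | neg a _ ha =>
    obtain ⟨n, hn, rfl⟩ := ha
    exact ⟨-n, Submodule.neg_mem _ hn, map_neg _ _⟩

/-- **the toric bound**: `DetAt J ε p lam → ToricBound J ε p lam`. -/
theorem toricBound (hsm : IsSmoothAct J) (hfin : Finite {x : J // ℓ • x = 0})
    (hcomm : CommOnTors J 𝕋 ℓ) (hdiv : ∀ x : J, ∃ y : J, ℓ • y = x)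
    (hℓp : ℓ ≠ (p : ℕ)) (h0 : UnipAt J ℓ p) (h2 : FrobAt J ℓ p) {lam : ℕ}
    (hdet : DetAt J ε (p : ℕ) lam) : ToricBound J ε p lam := by
  haveI := (finite_free_Lam (ε := ε) hfin).1
  haveI := (finite_free_Lam (ε := ε) hfin).2
  have hA := Fermat.Agent.W56.UnipSel8.liesOverPrime_primeLocalPlace p
  obtain ⟨φ, hφ⟩ := Fermat.Agent.W56.FrobGen8.exists_isFrobeniusAt p.2 hA
  have hp2 : 2 ≤ (p : ℕ) := p.2.two_le
  have hpz2 : (2 : ℤ) ≤ ((p : ℕ) : ℤ) := by exact_mod_cast hp2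
  have hpz : ((((p : ℕ) : ℤ) : ℤ) : ℤ_[ℓ]) = (((p : ℕ) : ℕ) : ℤ_[ℓ]) := Int.cast_natCast _
  have hp1 : ((p : ℕ) : ℤ) ^ 2 ≠ 1 := by
    have : (1 : ℤ) < ((p : ℕ) : ℤ) ^ 2 := by nlinarith
    omega
  set f := rhoLam J ε φ with hf_def
  have hf := aeval_rhoLam (ε := ε) h2 hφ
  have h𝒩 := monoSub_le (ε := ε) hsm hfin hℓp h0 h2 hφ
  -- the rank of the toric part
  have hrank : Module.finrank ℤ_[ℓ] ↥(Kp f ((((p : ℕ) : ℤ) : ℤ) : ℤ_[ℓ])) = lam := by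
    refine finrank_Kp_eq hf ?_ ?_ ?_
    · have h1 : cst (((p : ℕ) : ℤ)) ≠ 0 := by
        unfold cst
        have : ((p : ℕ) : ℤ) ^ 2 - 1 ≠ 0 := sub_ne_zero.2 hp1
        exact pow_ne_zero 2 this
      rw [← cast_cst]
      exact_mod_cast h1
    · intro a b hab
      rw [hpz] at hab
      have hab' : (p : ℕ) ^ a = (p : ℕ) ^ b := by exact_mod_cast hab
      exact Nat.pow_right_injective hp2 hab'
    · rw [hpz]
      exact hdet _ φ hA hφ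
  refine ⟨toricConst ℓ (Lam J ε) ((p : ℕ) : ℤ), toricConst_pos hp1, fun k L => ?_⟩
  haveI := finite_GRep ε hfin k
  have h1 := card_ramL_mul_le (M := GRep J ε k) (smooth_GRep hsm k) (pow_smul_GRep k)
    (coprime_pow hℓp k) (unip_GRep h0 k) L hφ
  set g : GRep J ε k →+ GRep J ε k := ((GRep J ε k).ρ φ).toAddMonoidHom with hg
  have hle : Sall (GRep J ε k) p φ ≤ S ((p : ℕ) : ℤ) (monoSub J ε p) (projG J ε k) g := by
    intro w hw
    rw [mem_Sall_iff] at hw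
    rw [mem_S_iff]
    obtain ⟨n, hn, hnz⟩ := exists_monoSub_of_mem_NMall (ε := ε) hfin hcomm hdiv k hw
    refine ⟨n, hn, ?_⟩
    rw [hnz, natCast_zsmul]
    rfl
  have h3 := card_S_le_pow (ℓ := ℓ) (g := g) hp1 k hf h𝒩
    (projG_surjective (ε := ε) hfin hcomm hdiv k)
    (fun x hx => (projG_eq_zero_iff k x).1 hx) (projG_pow_smul k)
    (fun x => projG_rhoLam k φ x)
  rw [hrank] at h3
  have h4 : Nat.card ↥(Sall (GRep J ε k) p φ) ≤
      toricConst ℓ (Lam J ε) ((p : ℕ) : ℤ) * ℓ ^ (k * lam) :=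
    (Nat.card_le_card_of_injective (AddSubgroup.inclusion hle)
      (AddSubgroup.inclusion_injective hle)).trans h3
  exact h1.trans (Nat.mul_le_mul_right _ h4)

end Main

end

end Fermat.Agent.M15.ToricAsm3
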