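/-
Programme M15 (target S15), chapter R2 (TORIC), helper3: **the toric bound at `J = J₀(p)(ℚ̄)`**.

`ToricAsm3.toricBound` instantiated at `J := JZero p`, any coefficient ring `𝕋` acting on `J`
commuting with Galois and commutatively on `ℓ`-power torsion, any `ε : 𝕋 →+* ZMod ℓ`, `ℓ ≠ p`:

* smoothness, finiteness of `J[ℓ]` : `KumInst6`;
* divisibility : helper4's `DivFinal4.jzero_divisible`;
* `UnipAt` : the geometric input of S34 (`ES/N34/IfaceN4.InertiaTors`, proved as in `Agent/S34`);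
* `FrobAt` : the geometric input of S35 (`ES/N35/PushO12.FrobTors`, proved as in `Agent/S35`) at
  `M₀ = 1`, `q = p`, where the two degeneracy push-forwards land in `J₀(1)(ℚ̄) = 0` (`PicZero3`).

**`toricBound_jzero`** : `DetAt (JZero p) ε p lam → ToricBound (JZero p) ε ⟨p, hp⟩ lam`.
-/
import Mathlib
import Fermat.Agent.M15.ToricAsm3
import Fermat.Agent.M15.PicZero3
import Fermat.Agent.M15.KumInst6
import Fermat.Agent.M15.DivFinal4
import Fermat.Agent.ES.N34.S34OfTors12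
import Fermat.Agent.ES.N34.TorsionInertia12
import Fermat.Agent.ES.N34.LvlN17
import Fermat.Agent.ES.N34.DescN1
import Fermat.Agent.ES.N34.NumN13
import Fermat.Agent.ES.N34.ModelEnd4
import Fermat.Agent.ES.N35.S35Top12
import Fermat.Agent.ES.N35.NodeItems29
import Fermat.Agent.ES.N35.NormBarModel17

set_option autoImplicit false
set_option linter.unusedSectionVars false
set_option linter.style.haveILetI false

open ExtCitation ModularCurve

namespace Fermat.Agent.M15.ToricFinal3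

open Fermat.Agent.M15.KumRep6 Fermat.Agent.M15.ToricTate3 Fermat.Agent.M15.ToricAsm3

local notation "Γ" => (AlgebraicClosure ℚ ≃ₐ[ℚ] AlgebraicClosure ℚ)
local notation "Qbar" => AlgebraicClosure ℚ

/-! ### the two geometric inputs, unconditionally -/

/-- the geometric input of S34, by the chain of `Agent/S34`. -/
theorem inertiaTors : Fermat.Agent.ES.N34.IfaceN4.InertiaTors :=
  Fermat.Agent.ES.N34.IfaceN4.inertiaTors_of_chain
    Fermat.Agent.ES.N34.TorsionInertia12.topStep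
    Fermat.Agent.ES.N34.LvlN17.hlvl
    Fermat.Agent.ES.N34.DescN1.descStep_chain
    (Fermat.Agent.ES.N34.NumN13.numStep_of_model
      (fun q M' _ _ A hq hqM h2 h4 hA =>
        Fermat.Agent.ES.N34.ModelEnd4.modelInput_four q M' A hq hqM h2 h4 hA)
      (fun M' _ A h2 h9 hA =>
        Fermat.Agent.ES.N34.ModelEnd4.modelInput_nine M' A h2 h9 hA))

/-- the geometric input of S35, by the chain of `Agent/S35`. -/
theorem frobTors : Fermat.Agent.ES.N35.PushO12.FrobTors :=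
  Fermat.Agent.ES.N35.S35Top12.frobTors_of_num
    (Fermat.Agent.ES.N35.NumO13.numStepO_of_suppliers
      Fermat.Agent.ES.N35.NormBarModel17.hnorm
      (fun q M' _ _ A hq hqM h2 hM hA =>
        Fermat.Agent.ES.N35.NodeItems29.nodeItems_four q M' A hq hqM h2 hM hA)
      (fun M' _ A hqM hM hA => Fermat.Agent.ES.N35.NodeItems29.nodeItems_nine M' A hqM hM hA))

/-- the Frobenius relation on the prime-to-`q` torsion of `J₀(N)`, `N = M₀ q`, when `J₀(M₀) = 0`. -/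
theorem frob_of_mul (N M₀ q : ℕ) [NeZero M₀] [NeZero q] (hN : M₀ * q = N) (hq : q.Prime)
    (hqM : ¬ q ∣ M₀) (hJ : ∀ y : JZero M₀, y = 0)
    (A : ValuationSubring Qbar) (hA : A.LiesOverPrime q) (σ : Γ) (hσ : A.IsFrobeniusAt σ q)
    (m : ℕ) (hm : ¬ q ∣ m) (y : JZero N) (hy : m • y = 0) :
    (σ ^ 6) • y + (1 + 2 * q ^ 2) • ((σ ^ 2) • y) = (2 + q ^ 2) • ((σ ^ 4) • y) + q ^ 2 • y := by
  subst hN
  exact frobTors M₀ q hq hqM A hA σ hσ m hm y hy (hJ _) (hJ _)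

variable (p : ℕ) [NeZero p] (hp : p.Prime) (ℓ : ℕ) [hℓ : Fact ℓ.Prime]

include hp in
theorem not_dvd_pow (hℓp : ℓ ≠ p) (k : ℕ) : ¬ p ∣ ℓ ^ k := by
  intro h
  have h1 := hp.dvd_of_dvd_pow h
  exact hℓp ((Nat.prime_dvd_prime_iff_eq hp hℓ.out).1 h1).symm

/-- **(F0)** at `J₀(p)`. -/
theorem unipAt_jzero (hℓp : ℓ ≠ p) : UnipAt (JZero p) ℓ ⟨p, hp⟩ := by
  intro τ hτ k y hy
  have hA := Fermat.Agent.W56.UnipSel8.liesOverPrime_primeLocalPlace ⟨p, hp⟩
  have hsq : ¬ p ^ 2 ∣ p := by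
    intro h
    have h1 : p ^ 2 ≤ p := Nat.le_of_dvd hp.pos h
    have h2 := hp.two_le
    nlinarith
  exact inertiaTors p p hp dvd_rfl hsq _ hA τ hτ (ℓ ^ k) (not_dvd_pow p hp ℓ hℓp k) y hy

/-- **(F2)** at `J₀(p)`. -/
theorem frobAt_jzero (hℓp : ℓ ≠ p) : FrobAt (JZero p) ℓ ⟨p, hp⟩ := by
  intro φ hφ k y hy
  have hA := Fermat.Agent.W56.UnipSel8.liesOverPrime_primeLocalPlace ⟨p, hp⟩
  have h1 : ¬ p ∣ 1 := fun h => hp.one_lt.ne' (Nat.dvd_one.1 h)
  exact frob_of_mul p 1 p (one_mul p) hp h1 Fermat.Agent.M15.PicZero3.jzero_one_eq_zero _ hA φ hφ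
    (ℓ ^ k) (not_dvd_pow p hp ℓ hℓp k) y hy

/-- **the toric bound at `J₀(p)`**, for any coefficient ring. -/
theorem toricBound_jzero {𝕋 : Type} [Ring 𝕋] [Module 𝕋 (JZero p)] [SMulCommClass Γ 𝕋 (JZero p)]
    (ε : 𝕋 →+* ZMod ℓ) (hcomm : CommOnTors (JZero p) 𝕋 ℓ) (hℓp : ℓ ≠ p) {lam : ℕ}
    (hdet : DetAt (JZero p) ε p lam) : ToricBound (JZero p) ε ⟨p, hp⟩ lam := by
  haveI : NeZero ℓ := ⟨hℓ.out.ne_zero⟩
  exact toricBound (p := ⟨p, hp⟩) (Fermat.Agent.M15.KumInst6.isSmoothAct_jzero p)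
    (Fermat.Agent.M15.KumInst6.finite_tors_jzero p ℓ) hcomm
    (fun x => Fermat.Agent.M15.DivFinal4.jzero_divisible p ℓ hℓ.out.ne_zero x) hℓp
    (unipAt_jzero p hp ℓ hℓp) (frobAt_jzero p hp ℓ hℓp) hdet

/-- the same for the Hecke ring of `Contracts9` (the instance of `KumInst6`). -/
theorem toricBound_hecke (ε : ↥(Fermat.Agent.M15.Contracts9.heckeRing p) →+* ZMod ℓ) (hℓp : ℓ ≠ p)
    {lam : ℕ} (hdet : DetAt (JZero p) ε p lam) : ToricBound (JZero p) ε ⟨p, hp⟩ lam :=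
  toricBound_jzero p hp ℓ ε (Fermat.Agent.M15.KumInst6.commOnTors p hp ℓ) hℓp hdet

end Fermat.Agent.M15.ToricFinal3
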