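/-
Programme M15 (target S15), chapter R2 (TORIC) / (HALF), helper3: **the determinant from a trace
identity** (algebra for `DetTrace3`, the short route to (HALF-det), lead's post 966).

`R` a principal ideal domain of characteristic zero, `Λ` finite free, `f : Λ → Λ` with
`(f² - p²)(f² - 1)² = 0`, `(p² - 1)² ≠ 0`; `Λ_p = ker (f² - p²)` (vocabulary of `ToricRank3`):

* `trace_eq_of_comp_eq` : `f g = g f'`, `g` injective ⇒ `tr f = tr f'` (through the characteristic
  polynomials, `det (t - f) det g = det g det (t - f')`);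
* `trace_P1` : `tr (f² - 1)² = (p² - 1)² · rank Λ_p`;  `trace_N` : `tr (f² - p²)(f² - 1) = 0`;
* **`finrank_Kp_of_trace`** : if `tr f² = p² tr f⁻²` then `rank Λ = 2 rank Λ_p`;
  **`det_of_trace`** : then `det f = ± p ^ lam` when `rank Λ = 2 lam`;
* for a representation `ρ : G → GL(Λ)` and a character `χ`: `trace_eq_of_cpm` ((T) from (CPM)),
  `det_conj`, **`det_of_trace_rep`**.
-/
import Mathlib
import Fermat.Agent.M15.ToricRank3

set_option autoImplicit false
set_option linter.unusedSectionVars false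
set_option linter.style.haveILetI false

open Polynomial Module

namespace Fermat.Agent.M15.TraceAlg3

open Fermat.Agent.M15.ToricLattice3 Fermat.Agent.M15.ToricRank3

noncomputable section

section Algebra

variable {R : Type*} [CommRing R] [IsDomain R] [IsPrincipalIdealRing R]
variable {Λ : Type*} [AddCommGroup Λ] [Module R Λ] [Module.Finite R Λ] [Module.Free R Λ]

/-- the trace is the negative of the next-to-leading coefficient of the characteristic
polynomial. -/
theorem trace_eq_neg_nextCoeff (f : Module.End R Λ) :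
    LinearMap.trace R Λ f = -f.charpoly.nextCoeff := by
  rw [LinearMap.charpoly_def, ← Matrix.trace_eq_neg_charpoly_nextCoeff,
    LinearMap.trace_eq_matrix_trace R (Free.chooseBasis R Λ)]

/-- **intertwined endomorphisms have the same trace.** -/
theorem trace_eq_of_comp_eq [Infinite R] {f f' g : Module.End R Λ} (hg : Function.Injective g)
    (h : f * g = g * f') : LinearMap.trace R Λ f = LinearMap.trace R Λ f' := by
  have hdetg : LinearMap.det g ≠ 0 := by
    intro h0
    rw [LinearMap.det_eq_zero_iff_ker_ne_bot] at h0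
    exact h0 (LinearMap.ker_eq_bot.2 hg)
  have hchar : f.charpoly = f'.charpoly := by
    apply Polynomial.funext
    intro t
    rw [LinearMap.eval_charpoly, LinearMap.eval_charpoly]
    have h1 : (algebraMap R (Module.End R Λ) t - f) * g = g * (algebraMap R (Module.End R Λ) t - f') := by
      rw [sub_mul, mul_sub, h, Algebra.commutes]
    have h2 := congrArg LinearMap.det h1
    rw [map_mul, map_mul, mul_comm] at h2
    exact mul_left_cancel₀ hdetg h2
  rw [trace_eq_neg_nextCoeff, trace_eq_neg_nextCoeff, hchar]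

variable (f : Module.End R Λ) (p : R)

/-- **`tr (q(f)) = tr (q(f)|Λ_p) + tr (q(f)|Λ₁)`**, in the form: an endomorphism `E` of `Λ` which is
`a` on `Λ_p` and `b` on `Λ₁` (both scalars) has trace `a rank Λ_p + b rank Λ₁`. -/
theorem trace_of_scalars [Infinite R] (hf : aeval f (P2 p * P1 R) = 0) (hc : cst p ≠ 0)
    (E : Module.End R Λ) (a b : R) (ha : ∀ x ∈ Kp f p, E x = a • x) (hb : ∀ x ∈ K1 f, E x = b • x) :
    LinearMap.trace R Λ E = a * finrank R ↥(Kp f p) + b * finrank R ↥(K1 f) := by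
  obtain ⟨e⟩ := FiniteDimensional.nonempty_linearEquiv_of_finrank_eq (finrank_prod_eq hf hc).symm
  set g : Λ →ₗ[R] Λ := (iota f p).comp (e : Λ →ₗ[R] (↥(Kp f p) × ↥(K1 f))) with hg
  set P : Module.End R (↥(Kp f p) × ↥(K1 f)) :=
    (a • (LinearMap.id : ↥(Kp f p) →ₗ[R] ↥(Kp f p))).prodMap
      (b • (LinearMap.id : ↥(K1 f) →ₗ[R] ↥(K1 f))) with hP
  set E' : Module.End R Λ :=
    (e.symm : (↥(Kp f p) × ↥(K1 f)) →ₗ[R] Λ).comp (P.comp (e : Λ →ₗ[R] (↥(Kp f p) × ↥(K1 f))))
    with hE'
  have hginj : Function.Injective g := by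
    rw [hg]
    exact (iota_injective hc).comp e.injective
  have hcomm : E * g = g * E' := by
    apply LinearMap.ext
    intro x
    show E (iota f p (e x)) = iota f p (e (e.symm (P (e x))))
    rw [LinearEquiv.apply_symm_apply]
    obtain ⟨u, v⟩ := e x
    rw [iota_apply, map_add, ha u u.2, hb v v.2]
    show _ = iota f p (a • u, b • v)
    rw [iota_apply]
    rfl
  rw [trace_eq_of_comp_eq hginj hcomm]
  have h3 : LinearMap.trace R Λ E' = LinearMap.trace R _ P := by
    have := LinearMap.trace_conj' P e.symm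
    rw [← this]
    rfl
  rw [h3, hP, LinearMap.trace_prodMap', map_smul, map_smul, LinearMap.trace_id, LinearMap.trace_id,
    smul_eq_mul, smul_eq_mul]

/-- `(f² - p²)(f² - 1)` is of square zero. -/
theorem trace_N (hf : aeval f (P2 p * P1 R) = 0) :
    LinearMap.trace R Λ (f ^ 4 - (1 + p ^ 2) • f ^ 2 + (p ^ 2) • (1 : Module.End R Λ)) = 0 := by
  set E : Module.End R Λ := f ^ 4 - (1 + p ^ 2) • f ^ 2 + (p ^ 2) • (1 : Module.End R Λ) with hE
  have hE' : E = aeval f (P2 p * (X ^ 2 - 1)) := by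
    have hpoly : P2 p * (X ^ 2 - 1) = X ^ 4 - C (1 + p ^ 2) * X ^ 2 + C (p ^ 2) := by
      rw [P2]
      simp only [map_add, map_one, map_pow]
      ring
    rw [hE, hpoly, map_add, map_sub, map_mul, aeval_C, aeval_C, map_pow, map_pow, aeval_X,
      Algebra.algebraMap_eq_smul_one, Algebra.algebraMap_eq_smul_one, smul_mul_assoc, one_mul]
  have hsq : E * E = 0 := by
    rw [hE', ← map_mul]
    have : P2 p * (X ^ 2 - 1) * (P2 p * (X ^ 2 - 1)) = P2 p * (P2 p * P1 R) := by
      rw [P1]; ring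
    rw [this, map_mul, hf, mul_zero]
  have hnil : IsNilpotent E := ⟨2, by rw [pow_two, hsq]⟩
  exact (LinearMap.isNilpotent_trace_of_isNilpotent hnil).eq_zero

/-- `tr (f² - 1)² = (p² - 1)² rank Λ_p`. -/
theorem trace_P1 [Infinite R] (hf : aeval f (P2 p * P1 R) = 0) (hc : cst p ≠ 0) :
    LinearMap.trace R Λ (f ^ 4 - (2 : R) • f ^ 2 + 1) = cst p * finrank R ↥(Kp f p) := by
  set E : Module.End R Λ := f ^ 4 - (2 : R) • f ^ 2 + 1 with hE
  have hE' : E = aeval f (P1 R) := by
    have hpoly : P1 R = X ^ 4 - C (2 : R) * X ^ 2 + 1 := by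
      rw [P1]
      simp only [map_ofNat]
      ring
    rw [hE, hpoly, map_add, map_sub, map_mul, aeval_C, map_pow, map_pow, aeval_X, map_one,
      Algebra.algebraMap_eq_smul_one, smul_mul_assoc, one_mul]
  have h := trace_of_scalars f p hf hc E (cst p) 0 ?_ ?_
  · rw [h, zero_mul, add_zero]
  · intro x hx
    have hx' : aeval f (P2 p) x = 0 := hx
    have h1 := cst_smul_eq (f := f) (p := p) x
    rw [aeval_comm', hx', map_zero, sub_zero] at h1
    rw [hE', h1]
  · intro x hx
    have hx' : aeval f (P1 R) x = 0 := hx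
    rw [hE', hx', zero_smul]

/-- **the rank of the toric part from the trace identity** `tr f² = p² tr f⁻²`:
`rank Λ = 2 rank Λ_p`. -/
theorem finrank_Kp_of_trace [Infinite R] [CharZero R] (hf : aeval f (P2 p * P1 R) = 0)
    (hc : cst p ≠ 0) (finv : Module.End R Λ) (hfinv : f ^ 2 * finv = 1)
    (htr : LinearMap.trace R Λ (f ^ 2) = p ^ 2 * LinearMap.trace R Λ finv) :
    finrank R Λ = 2 * finrank R ↥(Kp f p) := by
  have hcub : f ^ 6 - (2 + p ^ 2) • f ^ 4 + (1 + 2 * p ^ 2) • f ^ 2 -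
      (p ^ 2) • (1 : Module.End R Λ) = 0 := by
    have hpoly : P2 p * P1 R =
        X ^ 6 - C (2 + p ^ 2) * X ^ 4 + C (1 + 2 * p ^ 2) * X ^ 2 - C (p ^ 2) := by
      rw [P2, P1]
      simp only [map_add, map_one, map_pow, map_mul, map_ofNat]
      ring
    rw [← hf, hpoly, map_sub, map_add, map_sub, map_mul, map_mul, aeval_C, aeval_C, aeval_C,
      map_pow, map_pow, map_pow, aeval_X, Algebra.algebraMap_eq_smul_one,
      Algebra.algebraMap_eq_smul_one, Algebra.algebraMap_eq_smul_one, smul_mul_assoc,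
      smul_mul_assoc, one_mul, one_mul]
  have e6 : f ^ 6 * finv = f ^ 4 := by
    have : f ^ 6 = f ^ 4 * f ^ 2 := by rw [← pow_add]
    rw [this, mul_assoc, hfinv, mul_one]
  have e4 : f ^ 4 * finv = f ^ 2 := by
    have : f ^ 4 = f ^ 2 * f ^ 2 := by rw [← pow_add]
    rw [this, mul_assoc, hfinv, mul_one]
  have h3 := congrArg (fun E : Module.End R Λ => LinearMap.trace R Λ (E * finv)) hcub
  simp only [sub_mul, add_mul, smul_mul_assoc, one_mul, zero_mul, e6, e4, hfinv, map_sub, map_add,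
    map_smul, map_zero, LinearMap.trace_one, smul_eq_mul] at h3
  have hN := trace_N f p hf
  have hP := trace_P1 f p hf hc
  simp only [map_sub, map_add, map_smul, LinearMap.trace_one, smul_eq_mul] at hN hP
  have hkey : cst p * ((finrank R Λ : R) - 2 * (finrank R ↥(Kp f p) : R)) = 0 := by
    unfold cst at hP ⊢
    linear_combination 2 * (hP - hN) - (p ^ 2 - 1) * (hN - h3 + htr)
  rcases mul_eq_zero.1 hkey with h0 | h0
  · exact absurd h0 hc
  · have h1 : (finrank R Λ : R) = ((2 * finrank R ↥(Kp f p) : ℕ) : R) := by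
      push_cast
      exact sub_eq_zero.1 h0
    exact_mod_cast h1

/-- **`det f = ± p ^ lam`** from the trace identity and `rank Λ = 2 lam`. -/
theorem det_of_trace [Infinite R] [CharZero R] (hf : aeval f (P2 p * P1 R) = 0)
    (hc : cst p ≠ 0) (finv : Module.End R Λ) (hfinv : f ^ 2 * finv = 1)
    (htr : LinearMap.trace R Λ (f ^ 2) = p ^ 2 * LinearMap.trace R Λ finv) {lam : ℕ}
    (hrank : finrank R Λ = 2 * lam) :
    LinearMap.det f = p ^ lam ∨ LinearMap.det f = -p ^ lam := by
  have h1 := finrank_Kp_of_trace f p hf hc finv hfinv htr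
  have h2 : finrank R ↥(Kp f p) = lam := by omega
  have h3 := det_sq hf hc
  rw [h2, ← pow_mul, mul_comm, pow_mul] at h3
  exact sq_eq_sq_iff_eq_or_eq_neg.1 h3

end Algebra

/-! ### representations -/

section Rep

variable {R : Type*} [CommRing R] [IsDomain R] [IsPrincipalIdealRing R]
variable {Λ : Type*} [AddCommGroup Λ] [Module R Λ] [Module.Finite R Λ] [Module.Free R Λ]
variable {G : Type*} [Group G] (ρ : G →* Module.End R Λ) (χ : G →* Rˣ)

/-- **(T) from (CPM)**: if `tr (t_{gc} ρ(c)) = 0` for the involution `c` with `χ(c) = -1`, where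
`t_h = ρ(h) + χ(h) ρ(h⁻¹)`, then `tr ρ(g) = χ(g) tr ρ(g⁻¹)`. -/
theorem trace_eq_of_cpm (c : G) (hc : c * c = 1) (hχc : ((χ c : Rˣ) : R) = -1) (g : G)
    (h : LinearMap.trace R Λ ((ρ (g * c) + ((χ (g * c) : Rˣ) : R) • ρ (g * c)⁻¹) * ρ c) = 0) :
    LinearMap.trace R Λ (ρ g) = ((χ g : Rˣ) : R) * LinearMap.trace R Λ (ρ g⁻¹) := by
  have e1 : ρ (g * c) * ρ c = ρ g := by
    rw [← map_mul, mul_assoc, hc, mul_one]
  have e2 : LinearMap.trace R Λ (ρ (g * c)⁻¹ * ρ c) = LinearMap.trace R Λ (ρ g⁻¹) := by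
    rw [LinearMap.trace_mul_comm, ← map_mul, mul_inv_rev, mul_inv_cancel_left]
  have e3 : ((χ (g * c) : Rˣ) : R) = -((χ g : Rˣ) : R) := by
    rw [map_mul, Units.val_mul, hχc, mul_neg_one]
  rw [add_mul, smul_mul_assoc, map_add, map_smul, e1, e2, e3, smul_eq_mul] at h
  linear_combination h

/-- conjugate elements have the same determinant. -/
theorem det_conj (g φ : G) : LinearMap.det (ρ (g * φ * g⁻¹)) = LinearMap.det (ρ φ) := by
  have h1 : ρ (g * φ * g⁻¹) = ρ g * ρ φ * ρ g⁻¹ := by rw [map_mul, map_mul]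
  have h2 : ρ g * ρ g⁻¹ = 1 := by rw [← map_mul, mul_inv_cancel, map_one]
  rw [h1, map_mul, map_mul, mul_right_comm, ← map_mul LinearMap.det (ρ g), h2, map_one, one_mul]

/-- **`det ρ(ψ) = ± p ^ lam`** for a representation with (T), `χ(ψ) = p`,
`(ρ(ψ)² - p²)(ρ(ψ)² - 1)² = 0` and `rank Λ = 2 lam`. -/
theorem det_of_trace_rep [Infinite R] [CharZero R]
    (hT : ∀ g : G, LinearMap.trace R Λ (ρ g) = ((χ g : Rˣ) : R) * LinearMap.trace R Λ (ρ g⁻¹))
    (ψ : G) (p : R) (hχ : ((χ ψ : Rˣ) : R) = p) (hf : aeval (ρ ψ) (P2 p * P1 R) = 0)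
    (hc : cst p ≠ 0) {lam : ℕ} (hrank : finrank R Λ = 2 * lam) :
    LinearMap.det (ρ ψ) = p ^ lam ∨ LinearMap.det (ρ ψ) = -p ^ lam := by
  refine det_of_trace (ρ ψ) p hf hc (ρ (ψ ^ 2)⁻¹) ?_ ?_ hrank
  · rw [← map_pow, ← map_mul, mul_inv_cancel, map_one]
  · rw [← map_pow, hT (ψ ^ 2), map_pow, Units.val_pow_eq_pow_val, hχ]

end Rep

end

end Fermat.Agent.M15.TraceAlg3
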