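/-
Programme M15 (target S15), chapter R2 (TORIC) / (HALF), helper3: **`DetAt` from the rank**
(the short route to (HALF-det), lead's post 966; algebra in `TraceAlg3`).

On `Λ = T_ℓ(J₀(p))_ε`, `𝕋 = heckeRing p`:

* `trace_rhoLam` (T) : `tr ρ(g) = χ_ℓ(g) tr ρ(g⁻¹)`, from helper4's (CPM) `CpmInst4.cpm_Lam_hecke`
  (`tr (h ρ(c)) = 0` for `h = t_{gc} = ρ(gc) + χ(gc) ρ(gc)⁻¹`);
* **`detAt_of_rank`** : `rank Λ = 2 lam` ⇒ `DetAt (JZero p) ε p lam`: for a Frobenius lift `φ` at `p`,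
  `f = ρ(φ)` satisfies `(f² - p²)(f² - 1)² = 0` (`ToricFinal3.frobAt_jzero`) and `tr f² = p² tr f⁻²`,
  hence `rank ker (f² - p²) = lam` and `det f = ± p ^ lam`;
* **`toricBound_of_rank`** : `rank Λ = 2 lam` ⇒ `ToricBound (JZero p) ε ⟨p, hp⟩ lam`.
-/
import Mathlib
import Fermat.Agent.M15.TraceAlg3
import Fermat.Agent.M15.ToricFinal3
import Fermat.Agent.M15.CpmInst4

set_option autoImplicit false
set_option linter.unusedSectionVars false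
set_option linter.style.haveILetI false

open Polynomial Module

namespace Fermat.Agent.M15.DetTrace3

open Fermat.Agent.M15.ToricLattice3 Fermat.Agent.M15.ToricRank3 Fermat.Agent.M15.TraceAlg3

noncomputable section

/-- `(p² - 1)² ≠ 0` in `ℤ_ℓ`. -/
theorem cst_natCast_ne_zero (ℓ : ℕ) [Fact ℓ.Prime] {p : ℕ} (hp2 : 2 ≤ p) :
    cst (p : ℤ_[ℓ]) ≠ 0 := by
  have h1 : cst (p : ℤ) ≠ 0 := by
    unfold cst
    have hpz2 : (2 : ℤ) ≤ (p : ℤ) := by exact_mod_cast hp2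
    have : (p : ℤ) ^ 2 - 1 ≠ 0 := by
      have : (1 : ℤ) < (p : ℤ) ^ 2 := by nlinarith
      omega
    exact pow_ne_zero 2 this
  have h2 : ((cst (p : ℤ) : ℤ) : ℤ_[ℓ]) ≠ 0 := by exact_mod_cast h1
  rw [cast_cst, Int.cast_natCast] at h2
  exact h2

/-! ### the Galois side -/

section Galois

open Fermat.Agent.M15.ToricTate3 Fermat.Agent.M15.EsAll4 Fermat.Agent.M15.Contracts9
  Fermat.Agent.ES.J.CycloChar8 Fermat.Agent.M15.ToricAsm3 Fermat.Agent.M15.ToricFinal3 ModularCurve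
  ExtCitation

local notation "Γ" => (AlgebraicClosure ℚ ≃ₐ[ℚ] AlgebraicClosure ℚ)

variable (p : ℕ) [NeZero p] (hp : p.Prime) (ℓ : ℕ) [hℓ : Fact ℓ.Prime]
  (ε : ↥(heckeRing p) →+* ZMod ℓ)

include hp in
/-- **(T)**: `tr ρ_Λ(g) = χ_ℓ(g) tr ρ_Λ(g⁻¹)`, from (CPM) at `h = t_{gc}`. -/
theorem trace_rhoLam (g : Γ) :
    LinearMap.trace ℤ_[ℓ] (Lam (JZero p) ε) (rhoLam (JZero p) ε g) =
      ((cyclo ℓ g : ℤ_[ℓ]ˣ) : ℤ_[ℓ]) *
        LinearMap.trace ℤ_[ℓ] (Lam (JZero p) ε) (rhoLam (JZero p) ε g⁻¹) := by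
  haveI : NeZero ℓ := ⟨hℓ.out.ne_zero⟩
  have hfin := Fermat.Agent.M15.KumInst6.finite_tors_jzero p ℓ
  haveI := (finite_free_Lam (ε := ε) hfin).1
  haveI := (finite_free_Lam (ε := ε) hfin).2
  have h := Fermat.Agent.M15.CpmInst4.cpm_Lam_hecke ℓ p hp ε
    (tLam ℓ p ε (g * complexConjugation)) (Algebra.subset_adjoin ⟨_, rfl⟩)
  exact trace_eq_of_cpm (rhoLam (JZero p) ε) (cyclo ℓ) complexConjugation
    complexConjugation_mul_self (cyclo_complexConjugation ℓ) g h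

include hp in
/-- the determinant of a Frobenius lift at the standard place over `p`. -/
theorem det_frob_std (hℓp : ℓ ≠ p) {lam : ℕ}
    (hrank : finrank ℤ_[ℓ] (Lam (JZero p) ε) = 2 * lam) {ψ : Γ}
    (hψ : (primeLocalPlace ⟨p, hp⟩).IsFrobeniusAt ψ p) :
    LinearMap.det (rhoLam (JZero p) ε ψ) = (p : ℤ_[ℓ]) ^ lam ∨
      LinearMap.det (rhoLam (JZero p) ε ψ) = -(p : ℤ_[ℓ]) ^ lam := by
  haveI : NeZero ℓ := ⟨hℓ.out.ne_zero⟩
  have hfin := Fermat.Agent.M15.KumInst6.finite_tors_jzero p ℓ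
  haveI := (finite_free_Lam (ε := ε) hfin).1
  haveI := (finite_free_Lam (ε := ε) hfin).2
  have hA₀ : (primeLocalPlace ⟨p, hp⟩).LiesOverPrime p :=
    Fermat.Agent.W56.UnipSel8.liesOverPrime_primeLocalPlace ⟨p, hp⟩
  have hf0 := aeval_rhoLam (ε := ε) (frobAt_jzero p hp ℓ hℓp) hψ
  have hpz : ((((⟨p, hp⟩ : Nat.Primes) : ℕ) : ℤ) : ℤ_[ℓ]) = (p : ℤ_[ℓ]) := Int.cast_natCast p
  have hf : aeval (rhoLam (JZero p) ε ψ) (P2 (p : ℤ_[ℓ]) * P1 ℤ_[ℓ]) = 0 :=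
    (congrArg (fun x : ℤ_[ℓ] => aeval (rhoLam (JZero p) ε ψ) (P2 x * P1 ℤ_[ℓ])) hpz).symm.trans hf0
  have hc : cst (p : ℤ_[ℓ]) ≠ 0 := cst_natCast_ne_zero ℓ hp.two_le
  exact det_of_trace_rep (rhoLam (JZero p) ε) (cyclo ℓ) (trace_rhoLam p hp ℓ ε) ψ
    (p : ℤ_[ℓ]) (cyclo_of_isFrobeniusAt ℓ hp hℓp.symm _ hA₀ hψ) hf hc hrank

include hp in
/-- **`DetAt` from the rank**: if `rank Λ = 2 lam` then every Frobenius lift at `p ≠ ℓ` has
determinant `± p ^ lam` on `Λ = T_ℓ(J₀(p))_ε`. -/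
theorem detAt_of_rank (hℓp : ℓ ≠ p) {lam : ℕ}
    (hrank : finrank ℤ_[ℓ] (Lam (JZero p) ε) = 2 * lam) : DetAt (JZero p) ε p lam := by
  intro A φ hA hφ
  haveI : NeZero ℓ := ⟨hℓ.out.ne_zero⟩
  have hfin := Fermat.Agent.M15.KumInst6.finite_tors_jzero p ℓ
  haveI := (finite_free_Lam (ε := ε) hfin).1
  haveI := (finite_free_Lam (ε := ε) hfin).2
  -- move to the standard place over `p`
  have hA₀ : (primeLocalPlace ⟨p, hp⟩).LiesOverPrime p :=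
    Fermat.Agent.W56.UnipSel8.liesOverPrime_primeLocalPlace ⟨p, hp⟩
  have hex := Fermat.Agent.W56.InertiaConj8.exists_smul_eq hp hA hA₀
  obtain ⟨g, hg⟩ := hex
  have hφ' := Fermat.Agent.W56.FrobGen8.isFrobeniusAt_smul hφ g
  rw [hg] at hφ'
  have hd := det_conj (rhoLam (JZero p) ε) g φ
  exact (det_frob_std p hp ℓ ε hℓp hrank hφ').imp (fun h => hd.symm.trans h)
    (fun h => hd.symm.trans h)

include hp in
/-- **the toric bound from the rank.** -/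
theorem toricBound_of_rank (hℓp : ℓ ≠ p) {lam : ℕ}
    (hrank : finrank ℤ_[ℓ] (Lam (JZero p) ε) = 2 * lam) :
    ToricBound (JZero p) ε ⟨p, hp⟩ lam :=
  toricBound_hecke p hp ℓ ε hℓp (detAt_of_rank p hp ℓ ε hℓp hrank)

end Galois

end

end Fermat.Agent.M15.DetTrace3
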