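/-
M15 / WIRE (helper9), W6b: **the cuspidal class `c0 = cl (P0) (Pinf)` of `X₀(p)` is an eigenvector of
`T_r` with eigenvalue `r + 1`** (`CuspFacts.eigen`), `r ≠ p` prime; in fact on divisors
`T_r (P0) = (r + 1) (P0)` and `T_r (Pinf) = (r + 1) (Pinf)`.

Proof.  `T_r (P) = ∑_{P' ∘ β = P} e_β(P') (P' ∘ α)`, so it suffices that a place `P'` of `Fbar (p r)` with
`P' ∘ β = Pinf` (resp. `P0`) has `P' ∘ α = Pinf` (resp. `P0`).  Put `a, b, c, d := -ord_{P'}` of
`j(q), j(q^r), j(q^p), j(q^{pr})`.  Restricting `P'` to the two copies of `Fbar p` (`(a, c)`, `(b, d)`)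
and to the two copies of `Fbar r` (`(a, b)`, `(c, d)`) and using the classification of the poles of `j`
at a prime level (`CuspTors0`, plus the Fricke involution for `j(q^n)`): each pair is `e (1, n)` or
`e (n, 1)`.  If `d = p b` and `a = p c` then `p² = r^{±2}` or `p² = 1`, impossible.
Imported by no statement.
-/
import Mathlib
import Fermat.Agent.M15.Contracts9
import Fermat.Agent.M15.CuspTors0
import Fermat.Agent.M15.CuspRat9
import Fermat.Agent.M15.HeckeComm9
import Fermat.Agent.ES.N34.FrickeFK8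

set_option autoImplicit false
set_option linter.style.haveILetI false
set_option linter.unusedVariables false
set_option linter.unusedSectionVars false
set_option synthInstance.maxHeartbeats 400000

noncomputable section

open AlgebraicCurve ModularCurve IntermediateField

namespace Fermat.Agent.M15.CuspEigen9

open Fermat.Agent.M15.Contracts9 Fermat.Agent.M15.CuspTors0
open Fermat.Agent.X0 Fermat.Agent.ES.N34.FrickeFK8
open Fermat.Agent.ES.HECKE Fermat.Agent.ES.HECKE.LevelPullback12 Fermat.Agent.RED.TOP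

/-! ### The two cusps of a prime level and the function `j(q^n)` -/

section Prime

variable (n : ℕ) [NeZero n]

/-- `j(q^n)` as an element of `Fbar n`. -/
def jn : FF n := jdF n n dvd_rfl

theorem jn_ne_zero : jn n ≠ 0 := by
  intro h
  have h1 : ((jn n : FF n) : LaurentSeries Kbar).order = -(n : ℤ) := by
    unfold jn
    rw [FracR.coe_jdF, HeckeComm9.coeffEmb_qExpand]
    exact order_qExpand_jqK n
  rw [h] at h1
  have h2 : ((0 : FF n) : LaurentSeries Kbar) = 0 := rfl
  rw [h2, HahnSeries.order_zero] at h1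
  have : (n : ℤ) = 0 := by omega
  exact NeZero.ne n (by exact_mod_cast this)

theorem ord_jn_Pinf : (Pinf n).ord (jn n) = -(n : ℤ) := by
  unfold Pinf
  rw [Fermat.Agent.U44.DescInst1.ord_pInf n (jn_ne_zero n)]
  unfold jn
  rw [FracR.coe_jdF, HeckeComm9.coeffEmb_qExpand]
  exact order_qExpand_jqK n

theorem fricke_jn : frickeBarEquiv n (jn n) = jF n := by
  rw [frickeBarEquiv_apply]
  exact frickeBar_jdF n n 1 (mul_one n)

theorem fricke_jF : frickeBarEquiv n (jF n) = jn n := by
  rw [frickeBarEquiv_apply]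
  exact frickeBar_jdF n 1 n (one_mul n)

theorem fricke_smul_fricke_smul (v : Pl n) : frickeBarEquiv n • frickeBarEquiv n • v = v := by
  rw [← mul_smul]
  have : frickeBarEquiv n * frickeBarEquiv n = 1 := by
    apply AlgEquiv.ext
    intro f
    show frickeBarEquiv n (frickeBarEquiv n f) = f
    rw [frickeBarEquiv_apply, frickeBarEquiv_apply, frickeBar_frickeBar]
  rw [this, one_smul]

variable (hn : n.Prime)

theorem fricke_smul_Pinf : frickeBarEquiv n • Pinf n = P0 n hn := by
  rw [eq_P0_iff]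
  have h := Place.ord_smul (frickeBarEquiv n) (Pinf n) (jn n)
  rw [fricke_jn] at h
  rw [h, ord_jn_Pinf]

theorem fricke_smul_P0 : frickeBarEquiv n • P0 n hn = Pinf n := by
  rw [← fricke_smul_Pinf n hn, fricke_smul_fricke_smul]

theorem ord_jn_P0 : (P0 n hn).ord (jn n) = -1 := by
  have h := Place.ord_smul (frickeBarEquiv n) (Pinf n) (jF n)
  rw [fricke_jF, fricke_smul_Pinf n hn] at h
  rw [h, ord_jF_Pinf]

/-- the poles of `j(q^n)` are the two cusps. -/
theorem eq_P0_or_eq_Pinf_of_jn {v : Pl n} (hv : v.ord (jn n) < 0) : v = P0 n hn ∨ v = Pinf n := by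
  have h := Place.ord_smul (frickeBarEquiv n) v (jn n)
  rw [fricke_jn] at h
  have h' : (frickeBarEquiv n • v).ord (jF n) < 0 := by rw [h]; exact hv
  rcases eq_P0_or_eq_Pinf n hn h' with h1 | h1
  · right
    rw [← fricke_smul_P0 n hn, ← h1, fricke_smul_fricke_smul]
  · left
    rw [← fricke_smul_Pinf n hn, ← h1, fricke_smul_fricke_smul]

/-- **classification**: at a pole of `j(q)` or of `j(q^n)` the pair of orders is `(-1, -n)` (the cusp
`∞`) or `(-n, -1)` (the cusp `0`). -/
theorem cusp_cases {v : Pl n} (hv : v.ord (jF n) < 0 ∨ v.ord (jn n) < 0) :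
    (v = Pinf n ∧ v.ord (jF n) = -1 ∧ v.ord (jn n) = -(n : ℤ)) ∨
      (v = P0 n hn ∧ v.ord (jF n) = -(n : ℤ) ∧ v.ord (jn n) = -1) := by
  have h : v = P0 n hn ∨ v = Pinf n := by
    rcases hv with hv | hv
    · exact eq_P0_or_eq_Pinf n hn hv
    · exact eq_P0_or_eq_Pinf_of_jn n hn hv
  rcases h with rfl | rfl
  · right
    exact ⟨rfl, ord_jF_P0 n hn, ord_jn_P0 n hn⟩
  · left
    exact ⟨rfl, ord_jF_Pinf n, ord_jn_Pinf n⟩

end Prime

/-! ### Arithmetic -/

theorem arith_aux {p r a b c d : ℤ} (hp : 1 < p) (hr : 1 < r) (hpr : p ≠ r)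
    (ha : 0 < a) (hb : 0 < b) (hc : 0 < c) (hd : 0 < d)
    (hab : b = r * a ∨ a = r * b) (hcd : d = r * c ∨ c = r * d)
    (hbd : d = p * b) (hac : a = p * c) : False := by
  have hp2 : 0 < p * p - 1 := by nlinarith
  rcases hab with hab | hab <;> rcases hcd with hcd | hcd
  · -- b = r a, d = r c
    have h : (p * p - 1) * (r * c) = 0 := by
      have : p * (r * (p * c)) = r * c := by rw [← hac, ← hab, ← hbd, hcd]
      linear_combination this
    rcases mul_eq_zero.mp h with h | h
    · omega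
    · have : 0 < r * c := by positivity
      omega
  · -- b = r a, c = r d
    have h : (p * p * (r * r) - 1) * a = 0 := by
      have : p * (r * (p * (r * a))) = a := by rw [← hab, ← hbd, ← hcd, ← hac]
      linear_combination this
    rcases mul_eq_zero.mp h with h | h
    · have : 1 < p * p * (r * r) := by nlinarith [mul_pos (show (0:ℤ) < p by omega) (show (0:ℤ) < r by omega)]
      omega
    · omega
  · -- a = r b, d = r c
    have h1 : r * b = p * c := by rw [← hab, hac]
    have h2 : p * b = r * c := by rw [← hbd, hcd]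
    have h : (p * p - r * r) * c = 0 := by linear_combination (-p) * h1 + r * h2
    rcases mul_eq_zero.mp h with h | h
    · have h' : (p - r) * (p + r) = 0 := by linear_combination h
      rcases mul_eq_zero.mp h' with h'' | h''
      · exact hpr (by omega)
      · omega
    · omega
  · -- a = r b, c = r d
    have h : (p * p - 1) * (r * b) = 0 := by
      have : p * (r * (p * b)) = r * b := by rw [← hbd, ← hcd, ← hac, hab]
      linear_combination this
    rcases mul_eq_zero.mp h with h | h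
    · omega
    · have : 0 < r * b := by positivity
      omega

/-! ### Restriction of a place to a prime level -/

section Restrict

variable {n : ℕ} [NeZero n] (hn : n.Prime)
variable {F' : Type*} [Field F'] [Algebra Kbar F']

theorem ramificationIndexAlong_pos (φ : FF n →ₐ[Kbar] F') (hφ : φ.toRingHom.IsIntegral)
    (w : Place Kbar F') : 0 < Place.ramificationIndexAlong φ w := by
  letI := algebraAlong φ
  haveI := isScalarTower_along φ
  haveI := isIntegral_along φ hφ
  exact w.ramificationIndex_pos (F := FF n)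

/-- the pair `(ord (φ j), ord (φ j(q^n)))` at a place `w` of an extension of `Fbar n`. -/
theorem pair_cases (φ : FF n →ₐ[Kbar] F') (hφ : φ.toRingHom.IsIntegral) (w : Place Kbar F')
    (h : w.ord (φ (jF n)) < 0 ∨ w.ord (φ (jn n)) < 0) :
    ∃ e : ℤ, 0 < e ∧
      ((w.restrictAlong φ hφ = Pinf n ∧ w.ord (φ (jF n)) = -e ∧ w.ord (φ (jn n)) = -(e * n)) ∨
        (w.restrictAlong φ hφ = P0 n hn ∧ w.ord (φ (jF n)) = -(e * n) ∧ w.ord (φ (jn n)) = -e)) := by
  have he : (0 : ℤ) < (Place.ramificationIndexAlong φ w : ℤ) := by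
    exact_mod_cast ramificationIndexAlong_pos φ hφ w
  have h1 := Place.ord_restrictAlong φ hφ w (jF n)
  have h2 := Place.ord_restrictAlong φ hφ w (jn n)
  have hv : (w.restrictAlong φ hφ).ord (jF n) < 0 ∨ (w.restrictAlong φ hφ).ord (jn n) < 0 := by
    rcases h with h | h
    · left
      rw [h1] at h
      by_contra hc
      have := mul_nonneg he.le (not_lt.mp hc)
      omega
    · right
      rw [h2] at h
      by_contra hc
      have := mul_nonneg he.le (not_lt.mp hc)
      omega
  refine ⟨(Place.ramificationIndexAlong φ w : ℤ), he, ?_⟩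
  rcases cusp_cases n hn hv with ⟨hv0, hv1, hv2⟩ | ⟨hv0, hv1, hv2⟩
  · left
    refine ⟨hv0, ?_, ?_⟩
    · rw [h1, hv1]; ring
    · rw [h2, hv2]; ring
  · right
    refine ⟨hv0, ?_, ?_⟩
    · rw [h1, hv1]; ring
    · rw [h2, hv2]; ring

end Restrict

/-! ### Level `p r` -/

section Level

variable {p r : ℕ} [NeZero p] [NeZero r]

attribute [local instance] FbarFacts20.hasPrincipalDivisors_bar

instance neZero_mul₃ : NeZero (p * r) := ⟨mul_ne_zero (NeZero.ne p) (NeZero.ne r)⟩

theorem dvd₁ : r ∣ p * r := dvd_mul_left r p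

theorem dvd₂ : r * p ∣ p * r := dvd_of_eq (mul_comm r p)

/-- (E1) `α_p j = α_r j`. -/
theorem e1 : heckeAlphaBar Qb p r (jF p) = levelIncl (dvd₁ (p := p) (r := r)) (jF r) := by
  apply Subtype.ext
  rw [coe_heckeAlphaBar, coe_levelIncl]
  rfl

/-- (E2) `β_p j = α_r j(q^r)`. -/
theorem e2 : heckeBetaBar Qb p r (jF p) = levelIncl (dvd₁ (p := p) (r := r)) (jn r) := by
  apply Subtype.ext
  rw [coe_heckeBetaBar, coe_levelIncl]
  unfold jn jF
  rw [FracR.coe_jdF, FracR.coe_jdF, ← HeckeComm9.coeffEmb_qExpand, qExpand_qExpand]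
  exact congrArg _ (qExpand_congr (mul_one r) _)

/-- (E3) `α_p j(q^p) = β_r j`. -/
theorem e3 : heckeAlphaBar Qb p r (jn p) =
    HeckeComm9.frobTo p (dvd₂ (p := p) (r := r)) (jF r) := by
  apply Subtype.ext
  rw [coe_heckeAlphaBar, HeckeComm9.coe_frobTo]
  unfold jn jF
  rw [FracR.coe_jdF, FracR.coe_jdF, ← HeckeComm9.coeffEmb_qExpand, qExpand_qExpand]
  exact congrArg _ (qExpand_congr (mul_one p).symm _)

/-- (E4) `β_p j(q^p) = β_r j(q^r)`. -/
theorem e4 : heckeBetaBar Qb p r (jn p) =
    HeckeComm9.frobTo p (dvd₂ (p := p) (r := r)) (jn r) := by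
  apply Subtype.ext
  rw [coe_heckeBetaBar, HeckeComm9.coe_frobTo]
  unfold jn
  rw [FracR.coe_jdF, FracR.coe_jdF, ← HeckeComm9.coeffEmb_qExpand, ← HeckeComm9.coeffEmb_qExpand,
    qExpand_qExpand, qExpand_qExpand]
  exact congrArg _ (qExpand_congr (mul_comm r p) _)

variable (hp : p.Prime) (hr : r.Prime) (hne : p ≠ r)

include hr hne in
/-- **the key fact**: a place of level `p r` lying over `∞` (resp. `0`) via `β` lies over `∞`
(resp. `0`) via `α`. -/
theorem restrict_alpha_of_beta (hα : (heckeAlphaBar Qb p r).toRingHom.IsIntegral)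
    (hβ : (heckeBetaBar Qb p r).toRingHom.IsIntegral) (w : Place Kbar (FF (p * r))) :
    (w.restrictAlong (heckeBetaBar Qb p r) hβ = Pinf p →
        w.restrictAlong (heckeAlphaBar Qb p r) hα = Pinf p) ∧
      (w.restrictAlong (heckeBetaBar Qb p r) hβ = P0 p hp →
        w.restrictAlong (heckeAlphaBar Qb p r) hα = P0 p hp) := by
  have hpr : ¬ p ∣ r := fun h => hne ((Nat.prime_dvd_prime_iff_eq hp hr).mp h)
  have hp1 : (1 : ℤ) < p := by exact_mod_cast hp.one_lt
  have hr1 : (1 : ℤ) < r := by exact_mod_cast hr.one_lt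
  have hneZ : (p : ℤ) ≠ r := by exact_mod_cast hne
  have hι := levelIncl_isIntegral (dvd₁ (p := p) (r := r))
  have hφ := HeckeComm9.frobTo_isIntegral hp hpr (dvd₂ (p := p) (r := r))
  have he : (0 : ℤ) < (Place.ramificationIndexAlong (heckeBetaBar Qb p r) w : ℤ) := by
    exact_mod_cast ramificationIndexAlong_pos (heckeBetaBar Qb p r) hβ w
  have hB := Place.ord_restrictAlong (heckeBetaBar Qb p r) hβ w (jF p)
  have hD := Place.ord_restrictAlong (heckeBetaBar Qb p r) hβ w (jn p)
  set e := (Place.ramificationIndexAlong (heckeBetaBar Qb p r) w : ℤ) with he_def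
  constructor
  · intro hw
    rw [hw, ord_jF_Pinf] at hB
    rw [hw, ord_jn_Pinf] at hD
    have hBneg : w.ord (heckeBetaBar Qb p r (jF p)) < 0 := by rw [hB]; omega
    have hDneg : w.ord (heckeBetaBar Qb p r (jn p)) < 0 := by
      rw [hD, mul_neg]
      have : 0 < e * p := by positivity
      omega
    obtain ⟨e₂, he₂, h₂⟩ := pair_cases hr (levelIncl (dvd₁ (p := p) (r := r))) hι w
      (Or.inr (by rw [← e2]; exact hBneg))
    rw [← e1, ← e2] at h₂
    obtain ⟨e₃, he₃, h₃⟩ := pair_cases hr (HeckeComm9.frobTo p (dvd₂ (p := p) (r := r))) hφ w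
      (Or.inr (by rw [← e4]; exact hDneg))
    rw [← e3, ← e4] at h₃
    have hAneg : w.ord (heckeAlphaBar Qb p r (jF p)) < 0 := by
      rcases h₂ with ⟨-, h, -⟩ | ⟨-, h, -⟩
      · rw [h]; omega
      · rw [h]
        have : 0 < e₂ * r := by positivity
        omega
    obtain ⟨e₄, he₄, h₄⟩ := pair_cases hp (heckeAlphaBar Qb p r) hα w (Or.inl hAneg)
    rcases h₄ with ⟨h, -, -⟩ | ⟨-, hA, hC⟩
    · exact h
    · exfalso
      refine arith_aux (p := p) (r := r) (a := -w.ord (heckeAlphaBar Qb p r (jF p)))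
        (b := -w.ord (heckeBetaBar Qb p r (jF p))) (c := -w.ord (heckeAlphaBar Qb p r (jn p)))
        (d := -w.ord (heckeBetaBar Qb p r (jn p))) hp1 hr1 hneZ (by omega) (by omega)
        (by rw [hC]; omega) (by omega) ?_ ?_ ?_ ?_
      · rcases h₂ with ⟨-, h, h'⟩ | ⟨-, h, h'⟩
        · left; rw [h, h']; ring
        · right; rw [h, h']; ring
      · rcases h₃ with ⟨-, h, h'⟩ | ⟨-, h, h'⟩
        · left; rw [h, h']; ring
        · right; rw [h, h']; ring
      · rw [hB, hD]; ring
      · rw [hA, hC]; ring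
  · intro hw
    rw [hw, ord_jF_P0] at hB
    rw [hw, ord_jn_P0] at hD
    have hDneg : w.ord (heckeBetaBar Qb p r (jn p)) < 0 := by rw [hD]; omega
    have hBneg : w.ord (heckeBetaBar Qb p r (jF p)) < 0 := by
      rw [hB, mul_neg]
      have : 0 < e * p := by positivity
      omega
    obtain ⟨e₂, he₂, h₂⟩ := pair_cases hr (levelIncl (dvd₁ (p := p) (r := r))) hι w
      (Or.inr (by rw [← e2]; exact hBneg))
    rw [← e1, ← e2] at h₂
    obtain ⟨e₃, he₃, h₃⟩ := pair_cases hr (HeckeComm9.frobTo p (dvd₂ (p := p) (r := r))) hφ w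
      (Or.inr (by rw [← e4]; exact hDneg))
    rw [← e3, ← e4] at h₃
    have hAneg : w.ord (heckeAlphaBar Qb p r (jF p)) < 0 := by
      rcases h₂ with ⟨-, h, -⟩ | ⟨-, h, -⟩
      · rw [h]; omega
      · rw [h]
        have : 0 < e₂ * r := by positivity
        omega
    obtain ⟨e₄, he₄, h₄⟩ := pair_cases hp (heckeAlphaBar Qb p r) hα w (Or.inl hAneg)
    rcases h₄ with ⟨-, hA, hC⟩ | ⟨h, -, -⟩
    · exfalso
      -- apply the arithmetic lemma to `(c, d, a, b)`
      refine arith_aux (p := p) (r := r) (a := -w.ord (heckeAlphaBar Qb p r (jn p)))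
        (b := -w.ord (heckeBetaBar Qb p r (jn p))) (c := -w.ord (heckeAlphaBar Qb p r (jF p)))
        (d := -w.ord (heckeBetaBar Qb p r (jF p))) hp1 hr1 hneZ (by rw [hC, neg_neg]; positivity) (by omega)
        (by omega) (by omega) ?_ ?_ ?_ ?_
      · rcases h₃ with ⟨-, h, h'⟩ | ⟨-, h, h'⟩
        · left; rw [h, h']; ring
        · right; rw [h, h']; ring
      · rcases h₂ with ⟨-, h, h'⟩ | ⟨-, h, h'⟩
        · left; rw [h, h']; ring
        · right; rw [h, h']; ring
      · rw [hB, hD]; ring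
      · rw [hA, hC]; ring
    · exact h

include hne in
/-- **`T_r` on the two cusps, on divisors**: `T_r (P) = (r + 1) (P)` for `P ∈ {∞, 0}`. -/
theorem heckeDivBar_single_cusp (hrp : ¬ r ∣ p) (P : Pl p) (hP : P = Pinf p ∨ P = P0 p hp) (n : ℤ) :
    heckeDivBar (AlongDegree25.heckeAlphaBarIntegral Qb p r hr hrp)
        (AlongDegree25.heckeBetaBarIntegral Qb p r hr hrp) (Finsupp.single P n) =
      Finsupp.single P (n * ((r : ℤ) + 1)) := by
  have hα := AlongDegree25.heckeAlphaBarIntegral Qb p r hr hrp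
  have hβ := AlongDegree25.heckeBetaBarIntegral Qb p r hr hrp
  have hdeg : ∀ w : Place Kbar (FF (p * r)), w.deg = 1 := fun w => FbarFacts20.deg_eq_one_bar _ w
  have e0 : heckeDivBar hα hβ (Finsupp.single P n) =
      Divisor.correspondence (heckeBetaBar Qb p r) (heckeAlphaBar Qb p r) hβ hα
        (Finsupp.single P n) := rfl
  rw [e0, PointFormula28.correspondence_single_of_deg (heckeBetaBar Qb p r) (heckeAlphaBar Qb p r)
    hβ hα hdeg P n]
  have hterm : ∀ w ∈ Place.fiberAlong (heckeBetaBar Qb p r) hβ P,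
      Finsupp.single (w.restrictAlong (heckeAlphaBar Qb p r) hα)
          (n * (w.ramificationIndexAlong (heckeBetaBar Qb p r) : ℤ)) =
        Finsupp.single P (n * (w.ramificationIndexAlong (heckeBetaBar Qb p r) : ℤ)) := by
    intro w hw
    have hw' := Place.mem_fiberAlong.mp hw
    have key := restrict_alpha_of_beta hp hr hne hα hβ w
    rcases hP with rfl | rfl
    · rw [key.1 hw']
    · rw [key.2 hw']
  rw [Finset.sum_congr rfl hterm, ← Finsupp.single_finsetSum, ← Finset.mul_sum,
    PointFormula28.sum_ramificationIndexAlong (heckeBetaBar Qb p r) hβ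
      (InputsMain19.fundamentalIdentityAlong_beta p r hr hrp) hdeg P
      (FbarFacts20.deg_eq_one_bar _ P),
    AlongDegree25.finrankAlong_beta Qb p r hr hrp]
  push_cast
  rfl

include hr hne in
/-- **(CUSP)(eigen)**: `T_r c0 = (r + 1) c0`. -/
theorem heckeOperatorAlong_c0 (hrp : ¬ r ∣ p) :
    heckeOperatorAlong Qb p r (cl p (P0 p hp) (Pinf p)) = (r + 1) • cl p (P0 p hp) (Pinf p) := by
  have key : heckeDivBar (AlongDegree25.heckeAlphaBarIntegral Qb p r hr hrp)
      (AlongDegree25.heckeBetaBarIntegral Qb p r hr hrp)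
      (Finsupp.single (P0 p hp) (1 : ℤ) - Finsupp.single (Pinf p) 1) =
    (r + 1) • (Finsupp.single (P0 p hp) (1 : ℤ) - Finsupp.single (Pinf p) 1 :
      Divisor Qb (modularFunctionFieldBar p)) := by
    rw [map_sub, heckeDivBar_single_cusp hp hr hne hrp _ (Or.inr rfl),
      heckeDivBar_single_cusp hp hr hne hrp _ (Or.inl rfl), smul_sub, Finsupp.smul_single,
      Finsupp.smul_single, one_mul]
    simp
  unfold cl
  rw [PointFormula28.heckeOperatorAlong_mk (AlongDegree25.heckeAlphaBarIntegral Qb p r hr hrp)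
      (AlongDegree25.heckeBetaBarIntegral Qb p r hr hrp)
      (InputsMain19.fundamentalIdentityAlong_beta p r hr hrp)
      (AlongDegree25.finiteAlong_alpha Qb p r hr hrp)
      (InputsFinal15.normFormulaAlong_alpha p r hr hrp)]
  have h4 : ∀ D : Divisor.degZero (K := Qb) (F := modularFunctionFieldBar p),
      (r + 1) • Pic0.mk D = Pic0.mk ((r + 1) • D) := fun D =>
    (map_nsmul (QuotientAddGroup.mk' _) (r + 1) D).symm
  rw [h4]
  refine congrArg Pic0.mk (Subtype.ext ?_)
  rw [AddSubgroup.coe_nsmul]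
  exact key

end Level

/-- **`CuspFacts.eigen`** in the notation of `Contracts9`. -/
theorem eigen_c0 (p : ℕ) [NeZero p] (hp : p.Prime) (r : Nat.Primes) (hr : (r : ℕ) ≠ p) :
    heckeOperatorBar p r (cl p (P0 p hp) (Pinf p)) = ((r : ℕ) + 1) • cl p (P0 p hp) (Pinf p) := by
  haveI : NeZero (r : ℕ) := ⟨r.2.ne_zero⟩
  exact heckeOperatorAlong_c0 hp r.2 (fun h => hr h.symm)
    (fun h => hr ((Nat.prime_dvd_prime_iff_eq r.2 hp).mp h))

/-- **`CuspFacts` for the concrete cusps** (`rat` = W6a, `eigen` = W6b, `tors`, `ne_zero` = lead's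
`CuspTors0`). -/
theorem cuspFacts (p : ℕ) [NeZero p] (hp : p.Prime) (hp' : p ∉ ({2, 3, 5, 7, 13} : Finset ℕ)) :
    CuspFacts p (P0 p hp) (Pinf p) where
  rat := CuspRat9.isRat_c0 p hp
  eigen := fun r hr => eigen_c0 p hp r hr
  tors := tors p hp
  ne_zero := ne_zero p hp hp'

end Fermat.Agent.M15.CuspEigen9
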