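/-
Programme M15 (S15), chapter WIRE, item W4 (helper4), ABSTRACT part:
**the divisor classes of degree zero fixed by a "Frobenius-like" semilinear automorphism are finitely
many.**

`F / K` a function field with `RR.LSpace.LHyp K F` (all places of degree one, residues in `K`,
principal divisors of degree zero) and Riemann's inequality (`NormalForm10.RiemannHyp K F`);
`φ : SemilinearAut K F` with base automorphism `σ`, fixing a NON-CONSTANT function `t`, such that every
positive power of `σ` has only finitely many fixed points in `K` (Frobenius of `𝔽̄_ℓ`: the roots of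
`X^(ℓ^n) - X`).  Then `{x : Pic⁰(F) | φ • x = x}` is finite.

Proof (no Lang theorem, no semilinear fixed-vector lemma): some power `ψ = φ^n₀` fixes a place `P₀`
(a zero or pole of `t`); the normal form `E x` of a class with respect to `P₀`
(`J/DESC/NormalForm10`: the unique effective divisor with `x = [E x - m·P₀]`, `m ≤ γ` minimal) is
`ψ`-equivariant, so a `ψ`-fixed class has a `ψ`-stable effective normal form of degree `≤ γ`; its
places are fixed by `ψ^(γ!)`; a place fixed by a power `χ` of `φ` is a zero or pole of `t` or a zero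
of `t - c` with `c` a fixed point of the base automorphism of `χ`: finitely many places.
-/
import Mathlib
import Fermat.Prelude.Def_AlgebraicCurve_BaseChangeGalois
import Fermat.Agent.RR.LSpace
import Fermat.Agent.J.DESC.NormalForm10
import Fermat.Agent.J.DESC.NormalFormInj10
import Fermat.Agent.J.DESC.FiniteOrbit22

set_option autoImplicit false
set_option linter.unusedSectionVars false
set_option linter.style.longLine false

noncomputable section

open AlgebraicCurve

namespace Fermat.Agent.M15.FrobFin4

open Fermat.Agent.X0 Fermat.Agent.RR.LSpace Fermat.Agent.J.DESC.NormalForm10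
  Fermat.Agent.J.DESC.NormalFormInj10 Fermat.Agent.J.DESC.FiniteOrbit22

variable {K F : Type*} [Field K] [Field F] [Algebra K F]

/-! ### powers of a semilinear automorphism -/

theorem baseAut_pow (φ : SemilinearAut K F) (n : ℕ) :
    SemilinearAut.baseAut (φ ^ n) = SemilinearAut.baseAut φ ^ n := by
  induction n with
  | zero => rfl
  | succ n ih =>
    rw [pow_succ, pow_succ, ← ih]
    rfl

theorem pow_smul_fixed (φ : SemilinearAut K F) {t : F} (ht : φ • t = t) (n : ℕ) :
    (φ ^ n) • t = t := by
  induction n with
  | zero => rw [pow_zero, one_smul]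
  | succ n ih => rw [pow_succ, mul_smul, ht, ih]

theorem pow_smul_fixed' {X : Type*} [MulAction (SemilinearAut K F) X] (φ : SemilinearAut K F)
    {x : X} (hx : φ • x = x) (n : ℕ) : (φ ^ n) • x = x := by
  induction n with
  | zero => rw [pow_zero, one_smul]
  | succ n ih => rw [pow_succ, mul_smul, hx, ih]

/-! ### a non-constant function has a zero or a pole -/

theorem exists_ord_ne_zero (H : LHyp K F) {t : F} (ht : ∀ c : K, t ≠ algebraMap K F c) :
    ∃ v : Place K F, v.ord t ≠ 0 := by
  by_contra hcon
  push Not at hcon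
  obtain ⟨v⟩ := H.nonempty
  have ht0 : t ≠ 0 := fun h => ht 0 (by rw [h, map_zero])
  have htv : t ∈ v.toValuationSubring := by
    rw [FF.mem_iff_ord_nonneg]; right; rw [hcon v]
  obtain ⟨c, hc | hc⟩ := H.residue v t htv
  · exact ht c hc
  · have hf0 : t - algebraMap K F c ≠ 0 := sub_ne_zero.mpr (ht c)
    -- the divisor of `t - c` is effective of degree zero
    have hnn : 0 ≤ divOf H hf0 := by
      intro w
      rw [divOf_apply]
      simp only [Finsupp.coe_zero, Pi.zero_apply]
      by_cases hc0 : c = 0
      · rw [hc0, map_zero, sub_zero, hcon w]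
      · have h1 := FF.ord_sub_ge w (f := t) (g := algebraMap K F c) hf0
        rw [hcon w, FF.ord_algebraMap] at h1
        simpa using h1
    have hz := eq_zero_of_degree_eq_zero H hnn (degree_divOf H hf0)
    have : (divOf H hf0) v = 0 := by rw [hz]; rfl
    rw [divOf_apply] at this
    omega

/-! ### places fixed by a power of `φ` -/

section FixedPlaces

variable (H : LHyp K F) (χ : SemilinearAut K F) {t : F} (ht : ∀ c : K, t ≠ algebraMap K F c)
  (hχt : χ • t = t)

include H ht hχt in
/-- a place fixed by `χ` is a pole of `t` or a zero of `t - c` for a fixed point `c` of the base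
automorphism. -/
theorem fixed_place_cases {v : Place K F} (hv : χ • v = v) :
    v.ord t < 0 ∨ ∃ c : K, SemilinearAut.baseAut χ c = c ∧ 0 < v.ord (t - algebraMap K F c) := by
  by_cases hneg : v.ord t < 0
  · exact Or.inl hneg
  · right
    have ht0 : t ≠ 0 := fun h => ht 0 (by rw [h, map_zero])
    have htv : t ∈ v.toValuationSubring := by
      rw [FF.mem_iff_ord_nonneg]; right; omega
    obtain ⟨c, hc | hc⟩ := H.residue v t htv
    · exact absurd hc (ht c)
    · refine ⟨c, ?_, hc⟩
      have h1 := ord_smul_sub_const χ v t c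
      rw [hχt, hv] at h1
      exact (const_unique v hc (by rw [h1]; exact hc)).symm

include H ht hχt in
/-- **the places fixed by `χ` are finitely many**, if the base automorphism has finitely many fixed
points. -/
theorem finite_fixed_places (hfix : {c : K | SemilinearAut.baseAut χ c = c}.Finite) :
    {v : Place K F | χ • v = v}.Finite := by
  classical
  have ht0 : t ≠ 0 := fun h => ht 0 (by rw [h, map_zero])
  have hsub : {v : Place K F | χ • v = v} ⊆
      ((divOf H ht0).support : Set (Place K F)) ∪
        ⋃ c ∈ {c : K | SemilinearAut.baseAut χ c = c},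
          {v : Place K F | 0 < v.ord (t - algebraMap K F c)} := by
    intro v hv
    rcases fixed_place_cases H χ ht hχt hv with h | ⟨c, hc, hpos⟩
    · left
      rw [Finset.mem_coe, Finsupp.mem_support_iff, divOf_apply]
      omega
    · right
      rw [Set.mem_iUnion₂]
      exact ⟨c, hc, hpos⟩
  refine Set.Finite.subset (Set.Finite.union (Finset.finite_toSet _) ?_) hsub
  refine Set.Finite.biUnion hfix fun c _ => ?_
  have hf0 : t - algebraMap K F c ≠ 0 := sub_ne_zero.mpr (ht c)
  refine Set.Finite.subset (Finset.finite_toSet (divOf H hf0).support) ?_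
  intro v hv
  rw [Finset.mem_coe, Finsupp.mem_support_iff, divOf_apply]
  have : 0 < v.ord (t - algebraMap K F c) := hv
  omega

end FixedPlaces

/-! ### a periodic place -/

section Periodic

variable (H : LHyp K F) (φ : SemilinearAut K F) {t : F} (ht : ∀ c : K, t ≠ algebraMap K F c)
  (hφt : φ • t = t)

include H ht hφt in
/-- some positive power of `φ` fixes a place. -/
theorem exists_pow_smul_place_eq :
    ∃ (P₀ : Place K F) (n : ℕ), 0 < n ∧ (φ ^ n) • P₀ = P₀ := by
  classical
  have ht0 : t ≠ 0 := fun h => ht 0 (by rw [h, map_zero])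
  obtain ⟨v, hv⟩ := exists_ord_ne_zero H ht
  -- the iterates of `v` stay in the (finite) support of `div t`
  have hmem : ∀ n : ℕ, (φ ^ n) • v ∈ (divOf H ht0).support := by
    intro n
    rw [Finsupp.mem_support_iff, divOf_apply]
    have h1 := SemilinearAut.ord_smul (φ ^ n) v t
    rw [pow_smul_fixed φ hφt n] at h1
    rw [h1]
    exact hv
  obtain ⟨a, b, hab, heq⟩ : ∃ a b : ℕ, a < b ∧ (φ ^ a) • v = (φ ^ b) • v := by
    by_contra hcon
    push Not at hcon
    have hinj : Function.Injective fun n : ℕ => (⟨(φ ^ n) • v, hmem n⟩ : (divOf H ht0).support) := by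
      intro a b hab
      have hab' : (φ ^ a) • v = (φ ^ b) • v := congrArg Subtype.val hab
      rcases lt_trichotomy a b with h | h | h
      · exact absurd hab' (hcon a b h)
      · exact h
      · exact absurd hab'.symm (hcon b a h)
    exact not_injective_infinite_finite _ hinj
  refine ⟨(φ ^ a) • v, b - a, by omega, ?_⟩
  rw [smul_smul, ← pow_add, Nat.sub_add_cancel hab.le, heq]

end Periodic

/-! ### the bound on `minPolePic` -/

section Bound

variable (H : LHyp K F) (hR : RiemannHyp K F) (P₀ : Place K F)

include H in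
/-- `minPole D ≤ γ` for `deg D = 0`, `γ` the constant of Riemann's inequality. -/
theorem minPole_le_of_riemann {γ : ℤ}
    (hγ : ∀ D : Divisor K F,
      Divisor.degree D + 1 - γ ≤ (Module.finrank K (riemannRochSpace D) : ℤ))
    (D : Divisor K F) (hD : Divisor.degree D = 0) : minPole H hR P₀ D ≤ γ.toNat := by
  apply minPole_le
  intro hbot
  have h1 := hγ (shift P₀ D γ.toNat)
  rw [hbot, finrank_bot, degree_shift H, hD] at h1
  have h2 : γ ≤ (γ.toNat : ℤ) := Int.self_le_toNat _
  push_cast at h1
  omega

include H in
theorem minPolePic_le_of_riemann {γ : ℤ}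
    (hγ : ∀ D : Divisor K F,
      Divisor.degree D + 1 - γ ≤ (Module.finrank K (riemannRochSpace D) : ℤ))
    (x : Pic0 K F) : minPolePic H hR P₀ x ≤ γ.toNat :=
  minPole_le_of_riemann H hR P₀ hγ _
    (Divisor.mem_degZero.mp (Quotient.out x : Divisor.degZero (K := K) (F := F)).2)

end Bound

/-! ### effective divisors of bounded degree -/

section Effective

variable (H : LHyp K F)

include H in
/-- the value of an effective divisor at a place is at most its degree. -/
theorem apply_le_degree {E : Divisor K F} (hE : 0 ≤ E) (v : Place K F) :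
    E v ≤ Divisor.degree E := by
  classical
  rw [degree_eq_sum H]
  by_cases hv : v ∈ E.support
  · exact Finset.single_le_sum (f := fun w => E w) (fun w _ => by simpa using hE w) hv
  · rw [Finsupp.notMem_support_iff.mp hv]
    exact Finset.sum_nonneg fun w _ => by simpa using hE w

include H in
/-- the support of an effective divisor has at most `deg` elements. -/
theorem card_support_le_degree {E : Divisor K F} (hE : 0 ≤ E) :
    (E.support.card : ℤ) ≤ Divisor.degree E := by
  classical
  rw [degree_eq_sum H]
  have h1 : ∀ w ∈ E.support, (1 : ℤ) ≤ E w := by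
    intro w hw
    have h0 : 0 ≤ E w := by simpa using hE w
    have hne : E w ≠ 0 := Finsupp.mem_support_iff.mp hw
    omega
  calc (E.support.card : ℤ) = ∑ _w ∈ E.support, (1 : ℤ) := by simp
    _ ≤ ∑ w ∈ E.support, E w := Finset.sum_le_sum h1

/-- effective divisors supported in a finite set `S` with coefficients `≤ B` are finitely many. -/
theorem finite_bounded_divisors (S : Set (Place K F)) (hS : S.Finite) (B : ℤ) :
    {E : Divisor K F | 0 ≤ E ∧ (∀ v, E v ≤ B) ∧ ∀ v, E v ≠ 0 → v ∈ S}.Finite := by
  classical
  have : Finite S := hS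
  let Φ : Divisor K F → (S → ℤ) := fun E s => E s.1
  have hfinT : {f : S → ℤ | ∀ s, f s ∈ Set.Icc (0 : ℤ) B}.Finite := by
    have : {f : S → ℤ | ∀ s, f s ∈ Set.Icc (0 : ℤ) B} =
        Set.pi Set.univ fun _ : S => Set.Icc (0 : ℤ) B := by
      ext f
      simp only [Set.mem_ofPred_eq, Set.mem_pi, Set.mem_univ, true_implies]
    rw [this]
    exact Set.Finite.pi fun _ => Set.finite_Icc 0 B
  refine Set.Finite.of_finite_image (f := Φ) (hfinT.subset ?_) ?_
  · rintro _ ⟨E, ⟨hE, hB, -⟩, rfl⟩ s
    exact ⟨by simpa using hE s.1, hB s.1⟩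
  · intro E hE E' hE' hEE'
    ext v
    by_cases hv : v ∈ S
    · exact congrFun hEE' ⟨v, hv⟩
    · have h1 : E v = 0 := by
        by_contra hne; exact hv (hE.2.2 v hne)
      have h2 : E' v = 0 := by
        by_contra hne; exact hv (hE'.2.2 v hne)
      rw [h1, h2]

end Effective

/-! ### the main theorem -/

section Main

variable (H : LHyp K F) (hR : RiemannHyp K F) (φ : SemilinearAut K F) {t : F}
  (ht : ∀ c : K, t ≠ algebraMap K F c) (hφt : φ • t = t)

include H ht in
/-- a `ψ`-stable effective divisor of degree `≤ B` is supported on the places fixed by `ψ ^ B!`. -/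
theorem pow_factorial_smul_eq_of_mem_support (ψ : SemilinearAut K F) {E : Divisor K F}
    (hE : 0 ≤ E) (hψE : ψ • E = E) {B : ℕ} (hB : Divisor.degree E ≤ B) {v : Place K F}
    (hv : E v ≠ 0) : (ψ ^ B.factorial) • v = v := by
  classical
  -- iterates stay in the support
  have hmem : ∀ n : ℕ, (ψ ^ n) • v ∈ E.support := by
    intro n
    rw [Finsupp.mem_support_iff]
    have hE' : (ψ ^ n) • E = E := pow_smul_fixed' ψ hψE n
    have h1 := SemilinearAut.divisor_smul_apply_smul (ψ ^ n) E v
    rw [hE'] at h1
    rw [h1]
    exact hv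
  have hcard : E.support.card ≤ B := by
    have := card_support_le_degree H hE
    omega
  -- pigeonhole among the first `B + 1` iterates
  obtain ⟨a, b, hab, hb, heq⟩ : ∃ a b : ℕ, a < b ∧ b ≤ B ∧ (ψ ^ a) • v = (ψ ^ b) • v := by
    by_contra hcon
    push Not at hcon
    have hinj : Function.Injective
        fun n : Fin (B + 1) => (⟨(ψ ^ (n : ℕ)) • v, hmem n⟩ : E.support) := by
      intro a b hab
      have hab' : (ψ ^ (a : ℕ)) • v = (ψ ^ (b : ℕ)) • v := congrArg Subtype.val hab
      rcases lt_trichotomy (a : ℕ) (b : ℕ) with h | h | h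
      · exact absurd hab' (hcon a b h (Nat.lt_succ_iff.mp b.2))
      · exact Fin.ext h
      · exact absurd hab'.symm (hcon b a h (Nat.lt_succ_iff.mp a.2))
    have := Fintype.card_le_of_injective _ hinj
    simp only [Fintype.card_fin, Fintype.card_coe] at this
    omega
  -- `ψ ^ (b - a)` fixes `v`
  have hper : (ψ ^ (b - a)) • v = v := by
    have h1 : (ψ ^ a) • ((ψ ^ (b - a)) • v) = (ψ ^ a) • v := by
      rw [smul_smul, ← pow_add, Nat.add_sub_cancel' hab.le, heq]
    exact (MulAction.injective (ψ ^ a)) h1
  have hdvd : (b - a) ∣ B.factorial := Nat.dvd_factorial (by omega) (by omega)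
  obtain ⟨m, hm⟩ := hdvd
  rw [hm, pow_mul]
  exact pow_smul_fixed' (ψ ^ (b - a)) hper m

include H hR ht hφt in
/-- **MAIN THEOREM.** The classes fixed by `φ` are finitely many. -/
theorem finite_fixed_classes
    (hfix : ∀ n : ℕ, 0 < n → {c : K | (SemilinearAut.baseAut φ ^ n) c = c}.Finite) :
    {x : Pic0 K F | φ • x = x}.Finite := by
  classical
  obtain ⟨γ, hγ⟩ := id hR
  obtain ⟨P₀, n₀, hn₀, hP₀⟩ := exists_pow_smul_place_eq H φ ht hφt
  set ψ : SemilinearAut K F := φ ^ n₀ with hψ
  set B : ℕ := γ.toNat with hB
  -- the finite set of places fixed by `ψ ^ B!`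
  have hχt : (ψ ^ B.factorial) • t = t := pow_smul_fixed ψ (pow_smul_fixed φ hφt n₀) _
  have hSfin : {v : Place K F | (ψ ^ B.factorial) • v = v}.Finite := by
    apply finite_fixed_places H (ψ ^ B.factorial) ht hχt
    have h1 : SemilinearAut.baseAut (ψ ^ B.factorial) =
        SemilinearAut.baseAut φ ^ (n₀ * B.factorial) := by
      rw [hψ, ← pow_mul, baseAut_pow]
    rw [h1]
    exact hfix _ (Nat.mul_pos hn₀ (Nat.factorial_pos B))
  -- the finite set of candidate normal forms
  have hEfin := finite_bounded_divisors {v : Place K F | (ψ ^ B.factorial) • v = v} hSfin (B : ℤ)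
  -- classes fixed by `φ` are fixed by `ψ`, and their normal forms are candidates
  refine Set.Finite.of_finite_image (f := normalFormPic H hR P₀) (hEfin.subset ?_)
    ((normalFormPic_injective H hR P₀).injOn)
  rintro _ ⟨x, hx, rfl⟩
  have hψx : ψ • x = x := pow_smul_fixed' φ hx n₀
  have hEnn := normalFormPic_nonneg H hR P₀ x
  have hEψ : ψ • normalFormPic H hR P₀ x = normalFormPic H hR P₀ x := by
    rw [← normalFormPic_smul H hR P₀ ψ hP₀ x, hψx]
  have hdeg : Divisor.degree (normalFormPic H hR P₀ x) ≤ (B : ℤ) := by
    rw [degree_normalFormPic]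
    exact_mod_cast minPolePic_le_of_riemann H hR P₀ hγ x
  refine ⟨hEnn, fun v => (apply_le_degree H hEnn v).trans hdeg, fun v hv => ?_⟩
  exact pow_factorial_smul_eq_of_mem_support H ht ψ hEnn hEψ hdeg hv

end Main

end Fermat.Agent.M15.FrobFin4
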