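/-
Programme M15 (S15), chapter WIRE, item W4 (helper4), CONCRETE part:
**the image of the rational points of `J₀(p)` under `redPull = red_A ∘ π^*` is finite**
(the hypothesis `hfin` of `RedAt9.redFacts_redAt`, i.e. the field `fin` of `Contracts9.RedFacts`).

A rational class `z` is fixed by a Frobenius `σ` at `A`; `π^*` is Galois-equivariant
(`PullbackInj12.levelPullback_smul`) and `red (σ • y) = frobSemi • red y`
(`RedIface9.RedModel.red_smul_frobenius`), so `redPull z` is a class of the special fibre fixed by the
coefficientwise Frobenius `frobSemi`.  Such classes are finitely many by the abstract theorem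
`FrobFin4.finite_fixed_classes`, fed with `LHyp` and Riemann's inequality on the special fibre
(`FF/SpecialRR6G.lHyp_special`, `FF/SpecialRR6K.riemann_inequality_special_genus`), the reduced
Hauptmodul `t̃` (fixed by `frobSemi`: `FrobPoles13.frobSemi_smul_tq`; a generator, hence
non-constant) and the finiteness of the roots of `X^(v^n) - X`.
-/
import Mathlib
import Fermat.Agent.M15.RedAt9
import Fermat.Agent.M15.FrobFin4
import Fermat.Agent.FF.SpecialRR6K

set_option autoImplicit false
set_option linter.style.haveILetI false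
set_option linter.unusedVariables false
set_option linter.unusedSectionVars false
set_option linter.style.longLine false
set_option synthInstance.maxHeartbeats 400000

noncomputable section

open AlgebraicCurve ModularCurve IntermediateField

namespace Fermat.Agent.M15.FinRed4

open Fermat.Agent.M15.Contracts9 Fermat.Agent.M15.RedAt9
open Fermat.Agent.FF.RedIface9
open Fermat.Agent.ES.HECKE.LevelPullback12 Fermat.Agent.ES.KRON.FrobPlace13
open Fermat.Agent.RED.Interface4 Fermat.Agent.RED.LVL
open Fermat.Agent.ES.HECKE Fermat.Agent.ES.RED Fermat.Agent.ES.KRON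
open Fermat.Agent.ES.RED.Contract8

/-! ### fixed points of the powers of Frobenius -/

section FrobFix

variable (k : Type*) [Field k] (l : ℕ) [ExpChar k l] [PerfectField k]

theorem frobeniusEquiv_pow_apply (n : ℕ) (c : k) :
    (frobeniusEquiv k l ^ n) c = c ^ l ^ n := by
  induction n generalizing c with
  | zero => simp
  | succ n ih =>
    rw [pow_succ, RingAut.mul_apply, frobeniusEquiv_apply, ih, frobenius_def, ← pow_mul, pow_succ,
      mul_comm]

/-- the fixed points of a positive power of Frobenius are finitely many. -/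
theorem finite_fixed_frobenius (hl : 1 < l) (n : ℕ) (hn : 0 < n) :
    {c : k | (frobeniusEquiv k l ^ n) c = c}.Finite := by
  classical
  have hq : 1 < l ^ n := Nat.one_lt_pow hn.ne' hl
  have hne : (Polynomial.X ^ (l ^ n) - Polynomial.X : Polynomial k) ≠ 0 :=
    FiniteField.X_pow_card_sub_X_ne_zero k hq
  refine Set.Finite.subset
    (Polynomial.X ^ (l ^ n) - Polynomial.X : Polynomial k).roots.toFinset.finite_toSet ?_
  intro c hc
  have hc' : c ^ l ^ n = c := by
    rw [← frobeniusEquiv_pow_apply]; exact hc
  rw [Finset.mem_coe, Multiset.mem_toFinset, Polynomial.mem_roots hne, Polynomial.IsRoot.def]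
  simp [hc']

end FrobFix

variable (p : ℕ) [NeZero p]

/-- **the classes of the special fibre fixed by the coefficientwise Frobenius are finitely many.** -/
theorem finite_fixed_frobSemi {v : ℕ} (hv : v.Prime) (hvp : ¬ v ∣ p) {A : ValuationSubring Qb}
    (hA : A.LiesOverPrime v) :
    haveI : Fact v.Prime := ⟨hv⟩
    haveI := LevelDegree17.neZero_auxLevel v p
    haveI : IsAlgClosed (kA A) := KronInst10.isAlgClosed_residueField A
    haveI : CharP (kA A) v := KronInst10.charP_residueField A hv hA
    haveI : ExpChar (kA A) v := ExpChar.prime hv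
    {x : JZeroC (kA A) (auxLevel v p) | frobSemi (kA A) v (auxLevel v p) • x = x}.Finite := by
  haveI : Fact v.Prime := ⟨hv⟩
  haveI : NeZero v := ⟨hv.ne_zero⟩
  haveI := LevelDegree17.neZero_auxLevel v p
  haveI : IsAlgClosed (kA A) := KronInst10.isAlgClosed_residueField A
  haveI : CharP (kA A) v := KronInst10.charP_residueField A hv hA
  haveI : ExpChar (kA A) v := ExpChar.prime hv
  set m := redModel v hv A hA (auxLevel v p) (hauptLevel_auxLevel hv hvp) with hm
  have hvM : ¬ v ∣ auxLevel v p := not_dvd_auxLevel hv hvp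
  have hgenB := Fermat.Agent.RED.BASE.Hauptmodul12.tGenBase' m.hb
  -- the reduced Hauptmodul is fixed by Frobenius and is a generator
  have hfix : frobSemi (kA A) v (auxLevel v p) • m.T.S0.red m.T.S0.sB = m.T.S0.red m.T.S0.sB := by
    refine FrobPoles13.frobSemi_smul_tq (kA A) v (auxLevel v p) m.n m.e ?_
    rw [RedInst15.red_sB_eq_tRes m.n m.e (auxLevel v p) v hvM (m.tMem) hgenB A hA m.T.S0 m.hS0 m.hs0]
    rfl
  have hgen := m.isGen_red_s hA
  have hnc : ∀ c : kA A, m.T.S0.red m.T.S0.sB ≠
      algebraMap (kA A) ↥(modularFunctionFieldFullC (kA A) (auxLevel v p)) c := by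
    intro c hc
    exact hgen.transcendental (hc ▸ isAlgebraic_algebraMap c)
  -- `LHyp` and Riemann's inequality on the special fibre
  have HL : Fermat.Agent.RR.LSpace.LHyp (kA A) ↥(modularFunctionFieldFullC (kA A) (auxLevel v p)) :=
    Fermat.Agent.FF.SpecialRR6.lHyp_special m.n m.e (auxLevel v p) v hvM m.tMem hgenB A hA m.rPl
      (m.isPlaceReduction hA)
  have hR : Fermat.Agent.J.DESC.NormalForm10.RiemannHyp (kA A)
      ↥(modularFunctionFieldFullC (kA A) (auxLevel v p)) := by
    haveI := Fermat.Agent.X0.HasCanDivInst.hasCanonicalDivisor (auxLevel v p)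
    refine ⟨(genus Qbar (Fermat.Agent.X0.FF (auxLevel v p)) : ℤ), fun D => ?_⟩
    exact Fermat.Agent.FF.SpecialRR6.riemann_inequality_special_genus m.n m.e (auxLevel v p) v hvM
      m.tMem hgenB A hA m.rPl (m.isPlaceReduction hA) D
  refine Fermat.Agent.M15.FrobFin4.finite_fixed_classes HL hR
    (frobSemi (kA A) v (auxLevel v p)) hnc hfix ?_
  intro n hn
  rw [baseAut_frobSemi]
  exact finite_fixed_frobenius (kA A) v hv.one_lt n hn

/-- **(fin) for `redPull`** = the hypothesis `hfin` of `RedAt9.redFacts_redAt`. -/
theorem redPull_fin {v : ℕ} (hv : v.Prime) (hvp : ¬ v ∣ p) {A : ValuationSubring Qb}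
    (hA : A.LiesOverPrime v) :
    (Set.range fun z : ratSubgroup p => redPull p v hv hvp A hA z).Finite := by
  haveI : Fact v.Prime := ⟨hv⟩
  haveI : NeZero v := ⟨hv.ne_zero⟩
  haveI := LevelDegree17.neZero_auxLevel v p
  haveI : IsAlgClosed (kA A) := KronInst10.isAlgClosed_residueField A
  haveI : CharP (kA A) v := KronInst10.charP_residueField A hv hA
  haveI : ExpChar (kA A) v := ExpChar.prime hv
  refine (finite_fixed_frobSemi p hv hvp hA).subset ?_
  rintro _ ⟨z, rfl⟩
  obtain ⟨σ, hσ⟩ := Fermat.Agent.ES.FROB.FrobFacts12.exists_isFrobeniusAt_of v hv A hA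
  have hz : σ • (z : JZero p) = z := z.2 σ
  show frobSemi (kA A) v (auxLevel v p) • redPull p v hv hvp A hA z = redPull p v hv hvp A hA z
  conv_rhs => rw [← hz]
  set m := redModel v hv A hA (auxLevel v p) (hauptLevel_auxLevel hv hvp) with hm
  show frobSemi (kA A) v (auxLevel v p) • m.red hA (levelPullback (dvd_auxLevel v p) (z : JZero p)) =
    m.red hA (levelPullback (dvd_auxLevel v p) (σ • (z : JZero p)))
  rw [PullbackInj12.levelPullback_smul (dvd_auxLevel v p) σ (z : JZero p)]
  exact (m.red_smul_frobenius hA hσ _).symm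

end Fermat.Agent.M15.FinRed4
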