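/-
M15 / WIRE, variant (helper8): the prime `2` is never needed.

`Wire9.s15_of_contracts` uses the auxiliary prime `v1 = 2` when the descent prime `p'` is `3`
(because `Core9.core` wants `v1 ≠ p'`).  With the rigidity field `RedFacts.rig` (rational
`v`-torsion injects under reduction at `v ≥ 3`) the reduction at `3` is injective on ALL rational
torsion, so `v1 = 3` always works.  Hence (MOD) is only needed at odd primes:
`s15_of_contractsOdd : (∀ p, ContractsOdd p) → S15Statement`, where `ContractsOdd` is `Contracts`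
with `ModPoint` weakened to `ModPointOdd` (primes `v ≠ 2`).  Imported by no statement.

Amendment 1 of `Contracts9` (helper9): `ContractsOdd` asks `RedFacts` at ODD primes `v ≠ p` only
(the reduction at `2` is never used below), and `heckeRing p` is generated by the `T_r`, `r ∤ 2 p`.
-/
import Mathlib
import Fermat.Agent.M15.Core9
import Fermat.Agent.M15.Contracts9
import Fermat.Agent.M15.Wire9
import Fermat.Agent.Lib.FrobeniusExists

set_option autoImplicit false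
set_option linter.style.haveILetI false
set_option linter.unusedVariables false

noncomputable section

namespace Fermat.Agent.M15.Wire8

open ModularCurve AlgebraicCurve
open WeierstrassCurve WeierstrassCurve.Affine
open Fermat.Agent.M15.Contracts9 Fermat.Agent.M15.Core9

theorem card_map_ne_zero {J G : Type*} [AddCommGroup J] [AddCommGroup G] (Rat : AddSubgroup J)
    (Φ : J →+ G) (hfin : (Set.range fun z : Rat => Φ z).Finite) : Nat.card (Rat.map Φ) ≠ 0 := by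
  have hset : ((Rat.map Φ : AddSubgroup G) : Set G) = Set.range fun z : Rat => Φ z := by
    ext b
    constructor
    · rintro ⟨z, hz, rfl⟩; exact ⟨⟨z, hz⟩, rfl⟩
    · rintro ⟨⟨z, hz⟩, rfl⟩; exact ⟨z, hz, rfl⟩
  haveI : Finite (Rat.map Φ) := by
    have : ((Rat.map Φ : AddSubgroup G) : Set G).Finite := by rw [hset]; exact hfin
    exact this.to_subtype
  exact Nat.card_pos.ne'

/-- **The abstract deduction of WIRE, variant**: `Φ1` is injective on all torsion of `Rat`; no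
condition `v1 ≠ p'`. -/
theorem core' {J G1 Gl : Type*} [AddCommGroup J] [AddCommGroup G1] [AddCommGroup Gl]
    (Rat : AddSubgroup J) (Φ1 : J →+ G1) (Φl : J →+ Gl) (c0 y : J)
    (p' : ℕ) (hp' : p'.Prime)
    (hfin1 : (Set.range fun z : Rat => Φ1 z).Finite)
    (hfinl : (Set.range fun z : Rat => Φl z).Finite)
    (hy1 : Φ1 y = 0)
    (hyl : Φl (y + c0) = 0)
    (htors1 : ∀ z ∈ Rat, (∃ n : ℕ, n ≠ 0 ∧ n • z = 0) → Φ1 z = 0 → z = 0)
    (hinj : ∀ m : ℤ, Φl (m • c0) = 0 → (p' : ℤ) ∣ m)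
    (hSD : ∀ k : ℕ, ∃ s : J →+ J,
      (Φ1 y = 0 → Φ1 (s y) = 0) ∧ (Φl (y + c0) = 0 → Φl (s (y + c0)) = 0) ∧
      ∃ m : ℤ, s c0 = m • c0 ∧ ¬ (p' : ℤ) ∣ m ∧
      ∃ t w : J, t ∈ Rat ∧ (∃ n : ℕ, n ≠ 0 ∧ n • t = 0) ∧ w ∈ Rat ∧ s y = t + (p' ^ k) • w) :
    False := by
  classical
  set n1 := Nat.card (Rat.map Φ1) with hn1
  set nl := Nat.card (Rat.map Φl) with hnl
  have hk1 : ∀ w ∈ Rat, n1 • Φ1 w = 0 := fun w hw => card_nsmul_map_eq_zero Rat Φ1 hfin1 w hw
  have hkl : ∀ w ∈ Rat, nl • Φl w = 0 := fun w hw => card_nsmul_map_eq_zero Rat Φl hfinl w hw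
  have hpos1 : n1 ≠ 0 := card_map_ne_zero Rat Φ1 hfin1
  have hposl : nl ≠ 0 := card_map_ne_zero Rat Φl hfinl
  -- n1 * nl = p'^k * N'
  obtain ⟨k, N', hN', hkN⟩ := Nat.exists_eq_pow_mul_and_not_dvd (Nat.mul_ne_zero hpos1 hposl) p'
    hp'.ne_one
  obtain ⟨s, hs1, hsl, m, hsc, hm, t, w, htR, ⟨n, hn0, hnt⟩, hwR, hsy⟩ := hSD k
  have e1 : Φ1 (s y) = 0 := hs1 hy1
  have el : Φl (s (y + c0)) = 0 := hsl hyl
  have hw1 : (p' ^ k * N') • Φ1 w = 0 := by
    rw [← hkN, mul_nsmul, hk1 w hwR, smul_zero]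
  have hwl : (p' ^ k * N') • Φl w = 0 := by
    rw [← hkN, mul_comm, mul_nsmul, hkl w hwR, smul_zero]
  -- Φ1 (N' • t) = 0, hence N' • t = 0
  have ht1 : Φ1 (N' • t) = 0 := by
    have h0 : Φ1 t + (p' ^ k) • Φ1 w = 0 := by
      rw [← map_nsmul, ← map_add, ← hsy, e1]
    have h1 : N' • (Φ1 t + (p' ^ k) • Φ1 w) = 0 := by rw [h0, smul_zero]
    rw [smul_add, ← mul_nsmul, hw1, add_zero] at h1
    rw [map_nsmul, h1]
  have hct : N' • t = 0 := by
    refine htors1 (N' • t) (Rat.nsmul_mem htR N') ⟨n, hn0, ?_⟩ ht1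
    rw [smul_comm, hnt, smul_zero]
  -- Φl (N' • s y) = 0
  have hcl : N' • Φl (s y) = 0 := by
    have : N' • s y = (p' ^ k * N') • w := by
      rw [hsy, smul_add, hct, zero_add, ← mul_nsmul]
    rw [← map_nsmul, this, map_nsmul, hwl]
  have hcm : Φl (((N' : ℤ) * m) • c0) = 0 := by
    have h0 : Φl (s y) + m • Φl c0 = 0 := by
      rw [← map_zsmul, ← hsc, ← map_add, ← map_add, el]
    have h1 : N' • (Φl (s y) + m • Φl c0) = 0 := by rw [h0, smul_zero]
    rw [smul_add, hcl, zero_add] at h1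
    rw [map_zsmul, mul_zsmul, natCast_zsmul, h1]
  have hdvd := hinj _ hcm
  have hp'Z : Prime (p' : ℤ) := Nat.prime_iff_prime_int.mp hp'
  rcases hp'Z.dvd_or_dvd hdvd with h | h
  · exact hN' (by exact_mod_cast h)
  · exact hm h

section Level

variable (p : ℕ) [NeZero p]

/-- the reduction at a prime `v ≥ 3` is injective on rational `v`-power torsion. -/
theorem rig_pow {v : ℕ} {hv : v.Prime} {A : ValuationSubring Qb} {R : RedPkg p A}
    (hR : RedFacts p v hv A R) (h3 : 3 ≤ v) :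
    ∀ (k : ℕ) (z : JZero p), IsRat p z → v ^ k • z = 0 → R.Φ z = 0 → z = 0 := by
  intro k
  induction k with
  | zero => intro z _ hz _; simpa using hz
  | succ k ih =>
    intro z hz hvz hΦ
    have hz' : IsRat p (v ^ k • z) := (ratSubgroup p).nsmul_mem hz _
    have h0 : v ^ k • z = 0 := by
      refine hR.rig h3 _ hz' ?_ (by rw [map_nsmul, hΦ, smul_zero])
      rw [← mul_nsmul, ← pow_succ]; exact hvz
    exact ih z hz h0 hΦ

/-- the reduction at a prime `v ≥ 3` is injective on rational torsion. -/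
theorem torsion_injective {v : ℕ} {hv : v.Prime} {A : ValuationSubring Qb} {R : RedPkg p A}
    (hR : RedFacts p v hv A R) (h3 : 3 ≤ v) :
    ∀ z ∈ ratSubgroup p, (∃ n : ℕ, n ≠ 0 ∧ n • z = 0) → R.Φ z = 0 → z = 0 := by
  rintro z hz ⟨n, hn0, hnz⟩ hΦ
  obtain ⟨e, n'', hn'', hen⟩ := Nat.exists_eq_pow_mul_and_not_dvd hn0 v hv.ne_one
  have h1 : v ^ e • z = 0 := by
    refine hR.tors n'' _ hn'' ?_ (by rw [map_nsmul, hΦ, smul_zero])
    rw [← mul_nsmul, ← hen]; exact hnz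
  exact rig_pow p hR h3 e z hz h1 hΦ

/-- **(MOD) at odd primes**: the rational point of `X₀(p)` attached to `(W, Q)` and its
reductions at the odd primes of multiplicative reduction. -/
def ModPointOdd (W : WeierstrassCurve ℤ)
    (Q : ((W.map (Int.castRingHom ℚ))⁄(AlgebraicClosure ℚ)).Point) (P0 Pinf : Pl p)
    (R : ∀ A : ValuationSubring Qb, RedPkg p A) : Prop :=
  ∃ x : Pl p, IsRat p (cl p x P0) ∧
    ∀ v : ℕ, v.Prime → v ≠ 2 → v ≠ p → (v : ℤ) ∣ W.Δ → ¬ (v : ℤ) ∣ W.c₄ →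
      ∀ A : ValuationSubring Qb, A.LiesOverPrime v →
        (W.InZeroComponentAt A Q → (R A).Φ (cl p x Pinf) = 0) ∧
        (¬ W.InZeroComponentAt A Q → (R A).Φ (cl p x P0) = 0)

theorem modPointOdd_of_modPoint {W : WeierstrassCurve ℤ}
    {Q : ((W.map (Int.castRingHom ℚ))⁄(AlgebraicClosure ℚ)).Point} {P0 Pinf : Pl p}
    {R : ∀ A : ValuationSubring Qb, RedPkg p A} (h : ModPoint p W Q P0 Pinf R) :
    ModPointOdd p W Q P0 Pinf R := by
  obtain ⟨x, hx, h⟩ := h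
  exact ⟨x, hx, fun v hv _ hvp hΔ hc A hA => h v hv hvp hΔ hc A hA⟩

end Level

/-- the contracts of all chapters, for one level `p`, with (MOD) at odd primes only. -/
structure ContractsOdd (p : ℕ) [NeZero p] : Prop where
  ex : ∃ (P0 Pinf : Pl p) (R : ∀ A : ValuationSubring Qb, RedPkg p A),
    CuspFacts p P0 Pinf ∧
    (∀ (r : Nat.Primes) (σ : GQ) (z : JZero p),
      heckeOperatorBar p r (σ • z) = σ • heckeOperatorBar p r z) ∧
    (∀ (v : ℕ) (hv : v.Prime), v ≠ 2 → v ≠ p → ∀ A : ValuationSubring Qb, A.LiesOverPrime v →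
      RedFacts p v hv A (R A)) ∧
    (∀ (W : WeierstrassCurve ℤ) (Q : ((W.map (Int.castRingHom ℚ))⁄(AlgebraicClosure ℚ)).Point),
      W.Δ ≠ 0 → (∀ σ : GQ, σ • Q = Q) → addOrderOf Q = p → ModPointOdd p W Q P0 Pinf R) ∧
    (∀ p' : ℕ, p'.Prime → p' ∣ addOrderOf (cl p P0 Pinf) → SharpDescent p P0 Pinf p')

theorem contractsOdd_of_contracts {p : ℕ} [NeZero p] (h : Contracts p) : ContractsOdd p := by
  obtain ⟨P0, Pinf, R, hC, hGal, hRed, hMod, hSD⟩ := h.ex
  exact ⟨P0, Pinf, R, hC, hGal, fun v hv _ hvp => hRed v hv hvp,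
    fun W Q hΔ hQ hQo => modPointOdd_of_modPoint p (hMod W Q hΔ hQ hQo), hSD⟩

/-- **S15 from the contracts with (MOD) at odd primes only.** -/
theorem s15_of_contractsOdd
    (h : ∀ (p : ℕ) (hp : p.Prime), p ∉ ({2, 3, 5, 7, 13} : Finset ℕ) →
      haveI : NeZero p := ⟨hp.ne_zero⟩; ContractsOdd p) : S15Statement := by
  intro p hp hp' W hΔ Q hQfix hQord h2Δ h2c h2 h3Δ h3c h3 ℓ hℓ hℓp hℓΔ hℓc A hA hin
  haveI : NeZero p := ⟨hp.ne_zero⟩
  obtain ⟨P0, Pinf, R, hC, hGal, hRed, hMod, hSD⟩ := (h p hp hp').ex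
  by_cases hℓ2 : ℓ = 2
  · subst hℓ2; exact h2 A hA hin
  by_cases hℓ3 : ℓ = 3
  · subst hℓ3; exact h3 A hA hin
  obtain ⟨x, hxrat, hx⟩ := hMod W Q hΔ hQfix hQord
  -- the order of c0
  have hp2 : 2 ≤ p := hp.two_le
  have hfo : IsOfFinAddOrder (cl p P0 Pinf) :=
    isOfFinAddOrder_iff_nsmul_eq_zero.mpr ⟨p - 1, by omega, hC.tors⟩
  have hn01 : addOrderOf (cl p P0 Pinf) ≠ 1 := by
    intro h1
    exact hC.ne_zero (AddMonoid.addOrderOf_eq_one_iff.mp h1)
  set n0 := addOrderOf (cl p P0 Pinf) with hn0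
  have hp'prime : n0.minFac.Prime := Nat.minFac_prime hn01
  have hp'dvd : n0.minFac ∣ n0 := Nat.minFac_dvd n0
  set p' := n0.minFac with hp'def
  have hp3 : p ≠ 3 := by
    intro hh; apply hp'; simp [hh]
  have h3p : (3 : ℕ) ≠ p := fun hh => hp3 hh.symm
  -- the auxiliary prime is always 3
  obtain ⟨A1, hA1⟩ := Fermat.Agent.Lib.FrobeniusExists.exists_valuationSubring_liesOverPrime 3
    Nat.prime_three
  have hy1 : (R A1).Φ (cl p x P0) = 0 :=
    (hx 3 Nat.prime_three (by norm_num) h3p (by exact_mod_cast h3Δ) (by exact_mod_cast h3c)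
      A1 hA1).2 (h3 A1 hA1)
  have hR1 := hRed 3 Nat.prime_three (by norm_num) h3p A1 hA1
  have hRl := hRed ℓ hℓ hℓ2 hℓp A hA
  have hyl : (R A).Φ (cl p x P0 + cl p P0 Pinf) = 0 := by
    rw [cl_add_cl]
    exact (hx ℓ hℓ hℓ2 hℓp hℓΔ hℓc A hA).1 hin
  have hyrat : IsRat p (cl p x P0 + cl p P0 Pinf) := fun σ => by
    rw [smul_add, hxrat σ, hC.rat σ]
  -- injectivity on the p'-part of ⟨c0⟩
  have hinj : ∀ m : ℤ, (R A).Φ (m • cl p P0 Pinf) = 0 → (p' : ℤ) ∣ m := by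
    intro m hm
    obtain ⟨q, hq⟩ := hp'dvd
    have hn0pos : 0 < n0 := hfo.addOrderOf_pos
    have hqpos : q ≠ 0 := by
      rintro rfl
      rw [mul_zero] at hq
      omega
    set z := (m * (q : ℤ)) • cl p P0 Pinf with hz
    have hzΦ : (R A).Φ z = 0 := by
      rw [hz, mul_comm, mul_zsmul, map_zsmul, hm, smul_zero]
    have hzrat : IsRat p z := fun σ => by
      rw [hz, gal_zsmul, hC.rat σ]
    have hzp' : p' • z = 0 := by
      rw [hz, ← natCast_zsmul, ← mul_zsmul,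
        show (p' : ℤ) * (m * (q : ℤ)) = m * ((n0 : ℕ) : ℤ) by rw [hq]; push_cast; ring,
        mul_zsmul, natCast_zsmul, hn0, addOrderOf_nsmul_eq_zero, smul_zero]
    have hz0 : z = 0 := by
      by_cases hpl : p' = ℓ
      · have h3l : 3 ≤ ℓ := by
          have := hℓ.two_le
          omega
        exact hRl.rig h3l z hzrat (by rw [← hpl]; exact hzp') hzΦ
      · refine hRl.tors p' z (fun hd => hpl ?_) hzp' hzΦ
        exact ((Nat.prime_dvd_prime_iff_eq hℓ hp'prime).mp hd).symm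
    rw [hz] at hz0
    have hdvd : ((n0 : ℕ) : ℤ) ∣ m * (q : ℤ) := (addOrderOf_dvd_iff_zsmul_eq_zero).mpr hz0
    rw [hq] at hdvd
    push_cast at hdvd
    have hq' : (q : ℤ) ≠ 0 := by exact_mod_cast hqpos
    exact (mul_dvd_mul_iff_right hq').mp hdvd
  -- apply the abstract deduction
  refine core' (ratSubgroup p) ((R A1).Φ) ((R A).Φ) (cl p P0 Pinf) (cl p x P0)
    p' hp'prime hR1.fin hRl.fin hy1 hyl (torsion_injective p hR1 le_rfl) hinj ?_
  intro k
  obtain ⟨s, hs, m, hsc, hm, t, w, ht, htt, hw, hsy⟩ := hSD p' hp'prime hp'dvd k (cl p x P0) hxrat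
  refine ⟨s.toAddMonoidHom, ?_, ?_, m, hsc, hm, t, w, ht, htt, hw, hsy⟩
  · intro h0
    exact (Fermat.Agent.M15.Wire9.stable_of_mem_heckeRing p hR1 hGal hs _ hxrat h0).2
  · intro h0
    exact (Fermat.Agent.M15.Wire9.stable_of_mem_heckeRing p hRl hGal hs _ hyrat h0).2

end Fermat.Agent.M15.Wire8
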