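/-
M15 / WIRE (helper9): **the assembly**.  `S15Statement` (the frozen S15, verbatim) from the two
items of programme M15 that are still open, as named hypotheses:

* `HeckeStable p` = (RED-T) = W3: the kernel of the concrete reduction map `redPull` at an odd
  prime `v ≠ p` is stable under `T_r`, `r ∤ 2 p v`, on rational points;
* `SharpDescentSome p hp` = (SD) at SOME prime divisor `p'` of the order of `c₀ = (0) - (∞)`
  (or `SharpDescentAll p hp`: at all of them).

Everything else is discharged by landed theorems: (CUSP) `CuspEigen9.cuspFacts`, Galois–Hecke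
commutation `HeckeGalois12.heckeOperatorBar_smul`, (RED) `RedAt9.redFacts_redAt` with
`FinRed4.redPull_fin` and `RigAt2.redPull_rig`, (MOD) `ModComplete8.modPointOdd_final`.
The concrete data are `P0 p hp`, `Pinf p` (`CuspTors0`) and `redAt p` (`RedAt9`).
Imported by no statement.
-/
import Mathlib
import Fermat.Agent.M15.Wire8
import Fermat.Agent.M15.Wire0
import Fermat.Agent.M15.RedAt9
import Fermat.Agent.M15.CuspEigen9
import Fermat.Agent.M15.FinRed4
import Fermat.Agent.M15.RigAt2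
import Fermat.Agent.M15.ModComplete8
import Fermat.Agent.ES.HECKE.HeckeGalois12

set_option autoImplicit false
set_option linter.style.haveILetI false
set_option linter.unusedVariables false
set_option linter.unusedSectionVars false

noncomputable section

namespace Fermat.Agent.M15.Assemble9

open ModularCurve AlgebraicCurve
open WeierstrassCurve WeierstrassCurve.Affine
open Fermat.Agent.M15.Contracts9 Fermat.Agent.M15.Core9 Fermat.Agent.M15.CuspTors0
open Fermat.Agent.M15.RedAt9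

section Level

variable (p : ℕ) [NeZero p]

/-- **(RED-T)** (= W3, open): at an odd prime `v ∤ p`, the kernel of `redPull` is stable under
`T_r`, `r ∤ 2 p`, `r ≠ v`, on rational points. -/
def HeckeStable : Prop :=
  ∀ {v : ℕ} (hv : v.Prime) (hvp : ¬ v ∣ p), v ≠ 2 →
    ∀ {A : ValuationSubring Qb} (hA : A.LiesOverPrime v) (r : Nat.Primes),
      ¬ (r : ℕ) ∣ 2 * p → (r : ℕ) ≠ v → ∀ z : JZero p, IsRat p z →
        redPull p v hv hvp A hA z = 0 → redPull p v hv hvp A hA (heckeOperatorBar p r z) = 0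

/-- **(SD)** at every prime divisor of the order of `c₀`. -/
def SharpDescentAll (hp : p.Prime) : Prop :=
  ∀ p' : ℕ, p'.Prime → p' ∣ addOrderOf (cl p (P0 p hp) (Pinf p)) →
    SharpDescent p (P0 p hp) (Pinf p) p'

/-- **(SD)** at some prime divisor of the order of `c₀`. -/
def SharpDescentSome (hp : p.Prime) : Prop :=
  ∃ p' : ℕ, p'.Prime ∧ p' ∣ addOrderOf (cl p (P0 p hp) (Pinf p)) ∧
    SharpDescent p (P0 p hp) (Pinf p) p'

/-- **(RED), complete modulo (RED-T)**: `RedFacts` for `redAt p` at every odd prime `v ≠ p`. -/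
theorem redFacts (hp : p.Prime) (hT : HeckeStable p) {v : ℕ} (hv : v.Prime) (hv2 : v ≠ 2)
    (hvp : v ≠ p) (A : ValuationSubring Qb) (hA : A.LiesOverPrime v) :
    RedFacts p v hv A (redAt p A) := by
  have hvp' : ¬ v ∣ p := fun h => hvp ((Nat.prime_dvd_prime_iff_eq hv hp).mp h)
  exact redFacts_redAt p hv hvp' hA (fun r hr hrv z hz h => hT hv hvp' hv2 hA r hr hrv z hz h)
    (Fermat.Agent.M15.FinRed4.redPull_fin p hv hvp' hA)
    (Fermat.Agent.M15.RigAt2.redPull_rig p hv hvp' hA)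

theorem sharpDescentSome_of_all (hp : p.Prime) (hp' : p ∉ ({2, 3, 5, 7, 13} : Finset ℕ))
    (hSD : SharpDescentAll p hp) : SharpDescentSome p hp := by
  have hC := Fermat.Agent.M15.CuspEigen9.cuspFacts p hp hp'
  have hn01 : addOrderOf (cl p (P0 p hp) (Pinf p)) ≠ 1 := fun h1 =>
    hC.ne_zero (AddMonoid.addOrderOf_eq_one_iff.mp h1)
  exact ⟨_, Nat.minFac_prime hn01, Nat.minFac_dvd _, hSD _ (Nat.minFac_prime hn01) (Nat.minFac_dvd _)⟩

/-- **`Wire8.ContractsOdd p`** from (RED-T) and (SD). -/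
theorem contractsOdd (hp : p.Prime) (hp' : p ∉ ({2, 3, 5, 7, 13} : Finset ℕ))
    (hT : HeckeStable p) (hSD : SharpDescentAll p hp) : Fermat.Agent.M15.Wire8.ContractsOdd p :=
  ⟨P0 p hp, Pinf p, redAt p, Fermat.Agent.M15.CuspEigen9.cuspFacts p hp hp',
    fun r σ z => Fermat.Agent.ES.HECKE.HeckeGalois12.heckeOperatorBar_smul p r σ z,
    fun v hv hv2 hvp A hA => redFacts p hp hT hv hv2 hvp A hA,
    fun W Q hΔ hQ hQo => by
      obtain ⟨x, hx, h⟩ :=
        Fermat.Agent.M15.ModComplete8.modPointOdd_final p hp hp' W Q hΔ hQ hQo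
      exact ⟨x, hx, fun v hv hv2 hvp => h v hv hvp hv2⟩,
    hSD⟩

/-- **`Wire0.Contracts' p`** from (RED-T) and (SD). -/
theorem contracts' (hp : p.Prime) (hp' : p ∉ ({2, 3, 5, 7, 13} : Finset ℕ))
    (hT : HeckeStable p) (hSD : SharpDescentAll p hp) : Fermat.Agent.M15.Wire0.Contracts' p :=
  ⟨P0 p hp, Pinf p, redAt p, Fermat.Agent.M15.CuspEigen9.cuspFacts p hp hp',
    fun r σ z => Fermat.Agent.ES.HECKE.HeckeGalois12.heckeOperatorBar_smul p r σ z,
    fun v hv hvp hv2 A hA => redFacts p hp hT hv hv2 hvp A hA,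
    Fermat.Agent.M15.ModComplete8.modPointOdd_final p hp hp',
    hSD⟩

end Level

/-- **S15 from (RED-T) and (SD) at all prime divisors of the order of `c₀`.** -/
theorem s15_of_open
    (hT : ∀ (p : ℕ) (hp : p.Prime), p ∉ ({2, 3, 5, 7, 13} : Finset ℕ) →
      haveI : NeZero p := ⟨hp.ne_zero⟩; HeckeStable p)
    (hSD : ∀ (p : ℕ) (hp : p.Prime), p ∉ ({2, 3, 5, 7, 13} : Finset ℕ) →
      haveI : NeZero p := ⟨hp.ne_zero⟩; SharpDescentAll p hp) : S15Statement :=
  Fermat.Agent.M15.Wire8.s15_of_contractsOdd fun p hp hp' =>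
    haveI : NeZero p := ⟨hp.ne_zero⟩
    contractsOdd p hp hp' (hT p hp hp') (hSD p hp hp')

/-- **S15 from (RED-T) and (SD) at SOME prime divisor of the order of `c₀`** (for each `p`). -/
theorem s15_of_open_some
    (hT : ∀ (p : ℕ) (hp : p.Prime), p ∉ ({2, 3, 5, 7, 13} : Finset ℕ) →
      haveI : NeZero p := ⟨hp.ne_zero⟩; HeckeStable p)
    (hSD : ∀ (p : ℕ) (hp : p.Prime), p ∉ ({2, 3, 5, 7, 13} : Finset ℕ) →
      haveI : NeZero p := ⟨hp.ne_zero⟩; SharpDescentSome p hp) : S15Statement := by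
  intro p hp hp' W hΔ Q hQfix hQord h2Δ h2c h2 h3Δ h3c h3 ℓ hℓ hℓp hℓΔ hℓc A hA hin
  haveI : NeZero p := ⟨hp.ne_zero⟩
  have hC := Fermat.Agent.M15.CuspEigen9.cuspFacts p hp hp'
  have hGal : ∀ (r : Nat.Primes) (σ : GQ) (z : JZero p),
      heckeOperatorBar p r (σ • z) = σ • heckeOperatorBar p r z :=
    fun r σ z => Fermat.Agent.ES.HECKE.HeckeGalois12.heckeOperatorBar_smul p r σ z
  obtain ⟨p', hp'prime, hp'dvd, hSD'⟩ := hSD p hp hp'
  by_cases hℓ2 : ℓ = 2
  · subst hℓ2; exact h2 A hA hin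
  by_cases hℓ3 : ℓ = 3
  · subst hℓ3; exact h3 A hA hin
  obtain ⟨x, hxrat, hx⟩ :=
    Fermat.Agent.M15.ModComplete8.modPointOdd_final p hp hp' W Q hΔ hQfix hQord
  set P0' := P0 p hp with hP0
  set Pinf' := Pinf p with hPinf
  have hfo : IsOfFinAddOrder (cl p P0' Pinf') := by
    have hp2 : 2 ≤ p := hp.two_le
    exact isOfFinAddOrder_iff_nsmul_eq_zero.mpr ⟨p - 1, by omega, hC.tors⟩
  set n0 := addOrderOf (cl p P0' Pinf') with hn0
  have hp3 : (3 : ℕ) ≠ p := by
    intro hh; apply hp'; simp [← hh]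
  -- the auxiliary prime is 3
  obtain ⟨A1, hA1⟩ := Fermat.Agent.Lib.FrobeniusExists.exists_valuationSubring_liesOverPrime 3
    Nat.prime_three
  have hR1 := redFacts p hp (hT p hp hp') Nat.prime_three (by norm_num) hp3 A1 hA1
  have hRl := redFacts p hp (hT p hp hp') hℓ hℓ2 hℓp A hA
  have hy1 : (redAt p A1).Φ (cl p x P0') = 0 :=
    (hx 3 Nat.prime_three hp3 (by norm_num) (by exact_mod_cast h3Δ)
      (by exact_mod_cast h3c) A1 hA1).2 (h3 A1 hA1)
  have hyl : (redAt p A).Φ (cl p x P0' + cl p P0' Pinf') = 0 := by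
    rw [cl_add_cl]
    exact (hx ℓ hℓ hℓp hℓ2 hℓΔ hℓc A hA).1 hin
  have hyrat : IsRat p (cl p x P0' + cl p P0' Pinf') := fun σ => by
    rw [smul_add, hxrat σ, hC.rat σ]
  -- injectivity on the p'-part of ⟨c0⟩
  have hinj : ∀ m : ℤ, (redAt p A).Φ (m • cl p P0' Pinf') = 0 → (p' : ℤ) ∣ m := by
    intro m hm
    obtain ⟨q, hq⟩ := hp'dvd
    have hqpos : q ≠ 0 := by
      rintro rfl
      rw [mul_zero] at hq
      have := hfo.addOrderOf_pos
      omega
    set z := (m * (q : ℤ)) • cl p P0' Pinf' with hz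
    have hzΦ : (redAt p A).Φ z = 0 := by
      rw [hz, mul_comm, mul_zsmul, map_zsmul, hm, smul_zero]
    have hzrat : IsRat p z := fun σ => by
      rw [hz, gal_zsmul, hC.rat σ]
    have hzp' : p' • z = 0 := by
      rw [hz, ← natCast_zsmul, ← mul_zsmul,
        show (p' : ℤ) * (m * (q : ℤ)) = m * ((n0 : ℕ) : ℤ) by rw [hq]; push_cast; ring,
        mul_zsmul, natCast_zsmul, hn0, addOrderOf_nsmul_eq_zero, smul_zero]
    have hz0 : z = 0 := by
      by_cases hpl : p' = ℓ
      · have h3l : 3 ≤ ℓ := by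
          have := hℓ.two_le
          omega
        exact hRl.rig h3l z hzrat (by rw [← hpl]; exact hzp') hzΦ
      · refine hRl.tors p' z (fun hd => hpl ?_) hzp' hzΦ
        exact ((Nat.prime_dvd_prime_iff_eq hℓ hp'prime).mp hd).symm
    rw [hz] at hz0
    have hdvd : ((n0 : ℕ) : ℤ) ∣ m * (q : ℤ) := (addOrderOf_dvd_iff_zsmul_eq_zero).mpr hz0
    rw [hq] at hdvd
    push_cast at hdvd
    have hq' : (q : ℤ) ≠ 0 := by exact_mod_cast hqpos
    exact (mul_dvd_mul_iff_right hq').mp hdvd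
  -- apply the abstract deduction
  refine Fermat.Agent.M15.Core0.core' (ratSubgroup p) ((redAt p A1).Φ) ((redAt p A).Φ)
    (cl p P0' Pinf') (cl p x P0') p' hp'prime hR1.fin hRl.fin hy1 hyl
    (fun z hz hn hΦ => Fermat.Agent.M15.Wire0.inj_on_rat_torsion p hR1 (le_refl 3) z hz hn hΦ)
    hinj ?_
  intro k
  obtain ⟨s, hs, m, hsc, hm, t, w, ht, htt, hw, hsy⟩ := hSD' k (cl p x P0') hxrat
  refine ⟨s.toAddMonoidHom, ?_, ?_, m, hsc, hm, t, w, ht, htt, hw, hsy⟩
  · intro h0
    exact (Fermat.Agent.M15.Wire9.stable_of_mem_heckeRing p hR1 hGal hs _ hxrat h0).2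
  · intro h0
    exact (Fermat.Agent.M15.Wire9.stable_of_mem_heckeRing p hRl hGal hs _ hyrat h0).2

end Fermat.Agent.M15.Assemble9
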