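/-
Programme M15 (target S15), chapter R3 FLAT (helper2): **the label count along a chain** (pure group
theory, Mathlib only).

`W` an abelian group, `F : Fin (n+1) → AddSubgroup W` a chain from `⊥` to `⊤` whose successive
relative indices are all equal to a prime `ℓ`, `N ≤ W` any subgroup.  Then
`ℓ ^ #{i | N ⊓ F (i+1) ≤ F i} * #N = #W`  (`pow_card_filter_mul_card`),
i.e. the number of pieces `F (i+1) / F i` which do NOT meet `N` is `log_ℓ #W - log_ℓ #N`.
(For `ℓ = 2`, `N = W⁻`: the number of positively labelled pieces.)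
-/
import Mathlib

set_option autoImplicit false

namespace Fermat.Agent.M15.FlatCount2

variable {W : Type*} [AddCommGroup W]

/-- the relative indices along a chain telescope. -/
theorem prod_relIndex_eq (n : ℕ) (F : Fin (n + 1) → AddSubgroup W) (hmono : Monotone F) :
    ∏ i : Fin n, (F i.castSucc).relIndex (F i.succ) = (F 0).relIndex (F (Fin.last n)) := by
  induction n with
  | zero =>
    rw [Finset.univ_eq_empty, Finset.prod_empty]
    exact (AddSubgroup.relIndex_self _).symm
  | succ n ih =>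
    rw [Fin.prod_univ_castSucc]
    have h1 := ih (fun i => F i.castSucc) (fun a b hab => hmono (Fin.castSucc_le_castSucc_iff.2 hab))
    have h2 : ∀ i : Fin n, (F i.castSucc.castSucc).relIndex (F i.castSucc.succ) =
        (F i.castSucc.castSucc).relIndex (F i.succ.castSucc) := fun i => by
      rw [Fin.succ_castSucc]
    rw [Finset.prod_congr rfl fun i _ => h2 i, h1]
    have h3 : (Fin.last n).castSucc.castSucc = ((Fin.last n).castSucc).castSucc := rfl
    show (F (0 : Fin (n + 1)).castSucc).relIndex (F (Fin.last n).castSucc) *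
      (F (Fin.last n).castSucc).relIndex (F (Fin.last n).succ) = _
    rw [Fin.castSucc_zero, Fin.succ_last]
    exact AddSubgroup.relIndex_mul_relIndex _ _ _ (hmono (Fin.zero_le _))
      (hmono (Fin.castSucc_le_succ (Fin.last n) |>.trans (by rw [Fin.succ_last])))

/-- one step: `H ≤ K` of prime relative index `ℓ`, `N` any subgroup: the relative index of
`N ⊓ H` in `N ⊓ K` is `1` if `N ⊓ K ≤ H`, and `ℓ` otherwise. -/
theorem relIndex_inf_eq {ℓ : ℕ} (hℓ : ℓ.Prime) (N H K : AddSubgroup W) (hHK : H ≤ K)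
    (hidx : H.relIndex K = ℓ) [Decidable (N ⊓ K ≤ H)] :
    (N ⊓ H).relIndex (N ⊓ K) = if N ⊓ K ≤ H then 1 else ℓ := by
  have h1 : (N ⊓ H).relIndex (N ⊓ K) = H.relIndex (N ⊓ K) := by
    rw [← AddSubgroup.inf_relIndex_right (N ⊓ H) (N ⊓ K), ← AddSubgroup.inf_relIndex_right H (N ⊓ K)]
    congr 1
    apply le_antisymm
    · exact le_inf (inf_le_left.trans inf_le_right) inf_le_right
    · exact le_inf (le_inf (inf_le_right.trans inf_le_left) inf_le_left) inf_le_right
  have h2 : H.relIndex (N ⊓ K) = H.relIndex ((N ⊓ K) ⊔ H) :=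
    (AddSubgroup.relIndex_sup_right (N ⊓ K) H).symm
  have h3 : H.relIndex ((N ⊓ K) ⊔ H) * ((N ⊓ K) ⊔ H).relIndex K = ℓ := by
    rw [AddSubgroup.relIndex_mul_relIndex _ _ _ le_sup_right (sup_le inf_le_right hHK), hidx]
  rw [h1]
  split_ifs with h
  · exact AddSubgroup.relIndex_eq_one.2 h
  · have hdvd : H.relIndex (N ⊓ K) ∣ ℓ := ⟨_, by rw [h2]; exact h3.symm⟩
    rcases (Nat.dvd_prime hℓ).1 hdvd with h4 | h4
    · exact absurd (AddSubgroup.relIndex_eq_one.1 h4) h
    · exact h4

/-- **the label count.** -/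
theorem pow_card_filter_mul_card {ℓ : ℕ} (hℓ : ℓ.Prime) (n : ℕ) (F : Fin (n + 1) → AddSubgroup W)
    (hmono : Monotone F) (hbot : F 0 = ⊥) (htop : F (Fin.last n) = ⊤)
    (hidx : ∀ i : Fin n, (F i.castSucc).relIndex (F i.succ) = ℓ) (N : AddSubgroup W)
    [DecidablePred fun i : Fin n => N ⊓ F i.succ ≤ F i.castSucc] :
    ℓ ^ (Finset.univ.filter fun i : Fin n => N ⊓ F i.succ ≤ F i.castSucc).card * Nat.card N =
      Nat.card W := by
  -- the chain `N ⊓ F i`
  have hN := prod_relIndex_eq n (fun i => N ⊓ F i)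
    (fun a b hab => inf_le_inf_left N (hmono hab))
  simp only [hbot, htop, inf_bot_eq, inf_top_eq, AddSubgroup.relIndex_bot_left] at hN
  have hW := prod_relIndex_eq n F hmono
  rw [hbot, htop, AddSubgroup.relIndex_bot_left] at hW
  have hWcard : Nat.card (⊤ : AddSubgroup W) = Nat.card W :=
    Nat.card_congr AddSubgroup.topEquiv.toEquiv
  rw [hWcard, Finset.prod_congr rfl fun i _ => hidx i, Finset.prod_const, Finset.card_univ,
    Fintype.card_fin] at hW
  have hstep : ∀ i : Fin n, (N ⊓ F i.castSucc).relIndex (N ⊓ F i.succ) =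
      if N ⊓ F i.succ ≤ F i.castSucc then 1 else ℓ := fun i =>
    relIndex_inf_eq hℓ N _ _ (hmono (Fin.castSucc_le_succ i)) (hidx i)
  rw [Finset.prod_congr rfl fun i _ => hstep i, Finset.prod_ite, Finset.prod_const_one, one_mul,
    Finset.prod_const] at hN
  rw [← hN, ← pow_add, ← hW]
  congr 1
  have := Finset.card_filter_add_card_filter_not (s := (Finset.univ : Finset (Fin n)))
    (fun i : Fin n => N ⊓ F i.succ ≤ F i.castSucc)
  rw [Finset.card_univ, Fintype.card_fin] at this
  exact this

end Fermat.Agent.M15.FlatCount2
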