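/-
Programme M15 (target S15), chapter R3 FLAT (helper2): the ambient group of a Kummer extension.

`P` an abelian group with an action of `Γ`, `x ∈ P` fixed by `Γ`, `l ≠ 0`.
`Amb x l = (P × ℤ) / ⟨(x, -l)⟩` ("adjoin `e` with `l e = x`"), `incl : P → Amb x l` injective,
`eElt` with `l • eElt = incl x`, the action of `Γ` (trivial on `eElt`), the `l`-torsion
`KExt x l` (the Kummer extension module: `0 → P[l] → KExt → ℤ/l`), its finiteness.
-/
import Mathlib

set_option autoImplicit false

namespace Fermat.Agent.M15.ExtAmbient2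

variable {Γ : Type*} [Group Γ] {P : Type*} [AddCommGroup P] [DistribMulAction Γ P]

/-- a point fixed by `Γ`. -/
structure FixedPt (Γ : Type*) [Group Γ] (P : Type*) [AddCommGroup P] [DistribMulAction Γ P] where
  val : P
  fixed : ∀ σ : Γ, σ • val = val

variable (x : FixedPt Γ P) (l : ℕ)

/-- the relation `(x, -l)`. -/
def rel : AddSubgroup (P × ℤ) := AddSubgroup.zmultiples ((x.val, -(l : ℤ)) : P × ℤ)

/-- the ambient group. -/
def Amb : Type _ := (P × ℤ) ⧸ rel x l

instance : AddCommGroup (Amb x l) := inferInstanceAs (AddCommGroup ((P × ℤ) ⧸ rel x l))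

/-- the class of a pair. -/
def mk : (P × ℤ) →+ Amb x l := QuotientAddGroup.mk' (rel x l)

theorem mk_surjective : Function.Surjective (mk x l) := QuotientAddGroup.mk'_surjective _

theorem mk_eq_zero_iff {a : P × ℤ} : mk x l a = 0 ↔ ∃ n : ℤ, a = (n • x.val, -(n * l)) := by
  show (QuotientAddGroup.mk a : (P × ℤ) ⧸ rel x l) = 0 ↔ _
  rw [QuotientAddGroup.eq_zero_iff, rel, AddSubgroup.mem_zmultiples_iff]
  constructor
  · rintro ⟨n, rfl⟩
    exact ⟨n, by ext <;> simp⟩
  · rintro ⟨n, rfl⟩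
    exact ⟨n, by ext <;> simp⟩

/-- the inclusion of `P`. -/
def incl : P →+ Amb x l := (mk x l).comp (AddMonoidHom.inl P ℤ)

theorem incl_apply (z : P) : incl x l z = mk x l (z, 0) := rfl

theorem incl_injective (hl : l ≠ 0) : Function.Injective (incl x l) := by
  rw [injective_iff_map_eq_zero]
  intro z hz
  rw [incl_apply, mk_eq_zero_iff] at hz
  obtain ⟨n, hn⟩ := hz
  have h2 : (0 : ℤ) = -(n * l) := congrArg Prod.snd hn
  have hn0 : n = 0 := by
    have : n * (l : ℤ) = 0 := by omega
    rcases mul_eq_zero.1 this with h | h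
    · exact h
    · exact absurd (by exact_mod_cast h) hl
  have h1 : z = n • x.val := congrArg Prod.fst hn
  rw [h1, hn0, zero_smul]

/-- the adjoined element. -/
def eElt : Amb x l := mk x l (0, 1)

theorem mk_eq (z : P) (k : ℤ) : mk x l (z, k) = incl x l z + k • eElt x l := by
  rw [incl_apply, eElt, ← map_zsmul, ← map_add]
  congr 1
  ext <;> simp

theorem l_smul_eElt : (l : ℤ) • eElt x l = incl x l x.val := by
  rw [eElt, incl_apply, ← map_zsmul, ← sub_eq_zero, ← map_sub, mk_eq_zero_iff]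
  exact ⟨-1, by ext <;> simp⟩

/-- the action on pairs. -/
def actHom (σ : Γ) : (P × ℤ) →+ (P × ℤ) :=
  (DistribSMul.toAddMonoidHom P σ).prodMap (AddMonoidHom.id ℤ)

theorem actHom_apply (σ : Γ) (a : P × ℤ) : actHom σ a = (σ • a.1, a.2) := rfl

theorem rel_le_comap (σ : Γ) : rel x l ≤ (rel x l).comap (actHom σ) := by
  intro a ha
  rw [rel, AddSubgroup.mem_zmultiples_iff] at ha
  obtain ⟨n, rfl⟩ := ha
  rw [AddSubgroup.mem_comap, map_zsmul, actHom_apply, x.fixed]
  exact AddSubgroup.zsmul_mem _ (AddSubgroup.mem_zmultiples _) n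

/-- the action of one element on the ambient group. -/
def ambSmul (σ : Γ) : Amb x l →+ Amb x l :=
  QuotientAddGroup.map (rel x l) (rel x l) (actHom σ) (rel_le_comap x l σ)

theorem ambSmul_mk (σ : Γ) (a : P × ℤ) : ambSmul x l σ (mk x l a) = mk x l (σ • a.1, a.2) := rfl

instance : DistribMulAction Γ (Amb x l) where
  smul σ a := ambSmul x l σ a
  one_smul a := by
    obtain ⟨a, rfl⟩ := mk_surjective x l a
    show ambSmul x l 1 (mk x l a) = _
    rw [ambSmul_mk, one_smul]
  mul_smul σ τ a := by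
    obtain ⟨a, rfl⟩ := mk_surjective x l a
    show ambSmul x l (σ * τ) (mk x l a) = ambSmul x l σ (ambSmul x l τ (mk x l a))
    rw [ambSmul_mk, ambSmul_mk, ambSmul_mk, mul_smul]
  smul_zero σ := map_zero (ambSmul x l σ)
  smul_add σ a b := map_add (ambSmul x l σ) a b

theorem smul_mk (σ : Γ) (a : P × ℤ) : σ • mk x l a = mk x l (σ • a.1, a.2) := rfl

theorem incl_smul (σ : Γ) (z : P) : incl x l (σ • z) = σ • incl x l z := by
  rw [incl_apply, incl_apply, smul_mk]

theorem smul_eElt (σ : Γ) : σ • eElt x l = eElt x l := by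
  rw [eElt, smul_mk, smul_zero]

/-- `σ a - a` lies in the image of `P`. -/
theorem smul_sub_self (σ : Γ) (a : P × ℤ) :
    σ • mk x l a - mk x l a = incl x l (σ • a.1 - a.1) := by
  rw [smul_mk, incl_apply, ← map_sub]
  congr 1
  ext <;> simp

/-- the Kummer extension module: the `l`-torsion of the ambient group. -/
def KExt : AddSubgroup (Amb x l) where
  carrier := {a | l • a = 0}
  zero_mem' := smul_zero l
  add_mem' := by
    intro a b ha hb
    show l • (a + b) = 0
    rw [smul_add, ha, hb, add_zero]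
  neg_mem' := by
    intro a ha
    show l • (-a) = 0
    rw [smul_neg, ha, neg_zero]

theorem mem_KExt {a : Amb x l} : a ∈ KExt x l ↔ l • a = 0 := Iff.rfl

instance : DistribMulAction Γ ↥(KExt x l) where
  smul σ a := ⟨σ • (a : Amb x l), by
    rw [mem_KExt, smul_comm, (mem_KExt x l).1 a.2, smul_zero]⟩
  one_smul a := Subtype.ext (one_smul Γ (a : Amb x l))
  mul_smul σ τ a := Subtype.ext (mul_smul σ τ (a : Amb x l))
  smul_zero σ := Subtype.ext (smul_zero σ)
  smul_add σ a b := Subtype.ext (smul_add σ (a : Amb x l) (b : Amb x l))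

theorem coe_smul_KExt (σ : Γ) (a : ↥(KExt x l)) : ((σ • a : ↥(KExt x l)) : Amb x l) = σ • (a : Amb x l) :=
  rfl

/-- the projection to `ℤ / l`. -/
def toZMod : Amb x l →+ ZMod l :=
  QuotientAddGroup.lift (rel x l)
    ((Int.castAddHom (ZMod l)).comp (AddMonoidHom.snd P ℤ)) (by
      intro a ha
      rw [rel, AddSubgroup.mem_zmultiples_iff] at ha
      obtain ⟨n, rfl⟩ := ha
      simp)

theorem toZMod_mk (a : P × ℤ) : toZMod x l (mk x l a) = (a.2 : ZMod l) := rfl

/-- an element of the kernel of the projection comes from `P`. -/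
theorem exists_incl_of_toZMod_eq_zero {a : Amb x l} (ha : toZMod x l a = 0) :
    ∃ z : P, incl x l z = a := by
  obtain ⟨⟨z, k⟩, rfl⟩ := mk_surjective x l a
  rw [toZMod_mk, ZMod.intCast_zmod_eq_zero_iff_dvd] at ha
  obtain ⟨m, hm⟩ := ha
  simp only at hm
  refine ⟨z + m • x.val, ?_⟩
  rw [incl_apply, ← sub_eq_zero, ← map_sub, mk_eq_zero_iff]
  refine ⟨m, ?_⟩
  ext
  · simp
  · simp [hm, mul_comm]

theorem finite_KExt (hl : l ≠ 0) (hfin : {z : P | l • z = 0}.Finite) : Finite ↥(KExt x l) := by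
  have : NeZero l := ⟨hl⟩
  have : Finite {z : P | l • z = 0} := hfin
  -- the restriction of the projection to the torsion
  let ψ : ↥(KExt x l) →+ ZMod l := (toZMod x l).comp (KExt x l).subtype
  rw [← Set.finite_univ_iff]
  refine Set.Finite.of_finite_fibers ψ (Set.toFinite _) (fun c hc => ?_)
  obtain ⟨a₀, -, ha₀⟩ := hc
  -- the fibre is `a₀ + incl (P[l])`
  have hsub : Set.univ ∩ ψ ⁻¹' {c} ⊆ Set.range (fun z : {z : P | l • z = 0} =>
      (⟨(a₀ : Amb x l) + incl x l (z : P), by
        rw [mem_KExt, smul_add, (mem_KExt x l).1 a₀.2, zero_add, ← map_nsmul]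
        have hz : l • (z : P) = 0 := z.2
        rw [hz, map_zero]⟩ : ↥(KExt x l))) := by
    rintro a ⟨-, ha⟩
    have h1 : ψ (a - a₀) = 0 := by
      rw [map_sub, ha₀]
      exact sub_eq_zero.2 ha
    obtain ⟨z, hz⟩ :=
      exists_incl_of_toZMod_eq_zero x l (a := ((a - a₀ : ↥(KExt x l)) : Amb x l)) h1
    have hzl : l • z = 0 := by
      apply incl_injective x l hl
      rw [map_nsmul, hz, map_zero]
      exact (mem_KExt x l).1 (a - a₀).2
    refine ⟨⟨z, hzl⟩, Subtype.ext ?_⟩
    show (a₀ : Amb x l) + incl x l z = a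
    rw [hz]
    show (a₀ : Amb x l) + ((a : Amb x l) - (a₀ : Amb x l)) = a
    abel
  exact (Set.finite_range _).subset hsub

end Fermat.Agent.M15.ExtAmbient2
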