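/-
Programme M15 (target S15), chapter R3 FLAT (helper2): two elementary local facts about Kummer
cocycles.

* `(FL1)` `smul_sub_self_mem`: inertia at `A | ℓ` moves a point of the Kummer extension module of an
  inertia-fixed `x ∈ J₀(p)` by an `l`-torsion point in the kernel of the reduction `Φ = red ∘ π^*`.
* `(INF)` `conj_sub_eq`: for an involution `σ` of a `2`-divisible abelian group `J`, a `σ`-fixed `x`
  and ANY `z` with `2 ^ k • z = x`: `σ z - z = σ u - u` with `2 ^ (k+1) • u = 0`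
  (the real place: `J(ℝ) = 2 J(ℝ) + J(ℝ)[2]` without any real geometry).
-/
import Mathlib
import Fermat.Agent.M15.ExtAmbient2

set_option autoImplicit false

namespace Fermat.Agent.M15.FlatLocal2

open Fermat.Agent.M15.ExtAmbient2

section FL1

variable {Γ : Type*} [Group Γ] {P : Type*} [AddCommGroup P] [DistribMulAction Γ P]
variable (x : FixedPt Γ P) (l : ℕ)

/-- **(FL1), abstract form**: `σ a - a` is the image of an `l`-torsion point of the form
`σ z - z`. -/
theorem smul_sub_self_mem (σ : Γ) (a : ↥(KExt x l)) :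
    ∃ z : P, l • (σ • z - z) = 0 ∧ incl x l (σ • z - z) = σ • (a : Amb x l) - (a : Amb x l) := by
  obtain ⟨a, ha⟩ := a
  obtain ⟨⟨z, k⟩, rfl⟩ := mk_surjective x l a
  refine ⟨z, ?_, (smul_sub_self x l σ (z, k)).symm⟩
  rw [mem_KExt, ← map_nsmul, mk_eq_zero_iff] at ha
  obtain ⟨m, hm⟩ := ha
  have hm1 : l • z = m • x.val := congrArg Prod.fst hm
  rw [smul_sub, smul_comm, hm1, smul_comm σ m, x.fixed, sub_self]

end FL1

section INF

variable {Γ : Type*} [Group Γ] {J : Type*} [AddCommGroup J] [DistribMulAction Γ J]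

/-- **(INF)**: the Kummer cocycle at an involution. -/
theorem conj_sub_eq (σ : Γ) (hσ : σ * σ = 1) (hdiv : ∀ y : J, ∃ w : J, 2 • w = y)
    (x : J) (hx : σ • x = x) (k : ℕ) (z : J) (hz : 2 ^ k • z = x) :
    ∃ u : J, 2 ^ (k + 1) • u = 0 ∧ σ • z - z = σ • u - u := by
  obtain ⟨w, hw⟩ := hdiv z
  have hσσ : ∀ y : J, σ • σ • y = y := fun y => by rw [← mul_smul, hσ, one_smul]
  -- `u = z - (w + σ w)`
  refine ⟨z - (w + σ • w), ?_, ?_⟩
  · -- `2 u = 2 z - (z + σ z) = z - σ z`
    have h2 : 2 • (z - (w + σ • w)) = z - σ • z := by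
      rw [smul_sub, smul_add, smul_comm 2 σ w, hw, two_smul]
      abel
    rw [pow_succ, mul_smul, h2, smul_sub, smul_comm _ σ z, hz, hx, sub_self]
  · rw [smul_sub, smul_add, hσσ]
    abel

end INF

end Fermat.Agent.M15.FlatLocal2
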