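/-
Programme M15 (target S15), chapter R3 FLAT (helper2): **(R3-pos) the real place, `ℓ = 2`.**

`G ≤ J₀(p)` a `Γ`-stable subgroup killed by `2 ^ k`, `W = WRep p G hG`.  A class `y ∈ H¹(⟨c⟩, W)` is of
KUMMER TYPE AT THE REAL PLACE (`IsKumClassInf`) if it is the class of `g ↦ (loc g) z - z` for some `z` with
`ℓ ^ k z` rational (helper6's `KumRes6.resA_kum`).

* `negPart p G k` : `W⁻ = G ∩ (c - 1) J[2 ^ (k+1)]`, a subgroup of `G` (`c` the complex conjugation);
* `mapA_eq_zero_of_isKumClassInf` : for a piece `(A, φ : A → W, ψ : A → H)` with the POSITIVE label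
  `φ a ∈ W⁻ → ψ a = 0` and `c` acting trivially on `H`: `mapA ψ y = 0` whenever `mapA φ y` is of Kummer
  type.  This is the hypothesis `hpos` of `DevPos5.XiLe.atomPos` for the induced condition
  `(L.comapL φ).mapL ψ`, as soon as every class of `L.inf` is of Kummer type.
  Input: `J₀(p)` is `2`-divisible (`DivFinal4.jzero_divisible`), through `FlatLocal2.conj_sub_eq`
  (`c z - z = c u - u` with `2 ^ (k+1) u = 0`: no real geometry).
-/
import Mathlib
import Fermat.Agent.M15.FlatBridge2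
import Fermat.Agent.M15.FlatLocal2

set_option autoImplicit false
set_option linter.unusedSectionVars false
set_option linter.style.haveILetI false
set_option synthInstance.maxHeartbeats 400000

open CategoryTheory ExtCitation AlgebraicCurve ModularCurve

namespace Fermat.Agent.M15.FlatInf2

open Fermat.Agent.PT.PRO Fermat.Agent.PT.BR Fermat.Agent.W56.Defs9
open Fermat.Agent.M15.DevDefs5 Fermat.Agent.M15.KumRep6 Fermat.Agent.M15.FlatBridge2

local notation "Γ" => (AlgebraicClosure ℚ ≃ₐ[ℚ] AlgebraicClosure ℚ)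
local notation "Qbar" => AlgebraicClosure ℚ

noncomputable section

variable (p : ℕ) [NeZero p] (G : AddSubgroup (JZero p)) (hG : ∀ g : Γ, ∀ x ∈ G, g • x ∈ G)

/-- **classes of Kummer type at the real place**, level `ℓ ^ k`. -/
def IsKumClassInf (ℓ : ℕ) (k : ℕ) (y : H1A (WRep p G hG)) : Prop :=
  ∃ x z : JZero p, (∀ g : Γ, g • x = x) ∧ ℓ ^ k • z = x ∧
    ∃ c : ↥(LevelCoh28.Z1 (LevelBridge13.pullBasis archimedeanLoc)
        (Rep.res archimedeanLoc (WRep p G hG))),
      LevelCoh28.H1mk _ _ c = y ∧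
      ∀ g : archimedeanDecomposition,
        wval p G hG ((c : archimedeanDecomposition → WRep p G hG) g) = archimedeanLoc g • z - z

/-- `W⁻ = G ∩ (c - 1) J[2 ^ (k+1)]`. -/
def negPart (k : ℕ) : AddSubgroup (JZero p) where
  carrier := {v | v ∈ G ∧ ∃ u : JZero p, 2 ^ (k + 1) • u = 0 ∧ v = complexConjugation • u - u}
  zero_mem' := ⟨G.zero_mem, 0, nsmul_zero _, by
    rw [sub_zero]
    exact (smul_zero (A := JZero p) complexConjugation).symm⟩
  add_mem' := by
    rintro a b ⟨ha, u, hu, rfl⟩ ⟨hb, v, hv, rfl⟩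
    refine ⟨G.add_mem ha hb, u + v, ?_, ?_⟩
    · rw [nsmul_add, hu, hv, add_zero]
    · rw [smul_add]; abel
  neg_mem' := by
    rintro a ⟨ha, u, hu, rfl⟩
    refine ⟨G.neg_mem ha, -u, ?_, ?_⟩
    · rw [neg_nsmul, hu, neg_zero]
    · rw [smul_neg]; abel

theorem mem_negPart_iff (k : ℕ) (v : JZero p) :
    v ∈ negPart p G k ↔
      v ∈ G ∧ ∃ u : JZero p, 2 ^ (k + 1) • u = 0 ∧ v = complexConjugation • u - u := Iff.rfl

theorem negPart_le (k : ℕ) : negPart p G k ≤ G := fun _ h => h.1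

variable {p G hG}

/-- **the propagated cocycle at the real place.** -/
theorem exists_point_of_isKumClassInf (ℓ : ℕ) (k : ℕ)
    (hGl : ∀ x ∈ G, ℓ ^ k • x = 0)
    (A : Rep ℤ Γ) (φ : RepHom A (WRep p G hG))
    (hφ : ∀ g a, φ (A.ρ g a) = (WRep p G hG).ρ g (φ a))
    (c₀ : ↥(LevelCoh28.Z1 (LevelBridge13.pullBasis archimedeanLoc) (Rep.res archimedeanLoc A)))
    (hy : IsKumClassInf p G hG ℓ k (mapA (k := ℤ) φ hφ (LevelCoh28.H1mk _ _ c₀))) :
    ∃ x z' : JZero p, (∀ g : Γ, g • x = x) ∧ ℓ ^ k • z' = x ∧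
      ∀ g : archimedeanDecomposition,
        wval p G hG (φ ((c₀ : archimedeanDecomposition → A) g)) = archimedeanLoc g • z' - z' := by
  obtain ⟨x, z, hx, hz, c, hc, hcz⟩ := hy
  have hc' : LevelCoh28.H1mk (LevelBridge13.pullBasis archimedeanLoc)
        (Rep.res archimedeanLoc (WRep p G hG)) c =
      LevelCoh28.H1mk (LevelBridge13.pullBasis archimedeanLoc)
        (Rep.res archimedeanLoc (WRep p G hG))
        (LevelCoh28.mapZ1 (𝓑 := LevelBridge13.pullBasis archimedeanLoc)
          (A := Rep.res archimedeanLoc A) (B := Rep.res archimedeanLoc (WRep p G hG)) φ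
          (fun g a => hφ (archimedeanLoc g) a) c₀) := hc
  have h1 := (Submodule.Quotient.eq _).1 hc'
  obtain ⟨w, hw⟩ := h1
  have hw' : ∀ g : archimedeanDecomposition,
      wval p G hG ((c : archimedeanDecomposition → WRep p G hG) g) -
        wval p G hG (φ ((c₀ : archimedeanDecomposition → A) g)) =
      archimedeanLoc g • wval p G hG w - wval p G hG w := by
    intro g
    have := congrArg (wval p G hG) (congrFun hw g)
    rw [groupCohomology.d₀₁_hom_apply] at this
    exact this.symm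
  obtain ⟨v, hvG, hv⟩ : ∃ v : JZero p, v ∈ G ∧ ∀ g : archimedeanDecomposition,
      wval p G hG ((c : archimedeanDecomposition → WRep p G hG) g) -
        wval p G hG (φ ((c₀ : archimedeanDecomposition → A) g)) = archimedeanLoc g • v - v :=
    ⟨wval p G hG w, wval_mem _, hw'⟩
  refine ⟨x, z - v, hx, nsmul_sub_eq _ hz (hGl _ hvG), fun g => ?_⟩
  have h2 := hv g
  rw [hcz g] at h2
  rw [smul_sub]
  rw [sub_eq_iff_eq_add] at h2
  have h3 : wval p G hG (φ ((c₀ : archimedeanDecomposition → A) g)) =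
      archimedeanLoc g • z - z - (archimedeanLoc g • v - v) := by
    rw [h2]; abel
  rw [h3]; abel

/-- an element of `⟨c⟩` is `1` or `c`. -/
theorem archimedean_cases (g : archimedeanDecomposition) : g = 1 ∨ g = archimedeanGen := by
  obtain ⟨g, n, rfl⟩ := g
  rcases Int.even_or_odd n with ⟨m, rfl⟩ | ⟨m, rfl⟩
  · left
    apply Subtype.ext
    show complexConjugation ^ (m + m) = 1
    rw [← two_mul, zpow_mul, zpow_ofNat, complexConjugation_sq, one_zpow]
  · right
    apply Subtype.ext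
    show complexConjugation ^ (2 * m + 1) = complexConjugation
    rw [zpow_add, zpow_one, zpow_mul, zpow_ofNat, complexConjugation_sq, one_zpow, one_mul]

/-- **(R3-pos)** the propagated classes at the real place on a positively labelled piece vanish
(`ℓ = 2`). -/
theorem mapA_eq_zero_of_isKumClassInf (k : ℕ)
    (hGl : ∀ x ∈ G, 2 ^ k • x = 0) (hdiv : ∀ x : JZero p, ∃ y : JZero p, 2 • y = x)
    (A : Rep ℤ Γ) (φ : RepHom A (WRep p G hG))
    (hφ : ∀ g a, φ (A.ρ g a) = (WRep p G hG).ρ g (φ a))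
    (H : Rep ℤ Γ) (ψ : RepHom A H) (hψ : ∀ g a, ψ (A.ρ g a) = H.ρ g (ψ a))
    (hlab : ∀ a : A, wval p G hG (φ a) ∈ negPart p G k → ψ a = 0)
    (y : H1A A) (hy : IsKumClassInf p G hG 2 k (mapA (k := ℤ) φ hφ y)) :
    mapA (k := ℤ) ψ hψ y = 0 := by
  obtain ⟨c₀, rfl⟩ := LevelCoh28.H1mk_surjective _ _ y
  obtain ⟨x, z', hx, hz', hcz'⟩ := exists_point_of_isKumClassInf 2 k hGl A φ hφ c₀ hy
  obtain ⟨u, hu, hzu⟩ := Fermat.Agent.M15.FlatLocal2.conj_sub_eq (J := JZero p)
    complexConjugation complexConjugation_mul_self hdiv x (hx _) k z' hz'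
  have hgen : ψ ((c₀ : archimedeanDecomposition → A) archimedeanGen) = 0 := by
    apply hlab
    refine ⟨wval_mem _, u, hu, ?_⟩
    rw [hcz' archimedeanGen, archimedeanLoc_archimedeanGen, hzu]
  have hone : (c₀ : archimedeanDecomposition → A) 1 = 0 := by
    have hmem : (c₀ : archimedeanDecomposition → A) ∈
        groupCohomology.cocycles₁ (Rep.res archimedeanLoc A) := c₀.2.1
    exact groupCohomology.cocycles₁_map_one ⟨_, hmem⟩
  show LevelCoh28.H1mk _ _ (LevelCoh28.mapZ1
    (𝓑 := LevelBridge13.pullBasis archimedeanLoc) (A := Rep.res archimedeanLoc A)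
    (B := Rep.res archimedeanLoc H) ψ (fun g a => hψ (archimedeanLoc g) a) c₀) = 0
  rw [LevelCoh28.H1mk_eq_zero_iff]
  refine ⟨0, ?_⟩
  funext g
  rw [map_zero]
  show (0 : H) = ψ ((c₀ : archimedeanDecomposition → A) g)
  rcases archimedean_cases g with rfl | rfl
  · rw [hone, map_zero]
  · exact hgen.symm

end

end Fermat.Agent.M15.FlatInf2
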