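/-
Programme M15 (target S15), chapter R3 FLAT (helper2): **(INF-4) the size of the negative part**, stated
against helper3's `Λ = Lam J ε` (`M15/ToricTate3`) and the contract (HALF-c).

Vocabulary of `KumRep6`/`ToricTate3`: `J`, `𝕋`, `ε : 𝕋 →+* ZMod ℓ`, `G_k = kerE J ε k`,
`projG J ε k : Λ → G_k` (surjective with kernel `ℓ^k Λ` when `J` is `ℓ`-divisible).

* `card_GRep_eq`   : `#G_k = ℓ ^ (k · rank Λ)`;
* `card_negSet_le` (`ℓ = 2`, `c` an involution in `Γ`):
  `#{v ∈ G_k | ∃ u, 2^(k+1) u = 0 ∧ v = c u - u} ≤ 2 ^ (k · rank ker (ρ_Λ(c) + 1))`.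
  (every such `v` is the image of `2 w`, `w ∈ Λ⁻ = ker (ρ_Λ(c) + 1)`, under `Λ → G_(k+1)`.)
* `card_negPart_le` : the same for `FlatInf2.negPart p (kerE (JZero p) ε k) k`.
-/
import Mathlib
import Fermat.Agent.M15.ToricTate3
import Fermat.Agent.M15.ToricRank3
import Fermat.Agent.M15.FlatInf2

set_option autoImplicit false
set_option linter.unusedSectionVars false
set_option linter.style.haveILetI false
set_option synthInstance.maxHeartbeats 400000

open CategoryTheory ExtCitation AlgebraicCurve ModularCurve Module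

namespace Fermat.Agent.M15.FlatNeg2

open Fermat.Agent.ES.J.TateModule13 Fermat.Agent.M15.KumRep6 Fermat.Agent.M15.KumMap6
  Fermat.Agent.M15.ToricTate3 Fermat.Agent.M15.ToricRank3

local notation "Γ" => (AlgebraicClosure ℚ ≃ₐ[ℚ] AlgebraicClosure ℚ)
local notation "Qbar" => AlgebraicClosure ℚ

noncomputable section

section Card

variable {J : Type} [AddCommGroup J] [DistribMulAction Γ J]
  {𝕋 : Type} [Ring 𝕋] [Module 𝕋 J] [SMulCommClass Γ 𝕋 J] {ℓ : ℕ} [hℓ : Fact ℓ.Prime]
  (ε : 𝕋 →+* ZMod ℓ)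

/-- two surjective homomorphisms with the same kernel have targets of the same cardinality. -/
theorem card_eq_of_ker_eq {A B C : Type*} [AddCommGroup A] [AddCommGroup B] [AddCommGroup C]
    (f : A →+ B) (g : A →+ C) (hf : Function.Surjective f) (hg : Function.Surjective g)
    (h : ∀ a, f a = 0 ↔ g a = 0) : Nat.card B = Nat.card C := by
  have hker : f.ker = g.ker := by
    ext a
    exact h a
  have e1 := QuotientAddGroup.quotientKerEquivOfSurjective f hf
  have e2 := QuotientAddGroup.quotientKerEquivOfSurjective g hg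
  have e3 := QuotientAddGroup.quotientAddEquivOfEq hker
  exact Nat.card_congr ((e1.symm.trans e3).trans e2).toEquiv

/-- `#G_k = ℓ ^ (k · rank Λ)`. -/
theorem card_GRep_eq (hfin : Finite {x : J // ℓ • x = 0}) (hcomm : CommOnTors J 𝕋 ℓ)
    (hdiv : ∀ x : J, ∃ y : J, ℓ • y = x) (k : ℕ) :
    Nat.card (GRep J ε k) = ℓ ^ (k * finrank ℤ_[ℓ] (Lam J ε)) := by
  classical
  obtain ⟨hF, hFree⟩ := finite_free_Lam (ε := ε) hfin
  haveI := hF
  haveI := hFree
  set r := finrank ℤ_[ℓ] (Lam J ε) with hr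
  let b := Module.finBasis ℤ_[ℓ] (Lam J ε)
  let π : Lam J ε →+ (Fin r → ZMod (ℓ ^ k)) :=
    { toFun := fun x i => PadicInt.toZModPow k (b.repr x i)
      map_zero' := by
        funext i
        simp
      map_add' := fun x y => by
        funext i
        simp }
  have hπ : ∀ x i, π x i = PadicInt.toZModPow k (b.repr x i) := fun _ _ => rfl
  have hπsurj : Function.Surjective π := by
    intro f
    refine ⟨∑ i, (((f i).val : ℕ) : ℤ_[ℓ]) • b i, ?_⟩
    funext i
    rw [hπ, map_sum, Finset.sum_apply']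
    simp only [map_smul, Basis.repr_self, Finsupp.smul_single, smul_eq_mul, mul_one]
    rw [Finset.sum_eq_single i]
    · rw [Finsupp.single_eq_same, map_natCast, ZMod.natCast_zmod_val]
    · intro j _ hj
      rw [Finsupp.single_eq_of_ne hj.symm]
    · intro h
      exact absurd (Finset.mem_univ i) h
  have hker : ∀ x, π x = 0 ↔ projG J ε k x = 0 := by
    intro x
    rw [projG_eq_zero_iff]
    constructor
    · intro h
      have h1 : ∀ i, ∃ d : ℤ_[ℓ], b.repr x i = ((ℓ ^ k : ℕ) : ℤ_[ℓ]) * d := by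
        intro i
        have h2 : PadicInt.toZModPow k (b.repr x i) = 0 := by
          rw [← hπ, h]
          rfl
        rw [← RingHom.mem_ker, PadicInt.ker_toZModPow, Ideal.mem_span_singleton] at h2
        obtain ⟨d, hd⟩ := h2
        exact ⟨d, by rw [hd, Nat.cast_pow]⟩
      choose d hd using h1
      refine ⟨∑ i, d i • b i, ?_⟩
      conv_lhs => rw [← b.sum_repr x]
      rw [Finset.smul_sum]
      refine Finset.sum_congr rfl fun i _ => ?_
      rw [hd i, mul_smul]
    · rintro ⟨y, rfl⟩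
      funext i
      rw [hπ, map_smul, Finsupp.smul_apply, smul_eq_mul, map_mul, map_natCast]
      have : ((ℓ ^ k : ℕ) : ZMod (ℓ ^ k)) = 0 := ZMod.natCast_self _
      rw [this, zero_mul]
      rfl
  have hcard := card_eq_of_ker_eq π (projG J ε k) hπsurj (projG_surjective hfin hcomm hdiv k) hker
  rw [← hcard, Nat.card_fun, Nat.card_eq_fintype_card (α := Fin r), Fintype.card_fin,
    Nat.card_zmod, ← pow_mul]

end Card

section Neg

variable {J : Type} [AddCommGroup J] [DistribMulAction Γ J]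
  {𝕋 : Type} [Ring 𝕋] [Module 𝕋 J] [SMulCommClass Γ 𝕋 J]
  (ε : 𝕋 →+* ZMod 2)

theorem kerE_succ_of_mem {k : ℕ} {v : J} (hv : v ∈ kerE J ε k) : v ∈ kerE J ε (k + 1) :=
  ⟨by rw [pow_succ, mul_comm, mul_smul, hv.1, smul_zero], hv.2⟩

/-- **(INF-4)**: the negative part of `G_k` has at most `2 ^ (k · rank Λ⁻)` elements. -/
theorem card_negSet_le (hfin : Finite {x : J // 2 • x = 0}) (hcomm : CommOnTors J 𝕋 2)
    (hdiv : ∀ x : J, ∃ y : J, 2 • y = x) (c : Γ) (hc : c * c = 1) (k : ℕ) :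
    Nat.card {v : J // v ∈ kerE J ε k ∧ ∃ u : J, 2 ^ (k + 1) • u = 0 ∧ v = c • u - u} ≤
      2 ^ (k * finrank ℤ_[2] ↥(LinearMap.ker (rhoLam J ε c + 1))) := by
  classical
  obtain ⟨hF, hFree⟩ := finite_free_Lam (ε := ε) hfin
  haveI := hF
  haveI := hFree
  set N : Submodule ℤ_[2] (Lam J ε) := LinearMap.ker (rhoLam J ε c + 1) with hN
  -- the map `w ↦ image of 2 w in G_(k+1)`
  let π : Lam J ε →+ J :=
    { toFun := fun x => gval J ε (k + 1) (projG J ε (k + 1) ((2 : ℤ_[2]) • x))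
      map_zero' := by rw [smul_zero, map_zero]; rfl
      map_add' := fun x y => by rw [smul_add, map_add]; rfl }
  have hπ : ∀ x, π x = gval J ε (k + 1) (projG J ε (k + 1) ((2 : ℤ_[2]) • x)) := fun _ => rfl
  have hm : ∀ y : Lam J ε, π (((2 ^ k : ℕ) : ℤ_[2]) • y) = 0 := by
    intro y
    rw [hπ, ← mul_smul]
    have : (2 : ℤ_[2]) * ((2 ^ k : ℕ) : ℤ_[2]) = ((2 ^ (k + 1) : ℕ) : ℤ_[2]) := by
      push_cast
      ring
    rw [this, projG_pow_smul]
    rfl
  haveI : Finite (ℤ_[2] ⧸ Ideal.span {((2 ^ k : ℕ) : ℤ_[2])}) := by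
    apply Nat.finite_of_card_ne_zero
    rw [card_quot_pow]
    exact pow_ne_zero _ two_ne_zero
  have h1 := card_map_le N π ((2 ^ k : ℕ) : ℤ_[2]) hm
  rw [card_quot_pow, ← pow_mul] at h1
  refine le_trans ?_ h1
  -- the negative part lies in the image
  have hsub : ∀ v : J, (v ∈ kerE J ε k ∧ ∃ u : J, 2 ^ (k + 1) • u = 0 ∧ v = c • u - u) →
      v ∈ AddSubgroup.map π N.toAddSubgroup := by
    rintro v ⟨hv, u, hu, hvu⟩
    obtain ⟨e, -, he⟩ := exists_isProjK (J := J) ε (k + 1) hfin hcomm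
    have hv1 : v ∈ kerE J ε (k + 1) := kerE_succ_of_mem ε hv
    have hu' : e • u ∈ kerE J ε (k + 1) := he.mem u hu
    have hvu' : v = c • (e • u) - e • u := by
      rw [← he.id v hv1, hvu, smul_sub, (smul_comm c e u).symm]
    obtain ⟨ũ, hũ⟩ := projG_surjective hfin hcomm hdiv (k + 1) (gmk J ε (k + 1) (e • u) hu')
    set y : Lam J ε := rhoLam J ε c ũ - ũ with hy
    have hyv : gval J ε (k + 1) (projG J ε (k + 1) y) = v := by
      rw [hy, map_sub, projG_rhoLam, hũ, gval_sub, gval_ρ, gval_gmk, hvu']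
    -- `2^k y ∈ 2^(k+1) Λ`
    have h2 : projG J ε (k + 1) (((2 ^ k : ℕ) : ℤ_[2]) • y) = 0 := by
      apply gval_injective
      rw [projG_natCast_smul]
      have : gval J ε (k + 1) (2 ^ k • projG J ε (k + 1) y) =
          2 ^ k • gval J ε (k + 1) (projG J ε (k + 1) y) := by
        generalize projG J ε (k + 1) y = t
        generalize 2 ^ k = n
        induction n with
        | zero => simp
        | succ n ih => rw [succ_nsmul, succ_nsmul, gval_add, ih]
      rw [this, hyv, hv.1]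
      rfl
    obtain ⟨y', hy'⟩ := (projG_eq_zero_iff (k + 1) _).1 h2
    have h3 : y = (2 : ℤ_[2]) • y' := by
      have h4 : ((2 ^ k : ℕ) : ℤ_[2]) • y = ((2 ^ k : ℕ) : ℤ_[2]) • ((2 : ℤ_[2]) • y') := by
        rw [hy', ← mul_smul]
        congr 1
        push_cast
        ring
      have hne : ((2 ^ k : ℕ) : ℤ_[2]) ≠ 0 := by
        rw [Nat.cast_pow]
        exact pow_ne_zero _ (by norm_num)
      exact smul_right_injective _ hne h4
    -- `y' ∈ Λ⁻`
    have hcc : rhoLam J ε c (rhoLam J ε c ũ) = ũ := by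
      rw [← Module.End.mul_apply, ← map_mul, hc, map_one, Module.End.one_apply]
    have h5 : (rhoLam J ε c + 1) y = 0 := by
      rw [hy, LinearMap.add_apply, Module.End.one_apply, map_sub, hcc]
      abel
    have h6 : (rhoLam J ε c + 1) y' = 0 := by
      rw [h3, map_smul] at h5
      exact (smul_eq_zero.1 h5).resolve_left (by norm_num)
    refine ⟨y', h6, ?_⟩
    rw [hπ, ← h3, hyv]
  haveI : Finite ↥(kerE J ε (k + 1)) := finite_kerE ε hfin (k + 1)
  haveI : Finite ↥(AddSubgroup.map π N.toAddSubgroup) := by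
    have hmem : ∀ t : ↥(AddSubgroup.map π N.toAddSubgroup), (t : J) ∈ kerE J ε (k + 1) := by
      rintro ⟨_, x, -, rfl⟩
      show π x ∈ kerE J ε (k + 1)
      exact gval_mem _
    exact Finite.of_injective
      (fun t : ↥(AddSubgroup.map π N.toAddSubgroup) => (⟨(t : J), hmem t⟩ : ↥(kerE J ε (k + 1))))
      (fun a b h => Subtype.ext (congrArg (fun t : ↥(kerE J ε (k + 1)) => (t : J)) h))
  exact Nat.card_le_card_of_injective
    (fun v : {v : J // v ∈ kerE J ε k ∧ ∃ u : J, 2 ^ (k + 1) • u = 0 ∧ v = c • u - u} =>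
      (⟨v.1, hsub v.1 v.2⟩ : ↥(AddSubgroup.map π N.toAddSubgroup)))
    (fun a b h => Subtype.ext
      (congrArg (fun t : ↥(AddSubgroup.map π N.toAddSubgroup) => (t : J)) h))

/-- **(INF-4)** for `J₀(p)`: `#W⁻_k ≤ 2 ^ (k · rank Λ⁻)`, `W⁻_k = FlatInf2.negPart p G_k k`. -/
theorem card_negPart_le (p : ℕ) [NeZero p] {𝕋 : Type} [Ring 𝕋] [Module 𝕋 (JZero p)]
    [SMulCommClass Γ 𝕋 (JZero p)] (ε : 𝕋 →+* ZMod 2)
    (hfin : Finite {x : JZero p // 2 • x = 0}) (hcomm : CommOnTors (JZero p) 𝕋 2)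
    (hdiv : ∀ x : JZero p, ∃ y : JZero p, 2 • y = x) (k : ℕ) :
    Nat.card ↥(Fermat.Agent.M15.FlatInf2.negPart p (kerE (JZero p) ε k) k) ≤
      2 ^ (k * finrank ℤ_[2] ↥(LinearMap.ker (rhoLam (JZero p) ε complexConjugation + 1))) :=
  card_negSet_le ε hfin hcomm hdiv complexConjugation complexConjugation_mul_self k

end Neg

end

end Fermat.Agent.M15.FlatNeg2
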