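/-
Programme M15 (target S15), chapter (DEV) abstract Selmer dévissage, helper5:
**(D4) the zero module and the final count.**

* `XiLe.zero` : the zero module satisfies `XiLe T p ℓ H L 0`;
* **`XiLe.count`** : from `XiLe T p ℓ W L e`, `L p ≤ H1ur W p` and `#W · ℓ^a ≤ ℓ^e · #W^{I_p}`:
  `#H¹_L(W) · ℓ^a ≤ #H⁰(W)`.
-/
import Mathlib
import Fermat.Agent.M15.DevDefs5

set_option autoImplicit false
set_option linter.unusedSectionVars false

open CategoryTheory ExtCitation

namespace Fermat.Agent.M15.DevCount5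

open Fermat.Agent.PT.PRO Fermat.Agent.PT.BR Fermat.Agent.W56.Defs9
open Fermat.Agent.PT.PRO.LevelCoh28 Fermat.Agent.PT.PRO.LevelCohRes28
open Fermat.Agent.M15.DevDefs5

local notation "Γ" => (AlgebraicClosure ℚ ≃ₐ[ℚ] AlgebraicClosure ℚ)
local notation "Qbar" => AlgebraicClosure ℚ

noncomputable section

variable {k : Type} [CommRing k]

section Count

variable (T : Finset Nat.Primes)

/-- the zero module. -/
theorem XiLe.zero (p : Nat.Primes) (ℓ : ℕ) (H : Rep k Γ) [Subsingleton H] (L : LocCond H) :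
    XiLe T p ℓ H L 0 := by
  have hZ : ∀ {G : Type} [Group G] (𝓑 : LevelCoh28.LevelBasis G) (M : Rep k G) [Subsingleton M],
      Subsingleton (LevelCoh28.H1 𝓑 M) := by
    intro G _ 𝓑 M _
    refine ⟨fun x y => ?_⟩
    obtain ⟨c, rfl⟩ := LevelCoh28.H1mk_surjective _ _ x
    obtain ⟨d, rfl⟩ := LevelCoh28.H1mk_surjective _ _ y
    congr 1
    apply Subtype.ext
    funext g
    exact Subsingleton.elim _ _
  have h1 : Subsingleton (H1g T H) := hZ _ H
  have h2 : Subsingleton (H1D H p) :=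
    hZ (LevelBridge13.pullBasis (locD p)) (Rep.res (locD p) H)
  have h3 : Subsingleton (H1I H p) :=
    hZ (LevelBridge13.pullBasis (locI p)) (Rep.res (locI p) H)
  refine ⟨inferInstance, inferInstance, inferInstance, ?_⟩
  simp only [Nat.card_unique, pow_zero, mul_one, le_refl]

/-- **(CNT)**: the count of the Selmer group from the dévissage predicate. -/
theorem XiLe.count {p : Nat.Primes} {ℓ : ℕ} {W : Rep k Γ} {L : LocCond W} {e : ℕ}
    (h : XiLe T p ℓ W L e) (hur : L p ≤ H1ur W p) (a : ℕ)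
    (hcount : Nat.card W * ℓ ^ a ≤ ℓ ^ e * Nat.card ↥(H0I W p)) :
    Nat.card ↥(SelL T W L) * ℓ ^ a ≤ Nat.card ↥(H0 W) := by
  have := h.finM
  have hram : ramL W L p = ⊥ := by
    rw [eq_bot_iff]
    rintro _ ⟨x, hx, rfl⟩
    exact hur hx
  have h1 := h.le
  rw [hram] at h1
  have h2 : Nat.card ↥(⊥ : Submodule k (H1I W p)) = 1 := Nat.card_unique
  rw [h2, mul_one] at h1
  have hpos : 0 < Nat.card W := Nat.card_pos
  apply Nat.le_of_mul_le_mul_right _ hpos
  calc Nat.card ↥(SelL T W L) * ℓ ^ a * Nat.card W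
      = Nat.card ↥(SelL T W L) * (Nat.card W * ℓ ^ a) := by ring
    _ ≤ Nat.card ↥(SelL T W L) * (ℓ ^ e * Nat.card ↥(H0I W p)) := Nat.mul_le_mul_left _ hcount
    _ = Nat.card ↥(SelL T W L) * ℓ ^ e * Nat.card ↥(H0I W p) := by ring
    _ ≤ Nat.card ↥(H0 W) * Nat.card W := h1

end Count

end

end Fermat.Agent.M15.DevCount5
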