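/-
Programme M15 (target S15), chapter (DEV) abstract Selmer dévissage, helper5:
**cardinality lemmas for exact sequences of finite modules** (Mathlib only).

* `card_eq_ker_mul_range`, `card_range_conn`;
* `six_term_card` : `#V₅·#V₁·#V₃ ≤ #V₄·#V₆·#V₂` for an exact `0 → V₁ → V₂ → V₃ → V₄ → V₅ → V₆`;
* `finite_of_exact` : the middle term of `V₄ → V₅ → V₆` is finite;
* `ram_card` : the inequality for submodules `R₄, R₅, R₆` of the last three terms;
* `xi_arith` : the arithmetic of the additivity of the dévissage predicate.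
-/
import Mathlib

set_option autoImplicit false

namespace Fermat.Agent.M15.DevCard5

section Lin

variable {k : Type*} [Ring k] {X Y : Type*} [AddCommGroup X] [Module k X]
  [AddCommGroup Y] [Module k Y]

theorem card_eq_ker_mul_range (f : X →ₗ[k] Y) :
    Nat.card X = Nat.card ↥(LinearMap.ker f) * Nat.card ↥(LinearMap.range f) := by
  have h1 := (LinearMap.ker f).toAddSubgroup.card_eq_card_quotient_mul_card_addSubgroup
  have h2 : Nat.card (X ⧸ (LinearMap.ker f).toAddSubgroup) = Nat.card ↥(LinearMap.range f) :=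
    Nat.card_congr (f.quotKerEquivRange).toEquiv
  rw [h1, h2, mul_comm]
  rfl

theorem card_range_le [Finite Y] (f : X →ₗ[k] Y) : Nat.card ↥(LinearMap.range f) ≤ Nat.card Y :=
  Nat.card_le_card_of_injective _ Subtype.val_injective

theorem card_submodule_le [Finite Y] {S S' : Submodule k Y} (h : S ≤ S') :
    Nat.card ↥S ≤ Nat.card ↥S' :=
  Nat.card_le_card_of_injective _ (Submodule.inclusion_injective h)

theorem card_of_injective (f : X →ₗ[k] Y) (hf : Function.Injective f) :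
    Nat.card ↥(LinearMap.range f) = Nat.card X :=
  (Nat.card_congr (LinearEquiv.ofInjective f hf).toEquiv).symm

end Lin

section Six

variable {k : Type*} [Ring k] {V₁ V₂ V₃ V₄ V₅ V₆ : Type*}
  [AddCommGroup V₁] [Module k V₁] [AddCommGroup V₂] [Module k V₂] [AddCommGroup V₃] [Module k V₃]
  [AddCommGroup V₄] [Module k V₄] [AddCommGroup V₅] [Module k V₅] [AddCommGroup V₆] [Module k V₆]

/-- `#range f₃ · #V₂ = #V₃ · #V₁` in an exact sequence `0 → V₁ → V₂ → V₃ → V₄`. -/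
theorem card_range_conn [Finite V₂] [Finite V₃]
    (f₁ : V₁ →ₗ[k] V₂) (f₂ : V₂ →ₗ[k] V₃) (f₃ : V₃ →ₗ[k] V₄)
    (h₁ : Function.Injective f₁) (h₁₂ : LinearMap.ker f₂ = LinearMap.range f₁)
    (h₂₃ : LinearMap.ker f₃ = LinearMap.range f₂) :
    Nat.card ↥(LinearMap.range f₃) * Nat.card V₂ = Nat.card V₃ * Nat.card V₁ := by
  have e₂ := card_eq_ker_mul_range f₂
  have e₃ := card_eq_ker_mul_range f₃
  rw [h₁₂, card_of_injective f₁ h₁] at e₂
  rw [h₂₃] at e₃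
  rw [e₃, e₂]
  ring

/-- the cardinality inequality of a six-term exact sequence
`0 → V₁ → V₂ → V₃ → V₄ → V₅ → V₆`. -/
theorem six_term_card [Finite V₂] [Finite V₃] [Finite V₄] [Finite V₆]
    (f₁ : V₁ →ₗ[k] V₂) (f₂ : V₂ →ₗ[k] V₃) (f₃ : V₃ →ₗ[k] V₄) (f₄ : V₄ →ₗ[k] V₅)
    (f₅ : V₅ →ₗ[k] V₆)
    (h₁ : Function.Injective f₁) (h₁₂ : LinearMap.ker f₂ = LinearMap.range f₁)
    (h₂₃ : LinearMap.ker f₃ = LinearMap.range f₂) (h₃₄ : LinearMap.ker f₄ = LinearMap.range f₃)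
    (h₄₅ : LinearMap.ker f₅ = LinearMap.range f₄) :
    Nat.card V₅ * Nat.card V₁ * Nat.card V₃ ≤ Nat.card V₄ * Nat.card V₆ * Nat.card V₂ := by
  have e₄ := card_eq_ker_mul_range f₄
  have e₅ := card_eq_ker_mul_range f₅
  have hc := card_range_conn f₁ f₂ f₃ h₁ h₁₂ h₂₃
  rw [h₃₄] at e₄
  rw [h₄₅] at e₅
  have h6 : Nat.card ↥(LinearMap.range f₅) ≤ Nat.card V₆ := card_range_le f₅
  -- #V₅ = #range f₄ * #range f₅, #V₄ = #range f₃ * #range f₄
  calc Nat.card V₅ * Nat.card V₁ * Nat.card V₃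
      = Nat.card ↥(LinearMap.range f₄) * Nat.card ↥(LinearMap.range f₅) *
          (Nat.card V₃ * Nat.card V₁) := by rw [e₅]; ring
    _ = Nat.card ↥(LinearMap.range f₄) * Nat.card ↥(LinearMap.range f₅) *
          (Nat.card ↥(LinearMap.range f₃) * Nat.card V₂) := by rw [hc]
    _ = Nat.card V₄ * Nat.card ↥(LinearMap.range f₅) * Nat.card V₂ := by rw [e₄]; ring
    _ ≤ Nat.card V₄ * Nat.card V₆ * Nat.card V₂ :=
        Nat.mul_le_mul_right _ (Nat.mul_le_mul_left _ h6)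

/-- finiteness of the middle term. -/
theorem finite_of_exact [Finite V₄] [Finite V₆] (f₄ : V₄ →ₗ[k] V₅) (f₅ : V₅ →ₗ[k] V₆)
    (h₄₅ : LinearMap.ker f₅ = LinearMap.range f₄) : Finite V₅ := by
  have e₅ := card_eq_ker_mul_range f₅
  have h1 : Finite ↥(LinearMap.ker f₅) := by
    rw [h₄₅]
    exact Finite.of_surjective f₄.rangeRestrict f₄.surjective_rangeRestrict
  have h2 : Finite ↥(LinearMap.range f₅) := Finite.of_injective _ Subtype.val_injective
  apply Nat.finite_of_card_ne_zero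
  rw [e₅]
  exact Nat.mul_ne_zero Nat.card_pos.ne' Nat.card_pos.ne'

/-- the ramification inequality: `R₄ ≤ V₄`, `R₅ ≤ V₅`, `R₆ ≤ V₆` with `f₄ R₄ ≤ R₅`,
`R₆ ≤ f₅ R₅`, `f₅ ∘ f₄ = 0`. -/
theorem ram_card [Finite V₂] [Finite V₃]
    (f₁ : V₁ →ₗ[k] V₂) (f₂ : V₂ →ₗ[k] V₃) (f₃ : V₃ →ₗ[k] V₄) (f₄ : V₄ →ₗ[k] V₅)
    (f₅ : V₅ →ₗ[k] V₆)
    (h₁ : Function.Injective f₁) (h₁₂ : LinearMap.ker f₂ = LinearMap.range f₁)
    (h₂₃ : LinearMap.ker f₃ = LinearMap.range f₂) (h₃₄ : LinearMap.ker f₄ = LinearMap.range f₃)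
    (h₄₅ : ∀ x, f₅ (f₄ x) = 0)
    (R₄ : Submodule k V₄) (R₅ : Submodule k V₅) (R₆ : Submodule k V₆) [Finite ↥R₅]
    (h45 : R₄.map f₄ ≤ R₅) (h56 : R₆ ≤ R₅.map f₅) :
    Nat.card ↥R₄ * Nat.card ↥R₆ * Nat.card V₂ ≤ Nat.card ↥R₅ * Nat.card V₁ * Nat.card V₃ := by
  have hc := card_range_conn f₁ f₂ f₃ h₁ h₁₂ h₂₃
  set g : ↥R₄ →ₗ[k] V₅ := f₄.domRestrict R₄ with hg
  set h : ↥R₅ →ₗ[k] V₆ := f₅.domRestrict R₅ with hh
  have eg := card_eq_ker_mul_range g
  have eh := card_eq_ker_mul_range h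
  have : Finite ↥(LinearMap.range f₃) :=
    Finite.of_surjective f₃.rangeRestrict f₃.surjective_rangeRestrict
  -- `ker g` injects into `ker f₄ = range f₃`
  have hkg : Nat.card ↥(LinearMap.ker g) ≤ Nat.card ↥(LinearMap.range f₃) := by
    refine Nat.card_le_card_of_injective
      (fun x : ↥(LinearMap.ker g) => (⟨(x : ↥R₄), ?_⟩ : ↥(LinearMap.range f₃))) ?_
    · rw [← h₃₄, LinearMap.mem_ker]
      exact x.2
    · intro x y hxy
      simp only [Subtype.mk.injEq] at hxy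
      exact Subtype.ext (Subtype.ext hxy)
  -- `range g` injects into `ker h`
  have : Finite ↥(LinearMap.ker h) := Finite.of_injective _ Subtype.val_injective
  have hrg : Nat.card ↥(LinearMap.range g) ≤ Nat.card ↥(LinearMap.ker h) := by
    refine Nat.card_le_card_of_injective
      (fun x : ↥(LinearMap.range g) => (⟨⟨(x : V₅), ?_⟩, ?_⟩ : ↥(LinearMap.ker h))) ?_
    · obtain ⟨y, hy⟩ := x.2
      exact h45 ⟨y, y.2, hy⟩
    · obtain ⟨y, hy⟩ := x.2
      rw [LinearMap.mem_ker]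
      show f₅ (x : V₅) = 0
      rw [← hy]
      exact h₄₅ _
    · intro x y hxy
      simp only [Subtype.mk.injEq] at hxy
      exact Subtype.ext hxy
  -- `R₆` injects into `range h`
  have : Finite ↥(LinearMap.range h) :=
    Finite.of_surjective h.rangeRestrict h.surjective_rangeRestrict
  have hr6 : Nat.card ↥R₆ ≤ Nat.card ↥(LinearMap.range h) := by
    refine Nat.card_le_card_of_injective
      (fun x : ↥R₆ => (⟨(x : V₆), ?_⟩ : ↥(LinearMap.range h))) ?_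
    · obtain ⟨y, hy, hyx⟩ := h56 x.2
      exact ⟨⟨y, hy⟩, hyx⟩
    · intro x y hxy
      simp only [Subtype.mk.injEq] at hxy
      exact Subtype.ext hxy
  calc Nat.card ↥R₄ * Nat.card ↥R₆ * Nat.card V₂
      = Nat.card ↥(LinearMap.ker g) * Nat.card V₂ * Nat.card ↥(LinearMap.range g) *
          Nat.card ↥R₆ := by rw [eg]; ring
    _ ≤ Nat.card ↥(LinearMap.range f₃) * Nat.card V₂ * Nat.card ↥(LinearMap.range g) *
          Nat.card ↥R₆ :=
        Nat.mul_le_mul_right _ (Nat.mul_le_mul_right _ (Nat.mul_le_mul_right _ hkg))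
    _ = Nat.card V₃ * Nat.card V₁ * (Nat.card ↥(LinearMap.range g) * Nat.card ↥R₆) := by
        rw [hc]; ring
    _ ≤ Nat.card V₃ * Nat.card V₁ *
          (Nat.card ↥(LinearMap.ker h) * Nat.card ↥(LinearMap.range h)) :=
        Nat.mul_le_mul_left _ (Nat.mul_le_mul hrg hr6)
    _ = Nat.card ↥R₅ * Nat.card V₁ * Nat.card V₃ := by rw [eh]; ring

end Six

theorem xi_arith {SA SB SC a0 b0 c0 aI bI cI RA RB RC nA nC e e' ℓ : ℕ}
    (ha0 : 0 < a0) (hc0 : 0 < c0) (haI : 0 < aI) (hcI : 0 < cI)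
    (h1 : SB * a0 * c0 ≤ SA * SC * b0)
    (h2 : RA * RC * bI ≤ RB * aI * cI)
    (hA : SA * ℓ ^ e * aI ≤ a0 * RA * nA)
    (hC : SC * ℓ ^ e' * cI ≤ c0 * RC * nC) :
    SB * ℓ ^ (e + e') * bI ≤ b0 * RB * (nA * nC) := by
  have hpos : 0 < a0 * c0 * aI * cI := by positivity
  apply Nat.le_of_mul_le_mul_left _ hpos
  calc a0 * c0 * aI * cI * (SB * ℓ ^ (e + e') * bI)
      = (SB * a0 * c0) * (ℓ ^ e * ℓ ^ e' * aI * cI * bI) := by rw [pow_add]; ring
    _ ≤ (SA * SC * b0) * (ℓ ^ e * ℓ ^ e' * aI * cI * bI) := Nat.mul_le_mul_right _ h1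
    _ = (SA * ℓ ^ e * aI) * (SC * ℓ ^ e' * cI) * (b0 * bI) := by ring
    _ ≤ (a0 * RA * nA) * (c0 * RC * nC) * (b0 * bI) :=
        Nat.mul_le_mul_right _ (Nat.mul_le_mul hA hC)
    _ = (RA * RC * bI) * (a0 * c0 * nA * nC * b0) := by ring
    _ ≤ (RB * aI * cI) * (a0 * c0 * nA * nC * b0) := Nat.mul_le_mul_right _ h2
    _ = a0 * c0 * aI * cI * (b0 * RB * (nA * nC)) := by ring

end Fermat.Agent.M15.DevCard5
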