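/-
Programme M15 (target S15), chapter (DEV) abstract Selmer dévissage, helper5:
**(D1) additivity of the dévissage predicate** along `0 → A → B → C → 0`.

For `L` on `B`, `L' = L.comapL φ` (preimage) on `A` and `L'' = L.mapL ψ` (image) on `C`:
* the six-term sequence `0 → H⁰A → H⁰B → H⁰C → H¹_{L'}(A) → H¹_L(B) → H¹_{L''}(C)` is exact
  (`ker_selDelta`, `ker_selA`, `ker_selB`), hence `card_SelL_le`;
* the ramification inequality at `q` (`card_ramL_le`):
  `#R_A · #R_C · #B^{I_q} ≤ #R_B · #A^{I_q} · #C^{I_q}`, `R = res_{I_q}(L_q)`;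
* **`XiLe.ext`** : `XiLe T p ℓ A L' e → XiLe T p ℓ C L'' e' → XiLe T p ℓ B L (e + e')`.
-/
import Mathlib
import Fermat.Agent.M15.DevCard5
import Fermat.Agent.M15.DevDefs5

set_option autoImplicit false
set_option linter.unusedSectionVars false

open CategoryTheory ExtCitation

namespace Fermat.Agent.M15.DevExt5

open Fermat.Agent.PT.PRO Fermat.Agent.PT.BR Fermat.Agent.W56.Defs9
open Fermat.Agent.PT.PRO.LevelCoh28 Fermat.Agent.PT.PRO.LevelCohRes28
open Fermat.Agent.M15.DevDefs5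

local notation "Γ" => (AlgebraicClosure ℚ ≃ₐ[ℚ] AlgebraicClosure ℚ)
local notation "Qbar" => AlgebraicClosure ℚ

noncomputable section

variable {k : Type} [CommRing k]

section Ext

open Fermat.Agent.M15.DevCard5

variable {A B C : Rep k Γ} (φ : A →ₗ[k] B) (hφ : ∀ g a, φ (A.ρ g a) = B.ρ g (φ a))
  (ψ : B →ₗ[k] C) (hψ : ∀ g b, ψ (B.ρ g b) = C.ρ g (ψ b))
  (hinj : Function.Injective φ) (hsurj : Function.Surjective ψ)
  (hex : ∀ b, ψ b = 0 ↔ ∃ a, φ a = b)
  (T : Finset Nat.Primes) (hB : LevelCoh28.IsDiscrete (LevelBridge13.globalBasis T).sets B)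
  (L : LocCond B)

theorem mapG_mem_SelL {x : H1g T A} (hx : x ∈ SelL T A (L.comapL φ hφ)) :
    mapG φ hφ T x ∈ SelL T B L := by
  rw [mem_SelL_iff] at hx ⊢
  refine ⟨fun q hq => ?_, ?_⟩
  · rw [resD_mapG]
    exact hx.1 q hq
  · rw [resA_mapG]
    exact hx.2

theorem mapG_mem_SelL' {x : H1g T B} (hx : x ∈ SelL T B L) :
    mapG ψ hψ T x ∈ SelL T C (L.mapL ψ hψ) := by
  rw [mem_SelL_iff] at hx ⊢
  refine ⟨fun q hq => ?_, ?_⟩
  · rw [resD_mapG]
    exact ⟨_, hx.1 q hq, rfl⟩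
  · rw [resA_mapG]
    exact ⟨_, hx.2, rfl⟩

/-- `H¹_{L'}(A) → H¹_L(B)`. -/
def selA : ↥(SelL T A (L.comapL φ hφ)) →ₗ[k] ↥(SelL T B L) :=
  (mapG φ hφ T).restrict fun _ hx => mapG_mem_SelL φ hφ T L hx

/-- `H¹_L(B) → H¹_{L''}(C)`. -/
def selB : ↥(SelL T B L) →ₗ[k] ↥(SelL T C (L.mapL ψ hψ)) :=
  (mapG ψ hψ T).restrict fun _ hx => mapG_mem_SelL' ψ hψ T L hx

include hinj hsurj hex hB in
theorem mapG_delta0 (c : ↥(H0 C)) :
    mapG φ hφ T (delta0 (𝓑 := LevelBridge13.globalBasis T) φ hφ ψ hψ hinj hsurj hex hB c) = 0 := by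
  have h := ker_mapH1_eq_range_delta0 (𝓑 := LevelBridge13.globalBasis T) φ hφ ψ hψ hinj hsurj hex hB
  have : delta0 (𝓑 := LevelBridge13.globalBasis T) φ hφ ψ hψ hinj hsurj hex hB c ∈
      LinearMap.ker (LevelCoh28.mapH1 (𝓑 := LevelBridge13.globalBasis T) φ hφ) := by
    rw [h]
    exact ⟨c, rfl⟩
  exact this

/-- the connecting map `H⁰(C) → H¹_{L'}(A)`. -/
def selDelta : ↥(H0 C) →ₗ[k] ↥(SelL T A (L.comapL φ hφ)) :=
  (delta0 (𝓑 := LevelBridge13.globalBasis T) φ hφ ψ hψ hinj hsurj hex hB).codRestrict _ fun c => by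
    rw [mem_SelL_iff]
    refine ⟨fun q _ => ?_, ?_⟩
    · show mapD φ hφ q (resD T A q _) ∈ L q
      rw [← resD_mapG, mapG_delta0 φ hφ ψ hψ hinj hsurj hex T hB, map_zero]
      exact zero_mem _
    · show mapA φ hφ (resA T A _) ∈ L.inf
      rw [← resA_mapG, mapG_delta0 φ hφ ψ hψ hinj hsurj hex T hB, map_zero]
      exact zero_mem _

theorem ker_selDelta :
    LinearMap.ker (selDelta φ hφ ψ hψ hinj hsurj hex T hB L) = LinearMap.range (invMapR ψ hψ) := by
  rw [← ker_delta0R (𝓑 := LevelBridge13.globalBasis T) φ hφ ψ hψ hinj hsurj hex hB]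
  ext c
  rw [LinearMap.mem_ker, LinearMap.mem_ker]
  constructor
  · intro h
    exact congrArg Subtype.val h
  · intro h
    exact Subtype.ext h

theorem ker_selA :
    LinearMap.ker (selA φ hφ T L) = LinearMap.range (selDelta φ hφ ψ hψ hinj hsurj hex T hB L) := by
  have h := ker_mapH1_eq_range_delta0 (𝓑 := LevelBridge13.globalBasis T) φ hφ ψ hψ hinj hsurj hex hB
  ext x
  rw [LinearMap.mem_ker, LinearMap.mem_range]
  constructor
  · intro hx
    have hx' : (x : H1g T A) ∈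
        LinearMap.ker (LevelCoh28.mapH1 (𝓑 := LevelBridge13.globalBasis T) φ hφ) := by
      rw [LinearMap.mem_ker]
      exact congrArg Subtype.val hx
    rw [h] at hx'
    obtain ⟨c, hc⟩ := hx'
    exact ⟨c, Subtype.ext hc⟩
  · rintro ⟨c, rfl⟩
    apply Subtype.ext
    exact mapG_delta0 φ hφ ψ hψ hinj hsurj hex T hB c

include hinj hsurj hex hB in
theorem ker_selB :
    LinearMap.ker (selB ψ hψ T L) = LinearMap.range (selA φ hφ T L) := by
  have h := LevelCoh28.ker_mapH1 (𝓑 := LevelBridge13.globalBasis T) φ hφ ψ hψ hinj hsurj hex hB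
  ext x
  rw [LinearMap.mem_ker, LinearMap.mem_range]
  constructor
  · intro hx
    have hx' : (x : H1g T B) ∈
        LinearMap.ker (LevelCoh28.mapH1 (𝓑 := LevelBridge13.globalBasis T) ψ hψ) := by
      rw [LinearMap.mem_ker]
      exact congrArg Subtype.val hx
    rw [h] at hx'
    obtain ⟨y, hy⟩ := hx'
    have hy' : mapG φ hφ T y = (x : H1g T B) := hy
    refine ⟨⟨y, ?_⟩, Subtype.ext hy'⟩
    rw [mem_SelL_iff]
    refine ⟨fun q hq => ?_, ?_⟩
    · show mapD φ hφ q (resD T A q y) ∈ L q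
      rw [← resD_mapG, hy']
      exact ((mem_SelL_iff _).1 x.2).1 q hq
    · show mapA φ hφ (resA T A y) ∈ L.inf
      rw [← resA_mapG, hy']
      exact ((mem_SelL_iff _).1 x.2).2
  · rintro ⟨y, rfl⟩
    apply Subtype.ext
    have : mapG φ hφ T (y : H1g T A) ∈
        LinearMap.ker (LevelCoh28.mapH1 (𝓑 := LevelBridge13.globalBasis T) ψ hψ) := by
      rw [h]
      exact ⟨y, rfl⟩
    exact this

include hinj hsurj hex hB in
/-- **(DEV-1)** the cardinality inequality of the six-term Selmer sequence. -/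
theorem card_SelL_le [Finite B] [Finite ↥(SelL T A (L.comapL φ hφ))]
    [Finite ↥(SelL T C (L.mapL ψ hψ))] :
    Nat.card ↥(SelL T B L) * Nat.card ↥(H0 A) * Nat.card ↥(H0 C) ≤
      Nat.card ↥(SelL T A (L.comapL φ hφ)) * Nat.card ↥(SelL T C (L.mapL ψ hψ)) *
        Nat.card ↥(H0 B) := by
  have : Finite C := Finite.of_surjective ψ hsurj
  exact six_term_card (invMapR φ hφ) (invMapR ψ hψ) (selDelta φ hφ ψ hψ hinj hsurj hex T hB L)
    (selA φ hφ T L) (selB ψ hψ T L) (invMapR_injective φ hφ hinj)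
    (ker_invMapR φ hφ ψ hψ hinj hex) (ker_selDelta φ hφ ψ hψ hinj hsurj hex T hB L)
    (ker_selA φ hφ ψ hψ hinj hsurj hex T hB L) (ker_selB φ hφ ψ hψ hinj hsurj hex T hB L)

include hinj hsurj hex hB in
theorem finite_SelL [Finite ↥(SelL T A (L.comapL φ hφ))]
    [Finite ↥(SelL T C (L.mapL ψ hψ))] : Finite ↥(SelL T B L) :=
  finite_of_exact (selA φ hφ T L) (selB ψ hψ T L) (ker_selB φ hφ ψ hψ hinj hsurj hex T hB L)

/-! ### the local part at `p` -/

theorem isDiscrete_resD (q : Nat.Primes)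
    (hB : LevelCoh28.IsDiscrete (LevelBridge13.globalBasis T).sets B) :
    LevelCoh28.IsDiscrete (LevelBridge13.pullBasis (locD q)).sets (Rep.res (locD q) B) :=
  isDiscrete_of_surjective (f := locD q) (ShaBridge13.isLevelHom_pull T (locD q))
    (LinearMap.id : B →ₗ[k] Rep.res (locD q) B) (fun _ _ => rfl) Function.surjective_id hB

theorem isDiscrete_resI (q : Nat.Primes)
    (hB : LevelCoh28.IsDiscrete (LevelBridge13.globalBasis T).sets B) :
    LevelCoh28.IsDiscrete (LevelBridge13.pullBasis (locI q)).sets (Rep.res (locI q) B) :=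
  isDiscrete_of_surjective (f := locI q) (ShaBridge13.isLevelHom_pull T (locI q))
    (LinearMap.id : B →ₗ[k] Rep.res (locI q) B) (fun _ _ => rfl) Function.surjective_id hB

include hinj hsurj hex hB in
theorem ker_mapD (q : Nat.Primes) :
    LinearMap.ker (mapD ψ hψ q) = LinearMap.range (mapD φ hφ q) :=
  LevelCoh28.ker_mapH1 (𝓑 := LevelBridge13.pullBasis (locD q)) (A := Rep.res (locD q) A)
    (B := Rep.res (locD q) B) (C := Rep.res (locD q) C) φ (fun g a => hφ (locD q g) a) ψ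
    (fun g b => hψ (locD q g) b) hinj hsurj hex (isDiscrete_resD T q hB)

include hφ hψ hinj hsurj hex hB in
theorem finite_H1D_mid (q : Nat.Primes) [Finite (H1D A q)] [Finite (H1D C q)] :
    Finite (H1D B q) :=
  finite_of_exact (mapD φ hφ q) (mapD ψ hψ q) (ker_mapD φ hφ ψ hψ hinj hsurj hex T hB q)

theorem map_ramL_le (q : Nat.Primes) :
    (ramL A (L.comapL φ hφ) q).map (mapI φ hφ q) ≤ ramL B L q := by
  rintro _ ⟨_, ⟨x, hx, rfl⟩, rfl⟩
  rw [← resDI_mapD]
  exact ⟨_, hx, rfl⟩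

theorem ramL_le_map (q : Nat.Primes) :
    ramL C (L.mapL ψ hψ) q ≤ (ramL B L q).map (mapI ψ hψ q) := by
  rintro _ ⟨_, ⟨x, hx, rfl⟩, rfl⟩
  rw [resDI_mapD]
  exact ⟨_, ⟨x, hx, rfl⟩, rfl⟩

include hinj hsurj hex hB in
/-- the ramification inequality at `q`. -/
theorem card_ramL_le (q : Nat.Primes) [Finite B] [Finite (H1D B q)] :
    Nat.card ↥(ramL A (L.comapL φ hφ) q) * Nat.card ↥(ramL C (L.mapL ψ hψ) q) *
        Nat.card ↥(H0I B q) ≤
      Nat.card ↥(ramL B L q) * Nat.card ↥(H0I A q) * Nat.card ↥(H0I C q) := by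
  have : Finite C := Finite.of_surjective ψ hsurj
  have hBI := isDiscrete_resI T q hB
  have : Finite ↥(ramL B L q) :=
    Finite.of_surjective (fun x : ↥(L q) => (⟨resDI B q x, ⟨x, x.2, rfl⟩⟩ : ↥(ramL B L q)))
      (by rintro ⟨_, ⟨x, hx, rfl⟩⟩; exact ⟨⟨x, hx⟩, rfl⟩)
  have h34 := ker_mapH1_eq_range_delta0 (𝓑 := LevelBridge13.pullBasis (locI q))
    (A := Rep.res (locI q) A) (B := Rep.res (locI q) B) (C := Rep.res (locI q) C) φ
    (fun g a => hφ (locI q g) a) ψ (fun g b => hψ (locI q g) b) hinj hsurj hex hBI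
  have h45 := LevelCoh28.ker_mapH1 (𝓑 := LevelBridge13.pullBasis (locI q))
    (A := Rep.res (locI q) A) (B := Rep.res (locI q) B) (C := Rep.res (locI q) C) φ
    (fun g a => hφ (locI q g) a) ψ (fun g b => hψ (locI q g) b) hinj hsurj hex hBI
  exact ram_card
    (invMapR (A := Rep.res (locI q) A) (B := Rep.res (locI q) B) φ (fun g a => hφ (locI q g) a))
    (invMapR (A := Rep.res (locI q) B) (B := Rep.res (locI q) C) ψ (fun g b => hψ (locI q g) b))
    (delta0 (𝓑 := LevelBridge13.pullBasis (locI q))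
      (A := Rep.res (locI q) A) (B := Rep.res (locI q) B) (C := Rep.res (locI q) C) φ
      (fun g a => hφ (locI q g) a) ψ (fun g b => hψ (locI q g) b) hinj hsurj hex hBI)
    (mapI φ hφ q) (mapI ψ hψ q)
    (invMapR_injective (A := Rep.res (locI q) A) (B := Rep.res (locI q) B) φ
      (fun g a => hφ (locI q g) a) hinj)
    (ker_invMapR (A := Rep.res (locI q) A) (B := Rep.res (locI q) B) (C := Rep.res (locI q) C) φ
      (fun g a => hφ (locI q g) a) ψ (fun g b => hψ (locI q g) b) hinj hex)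
    (ker_delta0R (𝓑 := LevelBridge13.pullBasis (locI q))
      (A := Rep.res (locI q) A) (B := Rep.res (locI q) B) (C := Rep.res (locI q) C) φ
      (fun g a => hφ (locI q g) a) ψ (fun g b => hψ (locI q g) b) hinj hsurj hex hBI) h34
    (fun x => by
      have : mapI φ hφ q x ∈ LinearMap.ker (mapI ψ hψ q) := by
        show _ ∈ LinearMap.ker (LevelCoh28.mapH1 _ _)
        rw [h45]
        exact ⟨x, rfl⟩
      exact this)
    (ramL A (L.comapL φ hφ) q) (ramL B L q) (ramL C (L.mapL ψ hψ) q)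
    (map_ramL_le φ hφ L q) (ramL_le_map ψ hψ L q)

include hinj hsurj hex in
theorem card_mid : Nat.card B = Nat.card A * Nat.card C := by
  have e := card_eq_ker_mul_range ψ
  have h1 : LinearMap.ker ψ = LinearMap.range φ := by
    ext b
    rw [LinearMap.mem_ker, hex, LinearMap.mem_range]
  rw [h1, card_of_injective φ hinj, LinearMap.range_eq_top.2 hsurj] at e
  rw [e]
  congr 1
  exact Nat.card_congr (Equiv.Set.univ _)

include hinj hsurj hex hB in
/-- **(D1) additivity of the dévissage predicate** along `0 → A → B → C → 0`. -/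
theorem XiLe.ext (p : Nat.Primes) (ℓ : ℕ) {e e' : ℕ}
    (hA : XiLe T p ℓ A (L.comapL φ hφ) e) (hC : XiLe T p ℓ C (L.mapL ψ hψ) e') :
    XiLe T p ℓ B L (e + e') := by
  have := hA.finM
  have := hC.finM
  have := hA.finSel
  have := hC.finSel
  have := hA.finLoc
  have := hC.finLoc
  have hcard := card_mid φ ψ hinj hsurj hex
  have finB : Finite B := by
    apply Nat.finite_of_card_ne_zero
    rw [hcard]
    exact Nat.mul_ne_zero Nat.card_pos.ne' Nat.card_pos.ne'
  have finSel := finite_SelL φ hφ ψ hψ hinj hsurj hex T hB L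
  have finLoc := finite_H1D_mid φ hφ ψ hψ hinj hsurj hex T hB p
  refine ⟨finB, finSel, finLoc, ?_⟩
  have h1 := card_SelL_le φ hφ ψ hψ hinj hsurj hex T hB L
  have h2 := card_ramL_le φ hφ ψ hψ hinj hsurj hex T hB L p
  rw [hcard]
  exact xi_arith Nat.card_pos Nat.card_pos Nat.card_pos Nat.card_pos h1 h2 hA.le hC.le

end Ext

end

end Fermat.Agent.M15.DevExt5
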