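/-
Programme M15 (target S15), chapter (DEV) abstract Selmer dévissage, helper5:
**(D5) the dévissage predicate along a filtration.**

`W : Rep k Γ`, `F : Fin (n+1) → Submodule k W` a chain of `Γ`-stable submodules from `⊥` to `⊤`.

* `subRep W S hS`, `pieceRep W S S' hS hS'` (`= S'/S`), `pieceCond W L S S' hS hS'` (the local
  conditions induced by `L` on `S'/S`: preimage in `S'`, then image in `S'/S`);
* `LocCond.comapL_comapL` (functoriality of the preimage condition), `XiLe.of_top` (transport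
  along `↥⊤ ≃ W`);
* **`XiLe.chain`** : if every piece `F (i+1) / F i` satisfies `XiLe` with exponent `e i` for its
  induced conditions, then `XiLe T p ℓ W L (∑ i, e i)`.
-/
import Mathlib
import Fermat.Agent.M15.DevExt5
import Fermat.Agent.M15.DevCount5

set_option autoImplicit false
set_option linter.unusedSectionVars false

open CategoryTheory ExtCitation

namespace Fermat.Agent.M15.DevChain5

open Fermat.Agent.PT.PRO Fermat.Agent.PT.BR Fermat.Agent.W56.Defs9
open Fermat.Agent.PT.PRO.LevelCoh28 Fermat.Agent.PT.PRO.LevelCohRes28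
open Fermat.Agent.M15.DevDefs5 Fermat.Agent.M15.DevExt5 Fermat.Agent.M15.DevCount5

local notation "Γ" => (AlgebraicClosure ℚ ≃ₐ[ℚ] AlgebraicClosure ℚ)
local notation "Qbar" => AlgebraicClosure ℚ

noncomputable section

variable {k : Type} [CommRing k]

/-! ### functoriality of the preimage condition -/

section Functoriality

variable {A B C : Rep.{0, 0, 0} k Γ} (φ : A →ₗ[k] B) (hφ : ∀ g a, φ (A.ρ g a) = B.ρ g (φ a))
  (ψ : B →ₗ[k] C) (hψ : ∀ g b, ψ (B.ρ g b) = C.ρ g (ψ b))

include hφ hψ in
theorem comp_equivariant (g : Γ) (a : A) : (ψ ∘ₗ φ) (A.ρ g a) = C.ρ g ((ψ ∘ₗ φ) a) := by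
  show ψ (φ (A.ρ g a)) = C.ρ g (ψ (φ a))
  rw [hφ, hψ]

theorem mapD_comp (q : Nat.Primes) (x : H1D A q) :
    mapD (ψ ∘ₗ φ) (comp_equivariant φ hφ ψ hψ) q x = mapD ψ hψ q (mapD φ hφ q x) := by
  obtain ⟨c, rfl⟩ := LevelCoh28.H1mk_surjective _ _ x
  rfl

theorem mapA_comp (x : H1A A) :
    mapA (ψ ∘ₗ φ) (comp_equivariant φ hφ ψ hψ) x = mapA ψ hψ (mapA φ hφ x) := by
  obtain ⟨c, rfl⟩ := LevelCoh28.H1mk_surjective _ _ x
  rfl

theorem LocCond.comapL_comapL (L : LocCond C) :
    (L.comapL ψ hψ).comapL φ hφ = L.comapL (ψ ∘ₗ φ) (comp_equivariant φ hφ ψ hψ) := by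
  have h1 : ((L.comapL ψ hψ).comapL φ hφ).fin =
      (L.comapL (ψ ∘ₗ φ) (comp_equivariant φ hφ ψ hψ)).fin := by
    funext q
    ext x
    show mapD ψ hψ q (mapD φ hφ q x) ∈ L q ↔
      mapD (ψ ∘ₗ φ) (comp_equivariant φ hφ ψ hψ) q x ∈ L q
    rw [mapD_comp]
  have h2 : ((L.comapL ψ hψ).comapL φ hφ).inf =
      (L.comapL (ψ ∘ₗ φ) (comp_equivariant φ hφ ψ hψ)).inf := by
    ext x
    show mapA ψ hψ (mapA φ hφ x) ∈ L.inf ↔
      mapA (ψ ∘ₗ φ) (comp_equivariant φ hφ ψ hψ) x ∈ L.inf
    rw [mapA_comp]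
  cases h : (L.comapL ψ hψ).comapL φ hφ with
  | mk f i =>
    cases h' : L.comapL (ψ ∘ₗ φ) (comp_equivariant φ hφ ψ hψ) with
    | mk f' i' =>
      rw [h, h'] at h1 h2
      simp only at h1 h2
      rw [h1, h2]

/-- the preimage condition only depends on the map. -/
theorem LocCond.comapL_congr (L : LocCond B) {φ' : A →ₗ[k] B}
    (hφ' : ∀ g a, φ' (A.ρ g a) = B.ρ g (φ' a)) (h : φ = φ') :
    L.comapL φ hφ = L.comapL φ' hφ' := by
  subst h
  rfl

end Functoriality

/-! ### sub- and quotient representations -/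

section Pieces

variable (W : Rep.{0, 0, 0} k Γ)

/-- `Γ`-stable submodules. -/
def IsStable (S : Submodule k W) : Prop := ∀ (g : Γ), ∀ w ∈ S, W.ρ g w ∈ S

theorem isStable_bot : IsStable W ⊥ := fun g w hw => by
  rw [Submodule.mem_bot] at hw ⊢
  rw [hw, map_zero]

theorem isStable_top : IsStable W ⊤ := fun _ _ _ => Submodule.mem_top

variable (S S' : Submodule k W) (hS : IsStable W S) (hS' : IsStable W S')

/-- the action on a stable submodule. -/
def subρ : Representation k Γ ↥S where
  toFun g := (W.ρ g).restrict fun w hw => hS g w hw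
  map_one' := by
    ext x
    show W.ρ 1 (x : W) = x
    rw [map_one]
    rfl
  map_mul' g h := by
    ext x
    show W.ρ (g * h) (x : W) = W.ρ g (W.ρ h (x : W))
    rw [map_mul]
    rfl

/-- a stable submodule, as a representation. -/
def subRep : Rep k Γ := Rep.of (subρ W S hS)

/-- the inclusion `S → W`. -/
def subIncl : subRep W S hS →ₗ[k] W := S.subtype

theorem subIncl_equivariant (g : Γ) (a : subRep W S hS) :
    subIncl W S hS ((subRep W S hS).ρ g a) = W.ρ g (subIncl W S hS a) := rfl

theorem subIncl_injective : Function.Injective (subIncl W S hS) := Subtype.val_injective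

/-- the inclusion `S → S'` for `S ≤ S'`. -/
def subSub (h : S ≤ S') : subRep W S hS →ₗ[k] subRep W S' hS' := Submodule.inclusion h

theorem subSub_equivariant (h : S ≤ S') (g : Γ) (a : subRep W S hS) :
    subSub W S S' hS hS' h ((subRep W S hS).ρ g a) =
      (subRep W S' hS').ρ g (subSub W S S' hS hS' h a) := rfl

theorem subSub_injective (h : S ≤ S') : Function.Injective (subSub W S S' hS hS' h) :=
  Submodule.inclusion_injective h

theorem subIncl_comp_subSub (h : S ≤ S') :
    subIncl W S' hS' ∘ₗ subSub W S S' hS hS' h = subIncl W S hS := rfl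

/-- the action on `S' / S`. -/
def pieceρ : Representation k Γ (↥S' ⧸ S.comap S'.subtype) where
  toFun g := Submodule.mapQ _ _ (subρ W S' hS' g) fun x hx => hS g x hx
  map_one' := by
    ext x
    show Submodule.Quotient.mk (subρ W S' hS' 1 x) = Submodule.Quotient.mk x
    rw [map_one]
    rfl
  map_mul' g h := by
    ext x
    show Submodule.Quotient.mk (subρ W S' hS' (g * h) x) =
      Submodule.Quotient.mk (subρ W S' hS' g (subρ W S' hS' h x))
    rw [map_mul]
    rfl

/-- the piece `S' / S`, as a representation. -/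
def pieceRep : Rep k Γ := Rep.of (pieceρ W S S' hS hS')

/-- the projection `S' → S' / S`. -/
def pieceProj : subRep W S' hS' →ₗ[k] pieceRep W S S' hS hS' := Submodule.mkQ _

theorem pieceProj_equivariant (g : Γ) (b : subRep W S' hS') :
    pieceProj W S S' hS hS' ((subRep W S' hS').ρ g b) =
      (pieceRep W S S' hS hS').ρ g (pieceProj W S S' hS hS' b) := rfl

theorem pieceProj_surjective : Function.Surjective (pieceProj W S S' hS hS') :=
  Submodule.mkQ_surjective _

theorem pieceProj_eq_zero_iff (h : S ≤ S') (b : subRep W S' hS') :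
    pieceProj W S S' hS hS' b = 0 ↔ ∃ a, subSub W S S' hS hS' h a = b := by
  constructor
  · intro hb
    have hb' : (show ↥S' from b) ∈ S.comap S'.subtype :=
      (Submodule.Quotient.mk_eq_zero (S.comap S'.subtype)).1 hb
    exact ⟨⟨(show ↥S' from b).1, hb'⟩, rfl⟩
  · rintro ⟨a, rfl⟩
    exact (Submodule.Quotient.mk_eq_zero (S.comap S'.subtype)).2 (a : ↥S).2

/-- the local conditions induced on `S' / S`: preimage in `S'`, then image in `S' / S`. -/
def pieceCond (L : LocCond W) : LocCond (pieceRep W S S' hS hS') :=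
  (L.comapL (subIncl W S' hS') (subIncl_equivariant W S' hS')).mapL
    (pieceProj W S S' hS hS') (pieceProj_equivariant W S S' hS hS')

theorem isDiscrete_subRep {𝓤 : Set (Subgroup Γ)} (hW : LevelCoh28.IsDiscrete 𝓤 W) :
    LevelCoh28.IsDiscrete 𝓤 (subRep W S hS) := by
  intro a
  obtain ⟨U, hU, hfix⟩ := hW (subIncl W S hS a)
  exact ⟨U, hU, fun s hs => Subtype.ext (hfix s hs)⟩

end Pieces

/-! ### the chain -/

section Chain

variable (T : Finset Nat.Primes) (p : Nat.Primes) (ℓ : ℕ) (W : Rep.{0, 0, 0} k Γ)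
  (hW : LevelCoh28.IsDiscrete (LevelBridge13.globalBasis T).sets W) (L : LocCond W)

include hW in
/-- transport along `↥⊤ ≃ W`. -/
theorem XiLe.of_top {e : ℕ}
    (h : XiLe T p ℓ (subRep W ⊤ (isStable_top W))
      (L.comapL (subIncl W ⊤ (isStable_top W)) (subIncl_equivariant W ⊤ (isStable_top W))) e) :
    XiLe T p ℓ W L e := by
  let Z : Rep.{0, 0, 0} k Γ := Rep.of (1 : Representation k Γ PUnit)
  have : Subsingleton Z := inferInstanceAs (Subsingleton PUnit)
  let ψ : W →ₗ[k] Z := 0
  have hψ : ∀ g b, ψ (W.ρ g b) = Z.ρ g (ψ b) := fun _ _ => Subsingleton.elim _ _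
  have key := XiLe.ext (subIncl W ⊤ (isStable_top W)) (subIncl_equivariant W ⊤ (isStable_top W))
    ψ hψ (subIncl_injective W ⊤ (isStable_top W))
    (fun z => ⟨0, Subsingleton.elim _ _⟩)
    (fun b => ⟨fun _ => ⟨⟨b, Submodule.mem_top⟩, rfl⟩, fun _ => Subsingleton.elim _ _⟩)
    T hW L p ℓ h (XiLe.zero T p ℓ Z _)
  rwa [add_zero] at key

variable (n : ℕ) (F : Fin (n + 1) → Submodule k W) (hmono : Monotone F)
  (hst : ∀ i, IsStable W (F i))

include hW hmono in
/-- the induction: `XiLe` for `F i` with the preimage condition. -/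
theorem XiLe.chain_aux (hbot : F 0 = ⊥) (e : Fin n → ℕ)
    (hpiece : ∀ i : Fin n, XiLe T p ℓ
      (pieceRep W (F i.castSucc) (F i.succ) (hst _) (hst _))
      (pieceCond W (F i.castSucc) (F i.succ) (hst _) (hst _) L) (e i))
    (m : ℕ) (hm : m ≤ n) :
    XiLe T p ℓ (subRep W (F ⟨m, Nat.lt_succ_of_le hm⟩) (hst _))
      (L.comapL (subIncl W (F ⟨m, Nat.lt_succ_of_le hm⟩) (hst _))
        (subIncl_equivariant W _ (hst _)))
      (∑ i : Fin n, if (i : ℕ) < m then e i else 0) := by
  induction m with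
  | zero =>
    have h0 : F ⟨0, Nat.lt_succ_of_le hm⟩ = ⊥ := hbot
    have hsub : Subsingleton (subRep W (F ⟨0, Nat.lt_succ_of_le hm⟩) (hst _)) := by
      refine ⟨fun a b => Subtype.ext ?_⟩
      have ha : subIncl W _ (hst _) a ∈ F ⟨0, Nat.lt_succ_of_le hm⟩ :=
        (show ↥(F ⟨0, Nat.lt_succ_of_le hm⟩) from a).2
      have hb : subIncl W _ (hst _) b ∈ F ⟨0, Nat.lt_succ_of_le hm⟩ :=
        (show ↥(F ⟨0, Nat.lt_succ_of_le hm⟩) from b).2
      have ha' : subIncl W _ (hst _) a = 0 := (Submodule.mem_bot k).1 (h0 ▸ ha)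
      have hb' : subIncl W _ (hst _) b = 0 := (Submodule.mem_bot k).1 (h0 ▸ hb)
      exact ha'.trans hb'.symm
    have hsum : (∑ i : Fin n, if (i : ℕ) < 0 then e i else 0) = 0 := by simp
    rw [hsum]
    exact XiLe.zero T p ℓ _ _
  | succ m ih =>
    have hm' : m ≤ n := Nat.le_of_succ_le hm
    have hmn : m < n := hm
    have ihm := ih hm'
    let i : Fin n := ⟨m, hmn⟩
    have e1 : (⟨m, Nat.lt_succ_of_le hm'⟩ : Fin (n + 1)) = i.castSucc := rfl
    have e2 : (⟨m + 1, Nat.lt_succ_of_le hm⟩ : Fin (n + 1)) = i.succ := rfl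
    have hle : F i.castSucc ≤ F i.succ := hmono (Fin.castSucc_lt_succ (i := i)).le
    -- the conditions
    have hA : XiLe T p ℓ (subRep W (F i.castSucc) (hst _))
        ((L.comapL (subIncl W (F i.succ) (hst _)) (subIncl_equivariant W _ (hst _))).comapL
          (subSub W (F i.castSucc) (F i.succ) (hst _) (hst _) hle)
          (subSub_equivariant W _ _ (hst _) (hst _) hle))
        (∑ i : Fin n, if (i : ℕ) < m then e i else 0) := by
      rw [LocCond.comapL_comapL]
      exact ihm
    have key := XiLe.ext (subSub W (F i.castSucc) (F i.succ) (hst _) (hst _) hle)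
      (subSub_equivariant W _ _ (hst _) (hst _) hle)
      (pieceProj W (F i.castSucc) (F i.succ) (hst _) (hst _))
      (pieceProj_equivariant W _ _ (hst _) (hst _))
      (subSub_injective W _ _ (hst _) (hst _) hle)
      (pieceProj_surjective W _ _ (hst _) (hst _))
      (pieceProj_eq_zero_iff W _ _ (hst _) (hst _) hle)
      T (isDiscrete_subRep W (F i.succ) (hst _) hW)
      (L.comapL (subIncl W (F i.succ) (hst _)) (subIncl_equivariant W _ (hst _)))
      p ℓ hA (hpiece i)
    have hsum : (∑ j : Fin n, if (j : ℕ) < m + 1 then e j else 0) =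
        (∑ j : Fin n, if (j : ℕ) < m then e j else 0) + e i := by
      have : ∀ j : Fin n, (if (j : ℕ) < m + 1 then e j else 0) =
          (if (j : ℕ) < m then e j else 0) + (if j = i then e j else 0) := by
        intro j
        by_cases h1 : (j : ℕ) < m
        · have h2 : j ≠ i := fun h => by rw [h] at h1; exact lt_irrefl _ h1
          rw [if_pos h1, if_pos (Nat.lt_succ_of_lt h1), if_neg h2, add_zero]
        · by_cases h2 : j = i
          · have h3 : (j : ℕ) < m + 1 := by rw [h2]; exact Nat.lt_succ_self m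
            rw [if_neg h1, if_pos h3, if_pos h2, zero_add]
          · have h3 : ¬ (j : ℕ) < m + 1 := by
              intro h
              have : (j : ℕ) = m := by omega
              exact h2 (Fin.ext this)
            rw [if_neg h1, if_neg h3, if_neg h2, add_zero]
      rw [Finset.sum_congr rfl fun j _ => this j, Finset.sum_add_distrib,
        Finset.sum_ite_eq' Finset.univ i e, if_pos (Finset.mem_univ i)]
    rw [hsum]
    exact key

include hW hmono in
/-- **(D5) the dévissage predicate along a filtration.** -/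
theorem XiLe.chain (hbot : F 0 = ⊥) (htop : F (Fin.last n) = ⊤) (e : Fin n → ℕ)
    (hpiece : ∀ i : Fin n, XiLe T p ℓ
      (pieceRep W (F i.castSucc) (F i.succ) (hst _) (hst _))
      (pieceCond W (F i.castSucc) (F i.succ) (hst _) (hst _) L) (e i)) :
    XiLe T p ℓ W L (∑ i, e i) := by
  have h := XiLe.chain_aux T p ℓ W hW L n F hmono hst hbot e hpiece n le_rfl
  have hsum : (∑ i : Fin n, if (i : ℕ) < n then e i else 0) = ∑ i, e i :=
    Finset.sum_congr rfl fun i _ => if_pos i.2
  rw [hsum] at h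
  apply XiLe.of_top T p ℓ W hW L
  have hlast : (⟨n, Nat.lt_succ_of_le le_rfl⟩ : Fin (n + 1)) = Fin.last n := rfl
  rw [hlast] at h
  have key : ∀ (S : Submodule k W) (hs : IsStable W S), S = ⊤ →
      XiLe T p ℓ (subRep W S hs)
        (L.comapL (subIncl W S hs) (subIncl_equivariant W S hs)) (∑ i, e i) →
      XiLe T p ℓ (subRep W ⊤ (isStable_top W))
        (L.comapL (subIncl W ⊤ (isStable_top W)) (subIncl_equivariant W ⊤ (isStable_top W)))
        (∑ i, e i) := by
    intro S hs hS h'
    subst hS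
    exact h'
  exact key _ _ htop h

end Chain

end

end Fermat.Agent.M15.DevChain5
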