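/-
Programme M15 (target S15), chapter (DEV) abstract Selmer dévissage, helper5:
**(D2) the étale atom.**

* `eq_zero_of_unramified` : a class in `H¹(G_T, H)`, `H` with trivial action, which is unramified at
  every prime of `T`, is zero (Minkowski, in the form `S13/UnramBridge.eq_top_of_forall_exists_inertia_le`);
* **`XiLe.atomEt`** : for `H` of prime order `ℓ` with trivial action and conditions `L q ≤ H1ur H q`
  at the primes `q ≠ p` of `T`: `XiLe T p ℓ H L 1`.
-/
import Mathlib
import Fermat.Agent.M15.DevDefs5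
import Fermat.Agent.W56.FinH1D1
import Fermat.Agent.W56.DecompOnto0
import Fermat.Agent.W56.UnipSel8
import Fermat.Agent.S13.UnramBridge

set_option autoImplicit false
set_option linter.unusedSectionVars false

open CategoryTheory ExtCitation

namespace Fermat.Agent.M15.DevEt5

open Fermat.Agent.PT.PRO Fermat.Agent.PT.BR Fermat.Agent.W56.Defs9
open Fermat.Agent.PT.PRO.LevelCoh28 Fermat.Agent.PT.PRO.LevelCohRes28
open Fermat.Agent.M15.DevDefs5

local notation "Γ" => (AlgebraicClosure ℚ ≃ₐ[ℚ] AlgebraicClosure ℚ)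
local notation "Qbar" => AlgebraicClosure ℚ

noncomputable section

variable {k : Type} [CommRing k]

section Et

open groupCohomology

variable (T : Finset Nat.Primes) (H : Rep k Γ)

theorem resI_eq' (q : Nat.Primes) (x : H1g T H) : resI T H q x = resDI H q (resD T H q x) := by
  obtain ⟨c, rfl⟩ := LevelCoh28.H1mk_surjective _ _ x
  rfl

/-- a class of a module with trivial action which is unramified at all primes of `T` is zero. -/
theorem eq_zero_of_unramified (htriv : ∀ (σ : Γ) (m : H), H.ρ σ m = m) (x : H1g T H)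
    (hx : ∀ q ∈ T, resDI H q (resD T H q x) = 0) : x = 0 := by
  obtain ⟨c, rfl⟩ := LevelCoh28.H1mk_surjective _ _ x
  -- `c` is a homomorphism
  have hc1 : (c : Γ → H) ∈ cocycles₁ H := c.2.1
  have hadd : ∀ g h : Γ, (c : Γ → H) (g * h) = (c : Γ → H) g + (c : Γ → H) h := by
    intro g h
    rw [(mem_cocycles₁_iff _).1 hc1 g h, htriv, add_comm]
  have hone : (c : Γ → H) 1 = 0 := by
    have := hadd 1 1
    rw [mul_one] at this
    exact left_eq_add.mp this
  -- its kernel
  let N : Subgroup Γ :=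
    { carrier := {σ | (c : Γ → H) σ = 0}
      mul_mem' := fun {a b} ha hb => by
        show (c : Γ → H) (a * b) = 0
        rw [hadd, ha, hb, add_zero]
      one_mem' := hone
      inv_mem' := fun {a} ha => by
        show (c : Γ → H) a⁻¹ = 0
        have := hadd a a⁻¹
        rw [mul_inv_cancel, hone, ha, zero_add] at this
        exact this.symm }
  have hN : ∀ σ, σ ∈ N ↔ (c : Γ → H) σ = 0 := fun _ => Iff.rfl
  have : N.Normal := ⟨fun n hn g => by
    rw [hN] at hn ⊢
    have h1 := hadd g g⁻¹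
    rw [mul_inv_cancel, hone] at h1
    rw [hadd, hadd, hn, add_zero]
    exact h1.symm⟩
  -- the level
  obtain ⟨_, ⟨F, hF, rfl⟩, hinv⟩ := c.2.2
  have := hF.1
  have hFN : F.fixingSubgroup ≤ N := fun s hs => by
    rw [hN]
    have := hinv 1 s hs
    rw [one_mul] at this
    rw [this, hone]
  have key : ∀ q : Nat.Primes, (primeLocalPlace q).inertiaSubgroupIn ℚ ≤ N := by
    intro q
    by_cases hqT : q ∈ T
    · -- ramification killed by the local condition
      intro σ hσ
      obtain ⟨τ, hτ⟩ :=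
        Fermat.Agent.W56.DecompOnto0.exists_primeLocalToGlobal_eq_of_mem_inertia q hσ
      have hτI : τ ∈ inertia q := by
        show locD q τ ∈ (primeLocalPlace q).inertiaSubgroupIn ℚ
        rw [show locD q τ = σ from hτ]
        exact hσ
      have h0 : resI T H q (LevelCoh28.H1mk _ _ c) = 0 := by
        rw [resI_eq']
        exact hx q hqT
      have h1 : resI T H q (LevelCoh28.H1mk _ _ c) =
          LevelCoh28.H1mk (LevelBridge13.pullBasis (locI q)) (Rep.res (locI q) H)
            (LevelCohRes28.ppZ1 (𝓑G := LevelBridge13.pullBasis (locI q))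
              (𝓑H := LevelBridge13.globalBasis T) (locI q)
              (LinearMap.id : H →ₗ[k] Rep.res (locI q) H) (fun _ _ => rfl)
              (ShaBridge13.isLevelHom_pull T (locI q)) c) := rfl
      rw [h1, LevelCoh28.H1mk_eq_zero_iff] at h0
      obtain ⟨m, hm⟩ := h0
      have h2 := congrFun hm ⟨τ, hτI⟩
      rw [hN]
      have h3 : (c : Γ → H) (locI q ⟨τ, hτI⟩) = 0 := by
        have h4 : (d₀₁ (Rep.res (locI q) H)).hom m ⟨τ, hτI⟩ = 0 := by
          rw [d₀₁_hom_apply]
          show H.ρ (locI q ⟨τ, hτI⟩) m - m = 0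
          rw [htriv, sub_self]
        rw [h4] at h2
        exact h2.symm
      have h5 : locI q ⟨τ, hτI⟩ = σ := hτ
      rw [← h5]
      exact h3
    · exact (hF.2 q hqT _
        (Fermat.Agent.W56.UnipSel8.liesOverPrime_primeLocalPlace q)).trans hFN
  have htop : N = ⊤ := by
    refine Fermat.Agent.S13.UnramBridge.eq_top_of_forall_exists_inertia_le N F hFN ?_
    intro q hq
    exact ⟨primeLocalPlace ⟨q, hq⟩,
      Fermat.Agent.W56.UnipSel8.liesOverPrime_primeLocalPlace ⟨q, hq⟩, key ⟨q, hq⟩⟩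
  rw [LevelCoh28.H1mk_eq_zero_iff]
  refine ⟨0, ?_⟩
  funext σ
  have : σ ∈ N := by rw [htop]; trivial
  rw [map_zero]
  exact ((hN σ).1 this).symm

theorem card_invariants_of_trivial {G : Type} [Group G] (M : Rep k G)
    (h : ∀ (σ : G) (m : M), M.ρ σ m = m) : Nat.card ↥M.ρ.invariants = Nat.card M := by
  have : M.ρ.invariants = ⊤ := by
    ext m
    simp only [Submodule.mem_top, iff_true]
    exact fun g => h g m
  rw [this]
  exact Nat.card_congr (Submodule.topEquiv (R := k) (M := M)).toEquiv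

/-- **(D2) the étale atom.** -/
theorem XiLe.atomEt (p : Nat.Primes) (hpT : p ∈ T) (ℓ : ℕ) [Fact ℓ.Prime]
    (hcard : Nat.card H = ℓ) (htriv : ∀ (σ : Γ) (m : H), H.ρ σ m = m)
    (L : LocCond H) (hur : ∀ q ∈ T, q ≠ p → L q ≤ H1ur H q) :
    XiLe T p ℓ H L 1 := by
  have hℓ : ℓ.Prime := Fact.out
  have finH : Finite H := Nat.finite_of_card_ne_zero (by rw [hcard]; exact hℓ.ne_zero)
  have hpM : ∀ m : H, ℓ • m = 0 := fun m => by
    rw [← hcard]
    exact card_nsmul_eq_zero'
  have hsm : ∀ m : H, ∃ F : IntermediateField ℚ Qbar, FiniteDimensional ℚ F ∧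
      ∀ s ∈ F.fixingSubgroup, H.ρ s m = m := fun m => ⟨⊥, inferInstance, fun s _ => htriv s m⟩
  have finLoc : Finite (H1D H p) := Fermat.Agent.W56.FinH1D1.finite_H1D H ℓ hpM hsm p
  have finRam : Finite ↥(ramL H L p) :=
    Finite.of_surjective (fun x : ↥(L p) => (⟨resDI H p x, ⟨x, x.2, rfl⟩⟩ : ↥(ramL H L p)))
      (by rintro ⟨_, ⟨x, hx, rfl⟩⟩; exact ⟨⟨x, hx⟩, rfl⟩)
  -- the map `Sel → ramL`
  let r : ↥(SelL T H L) →ₗ[k] ↥(ramL H L p) :=
    (((resDI H p).comp (resD T H p)).domRestrict (SelL T H L)).codRestrict (ramL H L p)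
      fun x => ⟨resD T H p x, ((mem_SelL_iff _).1 x.2).1 p hpT, rfl⟩
  have hr : Function.Injective r := by
    rw [← LinearMap.ker_eq_bot, LinearMap.ker_eq_bot']
    intro x hx
    have hx' : resDI H p (resD T H p (x : H1g T H)) = 0 := congrArg Subtype.val hx
    apply Subtype.ext
    refine eq_zero_of_unramified T H htriv (x : H1g T H) fun q hq => ?_
    by_cases hqp : q = p
    · rw [hqp]
      exact hx'
    · exact hur q hq hqp (((mem_SelL_iff _).1 x.2).1 q hq)
  have finSel : Finite ↥(SelL T H L) := Finite.of_injective r hr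
  refine ⟨finH, finSel, finLoc, ?_⟩
  have h1 : Nat.card ↥(SelL T H L) ≤ Nat.card ↥(ramL H L p) :=
    Nat.card_le_card_of_injective r hr
  have h2 : Nat.card ↥(H0I H p) = ℓ := by
    rw [← hcard]
    exact card_invariants_of_trivial (Rep.res (locI p) H) fun σ m => htriv (locI p σ) m
  have h3 : Nat.card ↥(DevDefs5.H0 H) = ℓ := by
    rw [← hcard]
    exact card_invariants_of_trivial H htriv
  rw [h2, h3, hcard, pow_one]
  calc Nat.card ↥(SelL T H L) * ℓ * ℓ ≤ Nat.card ↥(ramL H L p) * ℓ * ℓ :=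
        Nat.mul_le_mul_right _ (Nat.mul_le_mul_right _ h1)
    _ = ℓ * Nat.card ↥(ramL H L p) * ℓ := by ring

end Et

end

end Fermat.Agent.M15.DevEt5
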