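/-
Programme M15 (target S15), chapter (DEV), helper5: **(VAL)** an element of `ℚ̄ˣ` fixed by the
inertia group of a place `A | q` has its valuation in the value group of `ℚ`:
`valuation_eq_zpow_of_fixed : ∃ m : ℤ, A.valuation β = A.valuation q ^ m`
(from `ES/P36/UnrFixed1.isUnif_natCast`: `q` is a uniformiser of `A ∩ ℚ(β)`).
-/
import Mathlib
import Fermat.Agent.ES.P36.UnrFixed1

set_option autoImplicit false
set_option linter.unusedSectionVars false

namespace Fermat.Agent.M15.DevVal5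

open Fermat.Agent.RED.DESC.NumberFieldDVR27 Fermat.Agent.RED.PUR.GaussGen8
open Fermat.Agent.RED.Interface4

local notation "Qbar" => AlgebraicClosure ℚ

/-! ### (VAL): an element fixed by inertia has its valuation in the value group of `ℚ` -/

section Val

variable (A : ValuationSubring Qbar) {q : ℕ}

theorem valuation_eq_pow_of_fixed_of_mem (hq : q.Prime) (hA : A.LiesOverPrime q)
    (β : Qbar) (hβ : β ≠ 0) (hβA : β ∈ A)
    (hfix : ∀ τ ∈ A.inertiaSubgroupIn ℚ, τ β = β) :
    ∃ n : ℕ, A.valuation β = A.valuation (q : Qbar) ^ n := by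
  set K : IntermediateField ℚ Qbar := IntermediateField.adjoin ℚ {β} with hKdef
  have hfin : FiniteDimensional ℚ K :=
    IntermediateField.adjoin.finiteDimensional (Algebra.IsIntegral.isIntegral β)
  have hβK : β ∈ K := IntermediateField.mem_adjoin_simple_self ℚ β
  have hle : K ≤ IntermediateField.fixedField (A.inertiaSubgroupIn ℚ) := by
    rw [hKdef, IntermediateField.adjoin_le_iff]
    intro z hz
    rw [Set.mem_singleton_iff] at hz
    subst hz
    intro τ
    exact hfix τ.1 τ.2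
  have hK : ∀ τ ∈ A.inertiaSubgroupIn ℚ, ∀ y ∈ K, τ y = y := by
    intro τ hτ y hy
    exact hle hy ⟨τ, hτ⟩
  have := isDiscreteValuationRing_AK A K hq.ne_zero hA
  have hunif := Fermat.Agent.ES.P36.UnrFixed1.isUnif_natCast A hq hA K hK
  have hirr : Irreducible ((q : ℕ) : AK A K) := by
    rw [IsDiscreteValuationRing.irreducible_iff_uniformizer]
    exact hunif.max_eq
  have hxA : (⟨β, hβK⟩ : K) ∈ AK A K := by
    rw [mem_AK_iff]
    exact hβA
  have hx0 : (⟨⟨β, hβK⟩, hxA⟩ : AK A K) ≠ 0 := by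
    intro h
    apply hβ
    have := congrArg (fun z : AK A K => ((z : K) : Qbar)) h
    simpa using this
  obtain ⟨n, u, hu⟩ := IsDiscreteValuationRing.eq_unit_mul_pow_irreducible hx0 hirr
  refine ⟨n, ?_⟩
  have h1 : β = (((u : AK A K) : K) : Qbar) * (q : Qbar) ^ n := by
    have := congrArg (fun z : AK A K => ((z : K) : Qbar)) hu
    simpa using this
  have hu1 : A.valuation ((((u : AK A K) : K) : Qbar)) = 1 := by
    have h2 : (((u : AK A K) : K) : Qbar) ∈ A := (mem_AK_iff A K _).1 (u : AK A K).2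
    have h3 : (((u⁻¹ : (AK A K)ˣ) : AK A K) : K) ∈ AK A K := ((u⁻¹ : (AK A K)ˣ) : AK A K).2
    have h3' : ((((u⁻¹ : (AK A K)ˣ) : AK A K) : K) : Qbar) ∈ A := (mem_AK_iff A K _).1 h3
    have h4 : (((u : AK A K) : K) : Qbar) * ((((u⁻¹ : (AK A K)ˣ) : AK A K) : K) : Qbar) = 1 := by
      have h := congrArg (fun z : AK A K => ((z : K) : Qbar)) (Units.mul_inv u)
      simp only [MulMemClass.coe_mul, OneMemClass.coe_one] at h
      exact h
    have h5 := (A.valuation_le_one_iff _).2 h2
    have h6 := (A.valuation_le_one_iff _).2 h3'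
    have h7 : A.valuation ((((u : AK A K) : K) : Qbar)) *
        A.valuation (((((u⁻¹ : (AK A K)ˣ) : AK A K) : K) : Qbar)) = 1 := by
      rw [← map_mul, h4, map_one]
    refine le_antisymm h5 ?_
    by_contra hlt
    push Not at hlt
    have : A.valuation ((((u : AK A K) : K) : Qbar)) *
        A.valuation (((((u⁻¹ : (AK A K)ˣ) : AK A K) : K) : Qbar)) < 1 := by
      calc _ ≤ A.valuation ((((u : AK A K) : K) : Qbar)) * 1 := by gcongr
        _ = A.valuation ((((u : AK A K) : K) : Qbar)) := mul_one _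
        _ < 1 := hlt
    rw [h7] at this
    exact lt_irrefl _ this
  rw [h1, map_mul, map_pow, hu1, one_mul]

theorem valuation_eq_zpow_of_fixed (hq : q.Prime) (hA : A.LiesOverPrime q)
    (β : Qbar) (hβ : β ≠ 0) (hfix : ∀ τ ∈ A.inertiaSubgroupIn ℚ, τ β = β) :
    ∃ m : ℤ, A.valuation β = A.valuation (q : Qbar) ^ m := by
  by_cases hβA : β ∈ A
  · obtain ⟨n, hn⟩ := valuation_eq_pow_of_fixed_of_mem A hq hA β hβ hβA hfix
    exact ⟨n, by rw [hn, zpow_natCast]⟩
  · have hinv : β⁻¹ ∈ A := (A.mem_or_inv_mem β).resolve_left hβA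
    have hfix' : ∀ τ ∈ A.inertiaSubgroupIn ℚ, τ β⁻¹ = β⁻¹ := fun τ hτ => by
      rw [map_inv₀, hfix τ hτ]
    obtain ⟨n, hn⟩ := valuation_eq_pow_of_fixed_of_mem A hq hA β⁻¹ (inv_ne_zero hβ) hinv hfix'
    refine ⟨-(n : ℤ), ?_⟩
    rw [map_inv₀] at hn
    rw [zpow_neg, zpow_natCast, ← hn, inv_inv]

end Val

end Fermat.Agent.M15.DevVal5
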