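/-
Programme M15 (target S15), chapter (DEV), helper5: **the Kummer core of the multiplicative atom.**

`H : Rep k Γ` with an additive-to-multiplicative equivariant map `j : H → ℚ̄ˣ`:
* `exists_hilbert90` : a level cocycle `c : Γ → H` is `σ ↦ σ β / β` (read through `j`), `β ∈ ℚ̄ˣ`
  (`PT/BR/InfGalois13.hilbert90_level`);
* `exists_rat_eq_pow` : if `ℓ H = 0` then `β ^ ℓ ∈ ℚˣ`;
* `dvd_padicValRat_of_fixed` : if `β` is fixed by the inertia group at `A | q` then `ℓ ∣ v_q(β^ℓ)`;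
* `dvd_padicValRat_of_local` : the local computation at `ℓ` (unit classes).
-/
import Mathlib
import Fermat.Agent.W56.Defs9
import Fermat.Agent.PT.BR.InfGalois13
import Fermat.Agent.S13.GalRat
import Fermat.Agent.W56.DecompOnto0
import Fermat.Agent.M15.DevVal5

set_option autoImplicit false
set_option linter.unusedSectionVars false

open CategoryTheory ExtCitation

namespace Fermat.Agent.M15.DevKum5

open Fermat.Agent.PT.PRO Fermat.Agent.PT.BR Fermat.Agent.W56.Defs9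
open groupCohomology

local notation "Γ" => (AlgebraicClosure ℚ ≃ₐ[ℚ] AlgebraicClosure ℚ)
local notation "Qbar" => AlgebraicClosure ℚ

local instance isAlgClosureQbarK5 : IsAlgClosure ℚ Qbar := ⟨inferInstance, inferInstance⟩
local instance isGaloisQbarK5 : IsGalois ℚ Qbar := IsAlgClosure.isGalois ℚ Qbar

noncomputable section

variable {k : Type} [CommRing k] (T : Finset Nat.Primes) (H : Rep k Γ) (j : H → Qbarˣ)
  (hj_add : ∀ a b, j (a + b) = j a * j b)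
  (hj_eq : ∀ (σ : Γ) (m : H), ((j (H.ρ σ m) : Qbarˣ) : Qbar) = σ ((j m : Qbarˣ) : Qbar))

include hj_add in
theorem j_zero : j 0 = 1 := by
  have h := hj_add 0 0
  rw [add_zero] at h
  exact (mul_eq_left₀ (j 0).ne_zero |>.mp (by exact_mod_cast congrArg (Units.val) h.symm)) |>
    fun h' => Units.ext h'

include hj_add hj_eq in
/-- **Hilbert 90**: a level cocycle with values in `H ↪ ℚ̄ˣ` is `σ ↦ σ β / β`. -/
theorem exists_hilbert90 [Finite H] (c : ↥(LevelCoh28.Z1 (LevelBridge13.globalBasis T) H)) :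
    ∃ β : Qbarˣ, ∀ σ : Γ, ((j ((c : Γ → H) σ) : Qbarˣ) : Qbar) * β = σ (β : Qbar) := by
  obtain ⟨_, ⟨F, hF, rfl⟩, hinv⟩ := c.2.2
  have hFfin : FiniteDimensional ℚ F := hF.1
  -- the field generated by the values
  let S : Set Qbar := Set.range fun m : H => ((j m : Qbarˣ) : Qbar)
  have hSfin : S.Finite := Set.finite_range _
  have : Finite S := hSfin.to_subtype
  have hadj : FiniteDimensional ℚ (IntermediateField.adjoin ℚ S) :=
    IntermediateField.finiteDimensional_adjoin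
      (fun x _ => (Algebra.IsAlgebraic.isAlgebraic (R := ℚ) x).isIntegral)
  let E : IntermediateField ℚ Qbar := F ⊔ IntermediateField.adjoin ℚ S
  have hEfin : FiniteDimensional ℚ E := IntermediateField.finiteDimensional_sup F _
  have hc1 : (c : Γ → H) ∈ cocycles₁ H := c.2.1
  obtain ⟨β, hβ⟩ := InfGalois13.hilbert90_level (K := ℚ) (Ω := Qbar) ⊤ E
    (fun σ => j ((c : Γ → H) σ))
    (fun g s hs => by
      have hsF : s ∈ F.fixingSubgroup :=
        IntermediateField.fixingSubgroup_antitone (le_sup_left : F ≤ E) hs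
      show j ((c : Γ → H) (g * s)) = j ((c : Γ → H) g)
      rw [hinv g s hsF])
    (fun g => (le_sup_right : IntermediateField.adjoin ℚ S ≤ E)
      (IntermediateField.subset_adjoin ℚ S ⟨_, rfl⟩))
    (fun n _ n' _ => by
      apply Units.ext
      show ((j ((c : Γ → H) (n * n')) : Qbarˣ) : Qbar) =
        n ((j ((c : Γ → H) n') : Qbarˣ) : Qbar) * ((j ((c : Γ → H) n) : Qbarˣ) : Qbar)
      rw [(mem_cocycles₁_iff _).1 hc1 n n', hj_add, Units.val_mul, hj_eq])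
  refine ⟨β, fun σ => ?_⟩
  have h := congrArg (Units.val) (hβ σ (Subgroup.mem_top σ))
  have h2 : ((σ • β / β : Qbarˣ) : Qbar) = σ (β : Qbar) / (β : Qbar) := by
    rw [Units.val_div_eq_div_val]
    rfl
  rw [h2] at h
  rw [h, div_mul_cancel₀ _ β.ne_zero]

include hj_add in
theorem j_nsmul (n : ℕ) (m : H) : j (n • m) = j m ^ n := by
  induction n with
  | zero => rw [zero_smul, pow_zero]; exact j_zero H j hj_add
  | succ n ih => rw [succ_nsmul, hj_add, ih, pow_succ]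

include hj_add in
/-- the Kummer radical `β ^ ℓ` is rational. -/
theorem exists_rat_eq_pow {ℓ : ℕ} (hℓH : ∀ m : H, ℓ • m = 0) (f : Γ → H) (β : Qbarˣ)
    (hβ : ∀ σ : Γ, ((j (f σ) : Qbarˣ) : Qbar) * β = σ (β : Qbar)) :
    ∃ y : ℚ, y ≠ 0 ∧ (y : Qbar) = (β : Qbar) ^ ℓ := by
  have hfix : ∀ σ : Γ, σ ((β : Qbar) ^ ℓ) = (β : Qbar) ^ ℓ := by
    intro σ
    rw [map_pow, ← hβ σ, mul_pow, ← Units.val_pow_eq_pow_val, ← j_nsmul H j hj_add, hℓH,
      j_zero H j hj_add, Units.val_one, one_mul]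
  obtain ⟨y, hy⟩ := Fermat.Agent.S13.GalRat.exists_ratCast_of_fixed _ hfix
  refine ⟨y, ?_, hy⟩
  rintro rfl
  rw [Rat.cast_zero] at hy
  exact pow_ne_zero ℓ β.ne_zero hy.symm

/-- if `β` is fixed by the inertia group at `A | q`, then `ℓ ∣ v_q(y)` for `y = β ^ ℓ`. -/
theorem dvd_padicValRat_of_fixed {ℓ : ℕ} (A : ValuationSubring Qbar) {q : ℕ} (hq : q.Prime)
    (hA : A.LiesOverPrime q) (β : Qbar) (hβ0 : β ≠ 0)
    (hfix : ∀ τ ∈ A.inertiaSubgroupIn ℚ, τ β = β) (y : ℚ) (hy0 : y ≠ 0)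
    (hy : (y : Qbar) = β ^ ℓ) : (ℓ : ℤ) ∣ padicValRat q y := by
  obtain ⟨m, hm⟩ := Fermat.Agent.M15.DevVal5.valuation_eq_zpow_of_fixed A hq hA β hβ0 hfix
  have h1 := Fermat.Agent.S13.GalRat.valuation_ratCast_eq_zpow A hq hA hy0
  rw [hy, map_pow, hm, ← zpow_natCast, ← zpow_mul] at h1
  have hq0 : (0 : A.ValueGroup) < A.valuation (q : Qbar) := by
    rw [Valuation.pos_iff]
    exact_mod_cast hq.ne_zero
  have hq1 : A.valuation (q : Qbar) ≠ 1 :=
    (Fermat.Agent.S05.Inertia.valuation_prime_lt_one (A := A) hA).ne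
  have h2 := zpow_right_injective₀ hq0 hq1 h1
  exact ⟨m, by rw [← h2, mul_comm]⟩

/-- the local computation at `ℓ`: if `ι β / (u ζ)` is fixed by `Gal(ℚ̄_ℓ/ℚ_ℓ)` with `u`, `ζ` of
norm one, then `n ∣ v_ℓ(y)` for `y = β ^ n`. -/
theorem dvd_padicValRat_of_local {ℓ : ℕ} [Fact ℓ.Prime] (n : ℕ) (β : Qbar) (hβ0 : β ≠ 0)
    (u ζ : PadicAlgCl ℓ) (hu : ‖u‖ = 1) (hζ : ‖ζ‖ = 1)
    (hfix : ∀ g : PadicAlgCl ℓ ≃ₐ[ℚ_[ℓ]] PadicAlgCl ℓ,
      g (padicEmbedding ℓ β / (u * ζ)) = padicEmbedding ℓ β / (u * ζ))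
    (y : ℚ) (hy0 : y ≠ 0) (hy : (y : Qbar) = β ^ n) : (n : ℤ) ∣ padicValRat ℓ y := by
  have hℓ : ℓ.Prime := Fact.out
  haveI : IsGalois ℚ_[ℓ] (PadicAlgCl ℓ) := IsAlgClosure.isGalois ℚ_[ℓ] (PadicAlgCl ℓ)
  set w : PadicAlgCl ℓ := padicEmbedding ℓ β / (u * ζ) with hw
  have hwbot : w ∈ (⊥ : IntermediateField ℚ_[ℓ] (PadicAlgCl ℓ)) :=
    (InfiniteGalois.mem_bot_iff_fixed w).2 hfix
  obtain ⟨a, ha⟩ := IntermediateField.mem_bot.1 hwbot
  have hu0 : u ≠ 0 := fun h => by rw [h, norm_zero] at hu; exact zero_ne_one hu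
  have hζ0 : ζ ≠ 0 := fun h => by rw [h, norm_zero] at hζ; exact zero_ne_one hζ
  have hιβ0 : padicEmbedding ℓ β ≠ 0 := by
    rw [ne_eq, map_eq_zero]
    exact hβ0
  have hw0 : w ≠ 0 := div_ne_zero hιβ0 (mul_ne_zero hu0 hζ0)
  have ha0 : a ≠ 0 := by
    rintro rfl
    rw [map_zero] at ha
    exact hw0 ha.symm
  have hnw : ‖w‖ = ‖padicEmbedding ℓ β‖ := by
    rw [hw, norm_div, norm_mul, hu, hζ, mul_one, div_one]
  have hna : ‖w‖ = (ℓ : ℝ) ^ (-a.valuation) := by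
    rw [← ha, Fermat.Agent.W56.DecompOnto0.norm_algebraMap_padic,
      Padic.norm_eq_zpow_neg_valuation ha0]
  -- the norm of `y`
  have h1 : ‖padicEmbedding ℓ (y : Qbar)‖ = (ℓ : ℝ) ^ (-a.valuation * n) := by
    rw [hy, map_pow, norm_pow, ← hnw, hna, zpow_mul, zpow_natCast]
  have h2 : ‖padicEmbedding ℓ (y : Qbar)‖ = (ℓ : ℝ) ^ (-padicValRat ℓ y) := by
    rw [map_ratCast, ← map_ratCast (algebraMap ℚ_[ℓ] (PadicAlgCl ℓ)) y,
      Fermat.Agent.W56.DecompOnto0.norm_algebraMap_padic, Padic.eq_padicNorm,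
      padicNorm.eq_zpow_of_nonzero hy0]
    push_cast
    rfl
  rw [h1] at h2
  have hℓ0 : (0 : ℝ) < (ℓ : ℝ) := by exact_mod_cast hℓ.pos
  have hℓ1 : (ℓ : ℝ) ≠ 1 := by exact_mod_cast hℓ.one_lt.ne'
  have h3 := zpow_right_injective₀ hℓ0 hℓ1 h2
  refine ⟨a.valuation, ?_⟩
  have h4 : -a.valuation * (n : ℤ) = -padicValRat ℓ y := h3
  linarith

end

end Fermat.Agent.M15.DevKum5
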