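/-
Programme M15 (target S15), chapter (DEV), helper5: a nonzero rational number all of whose `q`-adic
valuations are divisible by `ℓ` is `±` an `ℓ`-th power (`rat_eq_pow_of_dvd_padicValRat`).
-/
import Mathlib

set_option autoImplicit false

namespace Fermat.Agent.M15.DevRat5

theorem nat_eq_pow_of_dvd_factorization {ℓ n : ℕ} (hn : n ≠ 0)
    (h : ∀ q : ℕ, q.Prime → ℓ ∣ n.factorization q) : ∃ a : ℕ, a ≠ 0 ∧ n = a ^ ℓ := by
  refine ⟨n.factorization.prod fun q e => q ^ (e / ℓ), ?_, ?_⟩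
  · rw [Finsupp.prod, Finset.prod_ne_zero_iff]
    intro q hq
    exact pow_ne_zero _ (Nat.pos_of_mem_primeFactors (Nat.support_factorization n ▸ hq)).ne'
  · conv_lhs => rw [← Nat.prod_factorization_pow_eq_self hn]
    rw [Finsupp.prod, Finsupp.prod, ← Finset.prod_pow]
    refine Finset.prod_congr rfl fun q hq => ?_
    have hqp : q.Prime := Nat.prime_of_mem_primeFactors (Nat.support_factorization n ▸ hq)
    rw [← pow_mul, Nat.div_mul_cancel (h q hqp)]

/-- a nonzero rational all of whose valuations are divisible by `ℓ` is `±` an `ℓ`-th power. -/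
theorem rat_eq_pow_of_dvd_padicValRat {ℓ : ℕ} (y : ℚ) (hy : y ≠ 0)
    (h : ∀ q : ℕ, q.Prime → (ℓ : ℤ) ∣ padicValRat q y) :
    ∃ z : ℚ, z ≠ 0 ∧ (y = z ^ ℓ ∨ y = -z ^ ℓ) := by
  have hnum : y.num ≠ 0 := Rat.num_ne_zero.mpr hy
  have hden : y.den ≠ 0 := y.den_ne_zero
  have hcop : Nat.Coprime y.num.natAbs y.den := y.reduced
  -- valuations of numerator and denominator
  have hboth : ∀ q : ℕ, q.Prime → ℓ ∣ y.num.natAbs.factorization q ∧ ℓ ∣ y.den.factorization q := by
    intro q hq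
    have : Fact q.Prime := ⟨hq⟩
    have h1 := h q hq
    have h2 : padicValRat q y = (padicValNat q y.num.natAbs : ℤ) - (padicValNat q y.den : ℤ) := by
      unfold padicValRat padicValInt
      rfl
    rw [h2] at h1
    rw [Nat.factorization_def _ hq, Nat.factorization_def _ hq]
    by_cases hq1 : q ∣ y.num.natAbs
    · have hq2 : ¬ q ∣ y.den := fun hq2 =>
        hq.one_lt.ne' (Nat.eq_one_of_dvd_coprimes hcop hq1 hq2)
      have h3 : padicValNat q y.den = 0 := padicValNat.eq_zero_of_not_dvd hq2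
      rw [h3] at h1 ⊢
      simp only [Nat.cast_zero, sub_zero] at h1
      exact ⟨Int.natCast_dvd_natCast.mp h1, dvd_zero _⟩
    · have h3 : padicValNat q y.num.natAbs = 0 := padicValNat.eq_zero_of_not_dvd hq1
      rw [h3] at h1 ⊢
      simp only [Nat.cast_zero, zero_sub, dvd_neg] at h1
      exact ⟨dvd_zero _, Int.natCast_dvd_natCast.mp h1⟩
  obtain ⟨a, ha0, ha⟩ := nat_eq_pow_of_dvd_factorization (ℓ := ℓ) (Int.natAbs_ne_zero.mpr hnum)
    fun q hq => (hboth q hq).1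
  obtain ⟨b, hb0, hb⟩ := nat_eq_pow_of_dvd_factorization (ℓ := ℓ) hden fun q hq => (hboth q hq).2
  refine ⟨(a : ℚ) / (b : ℚ), div_ne_zero (Nat.cast_ne_zero.mpr ha0) (Nat.cast_ne_zero.mpr hb0), ?_⟩
  have hy' : y = (y.num : ℚ) / (y.den : ℚ) := (Rat.num_div_den y).symm
  have hpow : ((a : ℚ) / (b : ℚ)) ^ ℓ = (y.num.natAbs : ℚ) / (y.den : ℚ) := by
    rw [div_pow, ← Nat.cast_pow, ← Nat.cast_pow, ← ha, ← hb]
  rcases Int.natAbs_eq y.num with hpos | hneg
  · left
    have hc : (y.num : ℚ) = (y.num.natAbs : ℚ) := by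
      have := congrArg (Int.cast : ℤ → ℚ) hpos
      rwa [Int.cast_natCast] at this
    calc y = (y.num : ℚ) / (y.den : ℚ) := hy'
      _ = (y.num.natAbs : ℚ) / (y.den : ℚ) := by rw [hc]
      _ = ((a : ℚ) / (b : ℚ)) ^ ℓ := hpow.symm
  · right
    have hc : (y.num : ℚ) = -(y.num.natAbs : ℚ) := by
      have := congrArg (Int.cast : ℤ → ℚ) hneg
      rwa [Int.cast_neg, Int.cast_natCast] at this
    calc y = (y.num : ℚ) / (y.den : ℚ) := hy'
      _ = -((y.num.natAbs : ℚ) / (y.den : ℚ)) := by rw [hc, neg_div]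
      _ = -((a : ℚ) / (b : ℚ)) ^ ℓ := by rw [hpow]

end Fermat.Agent.M15.DevRat5
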