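/-
Programme M15 (target S15), chapter (DEV) abstract Selmer dévissage, helper5:
**unit ("peu ramifié") classes at `ℓ`** for a module `H` embedded in `ℚ̄ˣ` through `j`.

* `unitClasses ℓ H j` : the classes in `H¹(D_ℓ, H)` of the cocycles `g ↦ g u / u`, `u` a unit of the
  integers of `ℚ̄_ℓ`;
* `unitClassesQ ℓ H j` : the same with `u ∈ ℚ̄` a unit at the place `primeLocalPlace ℓ`;
* `unitClassesQ_subset`.
-/
import Mathlib
import Fermat.Agent.M15.DevDefs5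

set_option autoImplicit false
set_option linter.unusedSectionVars false

open CategoryTheory ExtCitation

namespace Fermat.Agent.M15.DevUnit5

open Fermat.Agent.PT.PRO Fermat.Agent.PT.BR Fermat.Agent.W56.Defs9
open Fermat.Agent.PT.PRO.LevelCoh28 Fermat.Agent.PT.PRO.LevelCohRes28
open Fermat.Agent.M15.DevDefs5

local notation "Γ" => (AlgebraicClosure ℚ ≃ₐ[ℚ] AlgebraicClosure ℚ)
local notation "Qbar" => AlgebraicClosure ℚ

noncomputable section

variable {k : Type} [CommRing k]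

section Unit

variable (ℓ : Nat.Primes) (H : Rep k Γ) (j : H → Qbarˣ)

/-- the classes at `ℓ` of the cocycles `g ↦ g u / u`, `u` a unit of the integers of `ℚ̄_ℓ`
(read in `ℚ̄ˣ` through `j`). -/
def unitClasses : Set (H1D H ℓ) :=
  letI : Fact (ℓ : ℕ).Prime := ⟨ℓ.2⟩
  {x | ∃ c : ↥(LevelCoh28.Z1 (LevelBridge13.pullBasis (locD ℓ)) (Rep.res (locD ℓ) H)),
      LevelCoh28.H1mk _ _ c = x ∧ ∃ u : PadicAlgCl (ℓ : ℕ), ‖u‖ = 1 ∧
        ∀ g : PadicAlgCl (ℓ : ℕ) ≃ₐ[ℚ_[(ℓ : ℕ)]] PadicAlgCl (ℓ : ℕ),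
          padicEmbedding (ℓ : ℕ)
            ((j ((c : primeLocalGaloisGroup ℓ → H) g) : Qbarˣ) : Qbar) * u = g u}

/-- the same with `u ∈ ℚ̄` a unit at the place `primeLocalPlace ℓ`. -/
def unitClassesQ : Set (H1D H ℓ) :=
  {x | ∃ c : ↥(LevelCoh28.Z1 (LevelBridge13.pullBasis (locD ℓ)) (Rep.res (locD ℓ) H)),
      LevelCoh28.H1mk _ _ c = x ∧ ∃ u : Qbar, (primeLocalPlace ℓ).valuation u = 1 ∧
        ∀ g : primeLocalGaloisGroup ℓ,
          ((j ((c : primeLocalGaloisGroup ℓ → H) g) : Qbarˣ) : Qbar) * u = locD ℓ g u}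

theorem unitClassesQ_subset : unitClassesQ ℓ H j ⊆ unitClasses ℓ H j := by
  letI : Fact (ℓ : ℕ).Prime := ⟨ℓ.2⟩
  rintro x ⟨c, hc, u, hu, hcu⟩
  refine ⟨c, hc, padicEmbedding (ℓ : ℕ) u, ?_, fun g => ?_⟩
  · have hu0 : u ≠ 0 := by
      rintro rfl
      rw [map_zero] at hu
      exact zero_ne_one hu
    have h1 : u ∈ padicPlace (ℓ : ℕ) := ((primeLocalPlace ℓ).valuation_le_one_iff u).1 hu.le
    have h2 : u⁻¹ ∈ padicPlace (ℓ : ℕ) := by
      refine ((primeLocalPlace ℓ).valuation_le_one_iff u⁻¹).1 ?_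
      rw [map_inv₀, hu, inv_one]
    rw [mem_padicPlace_iff] at h1 h2
    rw [map_inv₀, nnnorm_inv] at h2
    have h3 : ‖padicEmbedding (ℓ : ℕ) u‖₊ ≠ 0 := by
      rw [nnnorm_ne_zero_iff, ne_eq, map_eq_zero]
      exact hu0
    have h4 : 1 ≤ ‖padicEmbedding (ℓ : ℕ) u‖₊ := by
      rwa [inv_le_one₀ (pos_iff_ne_zero.2 h3)] at h2
    have h5 : ‖padicEmbedding (ℓ : ℕ) u‖₊ = 1 := le_antisymm h1 h4
    exact congrArg NNReal.toReal h5
  · rw [← map_mul, hcu g]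
    exact padicEmbedding_localGaloisToGlobal (ℓ : ℕ) g u

end Unit

end

end Fermat.Agent.M15.DevUnit5
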