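/-
Programme M15 (target S15), chapter (DEV) abstract Selmer dévissage, helper5:
**(D3) the multiplicative atom.**

`H : Rep k Γ` of prime order `ℓ`, embedded in `ℚ̄ˣ` through an injective, additive-to-multiplicative,
equivariant `j` (so `H ≅ μ_ℓ`); local conditions: unramified at the primes `q ≠ p, ℓ` of `T`, unit
classes at `ℓ` (`DevUnit5.unitClasses`), anything at `p`.  Then `XiLe T p ℓ H L 0`:
the kernel of `H¹_L → res_{I_p}(L_p)` consists of the Kummer classes of the `y ∈ ℚˣ` with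
`ℓ ∣ v_q(y)` for all `q`, i.e. of `±1`, and has at most `#H⁰ = #μ_ℓ(ℚ)` elements
(`1 ≤ 1` for `ℓ` odd, `2 ≤ 2` for `ℓ = 2`).
-/
import Mathlib
import Fermat.Agent.M15.DevCard5
import Fermat.Agent.M15.DevDefs5
import Fermat.Agent.M15.DevEt5
import Fermat.Agent.M15.DevUnit5
import Fermat.Agent.M15.DevRat5
import Fermat.Agent.M15.DevKum5
import Fermat.Agent.ES.J.CycloChar8

set_option autoImplicit false
set_option linter.unusedSectionVars false

open CategoryTheory ExtCitation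

namespace Fermat.Agent.M15.DevMu5

open Fermat.Agent.PT.PRO Fermat.Agent.PT.BR Fermat.Agent.W56.Defs9
open Fermat.Agent.PT.PRO.LevelCoh28 Fermat.Agent.PT.PRO.LevelCohRes28
open Fermat.Agent.M15.DevDefs5 Fermat.Agent.M15.DevUnit5 Fermat.Agent.M15.DevKum5
open Fermat.Agent.M15.DevCard5 Fermat.Agent.M15.DevEt5
open groupCohomology

local notation "Γ" => (AlgebraicClosure ℚ ≃ₐ[ℚ] AlgebraicClosure ℚ)
local notation "Qbar" => AlgebraicClosure ℚ

noncomputable section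

/-! ### roots of unity and inertia -/

section Roots

/-- a root of unity of order prime to `q` is fixed by the inertia group at `A | q`. -/
theorem root_fixed_of_mem_inertia (A : ValuationSubring Qbar) {q n : ℕ} (hq : q.Prime)
    (hA : A.LiesOverPrime q) (hqn : ¬ q ∣ n) {ζ : Qbar} (hζ : ζ ^ n = 1)
    {τ : Γ} (hτ : τ ∈ A.inertiaSubgroupIn ℚ) : τ ζ = ζ := by
  have hn0 : n ≠ 0 := fun h0 => hqn (h0 ▸ dvd_zero q)
  have hζ0 : ζ ≠ 0 := fun h => by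
    rw [h, zero_pow hn0] at hζ
    exact zero_ne_one hζ
  have hζA : ζ ∈ A := Fermat.Agent.ES.J.CycloChar8.mem_of_pow_eq_one hn0 hζ
  have h1 := Fermat.Agent.S05.Inertia.apply_sub_mem_nonunits hτ hζA
  have hτζ : (τ ζ) ^ n = 1 := by rw [← map_pow, hζ, map_one]
  have hη : (τ ζ * ζ⁻¹) ^ n = 1 := by
    rw [mul_pow, hτζ, inv_pow, hζ, inv_one, mul_one]
  have hvinv : A.valuation (ζ⁻¹) = 1 := by
    rw [map_inv₀, Fermat.Agent.ES.J.CycloChar8.valuation_eq_one_of_pow_eq_one hn0 hζ, inv_one]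
  have hη1 : τ ζ * ζ⁻¹ - 1 ∈ A.nonunits := by
    have e : τ ζ * ζ⁻¹ - 1 = (τ ζ - ζ) * ζ⁻¹ := by
      rw [sub_mul, mul_inv_cancel₀ hζ0]
    rw [e, ValuationSubring.mem_nonunits_iff, map_mul, hvinv, mul_one]
    exact (ValuationSubring.mem_nonunits_iff (A := A)).mp h1
  have h2 := Fermat.Agent.ES.J.CycloChar8.eq_one_of_sub_one_mem_nonunits hq hA hqn hη hη1
  have := congrArg (· * ζ) h2
  simpa [mul_assoc, inv_mul_cancel₀ hζ0] using this

end Roots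

variable {k : Type} [CommRing k] (T : Finset Nat.Primes) (H : Rep k Γ) (j : H → Qbarˣ)
  (hj_inj : Function.Injective j) (hj_add : ∀ a b, j (a + b) = j a * j b)
  (hj_eq : ∀ (σ : Γ) (m : H), ((j (H.ρ σ m) : Qbarˣ) : Qbar) = σ ((j m : Qbarˣ) : Qbar))
  (ℓ : Nat.Primes) (hℓH : ∀ m : H, (ℓ : ℕ) • m = 0)

include hj_add hℓH in
theorem j_pow_eq_one (m : H) : ((j m : Qbarˣ) : Qbar) ^ (ℓ : ℕ) = 1 := by
  rw [← Units.val_pow_eq_pow_val, ← j_nsmul H j hj_add, hℓH, j_zero H j hj_add, Units.val_one]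

include hj_inj hj_add hj_eq hℓH in
/-- the inertia group at a prime `q ≠ ℓ` acts trivially on `H`. -/
theorem rho_eq_of_mem_inertia (q : Nat.Primes) (hqℓ : q ≠ ℓ) {σ : Γ}
    (hσ : σ ∈ (primeLocalPlace q).inertiaSubgroupIn ℚ) (m : H) : H.ρ σ m = m := by
  apply hj_inj
  apply Units.ext
  rw [hj_eq]
  refine root_fixed_of_mem_inertia (primeLocalPlace q) q.2
    (Fermat.Agent.W56.UnipSel8.liesOverPrime_primeLocalPlace q) ?_
    (j_pow_eq_one H j hj_add ℓ hℓH m) hσ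
  intro h
  exact hqℓ (Subtype.ext ((Nat.prime_dvd_prime_iff_eq q.2 ℓ.2).1 h))

include hj_inj hj_add hj_eq hℓH in
/-- a level cocycle whose class is unramified at `q ∈ T`, `q ≠ ℓ`, vanishes on the inertia group
at `q`. -/
theorem cocycle_eq_zero_of_unramified
    (c : ↥(LevelCoh28.Z1 (LevelBridge13.globalBasis T) H)) (q : Nat.Primes) (hqℓ : q ≠ ℓ)
    (hx : resDI H q (resD T H q (LevelCoh28.H1mk _ _ c)) = 0) {σ : Γ}
    (hσ : σ ∈ (primeLocalPlace q).inertiaSubgroupIn ℚ) : (c : Γ → H) σ = 0 := by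
  obtain ⟨τ, hτ⟩ :=
    Fermat.Agent.W56.DecompOnto0.exists_primeLocalToGlobal_eq_of_mem_inertia q hσ
  have hτI : τ ∈ inertia q := by
    show locD q τ ∈ (primeLocalPlace q).inertiaSubgroupIn ℚ
    rw [show locD q τ = σ from hτ]
    exact hσ
  have h0 : resI T H q (LevelCoh28.H1mk _ _ c) = 0 := by
    rw [resI_eq']
    exact hx
  have h1 : resI T H q (LevelCoh28.H1mk _ _ c) =
      LevelCoh28.H1mk (LevelBridge13.pullBasis (locI q)) (Rep.res (locI q) H)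
        (LevelCohRes28.ppZ1 (𝓑G := LevelBridge13.pullBasis (locI q))
          (𝓑H := LevelBridge13.globalBasis T) (locI q)
          (LinearMap.id : H →ₗ[k] Rep.res (locI q) H) (fun _ _ => rfl)
          (ShaBridge13.isLevelHom_pull T (locI q)) c) := rfl
  rw [h1, LevelCoh28.H1mk_eq_zero_iff] at h0
  obtain ⟨m, hm⟩ := h0
  have h2 := congrFun hm ⟨τ, hτI⟩
  have h4 : (d₀₁ (Rep.res (locI q) H)).hom m ⟨τ, hτI⟩ = 0 := by
    rw [d₀₁_hom_apply]
    show H.ρ (locI q ⟨τ, hτI⟩) m - m = 0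
    rw [rho_eq_of_mem_inertia H j hj_inj hj_add hj_eq ℓ hℓH q hqℓ (locI_mem q ⟨τ, hτI⟩),
      sub_self]
  rw [h4] at h2
  have h5 : locI q ⟨τ, hτI⟩ = σ := hτ
  rw [← h5]
  exact h2.symm

/-- a level cocycle of `G_T` vanishes on the inertia groups at the primes outside `T`. -/
theorem cocycle_eq_zero_of_notMem
    (c : ↥(LevelCoh28.Z1 (LevelBridge13.globalBasis T) H)) (q : Nat.Primes) (hqT : q ∉ T) {σ : Γ}
    (hσ : σ ∈ (primeLocalPlace q).inertiaSubgroupIn ℚ) : (c : Γ → H) σ = 0 := by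
  obtain ⟨_, ⟨F, hF, rfl⟩, hinv⟩ := c.2.2
  have hs : σ ∈ F.fixingSubgroup :=
    hF.2 q hqT _ (Fermat.Agent.W56.UnipSel8.liesOverPrime_primeLocalPlace q) hσ
  have h1 := hinv 1 σ hs
  rw [one_mul] at h1
  rw [h1]
  exact cocycles₁_map_one ⟨(c : Γ → H), c.2.1⟩

include hj_add in
theorem fixed_of_cocycle_eq_zero (f : Γ → H) (β : Qbarˣ)
    (hβ : ∀ σ : Γ, ((j (f σ) : Qbarˣ) : Qbar) * β = σ (β : Qbar)) {σ : Γ} (h : f σ = 0) :
    σ (β : Qbar) = β := by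
  rw [← hβ σ, h, j_zero H j hj_add, Units.val_one, one_mul]

include hj_add hj_eq hℓH in
/-- the local computation at `ℓ`: a class whose restriction at `ℓ` is a unit class has
`ℓ ∣ v_ℓ(β ^ ℓ)`. -/
theorem dvd_padicValRat_of_unitClasses
    (c : ↥(LevelCoh28.Z1 (LevelBridge13.globalBasis T) H))
    (hx : resD T H ℓ (LevelCoh28.H1mk _ _ c) ∈ unitClasses ℓ H j) (β : Qbarˣ)
    (hβ : ∀ σ : Γ, ((j ((c : Γ → H) σ) : Qbarˣ) : Qbar) * β = σ (β : Qbar))
    (y : ℚ) (hy0 : y ≠ 0) (hy : (y : Qbar) = (β : Qbar) ^ (ℓ : ℕ)) :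
    ((ℓ : ℕ) : ℤ) ∣ padicValRat (ℓ : ℕ) y := by
  let _ : Fact (ℓ : ℕ).Prime := ⟨ℓ.2⟩
  obtain ⟨c₂, hc₂, u, hu, hcu⟩ := hx
  have h1 : resD T H ℓ (LevelCoh28.H1mk _ _ c) =
      LevelCoh28.H1mk (LevelBridge13.pullBasis (locD ℓ)) (Rep.res (locD ℓ) H)
        (LevelCohRes28.ppZ1 (𝓑G := LevelBridge13.pullBasis (locD ℓ))
          (𝓑H := LevelBridge13.globalBasis T) (locD ℓ)
          (LinearMap.id : H →ₗ[k] Rep.res (locD ℓ) H) (fun _ _ => rfl)
          (ShaBridge13.isLevelHom_pull T (locD ℓ)) c) := rfl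
  rw [h1] at hc₂
  have hc₃ := hc₂.symm
  rw [← sub_eq_zero, ← map_sub, LevelCoh28.H1mk_eq_zero_iff] at hc₃
  obtain ⟨m, hm⟩ := hc₃
  set ζ : PadicAlgCl (ℓ : ℕ) := padicEmbedding (ℓ : ℕ) ((j m : Qbarˣ) : Qbar) with hζ
  have hζℓ : ζ ^ (ℓ : ℕ) = 1 := by
    rw [hζ, ← map_pow, j_pow_eq_one H j hj_add ℓ hℓH, map_one]
  have hζn : ‖ζ‖ = 1 := by
    have := congrArg norm hζℓ
    rw [norm_pow, norm_one] at this
    exact (pow_eq_one_iff_of_nonneg (norm_nonneg _) ℓ.2.ne_zero).1 this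
  refine dvd_padicValRat_of_local (ℓ : ℕ) (β : Qbar) β.ne_zero u ζ hu hζn (fun g => ?_) y hy0 hy
  -- the three relations
  have e1 : padicEmbedding (ℓ : ℕ) ((j ((c : Γ → H) (locD ℓ g)) : Qbarˣ) : Qbar) *
      padicEmbedding (ℓ : ℕ) (β : Qbar) = g (padicEmbedding (ℓ : ℕ) (β : Qbar)) := by
    rw [← map_mul, hβ (locD ℓ g)]
    exact padicEmbedding_localGaloisToGlobal (ℓ : ℕ) g _
  have e2 := hcu g
  have e3 : padicEmbedding (ℓ : ℕ) ((j ((c : Γ → H) (locD ℓ g)) : Qbarˣ) : Qbar) * ζ =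
      padicEmbedding (ℓ : ℕ) ((j ((c₂ : primeLocalGaloisGroup ℓ → H) g) : Qbarˣ) : Qbar) *
        g ζ := by
    have h3 : H.ρ (locD ℓ g) m - m = (c : Γ → H) (locD ℓ g) -
        (c₂ : primeLocalGaloisGroup ℓ → H) g := congrFun hm g
    have h4 : (c : Γ → H) (locD ℓ g) + m =
        (c₂ : primeLocalGaloisGroup ℓ → H) g + H.ρ (locD ℓ g) m := by
      have := sub_eq_sub_iff_add_eq_add.1 h3
      rw [add_comm ((c₂ : primeLocalGaloisGroup ℓ → H) g)]
      exact this.symm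
    have h5 := congrArg (fun a => padicEmbedding (ℓ : ℕ) ((j a : Qbarˣ) : Qbar)) h4
    simp only [hj_add, Units.val_mul, map_mul, hj_eq] at h5
    rw [hζ, ← padicEmbedding_localGaloisToGlobal (ℓ : ℕ) g]
    exact h5
  have hu0 : u ≠ 0 := fun h => by rw [h, norm_zero] at hu; exact zero_ne_one hu
  have hζ0 : ζ ≠ 0 := fun h => by rw [h, norm_zero] at hζn; exact zero_ne_one hζn
  have hgu0 : g u ≠ 0 := by rwa [ne_eq, map_eq_zero]
  have hgζ0 : g ζ ≠ 0 := by rwa [ne_eq, map_eq_zero]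
  rw [map_div₀, map_mul, div_eq_div_iff (mul_ne_zero hgu0 hgζ0) (mul_ne_zero hu0 hζ0)]
  linear_combination (-(u * ζ)) * e1 + (padicEmbedding (ℓ : ℕ) (β : Qbar) * g ζ) * e2 +
    (padicEmbedding (ℓ : ℕ) (β : Qbar) * u) * e3

/-! ### `j` is onto the `ℓ`-th roots of unity -/

include hj_inj hj_add hℓH in
theorem exists_j_eq (hcard : Nat.card H = (ℓ : ℕ)) {ε : Qbar} (hε : ε ^ (ℓ : ℕ) = 1) :
    ∃ m : H, ((j m : Qbarˣ) : Qbar) = ε := by
  classical
  have hℓ0 : 0 < (ℓ : ℕ) := ℓ.2.pos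
  let f : H → ↥(Polynomial.nthRootsFinset (ℓ : ℕ) (1 : Qbar)) := fun m =>
    ⟨((j m : Qbarˣ) : Qbar),
      (Polynomial.mem_nthRootsFinset hℓ0 1).2 (j_pow_eq_one H j hj_add ℓ hℓH m)⟩
  have hf : Function.Injective f := fun a b hab =>
    hj_inj (Units.ext (congrArg Subtype.val hab))
  have hcardle : Nat.card ↥(Polynomial.nthRootsFinset (ℓ : ℕ) (1 : Qbar)) ≤ Nat.card H := by
    rw [hcard, Nat.card_eq_fintype_card, Fintype.card_coe, Polynomial.nthRootsFinset_def]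
    exact (Multiset.toFinset_card_le _).trans (Polynomial.card_nthRoots _ _)
  have hbij := hf.bijective_of_nat_card_le hcardle
  obtain ⟨m, hm⟩ := hbij.2 ⟨ε, (Polynomial.mem_nthRootsFinset hℓ0 1).2 hε⟩
  exact ⟨m, congrArg Subtype.val hm⟩

include hj_inj hj_add hj_eq hℓH in
/-- **the class is determined by the Kummer radical modulo `ℓ`-th powers.** -/
theorem H1mk_eq_of_pow_eq (hcard : Nat.card H = (ℓ : ℕ))
    (c c' : ↥(LevelCoh28.Z1 (LevelBridge13.globalBasis T) H)) (β β' : Qbarˣ)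
    (hβ : ∀ σ : Γ, ((j ((c : Γ → H) σ) : Qbarˣ) : Qbar) * β = σ (β : Qbar))
    (hβ' : ∀ σ : Γ, ((j ((c' : Γ → H) σ) : Qbarˣ) : Qbar) * β' = σ (β' : Qbar))
    (w : ℚ) (hw : w ≠ 0)
    (h : (β : Qbar) ^ (ℓ : ℕ) = (w : Qbar) ^ (ℓ : ℕ) * (β' : Qbar) ^ (ℓ : ℕ)) :
    LevelCoh28.H1mk (LevelBridge13.globalBasis T) H c =
      LevelCoh28.H1mk (LevelBridge13.globalBasis T) H c' := by
  have hw0 : (w : Qbar) ≠ 0 := by exact_mod_cast hw
  have hε : ((β : Qbar) / ((w : Qbar) * β')) ^ (ℓ : ℕ) = 1 := by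
    rw [div_pow, mul_pow, h]
    exact div_self (mul_ne_zero (pow_ne_zero _ hw0) (pow_ne_zero _ β'.ne_zero))
  obtain ⟨m₀, hm₀⟩ := exists_j_eq H j hj_inj hj_add ℓ hℓH hcard hε
  have hβeq : (β : Qbar) = ((j m₀ : Qbarˣ) : Qbar) * ((w : Qbar) * β') := by
    rw [hm₀, div_mul_cancel₀ _ (mul_ne_zero hw0 β'.ne_zero)]
  rw [← sub_eq_zero, ← map_sub, LevelCoh28.H1mk_eq_zero_iff]
  refine ⟨m₀, ?_⟩
  funext σ
  rw [d₀₁_hom_apply]
  show H.ρ σ m₀ - m₀ = (c : Γ → H) σ - (c' : Γ → H) σ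
  rw [sub_eq_sub_iff_add_eq_add]
  apply hj_inj
  apply Units.ext
  rw [hj_add, hj_add, Units.val_mul, Units.val_mul, hj_eq]
  have h1 := hβ σ
  have h2 := hβ' σ
  rw [hβeq, map_mul, map_mul, map_ratCast, ← h2] at h1
  have h3 : ((w : Qbar) * β') ≠ 0 := mul_ne_zero hw0 β'.ne_zero
  apply mul_right_cancel₀ h3
  linear_combination -h1

/-! ### the Kummer data of a class in the kernel of `H¹_L → H¹(I_p)` -/

include hj_inj hj_add hj_eq hℓH in
theorem kummer_data [Finite H] (p : Nat.Primes) (hℓT : ℓ ∈ T) (L : LocCond H)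
    (hur : ∀ q ∈ T, q ≠ p → q ≠ ℓ → L q ≤ H1ur H q)
    (hfl : ∀ x ∈ L ℓ, x ∈ unitClasses ℓ H j)
    (x : H1g T H) (hx : x ∈ SelL T H L)
    (hxp : resDI H p (resD T H p x) = 0) :
    ∃ (c : ↥(LevelCoh28.Z1 (LevelBridge13.globalBasis T) H)) (β : Qbarˣ) (z : ℚ),
      LevelCoh28.H1mk (LevelBridge13.globalBasis T) H c = x ∧
      (∀ σ : Γ, ((j ((c : Γ → H) σ) : Qbarˣ) : Qbar) * β = σ (β : Qbar)) ∧ z ≠ 0 ∧
      ((β : Qbar) ^ (ℓ : ℕ) = (z : Qbar) ^ (ℓ : ℕ) ∨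
        (β : Qbar) ^ (ℓ : ℕ) = -(z : Qbar) ^ (ℓ : ℕ)) := by
  obtain ⟨c, rfl⟩ := LevelCoh28.H1mk_surjective _ _ x
  obtain ⟨β, hβ⟩ := exists_hilbert90 T H j hj_add hj_eq c
  obtain ⟨y, hy0, hy⟩ := exists_rat_eq_pow H j hj_add hℓH (c : Γ → H) β hβ
  have hsel := (mem_SelL_iff _).1 hx
  have hall : ∀ q : ℕ, q.Prime → (((ℓ : ℕ) : ℤ)) ∣ padicValRat q y := by
    intro q hq
    obtain ⟨q, rfl⟩ : ∃ q' : Nat.Primes, (q' : ℕ) = q := ⟨⟨q, hq⟩, rfl⟩
    by_cases hqℓ : q = ℓ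
    · subst hqℓ
      exact dvd_padicValRat_of_unitClasses T H j hj_add hj_eq q hℓH c
        (hfl _ (hsel.1 q hℓT)) β hβ y hy0 hy
    · have hzero : ∀ σ ∈ (primeLocalPlace q).inertiaSubgroupIn ℚ, (c : Γ → H) σ = 0 := by
        intro σ hσ
        by_cases hqT : q ∈ T
        · refine cocycle_eq_zero_of_unramified T H j hj_inj hj_add hj_eq ℓ hℓH c q hqℓ ?_ hσ
          by_cases hqp : q = p
          · rw [hqp]
            exact hxp
          · exact hur q hqT hqp hqℓ (hsel.1 q hqT)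
        · exact cocycle_eq_zero_of_notMem T H c q hqT hσ
      exact dvd_padicValRat_of_fixed (primeLocalPlace q) q.2
        (Fermat.Agent.W56.UnipSel8.liesOverPrime_primeLocalPlace q) (β : Qbar) β.ne_zero
        (fun τ hτ => fixed_of_cocycle_eq_zero H j hj_add (c : Γ → H) β hβ (hzero τ hτ))
        y hy0 hy
  obtain ⟨z, hz0, hz⟩ := Fermat.Agent.M15.DevRat5.rat_eq_pow_of_dvd_padicValRat y hy0 hall
  refine ⟨c, β, z, rfl, hβ, hz0, ?_⟩
  rw [← hy]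
  rcases hz with hz | hz
  · left
    rw [hz]
    push_cast
    rfl
  · right
    rw [hz]
    push_cast
    rfl

include hj_inj hj_add hj_eq hℓH in
theorem H1mk_eq_zero_of_pow_eq (hcard : Nat.card H = (ℓ : ℕ))
    (c : ↥(LevelCoh28.Z1 (LevelBridge13.globalBasis T) H)) (β : Qbarˣ)
    (hβ : ∀ σ : Γ, ((j ((c : Γ → H) σ) : Qbarˣ) : Qbar) * β = σ (β : Qbar))
    (w : ℚ) (hw : w ≠ 0) (h : (β : Qbar) ^ (ℓ : ℕ) = (w : Qbar) ^ (ℓ : ℕ)) :
    LevelCoh28.H1mk (LevelBridge13.globalBasis T) H c = 0 := by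
  have h0 := H1mk_eq_of_pow_eq T H j hj_inj hj_add hj_eq ℓ hℓH hcard c 0 β 1 hβ
    (fun σ => by
      show ((j (0 : H) : Qbarˣ) : Qbar) * ((1 : Qbarˣ) : Qbar) = σ ((1 : Qbarˣ) : Qbar)
      rw [j_zero H j hj_add, Units.val_one, one_mul, map_one]) w hw
    (by rw [Units.val_one, one_pow, mul_one]; exact h)
  rw [h0, map_zero]

/-- the module `H` has the stabiliser of `j m` as an open stabiliser. -/
theorem exists_level_of_j (hj_inj : Function.Injective j)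
    (hj_eq : ∀ (σ : Γ) (m : H), ((j (H.ρ σ m) : Qbarˣ) : Qbar) = σ ((j m : Qbarˣ) : Qbar))
    (m : H) : ∃ F : IntermediateField ℚ Qbar, FiniteDimensional ℚ F ∧
      ∀ s ∈ F.fixingSubgroup, H.ρ s m = m := by
  refine ⟨IntermediateField.adjoin ℚ {((j m : Qbarˣ) : Qbar)},
    IntermediateField.adjoin.finiteDimensional
      (Algebra.IsAlgebraic.isAlgebraic (R := ℚ) _).isIntegral, fun s hs => ?_⟩
  apply hj_inj
  apply Units.ext
  rw [hj_eq]
  exact (IntermediateField.mem_fixingSubgroup_iff _ _).1 hs _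
    (IntermediateField.subset_adjoin ℚ _ (Set.mem_singleton _))

/-- the predicate "`x` is the Kummer class of `±z^ℓ`". -/
def IsKummerPM (x : H1g T H) : Prop :=
  ∃ (c : ↥(LevelCoh28.Z1 (LevelBridge13.globalBasis T) H)) (β : Qbarˣ) (z : ℚ),
    LevelCoh28.H1mk (LevelBridge13.globalBasis T) H c = x ∧
    (∀ σ : Γ, ((j ((c : Γ → H) σ) : Qbarˣ) : Qbar) * β = σ (β : Qbar)) ∧ z ≠ 0 ∧
    ((β : Qbar) ^ (ℓ : ℕ) = (z : Qbar) ^ (ℓ : ℕ) ∨
      (β : Qbar) ^ (ℓ : ℕ) = -(z : Qbar) ^ (ℓ : ℕ))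

include hj_inj hj_add hj_eq hℓH in
/-- for `ℓ` odd such a class is zero. -/
theorem IsKummerPM.eq_zero_of_odd (hcard : Nat.card H = (ℓ : ℕ)) (hodd : Odd (ℓ : ℕ))
    {x : H1g T H} (hx : IsKummerPM T H j ℓ x) : x = 0 := by
  obtain ⟨c, β, z, hc, hβ, hz0, hz | hz⟩ := hx
  · rw [← hc]
    exact H1mk_eq_zero_of_pow_eq T H j hj_inj hj_add hj_eq ℓ hℓH hcard c β hβ z hz0 hz
  · rw [← hc]
    refine H1mk_eq_zero_of_pow_eq T H j hj_inj hj_add hj_eq ℓ hℓH hcard c β hβ (-z)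
      (neg_ne_zero.2 hz0) ?_
    rw [hz]
    push_cast
    rw [hodd.neg_pow]

include hj_inj hj_add hj_eq hℓH in
/-- two nonzero such classes are equal. -/
theorem IsKummerPM.eq_of_ne_zero (hcard : Nat.card H = (ℓ : ℕ))
    {x x' : H1g T H} (hx : IsKummerPM T H j ℓ x) (hx' : IsKummerPM T H j ℓ x')
    (hx0 : x ≠ 0) (hx0' : x' ≠ 0) : x = x' := by
  obtain ⟨c, β, z, hc, hβ, hz0, hz⟩ := hx
  obtain ⟨c', β', z', hc', hβ', hz0', hz'⟩ := hx'
  have hneg : (β : Qbar) ^ (ℓ : ℕ) = -(z : Qbar) ^ (ℓ : ℕ) := by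
    rcases hz with hz | hz
    · exfalso
      apply hx0
      rw [← hc]
      exact H1mk_eq_zero_of_pow_eq T H j hj_inj hj_add hj_eq ℓ hℓH hcard c β hβ z hz0 hz
    · exact hz
  have hneg' : (β' : Qbar) ^ (ℓ : ℕ) = -(z' : Qbar) ^ (ℓ : ℕ) := by
    rcases hz' with hz' | hz'
    · exfalso
      apply hx0'
      rw [← hc']
      exact H1mk_eq_zero_of_pow_eq T H j hj_inj hj_add hj_eq ℓ hℓH hcard c' β' hβ' z' hz0' hz'
    · exact hz'
  rw [← hc, ← hc']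
  refine H1mk_eq_of_pow_eq T H j hj_inj hj_add hj_eq ℓ hℓH hcard c c' β β' hβ hβ'
    (z / z') (div_ne_zero hz0 hz0') ?_
  have hz0'' : (z' : Qbar) ≠ 0 := by exact_mod_cast hz0'
  rw [hneg, hneg']
  push_cast
  rw [div_pow]
  field_simp

include hj_inj hj_add hj_eq hℓH in
/-- for `ℓ = 2` the Galois action on `H` is trivial. -/
theorem rho_eq_of_two (h2 : (ℓ : ℕ) = 2) (σ : Γ) (m : H) : H.ρ σ m = m := by
  apply hj_inj
  apply Units.ext
  rw [hj_eq]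
  have h1 := j_pow_eq_one H j hj_add ℓ hℓH m
  rw [h2, pow_two, mul_self_eq_one_iff] at h1
  rcases h1 with h1 | h1
  · rw [h1, map_one]
  · rw [h1, map_neg, map_one]

include hj_inj hj_add hj_eq hℓH in
/-- a set of such classes has at most `#H⁰(ℚ, H)` elements. -/
theorem card_le_of_isKummerPM (hcard : Nat.card H = (ℓ : ℕ)) (K : Set (H1g T H))
    (hK : ∀ x ∈ K, IsKummerPM T H j ℓ x) :
    Finite ↥K ∧ Nat.card ↥K ≤ Nat.card ↥(DevDefs5.H0 H) := by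
  have finH : Finite H := Nat.finite_of_card_ne_zero (by rw [hcard]; exact ℓ.2.ne_zero)
  rcases ℓ.2.eq_two_or_odd' with h2 | hodd
  · have hH0 : Nat.card ↥(DevDefs5.H0 H) = 2 := by
      rw [← h2, ← hcard]
      exact card_invariants_of_trivial H (rho_eq_of_two H j hj_inj hj_add hj_eq ℓ hℓH h2)
    classical
    let f : ↥K → Bool := fun x => decide ((x : H1g T H) = 0)
    have hf : Function.Injective f := by
      intro x x' hxx
      apply Subtype.ext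
      by_cases hx0 : (x : H1g T H) = 0
      · have : f x' = true := by rw [← hxx]; exact decide_eq_true hx0
        rw [hx0, of_decide_eq_true this]
      · have h1 : f x = false := decide_eq_false hx0
        have hx0' : (x' : H1g T H) ≠ 0 := by
          intro h
          have : f x' = true := decide_eq_true h
          rw [← hxx, h1] at this
          exact Bool.false_ne_true this
        exact IsKummerPM.eq_of_ne_zero T H j hj_inj hj_add hj_eq ℓ hℓH hcard (hK _ x.2)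
          (hK _ x'.2) hx0 hx0'
    refine ⟨Finite.of_injective f hf, ?_⟩
    rw [hH0]
    calc Nat.card ↥K ≤ Nat.card Bool := Nat.card_le_card_of_injective f hf
      _ = 2 := by rw [Nat.card_eq_fintype_card, Fintype.card_bool]
  · have hsub : Subsingleton ↥K := ⟨fun a b => Subtype.ext (by
      rw [IsKummerPM.eq_zero_of_odd T H j hj_inj hj_add hj_eq ℓ hℓH hcard hodd (hK _ a.2),
        IsKummerPM.eq_zero_of_odd T H j hj_inj hj_add hj_eq ℓ hℓH hcard hodd (hK _ b.2)])⟩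
    refine ⟨Finite.of_subsingleton, ?_⟩
    calc Nat.card ↥K ≤ 1 := Finite.card_le_one_iff_subsingleton.2 hsub
      _ ≤ Nat.card ↥(DevDefs5.H0 H) := Nat.card_pos

/-- **(D3) the multiplicative atom.** -/
theorem XiLe.atomMu (p ℓ : Nat.Primes) (hpℓ : p ≠ ℓ) (hpT : p ∈ T) (hℓT : ℓ ∈ T)
    (hcard : Nat.card H = (ℓ : ℕ)) (hj_inj : Function.Injective j)
    (hj_add : ∀ a b, j (a + b) = j a * j b)
    (hj_eq : ∀ (σ : Γ) (m : H), ((j (H.ρ σ m) : Qbarˣ) : Qbar) = σ ((j m : Qbarˣ) : Qbar))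
    (L : LocCond H) (hur : ∀ q ∈ T, q ≠ p → q ≠ ℓ → L q ≤ H1ur H q)
    (hfl : ∀ x ∈ L ℓ, x ∈ unitClasses ℓ H j) :
    XiLe T p (ℓ : ℕ) H L 0 := by
  have finH : Finite H := Nat.finite_of_card_ne_zero (by rw [hcard]; exact ℓ.2.ne_zero)
  have hℓH : ∀ m : H, (ℓ : ℕ) • m = 0 := fun m => by
    rw [← hcard]
    exact card_nsmul_eq_zero'
  have hℓfact : Fact (ℓ : ℕ).Prime := ⟨ℓ.2⟩
  have finLoc : Finite (H1D H p) :=
    Fermat.Agent.W56.FinH1D1.finite_H1D H (ℓ : ℕ) hℓH (exists_level_of_j H j hj_inj hj_eq) p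
  have finRam : Finite ↥(ramL H L p) :=
    Finite.of_surjective (fun x : ↥(L p) => (⟨resDI H p x, ⟨x, x.2, rfl⟩⟩ : ↥(ramL H L p)))
      (by rintro ⟨_, ⟨x, hx, rfl⟩⟩; exact ⟨⟨x, hx⟩, rfl⟩)
  -- the map `Sel → ramL`
  let r : ↥(SelL T H L) →ₗ[k] ↥(ramL H L p) :=
    (((resDI H p).comp (resD T H p)).domRestrict (SelL T H L)).codRestrict (ramL H L p)
      fun x => ⟨resD T H p x, ((mem_SelL_iff _).1 x.2).1 p hpT, rfl⟩
  -- its kernel
  let K : Set (H1g T H) := {x | x ∈ SelL T H L ∧ resDI H p (resD T H p x) = 0}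
  obtain ⟨finK, hKle⟩ := card_le_of_isKummerPM T H j hj_inj hj_add hj_eq ℓ hℓH hcard K
    (fun x hx => kummer_data T H j hj_inj hj_add hj_eq ℓ hℓH p hℓT L hur hfl x hx.1 hx.2)
  let g : ↥(LinearMap.ker r) → ↥K := fun x =>
    ⟨((x : ↥(SelL T H L)) : H1g T H), (x : ↥(SelL T H L)).2,
      congrArg Subtype.val (LinearMap.mem_ker.1 x.2)⟩
  have hg : Function.Injective g := fun a b hab =>
    Subtype.ext (Subtype.ext (congrArg (fun y : ↥K => (y : H1g T H)) hab))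
  have finKer : Finite ↥(LinearMap.ker r) := Finite.of_injective g hg
  have hkerle : Nat.card ↥(LinearMap.ker r) ≤ Nat.card ↥(DevDefs5.H0 H) :=
    (Nat.card_le_card_of_injective g hg).trans hKle
  have hex : LinearMap.ker r = LinearMap.range (LinearMap.ker r).subtype :=
    (Submodule.range_subtype _).symm
  have finSel : Finite ↥(SelL T H L) :=
    finite_of_exact (V₄ := ↥(LinearMap.ker r)) (LinearMap.ker r).subtype r hex
  refine ⟨finH, finSel, finLoc, ?_⟩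
  have h1 : Nat.card ↥(SelL T H L) ≤ Nat.card ↥(DevDefs5.H0 H) * Nat.card ↥(ramL H L p) := by
    rw [card_eq_ker_mul_range r]
    exact Nat.mul_le_mul hkerle (card_range_le r)
  have h2 : Nat.card ↥(H0I H p) = Nat.card H :=
    card_invariants_of_trivial (Rep.res (locI p) H) fun σ m =>
      rho_eq_of_mem_inertia H j hj_inj hj_add hj_eq ℓ hℓH p hpℓ (locI_mem p σ) m
  rw [h2, pow_zero, mul_one]
  exact Nat.mul_le_mul_right _ h1

end

end Fermat.Agent.M15.DevMu5
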