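/-
Programme M15 (target S15), chapter R3 FLAT (helper2): **the contract of R3 in the vocabulary of
(DEV)/(KUM).**

`G ≤ J₀(p)` a `Γ`-stable subgroup killed by `ℓ ^ k` (`ℓ ∤ p`), `W = Rep.of (subRepr J G hG)` (for
`G = kerE J ε k` this is `KumRep6.GRep`).  A class `y ∈ H¹(D_ℓ, W)` is of KUMMER TYPE if it is the class
of `g ↦ (loc g) z - z` for some `z` with `ℓ ^ k z` rational (`IsKumClass`; the local classes of the
Kummer map are such, helper6's KUM-3').

For every `Γ`-module `A` with an injection `φ : A → W` and an equivariant map `ψ : A → H`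
("a piece of a chain": `A = W_i`, `H = W_i / W_{i-1}`):
* `mem_unitClassesQ_of_isKumClass` : if `H` is killed by `ℓ` and `j : H → ℚ̄ˣ` is equivariant then
  `mapD ψ y ∈ unitClassesQ ℓ H j` whenever `mapD φ y` is of Kummer type.  (ALL pieces; any `ℓ`.)
-/
import Mathlib
import Fermat.Agent.M15.KumRep6
import Fermat.Agent.M15.DevUnit5
import Fermat.Agent.W56.UnipSel8
import Fermat.Agent.W56.DecompOnto0
import Fermat.Agent.ES.GAL.OpenStab12
import Fermat.Agent.M15.FlatProp2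

set_option autoImplicit false
set_option linter.unusedSectionVars false
set_option linter.style.haveILetI false
set_option synthInstance.maxHeartbeats 400000

open CategoryTheory ExtCitation AlgebraicCurve ModularCurve

namespace Fermat.Agent.M15.FlatBridge2

open Fermat.Agent.PT.PRO Fermat.Agent.PT.BR Fermat.Agent.W56.Defs9
open Fermat.Agent.M15.DevDefs5 Fermat.Agent.M15.DevUnit5 Fermat.Agent.M15.KumRep6

local notation "Γ" => (AlgebraicClosure ℚ ≃ₐ[ℚ] AlgebraicClosure ℚ)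
local notation "Qbar" => AlgebraicClosure ℚ

noncomputable section

/-- linear maps between representations, for the module structures carried by the representations
(over `ℤ` instance search would pick `AddCommGroup.toIntModule`, which is not what `mapD` expects). -/
abbrev RepHom {k : Type} [CommRing k] (A B : Rep k Γ) : Type := A →ₗ[k] B

variable (p : ℕ) [NeZero p] (G : AddSubgroup (JZero p)) (hG : ∀ g : Γ, ∀ x ∈ G, g • x ∈ G)

/-- the `Γ`-module `G`. -/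
abbrev WRep : Rep ℤ Γ := Rep.of (subRepr (JZero p) G hG)

/-- the underlying point. -/
def wval (w : WRep p G hG) : JZero p := (show ↥G from w).1

variable {p G hG}

theorem wval_mem (w : WRep p G hG) : wval p G hG w ∈ G := (show ↥G from w).2

theorem wval_injective : Function.Injective (wval p G hG) := fun _ _ h => Subtype.ext h

@[simp] theorem wval_zero : wval p G hG 0 = 0 := rfl

@[simp] theorem wval_add (a b : WRep p G hG) :
    wval p G hG (a + b) = wval p G hG a + wval p G hG b := rfl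

@[simp] theorem wval_sub (a b : WRep p G hG) :
    wval p G hG (a - b) = wval p G hG a - wval p G hG b := rfl

@[simp] theorem wval_ρ (g : Γ) (a : WRep p G hG) :
    wval p G hG ((WRep p G hG).ρ g a) = g • wval p G hG a := rfl

variable (p G hG)

/-- **classes of Kummer type** at the prime `ℓ`, level `ℓ ^ k`. -/
def IsKumClass (ℓ : Nat.Primes) (k : ℕ) (y : H1D (WRep p G hG) ℓ) : Prop :=
  ∃ x z : JZero p, (∀ g : Γ, g • x = x) ∧ (ℓ : ℕ) ^ k • z = x ∧
    ∃ c : ↥(LevelCoh28.Z1 (LevelBridge13.pullBasis (locD ℓ)) (Rep.res (locD ℓ) (WRep p G hG))),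
      LevelCoh28.H1mk _ _ c = y ∧
      ∀ g : primeLocalGaloisGroup ℓ,
        wval p G hG ((c : primeLocalGaloisGroup ℓ → WRep p G hG) g) = locD ℓ g • z - z


theorem nsmul_sub_eq {M : Type*} [AddCommGroup M] (n : ℕ) {z v x : M} (hz : n • z = x)
    (hv : n • v = 0) : n • (z - v) = x := by
  rw [smul_sub, hz, hv, sub_zero]

/-- **the propagated cocycle**: if `mapD φ y` is of Kummer type and `c₀` represents `y`, then
`φ ∘ c₀` is `g ↦ (loc g) z' - z'` for some `z'` with `ℓ ^ k z'` rational. -/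
theorem exists_point_of_isKumClass (ℓ : Nat.Primes) (k : ℕ)
    (hGl : ∀ x ∈ G, (ℓ : ℕ) ^ k • x = 0)
    (A : Rep ℤ Γ) (φ : RepHom A (WRep p G hG))
    (hφ : ∀ g a, φ (A.ρ g a) = (WRep p G hG).ρ g (φ a))
    (c₀ : ↥(LevelCoh28.Z1 (LevelBridge13.pullBasis (locD ℓ)) (Rep.res (locD ℓ) A)))
    (hy : IsKumClass p G hG ℓ k (mapD (k := ℤ) φ hφ ℓ (LevelCoh28.H1mk _ _ c₀))) :
    ∃ x z' : JZero p, (∀ g : Γ, g • x = x) ∧ (ℓ : ℕ) ^ k • z' = x ∧
      ∀ g : primeLocalGaloisGroup ℓ,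
        wval p G hG (φ ((c₀ : primeLocalGaloisGroup ℓ → A) g)) = locD ℓ g • z' - z' := by
  obtain ⟨x, z, hx, hz, c, hc, hcz⟩ := hy
  -- the coboundary relating `c` and `φ ∘ c₀`
  have hc' : LevelCoh28.H1mk (LevelBridge13.pullBasis (locD ℓ)) (Rep.res (locD ℓ) (WRep p G hG)) c =
      LevelCoh28.H1mk (LevelBridge13.pullBasis (locD ℓ)) (Rep.res (locD ℓ) (WRep p G hG))
        (LevelCoh28.mapZ1 (𝓑 := LevelBridge13.pullBasis (locD ℓ))
          (A := Rep.res (locD ℓ) A) (B := Rep.res (locD ℓ) (WRep p G hG)) φ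
          (fun g a => hφ (locD ℓ g) a) c₀) := hc
  have h1 := (Submodule.Quotient.eq _).1 hc'
  obtain ⟨w, hw⟩ := h1
  have hw' : ∀ g : primeLocalGaloisGroup ℓ,
      wval p G hG ((c : primeLocalGaloisGroup ℓ → WRep p G hG) g) -
        wval p G hG (φ ((c₀ : primeLocalGaloisGroup ℓ → A) g)) =
      locD ℓ g • wval p G hG w - wval p G hG w := by
    intro g
    have := congrArg (wval p G hG) (congrFun hw g)
    rw [groupCohomology.d₀₁_hom_apply] at this
    exact this.symm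
  obtain ⟨v, hvG, hv⟩ : ∃ v : JZero p, v ∈ G ∧ ∀ g : primeLocalGaloisGroup ℓ,
      wval p G hG ((c : primeLocalGaloisGroup ℓ → WRep p G hG) g) -
        wval p G hG (φ ((c₀ : primeLocalGaloisGroup ℓ → A) g)) = locD ℓ g • v - v :=
    ⟨wval p G hG w, wval_mem _, hw'⟩
  refine ⟨x, z - v, hx, nsmul_sub_eq _ hz (hGl _ hvG), fun g => ?_⟩
  have h2 := hv g
  rw [hcz g] at h2
  rw [smul_sub]
  rw [sub_eq_iff_eq_add] at h2
  have h3 : wval p G hG (φ ((c₀ : primeLocalGaloisGroup ℓ → A) g)) =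
      locD ℓ g • z - z - (locD ℓ g • v - v) := by
    rw [h2]; abel
  rw [h3]; abel

set_option maxHeartbeats 1600000 in
/-- **(R3-μ)** the propagated classes at `ℓ` on a piece `H ↪ ℚ̄ˣ` killed by `ℓ` are unit classes. -/
theorem mem_unitClassesQ_of_isKumClass (ℓ : Nat.Primes) (hℓp : ¬ (ℓ : ℕ) ∣ p) (k : ℕ)
    (hGl : ∀ x ∈ G, (ℓ : ℕ) ^ k • x = 0)
    (A : Rep ℤ Γ) (φ : RepHom A (WRep p G hG))
    (hφ : ∀ g a, φ (A.ρ g a) = (WRep p G hG).ρ g (φ a)) (hφinj : Function.Injective φ)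
    (H : Rep ℤ Γ) (ψ : RepHom A H) (hψ : ∀ g a, ψ (A.ρ g a) = H.ρ g (ψ a))
    (hℓH : ∀ m : H, (ℓ : ℕ) • m = 0)
    (j : H → Qbarˣ) (hj_add : ∀ a b, j (a + b) = j a * j b)
    (hj_eq : ∀ (σ : Γ) (m : H), ((j (H.ρ σ m) : Qbarˣ) : Qbar) = σ ((j m : Qbarˣ) : Qbar))
    (y : H1D A ℓ) (hy : IsKumClass p G hG ℓ k (mapD (k := ℤ) φ hφ ℓ y)) :
    mapD (k := ℤ) ψ hψ ℓ y ∈ unitClassesQ ℓ H j := by
  classical
  haveI : Fact (ℓ : ℕ).Prime := ⟨ℓ.2⟩
  obtain ⟨c₀, rfl⟩ := LevelCoh28.H1mk_surjective _ _ y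
  obtain ⟨x, z', hx, hz', hcz'⟩ := exists_point_of_isKumClass p G hG ℓ k hGl A φ hφ c₀ hy
  -- the piece inside `J`
  let ι : A →+ JZero p :=
    { toFun := fun a => wval p G hG (φ a)
      map_zero' := by rw [map_zero]; rfl
      map_add' := fun a b => by rw [map_add]; rfl }
  have hι : ∀ a, ι a = wval p G hG (φ a) := fun _ => rfl
  have hιinj : Function.Injective ι := fun a b h => hφinj (wval_injective h)
  have hιρ : ∀ (σ : Γ) (a : A), ι (A.ρ σ a) = σ • ι a := by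
    intro σ a
    rw [hι, hφ]
    rfl
  let χ : JZero p → Qbar := fun v =>
    if h : ∃ a : A, ι a = v then ((j (ψ h.choose) : Qbarˣ) : Qbar) else 1
  have hχι : ∀ a : A, χ (ι a) = ((j (ψ a) : Qbarˣ) : Qbar) := by
    intro a
    have h : ∃ a' : A, ι a' = ι a := ⟨a, rfl⟩
    show (dite _ _ _ : Qbar) = _
    rw [dif_pos h, hιinj h.choose_spec]
  have hj0 : j 0 = 1 := by
    have h := hj_add 0 0
    rw [add_zero] at h
    exact (mul_eq_left₀ (j 0).ne_zero |>.mp (by exact_mod_cast congrArg (Units.val) h.symm)) |>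
      fun h' => Units.ext h'
  -- the place and its decomposition group
  have hA : (primeLocalPlace ℓ).LiesOverPrime (ℓ : ℕ) :=
    Fermat.Agent.W56.UnipSel8.liesOverPrime_primeLocalPlace ℓ
  have hmemD : ∀ g : primeLocalGaloisGroup ℓ,
      locD ℓ g ∈ (primeLocalPlace ℓ).decompositionSubgroup ℚ := by
    intro g
    rw [← Fermat.Agent.W56.DecompOnto0.range_primeLocalToGlobal]
    exact ⟨g, rfl⟩
  obtain ⟨L, hL, hLz⟩ := Fermat.Agent.ES.GAL.OpenStab12.hasLevel_pic0 (N := p) z'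
  haveI := hL
  obtain ⟨u, hu, huD⟩ := Fermat.Agent.M15.FlatProp2.exists_unit_kummer p (ℓ : ℕ) hℓp
    (primeLocalPlace ℓ) hA ((primeLocalPlace ℓ).decompositionSubgroup ℚ)
    (fun σ hσ => Fermat.Agent.FF.InertiaWire8.mem_decomposition_of_mem_inertia _ hσ)
    k x z' (fun σ _ => hx σ) hz' ι.range (ψ.toAddMonoidHom.ker.map ι)
    (by
      rintro _ ⟨a, -, rfl⟩
      exact ⟨a, rfl⟩)
    (by
      rintro _ ⟨a, rfl⟩
      exact hGl _ (wval_mem _))
    (by
      rintro σ - _ ⟨a, rfl⟩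
      exact ⟨A.ρ σ a, hιρ σ a⟩)
    (by
      rintro σ - _ ⟨a, ha, rfl⟩
      refine ⟨A.ρ σ a, ?_, hιρ σ a⟩
      show ψ (A.ρ σ a) = 0
      rw [hψ, show ψ a = 0 from ha, map_zero])
    (by
      intro σ hσ
      obtain ⟨g, rfl⟩ := Fermat.Agent.W56.DecompOnto0.exists_primeLocalToGlobal_eq ℓ hσ
      exact ⟨(c₀ : primeLocalGaloisGroup ℓ → A) g, hcz' g⟩)
    (by
      rintro _ ⟨a, rfl⟩
      refine ⟨(ℓ : ℕ) • a, ?_, map_nsmul ι _ _⟩
      show ψ ((ℓ : ℕ) • a) = 0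
      rw [map_nsmul, hℓH])
    χ
    (by
      rintro _ ⟨a, rfl⟩ _ ⟨b, rfl⟩
      rw [← map_add, hχι, hχι, hχι, map_add, hj_add, Units.val_mul])
    (by
      rintro _ ⟨a, ha, rfl⟩
      rw [hχι, show ψ a = 0 from ha, hj0, Units.val_one])
    (by
      rintro σ - _ ⟨a, rfl⟩
      rw [← hιρ, hχι, hχι, hψ, hj_eq])
    L
    (fun γ _ hγ => hLz γ (fun a ha => hγ ⟨a, ha⟩))
  refine ⟨LevelCoh28.mapZ1 (𝓑 := LevelBridge13.pullBasis (locD ℓ))
    (A := Rep.res (locD ℓ) A) (B := Rep.res (locD ℓ) H) ψ (fun g a => hψ (locD ℓ g) a) c₀, rfl,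
    u, hu, fun g => ?_⟩
  have h4 := huD (locD ℓ g) (hmemD g)
  rw [← hcz' g, ← hι, hχι] at h4
  exact h4


/-- **(R3-ét)** the propagated classes at `ℓ` on an étale-labelled piece are unramified.
`Φ` is any inertia-invariant homomorphism (the reduction map `red ∘ π^*`); the label condition is
`Φ (φ a) = 0 → ψ a = 0` ("`W_i ∩ W⁰ ≤ W_{i-1}`"). -/
theorem mem_H1ur_of_isKumClass (ℓ : Nat.Primes) (k : ℕ)
    (hGl : ∀ x ∈ G, (ℓ : ℕ) ^ k • x = 0)
    {Jb : Type*} [AddCommGroup Jb] (Φ : JZero p →+ Jb)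
    (hΦI : ∀ τ ∈ (primeLocalPlace ℓ).inertiaSubgroupIn ℚ, ∀ z : JZero p, Φ (τ • z) = Φ z)
    (A : Rep ℤ Γ) (φ : RepHom A (WRep p G hG))
    (hφ : ∀ g a, φ (A.ρ g a) = (WRep p G hG).ρ g (φ a))
    (H : Rep ℤ Γ) (ψ : RepHom A H) (hψ : ∀ g a, ψ (A.ρ g a) = H.ρ g (ψ a))
    (hlab : ∀ a : A, Φ (wval p G hG (φ a)) = 0 → ψ a = 0)
    (y : H1D A ℓ) (hy : IsKumClass p G hG ℓ k (mapD (k := ℤ) φ hφ ℓ y)) :
    mapD (k := ℤ) ψ hψ ℓ y ∈ H1ur H ℓ := by
  obtain ⟨c₀, rfl⟩ := LevelCoh28.H1mk_surjective _ _ y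
  obtain ⟨x, z', hx, hz', hcz'⟩ := exists_point_of_isKumClass p G hG ℓ k hGl A φ hφ c₀ hy
  have hvan : ∀ s : ↥(inertia ℓ),
      ψ ((c₀ : primeLocalGaloisGroup ℓ → A) (s : primeLocalGaloisGroup ℓ)) = 0 := by
    intro s
    apply hlab
    rw [hcz' (s : primeLocalGaloisGroup ℓ), map_sub, hΦI _ s.2, sub_self]
  show resDI H ℓ (LevelCoh28.H1mk _ _ (LevelCoh28.mapZ1
    (𝓑 := LevelBridge13.pullBasis (locD ℓ)) (A := Rep.res (locD ℓ) A) (B := Rep.res (locD ℓ) H) ψ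
    (fun g a => hψ (locD ℓ g) a) c₀)) = 0
  unfold resDI
  rw [LevelCohRes28.ppH1_mk, LevelCoh28.H1mk_eq_zero_iff]
  refine ⟨0, ?_⟩
  funext s
  rw [map_zero]
  exact (hvan s).symm

end

end Fermat.Agent.M15.FlatBridge2
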