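/-
Programme M15 (target S15), chapter R3 FLAT (helper2): **(LAB) for `ℓ` odd**: on a piece with trivial
inertia action the étale label condition holds automatically.

`ℓ ≠ 2`, `ℓ ∤ p`, `A` a place of `ℚ̄` over `ℓ`, `Φ = red ∘ π^*`.  `S` an `Iner A`-module with an
equivariant injection `ι : S → J₀(p)[ℓ^k]`, `q : S → Q` additive with `q (σ s) = q s` for `σ ∈ Iner A`.
Then `Φ (ι s) = 0 → q s = 0`: the subgroup `S ∩ ker Φ` carries a connected Hopf order
(`FF/ConnOrder8`), and its image in `Q` is an `ℓ`-group with trivial inertia action, hence zero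
(Oort–Tate rigidity at `e = 1`: `T33/WZero2.subquotient_eq_zero`).  FALSE for `ℓ = 2`.
-/
import Mathlib
import Fermat.Agent.FF.ConnOrder8
import Fermat.Agent.T33.WZero2
import Fermat.Agent.ES.RED.PullbackInj12
import Fermat.Agent.FF.RedIface9

set_option autoImplicit false
set_option synthInstance.maxHeartbeats 400000
set_option linter.unusedSectionVars false
set_option linter.style.haveILetI false

open AlgebraicCurve ModularCurve IsLocalRing

namespace Fermat.Agent.M15.FlatLabel2

open Fermat.Agent.FF.InertiaWire8 Fermat.Agent.FF.HopfOrderB Fermat.Agent.FF.HopfOrderC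
  Fermat.Agent.FF.SubOrd1 Fermat.Agent.FF.S19Wire1 Fermat.Agent.RED.Interface4
  Fermat.Agent.FF.GaussOv1 Fermat.Agent.ES.RED Fermat.Agent.FF.Shapes8 Fermat.Agent.FF.SpecRR1
  Fermat.Agent.ES.HECKE.LevelPullback12 Fermat.Agent.ES.RED.PullbackInj12
  Fermat.Agent.T33.ConnOrd2

set_option maxHeartbeats 1600000 in
/-- **(LAB)**, generic reduction package. -/
theorem eq_zero_of_red_eq_zero_of_trivial (p : ℕ) [NeZero p] (ℓ : ℕ) [Fact ℓ.Prime] (hℓ2 : ℓ ≠ 2)
    (hℓp : ¬ ℓ ∣ p) [NeZero (auxLevel ℓ p)]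
    (A : ValuationSubring Qb) (hA : A.LiesOverPrime ℓ)
    (r : PlF (auxLevel ℓ p) → PlB A (auxLevel ℓ p))
    (hr : IsPlaceReductionModL A (auxLevel ℓ p) r) (hrI : InertiaInv A (auxLevel ℓ p) r)
    {Jb : Type*} [AddCommGroup Jb] (red : JZero (auxLevel ℓ p) →+ Jb)
    (hred : ∀ D : Divisor.degZero (K := Qbar) (F := ↥(Fbar (auxLevel ℓ p))),
      red (Pic0.mk D) = 0 ↔
        Finsupp.mapDomain r (D : Divisor Qbar ↥(Fbar (auxLevel ℓ p))) ∈
        Divisor.principal (K := Setup8.kA A)
          (F := ↥(modularFunctionFieldFullC (Setup8.kA A) (auxLevel ℓ p))))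
    (hredI : ∀ τ ∈ A.inertiaSubgroupIn ℚ, ∀ z : JZero (auxLevel ℓ p), red (τ • z) = red z)
    (k : ℕ) {S : Type*} [AddCommGroup S] [DistribMulAction (Iner A) S] (ι : S →+ JZero p)
    (hι : Function.Injective ι) (hιΓ : ∀ (σ : Iner A) (s : S), ι (σ • s) = (σ : Qb ≃ₐ[ℚ] Qb) • ι s)
    (hSl : ∀ s : S, ℓ ^ k • ι s = 0)
    {Q : Type*} [AddCommGroup Q] (q : S →+ Q) (hq : ∀ (σ : Iner A) (s : S), q (σ • s) = q s)
    (s : S) (hs : red (levelPullback (dvd_auxLevel ℓ p) (ι s)) = 0) : q s = 0 := by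
  have hℓ : ℓ.Prime := Fact.out
  -- the subgroup `S ∩ ker Φ`
  let S₀ : AddSubgroup S :=
    { carrier := {s | red (levelPullback (dvd_auxLevel ℓ p) (ι s)) = 0}
      zero_mem' := by simp
      add_mem' := by
        intro a b ha hb
        show red (levelPullback (dvd_auxLevel ℓ p) (ι (a + b))) = 0
        rw [map_add, map_add, map_add, ha, hb, add_zero]
      neg_mem' := by
        intro a ha
        show red (levelPullback (dvd_auxLevel ℓ p) (ι (-a))) = 0
        rw [map_neg, map_neg, map_neg, ha, neg_zero] }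
  have hS₀ : ∀ (σ : Iner A) (a : S), a ∈ S₀ → σ • a ∈ S₀ := by
    intro σ a ha
    show red (levelPullback (dvd_auxLevel ℓ p) (ι (σ • a))) = 0
    rw [hιΓ, levelPullback_smul, hredI _ σ.2]
    exact ha
  letI : DistribMulAction (Iner A) ↥S₀ :=
    { smul := fun σ a => ⟨σ • (a : S), hS₀ σ a a.2⟩
      one_smul := fun a => Subtype.ext (one_smul _ (a : S))
      mul_smul := fun σ τ a => Subtype.ext (mul_smul σ τ (a : S))
      smul_zero := fun σ => Subtype.ext (smul_zero σ)
      smul_add := fun σ a b => Subtype.ext (smul_add σ (a : S) (b : S)) }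
  -- the map to the torsion of the auxiliary level
  have htors : ∀ a : S, levelPullback (dvd_auxLevel ℓ p) (ι a) ∈
      Submodule.torsionBy ℤ (JZero (auxLevel ℓ p)) ((ℓ : ℤ) ^ k) := by
    intro a
    rw [Submodule.mem_torsionBy_iff]
    have h1 : ((ℓ : ℤ) ^ k) • levelPullback (dvd_auxLevel ℓ p) (ι a) =
        levelPullback (dvd_auxLevel ℓ p) (((ℓ : ℤ) ^ k) • ι a) := (map_zsmul _ _ _).symm
    have h2 : ((ℓ : ℤ) ^ k) • ι a = 0 := by
      rw [← hSl a, ← natCast_zsmul]; push_cast; rfl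
    rw [h1, h2, map_zero]
  let ι' : ↥S₀ →+ Tors (auxLevel ℓ p) ℓ k :=
    { toFun := fun a => ⟨levelPullback (dvd_auxLevel ℓ p) (ι (a : S)), htors _⟩
      map_zero' := by
        apply Subtype.ext
        show levelPullback (dvd_auxLevel ℓ p) (ι ((0 : ↥S₀) : S)) = 0
        simp
      map_add' := by
        intro a b
        apply Subtype.ext
        show levelPullback (dvd_auxLevel ℓ p) (ι ((a + b : ↥S₀) : S)) = _
        simp }
  have hι'inj : Function.Injective ι' := by
    intro a b hab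
    have h1 : levelPullback (dvd_auxLevel ℓ p) (ι (a : S)) =
        levelPullback (dvd_auxLevel ℓ p) (ι (b : S)) := congrArg Subtype.val hab
    have h2 : levelPullback (dvd_auxLevel ℓ p) (ι ((a : S) - (b : S))) = 0 := by
      rw [map_sub, map_sub, h1, sub_self]
    by_cases hk : k = 0
    · subst hk
      have ha := hSl (a : S)
      have hb := hSl (b : S)
      rw [pow_zero, one_smul] at ha hb
      exact Subtype.ext (hι (ha.trans hb.symm))
    · have h3 := levelPullback_auxLevel_eq_zero ℓ p (ℓ ^ k) (pow_pos hℓ.pos k) _ (hSl _) h2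
      rw [map_sub, sub_eq_zero] at h3
      exact Subtype.ext (hι h3)
  obtain ⟨n, e, hn, hb, hnM⟩ := Fermat.Agent.FF.RedConcrete5.exists_base_auxLevel ℓ p
  obtain ⟨H, hH, hHA, hHc⟩ := Fermat.Agent.FF.ConnOrder8.exists_connOrder_comap ℓ k
    n e (auxLevel ℓ p) hb hnM (not_dvd_auxLevel hℓ hℓp) A hA r hr hrI red hred hredI
    (Q := ↥S₀) ι' hι'inj
    (fun σ a => by
      apply Subtype.ext
      show levelPullback (dvd_auxLevel ℓ p) (ι (σ • (a : S))) =
        (σ : Qb ≃ₐ[ℚ] Qb) • levelPullback (dvd_auxLevel ℓ p) (ι (a : S))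
      rw [hιΓ, levelPullback_smul])
    (fun a => a.2)
  have hconn : HasConnOrder (W0 A) (Iner A) A ↥S₀ := ⟨H, hH, hHc⟩
  haveI : Finite (Tors (auxLevel ℓ p) ℓ k) := finite_tors (auxLevel ℓ p) ℓ k
  haveI : Finite ↥S₀ := Finite.of_injective ι' hι'inj
  -- the image in `Q`, with the trivial action
  let q₀ : ↥S₀ →+ Q := q.comp S₀.subtype
  let Q₀ : AddSubgroup Q := q₀.range
  letI : DistribMulAction (Iner A) ↥Q₀ :=
    { smul := fun _ y => y
      one_smul := fun _ => rfl
      mul_smul := fun _ _ _ => rfl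
      smul_zero := fun _ => rfl
      smul_add := fun _ _ _ => rfl }
  let jj : ↥S₀ →+ (Unit → ↥S₀) :=
    { toFun := fun a _ => a
      map_zero' := rfl
      map_add' := fun _ _ => rfl }
  let qq : ↥S₀ →+ ↥Q₀ := q₀.rangeRestrict
  have hzero : ∀ y : ↥Q₀, y = 0 :=
    Fermat.Agent.T33.WZero2.subquotient_eq_zero hℓ hℓ2 hA hconn Unit
      (S := ↥S₀) jj (fun a b hab => congrFun hab ()) (fun σ a => rfl)
      (Q := ↥Q₀) qq q₀.rangeRestrict_surjective
      (fun σ a => by
        apply Subtype.ext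
        show q (σ • (a : S)) = q (a : S)
        exact hq σ _)
      (fun y => by
        obtain ⟨a, rfl⟩ := q₀.rangeRestrict_surjective y
        refine ⟨k, ?_⟩
        rw [← map_nsmul]
        have : ℓ ^ k • a = 0 := by
          apply Subtype.ext
          apply hι
          show ι (ℓ ^ k • (a : S)) = ι 0
          rw [map_nsmul, hSl, map_zero]
        rw [this, map_zero])
      (fun σ y => rfl)
  have := hzero (qq ⟨s, hs⟩)
  exact congrArg Subtype.val this

end Fermat.Agent.M15.FlatLabel2
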