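/-
Programme M15 (target S15), chapter R3 FLAT (helper2): **(R3-ét) for `ℓ` odd**: on a piece with trivial
inertia action at `ℓ` the propagated Kummer classes are unramified
(`FlatBridge2.mem_H1ur_of_isKumClass` ∘ `FlatLabel2` at the concrete reduction `red ∘ π^*`).
-/
import Mathlib
import Fermat.Agent.M15.FlatBridge2
import Fermat.Agent.M15.FlatLabel2

set_option autoImplicit false
set_option linter.unusedSectionVars false
set_option linter.style.haveILetI false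
set_option synthInstance.maxHeartbeats 400000

open CategoryTheory ExtCitation AlgebraicCurve ModularCurve

namespace Fermat.Agent.M15.FlatEt2

open Fermat.Agent.PT.PRO Fermat.Agent.PT.BR Fermat.Agent.W56.Defs9
open Fermat.Agent.M15.DevDefs5 Fermat.Agent.M15.DevUnit5 Fermat.Agent.M15.KumRep6
  Fermat.Agent.M15.FlatBridge2 Fermat.Agent.FF.RedIface9 Fermat.Agent.RED.Interface4
  Fermat.Agent.ES.RED Fermat.Agent.ES.HECKE.LevelPullback12

local notation "Γ" => (AlgebraicClosure ℚ ≃ₐ[ℚ] AlgebraicClosure ℚ)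
local notation "Qbar" => AlgebraicClosure ℚ

noncomputable section

variable (p : ℕ) [NeZero p] (G : AddSubgroup (JZero p)) (hG : ∀ g : Γ, ∀ x ∈ G, g • x ∈ G)

set_option maxHeartbeats 1600000 in
/-- **(R3-ét), `ℓ` odd.** -/
theorem mem_H1ur_of_trivial (ℓ : Nat.Primes) (hℓ2 : (ℓ : ℕ) ≠ 2) (hℓp : ¬ (ℓ : ℕ) ∣ p) (k : ℕ)
    (hGl : ∀ x ∈ G, (ℓ : ℕ) ^ k • x = 0)
    (A : Rep ℤ Γ) (φ : RepHom A (WRep p G hG))
    (hφ : ∀ g a, φ (A.ρ g a) = (WRep p G hG).ρ g (φ a)) (hφinj : Function.Injective φ)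
    (H : Rep ℤ Γ) (ψ : RepHom A H) (hψ : ∀ g a, ψ (A.ρ g a) = H.ρ g (ψ a))
    (htriv : ∀ τ ∈ (primeLocalPlace ℓ).inertiaSubgroupIn ℚ, ∀ m : H, H.ρ τ m = m)
    (y : H1D A ℓ) (hy : IsKumClass p G hG ℓ k (mapD (k := ℤ) φ hφ ℓ y)) :
    mapD (k := ℤ) ψ hψ ℓ y ∈ H1ur H ℓ := by
  haveI : Fact (ℓ : ℕ).Prime := ⟨ℓ.2⟩
  have hℓ : (ℓ : ℕ).Prime := ℓ.2
  haveI := Fermat.Agent.RED.LVL.LevelDegree17.neZero_auxLevel (ℓ : ℕ) p
  have hA : (primeLocalPlace ℓ).LiesOverPrime (ℓ : ℕ) :=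
    Fermat.Agent.W56.UnipSel8.liesOverPrime_primeLocalPlace ℓ
  set m := redModel (ℓ : ℕ) hℓ (primeLocalPlace ℓ) hA (auxLevel (ℓ : ℕ) p)
    (hauptLevel_auxLevel hℓ hℓp) with hm
  refine mem_H1ur_of_isKumClass p G hG ℓ k hGl
    ((m.red hA).comp (levelPullback (dvd_auxLevel (ℓ : ℕ) p)))
    (fun τ hτ z => by
      show m.red hA (levelPullback (dvd_auxLevel (ℓ : ℕ) p) (τ • z)) = _
      rw [Fermat.Agent.ES.RED.PullbackInj12.levelPullback_smul, m.red_smul_inertia hA hτ]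
      rfl)
    A φ hφ H ψ hψ ?_ y hy
  -- the label condition
  letI : DistribMulAction (Fermat.Agent.FF.InertiaWire8.Iner (primeLocalPlace ℓ)) A :=
    { smul := fun σ a => A.ρ (σ : Γ) a
      one_smul := fun a => by
        show A.ρ ((1 : Fermat.Agent.FF.InertiaWire8.Iner (primeLocalPlace ℓ)) : Γ) a = a
        rw [Subgroup.coe_one, map_one]
        rfl
      mul_smul := fun σ τ a => by
        show A.ρ ((σ * τ : Fermat.Agent.FF.InertiaWire8.Iner (primeLocalPlace ℓ)) : Γ) a =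
          A.ρ (σ : Γ) (A.ρ (τ : Γ) a)
        rw [Subgroup.coe_mul, map_mul]
        rfl
      smul_zero := fun σ => map_zero _
      smul_add := fun σ a b => map_add _ a b }
  intro a ha
  let ι : A →+ JZero p :=
    { toFun := fun a => wval p G hG (φ a)
      map_zero' := by rw [map_zero]; rfl
      map_add' := fun a b => by rw [map_add]; rfl }
  exact Fermat.Agent.M15.FlatLabel2.eq_zero_of_red_eq_zero_of_trivial p (ℓ : ℕ) hℓ2 hℓp
    (primeLocalPlace ℓ) hA m.rPl (m.isPlaceReduction hA)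
    (fun τ hτ P => m.rPl_smul_inertia hA hτ P) (m.red hA)
    (Fermat.Agent.FF.RedConcrete5.red_mk_eq_zero_iff m.rPl (m.isPlaceReduction hA)
      (m.principalGenerated hA))
    (fun τ hτ y => m.red_smul_inertia hA hτ y) k ι
    (fun a b h => hφinj (wval_injective h))
    (fun σ a => by
      show wval p G hG (φ (A.ρ (σ : Γ) a)) = (σ : Γ) • wval p G hG (φ a)
      rw [hφ]
      rfl)
    (fun a => hGl _ (wval_mem _))
    (ψ.toAddMonoidHom)
    (fun σ a => by
      show ψ (A.ρ (σ : Γ) a) = ψ a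
      rw [hψ, htriv _ σ.2])
    a ha

end

end Fermat.Agent.M15.FlatEt2
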