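/-
M15 / integration of (SD) for `ℓ` odd (lead), part 1: **the dévissage inequality along a labelled
Jordan–Hölder chain**.

`G ≤ J₀(p)` a `Γ`-stable subgroup killed by `ℓ ^ k`, `W = FlatBridge2.WRep p G hG`, `T = {p, ℓ}`,
`L` a family of local conditions on `W` such that every class of `L ℓ` is of Kummer type
(`FlatBridge2.IsKumClass`).  If `F` is a chain of stable submodules of `W` from `⊥` to `⊤` whose pieces
have order `ℓ` and are labelled "trivial action" or "embedded in `ℚ̄ˣ`", then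

  `XiLe T p ℓ W L (number of trivially labelled pieces)`.

(`XiLe.chain` + `XiLe.atomEt` with `FlatEt2.mem_H1ur_of_trivial` + `XiLe.atomMu` with
`FlatBridge2.mem_unitClassesQ_of_isKumClass`.)  Nothing is asked of `L p` nor of `L.inf`.
Imported by no statement.
-/
import Mathlib
import Fermat.Agent.M15.DevChain5
import Fermat.Agent.M15.DevEt5
import Fermat.Agent.M15.DevMu5
import Fermat.Agent.M15.FlatBridge2
import Fermat.Agent.M15.FlatEt2

set_option autoImplicit false
set_option linter.unusedSectionVars false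
set_option linter.unusedVariables false
set_option linter.style.haveILetI false
set_option synthInstance.maxHeartbeats 400000

open CategoryTheory ExtCitation AlgebraicCurve ModularCurve

namespace Fermat.Agent.M15.SDOdd0

open Fermat.Agent.PT.PRO Fermat.Agent.PT.BR Fermat.Agent.W56.Defs9
open Fermat.Agent.M15.DevDefs5 Fermat.Agent.M15.DevUnit5 Fermat.Agent.M15.DevChain5
  Fermat.Agent.M15.DevEt5 Fermat.Agent.M15.DevMu5 Fermat.Agent.M15.KumRep6
  Fermat.Agent.M15.FlatBridge2

local notation "Γ" => (AlgebraicClosure ℚ ≃ₐ[ℚ] AlgebraicClosure ℚ)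
local notation "Qbar" => AlgebraicClosure ℚ

noncomputable section

/-- submodules of a representation, for the module structure carried by the representation. -/
abbrev RepSub {k : Type} [CommRing k] (W : Rep k Γ) : Type := Submodule k W

/-- **a labelled Jordan–Hölder chain** of `W`: stable submodules from `⊥` to `⊤`, pieces of order
`ℓ`, each labelled trivial (`lab i = true`: trivial action) or multiplicative (`lab i = false`:
equivariantly embedded in `ℚ̄ˣ`). -/
structure JHChain {k : Type} [CommRing k] (ℓ : ℕ) (W : Rep.{0, 0, 0} k Γ) where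
  n : ℕ
  F : Fin (n + 1) → RepSub W
  mono : Monotone F
  st : ∀ i, IsStable W (F i)
  bot : F 0 = ⊥
  top : F (Fin.last n) = ⊤
  lab : Fin n → Bool
  card : ∀ i : Fin n, Nat.card (pieceRep W (F i.castSucc) (F i.succ) (st _) (st _)) = ℓ
  triv : ∀ i : Fin n, lab i = true →
    ∀ (σ : Γ) (m : pieceRep W (F i.castSucc) (F i.succ) (st _) (st _)),
      (pieceRep W (F i.castSucc) (F i.succ) (st _) (st _)).ρ σ m = m
  mu : ∀ i : Fin n, lab i = false →
    ∃ j : pieceRep W (F i.castSucc) (F i.succ) (st _) (st _) → Qbarˣ,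
      Function.Injective j ∧ (∀ a b, j (a + b) = j a * j b) ∧
      ∀ (σ : Γ) (m : pieceRep W (F i.castSucc) (F i.succ) (st _) (st _)),
        ((j ((pieceRep W (F i.castSucc) (F i.succ) (st _) (st _)).ρ σ m) : Qbarˣ) : Qbar) =
          σ ((j m : Qbarˣ) : Qbar)

/-- the number of trivially labelled pieces. -/
def JHChain.numTriv {k : Type} [CommRing k] {ℓ : ℕ} {W : Rep.{0, 0, 0} k Γ} (c : JHChain ℓ W) : ℕ :=
  ∑ i : Fin c.n, if c.lab i = true then 1 else 0

variable (p : ℕ) [NeZero p] (G : AddSubgroup (JZero p)) (hG : ∀ g : Γ, ∀ x ∈ G, g • x ∈ G)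

/-- **the dévissage inequality along a labelled chain, `ℓ` odd.** -/
theorem xiLe_of_chain (ℓ : Nat.Primes) (hℓ2 : (ℓ : ℕ) ≠ 2) (hℓp : ¬ (ℓ : ℕ) ∣ p) (k : ℕ)
    (hGl : ∀ x ∈ G, (ℓ : ℕ) ^ k • x = 0)
    (pp : Nat.Primes) (hpℓ : pp ≠ ℓ) (T : Finset Nat.Primes) (hpT : pp ∈ T) (hℓT : ℓ ∈ T)
    (hT : ∀ q ∈ T, q = pp ∨ q = ℓ)
    (hW : LevelCoh28.IsDiscrete (LevelBridge13.globalBasis T).sets (WRep p G hG))
    (L : LocCond (WRep p G hG))
    (hL : ∀ y ∈ L ℓ, IsKumClass p G hG ℓ k y)
    (c : JHChain (ℓ : ℕ) (WRep p G hG)) :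
    XiLe T pp (ℓ : ℕ) (WRep p G hG) L c.numTriv := by
  haveI : Fact (ℓ : ℕ).Prime := ⟨ℓ.2⟩
  unfold JHChain.numTriv
  refine XiLe.chain T pp (ℓ : ℕ) (WRep p G hG) hW L c.n c.F c.mono c.st c.bot c.top
    (fun i => if c.lab i = true then 1 else 0) (fun i => ?_)
  -- the classes of the piece condition at `ℓ`
  have hkey : ∀ x ∈ (pieceCond (WRep p G hG) (c.F i.castSucc) (c.F i.succ) (c.st _) (c.st _) L) ℓ,
      ∃ y : H1D (subRep (WRep p G hG) (c.F i.succ) (c.st _)) ℓ,
        IsKumClass p G hG ℓ k (mapD (k := ℤ) (subIncl (WRep p G hG) (c.F i.succ) (c.st _))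
          (subIncl_equivariant (WRep p G hG) (c.F i.succ) (c.st _)) ℓ y) ∧
        mapD (k := ℤ) (pieceProj (WRep p G hG) (c.F i.castSucc) (c.F i.succ) (c.st _) (c.st _))
          (pieceProj_equivariant (WRep p G hG) (c.F i.castSucc) (c.F i.succ) (c.st _) (c.st _))
          ℓ y = x := by
    rintro x ⟨y, hy, rfl⟩
    exact ⟨y, hL _ hy, rfl⟩
  by_cases hlab : c.lab i = true
  · rw [if_pos hlab]
    refine XiLe.atomEt T _ pp hpT (ℓ : ℕ) (c.card i) (c.triv i hlab) _ ?_
    intro q hq hqp x hx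
    obtain rfl : q = ℓ := (hT q hq).resolve_left hqp
    obtain ⟨y, hy, rfl⟩ := hkey x hx
    exact Fermat.Agent.M15.FlatEt2.mem_H1ur_of_trivial p G hG q hℓ2 hℓp k hGl _ _
      (subIncl_equivariant (WRep p G hG) (c.F i.succ) (c.st _))
      (subIncl_injective (WRep p G hG) (c.F i.succ) (c.st _)) _ _
      (pieceProj_equivariant (WRep p G hG) (c.F i.castSucc) (c.F i.succ) (c.st _) (c.st _))
      (fun τ _ m => c.triv i hlab τ m) y hy
  · rw [if_neg hlab]
    have hlab' : c.lab i = false := by simpa using hlab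
    obtain ⟨j, hj_inj, hj_add, hj_eq⟩ := c.mu i hlab'
    refine XiLe.atomMu T _ j pp ℓ hpℓ hpT hℓT (c.card i) hj_inj hj_add hj_eq _ ?_ ?_
    · intro q hq hqp hqℓ
      exact absurd ((hT q hq).resolve_left hqp) hqℓ
    · intro x hx
      obtain ⟨y, hy, rfl⟩ := hkey x hx
      have hℓH : ∀ m : pieceRep (WRep p G hG) (c.F i.castSucc) (c.F i.succ) (c.st _) (c.st _),
          (ℓ : ℕ) • m = 0 := fun m => by
        have h := card_nsmul_eq_zero' (G := pieceRep (WRep p G hG) (c.F i.castSucc) (c.F i.succ)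
          (c.st _) (c.st _)) (x := m)
        rw [c.card i] at h
        exact h
      exact unitClassesQ_subset ℓ _ j
        (mem_unitClassesQ_of_isKumClass p G hG ℓ hℓp k hGl _ _
          (subIncl_equivariant (WRep p G hG) (c.F i.succ) (c.st _))
          (subIncl_injective (WRep p G hG) (c.F i.succ) (c.st _)) _ _
          (pieceProj_equivariant (WRep p G hG) (c.F i.castSucc) (c.F i.succ) (c.st _) (c.st _))
          hℓH j hj_add hj_eq y hy)

end

end Fermat.Agent.M15.SDOdd0
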