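/-
Programme M15 (target S15), chapter R3 FLAT (helper2): **the count of trivial pieces at an odd `ℓ`** from
(HALF-c), for ANY labelled Jordan–Hölder chain (`SDOdd0.JHChain`).

`c₀` = complex conjugation.  On a multiplicative piece (`j : H ↪ ℚ̄ˣ` equivariant) `c₀` acts by `-1`
(`rho_conj_eq_neg`), so for `ℓ` odd a multiplicative piece `F (i+1) / F i` meets `W⁻ = {w | c₀ w = -w}`:
`{i | W⁻ ⊓ F (i+1) ≤ F i} ⊆ {i | lab i = true}`, and `FlatCount2` gives
`#W ≤ ℓ ^ numTriv · #W⁻` (`card_le_pow_numTriv_mul`).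
For `W = G_k = GRep J ε k`: `#W = ℓ ^ (k · rank Λ)` (`FlatNeg2.card_GRep_eq`) and
`#W⁻ ≤ ℓ ^ (k · rank Λ⁻)` (`card_minus_le`), whence
**`mul_le_numTriv`** : `k * lam ≤ c.numTriv` as soon as `rank Λ = 2 lam`, `rank Λ⁻ ≤ lam`
(the same two hypotheses as at `ℓ = 2`).
-/
import Mathlib
import Fermat.Agent.M15.SDOdd0
import Fermat.Agent.M15.FlatCount2
import Fermat.Agent.M15.FlatNeg2

set_option autoImplicit false
set_option linter.unusedSectionVars false
set_option linter.style.haveILetI false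
set_option synthInstance.maxHeartbeats 400000

open CategoryTheory ExtCitation AlgebraicCurve ModularCurve Module

namespace Fermat.Agent.M15.FlatCountOdd2

open Fermat.Agent.ES.J.TateModule13 Fermat.Agent.M15.KumRep6 Fermat.Agent.M15.KumMap6
  Fermat.Agent.M15.ToricTate3 Fermat.Agent.M15.ToricRank3 Fermat.Agent.M15.DevChain5
  Fermat.Agent.M15.SDOdd0

local notation "Γ" => (AlgebraicClosure ℚ ≃ₐ[ℚ] AlgebraicClosure ℚ)
local notation "Qbar" => AlgebraicClosure ℚ

noncomputable section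

/-! ### complex conjugation on a multiplicative piece -/

/-- complex conjugation inverts the roots of unity of `ℚ̄`. -/
theorem conj_eq_inv_of_pow_eq_one {ζ : Qbar} {n : ℕ} (hn : n ≠ 0) (hζ : ζ ^ n = 1) :
    complexConjugation ζ = ζ⁻¹ := by
  apply complexEmbedding.toRingHom.injective
  show complexEmbedding (complexConjugation ζ) = complexEmbedding ζ⁻¹
  rw [complexEmbedding_complexConjugation, map_inv₀]
  have h1 : (complexEmbedding ζ) ^ n = 1 := by rw [← map_pow, hζ, map_one]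
  have h2 : ‖complexEmbedding ζ‖ = 1 := Complex.norm_eq_one_of_pow_eq_one h1 hn
  exact (Complex.inv_eq_conj h2).symm

section Piece

variable {k : Type} [CommRing k] (H : Rep k Γ) (j : H → Qbarˣ) (hj_inj : Function.Injective j)
  (hj_add : ∀ a b, j (a + b) = j a * j b)
  (hj_eq : ∀ (σ : Γ) (m : H), ((j (H.ρ σ m) : Qbarˣ) : Qbar) = σ ((j m : Qbarˣ) : Qbar))

include hj_inj hj_add hj_eq in
/-- on a finite multiplicative piece the complex conjugation acts by `-1`. -/
theorem rho_conj_eq_neg [Finite H] (m : H) : H.ρ complexConjugation m = -m := by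
  have hj0 : j 0 = 1 := by
    have h := hj_add 0 0
    rw [add_zero] at h
    exact (mul_eq_left₀ (j 0).ne_zero |>.mp (by exact_mod_cast congrArg (Units.val) h.symm)) |>
      fun h' => Units.ext h'
  have hneg : j (-m) = (j m)⁻¹ := by
    have h := hj_add (-m) m
    rw [neg_add_cancel, hj0] at h
    exact eq_inv_of_mul_eq_one_left h.symm
  have hpow : ∀ n : ℕ, j (n • m) = j m ^ n := by
    intro n
    induction n with
    | zero => rw [zero_smul, pow_zero, hj0]
    | succ n ih => rw [succ_nsmul, hj_add, ih, pow_succ]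
  have hcard : (j m) ^ Nat.card H = 1 := by
    rw [← hpow, card_nsmul_eq_zero', hj0]
  apply hj_inj
  apply Units.ext
  rw [hj_eq, hneg, Units.val_inv_eq_inv_val]
  refine conj_eq_inv_of_pow_eq_one (n := Nat.card H) Nat.card_pos.ne' ?_
  have := congrArg Units.val hcard
  rwa [Units.val_pow_eq_pow_val, Units.val_one] at this

end Piece

/-! ### the chain -/

section Chain

variable {k : Type} [CommRing k] {ℓ : ℕ} [hℓ : Fact ℓ.Prime] (W : Rep.{0, 0, 0} k Γ)

/-- `W⁻ = {w | c₀ w = -w}`. -/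
def minusSub : AddSubgroup W where
  carrier := {w | W.ρ complexConjugation w = -w}
  zero_mem' := by
    show W.ρ complexConjugation 0 = -0
    rw [map_zero, neg_zero]
  add_mem' := by
    intro a b ha hb
    show W.ρ complexConjugation (a + b) = -(a + b)
    rw [map_add, show W.ρ complexConjugation a = -a from ha,
      show W.ρ complexConjugation b = -b from hb]
    abel
  neg_mem' := by
    intro a ha
    show W.ρ complexConjugation (-a) = - -a
    rw [map_neg, show W.ρ complexConjugation a = -a from ha]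

theorem relIndex_eq_card_piece' (S S' : Submodule k W) (hS : IsStable W S) (hS' : IsStable W S') :
    S.toAddSubgroup.relIndex S'.toAddSubgroup = Nat.card (pieceRep W S S' hS hS') := rfl

open Classical in
/-- **`#W ≤ ℓ ^ numTriv · #W⁻`** for `ℓ` odd. -/
theorem card_le_pow_numTriv_mul (hℓ2 : ℓ ≠ 2) (c : JHChain ℓ W) :
    Nat.card W ≤ ℓ ^ c.numTriv * Nat.card ↥(minusSub W) := by
  have hodd : Odd ℓ := hℓ.out.odd_of_ne_two hℓ2
  have key := Fermat.Agent.M15.FlatCount2.pow_card_filter_mul_card hℓ.out c.n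
    (fun i => (c.F i).toAddSubgroup) (fun a b hab => c.mono hab)
    (by show (c.F 0).toAddSubgroup = ⊥; rw [c.bot]; rfl)
    (by show (c.F (Fin.last c.n)).toAddSubgroup = ⊤; rw [c.top]; rfl)
    (fun i => by
      show (c.F i.castSucc).toAddSubgroup.relIndex (c.F i.succ).toAddSubgroup = ℓ
      rw [relIndex_eq_card_piece' W _ _ (c.st _) (c.st _), c.card i])
    (minusSub W)
  rw [← key]
  refine Nat.mul_le_mul_right _ (Nat.pow_le_pow_right hℓ.out.pos ?_)
  -- the pieces not meeting `W⁻` are trivially labelled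
  have hnum : c.numTriv = (Finset.univ.filter fun i : Fin c.n => c.lab i = true).card := by
    unfold JHChain.numTriv
    rw [Finset.card_filter]
  rw [hnum]
  refine Finset.card_le_card fun i hi => ?_
  rw [Finset.mem_filter] at hi ⊢
  refine ⟨Finset.mem_univ _, ?_⟩
  by_contra hlab
  have hlab' : c.lab i = false := by simpa using hlab
  obtain ⟨j, hj_inj, hj_add, hj_eq⟩ := c.mu i hlab'
  haveI : Finite (pieceRep W (c.F i.castSucc) (c.F i.succ) (c.st _) (c.st _)) :=
    Nat.finite_of_card_ne_zero (by rw [c.card i]; exact hℓ.out.ne_zero)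
  have hle : c.F i.castSucc ≤ c.F i.succ := c.mono (Fin.castSucc_le_succ i)
  -- an element of `F (i+1)` outside `F i`
  have hne : ∃ w ∈ c.F i.succ, w ∉ c.F i.castSucc := by
    by_contra hcon
    push Not at hcon
    have hsub : Subsingleton (pieceRep W (c.F i.castSucc) (c.F i.succ) (c.st _) (c.st _)) := by
      refine ⟨fun a b => ?_⟩
      obtain ⟨a', rfl⟩ := pieceProj_surjective W _ _ (c.st _) (c.st _) a
      obtain ⟨b', rfl⟩ := pieceProj_surjective W _ _ (c.st _) (c.st _) b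
      have ha : pieceProj W (c.F i.castSucc) (c.F i.succ) (c.st _) (c.st _) a' = 0 :=
        (Submodule.Quotient.mk_eq_zero _).2 (hcon _ (show ↥(c.F i.succ) from a').2)
      have hb : pieceProj W (c.F i.castSucc) (c.F i.succ) (c.st _) (c.st _) b' = 0 :=
        (Submodule.Quotient.mk_eq_zero _).2 (hcon _ (show ↥(c.F i.succ) from b').2)
      rw [ha, hb]
    have h1 : Nat.card (pieceRep W (c.F i.castSucc) (c.F i.succ) (c.st _) (c.st _)) = 1 :=
      Nat.card_of_subsingleton 0
    rw [c.card i] at h1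
    exact hℓ.out.one_lt.ne' h1
  obtain ⟨w, hw1, hw0⟩ := hne
  -- `w' = w - c₀ w ∈ W⁻ ∩ F (i+1)`
  set w' : W := w - W.ρ complexConjugation w with hw'
  have hcc : W.ρ complexConjugation (W.ρ complexConjugation w) = w := by
    rw [← Module.End.mul_apply, ← map_mul, complexConjugation_mul_self, map_one,
      Module.End.one_apply]
  have hw'N : w' ∈ minusSub W := by
    show W.ρ complexConjugation w' = -w'
    rw [hw', map_sub, hcc]
    abel
  have hw'F : w' ∈ c.F i.succ :=
    (c.F i.succ).sub_mem hw1 (c.st i.succ complexConjugation w hw1)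
  have hw'0 : w' ∈ c.F i.castSucc := hi.2 ⟨hw'N, hw'F⟩
  -- in the piece: `[w'] = 2 [w]`
  let wq : pieceRep W (c.F i.castSucc) (c.F i.succ) (c.st _) (c.st _) :=
    pieceProj W (c.F i.castSucc) (c.F i.succ) (c.st _) (c.st _) ⟨w, hw1⟩
  have hconj : (pieceRep W (c.F i.castSucc) (c.F i.succ) (c.st _) (c.st _)).ρ
      complexConjugation wq = -wq :=
    rho_conj_eq_neg _ j hj_inj hj_add hj_eq wq
  have h2 : wq + wq = 0 := by
    have h3 : pieceProj W (c.F i.castSucc) (c.F i.succ) (c.st _) (c.st _) ⟨w', hw'F⟩ = 0 :=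
      (Submodule.Quotient.mk_eq_zero _).2 hw'0
    have h4 : pieceProj W (c.F i.castSucc) (c.F i.succ) (c.st _) (c.st _) ⟨w', hw'F⟩ =
        wq - (pieceRep W (c.F i.castSucc) (c.F i.succ) (c.st _) (c.st _)).ρ
          complexConjugation wq := rfl
    rw [h4, hconj, sub_neg_eq_add] at h3
    exact h3
  have hℓw : ℓ • wq = 0 := by
    have := card_nsmul_eq_zero'
      (G := pieceRep W (c.F i.castSucc) (c.F i.succ) (c.st _) (c.st _)) (x := wq)
    rwa [c.card i] at this
  have hwq : wq = 0 := by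
    obtain ⟨t, ht⟩ := hodd
    have h5 : ∀ n : ℕ, n = 2 * t + 1 → n • wq = t • (wq + wq) + wq := by
      intro n hn
      rw [hn, add_smul, one_smul, mul_comm, mul_smul, two_smul]
    have h6 := h5 ℓ ht
    rw [hℓw, h2, smul_zero, zero_add] at h6
    exact h6.symm
  have hmem : (⟨w, hw1⟩ : ↥(c.F i.succ)) ∈ (c.F i.castSucc).comap (c.F i.succ).subtype :=
    (Submodule.Quotient.mk_eq_zero ((c.F i.castSucc).comap (c.F i.succ).subtype)).1 hwq
  exact hw0 hmem

end Chain

/-! ### the lattice count -/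

section Lattice

variable {J : Type} [AddCommGroup J] [DistribMulAction Γ J]
  {𝕋 : Type} [Ring 𝕋] [Module 𝕋 J] [SMulCommClass Γ 𝕋 J] {ℓ : ℕ} [hℓ : Fact ℓ.Prime]
  (ε : 𝕋 →+* ZMod ℓ)

theorem gval_nsmul (k n : ℕ) (w : GRep J ε k) : gval J ε k (n • w) = n • gval J ε k w := by
  induction n with
  | zero => simp
  | succ n ih => rw [succ_nsmul, succ_nsmul, gval_add, ih]

theorem pow_nsmul_eq_zero (k : ℕ) (w : GRep J ε k) : ℓ ^ k • w = 0 := by
  apply gval_injective
  rw [gval_nsmul, (gval_mem w).1]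
  rfl

/-- `#W_k⁻ ≤ ℓ ^ (k · rank Λ⁻)` for `ℓ` odd. -/
theorem card_minus_le (hℓ2 : ℓ ≠ 2) (hfin : Finite {x : J // ℓ • x = 0})
    (hcomm : CommOnTors J 𝕋 ℓ) (hdiv : ∀ x : J, ∃ y : J, ℓ • y = x) (k : ℕ) :
    Nat.card ↥(minusSub (GRep J ε k)) ≤
      ℓ ^ (k * finrank ℤ_[ℓ] ↥(LinearMap.ker (rhoLam J ε complexConjugation + 1))) := by
  classical
  have hodd : Odd ℓ := hℓ.out.odd_of_ne_two hℓ2
  obtain ⟨hF, hFree⟩ := finite_free_Lam (ε := ε) hfin
  haveI := hF
  haveI := hFree
  set N : Submodule ℤ_[ℓ] (Lam J ε) := LinearMap.ker (rhoLam J ε complexConjugation + 1) with hN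
  haveI : Finite (ℤ_[ℓ] ⧸ Ideal.span {((ℓ ^ k : ℕ) : ℤ_[ℓ])}) := by
    apply Nat.finite_of_card_ne_zero
    rw [card_quot_pow]
    exact pow_ne_zero _ hℓ.out.ne_zero
  have h1 := card_map_le N (projG J ε k) ((ℓ ^ k : ℕ) : ℤ_[ℓ]) (fun y => projG_pow_smul k y)
  rw [card_quot_pow, ← pow_mul] at h1
  refine le_trans ?_ h1
  have hsub : ∀ w : GRep J ε k, w ∈ minusSub (GRep J ε k) →
      w ∈ AddSubgroup.map (projG J ε k) N.toAddSubgroup := by
    intro w hw
    have hw' : (GRep J ε k).ρ complexConjugation w = -w := hw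
    obtain ⟨wt, hwt⟩ := projG_surjective hfin hcomm hdiv k w
    set y : Lam J ε := wt - rhoLam J ε complexConjugation wt with hy
    have hcc : rhoLam J ε complexConjugation (rhoLam J ε complexConjugation wt) = wt := by
      rw [← Module.End.mul_apply, ← map_mul, complexConjugation_mul_self, map_one,
        Module.End.one_apply]
    have hyN : (rhoLam J ε complexConjugation + 1) y = 0 := by
      rw [hy, LinearMap.add_apply, Module.End.one_apply, map_sub, hcc]
      abel
    have hπy : projG J ε k y = w + w := by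
      rw [hy, map_sub, projG_rhoLam, hwt, hw', sub_neg_eq_add]
    -- `s = (ℓ^k + 1) / 2`
    have hoddk : Odd (ℓ ^ k) := hodd.pow
    obtain ⟨t, ht⟩ := hoddk
    refine ⟨((t + 1 : ℕ) : ℤ_[ℓ]) • y, ?_, ?_⟩
    · show (rhoLam J ε complexConjugation + 1) (((t + 1 : ℕ) : ℤ_[ℓ]) • y) = 0
      rw [map_smul, hyN, smul_zero]
    · rw [projG_natCast_smul, hπy, ← two_nsmul, ← mul_nsmul']
      have h2 : 2 * (t + 1) = ℓ ^ k + 1 := by omega
      rw [mul_comm, h2, add_nsmul, one_nsmul, pow_nsmul_eq_zero, zero_add]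
  haveI : Finite (GRep J ε k) := finite_GRep ε hfin k
  exact Nat.card_le_card_of_injective
    (fun w : ↥(minusSub (GRep J ε k)) =>
      (⟨w.1, hsub w.1 w.2⟩ : ↥(AddSubgroup.map (projG J ε k) N.toAddSubgroup)))
    (fun a b h => Subtype.ext
      (congrArg (fun t : ↥(AddSubgroup.map (projG J ε k) N.toAddSubgroup) => (t : GRep J ε k)) h))

/-- **the count of trivial pieces at an odd `ℓ`**: `k * lam ≤ c.numTriv` for ANY labelled chain of
`G_k`, given (HALF-c) in the form `rank Λ = 2 lam`, `rank Λ⁻ ≤ lam`. -/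
theorem mul_le_numTriv (hℓ2 : ℓ ≠ 2) (hfin : Finite {x : J // ℓ • x = 0})
    (hcomm : CommOnTors J 𝕋 ℓ) (hdiv : ∀ x : J, ∃ y : J, ℓ • y = x) (k lam : ℕ)
    (hrank : finrank ℤ_[ℓ] (Lam J ε) = 2 * lam)
    (hneg : finrank ℤ_[ℓ] ↥(LinearMap.ker (rhoLam J ε complexConjugation + 1)) ≤ lam)
    (c : JHChain ℓ (GRep J ε k)) : k * lam ≤ c.numTriv := by
  have h1 := card_le_pow_numTriv_mul (GRep J ε k) hℓ2 c
  have h2 : Nat.card (GRep J ε k) = ℓ ^ (k * (2 * lam)) := by
    rw [← hrank]
    exact Fermat.Agent.M15.FlatNeg2.card_GRep_eq ε hfin hcomm hdiv k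
  have h3 : Nat.card ↥(minusSub (GRep J ε k)) ≤ ℓ ^ (k * lam) :=
    (card_minus_le ε hℓ2 hfin hcomm hdiv k).trans
      (Nat.pow_le_pow_right hℓ.out.pos (Nat.mul_le_mul_left k hneg))
  rw [h2] at h1
  have h4 : ℓ ^ (k * (2 * lam)) ≤ ℓ ^ c.numTriv * ℓ ^ (k * lam) :=
    h1.trans (Nat.mul_le_mul_left _ h3)
  rw [← pow_add] at h4
  have h5 := (Nat.pow_le_pow_iff_right hℓ.out.one_lt).1 h4
  have h6 : k * (2 * lam) = k * lam + k * lam := by ring
  omega

end Lattice

end

end Fermat.Agent.M15.FlatCountOdd2
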