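/-
Programme M15 (target S15), chapter (DEV) abstract Selmer dévissage, helper5:
**(D4) the positive multiplicative atom (`ℓ = 2`).**

`H` of order `2` embedded in `ℚ̄ˣ` through `j` (so `H ≅ μ_2`), local conditions: unramified at the
primes `q ≠ p, 2` of `T`, unit classes at `2`, anything at `p`, and **the trivial condition at the
real place**.  Then `XiLe T p 2 H L 1`: the kernel of `H¹_L → res_{I_p}(L_p)` consists of the Kummer
classes of the `y = ±z²` which are positive, hence is zero.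
-/
import Mathlib
import Fermat.Agent.M15.DevMu5

set_option autoImplicit false
set_option linter.unusedSectionVars false

open CategoryTheory ExtCitation

namespace Fermat.Agent.M15.DevPos5

open Fermat.Agent.PT.PRO Fermat.Agent.PT.BR Fermat.Agent.W56.Defs9
open Fermat.Agent.PT.PRO.LevelCoh28 Fermat.Agent.PT.PRO.LevelCohRes28
open Fermat.Agent.M15.DevDefs5 Fermat.Agent.M15.DevUnit5 Fermat.Agent.M15.DevKum5
open Fermat.Agent.M15.DevCard5 Fermat.Agent.M15.DevEt5 Fermat.Agent.M15.DevMu5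
open groupCohomology

local notation "Γ" => (AlgebraicClosure ℚ ≃ₐ[ℚ] AlgebraicClosure ℚ)
local notation "Qbar" => AlgebraicClosure ℚ

noncomputable section

/-- an element of `ℚ̄` fixed by the complex conjugation has a non-negative square: it is not
`-z²`, `z ∈ ℚˣ`. -/
theorem sq_ne_neg_sq_of_fixed (β : Qbar) (hfix : complexConjugation β = β) (z : ℚ) (hz : z ≠ 0) :
    β ^ 2 ≠ -(z : Qbar) ^ 2 := by
  intro h
  have h1 : starRingEnd ℂ (complexEmbedding β) = complexEmbedding β := by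
    rw [← complexEmbedding_complexConjugation, hfix]
  obtain ⟨r, hr⟩ := Complex.conj_eq_iff_real.1 h1
  have h2 := congrArg complexEmbedding h
  rw [map_pow, hr, map_neg, map_pow, map_ratCast] at h2
  have h3 : ((r ^ 2 + (z : ℝ) ^ 2 : ℝ) : ℂ) = 0 := by
    push_cast
    rw [h2]
    ring
  have h4 : r ^ 2 + (z : ℝ) ^ 2 = 0 := by exact_mod_cast h3
  have h5 : (z : ℝ) ^ 2 = 0 := by nlinarith [sq_nonneg r, sq_nonneg (z : ℝ)]
  have h6 : (z : ℝ) = 0 := by simpa using h5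
  exact hz (by exact_mod_cast h6)

variable {k : Type} [CommRing k] (T : Finset Nat.Primes) (H : Rep k Γ) (j : H → Qbarˣ)
  (hj_inj : Function.Injective j) (hj_add : ∀ a b, j (a + b) = j a * j b)
  (hj_eq : ∀ (σ : Γ) (m : H), ((j (H.ρ σ m) : Qbarˣ) : Qbar) = σ ((j m : Qbarˣ) : Qbar))
  (ℓ : Nat.Primes) (hℓH : ∀ m : H, (ℓ : ℕ) • m = 0)

include hj_inj hj_add hj_eq hℓH in
/-- a level cocycle whose class is trivial at the real place vanishes at the complex conjugation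
(`ℓ = 2`). -/
theorem cocycle_conj_eq_zero (h2 : (ℓ : ℕ) = 2)
    (c : ↥(LevelCoh28.Z1 (LevelBridge13.globalBasis T) H))
    (hx : resA T H (LevelCoh28.H1mk _ _ c) = 0) : (c : Γ → H) complexConjugation = 0 := by
  have h1 : resA T H (LevelCoh28.H1mk _ _ c) =
      LevelCoh28.H1mk (LevelBridge13.pullBasis archimedeanLoc) (Rep.res archimedeanLoc H)
        (LevelCohRes28.ppZ1 (𝓑G := LevelBridge13.pullBasis archimedeanLoc)
          (𝓑H := LevelBridge13.globalBasis T) archimedeanLoc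
          (LinearMap.id : H →ₗ[k] Rep.res archimedeanLoc H) (fun _ _ => rfl)
          (ShaBridge13.isLevelHom_pull T archimedeanLoc) c) := rfl
  rw [h1, LevelCoh28.H1mk_eq_zero_iff] at hx
  obtain ⟨m, hm⟩ := hx
  have h3 : H.ρ (archimedeanLoc archimedeanGen) m - m =
      (c : Γ → H) (archimedeanLoc archimedeanGen) := congrFun hm archimedeanGen
  rw [rho_eq_of_two H j hj_inj hj_add hj_eq ℓ hℓH h2, sub_self] at h3
  exact h3.symm

include hj_inj hj_add hj_eq hℓH in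
/-- a class `±z²` which is trivial at the real place is zero. -/
theorem IsKummerPM.eq_zero_of_pos (hcard : Nat.card H = (ℓ : ℕ)) (h2 : (ℓ : ℕ) = 2)
    {x : H1g T H} (hx : IsKummerPM T H j ℓ x) (hpos : resA T H x = 0) : x = 0 := by
  obtain ⟨c, β, z, hc, hβ, hz0, hz | hz⟩ := hx
  · rw [← hc]
    exact H1mk_eq_zero_of_pow_eq T H j hj_inj hj_add hj_eq ℓ hℓH hcard c β hβ z hz0 hz
  · exfalso
    rw [← hc] at hpos
    have h0 := cocycle_conj_eq_zero T H j hj_inj hj_add hj_eq ℓ hℓH h2 c hpos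
    have hfix := fixed_of_cocycle_eq_zero H j hj_add (c : Γ → H) β hβ h0
    rw [h2] at hz
    exact sq_ne_neg_sq_of_fixed (β : Qbar) hfix z hz0 hz

/-- **(D4) the positive multiplicative atom** (`ℓ = 2`). -/
theorem XiLe.atomPos (p ℓ : Nat.Primes) (h2 : (ℓ : ℕ) = 2) (hpT : p ∈ T)
    (hℓT : ℓ ∈ T) (hcard : Nat.card H = (ℓ : ℕ)) (hj_inj : Function.Injective j)
    (hj_add : ∀ a b, j (a + b) = j a * j b)
    (hj_eq : ∀ (σ : Γ) (m : H), ((j (H.ρ σ m) : Qbarˣ) : Qbar) = σ ((j m : Qbarˣ) : Qbar))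
    (L : LocCond H) (hur : ∀ q ∈ T, q ≠ p → q ≠ ℓ → L q ≤ H1ur H q)
    (hfl : ∀ x ∈ L ℓ, x ∈ unitClasses ℓ H j) (hpos : ∀ x ∈ L.inf, x = 0) :
    XiLe T p (ℓ : ℕ) H L 1 := by
  have finH : Finite H := Nat.finite_of_card_ne_zero (by rw [hcard]; exact ℓ.2.ne_zero)
  have hℓH : ∀ m : H, (ℓ : ℕ) • m = 0 := fun m => by
    rw [← hcard]
    exact card_nsmul_eq_zero'
  have hℓfact : Fact (ℓ : ℕ).Prime := ⟨ℓ.2⟩
  have finLoc : Finite (H1D H p) :=
    Fermat.Agent.W56.FinH1D1.finite_H1D H (ℓ : ℕ) hℓH (exists_level_of_j H j hj_inj hj_eq) p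
  have finRam : Finite ↥(ramL H L p) :=
    Finite.of_surjective (fun x : ↥(L p) => (⟨resDI H p x, ⟨x, x.2, rfl⟩⟩ : ↥(ramL H L p)))
      (by rintro ⟨_, ⟨x, hx, rfl⟩⟩; exact ⟨⟨x, hx⟩, rfl⟩)
  -- the map `Sel → ramL`
  let r : ↥(SelL T H L) →ₗ[k] ↥(ramL H L p) :=
    (((resDI H p).comp (resD T H p)).domRestrict (SelL T H L)).codRestrict (ramL H L p)
      fun x => ⟨resD T H p x, ((mem_SelL_iff _).1 x.2).1 p hpT, rfl⟩
  have hr : Function.Injective r := by
    rw [← LinearMap.ker_eq_bot, LinearMap.ker_eq_bot']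
    intro x hx
    have hx' : resDI H p (resD T H p (x : H1g T H)) = 0 := congrArg Subtype.val hx
    apply Subtype.ext
    exact IsKummerPM.eq_zero_of_pos T H j hj_inj hj_add hj_eq ℓ hℓH hcard h2
      (kummer_data T H j hj_inj hj_add hj_eq ℓ hℓH p hℓT L hur hfl _ x.2 hx')
      (hpos _ ((mem_SelL_iff _).1 x.2).2)
  have finSel : Finite ↥(SelL T H L) := Finite.of_injective r hr
  refine ⟨finH, finSel, finLoc, ?_⟩
  have h1 : Nat.card ↥(SelL T H L) ≤ Nat.card ↥(ramL H L p) :=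
    Nat.card_le_card_of_injective r hr
  have htriv := rho_eq_of_two H j hj_inj hj_add hj_eq ℓ hℓH h2
  have h3 : Nat.card ↥(H0I H p) = (ℓ : ℕ) := by
    rw [← hcard]
    exact card_invariants_of_trivial (Rep.res (locI p) H) fun σ m => htriv (locI p σ) m
  have h4 : Nat.card ↥(DevDefs5.H0 H) = (ℓ : ℕ) := by
    rw [← hcard]
    exact card_invariants_of_trivial H htriv
  rw [h3, h4, hcard, pow_one]
  calc Nat.card ↥(SelL T H L) * (ℓ : ℕ) * (ℓ : ℕ)
      ≤ Nat.card ↥(ramL H L p) * (ℓ : ℕ) * (ℓ : ℕ) :=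
        Nat.mul_le_mul_right _ (Nat.mul_le_mul_right _ h1)
    _ = (ℓ : ℕ) * Nat.card ↥(ramL H L p) * (ℓ : ℕ) := by ring

end

end Fermat.Agent.M15.DevPos5
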