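/-
Programme M15 (target S15), chapter R3 FLAT (helper2): **the hypotheses of the atoms of (DEV) on the
pieces of a chain**, in the literal format of `DevChain5` (`pieceRep`, `pieceCond`).

`W = WRep p G hG` (`G ≤ J₀(p)` stable, killed by `ℓ ^ k`, `ℓ ∤ p`), `S ≤ S'` stable submodules of `W`,
`H = pieceRep W S S' hS hS'`, `L : LocCond W` whose classes at `ℓ` (resp. at the real place) are of Kummer
type (e.g. `FlatCond2.kumCond`).

* `pieceCond_le_H1ur` (`ℓ` odd, trivial action on `H`) : `(pieceCond … L) ℓ ≤ H1ur H ℓ`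
  (`hur` at `q = ℓ` of `XiLe.atomEt`);
* `pieceCond_unitClasses` (any `ℓ`, `j : H → ℚ̄ˣ`) : `∀ x ∈ (pieceCond … L) ℓ, x ∈ unitClasses ℓ H j`
  (`hfl` of `XiLe.atomMu` and `XiLe.atomPos`);
* `pieceCond_inf_eq_zero` (`ℓ = 2`, positive label `S' ∩ W⁻ ≤ S`) : `∀ x ∈ (pieceCond … L).inf, x = 0`
  (`hpos` of `XiLe.atomPos`).
-/
import Mathlib
import Fermat.Agent.M15.DevChain5
import Fermat.Agent.M15.FlatEt2
import Fermat.Agent.M15.FlatInf2

set_option autoImplicit false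
set_option linter.unusedSectionVars false
set_option linter.style.haveILetI false
set_option synthInstance.maxHeartbeats 400000

open CategoryTheory ExtCitation AlgebraicCurve ModularCurve

namespace Fermat.Agent.M15.FlatPiece2

open Fermat.Agent.PT.PRO Fermat.Agent.PT.BR Fermat.Agent.W56.Defs9
open Fermat.Agent.M15.DevDefs5 Fermat.Agent.M15.DevUnit5 Fermat.Agent.M15.DevChain5
  Fermat.Agent.M15.KumRep6 Fermat.Agent.M15.FlatBridge2 Fermat.Agent.M15.FlatInf2

local notation "Γ" => (AlgebraicClosure ℚ ≃ₐ[ℚ] AlgebraicClosure ℚ)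
local notation "Qbar" => AlgebraicClosure ℚ

noncomputable section

variable {p : ℕ} [NeZero p] {G : AddSubgroup (JZero p)} {hG : ∀ g : Γ, ∀ x ∈ G, g • x ∈ G}
  (S S' : Submodule ℤ (WRep p G hG)) (hS : IsStable (WRep p G hG) S)
  (hS' : IsStable (WRep p G hG) S') (L : LocCond (WRep p G hG))

/-- membership in the induced condition at a prime. -/
theorem mem_pieceCond_fin_iff (q : Nat.Primes)
    (x : H1D (pieceRep (WRep p G hG) S S' hS hS') q) :
    x ∈ (pieceCond (WRep p G hG) S S' hS hS' L) q ↔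
      ∃ y : H1D (subRep (WRep p G hG) S' hS') q,
        mapD (subIncl (WRep p G hG) S' hS') (subIncl_equivariant (WRep p G hG) S' hS') q y ∈ L q ∧
        mapD (pieceProj (WRep p G hG) S S' hS hS')
          (pieceProj_equivariant (WRep p G hG) S S' hS hS') q y = x := by
  show x ∈ Submodule.map _ (Submodule.comap _ (L q)) ↔ _
  rw [Submodule.mem_map]
  rfl

/-- membership in the induced condition at the real place. -/
theorem mem_pieceCond_inf_iff (x : H1A (pieceRep (WRep p G hG) S S' hS hS')) :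
    x ∈ (pieceCond (WRep p G hG) S S' hS hS' L).inf ↔
      ∃ y : H1A (subRep (WRep p G hG) S' hS'),
        mapA (subIncl (WRep p G hG) S' hS') (subIncl_equivariant (WRep p G hG) S' hS') y ∈ L.inf ∧
        mapA (pieceProj (WRep p G hG) S S' hS hS')
          (pieceProj_equivariant (WRep p G hG) S S' hS hS') y = x := by
  show x ∈ Submodule.map _ (Submodule.comap _ L.inf) ↔ _
  rw [Submodule.mem_map]
  rfl

/-- **`hur` at `ℓ` of `XiLe.atomEt`** (`ℓ` odd). -/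
theorem pieceCond_le_H1ur (ℓ : Nat.Primes) (hℓ2 : (ℓ : ℕ) ≠ 2) (hℓp : ¬ (ℓ : ℕ) ∣ p) (k : ℕ)
    (hGl : ∀ x ∈ G, (ℓ : ℕ) ^ k • x = 0)
    (hL : ∀ y ∈ L ℓ, IsKumClass p G hG ℓ k y)
    (htriv : ∀ τ ∈ (primeLocalPlace ℓ).inertiaSubgroupIn ℚ,
      ∀ m : pieceRep (WRep p G hG) S S' hS hS', (pieceRep (WRep p G hG) S S' hS hS').ρ τ m = m) :
    (pieceCond (WRep p G hG) S S' hS hS' L) ℓ ≤ H1ur (pieceRep (WRep p G hG) S S' hS hS') ℓ := by
  intro x hx
  obtain ⟨y, hy, rfl⟩ := (mem_pieceCond_fin_iff S S' hS hS' L ℓ x).1 hx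
  exact Fermat.Agent.M15.FlatEt2.mem_H1ur_of_trivial p G hG ℓ hℓ2 hℓp k hGl
    (subRep (WRep p G hG) S' hS') (subIncl (WRep p G hG) S' hS')
    (subIncl_equivariant (WRep p G hG) S' hS') (subIncl_injective (WRep p G hG) S' hS')
    (pieceRep (WRep p G hG) S S' hS hS') (pieceProj (WRep p G hG) S S' hS hS')
    (pieceProj_equivariant (WRep p G hG) S S' hS hS') htriv y (hL _ hy)

/-- **`hfl` of `XiLe.atomMu` / `XiLe.atomPos`** (any `ℓ`). -/
theorem pieceCond_unitClasses (ℓ : Nat.Primes) (hℓp : ¬ (ℓ : ℕ) ∣ p) (k : ℕ)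
    (hGl : ∀ x ∈ G, (ℓ : ℕ) ^ k • x = 0)
    (hL : ∀ y ∈ L ℓ, IsKumClass p G hG ℓ k y)
    (hℓH : ∀ m : pieceRep (WRep p G hG) S S' hS hS', (ℓ : ℕ) • m = 0)
    (j : pieceRep (WRep p G hG) S S' hS hS' → Qbarˣ) (hj_add : ∀ a b, j (a + b) = j a * j b)
    (hj_eq : ∀ (σ : Γ) (m : pieceRep (WRep p G hG) S S' hS hS'),
      ((j ((pieceRep (WRep p G hG) S S' hS hS').ρ σ m) : Qbarˣ) : Qbar) =
        σ ((j m : Qbarˣ) : Qbar)) :
    ∀ x ∈ (pieceCond (WRep p G hG) S S' hS hS' L) ℓ,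
      x ∈ unitClasses ℓ (pieceRep (WRep p G hG) S S' hS hS') j := by
  intro x hx
  obtain ⟨y, hy, rfl⟩ := (mem_pieceCond_fin_iff S S' hS hS' L ℓ x).1 hx
  exact unitClassesQ_subset ℓ _ j (mem_unitClassesQ_of_isKumClass p G hG ℓ hℓp k hGl
    (subRep (WRep p G hG) S' hS') (subIncl (WRep p G hG) S' hS')
    (subIncl_equivariant (WRep p G hG) S' hS') (subIncl_injective (WRep p G hG) S' hS')
    (pieceRep (WRep p G hG) S S' hS hS') (pieceProj (WRep p G hG) S S' hS hS')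
    (pieceProj_equivariant (WRep p G hG) S S' hS hS') hℓH j hj_add hj_eq y (hL _ hy))

/-- **`hpos` of `XiLe.atomPos`** (`ℓ = 2`): positive label `S' ∩ W⁻ ≤ S`. -/
theorem pieceCond_inf_eq_zero (k : ℕ) (hGl : ∀ x ∈ G, 2 ^ k • x = 0)
    (hdiv : ∀ x : JZero p, ∃ y : JZero p, 2 • y = x)
    (hLinf : ∀ y ∈ L.inf, IsKumClassInf p G hG 2 k y)
    (hlab : ∀ a ∈ S', wval p G hG a ∈ negPart p G k → a ∈ S) :
    ∀ x ∈ (pieceCond (WRep p G hG) S S' hS hS' L).inf, x = 0 := by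
  intro x hx
  obtain ⟨y, hy, rfl⟩ := (mem_pieceCond_inf_iff S S' hS hS' L x).1 hx
  refine mapA_eq_zero_of_isKumClassInf k hGl hdiv
    (subRep (WRep p G hG) S' hS') (subIncl (WRep p G hG) S' hS')
    (subIncl_equivariant (WRep p G hG) S' hS')
    (pieceRep (WRep p G hG) S S' hS hS') (pieceProj (WRep p G hG) S S' hS hS')
    (pieceProj_equivariant (WRep p G hG) S S' hS hS') ?_ y (hLinf _ hy)
  intro a ha
  have ha' : (show ↥S' from a).1 ∈ S := hlab _ (show ↥S' from a).2 ha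
  exact (Submodule.Quotient.mk_eq_zero (S.comap S'.subtype)).2 ha'

end

end Fermat.Agent.M15.FlatPiece2
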