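/-
Programme M15 (target S15), chapter R3 FLAT (helper2): **the dévissage inequality at `ℓ = 2`.**

`W = WRep p G hG`, `G ≤ J₀(p)` stable and killed by `2 ^ k`, `p` odd, `T = {pp, 2}`, `L` a family of local
conditions whose classes at `2` and at the real place are of Kummer type.  For EVERY chain `F` of stable
submodules with pieces of order `2`:

* `sign2` : the canonical embedding `H → ℚ̄ˣ` (`0 ↦ 1`, the other element `↦ -1`) of a module of order `2`;
* `xiLe_two_chain` : `XiLe T pp 2 W L e`, `e = #{i | F (i+1) ∩ W⁻ ≤ F i}` (positively labelled pieces: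
  `XiLe.atomPos`; the others: `XiLe.atomMu`);
* `pow_card_pos_mul_card_negPart` : `2 ^ e · #W⁻ = #G` (`FlatCount2`);
* `XiLe.mono`, and **`xiLe_two`** : for `G = G_k = kerE (JZero p) ε k`, `L = FlatCond2.kumCond`:
  `XiLe T pp 2 (GRep (JZero p) ε k) L (k * lam)` as soon as `rank Λ = 2 lam` and `rank Λ⁻ ≤ lam` (HALF-c).
-/
import Mathlib
import Fermat.Agent.M15.DevPos5
import Fermat.Agent.M15.FlatPiece2
import Fermat.Agent.M15.FlatCount2
import Fermat.Agent.M15.FlatNeg2
import Fermat.Agent.M15.FlatCond2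

set_option autoImplicit false
set_option linter.unusedSectionVars false
set_option linter.style.haveILetI false
set_option synthInstance.maxHeartbeats 400000

open CategoryTheory ExtCitation AlgebraicCurve ModularCurve Module

namespace Fermat.Agent.M15.FlatTwo2

open Fermat.Agent.PT.PRO Fermat.Agent.PT.BR Fermat.Agent.W56.Defs9
open Fermat.Agent.M15.DevDefs5 Fermat.Agent.M15.DevUnit5 Fermat.Agent.M15.DevChain5
  Fermat.Agent.M15.KumRep6 Fermat.Agent.M15.FlatBridge2 Fermat.Agent.M15.FlatInf2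
  Fermat.Agent.M15.FlatPiece2 Fermat.Agent.M15.FlatCond2

local notation "Γ" => (AlgebraicClosure ℚ ≃ₐ[ℚ] AlgebraicClosure ℚ)
local notation "Qbar" => AlgebraicClosure ℚ

noncomputable section

/-! ### modules of order two -/

section Sign

variable {k : Type} [CommRing k] (H : Rep k Γ)

open Classical in
/-- the sign embedding of a module of order `2`. -/
def sign2 (m : H) : Qbarˣ := if m = 0 then 1 else -1

theorem sign2_zero : sign2 H 0 = 1 := if_pos rfl

theorem sign2_of_ne {m : H} (hm : m ≠ 0) : sign2 H m = -1 := if_neg hm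

theorem neg_one_ne_one_units : (-1 : Qbarˣ) ≠ 1 := by
  intro h
  have h1 : ((-1 : Qbarˣ) : Qbar) = ((1 : Qbarˣ) : Qbar) := congrArg Units.val h
  rw [Units.val_neg, Units.val_one] at h1
  have h2 : (2 : Qbar) = 0 := by linear_combination -h1
  exact two_ne_zero h2

theorem sign2_injective (hcard : Nat.card H = 2) : Function.Injective (sign2 H) := by
  haveI : Finite H := Nat.finite_of_card_ne_zero (by rw [hcard]; norm_num)
  intro a b hab
  by_cases ha : a = 0
  · by_cases hb : b = 0
    · rw [ha, hb]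
    · rw [ha, sign2_zero, sign2_of_ne H hb] at hab
      exact absurd hab.symm neg_one_ne_one_units
  · by_cases hb : b = 0
    · rw [hb, sign2_zero, sign2_of_ne H ha] at hab
      exact absurd hab neg_one_ne_one_units
    · -- two nonzero elements of a group of order two are equal
      by_contra hne
      have h3 : 3 ≤ Nat.card H := by
        classical
        haveI := Fintype.ofFinite H
        rw [Nat.card_eq_fintype_card]
        have hsub : ({0, a, b} : Finset H) ⊆ Finset.univ := Finset.subset_univ _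
        have hc : ({0, a, b} : Finset H).card = 3 := by
          rw [Finset.card_insert_of_notMem, Finset.card_insert_of_notMem,
            Finset.card_singleton]
          · simpa using hne
          · simp only [Finset.mem_insert, Finset.mem_singleton, not_or]
            exact ⟨fun h => ha h.symm, fun h => hb h.symm⟩
        calc 3 = ({0, a, b} : Finset H).card := hc.symm
          _ ≤ Finset.univ.card := Finset.card_le_card hsub
          _ = Fintype.card H := Finset.card_univ
      omega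

theorem add_self_eq_zero_of_card (hcard : Nat.card H = 2) (a : H) : a + a = 0 := by
  have h := card_nsmul_eq_zero' (G := H) (x := a)
  rw [hcard, two_nsmul] at h
  exact h

theorem sign2_add (hcard : Nat.card H = 2) (a b : H) :
    sign2 H (a + b) = sign2 H a * sign2 H b := by
  by_cases ha : a = 0
  · rw [ha, zero_add, sign2_zero, one_mul]
  · by_cases hb : b = 0
    · rw [hb, add_zero, sign2_zero, mul_one]
    · have hab : a = b := by
        apply sign2_injective H hcard
        rw [sign2_of_ne H ha, sign2_of_ne H hb]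
      rw [hab, add_self_eq_zero_of_card H hcard, sign2_zero, sign2_of_ne H hb]
      simp

theorem sign2_rho (σ : Γ) (m : H) :
    ((sign2 H (H.ρ σ m) : Qbarˣ) : Qbar) = σ ((sign2 H m : Qbarˣ) : Qbar) := by
  by_cases hm : m = 0
  · rw [hm, map_zero, sign2_zero, Units.val_one, map_one]
  · have hm' : H.ρ σ m ≠ 0 := by
      intro h
      apply hm
      have h1 : H.ρ σ⁻¹ (H.ρ σ m) = m := by
        rw [← Module.End.mul_apply, ← map_mul, inv_mul_cancel, map_one, Module.End.one_apply]
      rw [← h1, h, map_zero]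
    rw [sign2_of_ne H hm, sign2_of_ne H hm', Units.val_neg, Units.val_one, map_neg, map_one]

end Sign

/-! ### monotonicity in the exponent -/

theorem XiLe.mono {k : Type} [CommRing k] {T : Finset Nat.Primes} {pp : Nat.Primes} {ℓ : ℕ}
    {M : Rep k Γ} {L : LocCond M} {e e' : ℕ} (h : XiLe T pp ℓ M L e) (hℓ : 0 < ℓ)
    (hle : e' ≤ e) : XiLe T pp ℓ M L e' :=
  ⟨h.finM, h.finSel, h.finLoc, le_trans
    (Nat.mul_le_mul_right _ (Nat.mul_le_mul_left _ (Nat.pow_le_pow_right hℓ hle))) h.le⟩

/-! ### the chain -/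

section Chain

variable {p : ℕ} [NeZero p] {G : AddSubgroup (JZero p)} {hG : ∀ g : Γ, ∀ x ∈ G, g • x ∈ G}

/-- the positive label of the `i`-th piece: `F (i+1) ∩ W⁻ ≤ F i`. -/
def IsPos (k : ℕ) (S S' : Submodule ℤ (WRep p G hG)) : Prop :=
  ∀ a ∈ S', wval p G hG a ∈ negPart p G k → a ∈ S

open Classical in
/-- **the dévissage inequality at `2` along a chain with pieces of order `2`.** -/
theorem xiLe_two_chain (hp2 : ¬ 2 ∣ p) (k : ℕ) (hGl : ∀ x ∈ G, 2 ^ k • x = 0)
    (hdiv : ∀ x : JZero p, ∃ y : JZero p, 2 • y = x)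
    (T : Finset Nat.Primes) (pp : Nat.Primes) (hpT : pp ∈ T) (h2T : lP 2 ∈ T)
    (hT : ∀ q ∈ T, q = pp ∨ q = lP 2) (hpp : pp ≠ lP 2)
    (hW : LevelCoh28.IsDiscrete (LevelBridge13.globalBasis T).sets (WRep p G hG))
    (L : LocCond (WRep p G hG))
    (hL2 : ∀ y ∈ L (lP 2), IsKumClass p G hG (lP 2) k y)
    (hLinf : ∀ y ∈ L.inf, IsKumClassInf p G hG 2 k y)
    (n : ℕ) (F : Fin (n + 1) → Submodule ℤ (WRep p G hG)) (hmono : Monotone F)
    (hst : ∀ i, IsStable (WRep p G hG) (F i)) (hbot : F 0 = ⊥) (htop : F (Fin.last n) = ⊤)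
    (hcard : ∀ i : Fin n,
      Nat.card (pieceRep (WRep p G hG) (F i.castSucc) (F i.succ) (hst _) (hst _)) = 2) :
    XiLe T pp 2 (WRep p G hG) L
      (Finset.univ.filter fun i : Fin n => IsPos k (F i.castSucc) (F i.succ)).card := by
  have hsum : (Finset.univ.filter fun i : Fin n => IsPos k (F i.castSucc) (F i.succ)).card =
      ∑ i : Fin n, if IsPos k (F i.castSucc) (F i.succ) then 1 else 0 := by
    rw [Finset.card_filter]
  rw [hsum]
  refine XiLe.chain T pp 2 (WRep p G hG) hW L n F hmono hst hbot htop _ fun i => ?_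
  set H := pieceRep (WRep p G hG) (F i.castSucc) (F i.succ) (hst _) (hst _) with hH
  have hc := hcard i
  have hℓH : ∀ m : H, ((lP 2 : Nat.Primes) : ℕ) • m = 0 := fun m => by
    show 2 • m = 0
    rw [two_nsmul]
    exact add_self_eq_zero_of_card H hc m
  have hur : ∀ q ∈ T, q ≠ pp → q ≠ lP 2 →
      (pieceCond (WRep p G hG) (F i.castSucc) (F i.succ) (hst _) (hst _) L) q ≤ H1ur H q := by
    intro q hq h1 h2
    rcases hT q hq with h | h
    · exact absurd h h1
    · exact absurd h h2
  have hfl := pieceCond_unitClasses (F i.castSucc) (F i.succ) (hst _) (hst _) L (lP 2)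
    (by exact hp2) k hGl hL2 hℓH (sign2 H) (sign2_add H hc) (sign2_rho H)
  split_ifs with hpos
  · exact Fermat.Agent.M15.DevPos5.XiLe.atomPos T H (sign2 H) pp (lP 2) rfl hpT h2T hc
      (sign2_injective H hc) (sign2_add H hc) (sign2_rho H) _ hur hfl
      (pieceCond_inf_eq_zero (F i.castSucc) (F i.succ) (hst _) (hst _) L k hGl hdiv hLinf hpos)
  · exact Fermat.Agent.M15.DevMu5.XiLe.atomMu T H (sign2 H) pp (lP 2) hpp hpT h2T hc
      (sign2_injective H hc) (sign2_add H hc) (sign2_rho H) _ hur hfl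

/-- the underlying point, as a homomorphism. -/
def wvalHom : WRep p G hG →+ JZero p where
  toFun := wval p G hG
  map_zero' := rfl
  map_add' _ _ := rfl

/-- `W⁻`, as a subgroup of `W`. -/
def negSub (k : ℕ) : AddSubgroup (WRep p G hG) := (negPart p G k).comap (wvalHom (hG := hG))

theorem isPos_iff (k : ℕ) (S S' : Submodule ℤ (WRep p G hG)) :
    IsPos k S S' ↔ negSub (hG := hG) k ⊓ S'.toAddSubgroup ≤ S.toAddSubgroup := by
  constructor
  · rintro h a ⟨ha1, ha2⟩
    exact h a ha2 ha1
  · intro h a ha1 ha2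
    exact h ⟨ha2, ha1⟩

theorem card_negSub (k : ℕ) : Nat.card ↥(negSub (hG := hG) k) = Nat.card ↥(negPart p G k) := by
  refine Nat.card_congr
    { toFun := fun a => ⟨wval p G hG a.1, a.2⟩
      invFun := fun v => ⟨(⟨v.1, negPart_le p G k v.2⟩ : ↥G), v.2⟩
      left_inv := fun a => rfl
      right_inv := fun v => rfl }

theorem relIndex_eq_card_piece (S S' : Submodule ℤ (WRep p G hG))
    (hS : IsStable (WRep p G hG) S) (hS' : IsStable (WRep p G hG) S') :
    S.toAddSubgroup.relIndex S'.toAddSubgroup =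
      Nat.card (pieceRep (WRep p G hG) S S' hS hS') := rfl

open Classical in
/-- **the number of positively labelled pieces**: `2 ^ e · #W⁻ = #G`. -/
theorem pow_card_pos_mul_card_negPart (k : ℕ)
    (n : ℕ) (F : Fin (n + 1) → Submodule ℤ (WRep p G hG)) (hmono : Monotone F)
    (hst : ∀ i, IsStable (WRep p G hG) (F i)) (hbot : F 0 = ⊥) (htop : F (Fin.last n) = ⊤)
    (hcard : ∀ i : Fin n,
      Nat.card (pieceRep (WRep p G hG) (F i.castSucc) (F i.succ) (hst _) (hst _)) = 2) :
    2 ^ (Finset.univ.filter fun i : Fin n => IsPos k (F i.castSucc) (F i.succ)).card *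
      Nat.card ↥(negPart p G k) = Nat.card ↥G := by
  have key := Fermat.Agent.M15.FlatCount2.pow_card_filter_mul_card Nat.prime_two n
    (fun i => (F i).toAddSubgroup) (fun a b hab => hmono hab)
    (by show (F 0).toAddSubgroup = ⊥; rw [hbot]; rfl)
    (by show (F (Fin.last n)).toAddSubgroup = ⊤; rw [htop]; rfl)
    (fun i => by
      show (F i.castSucc).toAddSubgroup.relIndex (F i.succ).toAddSubgroup = 2
      rw [relIndex_eq_card_piece _ _ (hst _) (hst _), hcard i])
    (negSub (hG := hG) k)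
  rw [card_negSub] at key
  have hfilter : (Finset.univ.filter fun i : Fin n => IsPos k (F i.castSucc) (F i.succ)) =
      Finset.univ.filter fun i : Fin n =>
        negSub (hG := hG) k ⊓ (F i.succ).toAddSubgroup ≤ (F i.castSucc).toAddSubgroup :=
    Finset.filter_congr fun i _ => isPos_iff k _ _
  rw [hfilter]
  exact key

end Chain

/-! ### the final statement at `ℓ = 2` -/

section Final

open Fermat.Agent.M15.KumMap6 Fermat.Agent.M15.ToricTate3

variable (p : ℕ) [NeZero p] {𝕋 : Type} [Ring 𝕋] [Module 𝕋 (JZero p)]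
  [SMulCommClass Γ 𝕋 (JZero p)] (ε : 𝕋 →+* ZMod 2)

open Classical in
/-- **R3 at `ℓ = 2`**: the dévissage inequality `XiLe T pp 2 G_k kumCond (k · lam)` for every chain
of `G_k` with pieces of order `2`, given (HALF-c) in the form `rank Λ = 2 lam`, `rank Λ⁻ ≤ lam`. -/
theorem xiLe_two (hp2 : ¬ 2 ∣ p)
    (hfin : Finite {x : JZero p // 2 • x = 0}) (hcomm : CommOnTors (JZero p) 𝕋 2)
    (hdiv : ∀ x : JZero p, ∃ y : JZero p, 2 • y = x) (k lam : ℕ)
    (hrank : finrank ℤ_[2] (Lam (JZero p) ε) = 2 * lam)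
    (hneg : finrank ℤ_[2] ↥(LinearMap.ker (rhoLam (JZero p) ε complexConjugation + 1)) ≤ lam)
    (T : Finset Nat.Primes) (pp : Nat.Primes) (hpT : pp ∈ T) (h2T : lP 2 ∈ T)
    (hT : ∀ q ∈ T, q = pp ∨ q = lP 2) (hpp : pp ≠ lP 2)
    (hW : LevelCoh28.IsDiscrete (LevelBridge13.globalBasis T).sets (GRep (JZero p) ε k))
    (n : ℕ) (F : Fin (n + 1) → Submodule ℤ (GRep (JZero p) ε k)) (hmono : Monotone F)
    (hst : ∀ i, IsStable (GRep (JZero p) ε k) (F i)) (hbot : F 0 = ⊥)
    (htop : F (Fin.last n) = ⊤)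
    (hcard : ∀ i : Fin n,
      Nat.card (pieceRep (GRep (JZero p) ε k) (F i.castSucc) (F i.succ) (hst _) (hst _)) = 2) :
    XiLe T pp 2 (GRep (JZero p) ε k)
      (kumCond p (kerE (JZero p) ε k) (hGE p ε k) (lP 2) k) (k * lam) := by
  have hGl : ∀ x ∈ kerE (JZero p) ε k, 2 ^ k • x = 0 := fun x hx => hx.1
  have h1 := xiLe_two_chain (p := p) (G := kerE (JZero p) ε k) (hG := hGE p ε k) hp2 k hGl hdiv
    T pp hpT h2T hT hpp hW (kumCond p (kerE (JZero p) ε k) (hGE p ε k) (lP 2) k)
    (fun y hy => (mem_kumCond_fin_self_iff p _ (hGE p ε k) (lP 2) k y).1 hy)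
    (fun y hy => (mem_kumCond_inf_iff p _ (hGE p ε k) (lP 2) k y).1 hy)
    n F hmono hst hbot htop hcard
  refine XiLe.mono h1 (by norm_num) ?_
  -- the count
  have h2 := pow_card_pos_mul_card_negPart (p := p) (G := kerE (JZero p) ε k) (hG := hGE p ε k) k
    n F hmono hst hbot htop hcard
  have h3 : Nat.card ↥(kerE (JZero p) ε k) = 2 ^ (k * (2 * lam)) := by
    rw [← hrank]
    exact Fermat.Agent.M15.FlatNeg2.card_GRep_eq ε hfin hcomm hdiv k
  have h4 := Fermat.Agent.M15.FlatNeg2.card_negPart_le p ε hfin hcomm hdiv k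
  have h5 : Nat.card ↥(negPart p (kerE (JZero p) ε k) k) ≤ 2 ^ (k * lam) :=
    h4.trans (Nat.pow_le_pow_right (by norm_num) (Nat.mul_le_mul_left k hneg))
  rw [h3] at h2
  set e := (Finset.univ.filter fun i : Fin n => IsPos (p := p) (G := kerE (JZero p) ε k)
    (hG := hGE p ε k) k (F i.castSucc) (F i.succ)).card with he
  have h6 : 2 ^ (k * (2 * lam)) ≤ 2 ^ e * 2 ^ (k * lam) := by
    rw [← h2]
    exact Nat.mul_le_mul_left _ h5
  rw [← pow_add] at h6
  have h7 := (Nat.pow_le_pow_iff_right (by norm_num : 1 < 2)).1 h6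
  have h8 : k * (2 * lam) = k * lam + k * lam := by ring
  omega

end Final

end

end Fermat.Agent.M15.FlatTwo2
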