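/-
Programme M15 (target S15), chapter (KUM), helper6: **the standing hypotheses of (KUM) for
`J = J_0(p)(ℚ̄)`, discharged**, and the Kummer map `kumJ` of the instance.

* `redPull_smul_inertia` : helper9's `red ∘ π^*` at `(v, A)` is invariant under the inertia group;
* `unramOutside_jzero`  : `UnramOutside (JZero p) ε k T` as soon as `T` contains the primes dividing
  `p * ℓ` (inertia acts trivially after reduction + prime-to-`q` torsion injects);
* `finite_rat_tors`     : `J_0(p)(ℚ)[ℓ^∞]` is finite (`FinRed4.redPull_fin` + `RedAt9.redPull_tors` at an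
  auxiliary prime `v ∤ pℓ`);
* `finite_tors_prime`   : `J_0(p)[ℓ]` is finite;
* `kumJ`                : the Kummer map `J_0(p)(ℚ) →+ H¹(G_T, W_k)` with all hypotheses but (DIV)
  discharged; `kumJ_eq` (cocycle formula), `kumJ_eq_zero_iff` (kernel).
-/
import Mathlib
import Fermat.Agent.M15.KumInst6
import Fermat.Agent.M15.RedAt9
import Fermat.Agent.M15.FinRed4
import Fermat.Agent.ES.RED.PullbackInj12
import Fermat.Agent.Lib.FrobeniusExists

set_option autoImplicit false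
set_option linter.unusedSectionVars false
set_option linter.unusedVariables false
set_option linter.style.haveILetI false
set_option synthInstance.maxHeartbeats 400000

open CategoryTheory ExtCitation ModularCurve AlgebraicCurve

namespace Fermat.Agent.M15.KumJ6

open Fermat.Agent.PT.PRO Fermat.Agent.PT.BR Fermat.Agent.W56.Defs9
open Fermat.Agent.M15.Contracts9 Fermat.Agent.M15.KumLoc6 Fermat.Agent.M15.KumRep6
  Fermat.Agent.M15.KumMap6 Fermat.Agent.M15.KumDescent6 Fermat.Agent.M15.KumInst6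
  Fermat.Agent.M15.RedAt9
open Fermat.Agent.FF.RedIface9 Fermat.Agent.ES.HECKE.LevelPullback12 Fermat.Agent.RED.LVL
  Fermat.Agent.ES.RED Fermat.Agent.RED.Interface4

noncomputable section

variable (p : ℕ) [NeZero p]

/-! ### Inertia invariance of `red ∘ π^*` -/

theorem redPull_smul_inertia {v : ℕ} (hv : v.Prime) (hvp : ¬ v ∣ p) {A : ValuationSubring Qb}
    (hA : A.LiesOverPrime v) {τ : GQ} (hτ : τ ∈ A.inertiaSubgroupIn ℚ) (y : JZero p) :
    redPull p v hv hvp A hA (τ • y) = redPull p v hv hvp A hA y := by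
  haveI : Fact v.Prime := ⟨hv⟩
  haveI := LevelDegree17.neZero_auxLevel v p
  set m := redModel v hv A hA (auxLevel v p) (hauptLevel_auxLevel hv hvp) with hm
  show m.red hA (levelPullback (dvd_auxLevel v p) (τ • y)) =
    m.red hA (levelPullback (dvd_auxLevel v p) y)
  rw [PullbackInj12.levelPullback_smul (dvd_auxLevel v p) τ y]
  exact m.red_smul_inertia hA hτ _

/-! ### `UnramOutside` -/

/-- no ramification outside `T ⊇ {primes dividing p ℓ}` in the direction of `ℓ`-power torsion. -/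
theorem unramOutside_jzero {𝕋 : Type} [Ring 𝕋] [Module 𝕋 (JZero p)]
    [SMulCommClass GQ 𝕋 (JZero p)] {ℓ : ℕ} [Fact ℓ.Prime] (ε : 𝕋 →+* ZMod ℓ) (k : ℕ)
    (T : Finset Nat.Primes) (hT : ∀ q : Nat.Primes, (q : ℕ) ∣ p * ℓ → q ∈ T) :
    UnramOutside (JZero p) ε k T := by
  intro q hq A hA σ hσ y hy
  have hℓ : ℓ.Prime := Fact.out
  have hqpl : ¬ (q : ℕ) ∣ p * ℓ := fun h => hq (hT q h)
  have hqp : ¬ (q : ℕ) ∣ p := fun h => hqpl (Dvd.dvd.mul_right h ℓ)
  have hqℓ : ¬ (q : ℕ) ∣ ℓ ^ k := fun h => hqpl (Dvd.dvd.mul_left (q.2.dvd_of_dvd_pow h) p)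
  refine redPull_tors p q.2 hqp hA (ℓ ^ k) _ hqℓ hy.1 ?_
  rw [map_sub, redPull_smul_inertia p q.2 hqp hA hσ y, sub_self]

/-! ### Finiteness -/

theorem finite_tors_prime (ℓ : ℕ) [Fact ℓ.Prime] : Finite {x : JZero p // ℓ • x = 0} :=
  haveI : NeZero ℓ := ⟨(Fact.out : ℓ.Prime).ne_zero⟩
  finite_tors_jzero p ℓ

/-- `J_0(p)(ℚ)[ℓ^∞]` is finite. -/
theorem finite_rat_tors (ℓ : ℕ) [Fact ℓ.Prime] :
    Finite {x : JZero p // (∀ g : GQ, g • x = x) ∧ ∃ j : ℕ, ℓ ^ j • x = 0} := by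
  have hℓ : ℓ.Prime := Fact.out
  obtain ⟨v, hvge, hv⟩ := Nat.exists_infinite_primes (p + ℓ + 1)
  have hp0 : 0 < p := Nat.pos_of_ne_zero (NeZero.ne p)
  have hvp : ¬ v ∣ p := fun h => by
    have := Nat.le_of_dvd hp0 h
    omega
  have hvℓ : ∀ j : ℕ, ¬ v ∣ ℓ ^ j := fun j h => by
    have h1 := (Nat.prime_dvd_prime_iff_eq hv hℓ).1 (hv.dvd_of_dvd_pow h)
    omega
  obtain ⟨A, hA⟩ := Fermat.Agent.Lib.FrobeniusExists.exists_valuationSubring_liesOverPrime v hv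
  have hfin := Fermat.Agent.M15.FinRed4.redPull_fin p hv hvp hA
  haveI := hfin.to_subtype
  let f : {x : JZero p // (∀ g : GQ, g • x = x) ∧ ∃ j : ℕ, ℓ ^ j • x = 0} →
      ↥(Set.range fun z : ratSubgroup p => redPull p v hv hvp A hA z) :=
    fun x => ⟨redPull p v hv hvp A hA x.1, ⟨⟨x.1, x.2.1⟩, rfl⟩⟩
  refine Finite.of_injective f ?_
  rintro ⟨x, hx, j, hj⟩ ⟨x', hx', j', hj'⟩ h
  have h' : redPull p v hv hvp A hA x = redPull p v hv hvp A hA x' := Subtype.ext_iff.1 h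
  apply Subtype.ext
  show x = x'
  have htor : ℓ ^ (j + j') • (x - x') = 0 := by
    rw [nsmul_sub, pow_add, mul_nsmul x, hj, nsmul_zero, mul_nsmul' x', hj', nsmul_zero, sub_zero]
  have hz : redPull p v hv hvp A hA (x - x') = 0 := by rw [map_sub, h', sub_self]
  exact sub_eq_zero.1 (redPull_tors p hv hvp hA (ℓ ^ (j + j')) _ (hvℓ _) htor hz)

/-! ### The Kummer map of the instance -/

section Kum

variable (hp : p.Prime) (P0 Pinf : Pl p) (hcusp : CuspFacts p P0 Pinf)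
  (ℓ : ℕ) [Fact ℓ.Prime] (hℓ : ℓ ∣ addOrderOf (cl p P0 Pinf))
  (T : Finset Nat.Primes) (hT : ∀ q : Nat.Primes, (q : ℕ) ∣ p * ℓ → q ∈ T)
  (hdiv : ∀ x : JZero p, ∃ y : JZero p, ℓ • y = x) (k : ℕ)

/-- **the `ε`-part of the `ℓ^k`-Kummer map of `J_0(p)`**, `J_0(p)(ℚ) →+ H¹(G_T, W_k)`. -/
def kumJ : ↥(fixedPts (JZero p)) →+ H1g T (Wk p P0 Pinf hcusp ℓ hp hℓ k) :=
  kum (epsChar p P0 Pinf hcusp ℓ hp hℓ) k T (isSmoothAct_jzero p) hdiv (finite_tors_prime p ℓ)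
    (commOnTors p hp ℓ) (unramOutside_jzero p _ k T hT)

/-- (KUM-1) the cocycle formula. -/
theorem kumJ_eq (x : ↥(fixedPts (JZero p))) (z : JZero p) (hz : ℓ ^ k • z = (x : JZero p))
    (e : ↥(heckeRing p)) (he : IsProjK (JZero p) (epsChar p P0 Pinf hcusp ℓ hp hℓ) k e) :
    ∃ c : ↥(LevelCoh28.Z1 (LevelBridge13.globalBasis T) (Wk p P0 Pinf hcusp ℓ hp hℓ k)),
      (∀ σ : GQ, gval (JZero p) (epsChar p P0 Pinf hcusp ℓ hp hℓ) k (c.1 σ) = e • (σ • z - z)) ∧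
        kumJ p hp P0 Pinf hcusp ℓ hℓ T hT hdiv k x = LevelCoh28.H1mk _ _ c :=
  kum_eq _ k T _ hdiv _ _ _ x z hz e he.mem he.id

/-- (KUM-2) the kernel. -/
theorem kumJ_eq_zero_iff (x : ↥(fixedPts (JZero p))) :
    kumJ p hp P0 Pinf hcusp ℓ hℓ T hT hdiv k x = 0 ↔
      ∃ s : ↥(heckeRing p), epsChar p P0 Pinf hcusp ℓ hp hℓ s ≠ 0 ∧ ∃ m : JZero p,
        (∀ g : GQ, g • m = m) ∧ s • (x : JZero p) = ℓ ^ k • m :=
  kum_eq_zero_iff _ k T _ hdiv _ _ _ x

end Kum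

end

end Fermat.Agent.M15.KumJ6
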