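/-
Programme M15 (target S15), chapter (KUM), helper6: **the assembly** `SharpDescent6`.

`(kum_k(J(ℚ)) ⊆ H¹_L(G_T, W_k))` (R3 + WIRE) `+ XiLe T p ℓ W_k L_k (k·lam)` (DEV + R3)
`+ ToricBound … p lam` (R2)  `⇒  SharpDescent p P0 Pinf ℓ`  (Contracts9, literally).

* `card_range_kum_le_of_xiLe` (generic `J`, `𝕋`, `ε`): the dévissage inequality and the toric bound at
  one level give helper3's bounded defect `#kum_k(M) ≤ C · #H⁰(ℚ, G_k)`;
* `sharpDescent_of_xiLe` : the instance `J = J_0(p)`, `𝕋 = heckeRing p`, `ε = epsChar`.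
The only hypotheses left are the named contracts of the other chapters and (DIV) at `ℓ`.
-/
import Mathlib
import Fermat.Agent.M15.KumJ6
import Fermat.Agent.M15.ToricTate3

set_option autoImplicit false
set_option linter.unusedSectionVars false
set_option linter.unusedVariables false
set_option linter.style.haveILetI false
set_option synthInstance.maxHeartbeats 400000

open CategoryTheory ExtCitation ModularCurve AlgebraicCurve

namespace Fermat.Agent.M15.SharpDescent6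

open Fermat.Agent.PT.PRO Fermat.Agent.PT.BR Fermat.Agent.W56.Defs9
open Fermat.Agent.M15.Contracts9 Fermat.Agent.M15.KumLoc6 Fermat.Agent.M15.KumRep6
  Fermat.Agent.M15.KumMap6 Fermat.Agent.M15.KumDescent6 Fermat.Agent.M15.KumInst6
  Fermat.Agent.M15.KumJ6 Fermat.Agent.M15.DevDefs5 Fermat.Agent.M15.ToricTate3

noncomputable section

/-! ### The bounded defect from the dévissage (generic) -/

section Generic

variable {J : Type} [AddCommGroup J] [DistribMulAction GQ J]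
  {𝕋 : Type} [Ring 𝕋] [Module 𝕋 J] [SMulCommClass GQ 𝕋 J] {ℓ : ℕ} [Fact ℓ.Prime]
  (ε : 𝕋 →+* ZMod ℓ) (k : ℕ) (T : Finset Nat.Primes)
  (hsm : IsSmoothAct J) (hdiv : ∀ x : J, ∃ y : J, ℓ • y = x)
  (hfin : Finite {x : J // ℓ • x = 0}) (hcomm : CommOnTors J 𝕋 ℓ) (hunr : UnramOutside J ε k T)

/-- `XiLe` + the toric inequality at level `k` ⇒ `#kum_k(M) ≤ C · #H⁰(ℚ, G_k)`, and `kum_k(M)` is
finite. -/
theorem card_range_kum_le_of_xiLe (pp : Nat.Primes) (e C : ℕ) (L : LocCond (GRep J ε k))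
    (hSel : ∀ x : ↥(fixedPts J), kum ε k T hsm hdiv hfin hcomm hunr x ∈ SelL T (GRep J ε k) L)
    (hXi : XiLe T pp ℓ (GRep J ε k) L e)
    (hTB : Nat.card ↥(ramL (GRep J ε k) L pp) * Nat.card (GRep J ε k) ≤
      C * ℓ ^ e * Nat.card ↥(DevDefs5.H0I (GRep J ε k) pp)) :
    (Set.range (kum ε k T hsm hdiv hfin hcomm hunr)).Finite ∧
      Nat.card ↥(Set.range (kum ε k T hsm hdiv hfin hcomm hunr)) ≤
        C * Nat.card {x : J // (∀ g : GQ, g • x = x) ∧ x ∈ kerE J ε k} := by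
  have hℓ : ℓ.Prime := Fact.out
  haveI := hXi.finM
  haveI := hXi.finSel
  have hsub : Set.range (kum ε k T hsm hdiv hfin hcomm hunr) ⊆
      ((SelL T (GRep J ε k) L : Submodule ℤ (H1g T (GRep J ε k))) : Set (H1g T (GRep J ε k))) := by
    rintro _ ⟨x, rfl⟩
    exact hSel x
  have hfinS : ((SelL T (GRep J ε k) L : Submodule ℤ (H1g T (GRep J ε k))) :
      Set (H1g T (GRep J ε k))).Finite := Set.toFinite _
  refine ⟨hfinS.subset hsub, ?_⟩
  have h1 : Nat.card ↥(Set.range (kum ε k T hsm hdiv hfin hcomm hunr)) ≤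
      Nat.card ↥(SelL T (GRep J ε k) L) := Nat.card_mono hfinS hsub
  have hH0 : Nat.card ↥(DevDefs5.H0 (GRep J ε k)) =
      Nat.card {x : J // (∀ g : GQ, g • x = x) ∧ x ∈ kerE J ε k} :=
    Nat.card_congr (h0Equiv ε k)
  set S := Nat.card ↥(SelL T (GRep J ε k) L) with hS
  set a := ℓ ^ e with ha
  set h := Nat.card ↥(DevDefs5.H0I (GRep J ε k) pp) with hh
  set z := Nat.card ↥(DevDefs5.H0 (GRep J ε k)) with hz
  set r := Nat.card ↥(ramL (GRep J ε k) L pp) with hr
  set w := Nat.card (GRep J ε k) with hw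
  have hle : S * a * h ≤ z * r * w := hXi.le
  have hapos : 0 < a := pow_pos hℓ.pos e
  have hhpos : 0 < h := Nat.card_pos
  have h2 : S * (a * h) ≤ (C * z) * (a * h) := by
    calc S * (a * h) = S * a * h := by ring
      _ ≤ z * r * w := hle
      _ = z * (r * w) := by ring
      _ ≤ z * (C * a * h) := Nat.mul_le_mul_left z hTB
      _ = (C * z) * (a * h) := by ring
  have h3 : S ≤ C * z := Nat.le_of_mul_le_mul_right h2 (Nat.mul_pos hapos hhpos)
  rw [← hH0]
  exact h1.trans h3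

end Generic

/-! ### The assembly -/

/-- **(SD) from the contracts of DEV, R2, R3 and (DIV)**.
`T ⊇ {primes dividing p ℓ}`, `pp` the prime `p`, `L k` any family of local conditions such that the
Kummer classes are Selmer classes and the dévissage inequality holds with exponent `k * lam`, `lam`
the exponent of R2's toric bound. -/
theorem sharpDescent_of_xiLe (p : ℕ) [NeZero p] (hp : p.Prime) (P0 Pinf : Pl p)
    (hcusp : CuspFacts p P0 Pinf) (ℓ : ℕ) [Fact ℓ.Prime] (hℓ : ℓ ∣ addOrderOf (cl p P0 Pinf))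
    (T : Finset Nat.Primes) (hT : ∀ q : Nat.Primes, (q : ℕ) ∣ p * ℓ → q ∈ T)
    (hdiv : ∀ x : JZero p, ∃ y : JZero p, ℓ • y = x)
    (pp : Nat.Primes) (lam : ℕ)
    (L : ∀ k : ℕ, LocCond (Wk p P0 Pinf hcusp ℓ hp hℓ k))
    (hSel : ∀ (k : ℕ) (x : ↥(fixedPts (JZero p))),
      kumJ p hp P0 Pinf hcusp ℓ hℓ T hT hdiv k x ∈ SelL T (Wk p P0 Pinf hcusp ℓ hp hℓ k) (L k))
    (hXi : ∀ k : ℕ, XiLe T pp ℓ (Wk p P0 Pinf hcusp ℓ hp hℓ k) (L k) (k * lam))
    (hTB : ToricBound (JZero p) (epsChar p P0 Pinf hcusp ℓ hp hℓ) pp lam) :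
    SharpDescent p P0 Pinf ℓ := by
  obtain ⟨C, -, hC⟩ := hTB
  have key := fun k : ℕ => card_range_kum_le_of_xiLe (epsChar p P0 Pinf hcusp ℓ hp hℓ) k T
    (isSmoothAct_jzero p) hdiv (finite_tors_prime p ℓ) (commOnTors p hp ℓ)
    (unramOutside_jzero p _ k T hT) pp (k * lam) C (L k) (hSel k) (hXi k) (hC k (L k))
  exact sharpDescent_of_bdd p hp P0 Pinf hcusp ℓ hℓ T hdiv
    (fun k => unramOutside_jzero p _ k T hT) (finite_rat_tors p ℓ) C
    (fun k => (key k).1) (fun k => (key k).2)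

end

end Fermat.Agent.M15.SharpDescent6
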