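/-
Programme M15 (target S15), chapter R3 FLAT (helper2): **the assembly at `ℓ = 2`**, in the vocabulary of
`SharpDescent6.sharpDescent_of_xiLe` (`Wk`, `kumJ`, `ToricBound`).

`T = {p, 2}`, `L k = FlatCond2.kumCond` (Kummer type at `2` and at the real place, nothing at `p`).

* `xiLe_two_Wk` : `XiLe T p 2 (Wk … k) (L k) (k * lam)` from a chain of `Wk … k` with pieces of order `2`
  (helper5's (JH)) and (HALF-c) `rank Λ = 2 lam`, `rank Λ⁻ ≤ lam`;
* `sharpDescent_two` : `Contracts9.SharpDescent p P0 Pinf 2` from (JH) chains at every level, (HALF-c) and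
  R2's `ToricBound … lam`.  ((DIV) = `DivFinal4.jzero_divisible` is plugged in.)
-/
import Mathlib
import Fermat.Agent.M15.SharpDescent6
import Fermat.Agent.M15.DivFinal4
import Fermat.Agent.M15.FlatTwo2

set_option autoImplicit false
set_option linter.unusedSectionVars false
set_option linter.style.haveILetI false
set_option synthInstance.maxHeartbeats 400000

open CategoryTheory ExtCitation AlgebraicCurve ModularCurve Module

namespace Fermat.Agent.M15.FlatFinal2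

open Fermat.Agent.PT.PRO Fermat.Agent.PT.BR Fermat.Agent.W56.Defs9
open Fermat.Agent.M15.Contracts9 Fermat.Agent.M15.KumLoc6 Fermat.Agent.M15.KumRep6
  Fermat.Agent.M15.KumMap6 Fermat.Agent.M15.KumInst6 Fermat.Agent.M15.KumJ6
  Fermat.Agent.M15.DevDefs5 Fermat.Agent.M15.DevChain5 Fermat.Agent.M15.ToricTate3
  Fermat.Agent.M15.FlatCond2 Fermat.Agent.M15.FlatTwo2

local notation "Γ" => (AlgebraicClosure ℚ ≃ₐ[ℚ] AlgebraicClosure ℚ)

noncomputable section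

variable (p : ℕ) [NeZero p] (hp : p.Prime) (P0 Pinf : Pl p) (hcusp : CuspFacts p P0 Pinf)
  (h2 : 2 ∣ addOrderOf (cl p P0 Pinf))

/-- `T = {p, 2}`. -/
def T2 : Finset Nat.Primes := {⟨p, hp⟩, lP 2}

theorem mem_T2_of_dvd (q : Nat.Primes) (hq : (q : ℕ) ∣ p * 2) : q ∈ T2 p hp := by
  unfold T2
  rw [Finset.mem_insert, Finset.mem_singleton]
  rcases (Nat.Prime.dvd_mul q.2).1 hq with h | h
  · left
    exact Subtype.ext ((Nat.prime_dvd_prime_iff_eq q.2 hp).1 h)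
  · right
    exact Subtype.ext ((Nat.prime_dvd_prime_iff_eq q.2 Nat.prime_two).1 h)

/-- (DIV) at `2`. -/
theorem hdiv2 : ∀ x : JZero p, ∃ y : JZero p, 2 • y = x :=
  fun x => Fermat.Agent.M15.DivFinal4.jzero_divisible p 2 two_ne_zero x

/-- **the dévissage inequality at `ℓ = 2`** for `Wk`. -/
theorem xiLe_two_Wk (hp2 : p ≠ 2) (k lam : ℕ)
    (hrank : finrank ℤ_[2] (Lam (JZero p) (epsChar p P0 Pinf hcusp 2 hp h2)) = 2 * lam)
    (hneg : finrank ℤ_[2] ↥(LinearMap.ker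
      (rhoLam (JZero p) (epsChar p P0 Pinf hcusp 2 hp h2) complexConjugation + 1)) ≤ lam)
    (n : ℕ) (F : Fin (n + 1) → Submodule ℤ (Wk p P0 Pinf hcusp 2 hp h2 k)) (hmono : Monotone F)
    (hst : ∀ i, IsStable (Wk p P0 Pinf hcusp 2 hp h2 k) (F i)) (hbot : F 0 = ⊥)
    (htop : F (Fin.last n) = ⊤)
    (hcard : ∀ i : Fin n, Nat.card
      (pieceRep (Wk p P0 Pinf hcusp 2 hp h2 k) (F i.castSucc) (F i.succ) (hst _) (hst _)) = 2) :
    XiLe (T2 p hp) ⟨p, hp⟩ 2 (Wk p P0 Pinf hcusp 2 hp h2 k)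
      (kumCond p (kerE (JZero p) (epsChar p P0 Pinf hcusp 2 hp h2) k)
        (hGE p (epsChar p P0 Pinf hcusp 2 hp h2) k) (lP 2) k) (k * lam) := by
  have hp2' : ¬ 2 ∣ p := fun h => hp2 ((Nat.prime_dvd_prime_iff_eq Nat.prime_two hp).1 h).symm
  have hpp : (⟨p, hp⟩ : Nat.Primes) ≠ lP 2 := fun h => hp2 (congrArg Subtype.val h)
  refine xiLe_two p (epsChar p P0 Pinf hcusp 2 hp h2) hp2' (finite_tors_prime p 2)
    (commOnTors p hp 2) (hdiv2 p) k lam hrank hneg (T2 p hp) ⟨p, hp⟩ ?_ ?_ ?_ hpp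
    (isDiscrete_GRep _ (isSmoothAct_jzero p) k (T2 p hp)
      (unramOutside_jzero p _ k (T2 p hp) (mem_T2_of_dvd p hp)))
    n F hmono hst hbot htop hcard
  · unfold T2; simp
  · unfold T2; simp
  · intro q hq
    unfold T2 at hq
    rw [Finset.mem_insert, Finset.mem_singleton] at hq
    exact hq

/-- **(SD) at `ℓ = 2`** from (JH) chains, (HALF-c) and R2's toric bound. -/
theorem sharpDescent_two (hp2 : p ≠ 2) (lam : ℕ)
    (hrank : finrank ℤ_[2] (Lam (JZero p) (epsChar p P0 Pinf hcusp 2 hp h2)) = 2 * lam)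
    (hneg : finrank ℤ_[2] ↥(LinearMap.ker
      (rhoLam (JZero p) (epsChar p P0 Pinf hcusp 2 hp h2) complexConjugation + 1)) ≤ lam)
    (hJH : ∀ k : ℕ, ∃ (n : ℕ) (F : Fin (n + 1) → Submodule ℤ (Wk p P0 Pinf hcusp 2 hp h2 k))
      (_ : Monotone F) (hst : ∀ i, IsStable (Wk p P0 Pinf hcusp 2 hp h2 k) (F i)),
      F 0 = ⊥ ∧ F (Fin.last n) = ⊤ ∧ ∀ i : Fin n, Nat.card
        (pieceRep (Wk p P0 Pinf hcusp 2 hp h2 k) (F i.castSucc) (F i.succ) (hst _) (hst _)) = 2)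
    (hTB : ToricBound (JZero p) (epsChar p P0 Pinf hcusp 2 hp h2) ⟨p, hp⟩ lam) :
    SharpDescent p P0 Pinf 2 := by
  refine Fermat.Agent.M15.SharpDescent6.sharpDescent_of_xiLe p hp P0 Pinf hcusp 2 h2 (T2 p hp)
    (mem_T2_of_dvd p hp) (hdiv2 p) ⟨p, hp⟩ lam
    (fun k => kumCond p (kerE (JZero p) (epsChar p P0 Pinf hcusp 2 hp h2) k)
      (hGE p (epsChar p P0 Pinf hcusp 2 hp h2) k) (lP 2) k)
    (fun k x => kumJ_mem_SelL p hp P0 Pinf hcusp 2 h2 (T2 p hp) (mem_T2_of_dvd p hp) (hdiv2 p) k x)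
    (fun k => ?_) hTB
  obtain ⟨n, F, hmono, hst, hbot, htop, hcard⟩ := hJH k
  exact xiLe_two_Wk p hp P0 Pinf hcusp h2 hp2 k lam hrank hneg n F hmono hst hbot htop hcard

end

end Fermat.Agent.M15.FlatFinal2
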