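/-
Programme M15 (target S15), chapter R3 FLAT (helper2): **the dévissage inequality at an odd `ℓ`** along a
labelled chain, and the assembly `sharpDescent_odd`.

`W = WRep p G hG`, `G` killed by `ℓ ^ k`, `ℓ ∤ 2p`, `T = {pp, ℓ}`, `L` with classes of Kummer type at `ℓ`.
For a chain `F` with pieces of order `ℓ`, each piece either with trivial `Γ`-action (label `triv i`) or
embedded `Γ`-equivariantly in `ℚ̄ˣ`:
* `xiLe_odd_chain` : `XiLe T pp ℓ W L #{i | triv i}`  (`XiLe.atomEt` on the trivial pieces with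
  `FlatPiece2.pieceCond_le_H1ur`, `XiLe.atomMu` on the others with `FlatPiece2.pieceCond_unitClasses`);
* `sharpDescent_odd` : `Contracts9.SharpDescent p P0 Pinf ℓ` from labelled chains with at least `k · lam`
  trivial pieces at every level `k` (helper5's (JH) + (JH-count)) and R2's `ToricBound … lam`.
-/
import Mathlib
import Fermat.Agent.M15.SharpDescent6
import Fermat.Agent.M15.DivFinal4
import Fermat.Agent.M15.FlatTwo2

set_option autoImplicit false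
set_option linter.unusedSectionVars false
set_option linter.style.haveILetI false
set_option synthInstance.maxHeartbeats 400000

open CategoryTheory ExtCitation AlgebraicCurve ModularCurve Module

namespace Fermat.Agent.M15.FlatOdd2

open Fermat.Agent.PT.PRO Fermat.Agent.PT.BR Fermat.Agent.W56.Defs9
open Fermat.Agent.M15.Contracts9 Fermat.Agent.M15.KumLoc6 Fermat.Agent.M15.KumRep6
  Fermat.Agent.M15.KumMap6 Fermat.Agent.M15.KumInst6 Fermat.Agent.M15.KumJ6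
  Fermat.Agent.M15.DevDefs5 Fermat.Agent.M15.DevChain5 Fermat.Agent.M15.ToricTate3
  Fermat.Agent.M15.FlatBridge2 Fermat.Agent.M15.FlatPiece2
  Fermat.Agent.M15.FlatCond2 Fermat.Agent.M15.FlatTwo2

local notation "Γ" => (AlgebraicClosure ℚ ≃ₐ[ℚ] AlgebraicClosure ℚ)
local notation "Qbar" => AlgebraicClosure ℚ

noncomputable section

section Chain

variable {p : ℕ} [NeZero p] {G : AddSubgroup (JZero p)} {hG : ∀ g : Γ, ∀ x ∈ G, g • x ∈ G}

/-- **the dévissage inequality at an odd `ℓ` along a labelled chain.** -/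
theorem xiLe_odd_chain (ℓ : Nat.Primes) (hℓ2 : (ℓ : ℕ) ≠ 2) (hℓp : ¬ (ℓ : ℕ) ∣ p) (k : ℕ)
    (hGl : ∀ x ∈ G, (ℓ : ℕ) ^ k • x = 0)
    (T : Finset Nat.Primes) (pp : Nat.Primes) (hpT : pp ∈ T) (hℓT : ℓ ∈ T)
    (hT : ∀ q ∈ T, q = pp ∨ q = ℓ) (hpp : pp ≠ ℓ)
    (hW : LevelCoh28.IsDiscrete (LevelBridge13.globalBasis T).sets (WRep p G hG))
    (L : LocCond (WRep p G hG))
    (hL : ∀ y ∈ L ℓ, IsKumClass p G hG ℓ k y)
    (n : ℕ) (F : Fin (n + 1) → Submodule ℤ (WRep p G hG)) (hmono : Monotone F)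
    (hst : ∀ i, IsStable (WRep p G hG) (F i)) (hbot : F 0 = ⊥) (htop : F (Fin.last n) = ⊤)
    (hcard : ∀ i : Fin n,
      Nat.card (pieceRep (WRep p G hG) (F i.castSucc) (F i.succ) (hst _) (hst _)) = (ℓ : ℕ))
    (triv : Fin n → Prop) [DecidablePred triv]
    (htriv : ∀ i : Fin n, triv i → ∀ (σ : Γ)
      (m : pieceRep (WRep p G hG) (F i.castSucc) (F i.succ) (hst _) (hst _)),
      (pieceRep (WRep p G hG) (F i.castSucc) (F i.succ) (hst _) (hst _)).ρ σ m = m)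
    (hmu : ∀ i : Fin n, ¬ triv i →
      ∃ j : pieceRep (WRep p G hG) (F i.castSucc) (F i.succ) (hst _) (hst _) → Qbarˣ,
        Function.Injective j ∧ (∀ a b, j (a + b) = j a * j b) ∧
        ∀ (σ : Γ) (m : pieceRep (WRep p G hG) (F i.castSucc) (F i.succ) (hst _) (hst _)),
          ((j ((pieceRep (WRep p G hG) (F i.castSucc) (F i.succ) (hst _) (hst _)).ρ σ m) :
            Qbarˣ) : Qbar) = σ ((j m : Qbarˣ) : Qbar)) :
    XiLe T pp (ℓ : ℕ) (WRep p G hG) L (Finset.univ.filter triv).card := by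
  haveI : Fact (ℓ : ℕ).Prime := ⟨ℓ.2⟩
  have hsum : (Finset.univ.filter triv).card = ∑ i : Fin n, if triv i then 1 else 0 := by
    rw [Finset.card_filter]
  rw [hsum]
  refine XiLe.chain T pp (ℓ : ℕ) (WRep p G hG) hW L n F hmono hst hbot htop _ fun i => ?_
  set H := pieceRep (WRep p G hG) (F i.castSucc) (F i.succ) (hst _) (hst _) with hH
  have hc := hcard i
  have hℓH : ∀ m : H, (ℓ : ℕ) • m = 0 := fun m => by
    rw [← hc]
    exact card_nsmul_eq_zero'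
  split_ifs with ht
  · refine Fermat.Agent.M15.DevEt5.XiLe.atomEt T H pp hpT (ℓ : ℕ) hc (htriv i ht) _ ?_
    intro q hq hqp
    rcases hT q hq with h | h
    · exact absurd h hqp
    · subst h
      exact pieceCond_le_H1ur (F i.castSucc) (F i.succ) (hst _) (hst _) L q hℓ2 hℓp k hGl hL
        (fun τ _ m => htriv i ht τ m)
  · obtain ⟨j, hj_inj, hj_add, hj_eq⟩ := hmu i ht
    refine Fermat.Agent.M15.DevMu5.XiLe.atomMu T H j pp ℓ hpp hpT hℓT hc hj_inj hj_add hj_eq _ ?_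
      (pieceCond_unitClasses (F i.castSucc) (F i.succ) (hst _) (hst _) L ℓ hℓp k hGl hL hℓH j
        hj_add hj_eq)
    intro q hq h1 h2
    rcases hT q hq with h | h
    · exact absurd h h1
    · exact absurd h h2

end Chain

/-! ### the assembly -/

section Final

variable (p : ℕ) [NeZero p] (hp : p.Prime) (P0 Pinf : Pl p) (hcusp : CuspFacts p P0 Pinf)
  (ℓ : ℕ) [hℓ : Fact ℓ.Prime] (hℓd : ℓ ∣ addOrderOf (cl p P0 Pinf))

/-- `T = {p, ℓ}`. -/
def Tl : Finset Nat.Primes := {⟨p, hp⟩, lP ℓ}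

theorem mem_Tl_of_dvd (q : Nat.Primes) (hq : (q : ℕ) ∣ p * ℓ) : q ∈ Tl p hp ℓ := by
  unfold Tl
  rw [Finset.mem_insert, Finset.mem_singleton]
  rcases (Nat.Prime.dvd_mul q.2).1 hq with h | h
  · left
    exact Subtype.ext ((Nat.prime_dvd_prime_iff_eq q.2 hp).1 h)
  · right
    exact Subtype.ext ((Nat.prime_dvd_prime_iff_eq q.2 hℓ.out).1 h)

/-- (DIV) at `ℓ`. -/
theorem hdivl : ∀ x : JZero p, ∃ y : JZero p, ℓ • y = x :=
  fun x => Fermat.Agent.M15.DivFinal4.jzero_divisible p ℓ hℓ.out.ne_zero x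

/-- **(SD) at an odd `ℓ`** from labelled (JH) chains with at least `k · lam` trivial pieces and R2's
toric bound. -/
theorem sharpDescent_odd (hℓ2 : ℓ ≠ 2) (hℓp : ℓ ≠ p) (lam : ℕ)
    (hJH : ∀ k : ℕ, ∃ (n : ℕ) (F : Fin (n + 1) → Submodule ℤ (Wk p P0 Pinf hcusp ℓ hp hℓd k))
      (_ : Monotone F) (hst : ∀ i, IsStable (Wk p P0 Pinf hcusp ℓ hp hℓd k) (F i))
      (triv : Fin n → Prop) (_ : DecidablePred triv),
      F 0 = ⊥ ∧ F (Fin.last n) = ⊤ ∧
      (∀ i : Fin n, Nat.card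
        (pieceRep (Wk p P0 Pinf hcusp ℓ hp hℓd k) (F i.castSucc) (F i.succ) (hst _) (hst _)) = ℓ) ∧
      (∀ i : Fin n, triv i → ∀ (σ : Γ)
        (m : pieceRep (Wk p P0 Pinf hcusp ℓ hp hℓd k) (F i.castSucc) (F i.succ) (hst _) (hst _)),
        (pieceRep (Wk p P0 Pinf hcusp ℓ hp hℓd k) (F i.castSucc) (F i.succ) (hst _) (hst _)).ρ σ m
          = m) ∧
      (∀ i : Fin n, ¬ triv i →
        ∃ j : pieceRep (Wk p P0 Pinf hcusp ℓ hp hℓd k) (F i.castSucc) (F i.succ) (hst _) (hst _) →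
            Qbarˣ,
          Function.Injective j ∧ (∀ a b, j (a + b) = j a * j b) ∧
          ∀ (σ : Γ) (m : pieceRep (Wk p P0 Pinf hcusp ℓ hp hℓd k) (F i.castSucc) (F i.succ)
              (hst _) (hst _)),
            ((j ((pieceRep (Wk p P0 Pinf hcusp ℓ hp hℓd k) (F i.castSucc) (F i.succ) (hst _)
              (hst _)).ρ σ m) : Qbarˣ) : Qbar) = σ ((j m : Qbarˣ) : Qbar)) ∧
      k * lam ≤ (Finset.univ.filter triv).card)
    (hTB : ToricBound (JZero p) (epsChar p P0 Pinf hcusp ℓ hp hℓd) ⟨p, hp⟩ lam) :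
    SharpDescent p P0 Pinf ℓ := by
  have hℓp' : ¬ ℓ ∣ p := fun h => hℓp ((Nat.prime_dvd_prime_iff_eq hℓ.out hp).1 h)
  have hpp : (⟨p, hp⟩ : Nat.Primes) ≠ lP ℓ := fun h => hℓp (congrArg Subtype.val h).symm
  refine Fermat.Agent.M15.SharpDescent6.sharpDescent_of_xiLe p hp P0 Pinf hcusp ℓ hℓd (Tl p hp ℓ)
    (mem_Tl_of_dvd p hp ℓ) (hdivl p ℓ) ⟨p, hp⟩ lam
    (fun k => kumCond p (kerE (JZero p) (epsChar p P0 Pinf hcusp ℓ hp hℓd) k)
      (hGE p (epsChar p P0 Pinf hcusp ℓ hp hℓd) k) (lP ℓ) k)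
    (fun k x => kumJ_mem_SelL p hp P0 Pinf hcusp ℓ hℓd (Tl p hp ℓ) (mem_Tl_of_dvd p hp ℓ)
      (hdivl p ℓ) k x)
    (fun k => ?_) hTB
  obtain ⟨n, F, hmono, hst, triv, hdec, hbot, htop, hcard, htriv, hmu, hcount⟩ := hJH k
  have hGl : ∀ x ∈ kerE (JZero p) (epsChar p P0 Pinf hcusp ℓ hp hℓd) k,
      ((lP ℓ : Nat.Primes) : ℕ) ^ k • x = 0 := fun x hx => hx.1
  have h1 := xiLe_odd_chain (p := p) (G := kerE (JZero p) (epsChar p P0 Pinf hcusp ℓ hp hℓd) k)
    (hG := hGE p (epsChar p P0 Pinf hcusp ℓ hp hℓd) k) (lP ℓ) hℓ2 hℓp' k hGl (Tl p hp ℓ) ⟨p, hp⟩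
    (by unfold Tl; simp) (by unfold Tl; simp)
    (fun q hq => by
      unfold Tl at hq
      rw [Finset.mem_insert, Finset.mem_singleton] at hq
      exact hq) hpp
    (isDiscrete_GRep _ (isSmoothAct_jzero p) k (Tl p hp ℓ)
      (unramOutside_jzero p _ k (Tl p hp ℓ) (mem_Tl_of_dvd p hp ℓ)))
    (kumCond p (kerE (JZero p) (epsChar p P0 Pinf hcusp ℓ hp hℓd) k)
      (hGE p (epsChar p P0 Pinf hcusp ℓ hp hℓd) k) (lP ℓ) k)
    (fun y hy => (mem_kumCond_fin_self_iff p _ (hGE p _ k) (lP ℓ) k y).1 hy)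
    n F hmono hst hbot htop hcard triv htriv hmu
  exact XiLe.mono h1 hℓ.out.pos hcount

end Final

end

end Fermat.Agent.M15.FlatOdd2
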