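/-
Programme M15 (target S15), chapter R3 FLAT (helper2): **the two assemblies of (SD) in the vocabulary of
`SDOdd0.JHChain`** (lead's labelled Jordan–Hölder chains).

* `sharpDescent_odd_of_chain` : `ℓ` odd, `ℓ ≠ p`: chains `c_k : JHChain ℓ (Wk … k)` with
  `k * lam ≤ c_k.numTriv` + `ToricBound … lam` ⇒ `SharpDescent p P0 Pinf ℓ`;
* `sharpDescent_two_of_chain` : `ℓ = 2`: ANY chains `c_k : JHChain 2 (Wk … k)` (labels ignored) + (HALF-c)
  (`rank Λ = 2 lam`, `rank Λ⁻ ≤ lam`) + `ToricBound … lam` ⇒ `SharpDescent p P0 Pinf 2`.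
-/
import Mathlib
import Fermat.Agent.M15.SDOdd0
import Fermat.Agent.M15.FlatFinal2
import Fermat.Agent.M15.FlatOdd2

set_option autoImplicit false
set_option linter.unusedSectionVars false
set_option linter.style.haveILetI false
set_option synthInstance.maxHeartbeats 400000

open CategoryTheory ExtCitation AlgebraicCurve ModularCurve Module

namespace Fermat.Agent.M15.FlatSD2

open Fermat.Agent.PT.PRO Fermat.Agent.PT.BR Fermat.Agent.W56.Defs9
open Fermat.Agent.M15.Contracts9 Fermat.Agent.M15.KumRep6 Fermat.Agent.M15.KumInst6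
  Fermat.Agent.M15.DevDefs5 Fermat.Agent.M15.DevChain5 Fermat.Agent.M15.ToricTate3
  Fermat.Agent.M15.SDOdd0

local notation "Γ" => (AlgebraicClosure ℚ ≃ₐ[ℚ] AlgebraicClosure ℚ)
local notation "Qbar" => AlgebraicClosure ℚ

noncomputable section

variable (p : ℕ) [NeZero p] (hp : p.Prime) (P0 Pinf : Pl p) (hcusp : CuspFacts p P0 Pinf)

theorem numTriv_eq_card {k : Type} [CommRing k] {ℓ : ℕ} {W : Rep.{0, 0, 0} k Γ}
    (c : JHChain ℓ W) :
    c.numTriv = (Finset.univ.filter fun i : Fin c.n => c.lab i = true).card := by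
  unfold JHChain.numTriv
  rw [Finset.card_filter]

/-- **(SD) at an odd `ℓ`** from labelled chains with at least `k · lam` trivial pieces. -/
theorem sharpDescent_odd_of_chain (ℓ : ℕ) [hℓ : Fact ℓ.Prime]
    (hℓd : ℓ ∣ addOrderOf (cl p P0 Pinf)) (hℓ2 : ℓ ≠ 2) (hℓp : ℓ ≠ p) (lam : ℕ)
    (hJH : ∀ k : ℕ, ∃ c : JHChain ℓ (Wk p P0 Pinf hcusp ℓ hp hℓd k), k * lam ≤ c.numTriv)
    (hTB : ToricBound (JZero p) (epsChar p P0 Pinf hcusp ℓ hp hℓd) ⟨p, hp⟩ lam) :
    SharpDescent p P0 Pinf ℓ := by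
  refine Fermat.Agent.M15.FlatOdd2.sharpDescent_odd p hp P0 Pinf hcusp ℓ hℓd hℓ2 hℓp lam
    (fun k => ?_) hTB
  obtain ⟨c, hc⟩ := hJH k
  refine ⟨c.n, c.F, c.mono, c.st, fun i => c.lab i = true, inferInstance, c.bot, c.top, c.card,
    fun i hi => c.triv i hi, fun i hi => c.mu i (by simpa using hi), ?_⟩
  rw [← numTriv_eq_card]
  exact hc

/-- **(SD) at `ℓ = 2`** from any chains with pieces of order `2` and (HALF-c). -/
theorem sharpDescent_two_of_chain (h2 : 2 ∣ addOrderOf (cl p P0 Pinf)) (hp2 : p ≠ 2) (lam : ℕ)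
    (hrank : finrank ℤ_[2] (Lam (JZero p) (epsChar p P0 Pinf hcusp 2 hp h2)) = 2 * lam)
    (hneg : finrank ℤ_[2] ↥(LinearMap.ker
      (rhoLam (JZero p) (epsChar p P0 Pinf hcusp 2 hp h2) complexConjugation + 1)) ≤ lam)
    (hJH : ∀ k : ℕ, Nonempty (JHChain 2 (Wk p P0 Pinf hcusp 2 hp h2 k)))
    (hTB : ToricBound (JZero p) (epsChar p P0 Pinf hcusp 2 hp h2) ⟨p, hp⟩ lam) :
    SharpDescent p P0 Pinf 2 := by
  refine Fermat.Agent.M15.FlatFinal2.sharpDescent_two p hp P0 Pinf hcusp h2 hp2 lam hrank hneg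
    (fun k => ?_) hTB
  obtain ⟨c⟩ := hJH k
  exact ⟨c.n, c.F, c.mono, c.st, c.bot, c.top, c.card⟩

end

end Fermat.Agent.M15.FlatSD2
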