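/-
Programme M15 (target S15), chapter R3 FLAT (helper2): **(SD) at EVERY prime `ℓ ∣ ord c₀` from (JH), (HALF-c)
and R2's toric bound** - one statement for `ℓ` odd and `ℓ = 2`.

`sharpDescent_of_half` : if for every level `k` the module `Wk … k` has a labelled Jordan–Hölder chain
(`SDOdd0.JHChain`, any labelling at `ℓ = 2`), if `rank Λ = 2 lam` and `rank ker (ρ_Λ(c₀) + 1) ≤ lam`
((HALF-c)), and if `ToricBound … lam` holds (R2), then `Contracts9.SharpDescent p P0 Pinf ℓ`.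
(`ℓ` odd: the count `k * lam ≤ numTriv` is `FlatCountOdd2.mul_le_numTriv`; `ℓ = 2`: `FlatSD2`.)
-/
import Mathlib
import Fermat.Agent.M15.FlatSD2
import Fermat.Agent.M15.FlatCountOdd2

set_option autoImplicit false
set_option linter.unusedSectionVars false
set_option linter.style.haveILetI false
set_option synthInstance.maxHeartbeats 400000

open CategoryTheory ExtCitation AlgebraicCurve ModularCurve Module

namespace Fermat.Agent.M15.FlatSDAll2

open Fermat.Agent.PT.PRO Fermat.Agent.PT.BR Fermat.Agent.W56.Defs9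
open Fermat.Agent.M15.Contracts9 Fermat.Agent.M15.KumRep6 Fermat.Agent.M15.KumInst6
  Fermat.Agent.M15.KumJ6 Fermat.Agent.M15.ToricTate3 Fermat.Agent.M15.SDOdd0

local notation "Γ" => (AlgebraicClosure ℚ ≃ₐ[ℚ] AlgebraicClosure ℚ)

noncomputable section

variable (p : ℕ) [NeZero p] (hp : p.Prime) (P0 Pinf : Pl p) (hcusp : CuspFacts p P0 Pinf)

include hp hcusp in
/-- a prime dividing the order of `c₀` is smaller than `p`. -/
theorem ne_of_dvd_addOrderOf {ℓ : ℕ} (hℓ : ℓ.Prime) (hℓd : ℓ ∣ addOrderOf (cl p P0 Pinf)) :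
    ℓ ≠ p := by
  have h1 : addOrderOf (cl p P0 Pinf) ∣ p - 1 := addOrderOf_dvd_of_nsmul_eq_zero hcusp.tors
  have h2 : ℓ ∣ p - 1 := hℓd.trans h1
  have h3 : 0 < p - 1 := by have := hp.two_le; omega
  have h4 := Nat.le_of_dvd h3 h2
  omega

/-- **(SD) at every prime `ℓ ∣ ord c₀`** from (JH), (HALF-c) and the toric bound. -/
theorem sharpDescent_of_half (hp2 : p ≠ 2) (ℓ : ℕ) [hℓ : Fact ℓ.Prime]
    (hℓd : ℓ ∣ addOrderOf (cl p P0 Pinf)) (lam : ℕ)
    (hrank : finrank ℤ_[ℓ] (Lam (JZero p) (epsChar p P0 Pinf hcusp ℓ hp hℓd)) = 2 * lam)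
    (hneg : finrank ℤ_[ℓ] ↥(LinearMap.ker
      (rhoLam (JZero p) (epsChar p P0 Pinf hcusp ℓ hp hℓd) complexConjugation + 1)) ≤ lam)
    (hJH : ∀ k : ℕ, Nonempty (JHChain ℓ (Wk p P0 Pinf hcusp ℓ hp hℓd k)))
    (hTB : ToricBound (JZero p) (epsChar p P0 Pinf hcusp ℓ hp hℓd) ⟨p, hp⟩ lam) :
    SharpDescent p P0 Pinf ℓ := by
  by_cases hℓ2 : ℓ = 2
  · subst hℓ2
    have hinst : hℓ = Nat.fact_prime_two := Subsingleton.elim _ _
    subst hinst
    exact Fermat.Agent.M15.FlatSD2.sharpDescent_two_of_chain p hp P0 Pinf hcusp hℓd hp2 lam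
      hrank hneg hJH hTB
  · have hℓp : ℓ ≠ p := ne_of_dvd_addOrderOf p hp P0 Pinf hcusp hℓ.out hℓd
    refine Fermat.Agent.M15.FlatSD2.sharpDescent_odd_of_chain p hp P0 Pinf hcusp ℓ hℓd hℓ2 hℓp lam
      (fun k => ?_) hTB
    obtain ⟨c⟩ := hJH k
    exact ⟨c, Fermat.Agent.M15.FlatCountOdd2.mul_le_numTriv
      (epsChar p P0 Pinf hcusp ℓ hp hℓd) hℓ2 (finite_tors_prime p ℓ) (commOnTors p hp ℓ)
      (fun x => Fermat.Agent.M15.DivFinal4.jzero_divisible p ℓ hℓ.out.ne_zero x) k lam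
      hrank hneg c⟩

end

end Fermat.Agent.M15.FlatSDAll2
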