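/-
Programme M15 (target S15), chapter R2 (TORIC), helper3: **glue (HALF-det) ⇒ `DetAt`**.

If `det (ρ_Λ σ) = χ_ℓ(σ) ^ lam` (or `= ± χ_ℓ(σ) ^ lam`) for every `σ`, then every Frobenius lift `φ`
at `p ≠ ℓ` has `det (ρ_Λ φ) = ± p ^ lam` (`ES/J/CycloChar8.cyclo_of_isFrobeniusAt`), which is the
hypothesis `ToricTate3.DetAt` of `ToricFinal3.toricBound_jzero`.
-/
import Mathlib
import Fermat.Agent.M15.ToricTate3
import Fermat.Agent.ES.J.CycloChar8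

set_option autoImplicit false
set_option linter.unusedSectionVars false

namespace Fermat.Agent.M15.ToricDet3

open Fermat.Agent.M15.ToricTate3 Fermat.Agent.ES.J.CycloChar8

local notation "Γ" => (AlgebraicClosure ℚ ≃ₐ[ℚ] AlgebraicClosure ℚ)

variable (J : Type) [AddCommGroup J] [DistribMulAction Γ J]
  {𝕋 : Type} [Ring 𝕋] [Module 𝕋 J] [SMulCommClass Γ 𝕋 J] {ℓ : ℕ} [hℓ : Fact ℓ.Prime]
  (ε : 𝕋 →+* ZMod ℓ)

/-- (HALF-det), signed form, gives `DetAt`. -/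
theorem detAt_of_half_sign {p lam : ℕ} (hp : p.Prime) (hpℓ : p ≠ ℓ)
    (hhalf : ∀ σ : Γ,
      LinearMap.det (rhoLam J ε σ) = ((cyclo ℓ σ : ℤ_[ℓ]ˣ) : ℤ_[ℓ]) ^ lam ∨
        LinearMap.det (rhoLam J ε σ) = -((cyclo ℓ σ : ℤ_[ℓ]ˣ) : ℤ_[ℓ]) ^ lam) :
    DetAt J ε p lam := by
  intro A φ hA hφ
  have h := hhalf φ
  rw [cyclo_of_isFrobeniusAt ℓ hp hpℓ A hA hφ] at h
  exact h

/-- (HALF-det) gives `DetAt`. -/
theorem detAt_of_half {p lam : ℕ} (hp : p.Prime) (hpℓ : p ≠ ℓ)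
    (hhalf : ∀ σ : Γ,
      LinearMap.det (rhoLam J ε σ) = ((cyclo ℓ σ : ℤ_[ℓ]ˣ) : ℤ_[ℓ]) ^ lam) :
    DetAt J ε p lam :=
  detAt_of_half_sign J ε hp hpℓ fun σ => Or.inl (hhalf σ)

end Fermat.Agent.M15.ToricDet3
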