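/-
Programme M15 (target S15), helper2: **`S15Statement` from W3 + (JH) + (HALF)** - the last mile with the
count for `ℓ` odd discharged (`FlatCountOdd2`) and R2 plugged in (`ToricFinal3`, `ToricDet3`).

For every level `p ∉ {2,3,5,7,13}` and every prime `ℓ` dividing the order of `c₀ = (0) - (∞)`:
`HalfJH p hp hp' ℓ hℓd` :=  there is `lam` with
* (HALF-c)   `rank Λ = 2 lam`, `rank ker (ρ_Λ(c₀) + 1) ≤ lam`;
* (DET)      `ToricTate3.DetAt … p lam` (from (HALF-det) `det ρ_Λ(σ) = ± χ_ℓ(σ) ^ lam`: `halfJH_of_det`);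
* (JH)       every `W_k` has a labelled Jordan–Hölder chain `SDOdd0.JHChain ℓ (Wk … k)`.
`s15_of_half` : W3 (`Assemble9.HeckeStable`) + `HalfJH` everywhere ⇒ `S15Statement`
(`s15_of_half_some` : `HalfJH` at ONE prime divisor `ℓ` of the order of `c₀` is enough).
-/
import Mathlib
import Fermat.Agent.M15.Assemble9
import Fermat.Agent.M15.ToricFinal3
import Fermat.Agent.M15.ToricDet3
import Fermat.Agent.M15.FlatSDAll2

set_option autoImplicit false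
set_option linter.unusedSectionVars false
set_option linter.unusedVariables false
set_option linter.style.haveILetI false
set_option synthInstance.maxHeartbeats 400000

open CategoryTheory ExtCitation AlgebraicCurve ModularCurve Module

namespace Fermat.Agent.M15.FlatLast2

open Fermat.Agent.PT.PRO Fermat.Agent.PT.BR Fermat.Agent.W56.Defs9
open Fermat.Agent.M15.Contracts9 Fermat.Agent.M15.KumRep6 Fermat.Agent.M15.KumInst6
  Fermat.Agent.M15.ToricTate3 Fermat.Agent.M15.SDOdd0 Fermat.Agent.M15.CuspTors0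
  Fermat.Agent.M15.Assemble9 Fermat.Agent.ES.J.CycloChar8

local notation "Γ" => (AlgebraicClosure ℚ ≃ₐ[ℚ] AlgebraicClosure ℚ)

noncomputable section

section Level

variable (p : ℕ) [NeZero p] (hp : p.Prime) (P0 Pinf : Pl p) (hcusp : CuspFacts p P0 Pinf)

/-- **the open inputs of (SD) at `ℓ`**: (HALF-c), (HALF-det) and (JH). -/
def HalfJH (ℓ : ℕ) [Fact ℓ.Prime] (hℓd : ℓ ∣ addOrderOf (cl p P0 Pinf)) : Prop :=
  ∃ lam : ℕ,
    finrank ℤ_[ℓ] (Lam (JZero p) (epsChar p P0 Pinf hcusp ℓ hp hℓd)) = 2 * lam ∧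
    finrank ℤ_[ℓ] ↥(LinearMap.ker
      (rhoLam (JZero p) (epsChar p P0 Pinf hcusp ℓ hp hℓd) complexConjugation + 1)) ≤ lam ∧
    DetAt (JZero p) (epsChar p P0 Pinf hcusp ℓ hp hℓd) p lam ∧
    ∀ k : ℕ, Nonempty (JHChain ℓ (Wk p P0 Pinf hcusp ℓ hp hℓd k))

/-- `HalfJH` from (HALF-det) in the signed form `det ρ_Λ(σ) = ± χ_ℓ(σ) ^ lam`. -/
theorem halfJH_of_det (ℓ : ℕ) [hℓ : Fact ℓ.Prime] (hℓd : ℓ ∣ addOrderOf (cl p P0 Pinf)) (lam : ℕ)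
    (hrank : finrank ℤ_[ℓ] (Lam (JZero p) (epsChar p P0 Pinf hcusp ℓ hp hℓd)) = 2 * lam)
    (hneg : finrank ℤ_[ℓ] ↥(LinearMap.ker
      (rhoLam (JZero p) (epsChar p P0 Pinf hcusp ℓ hp hℓd) complexConjugation + 1)) ≤ lam)
    (hdet : ∀ σ : Γ,
      LinearMap.det (rhoLam (JZero p) (epsChar p P0 Pinf hcusp ℓ hp hℓd) σ) =
          ((cyclo ℓ σ : ℤ_[ℓ]ˣ) : ℤ_[ℓ]) ^ lam ∨
        LinearMap.det (rhoLam (JZero p) (epsChar p P0 Pinf hcusp ℓ hp hℓd) σ) =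
          -((cyclo ℓ σ : ℤ_[ℓ]ˣ) : ℤ_[ℓ]) ^ lam)
    (hJH : ∀ k : ℕ, Nonempty (JHChain ℓ (Wk p P0 Pinf hcusp ℓ hp hℓd k))) :
    HalfJH p hp P0 Pinf hcusp ℓ hℓd :=
  ⟨lam, hrank, hneg,
    Fermat.Agent.M15.ToricDet3.detAt_of_half_sign (JZero p) _ hp
      (Fermat.Agent.M15.FlatSDAll2.ne_of_dvd_addOrderOf p hp P0 Pinf hcusp hℓ.out hℓd).symm hdet,
    hJH⟩

/-- **(SD) at `ℓ`** from `HalfJH`. -/
theorem sharpDescent_of_halfJH (hp2 : p ≠ 2) (ℓ : ℕ) [hℓ : Fact ℓ.Prime]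
    (hℓd : ℓ ∣ addOrderOf (cl p P0 Pinf)) (h : HalfJH p hp P0 Pinf hcusp ℓ hℓd) :
    SharpDescent p P0 Pinf ℓ := by
  obtain ⟨lam, hrank, hneg, hdet, hJH⟩ := h
  have hℓp : ℓ ≠ p :=
    Fermat.Agent.M15.FlatSDAll2.ne_of_dvd_addOrderOf p hp P0 Pinf hcusp hℓ.out hℓd
  have hTB : ToricBound (JZero p) (epsChar p P0 Pinf hcusp ℓ hp hℓd) ⟨p, hp⟩ lam :=
    Fermat.Agent.M15.ToricFinal3.toricBound_hecke p hp ℓ _ hℓp hdet
  exact Fermat.Agent.M15.FlatSDAll2.sharpDescent_of_half p hp P0 Pinf hcusp hp2 ℓ hℓd lam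
    hrank hneg hJH hTB

end Level

/-- **S15 from W3 + (JH) + (HALF)** at every prime divisor of the order of `c₀`. -/
theorem s15_of_half
    (hT : ∀ (p : ℕ) (hp : p.Prime), p ∉ ({2, 3, 5, 7, 13} : Finset ℕ) →
      haveI : NeZero p := ⟨hp.ne_zero⟩; HeckeStable p)
    (hH : ∀ (p : ℕ) (hp : p.Prime) (hp' : p ∉ ({2, 3, 5, 7, 13} : Finset ℕ)),
      haveI : NeZero p := ⟨hp.ne_zero⟩
      ∀ (ℓ : ℕ) [Fact ℓ.Prime] (hℓd : ℓ ∣ addOrderOf (cl p (P0 p hp) (Pinf p))),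
        HalfJH p hp (P0 p hp) (Pinf p) (Fermat.Agent.M15.CuspEigen9.cuspFacts p hp hp') ℓ hℓd) :
    S15Statement :=
  s15_of_open hT fun p hp hp' =>
    haveI : NeZero p := ⟨hp.ne_zero⟩
    fun ℓ hℓ hd =>
      haveI : Fact ℓ.Prime := ⟨hℓ⟩
      sharpDescent_of_halfJH p hp (P0 p hp) (Pinf p)
        (Fermat.Agent.M15.CuspEigen9.cuspFacts p hp hp') (fun h => hp' (by simp [h])) ℓ hd
        (hH p hp hp' ℓ hd)

/-- **S15 from W3 + (JH) + (HALF)** at ONE prime divisor of the order of `c₀`. -/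
theorem s15_of_half_some
    (hT : ∀ (p : ℕ) (hp : p.Prime), p ∉ ({2, 3, 5, 7, 13} : Finset ℕ) →
      haveI : NeZero p := ⟨hp.ne_zero⟩; HeckeStable p)
    (hH : ∀ (p : ℕ) (hp : p.Prime) (hp' : p ∉ ({2, 3, 5, 7, 13} : Finset ℕ)),
      haveI : NeZero p := ⟨hp.ne_zero⟩
      ∃ (ℓ : ℕ) (hℓ : ℓ.Prime) (hℓd : ℓ ∣ addOrderOf (cl p (P0 p hp) (Pinf p))),
        haveI : Fact ℓ.Prime := ⟨hℓ⟩
        HalfJH p hp (P0 p hp) (Pinf p) (Fermat.Agent.M15.CuspEigen9.cuspFacts p hp hp') ℓ hℓd) :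
    S15Statement :=
  s15_of_open_some hT fun p hp hp' => by
    haveI : NeZero p := ⟨hp.ne_zero⟩
    obtain ⟨ℓ, hℓ, hℓd, h⟩ := hH p hp hp'
    haveI : Fact ℓ.Prime := ⟨hℓ⟩
    exact ⟨ℓ, hℓ, hℓd, sharpDescent_of_halfJH p hp (P0 p hp) (Pinf p)
      (Fermat.Agent.M15.CuspEigen9.cuspFacts p hp hp') (fun h => hp' (by simp [h])) ℓ hℓd h⟩

end

end Fermat.Agent.M15.FlatLast2
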