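/-
Programme M15 (S15), chapter (HALF), leaf (HALF-c), pure algebra (helper4, Mathlib only).

* `finrank_ker_of_trace_eq_zero` : an involution `c` of a finite free module `M` over a PID of characteristic
  zero with `tr c = 0` has `rank ker(c - 1) = rank ker(c + 1)` and `rank M = 2 rank ker(c - 1)`
  (no base change: `ι : M⁺ × M⁻ → M`, `m : M → M⁺ × M⁻`, `x ↦ (x + c x, x - c x)`, `ι m = 2`, `m ι = 2`);
* `finrank_ker_of_cpm` : the same for `c = ρ(c₀)`, `c₀² = 1`, trace hypothesis in the (CPM) form.
-/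
import Mathlib

set_option autoImplicit false
set_option linter.unusedSectionVars false
set_option linter.style.longLine false
set_option linter.style.haveILetI false

noncomputable section

namespace Fermat.Agent.M15.HalfCAlg4

open Module

section Algebra

variable {R : Type*} [CommRing R] [IsDomain R] [IsPrincipalIdealRing R] [CharZero R]
  {M : Type*} [AddCommGroup M] [Module R M] [Module.Free R M] [Module.Finite R M]

/-- `(a, b) ↦ a + b`. -/
def iotaPM (c : End R M) : (↥(LinearMap.ker (c - 1)) × ↥(LinearMap.ker (c + 1))) →ₗ[R] M :=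
  (LinearMap.ker (c - 1)).subtype.coprod (LinearMap.ker (c + 1)).subtype

theorem iotaPM_apply (c : End R M) (x : ↥(LinearMap.ker (c - 1)) × ↥(LinearMap.ker (c + 1))) :
    iotaPM c x = (x.1 : M) + (x.2 : M) := rfl

theorem mem_kerP {c : End R M} {x : M} : x ∈ LinearMap.ker (c - 1) ↔ c x = x := by
  rw [LinearMap.mem_ker, LinearMap.sub_apply, Module.End.one_apply, sub_eq_zero]

theorem mem_kerM {c : End R M} {x : M} : x ∈ LinearMap.ker (c + 1) ↔ c x = -x := by
  rw [LinearMap.mem_ker, LinearMap.add_apply, Module.End.one_apply, add_eq_zero_iff_eq_neg]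

/-- `x ↦ (x + c x, x - c x)`. -/
def splitPM (c : End R M) (hc : c * c = 1) :
    M →ₗ[R] (↥(LinearMap.ker (c - 1)) × ↥(LinearMap.ker (c + 1))) :=
  LinearMap.prod
    (LinearMap.codRestrict (LinearMap.ker (c - 1)) (1 + c) fun x => by
      rw [mem_kerP, LinearMap.add_apply, Module.End.one_apply, map_add, ← Module.End.mul_apply, hc,
        Module.End.one_apply, add_comm])
    (LinearMap.codRestrict (LinearMap.ker (c + 1)) (1 - c) fun x => by
      rw [mem_kerM, LinearMap.sub_apply, Module.End.one_apply, map_sub, ← Module.End.mul_apply, hc,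
        Module.End.one_apply, neg_sub])

theorem iotaPM_splitPM (c : End R M) (hc : c * c = 1) (x : M) :
    iotaPM c (splitPM c hc x) = (2 : R) • x := by
  show (x + c x) + (x - c x) = (2 : R) • x
  rw [two_smul]
  abel

theorem splitPM_iotaPM (c : End R M) (hc : c * c = 1)
    (y : ↥(LinearMap.ker (c - 1)) × ↥(LinearMap.ker (c + 1))) :
    splitPM c hc (iotaPM c y) = (2 : R) • y := by
  obtain ⟨a, b⟩ := y
  have ha : c (a : M) = a := mem_kerP.1 a.2
  have hb : c (b : M) = -b := mem_kerM.1 b.2
  refine Prod.ext (Subtype.ext ?_) (Subtype.ext ?_)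
  · show ((a : M) + b) + c ((a : M) + b) = (((2 : R) • a : ↥(LinearMap.ker (c - 1))) : M)
    rw [map_add, ha, hb, Submodule.coe_smul, two_smul]
    abel
  · show ((a : M) + b) - c ((a : M) + b) = (((2 : R) • b : ↥(LinearMap.ker (c + 1))) : M)
    rw [map_add, ha, hb, Submodule.coe_smul, two_smul]
    abel

theorem two_smul_eq_zero {N : Type*} [AddCommGroup N] [Module R N] [Module.IsTorsionFree R N]
    {x : N} (h : (2 : R) • x = 0) : x = 0 :=
  (smul_eq_zero.1 h).resolve_left two_ne_zero

/-- **an involution of trace `0` has eigenlattices of equal rank.** -/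
theorem finrank_ker_of_trace_eq_zero (c : End R M) (hc : c * c = 1)
    (htr : LinearMap.trace R M c = 0) :
    finrank R ↥(LinearMap.ker (c - 1)) = finrank R ↥(LinearMap.ker (c + 1)) ∧
      finrank R M = 2 * finrank R ↥(LinearMap.ker (c - 1)) := by
  set ι := iotaPM c with hι
  set m := splitPM c hc with hm
  have h1 : ι ∘ₗ m = (2 : R) • LinearMap.id := LinearMap.ext fun x => iotaPM_splitPM c hc x
  have h2 : m ∘ₗ ι = (2 : R) • LinearMap.id := LinearMap.ext fun y => splitPM_iotaPM c hc y
  -- the involution on the product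
  set c' : End R (↥(LinearMap.ker (c - 1)) × ↥(LinearMap.ker (c + 1))) :=
    LinearMap.prodMap LinearMap.id (-LinearMap.id) with hc'
  have h3 : ι ∘ₗ c' = c ∘ₗ ι := by
    refine LinearMap.ext fun y => ?_
    obtain ⟨a, b⟩ := y
    have ha : c (a : M) = a := mem_kerP.1 a.2
    have hb : c (b : M) = -b := mem_kerM.1 b.2
    show ((a : M) + ((-b : ↥(LinearMap.ker (c + 1))) : M)) = c ((a : M) + b)
    rw [map_add, ha, hb, Submodule.coe_neg]
  -- traces
  have h4 : (2 : R) * LinearMap.trace R _ c' = (2 : R) * LinearMap.trace R M c := by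
    have e1 : LinearMap.trace R _ (c' ∘ₗ (m ∘ₗ ι)) = (2 : R) * LinearMap.trace R _ c' := by
      rw [h2, LinearMap.comp_smul, LinearMap.comp_id, map_smul, smul_eq_mul]
    have e2 : LinearMap.trace R _ (c' ∘ₗ (m ∘ₗ ι)) = LinearMap.trace R M (ι ∘ₗ (c' ∘ₗ m)) := by
      rw [← LinearMap.comp_assoc, LinearMap.trace_comp_comm']
    have e3 : LinearMap.trace R M (ι ∘ₗ (c' ∘ₗ m)) = (2 : R) * LinearMap.trace R M c := by
      rw [← LinearMap.comp_assoc, h3, LinearMap.comp_assoc, h1, LinearMap.comp_smul,
        LinearMap.comp_id, map_smul, smul_eq_mul]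
    rw [← e1, e2, e3]
  have h5 : LinearMap.trace R _ c' = 0 := by
    rw [htr, mul_zero] at h4
    exact (mul_eq_zero.1 h4).resolve_left two_ne_zero
  have h6 : LinearMap.trace R _ c' =
      (finrank R ↥(LinearMap.ker (c - 1)) : R) - (finrank R ↥(LinearMap.ker (c + 1)) : R) := by
    rw [hc', LinearMap.trace_prodMap', LinearMap.trace_id, map_neg, LinearMap.trace_id]
    exact (sub_eq_add_neg _ _).symm
  have h7 : finrank R ↥(LinearMap.ker (c - 1)) = finrank R ↥(LinearMap.ker (c + 1)) := by
    rw [h6, sub_eq_zero] at h5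
    exact_mod_cast h5
  refine ⟨h7, ?_⟩
  -- ranks
  have hιinj : Function.Injective ι := by
    intro y y' hyy'
    have := congrArg m hyy'
    rw [hm, hι, splitPM_iotaPM, splitPM_iotaPM, ← sub_eq_zero, ← smul_sub] at this
    exact sub_eq_zero.1 (two_smul_eq_zero this)
  have hminj : Function.Injective m := by
    intro x x' hxx'
    have := congrArg ι hxx'
    rw [hm, hι, iotaPM_splitPM, iotaPM_splitPM, ← sub_eq_zero, ← smul_sub] at this
    exact sub_eq_zero.1 (two_smul_eq_zero this)
  have h8 : finrank R (↥(LinearMap.ker (c - 1)) × ↥(LinearMap.ker (c + 1))) = finrank R M :=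
    le_antisymm (LinearMap.finrank_le_finrank_of_injective hιinj)
      (LinearMap.finrank_le_finrank_of_injective hminj)
  rw [← h8, Module.finrank_prod, ← h7, two_mul]

/-- the same, for `c = ρ(c₀)`, `c₀² = 1`, with the trace hypothesis in the (CPM) form. -/
theorem finrank_ker_of_cpm {G : Type*} [Group G] (ρ : G →* End R M) (c₀ : G) (hc₀ : c₀ * c₀ = 1)
    (A : Subalgebra R (End R M)) (hA : ∀ h ∈ A, LinearMap.trace R M (h * ρ c₀) = 0) :
    finrank R ↥(LinearMap.ker (ρ c₀ - 1)) = finrank R ↥(LinearMap.ker (ρ c₀ + 1)) ∧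
      finrank R M = 2 * finrank R ↥(LinearMap.ker (ρ c₀ - 1)) := by
  refine finrank_ker_of_trace_eq_zero (ρ c₀) ?_ ?_
  · rw [← map_mul, hc₀, map_one]
  · have h := hA 1 (Subalgebra.one_mem _)
    rwa [one_mul] at h

end Algebra


end Fermat.Agent.M15.HalfCAlg4
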