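/-
Programme M15 (S15), chapter (HALF), leaf (HALF-c) (helper4): **the two eigenlattices of complex conjugation
on `Λ = T_ℓ(J₀(p))_ε` have the same rank**, for every prime `ℓ` (2 included).

From (CPM) at `h = 1` (`CpmInst4.cpm_Lam_hecke`: `tr ρ_Λ(c) = 0`) and `HalfCAlg4.finrank_ker_of_cpm`.

* `half_c` : `rank ker(ρ_Λ(c) - 1) = rank ker(ρ_Λ(c) + 1)` and `rank Λ = 2 rank ker(ρ_Λ(c) - 1)`;
* `exists_half` : the shape consumed by `FlatSD2.sharpDescent_two_of_chain` (`hrank`, `hneg`).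
-/
import Mathlib
import Fermat.Agent.M15.CpmInst4
import Fermat.Agent.M15.HalfCAlg4

set_option autoImplicit false
set_option linter.unusedSectionVars false
set_option linter.style.longLine false
set_option linter.style.haveILetI false

noncomputable section

namespace Fermat.Agent.M15.HalfC4

open Module Fermat.Agent.M15.EsAll4 Fermat.Agent.M15.CpmInst4 Fermat.Agent.M15.ToricTate3
  Fermat.Agent.M15.Contracts9 ModularCurve Fermat.Agent.M15.HalfCAlg4

variable (ℓ : ℕ) [hℓ : Fact ℓ.Prime] (p : ℕ) [NeZero p]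

/-- **(HALF-c)**: `rank Λ⁺ = rank Λ⁻` and `rank Λ = 2 rank Λ⁺`, `Λ = T_ℓ(J₀(p))_ε`, every `ℓ`. -/
theorem half_c (hp : p.Prime) (ε : ↥(heckeRing p) →+* ZMod ℓ) :
    finrank ℤ_[ℓ] ↥(LinearMap.ker (rhoLam (JZero p) ε complexConjugation - 1)) =
        finrank ℤ_[ℓ] ↥(LinearMap.ker (rhoLam (JZero p) ε complexConjugation + 1)) ∧
      finrank ℤ_[ℓ] (Lam (JZero p) ε) =
        2 * finrank ℤ_[ℓ] ↥(LinearMap.ker (rhoLam (JZero p) ε complexConjugation - 1)) := by
  have hfin : Finite {x : JZero p // ℓ • x = 0} := (finite_tors ℓ p).to_subtype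
  haveI := (finite_free_Lam (J := JZero p) (ε := ε) hfin).1
  haveI := (finite_free_Lam (J := JZero p) (ε := ε) hfin).2
  have h1 := cpm_Lam_hecke ℓ p hp ε
  have h2 := finrank_ker_of_cpm (R := ℤ_[ℓ]) (M := Lam (JZero p) ε) (rhoLam (JZero p) ε)
    complexConjugation complexConjugation_mul_self
    (Algebra.adjoin ℤ_[ℓ] (Set.range (tLam ℓ p ε)))
  have h3 := h2 h1
  exact h3

/-- (HALF-c) in the shape consumed by `FlatSD2.sharpDescent_two_of_chain`: `∃ lam`, `rank Λ = 2 lam`,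
`rank Λ⁺ = rank Λ⁻ = lam`. -/
theorem exists_half (hp : p.Prime) (ε : ↥(heckeRing p) →+* ZMod ℓ) :
    ∃ lam : ℕ, finrank ℤ_[ℓ] (Lam (JZero p) ε) = 2 * lam ∧
      finrank ℤ_[ℓ] ↥(LinearMap.ker (rhoLam (JZero p) ε complexConjugation - 1)) = lam ∧
      finrank ℤ_[ℓ] ↥(LinearMap.ker (rhoLam (JZero p) ε complexConjugation + 1)) = lam := by
  have h := half_c ℓ p hp ε
  exact ⟨finrank ℤ_[ℓ] ↥(LinearMap.ker (rhoLam (JZero p) ε complexConjugation - 1)), h.2, rfl,
    h.1.symm⟩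

end Fermat.Agent.M15.HalfC4
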