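/-
Programme M15 (target S15), helper2: **`S15Statement` from W3 + (JH) + (DET)**, with (HALF-c) discharged
by helper4's `HalfC4.exists_half`.

* `halfJH_of_det_jh` : `FlatLast2.HalfJH` at `ℓ` from `DetAt … lam` for the `lam` with `rank Λ = 2 lam`
  (the literal shape of helper3's `detAt_of_rank`) and (JH) chains;
* `s15_of_w3_jh_det` : S15 from `Assemble9.HeckeStable` (W3), (JH) chains at every level for every prime
  `ℓ ∣ ord c₀`, and `DetAt`; `s15_of_w3_jh_det_some` : the same at ONE prime divisor `ℓ` of `ord c₀`.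
-/
import Mathlib
import Fermat.Agent.M15.FlatLast2
import Fermat.Agent.M15.HalfC4

set_option autoImplicit false
set_option linter.unusedSectionVars false
set_option linter.unusedVariables false
set_option linter.style.haveILetI false
set_option synthInstance.maxHeartbeats 400000

open CategoryTheory ExtCitation AlgebraicCurve ModularCurve Module

namespace Fermat.Agent.M15.FlatEnd2

open Fermat.Agent.PT.PRO Fermat.Agent.PT.BR Fermat.Agent.W56.Defs9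
open Fermat.Agent.M15.Contracts9 Fermat.Agent.M15.KumRep6 Fermat.Agent.M15.KumInst6
  Fermat.Agent.M15.ToricTate3 Fermat.Agent.M15.SDOdd0 Fermat.Agent.M15.CuspTors0
  Fermat.Agent.M15.Assemble9 Fermat.Agent.M15.FlatLast2

local notation "Γ" => (AlgebraicClosure ℚ ≃ₐ[ℚ] AlgebraicClosure ℚ)

noncomputable section

section Level

variable (p : ℕ) [NeZero p] (hp : p.Prime) (P0 Pinf : Pl p) (hcusp : CuspFacts p P0 Pinf)

/-- `HalfJH` from (DET) and (JH); (HALF-c) is `HalfC4.exists_half`. -/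
theorem halfJH_of_det_jh (ℓ : ℕ) [hℓ : Fact ℓ.Prime] (hℓd : ℓ ∣ addOrderOf (cl p P0 Pinf))
    (hdet : ∀ lam : ℕ,
      finrank ℤ_[ℓ] (Lam (JZero p) (epsChar p P0 Pinf hcusp ℓ hp hℓd)) = 2 * lam →
        DetAt (JZero p) (epsChar p P0 Pinf hcusp ℓ hp hℓd) p lam)
    (hJH : ∀ k : ℕ, Nonempty (JHChain ℓ (Wk p P0 Pinf hcusp ℓ hp hℓd k))) :
    HalfJH p hp P0 Pinf hcusp ℓ hℓd := by
  obtain ⟨lam, hrank, -, hneg⟩ :=
    Fermat.Agent.M15.HalfC4.exists_half ℓ p hp (epsChar p P0 Pinf hcusp ℓ hp hℓd)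
  exact ⟨lam, hrank, hneg.le, hdet lam hrank, hJH⟩

end Level

/-- **S15 from W3 + (JH) + (DET)**. -/
theorem s15_of_w3_jh_det
    (hT : ∀ (p : ℕ) (hp : p.Prime), p ∉ ({2, 3, 5, 7, 13} : Finset ℕ) →
      haveI : NeZero p := ⟨hp.ne_zero⟩; HeckeStable p)
    (hdet : ∀ (p : ℕ) (hp : p.Prime) (hp' : p ∉ ({2, 3, 5, 7, 13} : Finset ℕ)),
      haveI : NeZero p := ⟨hp.ne_zero⟩
      ∀ (ℓ : ℕ) [Fact ℓ.Prime] (hℓd : ℓ ∣ addOrderOf (cl p (P0 p hp) (Pinf p))) (lam : ℕ),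
        finrank ℤ_[ℓ] (Lam (JZero p) (epsChar p (P0 p hp) (Pinf p)
          (Fermat.Agent.M15.CuspEigen9.cuspFacts p hp hp') ℓ hp hℓd)) = 2 * lam →
        DetAt (JZero p) (epsChar p (P0 p hp) (Pinf p)
          (Fermat.Agent.M15.CuspEigen9.cuspFacts p hp hp') ℓ hp hℓd) p lam)
    (hJH : ∀ (p : ℕ) (hp : p.Prime) (hp' : p ∉ ({2, 3, 5, 7, 13} : Finset ℕ)),
      haveI : NeZero p := ⟨hp.ne_zero⟩
      ∀ (ℓ : ℕ) [Fact ℓ.Prime] (hℓd : ℓ ∣ addOrderOf (cl p (P0 p hp) (Pinf p))) (k : ℕ),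
        Nonempty (JHChain ℓ (Wk p (P0 p hp) (Pinf p)
          (Fermat.Agent.M15.CuspEigen9.cuspFacts p hp hp') ℓ hp hℓd k))) :
    S15Statement :=
  s15_of_half hT fun p hp hp' =>
    haveI : NeZero p := ⟨hp.ne_zero⟩
    fun ℓ _ hℓd =>
      halfJH_of_det_jh p hp (P0 p hp) (Pinf p) (Fermat.Agent.M15.CuspEigen9.cuspFacts p hp hp')
        ℓ hℓd (hdet p hp hp' ℓ hℓd) (hJH p hp hp' ℓ hℓd)

/-- **S15 from W3 + (JH) + (DET) at ONE prime divisor of the order of `c₀`**. -/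
theorem s15_of_w3_jh_det_some
    (hT : ∀ (p : ℕ) (hp : p.Prime), p ∉ ({2, 3, 5, 7, 13} : Finset ℕ) →
      haveI : NeZero p := ⟨hp.ne_zero⟩; HeckeStable p)
    (hH : ∀ (p : ℕ) (hp : p.Prime) (hp' : p ∉ ({2, 3, 5, 7, 13} : Finset ℕ)),
      haveI : NeZero p := ⟨hp.ne_zero⟩
      ∃ (ℓ : ℕ) (hℓ : ℓ.Prime) (hℓd : ℓ ∣ addOrderOf (cl p (P0 p hp) (Pinf p))),
        haveI : Fact ℓ.Prime := ⟨hℓ⟩
        (∀ lam : ℕ,
          finrank ℤ_[ℓ] (Lam (JZero p) (epsChar p (P0 p hp) (Pinf p)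
            (Fermat.Agent.M15.CuspEigen9.cuspFacts p hp hp') ℓ hp hℓd)) = 2 * lam →
          DetAt (JZero p) (epsChar p (P0 p hp) (Pinf p)
            (Fermat.Agent.M15.CuspEigen9.cuspFacts p hp hp') ℓ hp hℓd) p lam) ∧
        ∀ k : ℕ, Nonempty (JHChain ℓ (Wk p (P0 p hp) (Pinf p)
          (Fermat.Agent.M15.CuspEigen9.cuspFacts p hp hp') ℓ hp hℓd k))) :
    S15Statement :=
  s15_of_half_some hT fun p hp hp' => by
    haveI : NeZero p := ⟨hp.ne_zero⟩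
    obtain ⟨ℓ, hℓ, hℓd, hdet, hJH⟩ := hH p hp hp'
    haveI : Fact ℓ.Prime := ⟨hℓ⟩
    exact ⟨ℓ, hℓ, hℓd, halfJH_of_det_jh p hp (P0 p hp) (Pinf p)
      (Fermat.Agent.M15.CuspEigen9.cuspFacts p hp hp') ℓ hℓd hdet hJH⟩

end

end Fermat.Agent.M15.FlatEnd2
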