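/-
Programme M15 (target S15), helper2: **`S15Statement` from W3 + (DET)**, with (JH) discharged by helper8's
`JHFinal8.exists_jhChain_Wk` and (HALF-c) by helper4's `HalfC4.exists_half`.

* `sharpDescentAll_of_det` : `Assemble9.SharpDescentAll p hp` from `DetAt … lam` (for the `lam` with
  `rank Λ = 2 lam`) at every prime `ℓ ∣ ord c₀`;
* `s15_of_w3_det` : S15 from `Assemble9.HeckeStable` (W3) and `DetAt`.
-/
import Mathlib
import Fermat.Agent.M15.FlatEnd2
import Fermat.Agent.M15.JHFinal8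

set_option autoImplicit false
set_option linter.unusedSectionVars false
set_option linter.unusedVariables false
set_option linter.style.haveILetI false
set_option synthInstance.maxHeartbeats 400000

open CategoryTheory ExtCitation AlgebraicCurve ModularCurve Module

namespace Fermat.Agent.M15.FlatEndB2

open Fermat.Agent.PT.PRO Fermat.Agent.PT.BR Fermat.Agent.W56.Defs9
open Fermat.Agent.M15.Contracts9 Fermat.Agent.M15.KumRep6 Fermat.Agent.M15.KumInst6
  Fermat.Agent.M15.ToricTate3 Fermat.Agent.M15.SDOdd0 Fermat.Agent.M15.CuspTors0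
  Fermat.Agent.M15.Assemble9 Fermat.Agent.M15.FlatLast2 Fermat.Agent.M15.FlatEnd2

local notation "Γ" => (AlgebraicClosure ℚ ≃ₐ[ℚ] AlgebraicClosure ℚ)

noncomputable section

/-- **(SD) at every prime divisor of the order of `c₀`** from (DET). -/
theorem sharpDescentAll_of_det (p : ℕ) [NeZero p] (hp : p.Prime)
    (hp' : p ∉ ({2, 3, 5, 7, 13} : Finset ℕ))
    (hdet : ∀ (ℓ : ℕ) [Fact ℓ.Prime] (hℓd : ℓ ∣ addOrderOf (cl p (P0 p hp) (Pinf p))) (lam : ℕ),
      finrank ℤ_[ℓ] (Lam (JZero p) (epsChar p (P0 p hp) (Pinf p)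
        (Fermat.Agent.M15.CuspEigen9.cuspFacts p hp hp') ℓ hp hℓd)) = 2 * lam →
      DetAt (JZero p) (epsChar p (P0 p hp) (Pinf p)
        (Fermat.Agent.M15.CuspEigen9.cuspFacts p hp hp') ℓ hp hℓd) p lam) :
    SharpDescentAll p hp := by
  intro ℓ hℓ hd
  haveI : Fact ℓ.Prime := ⟨hℓ⟩
  exact sharpDescent_of_halfJH p hp (P0 p hp) (Pinf p)
    (Fermat.Agent.M15.CuspEigen9.cuspFacts p hp hp') (fun h => hp' (by simp [h])) ℓ hd
    (halfJH_of_det_jh p hp (P0 p hp) (Pinf p) (Fermat.Agent.M15.CuspEigen9.cuspFacts p hp hp')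
      ℓ hd (hdet ℓ hd)
      (fun k => Fermat.Agent.M15.JHFinal8.exists_jhChain_Wk p hp (P0 p hp) (Pinf p)
        (Fermat.Agent.M15.CuspEigen9.cuspFacts p hp hp') ℓ hd k))

/-- **S15 from W3 + (DET)**. -/
theorem s15_of_w3_det
    (hT : ∀ (p : ℕ) (hp : p.Prime), p ∉ ({2, 3, 5, 7, 13} : Finset ℕ) →
      haveI : NeZero p := ⟨hp.ne_zero⟩; HeckeStable p)
    (hdet : ∀ (p : ℕ) (hp : p.Prime) (hp' : p ∉ ({2, 3, 5, 7, 13} : Finset ℕ)),
      haveI : NeZero p := ⟨hp.ne_zero⟩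
      ∀ (ℓ : ℕ) [Fact ℓ.Prime] (hℓd : ℓ ∣ addOrderOf (cl p (P0 p hp) (Pinf p))) (lam : ℕ),
        finrank ℤ_[ℓ] (Lam (JZero p) (epsChar p (P0 p hp) (Pinf p)
          (Fermat.Agent.M15.CuspEigen9.cuspFacts p hp hp') ℓ hp hℓd)) = 2 * lam →
        DetAt (JZero p) (epsChar p (P0 p hp) (Pinf p)
          (Fermat.Agent.M15.CuspEigen9.cuspFacts p hp hp') ℓ hp hℓd) p lam) :
    S15Statement :=
  s15_of_open hT fun p hp hp' =>
    haveI : NeZero p := ⟨hp.ne_zero⟩
    sharpDescentAll_of_det p hp hp' (hdet p hp hp')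

end

end Fermat.Agent.M15.FlatEndB2
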