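/-
Programme M15 (target S15), helper2: **`S15Statement` from W3 alone.**

(DET) is now a theorem: helper3's `DetTrace3.detAt_of_rank` (`rank Λ = 2 lam ⇒ DetAt (JZero p) ε p lam`
for `ℓ ≠ p`).  Plugging it into `FlatEndB2.s15_of_w3_det` leaves W3 (`Assemble9.HeckeStable p` for the
primes `p ∉ {2, 3, 5, 7, 13}`) as the only hypothesis.

* `detAt_eps`         : the (DET) hypothesis of `FlatEndB2` at `ε = epsChar …`;
* `sharpDescentAll`   : `Assemble9.SharpDescentAll p hp`, unconditional;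
* `s15_of_w3`         : `S15Statement` from `∀ p, HeckeStable p`.
-/
import Mathlib
import Fermat.Agent.M15.FlatEndB2
import Fermat.Agent.M15.DetTrace3

set_option autoImplicit false
set_option linter.unusedSectionVars false
set_option linter.unusedVariables false
set_option linter.style.haveILetI false
set_option synthInstance.maxHeartbeats 400000

open CategoryTheory ExtCitation AlgebraicCurve ModularCurve Module

namespace Fermat.Agent.M15.FlatEndC2

open Fermat.Agent.PT.PRO Fermat.Agent.PT.BR Fermat.Agent.W56.Defs9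
open Fermat.Agent.M15.Contracts9 Fermat.Agent.M15.KumRep6 Fermat.Agent.M15.KumInst6
  Fermat.Agent.M15.ToricTate3 Fermat.Agent.M15.SDOdd0 Fermat.Agent.M15.CuspTors0
  Fermat.Agent.M15.Assemble9 Fermat.Agent.M15.FlatLast2 Fermat.Agent.M15.FlatEnd2
  Fermat.Agent.M15.FlatEndB2

local notation "Γ" => (AlgebraicClosure ℚ ≃ₐ[ℚ] AlgebraicClosure ℚ)

noncomputable section

/-- **(DET) at the Eisenstein character**: `rank Λ = 2 lam ⇒ det ρ_Λ(Frob_p) = ± p ^ lam`. -/
theorem detAt_eps (p : ℕ) [NeZero p] (hp : p.Prime)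
    (hp' : p ∉ ({2, 3, 5, 7, 13} : Finset ℕ))
    (ℓ : ℕ) [Fact ℓ.Prime] (hℓd : ℓ ∣ addOrderOf (cl p (P0 p hp) (Pinf p))) (lam : ℕ)
    (hrank : finrank ℤ_[ℓ] (Lam (JZero p) (epsChar p (P0 p hp) (Pinf p)
      (Fermat.Agent.M15.CuspEigen9.cuspFacts p hp hp') ℓ hp hℓd)) = 2 * lam) :
    DetAt (JZero p) (epsChar p (P0 p hp) (Pinf p)
      (Fermat.Agent.M15.CuspEigen9.cuspFacts p hp hp') ℓ hp hℓd) p lam :=
  Fermat.Agent.M15.DetTrace3.detAt_of_rank p hp ℓ _
    (Fermat.Agent.M15.FlatSDAll2.ne_of_dvd_addOrderOf p hp (P0 p hp) (Pinf p)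
      (Fermat.Agent.M15.CuspEigen9.cuspFacts p hp hp') Fact.out hℓd) hrank

/-- **(SD) at every prime divisor of the order of `c₀`**, unconditional. -/
theorem sharpDescentAll (p : ℕ) [NeZero p] (hp : p.Prime)
    (hp' : p ∉ ({2, 3, 5, 7, 13} : Finset ℕ)) : SharpDescentAll p hp :=
  sharpDescentAll_of_det p hp hp' fun ℓ _ hℓd lam hrank => detAt_eps p hp hp' ℓ hℓd lam hrank

/-- **S15 from W3.** -/
theorem s15_of_w3
    (hT : ∀ (p : ℕ) (hp : p.Prime), p ∉ ({2, 3, 5, 7, 13} : Finset ℕ) →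
      haveI : NeZero p := ⟨hp.ne_zero⟩; HeckeStable p) :
    S15Statement :=
  s15_of_open hT fun p hp hp' =>
    haveI : NeZero p := ⟨hp.ne_zero⟩
    sharpDescentAll p hp hp'

end

end Fermat.Agent.M15.FlatEndC2
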