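/-
M15 / W3 (helper7): **place compatibility of two two-chart models along a morphism** (generic,
vocabulary of `ES/RED/Contract8`, `ES/RED/TwoCharts8`).

`T : TwoCharts A hx Ft` (function field `F / L`, special fibre `Ft / kA A`),
`T' : TwoCharts A hx' Ft'` (function field `F' / L`, special fibre `Ft' / kA A`),
`φ : F →ₐ[L] F'`, `φb : Ft →ₐ[kA A] Ft'` with `φ (T.S_i.B) ⊆ T'.S_i.B` and
`T'.S_i.red ∘ φ = φb ∘ T.S_i.red` (`i = 0, 1`).  Then the reduction maps on places commute with the
restriction of places:

  `T.r (P'.restrictAlong φ _) = (T'.r P').restrictAlong φb _`      (`r_restrictAlong`).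

Proof: if `P'` lies in the chart `i` of `T'`, the value of `φ s_i` at `P'` lies in `A`
(`ChartSpec.val_mem`), so `P'|φ` lies in the chart `i` of `T`; then (R1u) `eq_rAt` at the lower
level, the values being computed by (R1) `valueHom_rAt` at the upper level.
Imported by no statement.
-/
import Mathlib
import Fermat.Agent.ES.RED.TwoCharts8
import Fermat.Prelude.Def_AlgebraicCurve_Correspondence

set_option autoImplicit false
set_option linter.unusedSectionVars false
set_option linter.style.haveILetI false

noncomputable section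

open AlgebraicCurve

namespace Fermat.Agent.M15.PlaceCompat7

open Fermat.Agent.X0.FF Fermat.Agent.ES.RED.PlaceValue13 Fermat.Agent.ES.RED.Contract8
open Fermat.Agent.ES.RED.TwoCharts8

/-! ### values and restriction of places -/

section Value

variable {K : Type*} [Field K] [IsAlgClosed K]
variable {F : Type*} [Field F] [Algebra K F] {x : F} (hx : IsGen K x)
variable {F' : Type*} [Field F'] [Algebra K F'] {x' : F'} (hx' : IsGen K x')
variable (φ : F →ₐ[K] F') (hφ : φ.toRingHom.IsIntegral) (w : Place K F')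

theorem mem_restrictAlong_iff (f : F) :
    f ∈ (w.restrictAlong φ hφ).toValuationSubring ↔ φ f ∈ w.toValuationSubring :=
  Iff.rfl

include hφ in
theorem ramificationIndexAlong_pos : 0 < Place.ramificationIndexAlong φ w := by
  letI := algebraAlong φ
  haveI := isScalarTower_along φ
  haveI := isIntegral_along φ hφ
  exact w.ramificationIndex_pos (F := F)

/-- **the value at the restricted place**: `f (w|φ) = (φ f)(w)`. -/
theorem valueHom_restrictAlong (f : F) (hf : f ∈ (w.restrictAlong φ hφ).toValuationSubring)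
    (hf' : φ f ∈ w.toValuationSubring) :
    valueHom hx (w.restrictAlong φ hφ) ⟨f, hf⟩ = valueHom hx' w ⟨φ f, hf'⟩ := by
  set c := valueHom hx' w ⟨φ f, hf'⟩ with hc
  rw [valueHom_eq_iff]
  have h := (valueHom_eq_iff hx' w ⟨φ f, hf'⟩ c).mp rfl
  rcases h with h | h
  · left
    have h1 : φ f = φ (algebraMap K F c) := by
      rw [φ.commutes]; exact h
    exact φ.toRingHom.injective h1
  · right
    have h1 : (φ f - algebraMap K F' c) = φ (f - algebraMap K F c) := by
      rw [map_sub, φ.commutes]
    have h2 : 0 < w.ord (φ (f - algebraMap K F c)) := by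
      rw [← h1]; exact h
    rw [Place.ord_restrictAlong φ hφ] at h2
    have he : (0 : ℤ) < Place.ramificationIndexAlong φ w := by
      exact_mod_cast ramificationIndexAlong_pos φ hφ w
    exact (mul_pos_iff_of_pos_left he).mp h2

end Value

/-! ### morphisms of charts -/

section Compat

variable {L : Type*} [Field L] [IsAlgClosed L] {A : ValuationSubring L}
variable {F : Type*} [Field F] [Algebra L F] {x : F} {hx : IsGen L x}
variable {F' : Type*} [Field F'] [Algebra L F'] {x' : F'} {hx' : IsGen L x'}
variable {Ft : Type*} [Field Ft] [Algebra (kA A) Ft]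
variable {Ft' : Type*} [Field Ft'] [Algebra (kA A) Ft']

/-- **a morphism of charts**: `φ` maps the chart ring into the chart ring, compatibly with the
reductions. -/
structure ChartHom (S : ChartSpec A hx Ft) (S' : ChartSpec A hx' Ft') (φ : F →ₐ[L] F')
    (φb : Ft →ₐ[kA A] Ft') : Prop where
  map_mem : ∀ b ∈ S.B, φ b ∈ S'.B
  red_map : ∀ (b : F) (hb : b ∈ S.B), S'.red ⟨φ b, map_mem b hb⟩ = φb (S.red ⟨b, hb⟩)

section OneChart

variable {S : ChartSpec A hx Ft} {S' : ChartSpec A hx' Ft'} {φ : F →ₐ[L] F'}
  {φb : Ft →ₐ[kA A] Ft'} (H : ChartHom S S' φ φb) (hφ : φ.toRingHom.IsIntegral)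
  (hφb : φb.toRingHom.IsIntegral)
  (P' : Place L F') (hP' : S'.InChart P')

/-- the image of a chart element, as an element of the upper chart ring. -/
def ChartHom.map (b : ↥S.B) : ↥S'.B := ⟨φ (b : F), H.map_mem b b.2⟩

@[simp] theorem ChartHom.coe_map (b : ↥S.B) : ((H.map b : ↥S'.B) : F') = φ (b : F) := rfl

theorem ChartHom.red_map' (b : ↥S.B) : S'.red (H.map b) = φb (S.red b) :=
  H.red_map b b.2

include H hP' in
/-- a place of the upper chart restricts to a place of the lower chart. -/
theorem inChart_restrictAlong : S.InChart (P'.restrictAlong φ hφ) := by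
  have hmem : φ S.s ∈ P'.toValuationSubring :=
    S'.mem_place P' hP' _ (H.map_mem _ S.s_mem)
  refine ⟨hmem, ?_⟩
  rw [valueHom_restrictAlong hx hx' φ hφ P' S.s hmem hmem]
  exact S'.val_mem P' hP' _ (H.map_mem _ S.s_mem)

/-- values are compatible: `b (P'|φ) = (φ b)(P')`. -/
theorem ev_restrictAlong (b : ↥S.B) :
    S.ev (P'.restrictAlong φ hφ) (inChart_restrictAlong H hφ P' hP') b =
      S'.ev P' hP' (H.map b) := by
  apply Subtype.ext
  rw [ChartSpec.coe_ev, ChartSpec.coe_ev]
  exact valueHom_restrictAlong hx hx' φ hφ P' (b : F) _ _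

theorem chi_restrictAlong (b : ↥S.B) :
    S.chi (P'.restrictAlong φ hφ) (inChart_restrictAlong H hφ P' hP') b =
      S'.chi P' hP' (H.map b) := by
  rw [ChartSpec.chi_apply, ChartSpec.chi_apply, ev_restrictAlong H hφ P' hP' b]

variable [IsAlgClosed (kA A)] {xt : Ft} (hxt : IsGen (kA A) xt) {xt' : Ft'}
  (hxt' : IsGen (kA A) xt')

include hxt hxt' in
/-- **one chart**: `r (P'|φ) = r' (P') | φb`. -/
theorem rAt_restrictAlong (hS : HasPlaces S) (htr : Transcendental (kA A) (S.red S.sB))
    (hS' : HasPlaces S') (htr' : Transcendental (kA A) (S'.red S'.sB)) :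
    rAt hS htr (P'.restrictAlong φ hφ) (inChart_restrictAlong H hφ P' hP') =
      (rAt hS' htr' P' hP').restrictAlong φb hφb := by
  symm
  have hQ : ∀ b : ↥S.B,
      S.red b ∈ ((rAt hS' htr' P' hP').restrictAlong φb hφb).toValuationSubring := by
    intro b
    show φb (S.red b) ∈ (rAt hS' htr' P' hP').toValuationSubring
    rw [← H.red_map' b]
    exact red_mem_rAt hS' htr' P' hP' _
  refine eq_rAt hxt hS htr _ _ _ hQ ?_
  intro b
  have hmem : φb (S.red b) ∈ (rAt hS' htr' P' hP').toValuationSubring := hQ b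
  rw [valueHom_restrictAlong hxt hxt' φb hφb (rAt hS' htr' P' hP') (S.red b) (hQ b) hmem,
    chi_restrictAlong H hφ P' hP' b, ← valueHom_rAt hxt' hS' htr' P' hP' (H.map b)]
  congr 1
  exact Subtype.ext (H.red_map' b).symm

end OneChart

section TwoChartsCompat

variable (T : TwoCharts A hx Ft) (T' : TwoCharts A hx' Ft') {φ : F →ₐ[L] F'}
  {φb : Ft →ₐ[kA A] Ft'} (hφ : φ.toRingHom.IsIntegral) (hφb : φb.toRingHom.IsIntegral)
variable [IsAlgClosed (kA A)] {xt : Ft} (hxt : IsGen (kA A) xt) {xt' : Ft'}
  (hxt' : IsGen (kA A) xt')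

include hxt hxt' in
/-- **place compatibility**: the reduction maps of two two-chart models commute with the
restriction of places along a morphism of models. -/
theorem r_restrictAlong (H0 : ChartHom T.S0 T'.S0 φ φb) (H1 : ChartHom T.S1 T'.S1 φ φb)
    (P' : Place L F') :
    T.r (P'.restrictAlong φ hφ) = (T'.r P').restrictAlong φb hφb := by
  rcases T'.inChart_or P' with h0 | h1
  · rw [T'.r_eq0 P' h0, T.r_eq0 _ (inChart_restrictAlong H0 hφ P' h0)]
    exact rAt_restrictAlong H0 hφ hφb P' h0 hxt hxt' T.places0 T.tr0 T'.places0 T'.tr0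
  · rw [T'.r_eq1 hxt' P' h1, T.r_eq1 hxt _ (inChart_restrictAlong H1 hφ P' h1)]
    exact rAt_restrictAlong H1 hφ hφb P' h1 hxt hxt' T.places1 T.tr1 T'.places1 T'.tr1

end TwoChartsCompat

end Compat

end Fermat.Agent.M15.PlaceCompat7
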