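/-
M15 / W3 (helper7): **the reduction maps of the two-chart models of levels `M` and `M r` commute with
the degeneracy maps `α, β`** (`r` a prime, `r ∤ M`, `r ≠ v`).

* `mem_B_of_isIntegral` (saturation): an element of `F̄_N` which is integral over `ℚbar[s]` and has an
  `A`-integral `q`-expansion lies in the chart ring `S.B = chart A s` of a coefficientwise chart;
* `chartHom_alpha`, `chartHom_beta` : the hypotheses of `PlaceCompat7.r_restrictAlong` for
  `(α, ᾱ)`, `(β, β̄)` and the models of levels `M`, `M r` with the same Hauptmodul base;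
* `exists_model_compat` : the interface for the final assembly.
Imported by no statement.
-/
import Mathlib
import Fermat.Agent.M15.PlaceCompat7
import Fermat.Agent.FF.RedIface9
import Fermat.Agent.ES.N34.ModEqBar23
import Fermat.Agent.ES.N34.SatIntegral18
import Fermat.Agent.U44.DegreeC4

set_option autoImplicit false
set_option linter.unusedSectionVars false
set_option linter.style.haveILetI false
set_option linter.unusedVariables false
set_option synthInstance.maxHeartbeats 400000

noncomputable section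

open AlgebraicCurve ModularCurve IntermediateField HahnSeries

namespace Fermat.Agent.M15.HeckeRed7

open Fermat.Agent.X0 Fermat.Agent.X0.FF Fermat.Agent.RED.Interface4
  Fermat.Agent.RED.BASE Fermat.Agent.RED.BASE.Hauptmodul12
  Fermat.Agent.ES.RED.Contract8 Fermat.Agent.ES.RED.TwoCharts8
  Fermat.Agent.ES.RED.GaloisInst21 Fermat.Agent.ES.RED
  Fermat.Agent.FF.RedIface9 Fermat.Agent.RED.PUR.ChartGeneric22
  Fermat.Agent.M15.PlaceCompat7

/-- cached instance (typeclass search for it takes seconds at these concrete types). -/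
local instance (priority := 5000) algkFt (A : ValuationSubring Qbar) (M : ℕ) :
    Algebra (Contract8.kA A) ↥(modularFunctionFieldFullC (Contract8.kA A) M) := inferInstance

/-- cached instance. -/
local instance (priority := 5000) algQbFF (M : ℕ) [NeZero M] : Algebra Qbar (X0.FF M) :=
  inferInstance

/-- cached instance. -/
local instance (priority := 5000) algAFF (A : ValuationSubring Qbar) (M : ℕ) [NeZero M] :
    Algebra ↥A (X0.FF M) := inferInstance

/-- cached instance. -/
local instance (priority := 5000) towAFF (A : ValuationSubring Qbar) (M : ℕ) [NeZero M] :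
    IsScalarTower ↥A Qbar (X0.FF M) := inferInstance

/-! ### saturation -/

section Sat

variable {A : ValuationSubring Qbar} {N : ℕ} [NeZero N] {x : X0.FF N} {hx : IsGen Qbar x}

theorem coe_algebraMap_Qbar (c : Qbar) :
    ((algebraMap Qbar (X0.FF N) c : X0.FF N) : LaurentSeries Qbar) = HahnSeries.C c :=
  Fermat.Agent.ES.N34.ModEqBar23.valHom_const N c

theorem coe_algebraMap_A (c : ↥A) :
    ((algebraMap ↥A (X0.FF N) c : X0.FF N) : LaurentSeries Qbar) = HahnSeries.C (c : Qbar) :=
  coe_algebraMap_Qbar (c : Qbar)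

/-- **saturation**: integral over `ℚbar[s]` + `A`-integral `q`-expansion ⇒ in the chart ring. -/
theorem mem_B_of_isIntegral
    (S : ChartSpec A hx ↥(modularFunctionFieldFullC (kA A) N))
    (hS : CoeffChart (F₀ := modularFunctionFieldFull N) S)
    (y : X0.FF N) (hy : IsIntegral (Algebra.adjoin Qbar {S.s}) y)
    (Y : LaurentSeries ↥A) (hY : coeffMap A.subtype Y = (y : LaurentSeries Qbar)) : y ∈ S.B := by
  rcases eq_or_ne y 0 with rfl | hy0
  · exact S.B.zero_mem
  obtain ⟨c, hc0, hcy⟩ := Fermat.Agent.ES.N34.SatIntegral18.exists_mul_isIntegral_adjoin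
    (R := ↥A) (K := Qbar) S.s hy
  have hz : algebraMap ↥A (X0.FF N) c * y ∈ S.B := (hS.mem_iff _).mpr hcy
  have hcF : algebraMap ↥A (X0.FF N) c ≠ 0 := by
    intro h
    apply hc0
    have h1 : algebraMap Qbar (X0.FF N) (c : Qbar) = 0 := h
    have h2 : (c : Qbar) = 0 := by
      have := (algebraMap Qbar (X0.FF N)).injective (a₁ := (c : Qbar)) (a₂ := 0)
        (by rw [h1, map_zero])
      exact this
    exact Subtype.ext h2
  have hz0 : (⟨algebraMap ↥A (X0.FF N) c * y, hz⟩ : ↥S.B) ≠ 0 := by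
    intro h
    have := congrArg Subtype.val h
    exact mul_ne_zero hcF hy0 this
  obtain ⟨c', b', hcb, hb'⟩ := S.sat _ hz0
  obtain ⟨Y', hY'⟩ := hS.exists_series b'
  have hred := hS.red_eq b' Y' hY'
  -- a coefficient of `Y'` which is a unit
  have hne : coeffMap (resA A) Y' ≠ 0 := by
    rw [← hred]
    intro h
    exact hb' (Subtype.ext h)
  obtain ⟨k, hk⟩ : ∃ k : ℤ, (coeffMap (resA A) Y').coeff k ≠ 0 := by
    by_contra hcon
    apply hne
    ext j
    by_contra hj
    exact hcon ⟨j, hj⟩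
  rw [coeffMap_coeff] at hk
  have hunit : IsUnit (Y'.coeff k) := by
    rw [← IsLocalRing.residue_ne_zero_iff_isUnit]
    exact hk
  -- the series identity `c Y = c' Y'`
  have hser : (c : Qbar) * (Y.coeff k : Qbar) = (c' : Qbar) * (Y'.coeff k : Qbar) := by
    have h1 : ((algebraMap ↥A (X0.FF N) c * y : X0.FF N) : LaurentSeries Qbar) =
        ((algebraMap Qbar (X0.FF N) (c' : Qbar) * (b' : X0.FF N) : X0.FF N) :
          LaurentSeries Qbar) := congrArg Subtype.val hcb
    have h2 : (((algebraMap ↥A (X0.FF N) c * y : X0.FF N) : LaurentSeries Qbar)).coeff k =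
        (((algebraMap Qbar (X0.FF N) (c' : Qbar) * (b' : X0.FF N) : X0.FF N) :
          LaurentSeries Qbar)).coeff k := by rw [h1]
    have e1 : ((algebraMap ↥A (X0.FF N) c * y : X0.FF N) : LaurentSeries Qbar) =
        HahnSeries.C (c : Qbar) * (y : LaurentSeries Qbar) := by
      rw [MulMemClass.coe_mul, coe_algebraMap_A]
    have e2 : ((algebraMap Qbar (X0.FF N) (c' : Qbar) * (b' : X0.FF N) : X0.FF N) :
          LaurentSeries Qbar) =
        HahnSeries.C (c' : Qbar) * ((b' : X0.FF N) : LaurentSeries Qbar) := by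
      rw [MulMemClass.coe_mul, coe_algebraMap_Qbar]
    rw [e1, e2, ← hY, ← hY', HahnSeries.C_mul_eq_smul, HahnSeries.C_mul_eq_smul] at h2
    simpa using h2
  obtain ⟨w, hw⟩ := hunit.exists_right_inv
  -- `c' = c u`, `u := Y_k w`
  set u : ↥A := Y.coeff k * w with hu
  have hc' : (c' : Qbar) = (c : Qbar) * (u : Qbar) := by
    have hw' : ((Y'.coeff k : ↥A) : Qbar) * (w : Qbar) = 1 := by
      have := congrArg Subtype.val hw
      simpa using this
    have : (c' : Qbar) = (c' : Qbar) * ((Y'.coeff k : ↥A) : Qbar) * (w : Qbar) := by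
      rw [mul_assoc, hw', mul_one]
    rw [this, ← hser, hu]
    push_cast
    ring
  -- `y = u b'`
  have hyu : y = algebraMap Qbar (X0.FF N) (u : Qbar) * (b' : X0.FF N) := by
    have h1 : algebraMap ↥A (X0.FF N) c * y =
        algebraMap ↥A (X0.FF N) c * (algebraMap Qbar (X0.FF N) (u : Qbar) * (b' : X0.FF N)) := by
      have hcb' : algebraMap ↥A (X0.FF N) c * y =
          algebraMap Qbar (X0.FF N) (c' : Qbar) * (b' : X0.FF N) := hcb
      rw [hcb', hc', map_mul, mul_assoc]
      rfl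
    exact mul_left_cancel₀ hcF h1
  rw [hyu]
  exact S.B.mul_mem (S.const_mem u) b'.2

end Sat

/-! ### morphisms of coefficientwise charts -/

section ChartHomOf

variable {A : ValuationSubring Qbar} {M M' : ℕ} [NeZero M] [NeZero M']
  {x : X0.FF M} {hx : IsGen Qbar x} {x' : X0.FF M'} {hx' : IsGen Qbar x'}

/-- integrality over `A[s]` is transported into the chart. -/
theorem map_mem_chart (s : X0.FF M) (s' : X0.FF M') (φ : X0.FF M →ₐ[Qbar] X0.FF M')
    (hφs : φ s ∈ chart ↥A s') (b : X0.FF M) (hb : b ∈ chart ↥A s) : φ b ∈ chart ↥A s' := by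
  apply chart_intcl
  have hb' : IsIntegral (Algebra.adjoin ↥A {s}) b := hb
  have hle : ∀ z ∈ Algebra.adjoin ↥A {s}, φ z ∈ chart ↥A s' := by
    intro z hz
    induction hz using Algebra.adjoin_induction with
    | mem z hz =>
      rw [Set.mem_singleton_iff] at hz
      rw [hz]
      exact hφs
    | algebraMap a =>
      have : φ (algebraMap ↥A (X0.FF M) a) = algebraMap ↥A (X0.FF M') a := φ.commutes (a : Qbar)
      rw [this]
      exact Subalgebra.algebraMap_mem _ a
    | add y z _ _ hy hz => rw [map_add]; exact Subalgebra.add_mem _ hy hz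
    | mul y z _ _ hy hz => rw [map_mul]; exact Subalgebra.mul_mem _ hy hz
  rw [isIntegral_subalgebra_iff] at hb' ⊢
  obtain ⟨P, hP, hcoeff, hPb⟩ := hb'
  refine ⟨P.map φ.toRingHom, hP.map _, fun i => ?_, ?_⟩
  · rw [Polynomial.coeff_map]
    exact hle _ (hcoeff i)
  · rw [Polynomial.eval_map]
    have := Polynomial.eval₂_hom (p := P) φ.toRingHom b
    rw [hPb, map_zero] at this
    exact this

/-- **a morphism of coefficientwise charts** from its action on `q`-expansions: `φ s ∈ S'.B`, and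
`φ`, `φb` are induced by one operation on `A`-integral series. -/
theorem chartHom_of
    (S : ChartSpec A hx ↥(modularFunctionFieldFullC (kA A) M))
    (S' : ChartSpec A hx' ↥(modularFunctionFieldFullC (kA A) M'))
    (hS : CoeffChart (F₀ := modularFunctionFieldFull M) S)
    (hS' : CoeffChart (F₀ := modularFunctionFieldFull M') S')
    (φ : X0.FF M →ₐ[Qbar] X0.FF M')
    (φb : ↥(modularFunctionFieldFullC (kA A) M) →ₐ[kA A] ↥(modularFunctionFieldFullC (kA A) M'))
    (hφs : φ S.s ∈ S'.B)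
    (hlift : ∀ (Y : LaurentSeries ↥A) (b : X0.FF M),
      coeffMap A.subtype Y = (b : LaurentSeries Qbar) →
      ∃ Y' : LaurentSeries ↥A,
        coeffMap A.subtype Y' = ((φ b : X0.FF M') : LaurentSeries Qbar) ∧
        ∀ g : ↥(modularFunctionFieldFullC (kA A) M),
          (g : LaurentSeries (kA A)) = coeffMap (resA A) Y →
          ((φb g : ↥(modularFunctionFieldFullC (kA A) M')) : LaurentSeries (kA A)) =
            coeffMap (resA A) Y') :
    ChartHom S S' φ φb := by
  have hmem : ∀ b ∈ S.B, φ b ∈ S'.B := by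
    intro b hb
    rw [hS'.mem_iff]
    exact map_mem_chart S.s S'.s φ ((hS'.mem_iff _).mp hφs) b ((hS.mem_iff b).mp hb)
  refine ⟨hmem, ?_⟩
  intro b hb
  obtain ⟨Y, hY⟩ := hS.exists_series ⟨b, hb⟩
  have h1 := hS.red_eq ⟨b, hb⟩ Y hY
  obtain ⟨Y', hY'1, hY'2⟩ := hlift Y b hY
  have h2 := hS'.red_eq ⟨φ b, hmem b hb⟩ Y' hY'1
  apply Subtype.ext
  rw [h2, hY'2 _ h1]

end ChartHomOf

/-! ### the degeneracy maps -/

section Degeneracy

open Fermat.Agent.U44.DegreeC4 Fermat.Agent.ES.N34.ModEqBar23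
open Fermat.Agent.RED.BASE.Interface12

variable {A : ValuationSubring Qbar} {M r : ℕ} [NeZero M] [NeZero r]

/-- the series operation behind `(α, ᾱ)`: the identity. -/
theorem hlift_alpha (Y : LaurentSeries ↥A) (b : X0.FF M)
    (hY : coeffMap A.subtype Y = (b : LaurentSeries Qbar)) :
    ∃ Y' : LaurentSeries ↥A,
      coeffMap A.subtype Y' = ((heckeAlphaBar Qbar M r b : X0.FF (M * r)) : LaurentSeries Qbar) ∧
      ∀ g : ↥(modularFunctionFieldFullC (kA A) M),
        (g : LaurentSeries (kA A)) = coeffMap (resA A) Y →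
        ((alphaC (kA A) M r g : ↥(modularFunctionFieldFullC (kA A) (M * r))) :
          LaurentSeries (kA A)) = coeffMap (resA A) Y' := by
  refine ⟨Y, ?_, fun g hg => ?_⟩
  · rw [coe_heckeAlphaBar, hY]
  · rw [coe_alphaC, hg]

/-- the series operation behind `(β, β̄)`: `q ↦ q^r`. -/
theorem hlift_beta (Y : LaurentSeries ↥A) (b : X0.FF M)
    (hY : coeffMap A.subtype Y = (b : LaurentSeries Qbar)) :
    ∃ Y' : LaurentSeries ↥A,
      coeffMap A.subtype Y' = ((heckeBetaBar Qbar M r b : X0.FF (M * r)) : LaurentSeries Qbar) ∧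
      ∀ g : ↥(modularFunctionFieldFullC (kA A) M),
        (g : LaurentSeries (kA A)) = coeffMap (resA A) Y →
        ((betaC (kA A) M r g : ↥(modularFunctionFieldFullC (kA A) (M * r))) :
          LaurentSeries (kA A)) = coeffMap (resA A) Y' := by
  refine ⟨qExpand ↥A r Y, ?_, fun g hg => ?_⟩
  · rw [coe_heckeBetaBar, coeffMap_qExpand, hY]
  · rw [coe_betaC, hg, coeffMap_qExpand]

end Degeneracy

/-! ### the two models -/

section Models

open Fermat.Agent.U44.DegreeC4 Fermat.Agent.ES.N34.ModEqBar23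
open Fermat.Agent.RED.BASE.Interface12

variable {A : ValuationSubring Qbar} {n e : ℕ} [NeZero n] (hb : BaseHyp n e)
  {M r : ℕ} [NeZero M] [NeZero r] (hnM : n ∣ M) (hr : r.Prime) (hrn : ¬ r ∣ n)
  {x : X0.FF M} {hx : IsGen Qbar x} {x' : X0.FF (M * r)} {hx' : IsGen Qbar x'}
  (T : TwoCharts A hx ↥(modularFunctionFieldFullC (kA A) M))
  (T' : TwoCharts A hx' ↥(modularFunctionFieldFullC (kA A) (M * r)))
  (hS0 : CoeffChart (F₀ := modularFunctionFieldFull M) T.S0)
  (hS1 : CoeffChart (F₀ := modularFunctionFieldFull M) T.S1)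
  (hS0' : CoeffChart (F₀ := modularFunctionFieldFull (M * r)) T'.S0)
  (hS1' : CoeffChart (F₀ := modularFunctionFieldFull (M * r)) T'.S1)
  (hs0 : T.S0.s = tF M (tMem_of_dvd hb hnM))
  (hs0' : T'.S0.s = tF (M * r) (tMem_of_dvd hb (Dvd.dvd.mul_right hnM r)))

theorem coe_tF' {N : ℕ} [NeZero N] (h : TMem n e N) :
    ((tF N h : X0.FF N) : LaurentSeries Qbar) = tK n e := rfl

theorem alpha_tF (h : TMem n e M) (h' : TMem n e (M * r)) :
    heckeAlphaBar Qbar M r (tF M h) = tF (M * r) h' := by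
  apply Subtype.ext
  rw [coe_heckeAlphaBar, coe_tF', coe_tF']

theorem coe_beta_tF (h : TMem n e M) :
    ((heckeBetaBar Qbar M r (tF M h) : X0.FF (M * r)) : LaurentSeries Qbar) =
      qExpand Qbar r (tK n e) := by
  rw [coe_heckeBetaBar, coe_tF']

include hs0 hs0' in
theorem alpha_s0 : heckeAlphaBar Qbar M r T.S0.s = T'.S0.s := by
  rw [hs0, hs0', alpha_tF]

include hs0 hs0' in
theorem alpha_s1 : heckeAlphaBar Qbar M r T.S1.s = T'.S1.s := by
  rw [T.s_inv, T'.s_inv, map_inv₀, alpha_s0 hb hnM T T' hs0 hs0']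

include hS0 hS0' hs0 hs0' in
/-- `(α, ᾱ)` is a morphism of the charts `0`. -/
theorem chartHom_alpha0 :
    ChartHom T.S0 T'.S0 (heckeAlphaBar Qbar M r) (alphaC (kA A) M r) :=
  chartHom_of T.S0 T'.S0 hS0 hS0' _ _
    (by rw [alpha_s0 hb hnM T T' hs0 hs0']; exact T'.S0.s_mem) hlift_alpha

include hS1 hS1' hs0 hs0' in
/-- `(α, ᾱ)` is a morphism of the charts `1`. -/
theorem chartHom_alpha1 :
    ChartHom T.S1 T'.S1 (heckeAlphaBar Qbar M r) (alphaC (kA A) M r) :=
  chartHom_of T.S1 T'.S1 hS1 hS1' _ _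
    (by rw [alpha_s1 hb hnM T T' hs0 hs0']; exact T'.S1.s_mem) hlift_alpha

include hs0 hs0' hr hrn in
/-- (I1) at level `M r`: `βt` is integral over `ℚbar[t]`. -/
theorem isIntegral_beta_s0 :
    IsIntegral (Algebra.adjoin Qbar {T'.S0.s}) (heckeBetaBar Qbar M r T.S0.s) := by
  apply Fermat.Agent.RED.PUR.PlaceIntegral3.isIntegral_polyRing_of_map (K := Qbar)
    (F' := LaurentSeries Qbar)
  have h := isIntegral_qExpand_tK r hb hr hrn
  have h1 : algebraMap (X0.FF (M * r)) (LaurentSeries Qbar) T'.S0.s = tK n e := by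
    rw [hs0']; rfl
  have h2 : algebraMap (X0.FF (M * r)) (LaurentSeries Qbar) (heckeBetaBar Qbar M r T.S0.s) =
      qExpand Qbar r (tK n e) := by
    rw [hs0]
    exact coe_beta_tF _
  rw [h1, h2]
  exact h

include hs0 hs0' hr hrn in
/-- (I3) at level `M r`: `(βt)⁻¹` is integral over `ℚbar[t⁻¹]`. -/
theorem isIntegral_beta_s1 :
    IsIntegral (Algebra.adjoin Qbar {T'.S1.s}) (heckeBetaBar Qbar M r T.S1.s) := by
  apply Fermat.Agent.RED.PUR.PlaceIntegral3.isIntegral_polyRing_of_map (K := Qbar)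
    (F' := LaurentSeries Qbar)
  have h := isIntegral_inv_qExpand_tK r hb hr hrn
  have h1 : algebraMap (X0.FF (M * r)) (LaurentSeries Qbar) T'.S1.s = (tK n e)⁻¹ := by
    rw [T'.s_inv, map_inv₀, hs0']
    congr 1
  have h2 : algebraMap (X0.FF (M * r)) (LaurentSeries Qbar) (heckeBetaBar Qbar M r T.S1.s) =
      (qExpand Qbar r (tK n e))⁻¹ := by
    rw [T.s_inv, map_inv₀, map_inv₀, hs0]
    congr 1
  rw [h1, h2]
  exact h

include hS0 hS0' hs0 hs0' hr hrn in
theorem beta_s0_mem : heckeBetaBar Qbar M r T.S0.s ∈ T'.S0.B := by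
  obtain ⟨Y, hY⟩ := hS0.exists_series T.S0.sB
  obtain ⟨Y', hY', -⟩ := hlift_beta (r := r) Y T.S0.s hY
  exact mem_B_of_isIntegral T'.S0 hS0' _ (isIntegral_beta_s0 hb hnM hr hrn T T' hs0 hs0') Y' hY'

include hS1 hS1' hs0 hs0' hr hrn in
theorem beta_s1_mem : heckeBetaBar Qbar M r T.S1.s ∈ T'.S1.B := by
  obtain ⟨Y, hY⟩ := hS1.exists_series T.S1.sB
  obtain ⟨Y', hY', -⟩ := hlift_beta (r := r) Y T.S1.s hY
  exact mem_B_of_isIntegral T'.S1 hS1' _ (isIntegral_beta_s1 hb hnM hr hrn T T' hs0 hs0') Y' hY'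

include hS0 hS0' hs0 hs0' hr hrn in
/-- `(β, β̄)` is a morphism of the charts `0`. -/
theorem chartHom_beta0 :
    ChartHom T.S0 T'.S0 (heckeBetaBar Qbar M r) (betaC (kA A) M r) :=
  chartHom_of T.S0 T'.S0 hS0 hS0' _ _
    (beta_s0_mem hb hnM hr hrn T T' hS0 hS0' hs0 hs0') hlift_beta

include hS1 hS1' hs0 hs0' hr hrn in
/-- `(β, β̄)` is a morphism of the charts `1`. -/
theorem chartHom_beta1 :
    ChartHom T.S1 T'.S1 (heckeBetaBar Qbar M r) (betaC (kA A) M r) :=
  chartHom_of T.S1 T'.S1 hS1 hS1' _ _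
    (beta_s1_mem hb hnM hr hrn T T' hS1 hS1' hs0 hs0') hlift_beta

end Models

/-! ### the interface -/

section Interface

open Fermat.Agent.U44.DegreeC4

variable {v : ℕ} {A : ValuationSubring Qbar} {M : ℕ} [NeZero M]

/-- **Place compatibility of the reductions at the levels `M` and `M r`.**  For every two-chart
model `m` of level `M` there is a two-chart model `m'` of level `M r` (`r` prime, `r ∤ M`, `r ≠ v`)
such that the reduction maps on places commute with both degeneracy maps: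
`m.rPl (P'|α) = (m'.rPl P')|ᾱ` and `m.rPl (P'|β) = (m'.rPl P')|β̄`. -/
theorem exists_model_compat (hv : v.Prime) (hA : A.LiesOverPrime v) (m : RedModel v A M)
    (r : ℕ) [NeZero r] (hr : r.Prime) (hrM : ¬ r ∣ M) (hrv : r ≠ v) :
    ∃ m' : RedModel v A (M * r),
      (∀ (hα : (heckeAlphaBar Qbar M r).toRingHom.IsIntegral)
        (hαC : (alphaC (kA A) M r).toRingHom.IsIntegral)
        (P' : Place Qbar (modularFunctionFieldBar (M * r))),
        m.rPl (P'.restrictAlong (heckeAlphaBar Qbar M r) hα) =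
          (m'.rPl P').restrictAlong (alphaC (kA A) M r) hαC) ∧
      (∀ (hβ : (heckeBetaBar Qbar M r).toRingHom.IsIntegral)
        (hβC : (betaC (kA A) M r).toRingHom.IsIntegral)
        (P' : Place Qbar (modularFunctionFieldBar (M * r))),
        m.rPl (P'.restrictAlong (heckeBetaBar Qbar M r) hβ) =
          (m'.rPl P').restrictAlong (betaC (kA A) M r) hβC) := by
  haveI : Fact v.Prime := ⟨hv⟩
  haveI : IsAlgClosed (kA A) := Fermat.Agent.ES.KRON.KronInst10.isAlgClosed_residueField A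
  have hvMr : ¬ v ∣ M * r := by
    intro h
    rcases hv.dvd_mul.mp h with h' | h'
    · exact m.hℓM h'
    · exact hrv ((Nat.prime_dvd_prime_iff_eq hv hr).mp h').symm
  have hrn : ¬ r ∣ m.n := fun h => hrM (h.trans m.hnM)
  obtain ⟨x', hx', T', hS0', hS1', hs0', peel0', peel1'⟩ :=
    Fermat.Agent.ES.TOP.ModelAtFinal8.modelAt v hv A hA m.n m.e m.hb (M * r)
      (Dvd.dvd.mul_right m.hnM r) hvMr
  set m' : RedModel v A (M * r) :=
    ⟨m.n, m.e, m.neZero_n, m.hb, Dvd.dvd.mul_right m.hnM r, hvMr, x', hx', T', hS0', hS1', hs0',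
      peel0', peel1'⟩ with hm'
  have hxt := m.isGen_red_s hA
  have hxt' := m'.isGen_red_s hA
  refine ⟨m', ?_, ?_⟩
  · intro hα hαC P'
    exact r_restrictAlong m.T T' hα hαC hxt hxt'
      (chartHom_alpha0 m.hb m.hnM m.T T' m.hS0 hS0' m.hs0 hs0')
      (chartHom_alpha1 m.hb m.hnM m.T T' m.hS1 hS1' m.hs0 hs0') P'
  · intro hβ hβC P'
    exact r_restrictAlong m.T T' hβ hβC hxt hxt'
      (chartHom_beta0 m.hb m.hnM hr hrn m.T T' m.hS0 hS0' m.hs0 hs0')
      (chartHom_beta1 m.hb m.hnM hr hrn m.T T' m.hS1 hS1' m.hs0 hs0') P'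

end Interface

end Fermat.Agent.M15.HeckeRed7
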