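/-
M15 / the end (lead): **`s15 : S15Statement`, the frozen statement S15, with no hypothesis left.**

`FlatEndC2.s15_of_w3` (helper2: S15 from W3 = `Assemble9.HeckeStable` alone; everything else of the
Eisenstein descent is plugged in there) applied to `W3Glue9.heckeStable_of_placeCompat` (helper9)
and helper7's `HeckeRed7.exists_model_compat` (leaf L1: the reduction models of levels `M` and `M r`
with the same Hauptmodul base are compatible with restriction of places along `α`, `β`).
-/
import Mathlib
import Fermat.Agent.M15.FlatEndC2
import Fermat.Agent.M15.W3Glue9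
import Fermat.Agent.M15.HeckeRed7

set_option autoImplicit false
set_option linter.style.haveILetI false
set_option linter.unusedVariables false
set_option synthInstance.maxHeartbeats 400000

noncomputable section

namespace Fermat.Agent.M15.S15Lead0

open AlgebraicCurve ModularCurve
open Fermat.Agent.M15.Contracts9 Fermat.Agent.M15.W3Glue9
open Fermat.Agent.FF.RedIface9 Fermat.Agent.RED.Interface4 Fermat.Agent.RED.LVL

/-- leaf L1 at the auxiliary level. -/
theorem placeCompat (p : ℕ) [NeZero p] : PlaceCompat p := by
  intro v hv hvp hv2 A hA r _ hr hrM hrv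
  haveI : Fact v.Prime := ⟨hv⟩
  haveI := LevelDegree17.neZero_auxLevel v p
  exact Fermat.Agent.M15.HeckeRed7.exists_model_compat hv hA
    (redModel v hv A hA (auxLevel v p) (hauptLevel_auxLevel hv hvp)) r hr hrM hrv

/-- **W3 = (RED-T)**, unconditional. -/
theorem heckeStable (p : ℕ) [NeZero p] : Fermat.Agent.M15.Assemble9.HeckeStable p :=
  heckeStable_of_placeCompat p (placeCompat p)

/-- **the frozen statement S15.** -/
theorem s15 : S15Statement :=
  Fermat.Agent.M15.FlatEndC2.s15_of_w3 fun p hp _ =>
    haveI : NeZero p := ⟨hp.ne_zero⟩
    heckeStable p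

end Fermat.Agent.M15.S15Lead0
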