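import Mathlib

set_option autoImplicit false

namespace Fermat.Agent.M15.AddAlg7

/-- The explicit regular part of the division-free addition expression at `z = 0`
(machine generated; `H1 H2 H3` are the remainders of the three expansions). -/
noncomputable def Rpoly (P Q a b H1 H2 H3 z : ℂ) : ℂ :=
  ((1) * H3 + (1) * H2 + (3) * H1 + (1 / 4) * b + (3 / 4) * P * a + (-5) * P ^ 3) * z ^ 0 +
    ((3 / 20) * Q * a + (-3) * P ^ 2 * Q) * z ^ 1 +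
    ((-1 / 50) * a ^ 2 + (-2) * P * H3 + (-1 / 10) * P ^ 2 * a + (3) * P ^ 4) * z ^ 2 +
    ((1 / 2) * Q * H2 + (2) * Q * H1 + (1 / 10) * P * Q * a + (2) * P ^ 3 * Q) * z ^ 3 +
    ((1 / 10) * a * H3 + (-1 / 20) * a * H2 + (-1 / 5) * a * H1 + (1 / 40) * P * a ^ 2 + (1) * P ^ 2 * H3 + (3) * P ^ 2 * H1 + (-3 / 10) * P ^ 3 * a) * z ^ 4 +
    ((1 / 400) * Q * a ^ 2 + (2) * P * Q * H1 + (-1 / 5) * P ^ 2 * Q * a) * z ^ 5 +
    ((-1 / 4) * H2 ^ 2 + (2) * H1 * H3 + (3) * H1 ^ 2 + (-1 / 2000) * a ^ 3 + (-1 / 10) * P * a * H3 + (1 / 2) * P * a * H1 + (3 / 400) * P ^ 2 * a ^ 2 + (-6) * P ^ 3 * H1) * z ^ 6 +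
    ((1 / 10) * Q * a * H1 + (1 / 200) * P * Q * a ^ 2 + (-4) * P ^ 2 * Q * H1) * z ^ 7 +
    ((1 / 400) * a ^ 2 * H3 + (-7 / 400) * a ^ 2 * H1 + (-2) * P * H1 * H3 + (3 / 10) * P ^ 2 * a * H1) * z ^ 8 +
    ((1) * Q * H1 ^ 2 + (1 / 5) * P * Q * a * H1) * z ^ 9 +
    ((1 / 10) * a * H1 * H3 + (-1 / 10) * a * H1 ^ 2 + (3) * P ^ 2 * H1 ^ 2) * z ^ 10 +
    ((2) * P * Q * H1 ^ 2) * z ^ 11 +
    ((1) * H1 ^ 2 * H3 + (1) * H1 ^ 3) * z ^ 12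

/-- The key algebraic identity: after inserting the three expansions, the poles of the addition
expression cancel. -/
theorem key_algebra (P Q a b H1 H2 H3 z : ℂ) (hz : z ≠ 0) (hrel : Q ^ 2 = 4 * P ^ 3 - a * P - b) :
    ((P + Q * z + (6 * P ^ 2 - a / 2) / 2 * z ^ 2 + (12 * P * Q) / 6 * z ^ 3 + z ^ 4 * H3) +
        (a / 20 * z ^ 2 + z ^ 4 * H1 + 1 / z ^ 2) + P) *
      ((a / 20 * z ^ 2 + z ^ 4 * H1 + 1 / z ^ 2) - P) ^ 2 -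
      1 / 4 * ((a / 10 * z + z ^ 3 * H2 - 2 / z ^ 3) - Q) ^ 2 =
    Rpoly P Q a b H1 H2 H3 z := by
  unfold Rpoly
  field_simp
  linear_combination (-(30720000000000000000 : ℂ) * z ^ 6) * hrel

end Fermat.Agent.M15.AddAlg7
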