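import Fermat.Agent.M15.EllBasic7
import Fermat.Agent.M15.EllShift7
import Fermat.Agent.M15.AddAlg7

set_option autoImplicit false

open Filter Topology
open scoped PeriodPair Nat

noncomputable section

namespace Fermat.Agent.M15.AddThm7

open PeriodPair EllBasic7 EllDeriv7 EllTaylor7 EllShift7 AddAlg7

variable (L : PeriodPair)

/-- The division-free addition expression
`(℘(z+w) + ℘(z) + ℘(w)) (℘(z) - ℘(w))² - ¼ (℘'(z) - ℘'(w))²`. -/
def Gam (w z : ℂ) : ℂ :=
  (℘[L] (z + w) + ℘[L] z + ℘[L] w) * (℘[L] z - ℘[L] w) ^ 2 -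
    1 / 4 * (℘'[L] z - ℘'[L] w) ^ 2

lemma wp_eq_except_add (z : ℂ) : ℘[L] z = ℘[L - (0 : ℂ)] z + 1 / z ^ 2 := by
  have h := L.weierstrassPExcept_def (0 : L.lattice) z
  simp only [ZeroMemClass.coe_zero, sub_zero] at h
  rw [h]
  simp

lemma dwp_eq_except_sub (z : ℂ) : ℘'[L] z = ℘'[L - (0 : ℂ)] z - 2 / z ^ 3 := by
  have h := L.derivWeierstrassPExcept_def (0 : L.lattice) z
  simp only [ZeroMemClass.coe_zero, sub_zero] at h
  rw [h]
  ring

lemma meromorphic_shift (w : ℂ) : Meromorphic (fun z => ℘[L] (z + w)) := fun x =>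
  meromorphicAt_fun_comp_add_const_iff_meromorphicAt.2 (L.meromorphic_weierstrassP _)

lemma meromorphic_Gam (w : ℂ) : Meromorphic (Gam L w) := by
  have h1 := meromorphic_shift L w
  have h2 := L.meromorphic_weierstrassP
  have h3 := L.meromorphic_derivWeierstrassP
  unfold Gam
  fun_prop

lemma Gam_add_coe (w z : ℂ) (l : L.lattice) : Gam L w (z + l) = Gam L w z := by
  unfold Gam
  rw [add_right_comm z (l : ℂ) w, L.weierstrassP_add_coe, L.weierstrassP_add_coe,
    L.derivWeierstrassP_add_coe]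

lemma Gam_sub_coe (w z : ℂ) (l : L.lattice) : Gam L w (z - l) = Gam L w z := by
  rw [← Gam_add_coe L w (z - l) l, sub_add_cancel]

/-- Near `z = 0` the addition expression coincides with an analytic function. -/
lemma exists_analytic_Gam_zero {w : ℂ} (hw : w ∉ L.lattice) :
    ∃ R : ℂ → ℂ, AnalyticAt ℂ R 0 ∧ Gam L w =ᶠ[𝓝[≠] (0 : ℂ)] R := by
  obtain ⟨h1, hh1, he1⟩ := exists_expansion_weierstrassPExcept L
  obtain ⟨h2, hh2, he2⟩ := exists_expansion_derivWeierstrassPExcept L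
  obtain ⟨h3, hh3, he3⟩ := exists_expansion_shift L hw
  refine ⟨fun z => Rpoly (℘[L] w) (℘'[L] w) L.g₂ L.g₃ (h1 z) (h2 z) (h3 z) z, ?_, ?_⟩
  · unfold Rpoly
    fun_prop
  · filter_upwards [mem_nhdsWithin_of_mem_nhds he1, mem_nhdsWithin_of_mem_nhds he2,
      mem_nhdsWithin_of_mem_nhds he3, self_mem_nhdsWithin] with z hz1 hz2 hz3 hz0
    have hz0' : z ≠ 0 := hz0
    rw [← key_algebra (℘[L] w) (℘'[L] w) L.g₂ L.g₃ (h1 z) (h2 z) (h3 z) z hz0'
      (L.derivWeierstrassP_sq w hw)]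
    unfold Gam
    rw [hz3, wp_eq_except_add L z, dwp_eq_except_sub L z, hz1, hz2]

/-- Near a lattice point the addition expression coincides with an analytic function. -/
lemma exists_analytic_Gam_lattice {w : ℂ} (hw : w ∉ L.lattice) (l : L.lattice) :
    ∃ R : ℂ → ℂ, AnalyticAt ℂ R l ∧ Gam L w =ᶠ[𝓝[≠] (l : ℂ)] R := by
  obtain ⟨R, hR, he⟩ := exists_analytic_Gam_zero L hw
  refine ⟨fun z => R (z - l), ?_, ?_⟩
  · have : AnalyticAt ℂ R ((l : ℂ) - l) := by rwa [sub_self]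
    exact this.comp_of_eq (f := fun z : ℂ => z - l) (by fun_prop) rfl
  · have ht : Tendsto (fun z : ℂ => z - l) (𝓝[≠] (l : ℂ)) (𝓝[≠] (0 : ℂ)) := by
      refine tendsto_nhdsWithin_of_tendsto_nhds_of_eventually_within _ ?_ ?_
      · have : Tendsto (fun z : ℂ => z - l) (𝓝 (l : ℂ)) (𝓝 ((l : ℂ) - l)) :=
          (continuous_sub_right (l : ℂ)).tendsto _
        rw [sub_self] at this
        exact this.mono_left nhdsWithin_le_nhds
      · filter_upwards [self_mem_nhdsWithin] with z hz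
        simpa [sub_eq_zero] using hz
    filter_upwards [ht.eventually he] with z hz
    rw [← Gam_sub_coe L w z l]
    exact hz

end Fermat.Agent.M15.AddThm7
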