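import Fermat.Agent.M15.AddThm7

set_option autoImplicit false

open Filter Topology
open scoped PeriodPair Nat

noncomputable section

namespace Fermat.Agent.M15.AddThm7

open PeriodPair EllBasic7 EllDeriv7 EllTaylor7 EllShift7 AddAlg7

variable (L : PeriodPair)

lemma analyticAt_Gam {w z : ℂ} (hz : z ∉ L.lattice) (hzw : z + w ∉ L.lattice) :
    AnalyticAt ℂ (Gam L w) z := by
  have h1 : AnalyticAt ℂ ℘[L] z := L.analyticOnNhd_weierstrassP z hz
  have h2 : AnalyticAt ℂ ℘'[L] z := L.analyticOnNhd_derivWeierstrassP z hz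
  have h3 : AnalyticAt ℂ (fun z => ℘[L] (z + w)) z :=
    (L.analyticOnNhd_weierstrassP (z + w) hzw).comp_of_eq (f := fun z : ℂ => z + w)
      (by fun_prop) rfl
  unfold Gam
  fun_prop

/-- Near a point `z₀` with `z₀ + w ∈ L` the addition expression coincides with an analytic
function. -/
lemma exists_analytic_Gam_neg {w z₀ : ℂ} (hw : w ∉ L.lattice) (h : z₀ + w ∈ L.lattice) :
    ∃ R : ℂ → ℂ, AnalyticAt ℂ R z₀ ∧ Gam L w =ᶠ[𝓝[≠] z₀] R := by
  have hz₀ : z₀ ∉ L.lattice := fun h0 => hw (by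
    have := L.lattice.sub_mem h h0
    simpa using this)
  set l' : L.lattice := ⟨z₀ + w, h⟩ with hl'
  -- `B z = ℘ z - ℘ w` vanishes at `z₀`
  have hB : AnalyticAt ℂ (fun z => ℘[L] z - ℘[L] w) z₀ :=
    (L.analyticOnNhd_weierstrassP z₀ hz₀).sub analyticAt_const
  have hB0 : ℘[L] z₀ - ℘[L] w = 0 := by
    have : z₀ = -w + l' := by simp [hl']
    rw [this, L.weierstrassP_add_coe, L.weierstrassP_neg, sub_self]
  obtain ⟨b, hb, hbe⟩ := (natCast_le_analyticOrderAt hB (n := 1)).1 (by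
    rw [Nat.cast_one, ENat.one_le_iff_ne_zero]
    exact hB.analyticOrderAt_ne_zero.2 hB0)
  have hE : AnalyticAt ℂ (fun z => ℘[L - (l' : ℂ)] (z + w)) z₀ :=
    (L.analyticAt_weierstrassPExcept (l' : ℂ)).comp_of_eq (f := fun z : ℂ => z + w)
      (by fun_prop) rfl
  have hP : AnalyticAt ℂ ℘[L] z₀ := L.analyticOnNhd_weierstrassP z₀ hz₀
  have hP' : AnalyticAt ℂ ℘'[L] z₀ := L.analyticOnNhd_derivWeierstrassP z₀ hz₀
  refine ⟨fun z => (℘[L - (l' : ℂ)] (z + w) - 1 / (l' : ℂ) ^ 2 + ℘[L] z + ℘[L] w) *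
      ((z - z₀) ^ 2 * b z ^ 2) + b z ^ 2 - 1 / 4 * (℘'[L] z - ℘'[L] w) ^ 2, by fun_prop, ?_⟩
  filter_upwards [mem_nhdsWithin_of_mem_nhds hbe, self_mem_nhdsWithin] with z hz hz0
  have hz0' : z - z₀ ≠ 0 := sub_ne_zero.mpr hz0
  have e1 : ℘[L] (z + w) = ℘[L - (l' : ℂ)] (z + w) + (1 / (z - z₀) ^ 2 - 1 / (l' : ℂ) ^ 2) := by
    rw [← L.weierstrassPExcept_add l' (z + w)]
    have : z + w - (l' : ℂ) = z - z₀ := by simp [hl']
    rw [this]
  have e2 : ℘[L] z - ℘[L] w = (z - z₀) * b z := by simpa using hz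
  unfold Gam
  rw [e1, e2]
  field_simp
  ring

/-- The addition expression has nonnegative order everywhere. -/
lemma meromorphicOrderAt_Gam_nonneg {w : ℂ} (hw : w ∉ L.lattice) (x : ℂ) :
    0 ≤ meromorphicOrderAt (Gam L w) x := by
  by_cases hx : x ∈ L.lattice
  · obtain ⟨R, hR, he⟩ := exists_analytic_Gam_lattice L hw ⟨x, hx⟩
    rw [meromorphicOrderAt_congr he]
    exact hR.meromorphicOrderAt_nonneg
  · by_cases hxw : x + w ∈ L.lattice
    · obtain ⟨R, hR, he⟩ := exists_analytic_Gam_neg L hw hxw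
      rw [meromorphicOrderAt_congr he]
      exact hR.meromorphicOrderAt_nonneg
    · exact (analyticAt_Gam L hx hxw).meromorphicOrderAt_nonneg

lemma Gam_symm (w z : ℂ) : Gam L w z = Gam L z w := by
  unfold Gam
  rw [add_comm w z]
  ring

lemma Gam_self (w : ℂ) : Gam L w w = 0 := by
  unfold Gam
  ring

/-- The addition expression is constant on its analytic points. -/
lemma exists_const_Gam {w : ℂ} (hw : w ∉ L.lattice) :
    ∃ c : ℂ, ∀ z, z ∉ L.lattice → z + w ∉ L.lattice → Gam L w z = c := by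
  obtain ⟨c, hc⟩ := exists_const_of_meromorphic_periodic L
    ((meromorphic_Gam L w).meromorphicOn (s := Set.univ))
    (meromorphicOrderAt_Gam_nonneg L hw) (Gam_add_coe L w)
  exact ⟨c, fun z hz hzw => hc z (analyticAt_Gam L hz hzw)⟩

/-- First case: `2 w ∉ L`. -/
lemma Gam_eq_zero_of_two {w z : ℂ} (hw : w ∉ L.lattice) (h2w : w + w ∉ L.lattice)
    (hz : z ∉ L.lattice) (hzw : z + w ∉ L.lattice) : Gam L w z = 0 := by
  obtain ⟨c, hc⟩ := exists_const_Gam L hw
  rw [hc z hz hzw, ← hc w hw h2w, Gam_self]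

/-- There are points avoiding the three exceptional countable sets. -/
lemma exists_good_point (w : ℂ) :
    ∃ z : ℂ, z ∉ L.lattice ∧ z + w ∉ L.lattice ∧ z + z ∉ L.lattice := by
  have hc := countable_lattice L
  have h1 : {z : ℂ | z + w ∈ L.lattice}.Countable := by
    have : {z : ℂ | z + w ∈ L.lattice} = (fun x => x - w) '' (L.lattice : Set ℂ) := by
      ext z
      constructor
      · intro hz; exact ⟨z + w, hz, by simp⟩
      · rintro ⟨y, hy, rfl⟩; simpa using hy
    rw [this]; exact hc.image _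
  have h2 : {z : ℂ | z + z ∈ L.lattice}.Countable := by
    have : {z : ℂ | z + z ∈ L.lattice} = (fun x => x / 2) '' (L.lattice : Set ℂ) := by
      ext z
      constructor
      · intro hz; exact ⟨z + z, hz, by ring⟩
      · rintro ⟨y, hy, rfl⟩
        show y / 2 + y / 2 ∈ L.lattice
        rwa [add_halves]
    rw [this]; exact hc.image _
  have hall : ((L.lattice : Set ℂ) ∪ {z : ℂ | z + w ∈ L.lattice} ∪
      {z : ℂ | z + z ∈ L.lattice}).Countable := (hc.union h1).union h2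
  have hne : ((L.lattice : Set ℂ) ∪ {z : ℂ | z + w ∈ L.lattice} ∪
      {z : ℂ | z + z ∈ L.lattice}) ≠ Set.univ := by
    intro h
    rw [h] at hall
    exact not_countable_complex hall
  obtain ⟨z, hz⟩ := (Set.ne_univ_iff_exists_notMem _).1 hne
  simp only [Set.mem_union, Set.mem_setOf_eq, not_or] at hz
  exact ⟨z, hz.1.1, hz.1.2, hz.2⟩

/-- **The addition theorem of `℘`, division-free form.** -/
theorem addition_identity {w z : ℂ} (hw : w ∉ L.lattice) (hz : z ∉ L.lattice)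
    (hzw : z + w ∉ L.lattice) :
    (℘[L] (z + w) + ℘[L] z + ℘[L] w) * (℘[L] z - ℘[L] w) ^ 2 =
      1 / 4 * (℘'[L] z - ℘'[L] w) ^ 2 := by
  have key : Gam L w z = 0 := by
    obtain ⟨c, hc⟩ := exists_const_Gam L hw
    obtain ⟨z', hz', hz'w, h2z'⟩ := exists_good_point L w
    rw [hc z hz hzw, ← hc z' hz' hz'w, Gam_symm]
    exact Gam_eq_zero_of_two L hz' h2z' hw (by rwa [add_comm])
  unfold Gam at key
  linear_combination key

end Fermat.Agent.M15.AddThm7
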