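import Fermat.Agent.M15.AddThmB7

set_option autoImplicit false

open Filter Topology
open scoped PeriodPair Nat

noncomputable section

namespace Fermat.Agent.M15.AddThm7

open PeriodPair EllBasic7 EllDeriv7 EllTaylor7 EllShift7 AddAlg7

variable (L : PeriodPair)

/-- The addition formula for `℘` (abscissa). -/
theorem addition_formula {w z : ℂ} (hw : w ∉ L.lattice) (hz : z ∉ L.lattice)
    (hzw : z + w ∉ L.lattice) (hne : ℘[L] z ≠ ℘[L] w) :
    ℘[L] (z + w) = 1 / 4 * ((℘'[L] z - ℘'[L] w) / (℘[L] z - ℘[L] w)) ^ 2 - ℘[L] z - ℘[L] w := by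
  have h := addition_identity L hw hz hzw
  have hB : ℘[L] z - ℘[L] w ≠ 0 := sub_ne_zero.mpr hne
  field_simp
  linear_combination 4 * h

/-- pure algebra behind the ordinate formula -/
lemma ordinate_algebra (x y x₂ y₂ a b p₂ : ℂ) (hB : x - x₂ ≠ 0)
    (h1 : y ^ 2 = 4 * x ^ 3 - a * x - b) (h2 : y₂ ^ 2 = 4 * x₂ ^ 3 - a * x₂ - b)
    (hp : p₂ = 6 * x ^ 2 - a / 2) :
    1 / 4 * (2 * ((y - y₂) / (x - x₂)) *
        ((p₂ * (x - x₂) - (y - y₂) * y) / (x - x₂) ^ 2)) - y =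
      -((y - y₂) / (x - x₂)) *
        ((1 / 4 * ((y - y₂) / (x - x₂)) ^ 2 - x - x₂) - x) - y := by
  subst hp
  field_simp
  linear_combination (-(y - y₂)) * h1 + (y - y₂) * h2

/-- The addition formula for `℘'` (ordinate), obtained by differentiating the abscissa formula. -/
theorem addition_formula_deriv {w z : ℂ} (hw : w ∉ L.lattice) (hz : z ∉ L.lattice)
    (hzw : z + w ∉ L.lattice) (hne : ℘[L] z ≠ ℘[L] w) :
    ℘'[L] (z + w) = -((℘'[L] z - ℘'[L] w) / (℘[L] z - ℘[L] w)) * (℘[L] (z + w) - ℘[L] z) -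
      ℘'[L] z := by
  have hB : ℘[L] z - ℘[L] w ≠ 0 := sub_ne_zero.mpr hne
  -- the abscissa formula holds on a neighbourhood of `z`
  have hev : (fun z' => ℘[L] (z' + w)) =ᶠ[𝓝 z] fun z' =>
      1 / 4 * ((℘'[L] z' - ℘'[L] w) / (℘[L] z' - ℘[L] w)) ^ 2 - ℘[L] z' - ℘[L] w := by
    have hcont : ContinuousAt ℘[L] z := (L.analyticOnNhd_weierstrassP z hz).continuousAt
    have h3 : ∀ᶠ z' in 𝓝 z, z' + w ∉ L.lattice := by
      have : ContinuousAt (fun z' : ℂ => z' + w) z := by fun_prop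
      exact this.eventually ((isOpen_compl_lattice L).mem_nhds hzw)
    filter_upwards [(isOpen_compl_lattice L).mem_nhds hz, h3, hcont.eventually_ne hne]
      with z' h1 h2 h3
    exact addition_formula L hw h1 h2 h3
  have hP := hasDerivAt_weierstrassP L hz
  have hP' : HasDerivAt ℘'[L] (deriv ℘'[L] z) z :=
    (differentiableAt_derivWeierstrassP L hz).hasDerivAt
  have hd1 : HasDerivAt (fun z' => ℘[L] (z' + w)) (℘'[L] (z + w)) z :=
    (hasDerivAt_weierstrassP L hzw).comp_add_const z w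
  have hlam : HasDerivAt (fun z' => (℘'[L] z' - ℘'[L] w) / (℘[L] z' - ℘[L] w))
      ((deriv ℘'[L] z * (℘[L] z - ℘[L] w) - (℘'[L] z - ℘'[L] w) * ℘'[L] z) /
        (℘[L] z - ℘[L] w) ^ 2) z :=
    (hP'.sub_const _).div (hP.sub_const _) hB
  have hd2 : HasDerivAt (fun z' =>
      1 / 4 * ((℘'[L] z' - ℘'[L] w) / (℘[L] z' - ℘[L] w)) ^ 2 - ℘[L] z' - ℘[L] w)
      (1 / 4 * (2 * ((℘'[L] z - ℘'[L] w) / (℘[L] z - ℘[L] w)) *
        ((deriv ℘'[L] z * (℘[L] z - ℘[L] w) - (℘'[L] z - ℘'[L] w) * ℘'[L] z) /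
        (℘[L] z - ℘[L] w) ^ 2)) - ℘'[L] z) z := by
    have h5 := (((hlam.fun_pow 2).const_mul (1 / 4 : ℂ)).fun_sub hP).sub_const (℘[L] w)
    refine h5.congr_deriv ?_
    norm_num
  have hkey := hd1.unique (hd2.congr_of_eventuallyEq hev)
  rw [hkey, addition_formula L hw hz hzw hne]
  exact ordinate_algebra _ _ _ _ L.g₂ L.g₃ _ hB (L.derivWeierstrassP_sq z hz)
    (L.derivWeierstrassP_sq w hw) (deriv_derivWeierstrassP L hz)

end Fermat.Agent.M15.AddThm7
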