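/-
M15 / WIRE (lead): `Contracts0` = `Wire0.Contracts'` (nothing asked at the prime `2`; Hecke ring
`Contracts9.heckeRing p = ℤ[T_r : r ∤ 2 p]` after helper9's AMENDMENT 1) in which the descent is only
asked at ONE prime divisor `p'` of the order of `c0`.  So the descent at `2` is needed exactly when
the order of `c0` is a power of `2`.  Imported by no statement.
-/
import Mathlib
import Fermat.Agent.M15.Contracts9
import Fermat.Agent.M15.Wire0

set_option autoImplicit false
set_option linter.style.haveILetI false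
set_option linter.unusedVariables false

noncomputable section

namespace Fermat.Agent.M15.Contracts0

open ModularCurve AlgebraicCurve
open WeierstrassCurve WeierstrassCurve.Affine
open Fermat.Agent.M15.Contracts9

/-- the contracts of all chapters, for one level `p`: nothing asked at the prime `2`, one prime
divisor of the order of `c0`. -/
structure Contracts0 (p : ℕ) [NeZero p] : Prop where
  ex : ∃ (P0 Pinf : Pl p) (R : ∀ A : ValuationSubring Qb, RedPkg p A),
    CuspFacts p P0 Pinf ∧
    (∀ (r : Nat.Primes) (σ : GQ) (z : JZero p),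
      heckeOperatorBar p r (σ • z) = σ • heckeOperatorBar p r z) ∧
    (∀ (v : ℕ) (hv : v.Prime), v ≠ p → v ≠ 2 → ∀ A : ValuationSubring Qb, A.LiesOverPrime v →
      RedFacts p v hv A (R A)) ∧
    (∀ (W : WeierstrassCurve ℤ) (Q : ((W.map (Int.castRingHom ℚ))⁄(AlgebraicClosure ℚ)).Point),
      W.Δ ≠ 0 → (∀ σ : GQ, σ • Q = Q) → addOrderOf Q = p →
        Fermat.Agent.M15.Wire0.ModPointOdd p W Q P0 Pinf R) ∧
    (∃ p' : ℕ, p'.Prime ∧ p' ∣ addOrderOf (cl p P0 Pinf) ∧ SharpDescent p P0 Pinf p')

theorem Contracts0.of_prime {p : ℕ} [NeZero p] (hp : p.Prime)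
    (h : Fermat.Agent.M15.Wire0.Contracts' p) : Contracts0 p := by
  obtain ⟨P0, Pinf, R, hC, hGal, hRed, hMod, hSD⟩ := h.ex
  have hn01 : addOrderOf (cl p P0 Pinf) ≠ 1 := by
    intro h1
    exact hC.ne_zero (AddMonoid.addOrderOf_eq_one_iff.mp h1)
  exact ⟨P0, Pinf, R, hC, hGal, hRed, hMod, _, Nat.minFac_prime hn01, Nat.minFac_dvd _,
    hSD _ (Nat.minFac_prime hn01) (Nat.minFac_dvd _)⟩

end Fermat.Agent.M15.Contracts0
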