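/-
Programme M15 (S15), chapter WIRE, item W6d (helper4): **`cl(P - Q) ≠ 0` for two distinct places of
`ℚ̄(X₀(p))`, `p` prime, `p ∉ {2,3,5,7,13}`** (the field `ne_zero` of `Contracts9.CuspFacts`, for ANY two
distinct places `P0 ≠ Pinf`).

* abstract: a function field (with a generator, over an algebraically closed field of characteristic
  zero) carrying a function with a single simple pole has genus `0`
  (`genus_eq_zero_of_simple_pole`, from the Riemann–Hurwitz formula `X0/FFGenus.genus_eq` applied to
  the function itself: degree `1`, no ramification);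
* numerics: `genusFormula p > 0` for `p` prime outside `{2,3,5,7,13}`, hence `0 < genus` by S24;
* `cl_ne_zero`.
-/
import Mathlib
import Fermat.Agent.M15.Contracts9
import Fermat.Agent.S24
import Fermat.Agent.X0.FFGenus
import Fermat.Agent.X0.HasCanDivInst
import Fermat.Agent.J.DESC.NormalForm10

set_option autoImplicit false
set_option linter.style.haveILetI false
set_option linter.unusedVariables false
set_option linter.unusedSectionVars false
set_option linter.style.longLine false

noncomputable section

open AlgebraicCurve ModularCurve IntermediateField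

namespace Fermat.Agent.M15.CuspNe4

open Fermat.Agent.M15.Contracts9 Fermat.Agent.X0 Fermat.Agent.X0.FF

/-! ### a function with one simple pole forces genus zero -/

section Abstract

variable {K F : Type*} [Field K] [Field F] [Algebra K F] [IsAlgClosed K] [CharZero K]

/-- a single term of a finite sum of positive integers is at most the sum. -/
theorem le_finsum_of_pos {α : Type*} {s : Set α} (hs : s.Finite) (φ : α → ℤ)
    (hpos : ∀ a ∈ s, 0 ≤ φ a) {a : α} (ha : a ∈ s) : φ a ≤ ∑ᶠ (b : α) (_ : b ∈ s), φ b := by
  classical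
  rw [finsum_mem_eq_finite_toFinset_sum φ hs]
  exact Finset.single_le_sum (fun b hb => hpos b ((Set.Finite.mem_toFinset hs).mp hb))
    ((Set.Finite.mem_toFinset hs).mpr ha)

/-- **A function field with a function having a single, simple, pole has genus `0`.** -/
theorem genus_eq_zero_of_simple_pole [HasCanonicalDivisor (K := K) (F := F)] {x : F}
    (hx : IsGen K x) (f : F) (Q : Place K F) (hQ : Q.ord f = -1)
    (hpoles : ∀ v : Place K F, v.ord f < 0 → v = Q) : genus K F = 0 := by
  classical
  -- `f` is transcendental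
  have hftr : Transcendental K f := by
    intro halg
    obtain ⟨c, hc⟩ := eq_algebraMap_of_isAlgebraic halg
    rw [hc, FF.ord_algebraMap] at hQ
    omega
  have hf : IsGen K f := hx.of_transcendental hftr
  -- `[F : K(f)] = 1`
  have hn : (Module.finrank K⟮f⟯ F : ℤ) = 1 := by
    rw [← sum_ord_poles hf]
    have hset : {v : Place K F | v.ord f < 0} = {Q} := by
      ext v
      simp only [Set.mem_ofPred_eq, Set.mem_singleton_iff]
      constructor
      · exact hpoles v
      · rintro rfl; rw [hQ]; norm_num
    have : ∑ᶠ (v : Place K F) (_ : v.ord f < 0), -v.ord f =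
        ∑ᶠ (v : Place K F) (_ : v ∈ ({Q} : Set (Place K F))), -v.ord f := by
      refine finsum_congr fun v => ?_
      have : (v.ord f < 0) = (v ∈ ({Q} : Set (Place K F))) := by
        rw [← hset]; rfl
      rw [this]
    rw [this, finsum_mem_singleton, hQ]
    norm_num
  -- no ramification
  have hS : ∀ c ∉ (∅ : Finset K), ∀ v : Place K F, 0 < v.ord (f - algebraMap K F c) →
      v.ord (f - algebraMap K F c) = 1 := by
    intro c _ v hv
    have h1 := sum_ord_fibre hf c
    rw [hn] at h1
    have h2 := le_finsum_of_pos (finite_fibre hf c)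
      (fun w : Place K F => w.ord (f - algebraMap K F c)) (fun w hw => le_of_lt hw)
      (a := v) hv
    have h3 : ∑ᶠ (b : Place K F) (_ : b ∈ {v : Place K F | 0 < v.ord (f - algebraMap K F c)}),
        b.ord (f - algebraMap K F c) = 1 := h1
    rw [h3] at h2
    omega
  have hg := FFGenus.genus_eq hf ∅ hS
  rw [hg, Finset.sum_empty, hn]
  have hc : (0 : ℤ) ≤ (Nat.card {v : Place K F // v.ord f < 0} : ℤ) := Int.natCast_nonneg _
  have : ((0 : ℤ) - 1 - (Nat.card {v : Place K F // v.ord f < 0} : ℤ) + 2).toNat ≤ 1 := by
    omega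
  omega

end Abstract

/-! ### numerics of the genus formula at a prime level -/

section Numerics

theorem dedekindPsi_prime {p : ℕ} (hp : p.Prime) : dedekindPsi p = p + 1 := by
  rw [dedekindPsi, Nat.Prime.divisors hp]
  have h1 : (1 : ℕ) ≠ p := hp.one_lt.ne
  rw [Finset.filter_true_of_mem (by
    intro d hd
    rcases Finset.mem_insert.mp hd with rfl | hd
    · exact squarefree_one
    · rw [Finset.mem_singleton] at hd
      rw [hd]
      exact hp.squarefree)]
  rw [Finset.sum_pair h1, Nat.div_one, Nat.div_self hp.pos]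

theorem cuspCount_prime {p : ℕ} (hp : p.Prime) : cuspCount p = 2 := by
  rw [cuspCount, Nat.Prime.divisors hp]
  have h1 : (1 : ℕ) ≠ p := hp.one_lt.ne
  rw [Finset.sum_pair h1, Nat.div_one, Nat.div_self hp.pos]
  simp

/-- at most two square roots of `-1` in a field. -/
theorem nuTwo_le_two {p : ℕ} (hp : p.Prime) : nuTwo p ≤ 2 := by
  classical
  haveI : Fact p.Prime := ⟨hp⟩
  let P : Polynomial (ZMod p) := Polynomial.X ^ 2 + 1
  have hP : P ≠ 0 := by
    have : P.natDegree = 2 := by
      simp only [P]
      compute_degree!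
    intro h0
    rw [h0] at this
    simp at this
  have hdeg : P.natDegree = 2 := by
    simp only [P]
    compute_degree!
  have hsub : {x : ZMod p | x ^ 2 + 1 = 0} ⊆ (P.roots.toFinset : Set (ZMod p)) := by
    intro x hx
    rw [Finset.mem_coe, Multiset.mem_toFinset, Polynomial.mem_roots hP, Polynomial.IsRoot.def]
    simpa [P] using hx
  have h1 : nuTwo p = Nat.card ↥{x : ZMod p | x ^ 2 + 1 = 0} := rfl
  rw [h1, Nat.card_coe_set_eq]
  calc {x : ZMod p | x ^ 2 + 1 = 0}.ncard ≤ (P.roots.toFinset : Set (ZMod p)).ncard :=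
        Set.ncard_le_ncard hsub (Finset.finite_toSet _)
    _ = P.roots.toFinset.card := Set.ncard_coe_finset _
    _ ≤ Multiset.card P.roots := Multiset.toFinset_card_le _
    _ ≤ P.natDegree := Polynomial.card_roots' P
    _ = 2 := hdeg

/-- at most two primitive cube roots of unity in a field. -/
theorem nuThree_le_two {p : ℕ} (hp : p.Prime) : nuThree p ≤ 2 := by
  classical
  haveI : Fact p.Prime := ⟨hp⟩
  let P : Polynomial (ZMod p) := Polynomial.X ^ 2 + Polynomial.X + 1
  have hdeg : P.natDegree = 2 := by
    simp only [P]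
    compute_degree!
  have hP : P ≠ 0 := by
    intro h0
    rw [h0] at hdeg
    simp at hdeg
  have hsub : {x : ZMod p | x ^ 2 + x + 1 = 0} ⊆ (P.roots.toFinset : Set (ZMod p)) := by
    intro x hx
    rw [Finset.mem_coe, Multiset.mem_toFinset, Polynomial.mem_roots hP, Polynomial.IsRoot.def]
    simpa [P] using hx
  have h1 : nuThree p = Nat.card ↥{x : ZMod p | x ^ 2 + x + 1 = 0} := rfl
  rw [h1, Nat.card_coe_set_eq]
  calc {x : ZMod p | x ^ 2 + x + 1 = 0}.ncard ≤ (P.roots.toFinset : Set (ZMod p)).ncard :=
        Set.ncard_le_ncard hsub (Finset.finite_toSet _)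
    _ = P.roots.toFinset.card := Set.ncard_coe_finset _
    _ ≤ Multiset.card P.roots := Multiset.toFinset_card_le _
    _ ≤ P.natDegree := Polynomial.card_roots' P
    _ = 2 := hdeg

theorem nuThree_eleven : nuThree 11 = 0 := by
  have h1 : nuThree 11 = Nat.card {x : ZMod 11 // x ^ 2 + x + 1 = 0} := rfl
  rw [h1, Nat.card_eq_fintype_card, Fintype.card_subtype]
  decide

/-- **`genusFormula p > 0`** for `p` prime outside `{2,3,5,7,13}`. -/
theorem genusFormula_pos {p : ℕ} (hp : p.Prime) (hp' : p ∉ ({2, 3, 5, 7, 13} : Finset ℕ)) :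
    0 < genusFormula p := by
  have h2 := nuTwo_le_two hp
  have h3 := nuThree_le_two hp
  have h2q : (nuTwo p : ℚ) ≤ 2 := by exact_mod_cast h2
  have h3q : (nuThree p : ℚ) ≤ 2 := by exact_mod_cast h3
  rw [genusFormula, dedekindPsi_prime hp, cuspCount_prime hp]
  push_cast
  by_cases h17 : 17 ≤ p
  · have hpq : (17 : ℚ) ≤ p := by exact_mod_cast h17
    linarith
  · -- `p = 11`
    have hp11 : p = 11 := by
      have hlt : p < 17 := not_le.mp h17
      simp only [Finset.mem_insert, Finset.mem_singleton, not_or] at hp'
      interval_cases p <;> first | rfl | omega | (exfalso; revert hp; decide)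
    subst hp11
    rw [nuThree_eleven]
    push_cast
    linarith

end Numerics

/-! ### the cuspidal class is not zero -/

section Main

variable (p : ℕ) [NeZero p]

/-- `0 < genus` of `ℚ̄(X₀(p))` for `p` prime outside `{2,3,5,7,13}` (S24 + numerics). -/
theorem genus_pos (hp : p.Prime) (hp' : p ∉ ({2, 3, 5, 7, 13} : Finset ℕ)) :
    haveI := HasCanDivInst.hasCanonicalDivisor p
    0 < genus Qb ↥(modularFunctionFieldBar p) := by
  haveI := HasCanDivInst.hasCanonicalDivisor p
  have h := Fermat.Agent.S24.result p
  have hpos := genusFormula_pos hp hp'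
  rw [← h] at hpos
  exact_mod_cast hpos

/-- **W6d**: two distinct places of `ℚ̄(X₀(p))` are not linearly equivalent. -/
theorem cl_ne_zero (hp : p.Prime) (hp' : p ∉ ({2, 3, 5, 7, 13} : Finset ℕ)) {P Q : Pl p}
    (hPQ : P ≠ Q) : cl p P Q ≠ 0 := by
  classical
  haveI := HasCanDivInst.hasCanonicalDivisor p
  intro h0
  have hx : FF.IsGen Kbar (jF p) := Degree.isGen_jF p (realizeData p) (cuspData p)
  -- the divisor `P - Q` is principal
  have hprin : (Finsupp.single P (1 : ℤ) - Finsupp.single Q 1 :
      Divisor Qb (modularFunctionFieldBar p)) ∈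
      Divisor.principal (K := Qb) (F := modularFunctionFieldBar p) := by
    have h1 : cl p P Q = Pic0.mk (0 : Divisor.degZero (K := Qb) (F := modularFunctionFieldBar p)) := by
      rw [h0]; rfl
    have h2 := Fermat.Agent.J.DESC.NormalForm10.sub_mem_principal_of_mk_eq h1
    simpa using h2
  obtain ⟨f, hf0, hf⟩ := hprin
  have hQ : Q.ord f = -1 := by
    rw [← hf Q, Finsupp.sub_apply, Finsupp.single_apply, Finsupp.single_apply, if_neg hPQ,
      if_pos rfl]
    norm_num
  have hpoles : ∀ v : Place Qb (modularFunctionFieldBar p), v.ord f < 0 → v = Q := by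
    intro v hv
    by_contra hne
    rw [← hf v, Finsupp.sub_apply, Finsupp.single_apply, Finsupp.single_apply,
      if_neg (Ne.symm hne)] at hv
    split_ifs at hv <;> omega
  have hg := genus_eq_zero_of_simple_pole (K := Qb) (F := modularFunctionFieldBar p) hx f Q hQ hpoles
  have hpos := genus_pos p hp hp'
  omega

end Main

end Fermat.Agent.M15.CuspNe4
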