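/-
Programme M15 (S15), chapter (DIV), leaf (c), file 1 (helper1): **holomorphic solutions of the
logarithmic ODE `q A' = p A` on the upper half plane**.

`p q` holomorphic on the upper half plane `U`, `q ≢ 0`, and at every point `z₀` the quotient `p / q`
has at most a simple pole with residue a natural number `m` (`ResCond p q z₀ m`:
`ord_{z₀} q + 1 ≤ ord_{z₀} (p (z - z₀) - m q)`).  Then there is `A` holomorphic on `U` with
`q A' = p A` on `U` and `ord_{z₀} A = m` (`exists_sol_upper`).  No Weierstrass products: on a disc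
with closure in `U` the function `q` has finitely many zeros, which are divided out one at a time
(`A = (z - z₁) ^ m₁ B`); the zero free case is `exp` of a primitive of `p / q`; the solutions on the
exhausting discs `B(iT, T - 1/T)` are normalised at a base point and glued by the identity theorem
(pattern and auxiliary lemmas of `ES/KUM/RootsH14`).
-/
import Fermat.Agent.ES.KUM.RootsH14

set_option autoImplicit false

open Metric Set Filter Topology

noncomputable section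

namespace Fermat.Agent.M15.DivLogOde1

open Fermat.Agent.ES.KUM.RootsH14

/-- `p / q` has at most a simple pole at `z₀`, with residue `m`. -/
def ResCond (p q : ℂ → ℂ) (z₀ : ℂ) (m : ℕ) : Prop :=
  analyticOrderAt q z₀ + 1 ≤ analyticOrderAt (fun z => p z * (z - z₀) - (m : ℂ) * q z) z₀

/-- Dividing by `(z - z₁) ^ j` when the order is at least `j`. -/
theorem exists_eq_pow_mul_of_le {V : Set ℂ} (hV : IsOpen V) {G : ℂ → ℂ}
    (hG : DifferentiableOn ℂ G V) {z₁ : ℂ} (hz₁ : z₁ ∈ V) {j : ℕ}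
    (hj : (j : ℕ∞) ≤ analyticOrderAt G z₁) :
    ∃ G₁ : ℂ → ℂ, DifferentiableOn ℂ G₁ V ∧ ∀ z, G z = (z - z₁) ^ j * G₁ z := by
  classical
  have hGa : AnalyticAt ℂ G z₁ := hG.analyticAt (hV.mem_nhds hz₁)
  obtain ⟨g₀, hg₀a, hev⟩ := (natCast_le_analyticOrderAt hGa).1 hj
  refine ⟨fun z => if z = z₁ then g₀ z₁ else G z / (z - z₁) ^ j, ?_, ?_⟩
  · intro z hz
    refine DifferentiableAt.differentiableWithinAt ?_
    by_cases hzz : z = z₁
    · subst hzz
      refine hg₀a.differentiableAt.congr_of_eventuallyEq ?_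
      filter_upwards [hev] with w hw
      by_cases hw1 : w = z
      · simp [hw1]
      · have : (w - z) ^ j ≠ 0 := pow_ne_zero _ (sub_ne_zero.2 hw1)
        simp only [hw1, if_false]
        rw [hw, smul_eq_mul, mul_div_cancel_left₀ _ this]
    · have hd : DifferentiableAt ℂ (fun w => G w / (w - z₁) ^ j) z := by
        refine (hG.differentiableAt (hV.mem_nhds hz)).div (by fun_prop) ?_
        exact pow_ne_zero _ (sub_ne_zero.2 hzz)
      refine hd.congr_of_eventuallyEq ?_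
      filter_upwards [isOpen_ne.mem_nhds hzz] with w hw
      simp [show w ≠ z₁ from hw]
  · intro z
    by_cases hzz : z = z₁
    · subst hzz
      have := hev.self_of_nhds
      simpa using this
    · have : (z - z₁) ^ j ≠ 0 := pow_ne_zero _ (sub_ne_zero.2 hzz)
      simp only [hzz, if_false]
      rw [mul_div_cancel₀ _ this]

/-- The residue is unique. -/
theorem ResCond.unique {p q : ℂ → ℂ} {z₀ : ℂ} {m m' : ℕ} (hq : AnalyticAt ℂ q z₀)
    (hqt : analyticOrderAt q z₀ ≠ ⊤) (h : ResCond p q z₀ m) (h' : ResCond p q z₀ m') : m = m' := by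
  by_contra hne
  have hc : ((m' : ℂ) - m) ≠ 0 := by
    rw [sub_ne_zero]
    intro h
    exact hne (by exact_mod_cast h.symm)
  have hfun : (fun z => ((m' : ℂ) - m) * q z) =
      (fun z => p z * (z - z₀) - (m : ℂ) * q z) - (fun z => p z * (z - z₀) - (m' : ℂ) * q z) := by
    funext z
    simp only [Pi.sub_apply]
    ring
  have h1 : analyticOrderAt (fun z => ((m' : ℂ) - m) * q z) z₀ = analyticOrderAt q z₀ := by
    have : (fun z => ((m' : ℂ) - m) * q z) = (fun _ => ((m' : ℂ) - m)) * q := rfl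
    rw [this, analyticOrderAt_mul analyticAt_const hq,
      (analyticAt_const (v := ((m' : ℂ) - m)) (x := z₀)).analyticOrderAt_eq_zero.2 hc, zero_add]
  have h2 : analyticOrderAt q z₀ + 1 ≤ analyticOrderAt (fun z => ((m' : ℂ) - m) * q z) z₀ := by
    rw [hfun]
    exact (le_min h h').trans le_analyticOrderAt_sub
  rw [h1] at h2
  obtain ⟨k, hk⟩ := ENat.ne_top_iff_exists.1 hqt
  rw [← hk] at h2
  have : (k : ℕ∞) + 1 = ((k + 1 : ℕ) : ℕ∞) := by push_cast; rfl
  rw [this, ENat.natCast_le_natCast] at h2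
  omega

/-- Where `q` does not vanish, the residue is `0`. -/
theorem ResCond.eq_zero_of_ne {p q : ℂ → ℂ} {z₀ : ℂ} {m : ℕ} (hp : AnalyticAt ℂ p z₀)
    (hq : AnalyticAt ℂ q z₀) (hq0 : q z₀ ≠ 0) (h : ResCond p q z₀ m) : m = 0 := by
  unfold ResCond at h
  have hN : AnalyticAt ℂ (fun z => p z * (z - z₀) - (m : ℂ) * q z) z₀ := by fun_prop
  have h1 : analyticOrderAt (fun z => p z * (z - z₀) - (m : ℂ) * q z) z₀ ≠ 0 := by
    intro h0
    rw [h0] at h
    simp at h
  have h2 := (hN.analyticOrderAt_ne_zero).1 h1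
  simp only [sub_self, mul_zero, zero_sub, neg_eq_zero, mul_eq_zero] at h2
  rcases h2 with h2 | h2
  · exact_mod_cast h2
  · exact absurd h2 hq0

/-- Where `q` does not vanish, the residue condition holds with `m = 0`. -/
theorem resCond_zero_of_ne {p q : ℂ → ℂ} {z₀ : ℂ} (hp : AnalyticAt ℂ p z₀)
    (hq : AnalyticAt ℂ q z₀) (hq0 : q z₀ ≠ 0) : ResCond p q z₀ 0 := by
  unfold ResCond
  rw [hq.analyticOrderAt_eq_zero.2 hq0, zero_add]
  have hN : AnalyticAt ℂ (fun z => p z * (z - z₀) - ((0 : ℕ) : ℂ) * q z) z₀ := by fun_prop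
  rw [Order.one_le_iff_ne_zero]
  exact hN.analyticOrderAt_ne_zero.2 (by simp)


/-- Base case: `q` has no zero in the disc. -/
theorem exists_sol_ball_of_ne_zero {c : ℂ} {r : ℝ} {p q : ℂ → ℂ}
    (hp : DifferentiableOn ℂ p (ball c r)) (hq : DifferentiableOn ℂ q (ball c r))
    (hq0 : ∀ z ∈ ball c r, q z ≠ 0) :
    ∃ A : ℂ → ℂ, DifferentiableOn ℂ A (ball c r) ∧
      (∀ z ∈ ball c r, q z * deriv A z = p z * A z) ∧ ∀ z ∈ ball c r, A z ≠ 0 := by
  have hf : DifferentiableOn ℂ (fun z => p z / q z) (ball c r) := hp.div hq hq0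
  obtain ⟨L, hL⟩ := hf.isExactOn_ball
  have hA : ∀ z ∈ ball c r, HasDerivAt (fun z => Complex.exp (L z))
      (Complex.exp (L z) * (p z / q z)) z := fun z hz => (hL z hz).cexp
  refine ⟨fun z => Complex.exp (L z), fun z hz => (hA z hz).differentiableAt.differentiableWithinAt,
    fun z hz => ?_, fun z _ => Complex.exp_ne_zero _⟩
  rw [(hA z hz).deriv]
  have := hq0 z hz
  field_simp

/-- The derivative of `(z - z₁) ^ m * B z`. -/
theorem hasDerivAt_pow_mul {B : ℂ → ℂ} {B' z z₁ : ℂ} (m : ℕ) (hB : HasDerivAt B B' z) :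
    HasDerivAt (fun w => (w - z₁) ^ m * B w)
      ((m : ℂ) * (z - z₁) ^ (m - 1) * B z + (z - z₁) ^ m * B') z := by
  have h1 : HasDerivAt (fun w : ℂ => (w - z₁) ^ m) ((m : ℂ) * (z - z₁) ^ (m - 1)) z := by
    have := ((hasDerivAt_id z).sub_const z₁).pow m
    simp only [id, mul_one] at this
    exact this
  exact h1.mul hB


/-- Multiplying by a unit does not change the order. -/
theorem analyticOrderAt_unit_mul {u f : ℂ → ℂ} {z : ℂ} (hu : AnalyticAt ℂ u z) (hu0 : u z ≠ 0)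
    (hf : AnalyticAt ℂ f z) :
    analyticOrderAt (fun w => u w * f w) z = analyticOrderAt f z := by
  have : (fun w => u w * f w) = u * f := rfl
  rw [this, analyticOrderAt_mul hu hf, hu.analyticOrderAt_eq_zero.2 hu0, zero_add]

/-- The residue condition survives dividing out a zero of `q` at another point. -/
theorem ResCond.transfer {p q p₁ q₁ : ℂ → ℂ} {z z₁ : ℂ} {k m₁ m : ℕ} (hzz : z ≠ z₁)
    (hp : AnalyticAt ℂ p z) (hq : AnalyticAt ℂ q z) (hp₁ : AnalyticAt ℂ p₁ z)
    (hq₁ : AnalyticAt ℂ q₁ z) (hqq : ∀ w, q w = (w - z₁) ^ k * q₁ w)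
    (hpp : ∀ w, p w * (w - z₁) - (m₁ : ℂ) * q w = (w - z₁) ^ (k + 1) * p₁ w)
    (h : ResCond p q z m) : ResCond p₁ q₁ z m := by
  unfold ResCond at h ⊢
  have hne : z - z₁ ≠ 0 := sub_ne_zero.2 hzz
  -- orders of `q` and `q₁` agree
  have hoq : analyticOrderAt q z = analyticOrderAt q₁ z := by
    have h1 : q = fun w => (w - z₁) ^ k * q₁ w := funext hqq
    rw [h1]
    exact analyticOrderAt_unit_mul (u := fun w => (w - z₁) ^ k) (by fun_prop)
      (pow_ne_zero _ hne) hq₁
  -- the key identity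
  have hid : (fun w => (w - z₁) ^ (k + 1) * (p₁ w * (w - z) - (m : ℂ) * q₁ w)) =
      (fun w => (w - z₁) * (p w * (w - z) - (m : ℂ) * q w)) -
        (fun w => ((m₁ : ℂ) * (w - z)) * q w) := by
    funext w
    simp only [Pi.sub_apply]
    have e1 := hpp w
    have e2 := hqq w
    have e3 : (w - z₁) ^ (k + 1) * q₁ w = (w - z₁) * q w := by rw [e2, pow_succ]; ring
    linear_combination (-(w - z)) * e1 + (-(m : ℂ)) * e3
  have hN' : AnalyticAt ℂ (fun w => p₁ w * (w - z) - (m : ℂ) * q₁ w) z := by fun_prop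
  have hN : AnalyticAt ℂ (fun w => p w * (w - z) - (m : ℂ) * q w) z := by fun_prop
  have h1 : analyticOrderAt (fun w => p₁ w * (w - z) - (m : ℂ) * q₁ w) z =
      analyticOrderAt (fun w => (w - z₁) ^ (k + 1) * (p₁ w * (w - z) - (m : ℂ) * q₁ w)) z :=
    (analyticOrderAt_unit_mul (u := fun w => (w - z₁) ^ (k + 1)) (by fun_prop)
      (pow_ne_zero _ hne) hN').symm
  rw [h1, hid, ← hoq]
  refine le_trans (le_min ?_ ?_) le_analyticOrderAt_sub
  · rw [analyticOrderAt_unit_mul (u := fun w => w - z₁) (by fun_prop) hne hN]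
    exact h
  · have h2 : (fun w => ((m₁ : ℂ) * (w - z)) * q w) = (fun w => (m₁ : ℂ) * (w - z)) * q := rfl
    have h3 : AnalyticAt ℂ (fun w => (m₁ : ℂ) * (w - z)) z := by fun_prop
    rw [h2, analyticOrderAt_mul h3 hq, add_comm]
    refine add_le_add ?_ le_rfl
    rw [Order.one_le_iff_ne_zero]
    exact h3.analyticOrderAt_ne_zero.2 (by simp)


/-- Induction on the number of zeros of `q` in the disc. -/
theorem exists_sol_ball_aux {c : ℂ} {r : ℝ} :
    ∀ (N : ℕ) (p q : ℂ → ℂ), DifferentiableOn ℂ p (ball c r) → DifferentiableOn ℂ q (ball c r) →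
      (∀ z ∈ ball c r, analyticOrderAt q z ≠ ⊤) →
      (∀ z ∈ ball c r, ∃ m : ℕ, ResCond p q z m) →
      {z | z ∈ ball c r ∧ q z = 0}.Finite → {z | z ∈ ball c r ∧ q z = 0}.ncard = N →
      ∃ A : ℂ → ℂ, DifferentiableOn ℂ A (ball c r) ∧
        (∀ z ∈ ball c r, q z * deriv A z = p z * A z) ∧
        ∀ z ∈ ball c r, ∀ m : ℕ, ResCond p q z m → analyticOrderAt A z = m := by
  intro N
  induction N with
  | zero =>
    intro p q hp hq _ _ hfin hcard
    have hempty : {z | z ∈ ball c r ∧ q z = 0} = ∅ := (Set.ncard_eq_zero hfin).1 hcard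
    have hq0 : ∀ z ∈ ball c r, q z ≠ 0 := by
      intro z hz h0
      have : z ∈ ({z | z ∈ ball c r ∧ q z = 0} : Set ℂ) := ⟨hz, h0⟩
      rw [hempty] at this
      exact this
    obtain ⟨A, hAd, hode, hA0⟩ := exists_sol_ball_of_ne_zero hp hq hq0
    refine ⟨A, hAd, hode, fun z hz m hm => ?_⟩
    have hpa : AnalyticAt ℂ p z := hp.analyticAt (isOpen_ball.mem_nhds hz)
    have hqa : AnalyticAt ℂ q z := hq.analyticAt (isOpen_ball.mem_nhds hz)
    have hAa : AnalyticAt ℂ A z := hAd.analyticAt (isOpen_ball.mem_nhds hz)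
    rw [hm.eq_zero_of_ne hpa hqa (hq0 z hz), Nat.cast_zero]
    exact hAa.analyticOrderAt_eq_zero.2 (hA0 z hz)
  | succ N ih =>
    intro p q hp hq hqt hres hfin hcard
    have hne : {z | z ∈ ball c r ∧ q z = 0}.Nonempty := by
      rw [← Set.ncard_pos hfin]; omega
    obtain ⟨z₁, hz₁, hz₁0⟩ := hne
    have hpa : ∀ z ∈ ball c r, AnalyticAt ℂ p z := fun z hz =>
      hp.analyticAt (isOpen_ball.mem_nhds hz)
    have hqa : ∀ z ∈ ball c r, AnalyticAt ℂ q z := fun z hz =>
      hq.analyticAt (isOpen_ball.mem_nhds hz)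
    obtain ⟨k, hk⟩ := ENat.ne_top_iff_exists.1 (hqt z₁ hz₁)
    obtain ⟨q₁, hq₁d, hq₁0, hqq⟩ := exists_eq_pow_mul isOpen_ball hq hz₁ hk.symm
    obtain ⟨m₁, hm₁⟩ := hres z₁ hz₁
    have hNd : DifferentiableOn ℂ (fun z => p z * (z - z₁) - (m₁ : ℂ) * q z) (ball c r) :=
      (hp.mul (by fun_prop)).sub (hq.const_mul _)
    have hm₁' : ((k + 1 : ℕ) : ℕ∞) ≤
        analyticOrderAt (fun z => p z * (z - z₁) - (m₁ : ℂ) * q z) z₁ := by
      have h1 := hm₁
      unfold ResCond at h1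
      rw [← hk] at h1
      exact_mod_cast h1
    obtain ⟨p₁, hp₁d, hpp⟩ := exists_eq_pow_mul_of_le isOpen_ball hNd hz₁ hm₁'
    have hp₁a : ∀ z ∈ ball c r, AnalyticAt ℂ p₁ z := fun z hz =>
      hp₁d.analyticAt (isOpen_ball.mem_nhds hz)
    have hq₁a : ∀ z ∈ ball c r, AnalyticAt ℂ q₁ z := fun z hz =>
      hq₁d.analyticAt (isOpen_ball.mem_nhds hz)
    -- the zeros of `q₁`
    have hzeros : {z | z ∈ ball c r ∧ q₁ z = 0} = {z | z ∈ ball c r ∧ q z = 0} \ {z₁} := by
      ext z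
      constructor
      · rintro ⟨hz, h0⟩
        refine ⟨⟨hz, by rw [hqq, h0, mul_zero]⟩, ?_⟩
        rintro rfl
        exact hq₁0 h0
      · rintro ⟨⟨hz, h0⟩, hzz⟩
        refine ⟨hz, ?_⟩
        rw [hqq] at h0
        rcases mul_eq_zero.1 h0 with h | h
        · exact absurd (sub_eq_zero.1 (eq_zero_of_pow_eq_zero h)) hzz
        · exact h
    have hfin₁ : {z | z ∈ ball c r ∧ q₁ z = 0}.Finite := by
      rw [hzeros]; exact hfin.subset Set.sdiff_subset
    have hcard₁ : {z | z ∈ ball c r ∧ q₁ z = 0}.ncard = N := by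
      rw [hzeros, Set.ncard_sdiff_singleton_of_mem (show z₁ ∈ {z | z ∈ ball c r ∧ q z = 0} from
        ⟨hz₁, hz₁0⟩), hcard]
      rfl
    have hqt₁ : ∀ z ∈ ball c r, analyticOrderAt q₁ z ≠ ⊤ := by
      intro z hz
      by_cases hzz : z = z₁
      · rw [hzz, (hq₁a z₁ hz₁).analyticOrderAt_eq_zero.2 hq₁0]
        exact ENat.zero_ne_top
      · rw [← analyticOrderAt_of_eq_pow_mul isOpen_ball hq₁d hqq hz hzz]
        exact hqt z hz
    have htr : ∀ z ∈ ball c r, z ≠ z₁ → ∀ m : ℕ, ResCond p q z m → ResCond p₁ q₁ z m :=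
      fun z hz hzz m hm =>
        hm.transfer hzz (hpa z hz) (hqa z hz) (hp₁a z hz) (hq₁a z hz) hqq hpp
    have hres₁ : ∀ z ∈ ball c r, ∃ m : ℕ, ResCond p₁ q₁ z m := by
      intro z hz
      by_cases hzz : z = z₁
      · exact ⟨0, hzz ▸ resCond_zero_of_ne (hp₁a z₁ hz₁) (hq₁a z₁ hz₁) hq₁0⟩
      · obtain ⟨m, hm⟩ := hres z hz
        exact ⟨m, htr z hz hzz m hm⟩
    obtain ⟨B, hBd, hBode, hBord⟩ := ih p₁ q₁ hp₁d hq₁d hqt₁ hres₁ hfin₁ hcard₁
    have hBa : ∀ z ∈ ball c r, AnalyticAt ℂ B z := fun z hz =>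
      hBd.analyticAt (isOpen_ball.mem_nhds hz)
    have hB' : ∀ z ∈ ball c r, HasDerivAt B (deriv B z) z := fun z hz =>
      (hBd.differentiableAt (isOpen_ball.mem_nhds hz)).hasDerivAt
    have hAder : ∀ z ∈ ball c r, HasDerivAt (fun w => (w - z₁) ^ m₁ * B w)
        ((m₁ : ℂ) * (z - z₁) ^ (m₁ - 1) * B z + (z - z₁) ^ m₁ * deriv B z) z :=
      fun z hz => hasDerivAt_pow_mul m₁ (hB' z hz)
    have hAd : DifferentiableOn ℂ (fun w => (w - z₁) ^ m₁ * B w) (ball c r) := fun z hz =>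
      (hAder z hz).differentiableAt.differentiableWithinAt
    -- the ODE away from `z₁`
    have hode_ne : ∀ z ∈ ball c r, z ≠ z₁ →
        q z * deriv (fun w => (w - z₁) ^ m₁ * B w) z = p z * ((z - z₁) ^ m₁ * B z) := by
      intro z hz hzz
      rw [(hAder z hz).deriv]
      have ht : z - z₁ ≠ 0 := sub_ne_zero.2 hzz
      have e1 := hpp z
      have e2 := hqq z
      have e3 := hBode z hz
      have e4 : (z - z₁) * (z - z₁) ^ (m₁ - 1) * (m₁ : ℂ) = (z - z₁) ^ m₁ * (m₁ : ℂ) := by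
        rcases Nat.eq_zero_or_pos m₁ with h0 | h0
        · simp [h0]
        · rw [← pow_succ', Nat.sub_add_cancel h0]
      apply mul_left_cancel₀ ht
      have e5 : (z - z₁) ^ (k + 1) * q₁ z = (z - z₁) * q z := by rw [e2, pow_succ]; ring
      linear_combination ((z - z₁) ^ m₁ * B z) * (-e1) + (q z * B z) * e4
        + ((z - z₁) ^ m₁ * (z - z₁) ^ (k + 1)) * e3 - ((z - z₁) ^ m₁ * deriv B z) * e5
    refine ⟨fun w => (w - z₁) ^ m₁ * B w, hAd, ?_, ?_⟩
    · intro z hz
      by_cases hzz : z = z₁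
      · -- by continuity
        subst hzz
        have hcont : ContinuousOn (fun w => q w * deriv (fun w => (w - z) ^ m₁ * B w) w -
            p w * ((w - z) ^ m₁ * B w)) (ball c r) := by
          refine ContinuousOn.sub (hq.continuousOn.mul ?_) (hp.continuousOn.mul hAd.continuousOn)
          exact (hAd.deriv isOpen_ball).continuousOn
        have h1 : Tendsto (fun w => q w * deriv (fun w => (w - z) ^ m₁ * B w) w -
            p w * ((w - z) ^ m₁ * B w)) (𝓝[≠] z)
            (𝓝 (q z * deriv (fun w => (w - z) ^ m₁ * B w) z - p z * ((z - z) ^ m₁ * B z))) :=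
          ((hcont.continuousAt (isOpen_ball.mem_nhds hz)).tendsto).mono_left nhdsWithin_le_nhds
        have h2 : Tendsto (fun w => q w * deriv (fun w => (w - z) ^ m₁ * B w) w -
            p w * ((w - z) ^ m₁ * B w)) (𝓝[≠] z) (𝓝 0) := by
          refine tendsto_const_nhds.congr' ?_
          filter_upwards [self_mem_nhdsWithin, nhdsWithin_le_nhds (isOpen_ball.mem_nhds hz)]
            with w hw hwb
          rw [hode_ne w hwb hw, sub_self]
        exact sub_eq_zero.1 (tendsto_nhds_unique h1 h2)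
      · exact hode_ne z hz hzz
    · intro z hz m hm
      have hpow : AnalyticAt ℂ (fun w : ℂ => (w - z₁) ^ m₁) z := by fun_prop
      have hfun : (fun w => (w - z₁) ^ m₁ * B w) = (fun w : ℂ => (w - z₁) ^ m₁) * B := rfl
      by_cases hzz : z = z₁
      · subst hzz
        have hmm : m = m₁ := hm.unique (hqa z hz) (hqt z hz) hm₁
        have hB0 : analyticOrderAt B z = ((0 : ℕ) : ℕ∞) :=
          hBord z hz 0 (resCond_zero_of_ne (hp₁a z hz) (hq₁a z hz) hq₁0)
        have hc : analyticOrderAt (fun w : ℂ => (w - z) ^ m₁) z = m₁ := by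
          exact analyticOrderAt_centeredMonomial (𝕜 := ℂ) (z₀ := z) (n := m₁)
        rw [hfun, analyticOrderAt_mul hpow (hBa z hz), hc, hB0, hmm]
        simp
      · rw [hfun, analyticOrderAt_mul hpow (hBa z hz),
          hpow.analyticOrderAt_eq_zero.2 (pow_ne_zero _ (sub_ne_zero.2 hzz)), zero_add]
        exact hBord z hz m (htr z hz hzz m hm)


/-- Solution on a disc whose closure lies in the domain. -/
theorem exists_sol_ball {V : Set ℂ} (hV : IsOpen V) {p q : ℂ → ℂ}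
    (hp : DifferentiableOn ℂ p V) (hq : DifferentiableOn ℂ q V)
    (hqt : ∀ z ∈ V, analyticOrderAt q z ≠ ⊤) (hres : ∀ z ∈ V, ∃ m : ℕ, ResCond p q z m)
    {c : ℂ} {r : ℝ} (hcr : closedBall c r ⊆ V) :
    ∃ A : ℂ → ℂ, DifferentiableOn ℂ A (ball c r) ∧
      (∀ z ∈ ball c r, q z * deriv A z = p z * A z) ∧
      ∀ z ∈ ball c r, ∀ m : ℕ, ResCond p q z m → analyticOrderAt A z = m := by
  have hbV : ball c r ⊆ V := ball_subset_closedBall.trans hcr
  have hfin : {z | z ∈ ball c r ∧ q z = 0}.Finite := by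
    refine (finite_zeros_of_isCompact hV hq (isCompact_closedBall c r) hcr
      (fun z hz => hqt z (hcr hz))).subset ?_
    rintro z ⟨hz, h0⟩
    exact ⟨ball_subset_closedBall hz, h0⟩
  exact exists_sol_ball_aux _ p q (hp.mono hbV) (hq.mono hbV) (fun z hz => hqt z (hbV hz))
    (fun z hz => hres z (hbV hz)) hfin rfl

/-- Two solutions agreeing (and non-zero) at a point where `q` does not vanish agree on a
preconnected open set. -/
theorem sol_unique {B : Set ℂ} (hB : IsOpen B) (hBc : IsPreconnected B) {p q A A' : ℂ → ℂ}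
    (hq : DifferentiableOn ℂ q B)
    (hA : DifferentiableOn ℂ A B) (hA' : DifferentiableOn ℂ A' B)
    (hode : ∀ z ∈ B, q z * deriv A z = p z * A z)
    (hode' : ∀ z ∈ B, q z * deriv A' z = p z * A' z) {b : ℂ} (hb : b ∈ B) (hqb : q b ≠ 0)
    (hA0 : A' b ≠ 0) (hbe : A b = A' b) : EqOn A A' B := by
  have hAa : AnalyticOnNhd ℂ A B := hA.analyticOnNhd hB
  have hA'a : AnalyticOnNhd ℂ A' B := hA'.analyticOnNhd hB
  refine hAa.eqOn_of_preconnected_of_eventuallyEq hA'a hBc hb ?_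
  -- a small ball around `b` on which `q` and `A'` do not vanish
  have hqc : ContinuousAt q b := (hq.differentiableAt (hB.mem_nhds hb)).continuousAt
  have hA'c : ContinuousAt A' b := (hA'a b hb).continuousAt
  have hev : ∀ᶠ z in 𝓝 b, z ∈ B ∧ q z ≠ 0 ∧ A' z ≠ 0 := by
    filter_upwards [hB.mem_nhds hb, hqc.eventually_ne hqb, hA'c.eventually_ne hA0] with z h1 h2 h3
    exact ⟨h1, h2, h3⟩
  obtain ⟨ε, hε, hball⟩ := Metric.eventually_nhds_iff_ball.1 hev
  have hW : ∀ z ∈ ball b ε, HasDerivAt (fun z => A z / A' z) 0 z := by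
    intro z hz
    obtain ⟨hzB, hqz, hA'z⟩ := hball z hz
    have h1 : HasDerivAt A (deriv A z) z := (hA.differentiableAt (hB.mem_nhds hzB)).hasDerivAt
    have h2 : HasDerivAt A' (deriv A' z) z := (hA'.differentiableAt (hB.mem_nhds hzB)).hasDerivAt
    refine (h1.div h2 hA'z).congr_deriv ?_
    have e1 := hode z hzB
    have e2 := hode' z hzB
    have e3 : deriv A z * A' z - A z * deriv A' z = 0 := by
      apply mul_left_cancel₀ hqz
      linear_combination (A' z) * e1 - (A z) * e2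
    rw [e3, zero_div]
  have hWd : DifferentiableOn ℂ (fun z => A z / A' z) (ball b ε) := fun z hz =>
    (hW z hz).differentiableAt.differentiableWithinAt
  have hconst : ∀ z ∈ ball b ε, A z / A' z = A b / A' b := fun z hz =>
    isOpen_ball.is_const_of_deriv_eq_zero (convex_ball b ε).isPreconnected hWd
      (fun x hx => (hW x hx).deriv) hz (mem_ball_self hε)
  filter_upwards [ball_mem_nhds b hε] with z hz
  have h1 := hconst z hz
  rw [hbe, div_self hA0, div_eq_one_iff_eq (hball z hz).2.2] at h1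
  exact h1

/-- Gluing solutions along an exhaustion by convex open sets. -/
theorem exists_sol_of_exhaustion {U : Set ℂ} (hU : IsOpen U) {p q : ℂ → ℂ}
    (hp : DifferentiableOn ℂ p U) (hq : DifferentiableOn ℂ q U)
    (B : ℕ → Set ℂ) (hBo : ∀ k, IsOpen (B k)) (hBc : ∀ k, Convex ℝ (B k)) (hBU : ∀ k, B k ⊆ U)
    (hcov : ∀ z ∈ U, ∃ k₀ : ℕ, ∀ k, k₀ ≤ k → z ∈ B k)
    (hsol : ∀ k, ∃ A : ℂ → ℂ, DifferentiableOn ℂ A (B k) ∧
      (∀ z ∈ B k, q z * deriv A z = p z * A z) ∧
      ∀ z ∈ B k, ∀ m : ℕ, ResCond p q z m → analyticOrderAt A z = m)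
    {b : ℂ} (hb : b ∈ U) (hqb : q b ≠ 0) :
    ∃ A : ℂ → ℂ, DifferentiableOn ℂ A U ∧ (∀ z ∈ U, q z * deriv A z = p z * A z) ∧
      (∀ z ∈ U, ∀ m : ℕ, ResCond p q z m → analyticOrderAt A z = m) ∧ A b = 1 := by
  classical
  choose Ak hAkd hAkode hAkord using hsol
  choose! κ₀ hκ₀ using hcov
  set k₀ := κ₀ b with hk₀
  have hbB : ∀ k, k₀ ≤ k → b ∈ B k := hκ₀ b hb
  have hpb : AnalyticAt ℂ p b := hp.analyticAt (hU.mem_nhds hb)
  have hqba : AnalyticAt ℂ q b := hq.analyticAt (hU.mem_nhds hb)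
  have hAkb0 : ∀ k, k₀ ≤ k → Ak k b ≠ 0 := by
    intro k hk
    have h1 : analyticOrderAt (Ak k) b = ((0 : ℕ) : ℕ∞) :=
      hAkord k b (hbB k hk) 0 (resCond_zero_of_ne hpb hqba hqb)
    have h2 : AnalyticAt ℂ (Ak k) b := (hAkd k).analyticAt ((hBo k).mem_nhds (hbB k hk))
    rw [Nat.cast_zero] at h1
    exact h2.analyticOrderAt_eq_zero.1 h1
  let At : ℕ → ℂ → ℂ := fun k z => (Ak k b)⁻¹ * Ak k z
  have hAtd : ∀ k, DifferentiableOn ℂ (At k) (B k) := fun k => (hAkd k).const_mul _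
  have hAtder : ∀ k, ∀ z ∈ B k, deriv (At k) z = (Ak k b)⁻¹ * deriv (Ak k) z := by
    intro k z hz
    have h1 : HasDerivAt (Ak k) (deriv (Ak k) z) z :=
      ((hAkd k).differentiableAt ((hBo k).mem_nhds hz)).hasDerivAt
    exact (h1.const_mul _).deriv
  have hAtode : ∀ k, ∀ z ∈ B k, q z * deriv (At k) z = p z * At k z := by
    intro k z hz
    rw [hAtder k z hz]
    have := hAkode k z hz
    simp only [At]
    linear_combination (Ak k b)⁻¹ * this
  have hAtb : ∀ k, k₀ ≤ k → At k b = 1 := fun k hk => inv_mul_cancel₀ (hAkb0 k hk)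
  have hAtord : ∀ k, k₀ ≤ k → ∀ z ∈ B k, ∀ m : ℕ, ResCond p q z m →
      analyticOrderAt (At k) z = m := by
    intro k hk z hz m hm
    have h2 : AnalyticAt ℂ (Ak k) z := (hAkd k).analyticAt ((hBo k).mem_nhds hz)
    have h3 : analyticOrderAt (fun w => (fun _ : ℂ => (Ak k b)⁻¹) w * Ak k w) z =
        analyticOrderAt (Ak k) z :=
      analyticOrderAt_unit_mul analyticAt_const (inv_ne_zero (hAkb0 k hk)) h2
    exact h3.trans (hAkord k z hz m hm)
  have hagree : ∀ k j, k₀ ≤ k → k₀ ≤ j → ∀ z ∈ B k ∩ B j, At k z = At j z := by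
    intro k j hk hj
    refine sol_unique ((hBo k).inter (hBo j)) ((hBc k).inter (hBc j)).isPreconnected
      (hq.mono (inter_subset_left.trans (hBU k)))
      ((hAtd k).mono inter_subset_left) ((hAtd j).mono inter_subset_right)
      (fun z hz => hAtode k z hz.1) (fun z hz => hAtode j z hz.2) ⟨hbB k hk, hbB j hj⟩ hqb
      (by rw [hAtb j hj]; exact one_ne_zero) (by rw [hAtb k hk, hAtb j hj])
  let κ : ℂ → ℕ := fun z => max k₀ (κ₀ z)
  have hev : ∀ z ∈ U, (fun w => At (κ w) w) =ᶠ[𝓝 z] At (κ z) := by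
    intro z hz
    have hzB : z ∈ B (κ z) := hκ₀ z hz _ (le_max_right _ _)
    filter_upwards [(hBo (κ z)).mem_nhds hzB, hU.mem_nhds hz] with w hw hwU
    exact hagree (κ w) (κ z) (le_max_left _ _) (le_max_left _ _) w
      ⟨hκ₀ w hwU _ (le_max_right _ _), hw⟩
  refine ⟨fun z => At (κ z) z, ?_, ?_, ?_, ?_⟩
  · intro z hz
    have hzB : z ∈ B (κ z) := hκ₀ z hz _ (le_max_right _ _)
    exact (((hAtd (κ z)).differentiableAt ((hBo _).mem_nhds hzB)).congr_of_eventuallyEq
      (hev z hz)).differentiableWithinAt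
  · intro z hz
    have hzB : z ∈ B (κ z) := hκ₀ z hz _ (le_max_right _ _)
    rw [(hev z hz).deriv_eq]
    exact hAtode (κ z) z hzB
  · intro z hz m hm
    have hzB : z ∈ B (κ z) := hκ₀ z hz _ (le_max_right _ _)
    rw [analyticOrderAt_congr (hev z hz)]
    exact hAtord (κ z) (le_max_left _ _) z hzB m hm
  · exact hAtb (κ b) (le_max_left _ _)

/-- **Solutions of `q A' = p A` on the upper half plane** (as a subset of `ℂ`). -/
theorem exists_sol_upper {p q : ℂ → ℂ}
    (hp : DifferentiableOn ℂ p {z : ℂ | 0 < z.im}) (hq : DifferentiableOn ℂ q {z : ℂ | 0 < z.im})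
    (hqt : ∀ z ∈ {z : ℂ | 0 < z.im}, analyticOrderAt q z ≠ ⊤)
    (hres : ∀ z ∈ {z : ℂ | 0 < z.im}, ∃ m : ℕ, ResCond p q z m) :
    ∃ A : ℂ → ℂ, DifferentiableOn ℂ A {z : ℂ | 0 < z.im} ∧
      (∀ z ∈ {z : ℂ | 0 < z.im}, q z * deriv A z = p z * A z) ∧
      ∀ z ∈ {z : ℂ | 0 < z.im}, ∀ m : ℕ, ResCond p q z m → analyticOrderAt A z = m := by
  have hUo : IsOpen {z : ℂ | 0 < z.im} := isOpen_lt continuous_const Complex.continuous_im
  have hI : Complex.I ∈ {z : ℂ | 0 < z.im} := by simp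
  obtain ⟨b, hb, hqb⟩ : ∃ b ∈ {z : ℂ | 0 < z.im}, q b ≠ 0 := by
    have h1 := hqt Complex.I hI
    rw [Ne, analyticOrderAt_eq_top] at h1
    have h2 : ∃ᶠ z in 𝓝 Complex.I, q z ≠ 0 := by
      simpa [Filter.not_eventually] using h1
    obtain ⟨b, hb0, hbU⟩ := (h2.and_eventually (hUo.mem_nhds hI)).exists
    exact ⟨b, hbU, hb0⟩
  obtain ⟨A, hAd, hode, hord, -⟩ := exists_sol_of_exhaustion hUo hp hq
    (fun k => ball ((((k : ℝ) + 1 : ℝ) : ℂ) * Complex.I) (((k : ℝ) + 1) - 1 / ((k : ℝ) + 1)))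
    (fun k => isOpen_ball) (fun k => convex_ball _ _)
    (fun k => ball_subset_closedBall.trans (closedBall_subset_upper (by positivity)))
    (fun z hz => eventually_mem_ball hz)
    (fun k => exists_sol_ball hUo hp hq hqt hres (closedBall_subset_upper (by positivity))) hb hqb
  exact ⟨A, hAd, hode, hord⟩

end Fermat.Agent.M15.DivLogOde1
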