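/-
Programme M15 (S15), chapter (DIV), leaf (c), file 2 (helper1): **the derivative on `HolH` and on
`MerH = Frac HolH`**, constants, and the chain rule for `slMer`.

* `derivH : HolH → HolH`, `derivH_add`, `derivH_mul`, `derivH_const`, `coe_derivH`;
* `dM : MerH → MerH` with `dM_div` (any representation), `dM_add`, `dM_mul`, `dM_algebraMap`,
  `dM_const`, `dM_div'`, `dM_pow`;
* `exists_const_of_dM_eq_zero` : `dM x = 0 → x` is a constant;
* `jacInv γ : HolH` (`z ↦ (c z + d)⁻²`) and `dM_slMer : dM (slMer γ x) = jacInv γ * slMer γ (dM x)`.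
-/
import Fermat.Agent.M15.DivLogOde1
import Fermat.Agent.ES.KUM.CPoint5

set_option autoImplicit false
set_option linter.unusedSectionVars false

open UpperHalfPlane Filter Topology Set
open scoped Manifold MatrixGroups

noncomputable section

namespace Fermat.Agent.M15.DivLogMer1

open Fermat.Agent.X0 Fermat.Agent.X0.SurjPoint Fermat.Agent.ES.KUM

/-- the function on `ℂ` attached to `f : HolH`. -/
def toC (f : HolH) : ℂ → ℂ := (f : ℍ → ℂ) ∘ ofComplex

theorem toC_apply (f : HolH) (z : ℍ) : toC f (z : ℂ) = (f : ℍ → ℂ) z := by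
  unfold toC
  rw [Function.comp_apply, ofComplex_apply]

theorem toC_apply_of_im_pos (f : HolH) {w : ℂ} (hw : 0 < w.im) :
    toC f w = (f : ℍ → ℂ) ⟨w, hw⟩ := by
  unfold toC
  rw [Function.comp_apply, ofComplex_apply_of_im_pos hw]

theorem differentiableOn_toC (f : HolH) : DifferentiableOn ℂ (toC f) {z : ℂ | 0 < z.im} :=
  UpperHalfPlane.mdifferentiable_iff.1 f.2

theorem differentiableAt_toC (f : HolH) {w : ℂ} (hw : 0 < w.im) : DifferentiableAt ℂ (toC f) w :=
  (differentiableOn_toC f).differentiableAt (isOpen_upperHalfPlaneSet.mem_nhds hw)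

theorem analyticAt_toC (f : HolH) {w : ℂ} (hw : 0 < w.im) : AnalyticAt ℂ (toC f) w :=
  (differentiableOn_toC f).analyticAt (isOpen_upperHalfPlaneSet.mem_nhds hw)

theorem toC_add (f g : HolH) : toC (f + g) = toC f + toC g := rfl

theorem toC_mul (f g : HolH) : toC (f * g) = toC f * toC g := rfl

/-- a function holomorphic on the upper half plane, as an element of `HolH`. -/
def ofC (G : ℂ → ℂ) (hG : DifferentiableOn ℂ G {z : ℂ | 0 < z.im}) : HolH :=
  ⟨fun z => G (z : ℂ), UpperHalfPlane.mdifferentiable_iff.2 (hG.congr fun w hw => by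
    simp only [Function.comp_apply]
    rw [ofComplex_apply_of_im_pos hw])⟩

theorem ofC_apply (G : ℂ → ℂ) (hG : DifferentiableOn ℂ G {z : ℂ | 0 < z.im}) (z : ℍ) :
    ((ofC G hG : HolH) : ℍ → ℂ) z = G (z : ℂ) := rfl

theorem toC_ofC (G : ℂ → ℂ) (hG : DifferentiableOn ℂ G {z : ℂ | 0 < z.im}) {w : ℂ}
    (hw : 0 < w.im) : toC (ofC G hG) w = G w := by
  rw [toC_apply_of_im_pos _ hw]
  rfl

/-- **the derivative on `HolH`**. -/
def derivH (f : HolH) : HolH :=
  ofC (deriv (toC f)) ((differentiableOn_toC f).deriv isOpen_upperHalfPlaneSet)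

theorem coe_derivH (f : HolH) (z : ℍ) : ((derivH f : HolH) : ℍ → ℂ) z = deriv (toC f) (z : ℂ) :=
  rfl

theorem hasDerivAt_toC (f : HolH) (z : ℍ) :
    HasDerivAt (toC f) (((derivH f : HolH) : ℍ → ℂ) z) (z : ℂ) :=
  (differentiableAt_toC f z.im_pos).hasDerivAt

theorem derivH_add (f g : HolH) : derivH (f + g) = derivH f + derivH g := by
  apply Subtype.ext
  funext z
  show deriv (toC (f + g)) (z : ℂ) = deriv (toC f) (z : ℂ) + deriv (toC g) (z : ℂ)
  rw [toC_add]
  exact deriv_add (differentiableAt_toC f z.im_pos) (differentiableAt_toC g z.im_pos)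

theorem derivH_mul (f g : HolH) : derivH (f * g) = derivH f * g + f * derivH g := by
  apply Subtype.ext
  funext z
  show deriv (toC (f * g)) (z : ℂ) =
    deriv (toC f) (z : ℂ) * (g : ℍ → ℂ) z + (f : ℍ → ℂ) z * deriv (toC g) (z : ℂ)
  rw [toC_mul, deriv_mul (differentiableAt_toC f z.im_pos) (differentiableAt_toC g z.im_pos),
    toC_apply, toC_apply]

theorem derivH_const (c : ℂ) : derivH (algebraMap ℂ HolH c) = 0 := by
  apply Subtype.ext
  funext z
  show deriv (toC (algebraMap ℂ HolH c)) (z : ℂ) = 0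
  have : toC (algebraMap ℂ HolH c) = fun _ => c := by
    funext w
    rfl
  rw [this, deriv_const]

theorem derivH_zero : derivH 0 = 0 := by
  have := derivH_const 0
  rwa [map_zero] at this

theorem derivH_neg (f : HolH) : derivH (-f) = -derivH f := by
  have h := derivH_add f (-f)
  rw [add_neg_cancel, derivH_zero] at h
  exact eq_neg_of_add_eq_zero_right h.symm

theorem derivH_sub (f g : HolH) : derivH (f - g) = derivH f - derivH g := by
  rw [sub_eq_add_neg, derivH_add, derivH_neg, sub_eq_add_neg]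


/-! ### The derivative on `MerH` -/

local notation "ι" => algebraMap HolH MerH

theorem iota_injective : Function.Injective ι := IsFractionRing.injective HolH MerH

theorem iota_ne_zero {b : HolH} (hb : b ≠ 0) : ι b ≠ 0 := fun h =>
  hb (iota_injective (by rw [h, map_zero]))

/-- `(a' b - a b') / b ^ 2`. -/
def dFrac (a b : HolH) : MerH := (ι (derivH a) * ι b - ι a * ι (derivH b)) / (ι b) ^ 2

theorem dFrac_welldefined {a b c d : HolH} (hb : b ≠ 0) (hd : d ≠ 0)
    (h : ι a / ι b = ι c / ι d) : dFrac a b = dFrac c d := by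
  have hb' := iota_ne_zero hb
  have hd' := iota_ne_zero hd
  have h1 : ι a * ι d = ι c * ι b := by
    rw [div_eq_div_iff hb' hd'] at h
    exact h
  have h2 : a * d = c * b := iota_injective (by rw [map_mul, map_mul, h1])
  have h3 : derivH a * d + a * derivH d = derivH c * b + c * derivH b := by
    rw [← derivH_mul, ← derivH_mul, h2]
  have h4 : ι (derivH a) * ι d + ι a * ι (derivH d) = ι (derivH c) * ι b + ι c * ι (derivH b) := by
    rw [← map_mul, ← map_mul, ← map_add, h3, map_add, map_mul, map_mul]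
  unfold dFrac
  rw [div_eq_div_iff (pow_ne_zero 2 hb') (pow_ne_zero 2 hd')]
  linear_combination (ι b * ι d) * h4 - (ι (derivH b) * ι d + ι b * ι (derivH d)) * h1

/-- **the derivative on `MerH`**. -/
def dM (x : MerH) : MerH :=
  dFrac (exists_div_MerH x).choose (exists_div_MerH x).choose_spec.choose

theorem dM_div (a : HolH) {b : HolH} (hb : b ≠ 0) : dM (ι a / ι b) = dFrac a b := by
  obtain ⟨hb₀, h⟩ := (exists_div_MerH (ι a / ι b)).choose_spec.choose_spec
  exact (dFrac_welldefined hb hb₀ h).symm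

theorem dM_algebraMap (a : HolH) : dM (ι a) = ι (derivH a) := by
  have h := dM_div a (one_ne_zero (α := HolH))
  rw [map_one, div_one] at h
  rw [h, dFrac]
  have : derivH (1 : HolH) = 0 := by
    have := derivH_const 1
    rwa [map_one] at this
  rw [this, map_zero, map_one, mul_one, mul_zero, sub_zero, one_pow, div_one]

theorem dM_const (c : ℂ) : dM (ι (algebraMap ℂ HolH c)) = 0 := by
  rw [dM_algebraMap, derivH_const, map_zero]

theorem dM_zero : dM 0 = 0 := by
  have := dM_const 0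
  rwa [map_zero, map_zero] at this

theorem dM_add (x y : MerH) : dM (x + y) = dM x + dM y := by
  obtain ⟨a, b, hb, rfl⟩ := exists_div_MerH x
  obtain ⟨c, d, hd, rfl⟩ := exists_div_MerH y
  have hb' := iota_ne_zero hb
  have hd' := iota_ne_zero hd
  have hbd : b * d ≠ 0 := mul_ne_zero hb hd
  have h1 : ι a / ι b + ι c / ι d = ι (a * d + c * b) / ι (b * d) := by
    rw [map_add, map_mul, map_mul, map_mul]
    field_simp
  rw [h1, dM_div _ hbd, dM_div _ hb, dM_div _ hd]
  unfold dFrac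
  rw [derivH_add, derivH_mul, derivH_mul, derivH_mul]
  simp only [map_add, map_mul]
  field_simp
  ring

theorem dM_mul (x y : MerH) : dM (x * y) = dM x * y + x * dM y := by
  obtain ⟨a, b, hb, rfl⟩ := exists_div_MerH x
  obtain ⟨c, d, hd, rfl⟩ := exists_div_MerH y
  have hb' := iota_ne_zero hb
  have hd' := iota_ne_zero hd
  have hbd : b * d ≠ 0 := mul_ne_zero hb hd
  have h1 : ι a / ι b * (ι c / ι d) = ι (a * c) / ι (b * d) := by
    rw [map_mul, map_mul]
    field_simp
  rw [h1, dM_div _ hbd, dM_div _ hb, dM_div _ hd]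
  unfold dFrac
  rw [derivH_mul, derivH_mul]
  simp only [map_add, map_mul]
  field_simp
  ring

theorem dM_neg (x : MerH) : dM (-x) = -dM x := by
  have h := dM_add x (-x)
  rw [add_neg_cancel, dM_zero] at h
  exact eq_neg_of_add_eq_zero_right h.symm

theorem dM_sub (x y : MerH) : dM (x - y) = dM x - dM y := by
  rw [sub_eq_add_neg, dM_add, dM_neg, sub_eq_add_neg]

theorem dM_inv {x : MerH} (hx : x ≠ 0) : dM x⁻¹ = -dM x / x ^ 2 := by
  have h := dM_mul x x⁻¹
  rw [mul_inv_cancel₀ hx] at h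
  have h1 : dM (1 : MerH) = 0 := by
    have := dM_const 1
    rwa [map_one, map_one] at this
  rw [h1] at h
  have hxx : x * x⁻¹ = 1 := mul_inv_cancel₀ hx
  rw [eq_div_iff (pow_ne_zero 2 hx)]
  linear_combination (-x) * h - (dM x) * hxx

theorem dM_div' (x : MerH) {y : MerH} (hy : y ≠ 0) :
    dM (x / y) = (dM x * y - x * dM y) / y ^ 2 := by
  rw [div_eq_mul_inv, dM_mul, dM_inv hy]
  field_simp
  ring

theorem dM_pow (x : MerH) (n : ℕ) : dM (x ^ n) = n * x ^ (n - 1) * dM x := by
  induction n with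
  | zero =>
    have h1 : dM (1 : MerH) = 0 := by
      have := dM_const 1
      rwa [map_one, map_one] at this
    simp [h1]
  | succ n ih =>
    rw [pow_succ, dM_mul, ih]
    rcases Nat.eq_zero_or_pos n with h0 | h0
    · subst h0
      simp
    · have : x ^ n = x ^ (n - 1) * x := by rw [← pow_succ, Nat.sub_add_cancel h0]
      rw [Nat.add_sub_cancel, this]
      push_cast
      ring


/-! ### Constants -/

theorem exists_apply_ne_zero {a : HolH} (ha : a ≠ 0) : ∃ z : ℍ, (a : ℍ → ℂ) z ≠ 0 := by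
  by_contra h
  refine ha (Subtype.ext (funext fun z => ?_))
  by_contra hz
  exact h ⟨z, hz⟩

theorem isPreconnected_upper : IsPreconnected {z : ℂ | 0 < z.im} :=
  (convex_halfSpace_im_gt 0).isPreconnected

/-- **A meromorphic function on `ℍ` with zero derivative is constant.** -/
theorem exists_const_of_dM_eq_zero {x : MerH} (hx : dM x = 0) :
    ∃ c : ℂ, x = ι (algebraMap ℂ HolH c) := by
  obtain ⟨a, b, hb, rfl⟩ := exists_div_MerH x
  by_cases ha : a = 0
  · exact ⟨0, by rw [ha, map_zero, zero_div, map_zero, map_zero]⟩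
  have hb' := iota_ne_zero hb
  rw [dM_div a hb, dFrac, div_eq_zero_iff] at hx
  have hx' : ι (derivH a) * ι b - ι a * ι (derivH b) = 0 := by
    rcases hx with h | h
    · exact h
    · exact absurd h (pow_ne_zero 2 hb')
  have hab : derivH a * b = a * derivH b := by
    apply iota_injective
    rw [map_mul, map_mul]
    exact sub_eq_zero.1 hx'
  obtain ⟨z₀, hz₀⟩ := exists_apply_ne_zero (mul_ne_zero ha hb)
  have haz : (a : ℍ → ℂ) z₀ ≠ 0 := fun h => hz₀ (by show (a : ℍ → ℂ) z₀ * (b : ℍ → ℂ) z₀ = 0; rw [h, zero_mul])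
  have hbz : (b : ℍ → ℂ) z₀ ≠ 0 := fun h => hz₀ (by show (a : ℍ → ℂ) z₀ * (b : ℍ → ℂ) z₀ = 0; rw [h, mul_zero])
  set κ : ℂ := (a : ℍ → ℂ) z₀ / (b : ℍ → ℂ) z₀ with hκ
  have hpt : ∀ z : ℍ, deriv (toC a) (z : ℂ) * (b : ℍ → ℂ) z = (a : ℍ → ℂ) z * deriv (toC b) (z : ℂ) :=
    fun z => congrArg (fun f : HolH => (f : ℍ → ℂ) z) hab
  have hκd : ∀ w : ℂ, 0 < w.im → HasDerivAt (fun w => κ * toC b w) (κ * deriv (toC b) w) w :=
    fun w hw => (differentiableAt_toC b hw).hasDerivAt.const_mul κ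
  have heq : EqOn (toC a) (fun w => κ * toC b w) {z : ℂ | 0 < z.im} := by
    refine DivLogOde1.sol_unique (p := deriv (toC b)) (q := toC b) isOpen_upperHalfPlaneSet
      isPreconnected_upper (differentiableOn_toC b) (differentiableOn_toC a)
      (fun w hw => (hκd w hw).differentiableAt.differentiableWithinAt) ?_ ?_
      (b := (z₀ : ℂ)) z₀.im_pos ?_ ?_ ?_
    · intro w hw
      have := hpt ⟨w, hw⟩
      rw [toC_apply_of_im_pos b hw, toC_apply_of_im_pos a hw]
      linear_combination this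
    · intro w hw
      rw [(hκd w hw).deriv]
      ring
    · rw [toC_apply]; exact hbz
    · rw [toC_apply, hκ, div_mul_cancel₀ _ hbz]; exact haz
    · rw [toC_apply, toC_apply, hκ, div_mul_cancel₀ _ hbz]
  refine ⟨κ, ?_⟩
  rw [div_eq_iff hb', ← map_mul]
  congr 1
  apply Subtype.ext
  funext z
  have := heq z.im_pos
  simp only [toC_apply] at this
  exact this

/-! ### The chain rule for `slMer` -/

/-- `z ↦ 1 / (c z + d) ^ 2` as an element of `HolH`. -/
def jacInv (γ : SL(2, ℤ)) : HolH :=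
  ofC (fun w => 1 / (((γ 1 0 : ℤ) : ℂ) * w + (γ 1 1 : ℤ)) ^ 2) (by
    intro w hw
    have hden := moebC_denom_ne_zero γ ⟨w, hw⟩
    have : DifferentiableAt ℂ (fun w : ℂ => 1 / (((γ 1 0 : ℤ) : ℂ) * w + (γ 1 1 : ℤ)) ^ 2) w := by
      refine DifferentiableAt.div (by fun_prop) (by fun_prop) ?_
      exact pow_ne_zero 2 hden
    exact this.differentiableWithinAt)

theorem jacInv_apply (γ : SL(2, ℤ)) (z : ℍ) :
    ((jacInv γ : HolH) : ℍ → ℂ) z = 1 / (((γ 1 0 : ℤ) : ℂ) * z + (γ 1 1 : ℤ)) ^ 2 := rfl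

theorem jacInv_apply_ne_zero (γ : SL(2, ℤ)) (z : ℍ) : ((jacInv γ : HolH) : ℍ → ℂ) z ≠ 0 := by
  rw [jacInv_apply]
  exact one_div_ne_zero (pow_ne_zero 2 (moebC_denom_ne_zero γ z))

theorem jacInv_ne_zero (γ : SL(2, ℤ)) : jacInv γ ≠ 0 := fun h =>
  jacInv_apply_ne_zero γ UpperHalfPlane.I (by rw [h]; rfl)

theorem derivH_compSLHom (γ : SL(2, ℤ)) (a : HolH) :
    derivH (compSLHom γ a) = jacInv γ * compSLHom γ (derivH a) := by
  apply Subtype.ext
  funext z
  show deriv (toC (compSLHom γ a)) (z : ℂ) =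
    ((jacInv γ : HolH) : ℍ → ℂ) z * deriv (toC a) ((γ • z : ℍ) : ℂ)
  have hev : toC (compSLHom γ a) =ᶠ[𝓝 (z : ℂ)] (toC a) ∘ moebC γ :=
    compSL_comp_ofComplex_eventuallyEq (a : ℍ → ℂ) γ z
  rw [hev.deriv_eq]
  have h1 : HasDerivAt (toC a) (deriv (toC a) (moebC γ z)) (moebC γ z) := by
    rw [← coe_smul_eq_moebC]
    exact (differentiableAt_toC a (γ • z).im_pos).hasDerivAt
  have h2 := h1.comp (z : ℂ) (hasDerivAt_moebC γ z)
  rw [h2.deriv, jacInv_apply, coe_smul_eq_moebC]
  ring

theorem dM_slMer (γ : SL(2, ℤ)) (x : MerH) : dM (slMer γ x) = ι (jacInv γ) * slMer γ (dM x) := by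
  obtain ⟨a, b, hb, rfl⟩ := exists_div_MerH x
  have hb' := iota_ne_zero hb
  have hcb : compSLHom γ b ≠ 0 := compSLHom_ne_zero γ hb
  have hcb' := iota_ne_zero hcb
  rw [slMer_div, dM_div _ hcb, dM_div _ hb, dFrac, dFrac, derivH_compSLHom, derivH_compSLHom]
  simp only [map_div₀, map_sub, map_mul, map_pow, slMer_algebraMap]
  field_simp

end Fermat.Agent.M15.DivLogMer1
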