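/-
Programme M15 (S15), chapter (DIV), leaf (c), file 3 (helper1): **LOGPRIM in `MerH`**.

`g ∈ MerH` with at most simple poles and integer residues `m z₀` bounded below
(`PoleCond g z₀ (m z₀)` : `g - m / (z - z₀)` is regular at `z₀`).  Then there is `F ∈ MerH`, `F ≠ 0`,
with `dM F = g * F` and `ordMer z₀ F = m z₀` for all `z₀` (`exists_logPrim`); and if `g` is
invariant of weight two under `γ` then `slMer γ F = c * F` for a constant `c ≠ 0`
(`exists_const_slMer`).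
-/
import Fermat.Agent.M15.DivLogMer1

set_option autoImplicit false
set_option linter.unusedSectionVars false

open UpperHalfPlane Filter Topology Set
open scoped Manifold MatrixGroups

noncomputable section

namespace Fermat.Agent.M15.DivLogPrim1

open Fermat.Agent.X0 Fermat.Agent.X0.SurjPoint Fermat.Agent.ES.KUM Fermat.Agent.M15.DivLogMer1
  Fermat.Agent.M15.DivLogOde1

local notation "ι" => algebraMap HolH MerH

/-- constants in `MerH`. -/
def cst (c : ℂ) : MerH := ι (algebraMap ℂ HolH c)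

/-- the coordinate function. -/
def zH : HolH := ofC id differentiableOn_id

theorem zH_apply (z : ℍ) : ((zH : HolH) : ℍ → ℂ) z = (z : ℂ) := rfl

/-- `g - m / (z - z₀)` is regular at `z₀`. -/
def PoleCond (g : MerH) (z₀ : ℍ) (m : ℂ) : Prop :=
  g - cst m / (ι zH - cst (z₀ : ℂ)) ∈ valAt z₀

/-! ### logarithmic derivatives in `MerH` -/

theorem dM_one : dM (1 : MerH) = 0 := by
  have := dM_const 1
  rwa [map_one, map_one] at this

theorem dM_mul_div {x y : MerH} (hx : x ≠ 0) (hy : y ≠ 0) :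
    dM (x * y) / (x * y) = dM x / x + dM y / y := by
  rw [dM_mul]
  field_simp

theorem dM_inv_div {x : MerH} (hx : x ≠ 0) : dM x⁻¹ / x⁻¹ = -(dM x / x) := by
  rw [dM_inv hx]
  field_simp

theorem dM_pow_div {x : MerH} (hx : x ≠ 0) (n : ℕ) : dM (x ^ n) / x ^ n = n * (dM x / x) := by
  induction n with
  | zero => simp [dM_one]
  | succ n ih =>
    rw [pow_succ, dM_mul_div (pow_ne_zero n hx) hx, ih]
    push_cast
    ring

/-! ### the order of `Q' (z - w) - k Q` -/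

theorem le_order_deriv_mul_sub {Q : ℂ → ℂ} {w : ℂ} (hQ : AnalyticAt ℂ Q w) {k : ℕ}
    (hk : analyticOrderAt Q w = k) :
    ((k + 1 : ℕ) : ℕ∞) ≤ analyticOrderAt (fun z => deriv Q z * (z - w) - (k : ℂ) * Q z) w := by
  obtain ⟨u, hua, -, hev⟩ := hQ.analyticOrderAt_eq_natCast.1 hk
  have hN : AnalyticAt ℂ (fun z => deriv Q z * (z - w) - (k : ℂ) * Q z) w := by
    have := hQ.deriv
    fun_prop
  rw [natCast_le_analyticOrderAt hN]
  refine ⟨deriv u, hua.deriv, ?_⟩
  have hev' : ∀ᶠ z in 𝓝 w, ∀ᶠ y in 𝓝 z, Q y = (y - w) ^ k • u y := hev.eventually_nhds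
  filter_upwards [hev', hua.eventually_analyticAt] with z hz huz
  have h1 : deriv Q z = deriv (fun y => (y - w) ^ k • u y) z := Filter.EventuallyEq.deriv_eq hz
  have h2 : HasDerivAt (fun y => (y - w) ^ k * u y)
      ((k : ℂ) * (z - w) ^ (k - 1) * u z + (z - w) ^ k * deriv u z) z :=
    hasDerivAt_pow_mul k huz.differentiableAt.hasDerivAt
  have h3 : deriv Q z = (k : ℂ) * (z - w) ^ (k - 1) * u z + (z - w) ^ k * deriv u z := by
    rw [h1]
    exact h2.deriv
  have h4 : Q z = (z - w) ^ k * u z := by simpa using hz.self_of_nhds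
  rw [h3, h4, smul_eq_mul]
  rcases Nat.eq_zero_or_pos k with h0 | h0
  · subst h0
    simp
    ring
  · have : (z - w) ^ k = (z - w) ^ (k - 1) * (z - w) := by
      rw [← pow_succ, Nat.sub_add_cancel h0]
    rw [pow_succ, this]
    ring


/-! ### from `PoleCond` to `ResCond` -/

theorem zH_sub_ne_zero (c : ℂ) : zH - algebraMap ℂ HolH c ≠ 0 := by
  intro h
  -- evaluate at two points
  have h1 := congrArg (fun f : HolH => (f : ℍ → ℂ) UpperHalfPlane.I) h
  have h2 := congrArg (fun f : HolH => (f : ℍ → ℂ) ⟨2 * Complex.I, by simp⟩) h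
  have e1 : (UpperHalfPlane.I : ℂ) - c = 0 := h1
  have e2 : (2 * Complex.I : ℂ) - c = 0 := h2
  have : (2 * Complex.I : ℂ) = Complex.I := by
    have e3 : ((UpperHalfPlane.I : ℍ) : ℂ) = Complex.I := rfl
    rw [e3] at e1
    linear_combination e2 - e1
  have h3 : Complex.I = 0 := by linear_combination this
  exact Complex.I_ne_zero h3

theorem toC_zH_sub_eventuallyEq (z₀ : ℍ) :
    toC (zH - algebraMap ℂ HolH (z₀ : ℂ)) =ᶠ[𝓝 (z₀ : ℂ)] fun z => z - (z₀ : ℂ) := by
  filter_upwards [isOpen_upperHalfPlaneSet.mem_nhds z₀.im_pos] with z hz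
  rw [toC_apply_of_im_pos _ hz]
  rfl

theorem ordH_zH_sub (z₀ : ℍ) :
    ordH ((zH - algebraMap ℂ HolH (z₀ : ℂ) : HolH) : ℍ → ℂ) z₀ = 1 := by
  show analyticOrderAt (toC (zH - algebraMap ℂ HolH (z₀ : ℂ))) (z₀ : ℂ) = 1
  rw [analyticOrderAt_congr (toC_zH_sub_eventuallyEq z₀)]
  exact analyticOrderAt_id_sub_const_self

theorem ordH_eq_toC (f : HolH) (z₀ : ℍ) :
    ordH (f : ℍ → ℂ) z₀ = analyticOrderAt (toC f) (z₀ : ℂ) := rfl

theorem analyticOrderAt_toC_ne_top {f : HolH} (hf : f ≠ 0) (z₀ : ℍ) :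
    analyticOrderAt (toC f) (z₀ : ℂ) ≠ ⊤ :=
  ordH_ne_top f.2 (fun h => hf (Subtype.ext h)) z₀

/-- **`PoleCond` gives the order inequality of `ResCond`.** -/
theorem order_le_of_poleCond {p q : HolH} (hq : q ≠ 0) (z₀ : ℍ) (m : ℂ)
    (h : PoleCond (ι p / ι q) z₀ m) :
    analyticOrderAt (toC q) (z₀ : ℂ) + 1 ≤
      analyticOrderAt (fun z => toC p z * (z - (z₀ : ℂ)) - m * toC q z) (z₀ : ℂ) := by
  set C := algebraMap ℂ HolH with hC
  set N₁ : HolH := p * (zH - C (z₀ : ℂ)) - C m * q with hN₁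
  set D₁ : HolH := q * (zH - C (z₀ : ℂ)) with hD₁
  have hz := zH_sub_ne_zero (z₀ : ℂ)
  have hD₁0 : D₁ ≠ 0 := mul_ne_zero hq hz
  have hq' := iota_ne_zero hq
  have hz' := iota_ne_zero hz
  have hx : ι p / ι q - cst m / (ι zH - cst (z₀ : ℂ)) = ι N₁ / ι D₁ := by
    have e1 : ι zH - cst (z₀ : ℂ) = ι (zH - C (z₀ : ℂ)) := by rw [map_sub]; rfl
    have e2 : ι N₁ = ι p * ι (zH - C (z₀ : ℂ)) - cst m * ι q := by
      rw [hN₁, map_sub, map_mul, map_mul]; rfl
    have e3 : ι D₁ = ι q * ι (zH - C (z₀ : ℂ)) := by rw [hD₁, map_mul]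
    have hz'' : ι (zH - C (z₀ : ℂ)) ≠ 0 := hz'
    rw [e1, e2, e3]
    field_simp
  have hev : toC N₁ =ᶠ[𝓝 (z₀ : ℂ)] fun z => toC p z * (z - (z₀ : ℂ)) - m * toC q z := by
    filter_upwards [toC_zH_sub_eventuallyEq z₀] with z hz
    show toC p z * toC (zH - C (z₀ : ℂ)) z - toC (C m) z * toC q z = _
    rw [hz]
    rfl
  rw [← analyticOrderAt_congr hev]
  by_cases hN0 : N₁ = 0
  · have : analyticOrderAt (toC N₁) (z₀ : ℂ) = ⊤ := by
      rw [hN0, analyticOrderAt_eq_top]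
      exact Eventually.of_forall fun _ => rfl
    rw [this]
    exact le_top
  · have hxne : ι N₁ / ι D₁ ≠ 0 := div_ne_zero (iota_ne_zero hN0) (iota_ne_zero hD₁0)
    unfold PoleCond at h
    rw [hx, mem_valAt_iff z₀ hxne, ordMer_div_algebraMap z₀ hN0 hD₁0] at h
    have hD : ordH (D₁ : ℍ → ℂ) z₀ = ordH (q : ℍ → ℂ) z₀ + 1 := by
      have : (D₁ : ℍ → ℂ) = (q : ℍ → ℂ) * ((zH - C (z₀ : ℂ) : HolH) : ℍ → ℂ) := rfl
      rw [this, ordH_mul q.2 (zH - C (z₀ : ℂ)).2, ordH_zH_sub]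
    obtain ⟨kN, hkN⟩ := ENat.ne_top_iff_exists.1 (analyticOrderAt_toC_ne_top hN0 z₀)
    obtain ⟨kq, hkq⟩ := ENat.ne_top_iff_exists.1 (analyticOrderAt_toC_ne_top hq z₀)
    rw [hD, ordH_eq_toC, ordH_eq_toC, ← hkN, ← hkq] at h
    rw [← hkN, ← hkq]
    have h1 : ((kq : ℕ∞) + 1).toNat = kq + 1 := by
      have : ((kq : ℕ∞) + 1) = ((kq + 1 : ℕ) : ℕ∞) := by push_cast; rfl
      rw [this, ENat.toNat_natCast]
    rw [ENat.toNat_natCast, h1] at h
    have h2 : kq + 1 ≤ kN := by omega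
    exact_mod_cast h2

/-- the residue vanishes where the denominator does not. -/
theorem eq_zero_of_poleCond_of_ne {p q : HolH} (hq : q ≠ 0) (z₀ : ℍ) (m : ℂ)
    (h : PoleCond (ι p / ι q) z₀ m) (hq0 : (q : ℍ → ℂ) z₀ ≠ 0) : m = 0 := by
  have h1 := order_le_of_poleCond hq z₀ m h
  have hqa := analyticAt_toC q z₀.im_pos
  have hpa := analyticAt_toC p z₀.im_pos
  have hq0' : toC q (z₀ : ℂ) ≠ 0 := by rw [toC_apply]; exact hq0
  rw [hqa.analyticOrderAt_eq_zero.2 hq0', zero_add] at h1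
  have hN : AnalyticAt ℂ (fun z => toC p z * (z - (z₀ : ℂ)) - m * toC q z) (z₀ : ℂ) := by fun_prop
  have h2 : analyticOrderAt (fun z => toC p z * (z - (z₀ : ℂ)) - m * toC q z) (z₀ : ℂ) ≠ 0 := by
    intro h0
    rw [h0] at h1
    simp at h1
  have h3 := (hN.analyticOrderAt_ne_zero).1 h2
  simp only [sub_self, mul_zero, zero_sub, neg_eq_zero, mul_eq_zero] at h3
  rcases h3 with h3 | h3
  · exact h3
  · exact absurd h3 hq0'


/-! ### LOGPRIM -/

/-- **LOGPRIM**: a meromorphic function on `ℍ` with at most simple poles and integer residues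
bounded below is the logarithmic derivative of a meromorphic function with the residues as
orders. -/
theorem exists_logPrim (g : MerH) (m : ℍ → ℤ) (M : ℕ) (hM : ∀ z, -(M : ℤ) ≤ m z)
    (hpole : ∀ z₀ : ℍ, PoleCond g z₀ (m z₀ : ℂ)) :
    ∃ F : MerH, F ≠ 0 ∧ dM F = g * F ∧ ∀ z₀ : ℍ, ordMer z₀ F = m z₀ := by
  obtain ⟨p, q, hq, rfl⟩ := exists_div_MerH g
  have hq' := iota_ne_zero hq
  -- the data of the ODE
  set Q : ℂ → ℂ := toC q with hQ
  set P : ℂ → ℂ := fun z => toC p z + (M : ℂ) * deriv (toC q) z with hP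
  have hQd : DifferentiableOn ℂ Q {z : ℂ | 0 < z.im} := differentiableOn_toC q
  have hPd : DifferentiableOn ℂ P {z : ℂ | 0 < z.im} :=
    (differentiableOn_toC p).add ((hQd.deriv isOpen_upperHalfPlaneSet).const_mul _)
  have hQt : ∀ z ∈ {z : ℂ | 0 < z.im}, analyticOrderAt Q z ≠ ⊤ := fun z hz =>
    analyticOrderAt_toC_ne_top hq ⟨z, hz⟩
  -- the order of `q`
  have hk : ∀ z₀ : ℍ, ∃ k : ℕ, analyticOrderAt Q (z₀ : ℂ) = k := fun z₀ =>
    ⟨_, (ENat.natCast_toNat (analyticOrderAt_toC_ne_top hq z₀)).symm⟩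
  choose kq hkq using hk
  -- non-negativity of the shifted residues
  have hnonneg : ∀ z₀ : ℍ, 0 ≤ m z₀ + (M : ℤ) * kq z₀ := by
    intro z₀
    rcases Nat.eq_zero_or_pos (kq z₀) with h0 | h0
    · have hq0 : (q : ℍ → ℂ) z₀ ≠ 0 := by
        have h1 := hkq z₀
        rw [h0, Nat.cast_zero, (analyticAt_toC q z₀.im_pos).analyticOrderAt_eq_zero] at h1
        rwa [toC_apply] at h1
      have := eq_zero_of_poleCond_of_ne hq z₀ _ (hpole z₀) hq0
      have hm0 : m z₀ = 0 := by exact_mod_cast this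
      rw [hm0, h0]
      simp
    · have h1 : (M : ℤ) ≤ (M : ℤ) * kq z₀ := by
        have : (1 : ℤ) ≤ kq z₀ := by exact_mod_cast h0
        nlinarith [Int.natCast_nonneg M]
      linarith [hM z₀]
  -- the residue condition
  have hres' : ∀ z₀ : ℍ, ResCond P Q (z₀ : ℂ) (m z₀ + (M : ℤ) * kq z₀).toNat := by
    intro z₀
    set w : ℂ := (z₀ : ℂ) with hw
    have hcast : (((m z₀ + (M : ℤ) * kq z₀).toNat : ℕ) : ℂ) = (m z₀ : ℂ) + (M : ℂ) * kq z₀ := by
      have := Int.toNat_of_nonneg (hnonneg z₀)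
      have h2 : (((m z₀ + (M : ℤ) * kq z₀).toNat : ℤ) : ℂ) = ((m z₀ + (M : ℤ) * kq z₀ : ℤ) : ℂ) := by
        rw [this]
      push_cast at h2
      exact_mod_cast h2
    unfold ResCond
    rw [hcast]
    have hfun : (fun z => P z * (z - w) - ((m z₀ : ℂ) + (M : ℂ) * kq z₀) * Q z) =
        (fun z => toC p z * (z - w) - (m z₀ : ℂ) * Q z) +
          (fun z => (M : ℂ) * (deriv Q z * (z - w) - (kq z₀ : ℂ) * Q z)) := by
      funext z
      simp only [hP, Pi.add_apply]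
      ring
    rw [hfun]
    refine le_trans (le_min ?_ ?_) le_analyticOrderAt_add
    · exact order_le_of_poleCond hq z₀ _ (hpole z₀)
    · have hQa : AnalyticAt ℂ Q w := analyticAt_toC q z₀.im_pos
      have h1 := le_order_deriv_mul_sub hQa (hkq z₀)
      have hN : AnalyticAt ℂ (fun z => deriv Q z * (z - w) - (kq z₀ : ℂ) * Q z) w := by
        have := hQa.deriv
        fun_prop
      have h2 : (fun z => (M : ℂ) * (deriv Q z * (z - w) - (kq z₀ : ℂ) * Q z)) =
          (fun _ => (M : ℂ)) * (fun z => deriv Q z * (z - w) - (kq z₀ : ℂ) * Q z) := rfl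
      rw [h2, analyticOrderAt_mul analyticAt_const hN]
      have h3 : analyticOrderAt Q w + 1 = ((kq z₀ + 1 : ℕ) : ℕ∞) := by
        rw [hkq z₀]
        push_cast
        rfl
      rw [h3]
      exact h1.trans le_add_self
  have hres : ∀ z ∈ {z : ℂ | 0 < z.im}, ∃ mt : ℕ, ResCond P Q z mt := fun w hw =>
    ⟨_, hres' ⟨w, hw⟩⟩
  obtain ⟨A, hAd, hode, hord⟩ := exists_sol_upper hPd hQd hQt hres
  set AH : HolH := ofC A hAd with hAH
  have hAev : ∀ z₀ : ℍ, toC AH =ᶠ[𝓝 (z₀ : ℂ)] A := by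
    intro z₀
    filter_upwards [isOpen_upperHalfPlaneSet.mem_nhds z₀.im_pos] with z hz
    exact toC_ofC A hAd hz
  -- the orders of `AH`
  have hAord : ∀ z₀ : ℍ, analyticOrderAt (toC AH) (z₀ : ℂ) =
      (((m z₀ + (M : ℤ) * kq z₀).toNat : ℕ) : ℕ∞) := by
    intro z₀
    rw [analyticOrderAt_congr (hAev z₀)]
    exact hord (z₀ : ℂ) z₀.im_pos _ (hres' z₀)
  have hAH0 : AH ≠ 0 := by
    intro h0
    have h1 := hAord UpperHalfPlane.I
    have h2 : analyticOrderAt (toC AH) ((UpperHalfPlane.I : ℍ) : ℂ) = ⊤ := by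
      rw [h0, analyticOrderAt_eq_top]
      exact Eventually.of_forall fun _ => rfl
    rw [h2] at h1
    exact ENat.top_ne_natCast _ h1
  have hAH' := iota_ne_zero hAH0
  -- the ODE in `HolH`
  have hodeH : q * derivH AH = (p + algebraMap ℂ HolH (M : ℂ) * derivH q) * AH := by
    apply Subtype.ext
    funext z
    show (q : ℍ → ℂ) z * deriv (toC AH) (z : ℂ) =
      ((p : ℍ → ℂ) z + (M : ℂ) * deriv (toC q) (z : ℂ)) * (AH : ℍ → ℂ) z
    rw [(hAev z).deriv_eq]
    have := hode (z : ℂ) z.im_pos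
    simp only [hP, hQ, toC_apply] at this
    rw [this]
    rfl
  have hodeM : ι q * ι (derivH AH) = (ι p + cst (M : ℂ) * ι (derivH q)) * ι AH := by
    have := congrArg ι hodeH
    rw [map_mul, map_mul, map_add, map_mul] at this
    exact this
  refine ⟨ι AH * ((ι q) ^ M)⁻¹, mul_ne_zero hAH' (inv_ne_zero (pow_ne_zero M hq')), ?_, ?_⟩
  · have hF0 : ι AH * ((ι q) ^ M)⁻¹ ≠ 0 := mul_ne_zero hAH' (inv_ne_zero (pow_ne_zero M hq'))
    have h1 := dM_mul_div hAH' (inv_ne_zero (pow_ne_zero M hq'))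
    rw [dM_inv_div (pow_ne_zero M hq'), dM_pow_div hq', dM_algebraMap, dM_algebraMap] at h1
    rw [div_eq_iff hF0] at h1
    rw [h1]
    congr 1
    have hcM : cst (M : ℂ) = (M : MerH) := by
      unfold cst
      rw [map_natCast, map_natCast]
    rw [hcM] at hodeM
    field_simp
    linear_combination hodeM
  · intro z₀
    rw [ordMer_mul z₀ hAH' (inv_ne_zero (pow_ne_zero M hq')), ordMer_inv, ordMer_pow z₀ hq',
      ordMer_algebraMap z₀ hAH0, ordMer_algebraMap z₀ hq, ordH_eq_toC, ordH_eq_toC, hAord z₀,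
      hkq z₀, ENat.toNat_natCast, ENat.toNat_natCast, Int.toNat_of_nonneg (hnonneg z₀)]
    ring

/-- **Automorphy**: if `dM F = g * F` and `g` has weight two for `γ`, then `slMer γ F` is a constant
multiple of `F`. -/
theorem exists_const_slMer {F g : MerH} (hF : F ≠ 0) (hFg : dM F = g * F) (γ : SL(2, ℤ))
    (hγ : ι (jacInv γ) * slMer γ g = g) :
    ∃ c : ℂ, c ≠ 0 ∧ slMer γ F = cst c * F := by
  have hY : slMer γ F ≠ 0 := fun h => hF ((slMer γ).injective (by rw [h, map_zero]))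
  have hdY : dM (slMer γ F) = g * slMer γ F := by
    rw [dM_slMer, hFg, map_mul, ← mul_assoc, hγ]
  have h0 : dM (slMer γ F / F) = 0 := by
    rw [dM_div' _ hF, hdY, hFg]
    have : g * slMer γ F * F - slMer γ F * (g * F) = 0 := by ring
    rw [this, zero_div]
  obtain ⟨c, hc⟩ := exists_const_of_dM_eq_zero h0
  have hc' : slMer γ F = cst c * F := by
    rw [div_eq_iff hF] at hc
    exact hc
  refine ⟨c, ?_, hc'⟩
  rintro rfl
  apply hY
  rw [hc']
  unfold cst
  rw [map_zero, map_zero, zero_mul]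

end Fermat.Agent.M15.DivLogPrim1
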