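/-
Programme M15 (S15), chapter (DIV), leaf (d), file 1 (helper1): **the vertical shift and the
exponential on `HolH` / `MerH`**, and the logarithm lemma at a cusp.

* `shiftPt Y z = z + iY`, `shiftH Y : HolH →+* HolH`, `shiftM Y : MerH →+* MerH` (pull back along the
  vertical shift; injective by the identity theorem); they commute with `derivH`, `dM`, with
  `compSLHom (T ^ k)`, `slMer (T ^ k)` and fix constants;
* `expH ℓ : HolH` (`exp ∘ ℓ`), `derivH_expH`, `expH_add`, `expH_ne_zero`, `compSLHom_expH`,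
  `shiftH_expH`;
* `exists_const_mul_expH` : `dM G = ι (derivH ℓ) * G`, `G ≠ 0` ⇒ `G = c · exp ℓ`;
* `exists_expH_eq` : the same with the constant absorbed in `ℓ`;
* `eq_one_of_expH_periodic` : the multiplier of `exp ℓ` under `T ^ k` is `1` if `ℓ` is periodic under
  some `T ^ M`, `M ≠ 0`.
-/
import Fermat.Agent.M15.DivLogPrim1
import Fermat.Agent.ES.KUM.ParMult3

set_option autoImplicit false
set_option linter.unusedSectionVars false

open UpperHalfPlane Filter Topology Set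
open scoped Manifold MatrixGroups NNReal

noncomputable section

namespace Fermat.Agent.M15.DivShift1

open Fermat.Agent.X0 Fermat.Agent.X0.SurjPoint Fermat.Agent.ES.KUM Fermat.Agent.M15.DivLogMer1
  Fermat.Agent.M15.DivLogPrim1

local notation "ι" => algebraMap HolH MerH

/-! ### The vertical shift -/

/-- `z ↦ z + iY`. -/
def shiftPt (Y : ℝ≥0) (z : ℍ) : ℍ :=
  ⟨(z : ℂ) + ((Y : ℝ) : ℂ) * Complex.I, by
    have h : ((z : ℂ) + ((Y : ℝ) : ℂ) * Complex.I).im = z.im + Y := by simp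
    rw [h]
    exact add_pos_of_pos_of_nonneg z.im_pos Y.2⟩

theorem coe_shiftPt (Y : ℝ≥0) (z : ℍ) :
    ((shiftPt Y z : ℍ) : ℂ) = (z : ℂ) + ((Y : ℝ) : ℂ) * Complex.I := rfl

theorem im_shiftPt (Y : ℝ≥0) (z : ℍ) : (shiftPt Y z).im = z.im + Y := by
  show ((z : ℂ) + ((Y : ℝ) : ℂ) * Complex.I).im = z.im + Y
  simp

theorem toC_shift (f : HolH) (Y : ℝ≥0) (z : ℍ) :
    toC f ((z : ℂ) + ((Y : ℝ) : ℂ) * Complex.I) = (f : ℍ → ℂ) (shiftPt Y z) :=
  toC_apply f (shiftPt Y z)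

theorem differentiableOn_toC_shift (f : HolH) (Y : ℝ≥0) :
    DifferentiableOn ℂ (fun w : ℂ => toC f (w + ((Y : ℝ) : ℂ) * Complex.I)) {z : ℂ | 0 < z.im} := by
  have h1 : DifferentiableOn ℂ (fun w : ℂ => w + ((Y : ℝ) : ℂ) * Complex.I) {z : ℂ | 0 < z.im} :=
    (differentiable_id.add_const _).differentiableOn
  refine (differentiableOn_toC f).comp h1 fun w hw => ?_
  show 0 < (w + ((Y : ℝ) : ℂ) * Complex.I).im
  have h : (w + ((Y : ℝ) : ℂ) * Complex.I).im = w.im + Y := by simp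
  rw [h]
  exact add_pos_of_pos_of_nonneg hw Y.2

/-- pull back along the vertical shift, on `HolH`. -/
def shiftH (Y : ℝ≥0) : HolH →+* HolH where
  toFun f := ⟨fun z => (f : ℍ → ℂ) (shiftPt Y z), UpperHalfPlane.mdifferentiable_iff.2
    ((differentiableOn_toC_shift f Y).congr fun w hw => by
      simp only [Function.comp_apply]
      rw [ofComplex_apply_of_im_pos hw]
      exact (toC_shift f Y ⟨w, hw⟩).symm)⟩
  map_one' := rfl
  map_mul' _ _ := rfl
  map_zero' := rfl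
  map_add' _ _ := rfl

theorem shiftH_apply (Y : ℝ≥0) (f : HolH) (z : ℍ) :
    ((shiftH Y f : HolH) : ℍ → ℂ) z = (f : ℍ → ℂ) (shiftPt Y z) := rfl

theorem shiftH_injective (Y : ℝ≥0) : Function.Injective (shiftH Y) := by
  rw [injective_iff_map_eq_zero]
  intro f hf
  by_contra hf0
  have hf0' : (f : ℍ → ℂ) ≠ 0 := fun h => hf0 (Subtype.ext h)
  obtain ⟨z, hzY, hz⟩ := ParMult3.exists_ne_zero_of_im_gt f.2 hf0' (Y : ℝ)
  have hpos : 0 < ((z : ℂ) - ((Y : ℝ) : ℂ) * Complex.I).im := by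
    have h : ((z : ℂ) - ((Y : ℝ) : ℂ) * Complex.I).im = z.im - Y := by simp
    rw [h]
    linarith
  have hz' : shiftPt Y ⟨(z : ℂ) - ((Y : ℝ) : ℂ) * Complex.I, hpos⟩ = z := by
    apply UpperHalfPlane.ext
    rw [coe_shiftPt]
    show (z : ℂ) - ((Y : ℝ) : ℂ) * Complex.I + ((Y : ℝ) : ℂ) * Complex.I = z
    ring
  apply hz
  have h1 := shiftH_apply Y f ⟨(z : ℂ) - ((Y : ℝ) : ℂ) * Complex.I, hpos⟩
  rw [hz', hf] at h1
  exact h1.symm

theorem shiftH_ne_zero (Y : ℝ≥0) {f : HolH} (hf : f ≠ 0) : shiftH Y f ≠ 0 :=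
  (map_ne_zero_iff _ (shiftH_injective Y)).mpr hf

theorem shiftH_const (Y : ℝ≥0) (c : ℂ) : shiftH Y (algebraMap ℂ HolH c) = algebraMap ℂ HolH c :=
  rfl

/-- pull back along the vertical shift, on `MerH`. -/
def shiftM (Y : ℝ≥0) : MerH →+* MerH :=
  IsFractionRing.lift (A := HolH) (K := MerH)
    (g := (algebraMap HolH MerH).comp (shiftH Y))
    ((IsFractionRing.injective HolH MerH).comp (shiftH_injective Y))

theorem shiftM_algebraMap (Y : ℝ≥0) (a : HolH) : shiftM Y (ι a) = ι (shiftH Y a) :=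
  IsFractionRing.lift_algebraMap _ a

theorem shiftM_div (Y : ℝ≥0) (a b : HolH) : shiftM Y (ι a / ι b) = ι (shiftH Y a) / ι (shiftH Y b) := by
  rw [map_div₀, shiftM_algebraMap, shiftM_algebraMap]

theorem shiftM_cst (Y : ℝ≥0) (c : ℂ) : shiftM Y (cst c) = cst c := by
  unfold cst
  rw [shiftM_algebraMap, shiftH_const]

theorem shiftM_injective (Y : ℝ≥0) : Function.Injective (shiftM Y) := (shiftM Y).injective

theorem derivH_shiftH (Y : ℝ≥0) (f : HolH) : derivH (shiftH Y f) = shiftH Y (derivH f) := by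
  apply Subtype.ext
  funext z
  show deriv (toC (shiftH Y f)) (z : ℂ) = deriv (toC f) ((shiftPt Y z : ℍ) : ℂ)
  have hev : toC (shiftH Y f) =ᶠ[𝓝 (z : ℂ)] fun w : ℂ => toC f (w + ((Y : ℝ) : ℂ) * Complex.I) := by
    filter_upwards [isOpen_upperHalfPlaneSet.mem_nhds z.im_pos] with w hw
    rw [toC_apply_of_im_pos _ hw, shiftH_apply]
    exact (toC_shift f Y ⟨w, hw⟩).symm
  rw [hev.deriv_eq, deriv_comp_add_const, coe_shiftPt]

theorem dM_shiftM (Y : ℝ≥0) (x : MerH) : dM (shiftM Y x) = shiftM Y (dM x) := by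
  obtain ⟨a, b, hb, rfl⟩ := exists_div_MerH x
  have hsb : shiftH Y b ≠ 0 := shiftH_ne_zero Y hb
  rw [shiftM_div, dM_div _ hsb, dM_div _ hb, dFrac, dFrac, derivH_shiftH, derivH_shiftH]
  simp only [map_div₀, map_sub, map_mul, map_pow, shiftM_algebraMap]

theorem shiftPt_T_zpow_smul (Y : ℝ≥0) (k : ℤ) (z : ℍ) :
    shiftPt Y (ModularGroup.T ^ k • z) = ModularGroup.T ^ k • shiftPt Y z := by
  apply UpperHalfPlane.ext
  rw [coe_shiftPt, ParMult3.coe_T_zpow_smul, ParMult3.coe_T_zpow_smul, coe_shiftPt]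
  ring

theorem compSLHom_T_shiftH (Y : ℝ≥0) (k : ℤ) (f : HolH) :
    compSLHom (ModularGroup.T ^ k) (shiftH Y f) = shiftH Y (compSLHom (ModularGroup.T ^ k) f) := by
  apply Subtype.ext
  funext z
  show (f : ℍ → ℂ) (shiftPt Y (ModularGroup.T ^ k • z)) =
    (f : ℍ → ℂ) (ModularGroup.T ^ k • shiftPt Y z)
  rw [shiftPt_T_zpow_smul]

theorem slMer_T_shiftM (Y : ℝ≥0) (k : ℤ) (x : MerH) :
    slMer (ModularGroup.T ^ k) (shiftM Y x) = shiftM Y (slMer (ModularGroup.T ^ k) x) := by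
  obtain ⟨a, b, -, rfl⟩ := exists_div_MerH x
  rw [shiftM_div, slMer_div, slMer_div, shiftM_div, compSLHom_T_shiftH, compSLHom_T_shiftH]

/-! ### The exponential -/

/-- `exp ∘ ℓ`. -/
def expH (ℓ : HolH) : HolH :=
  ofC (fun w => Complex.exp (toC ℓ w)) (differentiableOn_toC ℓ).cexp

theorem expH_apply (ℓ : HolH) (z : ℍ) :
    ((expH ℓ : HolH) : ℍ → ℂ) z = Complex.exp ((ℓ : ℍ → ℂ) z) := by
  show Complex.exp (toC ℓ (z : ℂ)) = _
  rw [toC_apply]

theorem expH_apply_ne_zero (ℓ : HolH) (z : ℍ) : ((expH ℓ : HolH) : ℍ → ℂ) z ≠ 0 := by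
  rw [expH_apply]
  exact Complex.exp_ne_zero _

theorem expH_ne_zero (ℓ : HolH) : expH ℓ ≠ 0 := fun h =>
  expH_apply_ne_zero ℓ UpperHalfPlane.I (by rw [h]; rfl)

theorem expH_add (a b : HolH) : expH (a + b) = expH a * expH b := by
  apply Subtype.ext
  funext z
  show ((expH (a + b) : HolH) : ℍ → ℂ) z =
    ((expH a : HolH) : ℍ → ℂ) z * ((expH b : HolH) : ℍ → ℂ) z
  rw [expH_apply, expH_apply, expH_apply, ← Complex.exp_add]
  rfl

theorem expH_zero : expH 0 = 1 := by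
  apply Subtype.ext
  funext z
  show ((expH 0 : HolH) : ℍ → ℂ) z = 1
  rw [expH_apply]
  show Complex.exp 0 = 1
  exact Complex.exp_zero

theorem expH_neg_mul (a : HolH) : expH (-a) * expH a = 1 := by
  rw [← expH_add, neg_add_cancel, expH_zero]

theorem expH_const (c : ℂ) : expH (algebraMap ℂ HolH c) = algebraMap ℂ HolH (Complex.exp c) := by
  apply Subtype.ext
  funext z
  show ((expH (algebraMap ℂ HolH c) : HolH) : ℍ → ℂ) z = Complex.exp c
  rw [expH_apply]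
  rfl

theorem compSLHom_expH (γ : SL(2, ℤ)) (ℓ : HolH) :
    compSLHom γ (expH ℓ) = expH (compSLHom γ ℓ) := by
  apply Subtype.ext
  funext z
  show ((expH ℓ : HolH) : ℍ → ℂ) (γ • z) = ((expH (compSLHom γ ℓ) : HolH) : ℍ → ℂ) z
  rw [expH_apply, expH_apply]
  rfl

theorem shiftH_expH (Y : ℝ≥0) (ℓ : HolH) : shiftH Y (expH ℓ) = expH (shiftH Y ℓ) := by
  apply Subtype.ext
  funext z
  show ((expH ℓ : HolH) : ℍ → ℂ) (shiftPt Y z) = ((expH (shiftH Y ℓ) : HolH) : ℍ → ℂ) z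
  rw [expH_apply, expH_apply]
  rfl

theorem derivH_expH (ℓ : HolH) : derivH (expH ℓ) = derivH ℓ * expH ℓ := by
  apply Subtype.ext
  funext z
  show deriv (toC (expH ℓ)) (z : ℂ) =
    ((derivH ℓ : HolH) : ℍ → ℂ) z * ((expH ℓ : HolH) : ℍ → ℂ) z
  have hev : toC (expH ℓ) =ᶠ[𝓝 (z : ℂ)] fun w : ℂ => Complex.exp (toC ℓ w) := by
    filter_upwards [isOpen_upperHalfPlaneSet.mem_nhds z.im_pos] with w hw
    exact toC_ofC _ _ hw
  rw [hev.deriv_eq, ((hasDerivAt_toC ℓ z).cexp).deriv, expH_apply, toC_apply]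
  ring

theorem dM_expH (ℓ : HolH) : dM (ι (expH ℓ)) = ι (derivH ℓ) * ι (expH ℓ) := by
  rw [dM_algebraMap, derivH_expH, map_mul]

/-! ### The logarithm lemma -/

/-- a solution of `dM G = ℓ' G` is a constant multiple of `exp ℓ`. -/
theorem exists_const_mul_expH {G : MerH} {ℓ : HolH} (hG : G ≠ 0)
    (h : dM G = ι (derivH ℓ) * G) : ∃ c : ℂ, c ≠ 0 ∧ G = cst c * ι (expH ℓ) := by
  have hE : ι (expH ℓ) ≠ 0 := iota_ne_zero (expH_ne_zero ℓ)
  have h0 : dM (G / ι (expH ℓ)) = 0 := by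
    rw [dM_div' _ hE, dM_expH, h, div_eq_zero_iff]
    left
    ring
  obtain ⟨c, hc⟩ := exists_const_of_dM_eq_zero h0
  refine ⟨c, ?_, ?_⟩
  · rintro rfl
    rw [map_zero, map_zero, div_eq_zero_iff] at hc
    rcases hc with hc | hc
    · exact hG hc
    · exact hE hc
  · rw [div_eq_iff hE] at hc
    exact hc

/-- the same with the constant absorbed into `ℓ`. -/
theorem exists_expH_eq {G : MerH} {ℓ : HolH} (hG : G ≠ 0)
    (h : dM G = ι (derivH ℓ) * G) : ∃ κ : ℂ, G = ι (expH (ℓ + algebraMap ℂ HolH κ)) := by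
  obtain ⟨c, hc0, hc⟩ := exists_const_mul_expH hG h
  refine ⟨Complex.log c, ?_⟩
  rw [expH_add, expH_const, Complex.exp_log hc0, map_mul, hc, mul_comm]
  rfl

/-! ### Triviality of the multiplier of `exp ℓ` under a translation -/

theorem compSLHom_T_pow_iter (k : ℤ) (ℓ : HolH) (κ : ℂ)
    (h : compSLHom (ModularGroup.T ^ k) ℓ = ℓ + algebraMap ℂ HolH κ) (m : ℕ) :
    compSLHom ((ModularGroup.T ^ k) ^ m) ℓ = ℓ + algebraMap ℂ HolH ((m : ℂ) * κ) := by
  induction m with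
  | zero =>
    rw [pow_zero, compSLHom_one]
    simp
  | succ m ih =>
    rw [pow_succ, compSLHom_mul, ih, map_add, h]
    have : compSLHom (ModularGroup.T ^ k) (algebraMap ℂ HolH ((m : ℂ) * κ)) =
        algebraMap ℂ HolH ((m : ℂ) * κ) := rfl
    rw [this, add_assoc, ← map_add]
    congr 2
    push_cast
    ring

/-- **Triviality of the multiplier.**  If `exp ℓ ∘ T^k = c · exp ℓ` and `ℓ ∘ T^M = ℓ` with `M ≠ 0`,
then `ℓ ∘ T^k = ℓ` and `c = 1`. -/
theorem eq_one_of_expH_periodic {ℓ : HolH} {M : ℕ} (hM : M ≠ 0)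
    (hper : compSLHom (ModularGroup.T ^ (M : ℤ)) ℓ = ℓ) (k : ℤ) (c : ℂ)
    (hc : compSLHom (ModularGroup.T ^ k) (expH ℓ) = algebraMap ℂ HolH c * expH ℓ) :
    compSLHom (ModularGroup.T ^ k) ℓ = ℓ ∧ c = 1 := by
  set γ : SL(2, ℤ) := ModularGroup.T ^ k with hγ
  -- the derivative of `ℓ ∘ γ - ℓ` vanishes
  have hd : derivH (compSLHom γ ℓ - ℓ) = 0 := by
    have h1 := congrArg derivH hc
    rw [compSLHom_expH, derivH_expH, derivH_mul, derivH_const, zero_mul, zero_add, derivH_expH,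
      ← compSLHom_expH, hc] at h1
    have hE : algebraMap ℂ HolH c * expH ℓ ≠ 0 := by
      rw [← hc]
      exact compSLHom_ne_zero γ (expH_ne_zero ℓ)
    rw [derivH_sub, sub_eq_zero]
    apply mul_right_cancel₀ hE
    rw [h1]
    ring
  have hd' : dM (ι (compSLHom γ ℓ - ℓ)) = 0 := by rw [dM_algebraMap, hd, map_zero]
  obtain ⟨κ, hκ⟩ := exists_const_of_dM_eq_zero hd'
  have hκ' : compSLHom γ ℓ = ℓ + algebraMap ℂ HolH κ := by
    have := iota_injective hκ
    rw [← this]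
    ring
  -- iterate `M` times
  have h2 := compSLHom_T_pow_iter k ℓ κ hκ' M
  have h3 : (ModularGroup.T ^ k) ^ M = (ModularGroup.T ^ (M : ℤ)) ^ k := by
    rw [← zpow_natCast, ← zpow_mul, ← zpow_mul, mul_comm]
  have h4 : ∀ j : ℤ, compSLHom ((ModularGroup.T ^ (M : ℤ)) ^ j) ℓ = ℓ := by
    have hpos : ∀ j : ℕ, compSLHom ((ModularGroup.T ^ (M : ℤ)) ^ j) ℓ = ℓ := by
      intro j
      induction j with
      | zero => rw [pow_zero, compSLHom_one]
      | succ j ih => rw [pow_succ, compSLHom_mul, ih, hper]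
    have hinv : compSLHom (ModularGroup.T ^ (M : ℤ))⁻¹ ℓ = ℓ := by
      conv_lhs => rw [← hper]
      exact compSLHom_cancel_inv _ ℓ
    have hneg : ∀ j : ℕ, compSLHom (((ModularGroup.T ^ (M : ℤ))⁻¹) ^ j) ℓ = ℓ := by
      intro j
      induction j with
      | zero => rw [pow_zero, compSLHom_one]
      | succ j ih => rw [pow_succ, compSLHom_mul, ih, hinv]
    intro j
    rcases Int.eq_nat_or_neg j with ⟨n, rfl | rfl⟩
    · rw [zpow_natCast]
      exact hpos n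
    · rw [zpow_neg, zpow_natCast, ← inv_pow]
      exact hneg n
  rw [h3, h4 k] at h2
  have hκ0 : κ = 0 := by
    have h5 : algebraMap ℂ HolH ((M : ℂ) * κ) = 0 := by
      have := h2
      rw [left_eq_add] at this
      exact this
    have h6 : ((M : ℂ) * κ) = 0 := by
      have := congrArg (fun f : HolH => (f : ℍ → ℂ) UpperHalfPlane.I) h5
      exact this
    rcases mul_eq_zero.mp h6 with h7 | h7
    · exact absurd (by exact_mod_cast h7) hM
    · exact h7
  rw [hκ0, map_zero, add_zero] at hκ'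
  refine ⟨hκ', ?_⟩
  rw [compSLHom_expH, hκ'] at hc
  have h8 := congrArg (fun f : HolH => (f : ℍ → ℂ) UpperHalfPlane.I) hc
  have h9 : ((expH ℓ : HolH) : ℍ → ℂ) UpperHalfPlane.I =
      c * ((expH ℓ : HolH) : ℍ → ℂ) UpperHalfPlane.I := h8
  have h10 := expH_apply_ne_zero ℓ UpperHalfPlane.I
  have h11 : (1 - c) * ((expH ℓ : HolH) : ℍ → ℂ) UpperHalfPlane.I = 0 := by
    linear_combination h9
  rcases mul_eq_zero.mp h11 with h12 | h12
  · exact (sub_eq_zero.mp h12).symm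
  · exact absurd h12 h10

end Fermat.Agent.M15.DivShift1
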