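/-
Programme M15 (S15), chapter (DIV), leaf (d), file 2 (helper1): **(AUT) the automorphic function with
a unitary character attached to a logarithmic differential.**

Input: `g : MerH` ("`ω / dz`") with
* (g1) weight `2` invariance `ι (jacInv γ) * slMer γ g = g` for `γ ∈ Γ₀(N)`;
* (g2) simple poles with integer residues `m z₀` (`PoleCond`), `m` bounded below;
* (g3) regularity at all cusps in the form `CuspReg`;
* (ell) `mult γ z₀ ^ m z₀ = 1` at fixed points.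
Output (`exists_automorphic`): `F : MerH`, `F ≠ 0`, and a character `χ : Γ₀(N) →* ℂˣ` with
`slMer γ F = χ γ · F`, `‖χ γ‖ = 1`, `χ` trivial on `trSq ≤ 4`, `ordMer z F = m z`, and a logarithm
at every cusp (`CuspLog`).

Steps: `exists_logPrim` / `exists_const_slMer` (file `DivLogPrim1`) give `F` and multipliers;
`cuspLog_of_cuspReg` the logarithms at the cusps; `eq_one_of_cuspLog` parabolic triviality
(no cusp width needed: `ℓ` is genuinely `N`-periodic); `S21.result` (Eichler-Shimura) gives a cusp form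
`u` with `Re P_u = log ‖χ‖`, and `F * exp (-∫ u)` has a unitary character.
-/
import Fermat.Agent.M15.DivShift1
import Fermat.Agent.ES.KUM.ParConj14
import Fermat.Agent.ES.KUM.EllMult14
import Fermat.Agent.ES.KUM.EisPack20
import Fermat.Agent.ES.KUM.KumChar5
import Fermat.Agent.S21
import Fermat.Agent.S21.ConjForm

set_option autoImplicit false
set_option linter.unusedSectionVars false

open UpperHalfPlane Filter Topology Set CongruenceSubgroup
open scoped Manifold MatrixGroups NNReal ComplexConjugate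

noncomputable section

namespace Fermat.Agent.M15.DivAut1

open Fermat.Agent.X0 Fermat.Agent.X0.SurjPoint Fermat.Agent.ES.KUM Fermat.Agent.M15.DivLogMer1
  Fermat.Agent.M15.DivLogPrim1 Fermat.Agent.M15.DivShift1 ModularCurve ModularCurve.Period
  Fermat.Agent.S21

local notation "ι" => algebraMap HolH MerH

variable (N : ℕ) [NeZero N]

/-! ### Constants -/

theorem cst_injective : Function.Injective cst := fun _ _ h =>
  (algebraMap ℂ HolH).injective (iota_injective h)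

theorem cst_mul (a b : ℂ) : cst (a * b) = cst a * cst b := by
  unfold cst
  rw [map_mul, map_mul]

theorem cst_one : cst 1 = 1 := by
  unfold cst
  rw [map_one, map_one]

theorem slMer_cst (γ : SL(2, ℤ)) (c : ℂ) : slMer γ (cst c) = cst c := slMer_const γ c

theorem eq_of_cst_mul_eq {F : MerH} (hF : F ≠ 0) {c c' : ℂ} (h : cst c * F = cst c' * F) :
    c = c' :=
  cst_injective (mul_right_cancel₀ hF h)

/-! ### Regularity at the cusps -/

/-- regularity of a meromorphic form of weight `2` at all cusps: after a vertical shift, every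
weight `2` translate is the derivative of an `N`-periodic holomorphic function bounded at `i∞`. -/
def CuspReg (g : MerH) : Prop :=
  ∀ σ : SL(2, ℤ), ∃ (Y : ℝ≥0) (ℓ : HolH), compSLHom (ModularGroup.T ^ (N : ℤ)) ℓ = ℓ ∧
    IsBoundedAtImInfty (ℓ : ℍ → ℂ) ∧ shiftM Y (ι (jacInv σ) * slMer σ g) = ι (derivH ℓ)

/-- a logarithm at every cusp: after a vertical shift, every translate is `exp ℓ` with `ℓ` an
`N`-periodic holomorphic function bounded at `i∞`. -/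
def CuspLog (F : MerH) : Prop :=
  ∀ σ : SL(2, ℤ), ∃ (Y : ℝ≥0) (ℓ : HolH), compSLHom (ModularGroup.T ^ (N : ℤ)) ℓ = ℓ ∧
    IsBoundedAtImInfty (ℓ : ℍ → ℂ) ∧ shiftM Y (slMer σ F) = ι (expH ℓ)

theorem isBoundedAtImInfty_add_const {ℓ : HolH} (h : IsBoundedAtImInfty (ℓ : ℍ → ℂ)) (κ : ℂ) :
    IsBoundedAtImInfty ((ℓ + algebraMap ℂ HolH κ : HolH) : ℍ → ℂ) := by
  rw [isBoundedAtImInfty_iff] at h ⊢
  obtain ⟨M, A, hMA⟩ := h
  refine ⟨M + ‖κ‖, A, fun z hz => ?_⟩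
  show ‖(ℓ : ℍ → ℂ) z + κ‖ ≤ M + ‖κ‖
  exact (norm_add_le _ _).trans (add_le_add (hMA z hz) le_rfl)

theorem cuspLog_of_cuspReg {F g : MerH} (hF : F ≠ 0) (hFg : dM F = g * F) (h : CuspReg N g) :
    CuspLog N F := by
  intro σ
  obtain ⟨Y, ℓ, hper, hbd, hℓ⟩ := h σ
  have hG : shiftM Y (slMer σ F) ≠ 0 := (map_ne_zero _).mpr ((map_ne_zero _).mpr hF)
  have hd : dM (shiftM Y (slMer σ F)) = ι (derivH ℓ) * shiftM Y (slMer σ F) := by
    rw [dM_shiftM, dM_slMer, hFg, map_mul (slMer σ), ← mul_assoc, map_mul (shiftM Y), hℓ]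
  obtain ⟨κ, hκ⟩ := exists_expH_eq hG hd
  refine ⟨Y, ℓ + algebraMap ℂ HolH κ, ?_, isBoundedAtImInfty_add_const hbd κ, hκ⟩
  rw [map_add, hper]
  rfl

/-- **Parabolic triviality.** -/
theorem eq_one_of_cuspLog {F : MerH} (hlog : CuspLog N F) {γ : SL(2, ℤ)}
    (htr : trSq γ = 4) {c : ℂ} (hc : slMer γ F = cst c * F) : c = 1 := by
  obtain ⟨σ, m, hσ⟩ := ParConj14.exists_conj_of_trace_sq γ htr
  have h1 := ParConj14.slMer_T_zpow_of_conj hσ hc
  obtain ⟨Y, ℓ, hper, -, hℓ⟩ := hlog σ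
  have h2 := congrArg (shiftM Y) h1
  rw [← slMer_T_shiftM, map_mul, hℓ, shiftM_algebraMap, shiftH_const, slMer_algebraMap,
    ← map_mul] at h2
  have h3 := iota_injective h2
  exact (eq_one_of_expH_periodic (NeZero.ne N) hper m c h3).2

/-- **Elliptic triviality.** -/
theorem eq_one_of_mult_zpow {F : MerH} (hF : F ≠ 0) {γ : SL(2, ℤ)} {z₀ : ℍ} (hfix : γ • z₀ = z₀)
    (h1 : EllMult14.mult γ z₀ ^ ordMer z₀ F = 1) {c : ℂ} (hc : slMer γ F = cst c * F) : c = 1 := by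
  rw [EllMult14.eq_mult_zpow_ordMer hF γ z₀ hfix hc, h1]

/-! ### The character of an eigenfunction -/

theorem exists_char {F : MerH} (hF : F ≠ 0)
    (h : ∀ γ : ↥(Gamma0 N), ∃ c : ℂ, c ≠ 0 ∧ slMer (γ : SL(2, ℤ)) F = cst c * F) :
    ∃ χ : ↥(Gamma0 N) →* ℂˣ,
      ∀ γ : ↥(Gamma0 N), slMer (γ : SL(2, ℤ)) F = cst ((χ γ : ℂˣ) : ℂ) * F := by
  choose c hc0 hc using h
  refine ⟨{ toFun := fun γ => Units.mk0 (c γ) (hc0 γ), map_one' := ?_, map_mul' := ?_ },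
    fun γ => hc γ⟩
  · apply Units.ext
    show c 1 = 1
    apply eq_of_cst_mul_eq hF
    rw [← hc 1, cst_one, one_mul]
    exact slMer_one F
  · intro γ δ
    apply Units.ext
    show c (γ * δ) = c γ * c δ
    apply eq_of_cst_mul_eq hF
    rw [← hc (γ * δ)]
    show slMer ((γ : SL(2, ℤ)) * (δ : SL(2, ℤ))) F = _
    rw [slMer_mul, hc γ, map_mul, slMer_cst, hc δ, cst_mul]
    ring

/-! ### `log ‖χ‖` as a parabolic homomorphism and the cusp form `u` -/

/-- `γ ↦ log ‖χ γ‖`, complex valued. -/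
def logAbs (χ : ↥(Gamma0 N) →* ℂˣ) : Additive ↥(Gamma0 N) →+ ℂ where
  toFun γ := ((Real.log ‖((χ (Additive.toMul γ) : ℂˣ) : ℂ)‖ : ℝ) : ℂ)
  map_zero' := by simp
  map_add' γ δ := by
    show ((Real.log ‖((χ (Additive.toMul γ * Additive.toMul δ) : ℂˣ) : ℂ)‖ : ℝ) : ℂ) = _
    rw [map_mul, Units.val_mul, norm_mul,
      Real.log_mul (norm_ne_zero_iff.2 (Units.ne_zero _)) (norm_ne_zero_iff.2 (Units.ne_zero _))]
    push_cast
    rfl

theorem logAbs_apply (χ : ↥(Gamma0 N) →* ℂˣ) (γ : ↥(Gamma0 N)) :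
    logAbs N χ (Additive.ofMul γ) = ((Real.log ‖((χ γ : ℂˣ) : ℂ)‖ : ℝ) : ℂ) := rfl

theorem trace_sq_eq_trSq (γ : SL(2, ℤ)) :
    (γ : Matrix (Fin 2) (Fin 2) ℤ).trace ^ 2 = trSq γ := by
  rw [Matrix.trace_fin_two]
  rfl

theorem mem_range_periodHomPair {φ : Additive ↥(Gamma0 N) →+ ℂ}
    (hφ : ∀ γ : ↥(Gamma0 N), trSq (γ : SL(2, ℤ)) = 4 → φ (Additive.ofMul γ) = 0) :
    ∃ fg : CuspForm (Gamma0 N) 2 × CuspForm (Gamma0 N) 2, periodHomPair N fg = φ := by
  have h1 : φ ∈ parabolicHoms ℂ (Gamma0 N) ℂ := by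
    rw [mem_parabolicHoms_iff]
    intro γ hγ
    rw [trace_sq_eq_trSq] at hγ
    exact hφ γ hγ
  rw [← (Fermat.Agent.S21.result N).2] at h1
  exact h1

/-- the period map of a cusp form kills elements of trace `± 2`. -/
theorem periodMap_parabolic (u : CuspForm (Gamma0 N) 2) (γ : ↥(Gamma0 N))
    (hγ : trSq (γ : SL(2, ℤ)) = 4) : periodMap N u (Additive.ofMul γ) = 0 := by
  have h1 : periodHomPair N (((1 / 2 : ℂ)) • u, ((1 / 2 : ℂ)) • u) ∈
      parabolicHoms ℂ (Gamma0 N) ℂ := by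
    rw [← (Fermat.Agent.S21.result N).2]
    exact LinearMap.mem_range_self _ _
  rw [mem_parabolicHoms_iff] at h1
  have h2 := h1 γ (by rw [trace_sq_eq_trSq]; exact hγ)
  rw [ConjForm.periodHomPair_apply_apply, sub_self] at h2
  have h3 : ((1 / 2 : ℂ)) • u + ((1 / 2 : ℂ)) • u = u := by
    rw [← add_smul]
    norm_num
  have h4 : periodMap N (ConjForm.conjForm (0 : CuspForm (Gamma0 N) 2)) = 0 := by
    have h5 : ConjForm.conjForm (0 : CuspForm (Gamma0 N) 2) = 0 := by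
      have := ConjForm.conjForm_sub (0 : CuspForm (Gamma0 N) 2) 0
      rw [sub_self] at this
      rw [this, sub_self]
    rw [h5]
    exact (PeriodPrim.periodLin N).map_zero
  rw [h3, h4] at h2
  simpa using h2

/-- **Eichler-Shimura, real part**: a real valued homomorphism killing the elements of trace `± 2`
is the real part of the period map of a cusp form. -/
theorem exists_cuspForm_re (χ : ↥(Gamma0 N) →* ℂˣ)
    (hpar : ∀ γ : ↥(Gamma0 N), trSq (γ : SL(2, ℤ)) = 4 → χ γ = 1) :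
    ∃ u : CuspForm (Gamma0 N) 2, ∀ γ : ↥(Gamma0 N),
      (periodMap N u (Additive.ofMul γ)).re = Real.log ‖((χ γ : ℂˣ) : ℂ)‖ := by
  obtain ⟨⟨f, g⟩, hfg⟩ := mem_range_periodHomPair N (φ := logAbs N χ) (fun γ hγ => by
    rw [logAbs_apply, hpar γ hγ]
    simp)
  refine ⟨f + g + ConjForm.conjForm (g - f), fun γ => ?_⟩
  have h1 := congrArg (fun φ : Additive ↥(Gamma0 N) →+ ℂ => (φ (Additive.ofMul γ)).re) hfg
  rw [ConjForm.periodHomPair_apply_apply, logAbs_apply, Complex.add_re, Complex.conj_re,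
    Complex.ofReal_re] at h1
  rw [PeriodPrim.periodMap_add, AddMonoidHom.add_apply, Complex.add_re]
  exact h1

/-! ### The primitive of a cusp form as an element of `HolH` -/

/-- `∫_{i∞}^z u` as an element of `HolH`. -/
def primH (u : CuspForm (Gamma0 N) 2) : HolH :=
  ⟨PeriodPrim.Fp u, UpperHalfPlane.mdifferentiable_iff.2 fun w hw =>
    ((PeriodPrim.hasEquivariantPrimitive u).1 ⟨w, hw⟩).differentiableAt.differentiableWithinAt⟩

theorem primH_apply (u : CuspForm (Gamma0 N) 2) (z : ℍ) :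
    ((primH N u : HolH) : ℍ → ℂ) z = PeriodPrim.Fp u z := rfl

theorem compSLHom_primH (u : CuspForm (Gamma0 N) 2) (γ : ↥(Gamma0 N)) :
    compSLHom (γ : SL(2, ℤ)) (primH N u) =
      primH N u + algebraMap ℂ HolH (periodMap N u (Additive.ofMul γ)) := by
  apply Subtype.ext
  funext z
  show PeriodPrim.Fp u ((γ : SL(2, ℤ)) • z) =
    PeriodPrim.Fp u z + periodMap N u (Additive.ofMul γ)
  rw [PeriodPrim.periodMap_apply u γ z]
  ring

/-- `primH u ∘ σ` is `N`-periodic. -/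
theorem compSLHom_T_compSLHom_primH (u : CuspForm (Gamma0 N) 2) (σ : SL(2, ℤ)) :
    compSLHom (ModularGroup.T ^ (N : ℤ)) (compSLHom σ (primH N u)) = compSLHom σ (primH N u) := by
  set δ : ↥(Gamma0 N) := ⟨σ * ModularGroup.T ^ (N : ℤ) * σ⁻¹, EisPack20.conj_T_pow_mem_Gamma0 N σ⟩
    with hδ
  have h1 : σ * ModularGroup.T ^ (N : ℤ) = (δ : SL(2, ℤ)) * σ := by
    rw [hδ]
    show σ * ModularGroup.T ^ (N : ℤ) = σ * ModularGroup.T ^ (N : ℤ) * σ⁻¹ * σ
    rw [inv_mul_cancel_right]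
  have h2 : trSq (δ : SL(2, ℤ)) = 4 := by
    have := EisPack20.trace_conj_T_pow (N : ℤ) σ
    rw [← trace_sq_eq_trSq]
    show Matrix.trace ((σ * ModularGroup.T ^ (N : ℤ) * σ⁻¹ : SL(2, ℤ)) :
      Matrix (Fin 2) (Fin 2) ℤ) ^ 2 = 4
    rw [this]
    norm_num
  rw [← compSLHom_mul, h1, compSLHom_mul, compSLHom_primH, periodMap_parabolic N u δ h2, map_zero,
    add_zero]

theorem isBoundedAtImInfty_shift_primH (u : CuspForm (Gamma0 N) 2) (σ : SL(2, ℤ)) (Y : ℝ≥0) :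
    IsBoundedAtImInfty ((shiftH Y (compSLHom σ (primH N u)) : HolH) : ℍ → ℂ) := by
  obtain ⟨L, hL⟩ := PeriodPrim.Fp_cusp_limit u σ
  have h1 : IsBoundedAtImInfty (fun w : ℍ => PeriodPrim.Fp u (σ • w)) := hL.isBigO_one ℝ
  rw [isBoundedAtImInfty_iff] at h1 ⊢
  obtain ⟨M, A, hMA⟩ := h1
  refine ⟨M, A, fun z hz => ?_⟩
  show ‖PeriodPrim.Fp u (σ • shiftPt Y z)‖ ≤ M
  apply hMA
  rw [im_shiftPt]
  have : (0 : ℝ) ≤ Y := Y.2
  linarith

theorem isBoundedAtImInfty_sub {a b : HolH} (ha : IsBoundedAtImInfty (a : ℍ → ℂ))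
    (hb : IsBoundedAtImInfty (b : ℍ → ℂ)) : IsBoundedAtImInfty ((a - b : HolH) : ℍ → ℂ) := by
  rw [isBoundedAtImInfty_iff] at ha hb ⊢
  obtain ⟨M, A, hMA⟩ := ha
  obtain ⟨M', A', hMA'⟩ := hb
  refine ⟨M + M', max A A', fun z hz => ?_⟩
  show ‖(a : ℍ → ℂ) z - (b : ℍ → ℂ) z‖ ≤ M + M'
  exact (norm_sub_le _ _).trans (add_le_add (hMA z (le_trans (le_max_left _ _) hz))
    (hMA' z (le_trans (le_max_right _ _) hz)))

/-! ### Twisting by `exp (-∫ u)` -/

/-- `F * exp (-∫ u)`. -/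
def twist (F : MerH) (u : CuspForm (Gamma0 N) 2) : MerH := F * ι (expH (-primH N u))

theorem twist_ne_zero {F : MerH} (hF : F ≠ 0) (u : CuspForm (Gamma0 N) 2) : twist N F u ≠ 0 :=
  mul_ne_zero hF (iota_ne_zero (expH_ne_zero _))

theorem ordMer_expH (ℓ : HolH) (z : ℍ) : ordMer z (ι (expH ℓ)) = 0 := by
  rw [ordMer_algebraMap z (expH_ne_zero ℓ)]
  have : ordH ((expH ℓ : HolH) : ℍ → ℂ) z = 0 :=
    (ordH_eq_zero_iff (expH ℓ).2 z).2 (expH_apply_ne_zero ℓ z)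
  rw [this]
  rfl

theorem ordMer_twist {F : MerH} (hF : F ≠ 0) (u : CuspForm (Gamma0 N) 2) (z : ℍ) :
    ordMer z (twist N F u) = ordMer z F := by
  unfold twist
  rw [ordMer_mul z hF (iota_ne_zero (expH_ne_zero _)), ordMer_expH, add_zero]

theorem slMer_twist {F : MerH} (u : CuspForm (Gamma0 N) 2) (γ : ↥(Gamma0 N)) {c : ℂ}
    (hc : slMer (γ : SL(2, ℤ)) F = cst c * F) :
    slMer (γ : SL(2, ℤ)) (twist N F u) =
      cst (c * Complex.exp (-periodMap N u (Additive.ofMul γ))) * twist N F u := by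
  unfold twist
  rw [map_mul, hc, slMer_algebraMap, compSLHom_expH, map_neg, compSLHom_primH, neg_add, expH_add,
    ← map_neg (algebraMap ℂ HolH), expH_const, map_mul, cst_mul]
  unfold cst
  ring

theorem cuspLog_twist {F : MerH} (hlog : CuspLog N F) (u : CuspForm (Gamma0 N) 2) :
    CuspLog N (twist N F u) := by
  intro σ
  obtain ⟨Y, ℓ, hper, hbd, hℓ⟩ := hlog σ
  refine ⟨Y, ℓ - shiftH Y (compSLHom σ (primH N u)), ?_, ?_, ?_⟩
  · rw [map_sub, hper, compSLHom_T_shiftH, compSLHom_T_compSLHom_primH]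
  · exact isBoundedAtImInfty_sub hbd (isBoundedAtImInfty_shift_primH N u σ Y)
  · unfold twist
    rw [map_mul, map_mul, hℓ, slMer_algebraMap, shiftM_algebraMap, compSLHom_expH, shiftH_expH,
      ← map_mul, ← expH_add, map_neg, map_neg, sub_eq_add_neg]

/-! ### The main statement -/

/-- **(AUT).** -/
theorem exists_automorphic (g : MerH) (m : ℍ → ℤ) (M : ℕ) (hM : ∀ z, -(M : ℤ) ≤ m z)
    (hpole : ∀ z₀ : ℍ, PoleCond g z₀ (m z₀ : ℂ))
    (hwt : ∀ γ ∈ Gamma0 N, ι (jacInv γ) * slMer γ g = g)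
    (hcusp : CuspReg N g)
    (hell : ∀ γ ∈ Gamma0 N, ∀ z₀ : ℍ, γ • z₀ = z₀ → EllMult14.mult γ z₀ ^ m z₀ = 1) :
    ∃ (F : MerH) (χ : ↥(Gamma0 N) →* ℂˣ), F ≠ 0 ∧
      (∀ γ, ‖((χ γ : ℂˣ) : ℂ)‖ = 1) ∧
      (∀ γ : ↥(Gamma0 N), trSq (γ : SL(2, ℤ)) ≤ 4 → χ γ = 1) ∧
      (∀ γ : ↥(Gamma0 N), slMer (γ : SL(2, ℤ)) F = cst ((χ γ : ℂˣ) : ℂ) * F) ∧
      (∀ z, ordMer z F = m z) ∧ CuspLog N F := by
  obtain ⟨F₀, hF₀, hFg, hord⟩ := exists_logPrim g m M hM hpole
  have hlog₀ : CuspLog N F₀ := cuspLog_of_cuspReg N hF₀ hFg hcusp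
  obtain ⟨χ₀, hχ₀⟩ := exists_char N hF₀ (fun γ => exists_const_slMer hF₀ hFg γ (hwt γ γ.2))
  have hpar₀ : ∀ γ : ↥(Gamma0 N), trSq (γ : SL(2, ℤ)) = 4 → χ₀ γ = 1 := fun γ hγ =>
    Units.ext (eq_one_of_cuspLog N hlog₀ hγ (hχ₀ γ))
  obtain ⟨u, hu⟩ := exists_cuspForm_re N χ₀ hpar₀
  set F : MerH := twist N F₀ u with hFdef
  have hF : F ≠ 0 := twist_ne_zero N hF₀ u
  have hlog : CuspLog N F := cuspLog_twist N hlog₀ u
  have hFord : ∀ z, ordMer z F = m z := fun z => by rw [hFdef, ordMer_twist N hF₀, hord]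
  have heig : ∀ γ : ↥(Gamma0 N), slMer (γ : SL(2, ℤ)) F =
      cst (((χ₀ γ : ℂˣ) : ℂ) * Complex.exp (-periodMap N u (Additive.ofMul γ))) * F :=
    fun γ => slMer_twist N u γ (hχ₀ γ)
  obtain ⟨χ, hχ⟩ := exists_char N hF (fun γ => ⟨_, mul_ne_zero (Units.ne_zero _)
    (Complex.exp_ne_zero _), heig γ⟩)
  have hχval : ∀ γ : ↥(Gamma0 N), ((χ γ : ℂˣ) : ℂ) =
      ((χ₀ γ : ℂˣ) : ℂ) * Complex.exp (-periodMap N u (Additive.ofMul γ)) := fun γ =>
    eq_of_cst_mul_eq hF ((hχ γ).symm.trans (heig γ))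
  refine ⟨F, χ, hF, fun γ => ?_, fun γ hγ => ?_, hχ, hFord, hlog⟩
  · rw [hχval, norm_mul, Complex.norm_exp, Complex.neg_re, hu γ, Real.exp_neg,
      Real.exp_log (norm_pos_iff.2 (Units.ne_zero _))]
    exact mul_inv_cancel₀ (norm_ne_zero_iff.2 (Units.ne_zero _))
  · apply Units.ext
    rcases lt_or_eq_of_le hγ with hlt | heq
    · obtain ⟨z₀, hfix⟩ := EllMult14.exists_fixed_of_trace_sq_lt (γ : SL(2, ℤ)) hlt
      exact eq_one_of_mult_zpow hF hfix (by rw [hFord]; exact hell γ γ.2 z₀ hfix) (hχ γ)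
    · exact eq_one_of_cuspLog N hlog heq (hχ γ)

end Fermat.Agent.M15.DivAut1
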