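/-
Programme M15 (S15), chapter (DIV), leaf (b), file 2 (helper1): **primitives at a cusp**.

If `A, B : HolH` have `q_N`-expansions and the `q_N`-order of `A / B` is at least `1`, then after a
vertical shift `A / B` is the derivative of an `N`-periodic holomorphic function bounded at `i∞`
(`exists_cuspPrim`).  Proof: `A / B = q^{d+1} S_A(q) / S_B(q)` with `S_B` zero free on a small disc;
a primitive `L` of `q^d S_A / S_B` on the disc exists (`DifferentiableOn.isExactOn_ball`) and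
`ℓ(z) = N / (2πi) · L(q_N(z + iY))` works.
-/
import Fermat.Agent.M15.DivShift1

set_option autoImplicit false
set_option linter.unusedSectionVars false

open UpperHalfPlane Filter Topology Set Metric
open scoped Manifold MatrixGroups NNReal Real

noncomputable section

namespace Fermat.Agent.M15.DivCuspPrim1

open Fermat.Agent.X0 Fermat.Agent.X0.SurjPoint Fermat.Agent.ES.KUM Fermat.Agent.M15.DivLogMer1
  Fermat.Agent.M15.DivLogPrim1 Fermat.Agent.M15.DivShift1 Fermat.Agent.ES.KUM.ParMult3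

local notation "ι" => algebraMap HolH MerH

variable (N : ℕ) [NeZero N]

/-- `w ↦ q_N(w + iY)`. -/
def Qf (Y : ℝ≥0) (w : ℂ) : ℂ :=
  Function.Periodic.qParam (N : ℝ) (w + ((Y : ℝ) : ℂ) * Complex.I)

theorem qh_shiftPt (Y : ℝ≥0) (z : ℍ) : qh N (shiftPt Y z) = Qf N Y (z : ℂ) := rfl

theorem Qf_ne_zero (Y : ℝ≥0) (w : ℂ) : Qf N Y w ≠ 0 := Function.Periodic.qParam_ne_zero _

theorem norm_Qf (Y : ℝ≥0) (w : ℂ) :
    ‖Qf N Y w‖ = Real.exp (-2 * π * (w.im + Y) / N) := by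
  rw [Qf, Function.Periodic.norm_qParam]
  congr 2
  simp

theorem natCast_ne_zero_C : ((N : ℝ) : ℂ) ≠ 0 := by
  have : (N : ℝ) ≠ 0 := by exact_mod_cast NeZero.ne N
  exact_mod_cast this

theorem hasDerivAt_Qf (Y : ℝ≥0) (w : ℂ) :
    HasDerivAt (Qf N Y) (Qf N Y w * (2 * π * Complex.I / ((N : ℝ) : ℂ))) w := by
  unfold Qf Function.Periodic.qParam
  have h1 : HasDerivAt (fun w : ℂ => 2 * π * Complex.I * (w + ((Y : ℝ) : ℂ) * Complex.I) /
      ((N : ℝ) : ℂ)) (2 * π * Complex.I / ((N : ℝ) : ℂ)) w := by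
    have h0 : HasDerivAt (fun w : ℂ => w + ((Y : ℝ) : ℂ) * Complex.I) 1 w :=
      (hasDerivAt_id w).add_const _
    have := (h0.const_mul (2 * π * Complex.I)).div_const ((N : ℝ) : ℂ)
    simpa using this
  exact h1.cexp

theorem Qf_add_N (Y : ℝ≥0) (w : ℂ) : Qf N Y (w + N) = Qf N Y w := by
  unfold Qf Function.Periodic.qParam
  have hN := natCast_ne_zero_C N
  have h1 : 2 * π * Complex.I * (w + (N : ℂ) + ((Y : ℝ) : ℂ) * Complex.I) / ((N : ℝ) : ℂ) =
      2 * π * Complex.I * (w + ((Y : ℝ) : ℂ) * Complex.I) / ((N : ℝ) : ℂ) + 2 * π * Complex.I := by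
    have : ((N : ℝ) : ℂ) = (N : ℂ) := by push_cast; rfl
    rw [this] at hN ⊢
    field_simp
    ring
  rw [h1]
  exact Complex.exp_periodic _

/-- **primitives at a cusp.** -/
theorem exists_cuspPrim {A B : HolH} {ma mb : ℕ} {Pa Pb : PowerSeries ℂ}
    (ha : IsQExp N (A : ℍ → ℂ) ma Pa) (hb : IsQExp N (B : ℍ → ℂ) mb Pb) (hPb : Pb ≠ 0)
    (hord : Pb.order.toNat + ma + 1 ≤ Pa.order.toNat + mb) :
    ∃ (Y : ℝ≥0) (ℓ : HolH), compSLHom (ModularGroup.T ^ (N : ℤ)) ℓ = ℓ ∧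
      IsBoundedAtImInfty (ℓ : ℍ → ℂ) ∧ derivH ℓ * shiftH Y B = shiftH Y A := by
  set oa := Pa.order.toNat with hoa
  set ob := Pb.order.toNat with hob
  set Sa := qSum (unitPart Pa) with hSa
  set Sb := qSum (unitPart Pb) with hSb
  obtain ⟨d, hd⟩ : ∃ d : ℕ, d + 1 + ob + ma = oa + mb := ⟨oa + mb - (ob + ma + 1), by omega⟩
  have hSad : DifferentiableOn ℂ Sa (ball 0 1) := differentiableOn_qSum_unitPart ha
  have hSbd : DifferentiableOn ℂ Sb (ball 0 1) := differentiableOn_qSum_unitPart hb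
  have hSb0 : Sb 0 ≠ 0 := qSum_unitPart_zero hPb
  have hSbc : ContinuousAt Sb 0 := hSbd.continuousOn.continuousAt (ball_mem_nhds 0 one_pos)
  -- a small disc on which `Sb` does not vanish
  obtain ⟨ε, hε, hball⟩ : ∃ ε > 0, ∀ q ∈ ball (0 : ℂ) ε, Sb q ≠ 0 ∧ ‖q‖ < 1 := by
    have h2 := hSbc.eventually_ne hSb0
    have h3 : ∀ᶠ q in 𝓝 (0 : ℂ), ‖q‖ < 1 := by
      filter_upwards [ball_mem_nhds (0 : ℂ) one_pos] with q hq
      exact mem_ball_zero_iff.mp hq
    exact Metric.eventually_nhds_iff_ball.mp (h2.and h3)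
  have hsub : ball (0 : ℂ) ε ⊆ ball 0 1 := fun q hq => mem_ball_zero_iff.mpr (hball q hq).2
  -- the function to integrate and its primitive
  set Ψ : ℂ → ℂ := fun q => q ^ d * Sa q / Sb q with hΨ
  have hΨd : DifferentiableOn ℂ Ψ (ball 0 ε) := by
    refine DifferentiableOn.div ?_ (hSbd.mono hsub) fun q hq => (hball q hq).1
    exact (differentiable_id.pow d).differentiableOn.mul (hSad.mono hsub)
  obtain ⟨L, hL⟩ := hΨd.isExactOn_ball
  -- the shift
  have hNpos : (0 : ℝ) < N := by exact_mod_cast Nat.pos_of_ne_zero (NeZero.ne N)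
  set Yr : ℝ := max 0 (-(N : ℝ) * Real.log ε / (2 * π)) + 1 with hYr
  have hYr0 : 0 ≤ Yr := by
    have := le_max_left (0 : ℝ) (-(N : ℝ) * Real.log ε / (2 * π))
    linarith
  set Y : ℝ≥0 := ⟨Yr, hYr0⟩ with hY
  have hYcoe : ((Y : ℝ≥0) : ℝ) = Yr := rfl
  set r₀ : ℝ := Real.exp (-2 * π * Yr / N) with hr₀
  have hr₀ε : r₀ < ε := by
    rw [hr₀, ← Real.exp_log hε, Real.exp_lt_exp]
    have h1 : -(N : ℝ) * Real.log ε / (2 * π) < Yr := by
      have := le_max_right (0 : ℝ) (-(N : ℝ) * Real.log ε / (2 * π))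
      linarith
    have h2π : (0 : ℝ) < 2 * π := by positivity
    rw [div_lt_iff₀ h2π] at h1
    rw [div_lt_iff₀ hNpos]
    nlinarith
  have hQle : ∀ w : ℂ, 0 < w.im → ‖Qf N Y w‖ ≤ r₀ := by
    intro w hw
    rw [norm_Qf, hr₀, hYcoe, Real.exp_le_exp]
    apply div_le_div_of_nonneg_right _ hNpos.le
    have : (0 : ℝ) < π := Real.pi_pos
    nlinarith
  have hQmem : ∀ w : ℂ, 0 < w.im → Qf N Y w ∈ ball (0 : ℂ) ε := fun w hw =>
    mem_ball_zero_iff.mpr (lt_of_le_of_lt (hQle w hw) hr₀ε)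
  -- the logarithm
  set c : ℂ := ((N : ℝ) : ℂ) / (2 * π * Complex.I) with hc
  have h2πI : (2 * π * Complex.I : ℂ) ≠ 0 := by
    have : (π : ℂ) ≠ 0 := by exact_mod_cast Real.pi_ne_zero
    exact mul_ne_zero (mul_ne_zero two_ne_zero this) Complex.I_ne_zero
  have hderiv : ∀ w : ℂ, 0 < w.im →
      HasDerivAt (fun w => c * L (Qf N Y w)) (Ψ (Qf N Y w) * Qf N Y w) w := by
    intro w hw
    have h1 := (hL (Qf N Y w) (hQmem w hw)).comp w (hasDerivAt_Qf N Y w)
    have h2 := h1.const_mul c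
    refine h2.congr_deriv ?_
    rw [hc]
    have hN := natCast_ne_zero_C N
    field_simp
  set ℓ : HolH := ofC (fun w => c * L (Qf N Y w)) (fun w hw =>
    (hderiv w hw).differentiableAt.differentiableWithinAt) with hℓ
  have hℓapp : ∀ z : ℍ, ((ℓ : HolH) : ℍ → ℂ) z = c * L (Qf N Y (z : ℂ)) := fun z => rfl
  refine ⟨Y, ℓ, ?_, ?_, ?_⟩
  · -- periodicity
    apply Subtype.ext
    funext z
    show ((ℓ : HolH) : ℍ → ℂ) (ModularGroup.T ^ (N : ℤ) • z) = ((ℓ : HolH) : ℍ → ℂ) z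
    rw [hℓapp, hℓapp, ParMult3.coe_T_zpow_smul]
    have : ((z : ℂ) + ((N : ℤ) : ℂ)) = (z : ℂ) + (N : ℂ) := by push_cast; rfl
    rw [this, Qf_add_N]
  · -- boundedness
    have hcomp : IsCompact (closedBall (0 : ℂ) r₀) := isCompact_closedBall 0 r₀
    have hLc : ContinuousOn L (closedBall (0 : ℂ) r₀) := fun q hq =>
      (hL q (mem_ball_zero_iff.mpr (lt_of_le_of_lt (mem_closedBall_zero_iff.mp hq)
        hr₀ε))).continuousAt.continuousWithinAt
    obtain ⟨M, hM⟩ := hcomp.exists_bound_of_continuousOn hLc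
    rw [isBoundedAtImInfty_iff]
    refine ⟨‖c‖ * M, 0, fun z _ => ?_⟩
    rw [hℓapp, norm_mul]
    exact mul_le_mul_of_nonneg_left
      (hM _ (mem_closedBall_zero_iff.mpr (hQle (z : ℂ) z.im_pos))) (norm_nonneg _)
  · -- the differential equation
    apply Subtype.ext
    funext z
    show ((derivH ℓ : HolH) : ℍ → ℂ) z * (B : ℍ → ℂ) (shiftPt Y z) = (A : ℍ → ℂ) (shiftPt Y z)
    have hder : ((derivH ℓ : HolH) : ℍ → ℂ) z = Ψ (Qf N Y (z : ℂ)) * Qf N Y (z : ℂ) := by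
      rw [coe_derivH]
      have hev : toC ℓ =ᶠ[𝓝 (z : ℂ)] fun w => c * L (Qf N Y w) := by
        filter_upwards [isOpen_upperHalfPlaneSet.mem_nhds z.im_pos] with w hw
        exact toC_ofC _ _ hw
      rw [hev.deriv_eq]
      exact (hderiv (z : ℂ) z.im_pos).deriv
    rw [hder]
    set q := Qf N Y (z : ℂ) with hq
    have hq0 : q ≠ 0 := Qf_ne_zero N Y _
    have hqmem := hQmem (z : ℂ) z.im_pos
    have hSbq : Sb q ≠ 0 := (hball q hqmem).1
    have E1 : (A : ℍ → ℂ) (shiftPt Y z) * q ^ ma = q ^ oa * Sa q := by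
      have := qSum_qh ha (shiftPt Y z)
      rwa [qh_shiftPt] at this
    have E2 : (B : ℍ → ℂ) (shiftPt Y z) * q ^ mb = q ^ ob * Sb q := by
      have := qSum_qh hb (shiftPt Y z)
      rwa [qh_shiftPt] at this
    have hpow : q ^ d * q * q ^ ob * q ^ ma = q ^ oa * q ^ mb := by
      rw [← pow_succ, ← pow_add, ← pow_add, ← pow_add, hd]
    set r := Sa q / Sb q with hr
    have hrS : r * Sb q = Sa q := div_mul_cancel₀ _ hSbq
    have hΨq : Ψ q = q ^ d * r := by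
      rw [hΨ, hr]
      simp only
      rw [mul_div_assoc]
    rw [hΨq]
    apply mul_right_cancel₀ (mul_ne_zero (pow_ne_zero ma hq0) (pow_ne_zero mb hq0))
    linear_combination (q ^ d * r * q * q ^ ma) * E2 + (-(q ^ mb)) * E1 +
      (q ^ d * q * q ^ ma * q ^ ob) * hrS + Sa q * hpow

end Fermat.Agent.M15.DivCuspPrim1
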