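/-
Programme M15 (S15), chapter (DIV), leaf (b), file 1 (helper1): **local analysis of `dM` at a point
of `ℍ`**.

* `wH z₀ = zH - z₀`, `exists_factor` (`f = (z - z₀)^k a`, `a z₀ ≠ 0`), `exists_normal_form`
  (`x = (z - z₀)^{ordMer z₀ x} · a / b`, `a z₀, b z₀ ≠ 0`);
* `div_mem_valAt`, `exists_rep_of_mem_valAt`, `dM_mem_valAt` (`dM` preserves the local ring);
* `dlog_sub_mem_valAt` : `dM x / x - ordMer z₀ x / (z - z₀)` is regular at `z₀`;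
* `poleCond_smul_dlog` : `PoleCond (r · dM x / x + y · dM x) z₀ (r · ordMer z₀ x)`.
-/
import Fermat.Agent.M15.DivLogPrim1
import Fermat.Agent.ES.KUM.RootsH14

set_option autoImplicit false
set_option linter.unusedSectionVars false

open UpperHalfPlane Filter Topology Set
open scoped Manifold MatrixGroups

noncomputable section

namespace Fermat.Agent.M15.DivDlog1

open Fermat.Agent.X0 Fermat.Agent.X0.SurjPoint Fermat.Agent.ES.KUM Fermat.Agent.M15.DivLogMer1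
  Fermat.Agent.M15.DivLogPrim1

local notation "ι" => algebraMap HolH MerH

/-- `z - z₀`. -/
def wH (z₀ : ℍ) : HolH := zH - algebraMap ℂ HolH (z₀ : ℂ)

theorem wH_apply (z₀ z : ℍ) : ((wH z₀ : HolH) : ℍ → ℂ) z = (z : ℂ) - (z₀ : ℂ) := rfl

theorem wH_ne_zero (z₀ : ℍ) : wH z₀ ≠ 0 := zH_sub_ne_zero _

theorem iota_wH (z₀ : ℍ) : ι (wH z₀) = ι zH - cst (z₀ : ℂ) := by
  unfold wH cst
  rw [map_sub]

theorem derivH_zH : derivH zH = 1 := by
  apply Subtype.ext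
  funext z
  show deriv (toC zH) (z : ℂ) = 1
  have hev : toC zH =ᶠ[𝓝 (z : ℂ)] fun w : ℂ => w := by
    filter_upwards [isOpen_upperHalfPlaneSet.mem_nhds z.im_pos] with w hw
    rw [toC_apply_of_im_pos _ hw]
    rfl
  rw [hev.deriv_eq, deriv_id'']

theorem derivH_wH (z₀ : ℍ) : derivH (wH z₀) = 1 := by
  unfold wH
  rw [derivH_sub, derivH_const, derivH_zH, sub_zero]

theorem dM_iota_wH (z₀ : ℍ) : dM (ι (wH z₀)) = 1 := by
  rw [dM_algebraMap, derivH_wH, map_one]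

theorem ordH_wH (z₀ : ℍ) : ordH ((wH z₀ : HolH) : ℍ → ℂ) z₀ = 1 := ordH_zH_sub z₀

theorem coe_pow_mul (w a : HolH) (k : ℕ) (z : ℍ) :
    ((w ^ k * a : HolH) : ℍ → ℂ) z = ((w : ℍ → ℂ) z) ^ k * (a : ℍ → ℂ) z := by
  have h2 : ∀ n : ℕ, ((w ^ n : HolH) : ℍ → ℂ) = (w : ℍ → ℂ) ^ n := by
    intro n
    induction n with
    | zero => rfl
    | succ n ih =>
      rw [pow_succ, pow_succ, ← ih]
      rfl
  have h1 : ((w ^ k * a : HolH) : ℍ → ℂ) = ((w ^ k : HolH) : ℍ → ℂ) * (a : ℍ → ℂ) := rfl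
  rw [h1, h2]
  rfl

/-- dividing out the zero at `z₀`. -/
theorem exists_factor {f : HolH} (hf : f ≠ 0) (z₀ : ℍ) :
    ∃ (k : ℕ) (a : HolH), ordH (f : ℍ → ℂ) z₀ = k ∧ (a : ℍ → ℂ) z₀ ≠ 0 ∧ f = wH z₀ ^ k * a := by
  obtain ⟨k, hk⟩ := ENat.ne_top_iff_exists.1 (ordH_ne_top f.2 (fun h => hf (Subtype.ext h)) z₀)
  obtain ⟨G₁, hG₁d, hG₁0, hG₁⟩ := RootsH14.exists_eq_pow_mul isOpen_upperHalfPlaneSet
    (differentiableOn_toC f) z₀.im_pos (k := k) (by rw [← ordH_eq_toC]; exact hk.symm)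
  refine ⟨k, ofC G₁ hG₁d, hk.symm, hG₁0, ?_⟩
  apply Subtype.ext
  funext z
  rw [coe_pow_mul, wH_apply, ofC_apply, ← hG₁ (z : ℂ), toC_apply]

theorem ordH_eq_zero_of_ne {a : HolH} {z₀ : ℍ} (h : (a : ℍ → ℂ) z₀ ≠ 0) :
    ordH (a : ℍ → ℂ) z₀ = 0 := (ordH_eq_zero_iff a.2 z₀).2 h

theorem ne_zero_of_apply_ne {a : HolH} {z₀ : ℍ} (h : (a : ℍ → ℂ) z₀ ≠ 0) : a ≠ 0 := by
  rintro rfl
  exact h rfl

theorem ordMer_div_of_ne {a b : HolH} {z₀ : ℍ} (ha : (a : ℍ → ℂ) z₀ ≠ 0)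
    (hb : (b : ℍ → ℂ) z₀ ≠ 0) : ordMer z₀ (ι a / ι b) = 0 := by
  rw [ordMer_div_algebraMap z₀ (ne_zero_of_apply_ne ha) (ne_zero_of_apply_ne hb),
    ordH_eq_zero_of_ne ha, ordH_eq_zero_of_ne hb]
  rfl

theorem ordMer_iota_wH (z₀ : ℍ) : ordMer z₀ (ι (wH z₀)) = 1 := by
  rw [ordMer_algebraMap z₀ (wH_ne_zero z₀), ordH_wH]
  rfl

theorem ordMer_zpow (z₀ : ℍ) {x : MerH} (hx : x ≠ 0) (k : ℤ) :
    ordMer z₀ (x ^ k) = k * ordMer z₀ x := by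
  rcases Int.eq_nat_or_neg k with ⟨n, rfl | rfl⟩
  · rw [zpow_natCast, ordMer_pow z₀ hx]
  · rw [zpow_neg, zpow_natCast, ordMer_inv, ordMer_pow z₀ hx]
    ring

/-- **normal form at `z₀`**. -/
theorem exists_normal_form {x : MerH} (hx : x ≠ 0) (z₀ : ℍ) :
    ∃ a b : HolH, (a : ℍ → ℂ) z₀ ≠ 0 ∧ (b : ℍ → ℂ) z₀ ≠ 0 ∧
      x = ι (wH z₀) ^ (ordMer z₀ x) * (ι a / ι b) := by
  obtain ⟨p, q, hp, hq, rfl⟩ := exists_div_ne_zero_frac (S := HolH) x hx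
  obtain ⟨m, a, hm, ha, rfl⟩ := exists_factor hp z₀
  obtain ⟨n, b, hn, hb, rfl⟩ := exists_factor hq z₀
  refine ⟨a, b, ha, hb, ?_⟩
  have hW : ι (wH z₀) ≠ 0 := iota_ne_zero (wH_ne_zero z₀)
  rw [ordMer_div_algebraMap z₀ hp hq, hm, hn]
  simp only [ENat.toNat_natCast]
  rw [zpow_sub₀ hW, zpow_natCast, zpow_natCast, map_mul, map_mul, map_pow, map_pow]
  have hb' : ι b ≠ 0 := iota_ne_zero (ne_zero_of_apply_ne hb)
  field_simp

theorem div_mem_valAt (a : HolH) {b : HolH} {z₀ : ℍ} (hb : (b : ℍ → ℂ) z₀ ≠ 0) :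
    ι a / ι b ∈ valAt z₀ := by
  rcases eq_or_ne a 0 with rfl | ha
  · rw [map_zero, zero_div]
    exact zero_mem _
  have hb0 := ne_zero_of_apply_ne hb
  rw [mem_valAt_iff z₀ (div_ne_zero (iota_ne_zero ha) (iota_ne_zero hb0)),
    ordMer_div_algebraMap z₀ ha hb0, ordH_eq_zero_of_ne hb]
  simp

theorem exists_rep_of_mem_valAt {x : MerH} {z₀ : ℍ} (hx : x ∈ valAt z₀) :
    ∃ a b : HolH, (b : ℍ → ℂ) z₀ ≠ 0 ∧ x = ι a / ι b := by
  rcases eq_or_ne x 0 with rfl | hx0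
  · exact ⟨0, 1, one_ne_zero, by rw [map_zero, zero_div]⟩
  obtain ⟨a, b, -, hb, hab⟩ := exists_normal_form hx0 z₀
  have hk := (mem_valAt_iff z₀ hx0).1 hx
  obtain ⟨n, hn⟩ := Int.eq_ofNat_of_zero_le hk
  refine ⟨wH z₀ ^ n * a, b, hb, ?_⟩
  rw [hab, hn, zpow_natCast, map_mul, map_pow, mul_div_assoc]

/-- **`dM` preserves the local ring at `z₀`.** -/
theorem dM_mem_valAt {x : MerH} {z₀ : ℍ} (hx : x ∈ valAt z₀) : dM x ∈ valAt z₀ := by
  obtain ⟨a, b, hb, rfl⟩ := exists_rep_of_mem_valAt hx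
  have hb0 := ne_zero_of_apply_ne hb
  rw [dM_div a hb0, dFrac]
  have h1 : (ι (derivH a) * ι b - ι a * ι (derivH b)) / ι b ^ 2 =
      ι (derivH a * b - a * derivH b) / ι (b ^ 2) := by
    rw [map_sub, map_mul, map_mul, map_pow]
  rw [h1]
  apply div_mem_valAt
  show ((b : ℍ → ℂ) z₀) ^ 2 ≠ 0
  exact pow_ne_zero 2 hb

theorem dM_zpow_div {W : MerH} (hW : W ≠ 0) (k : ℤ) :
    dM (W ^ k) / W ^ k = (k : MerH) * (dM W / W) := by
  rcases Int.eq_nat_or_neg k with ⟨n, rfl | rfl⟩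
  · rw [zpow_natCast, dM_pow_div hW]
    push_cast
    rfl
  · rw [zpow_neg, zpow_natCast, dM_inv_div (pow_ne_zero n hW), dM_pow_div hW]
    push_cast
    ring

theorem cst_intCast (k : ℤ) : cst (k : ℂ) = (k : MerH) := by
  unfold cst
  rw [map_intCast, map_intCast]

/-- **the logarithmic derivative has a simple pole with residue the order.** -/
theorem dlog_sub_mem_valAt {x : MerH} (hx : x ≠ 0) (z₀ : ℍ) :
    dM x / x - cst ((ordMer z₀ x : ℤ) : ℂ) / (ι zH - cst (z₀ : ℂ)) ∈ valAt z₀ := by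
  obtain ⟨a, b, ha, hb, hab⟩ := exists_normal_form hx z₀
  set k := ordMer z₀ x with hk
  have hW : ι (wH z₀) ≠ 0 := iota_ne_zero (wH_ne_zero z₀)
  have ha0 := ne_zero_of_apply_ne ha
  have hb0 := ne_zero_of_apply_ne hb
  have hy : ι a / ι b ≠ 0 := div_ne_zero (iota_ne_zero ha0) (iota_ne_zero hb0)
  have h1 : dM x / x = (k : MerH) * (1 / ι (wH z₀)) + dM (ι a / ι b) / (ι a / ι b) := by
    conv_lhs => rw [hab]
    rw [dM_mul_div (zpow_ne_zero _ hW) hy, dM_zpow_div hW, dM_iota_wH]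
  have h2 : dM (ι a / ι b) / (ι a / ι b) = ι (derivH a * b - a * derivH b) / ι (b * a) := by
    rw [dM_div a hb0, dFrac, map_sub, map_mul, map_mul, map_mul]
    have ha' := iota_ne_zero ha0
    have hb' := iota_ne_zero hb0
    field_simp
  rw [h1, h2, cst_intCast, ← iota_wH]
  have h3 : (k : MerH) * (1 / ι (wH z₀)) + ι (derivH a * b - a * derivH b) / ι (b * a) -
      (k : MerH) / ι (wH z₀) = ι (derivH a * b - a * derivH b) / ι (b * a) := by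
    ring
  rw [h3]
  apply div_mem_valAt
  show (b : ℍ → ℂ) z₀ * (a : ℍ → ℂ) z₀ ≠ 0
  exact mul_ne_zero hb ha

theorem cst_mem_valAt (r : ℂ) (z₀ : ℍ) : cst r ∈ valAt z₀ := by
  have h : cst r = ι (algebraMap ℂ HolH r) / ι 1 := by
    unfold cst
    rw [map_one, div_one]
  rw [h]
  exact div_mem_valAt _ (one_ne_zero)

/-- **the pole condition for `r · dlog x + y · dx`.** -/
theorem poleCond_smul_dlog {x y : MerH} {z₀ : ℍ} (hx : x ≠ 0) (hx' : x ∈ valAt z₀)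
    (hy : y ∈ valAt z₀) (r : ℤ) :
    PoleCond (cst (r : ℂ) * (dM x / x) + y * dM x) z₀ ((r * ordMer z₀ x : ℤ) : ℂ) := by
  unfold PoleCond
  have h1 : cst (r : ℂ) * (dM x / x) + y * dM x -
      cst ((r * ordMer z₀ x : ℤ) : ℂ) / (ι zH - cst (z₀ : ℂ)) =
      cst (r : ℂ) * (dM x / x - cst ((ordMer z₀ x : ℤ) : ℂ) / (ι zH - cst (z₀ : ℂ))) +
        y * dM x := by
    rw [cst_intCast, cst_intCast, cst_intCast]
    push_cast
    ring
  rw [h1]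
  exact add_mem (mul_mem (cst_mem_valAt _ z₀) (dlog_sub_mem_valAt hx z₀))
    (mul_mem hy (dM_mem_valAt hx'))

theorem poleCond_zero (z₀ : ℍ) : PoleCond 0 z₀ ((0 : ℤ) : ℂ) := by
  unfold PoleCond
  have : (0 : MerH) - cst ((0 : ℤ) : ℂ) / (ι zH - cst (z₀ : ℂ)) = 0 := by
    rw [cst_intCast]
    simp
  rw [this]
  exact zero_mem _

end Fermat.Agent.M15.DivDlog1
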