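/-
Programme M15 (S15), chapter (DIV), leaf (a) (lead): **differentials of the third kind.**

For a function field `F / K` with Riemann–Roch data (`RR/Final.RRData`), `K` of characteristic `0`,
and a divisor `D` of degree `0`, there is `h : F` such that the differential `h • ω₀` has
* residue `D v` at every place `v`,
* a simple pole at every `v` in the support of `D`,
* no pole outside the support of `D`.

Proof: with `E = ∑_{v ∈ supp D} v` (`s = #supp D ≥ 1`), Riemann–Roch gives
`l(W + E) = g + s - 1`; the residue map `L(W + E) → K^s` has kernel inside `L(W)` (dimension `g`)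
and image inside the hyperplane `∑ = 0` (residue theorem), which has dimension `s - 1`; hence the
image is the whole hyperplane, which contains `(D v)_v`.
-/
import Mathlib
import Fermat.Agent.RR.Final
import Fermat.Agent.RR.LHypGen
import Fermat.Agent.U44.RRSep0

set_option autoImplicit false
set_option linter.unusedSectionVars false
set_option linter.style.longLine false
set_option linter.style.haveILetI false

open AlgebraicCurve KaehlerDifferential

namespace Fermat.Agent.M15.ThirdKind0

open Fermat.Agent.RR.LSpace Fermat.Agent.RR.Duality Fermat.Agent.RR.Final Fermat.Agent.X0.FF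

noncomputable section

open scoped Classical

variable {K F : Type*} [Field K] [Field F] [Algebra K F]

/-- The reduced effective divisor with support `S`. -/
def indDiv (S : Finset (Place K F)) : Divisor K F := ∑ v ∈ S, Finsupp.single v 1

theorem indDiv_apply (S : Finset (Place K F)) (v : Place K F) :
    indDiv S v = if v ∈ S then 1 else 0 := by
  rw [indDiv, Finsupp.finsetSum_apply]
  simp only [Finsupp.single_apply]
  rw [Finset.sum_ite_eq' S v]

theorem degree_indDiv (H : LHyp K F) (S : Finset (Place K F)) :
    Divisor.degree (indDiv S) = S.card := by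
  rw [indDiv, map_sum]
  simp [degree_single H]

/-- `h ↦ h • ω₀` as a `K`-linear map. -/
def smulDiff (ω₀ : Ω[F⁄K]) : F →ₗ[K] Ω[F⁄K] :=
  (LinearMap.toSpanSingleton F (Ω[F⁄K]) ω₀).restrictScalars K

@[simp] theorem smulDiff_apply (ω₀ : Ω[F⁄K]) (h : F) : smulDiff (K := K) ω₀ h = h • ω₀ := rfl

variable (X : RRData K F) {ω₀ : Ω[F⁄K]} (hω₀ : ω₀ ≠ 0) {W : Divisor K F}
  (hW : ∀ v, W v = v.ordDifferential ω₀)

/-- The residue map on `L(W + E)`, with values in functions on `S`. -/
def resMap (ω₀ : Ω[F⁄K]) (W : Divisor K F) (S : Finset (Place K F)) :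
    riemannRochSpace (W + indDiv S) →ₗ[K] (S → K) :=
  LinearMap.pi fun v =>
    ((X.R.res v.1).comp (smulDiff (K := K) ω₀)).comp (riemannRochSpace (W + indDiv S)).subtype

theorem resMap_apply (S : Finset (Place K F)) (h : riemannRochSpace (W + indDiv S)) (v : S) :
    resMap X ω₀ W S h v = X.R.res v.1 ((h : F) • ω₀) := rfl

include X hω₀ hW in
/-- Order of `h • ω₀` for `h ∈ L(W + E)`. -/
theorem ordDifferential_ge {S : Finset (Place K F)} {h : F} (hh : h ∈ riemannRochSpace (W + indDiv S))
    (hh0 : h ≠ 0) (v : Place K F) :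
    (if v ∈ S then (-1 : ℤ) else 0) ≤ v.ordDifferential (h • ω₀) := by
  rw [X.HD.ordDifferential_smul v h hh0 ω₀ hω₀, ← hW v]
  have h1 := (mem_L_iff hh0).mp hh v
  rw [Finsupp.add_apply, indDiv_apply] at h1
  split_ifs at h1 ⊢ with hv <;> omega

include hω₀ hW in
/-- Residues of `h • ω₀`, `h ∈ L(W + E)`, vanish outside `S`. -/
theorem res_eq_zero_of_notMem {S : Finset (Place K F)} {h : F}
    (hh : h ∈ riemannRochSpace (W + indDiv S)) {v : Place K F} (hv : v ∉ S) :
    X.R.res v (h • ω₀) = 0 := by
  by_cases hh0 : h = 0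
  · rw [hh0, zero_smul, map_zero]
  · refine X.R.res_eq_zero v _ (smul_ne_zero hh0 hω₀) ?_
    have := ordDifferential_ge X hω₀ hW hh hh0 v
    rwa [if_neg hv] at this

include hω₀ hW in
/-- Residue theorem on `L(W + E)`: the residues at the places of `S` sum to zero. -/
theorem sum_resMap (S : Finset (Place K F)) (h : riemannRochSpace (W + indDiv S)) :
    ∑ v : S, resMap X ω₀ W S h v = 0 := by
  have h1 := X.R.sum_res ((h : F) • ω₀)
  rw [finsum_eq_sum_of_support_subset (s := S)] at h1
  · rw [← h1, ← Finset.sum_coe_sort S]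
    rfl
  · intro v hv
    by_contra hvS
    exact hv (res_eq_zero_of_notMem X hω₀ hW h.2 (by simpa using hvS))

include hω₀ hW in
/-- The kernel of the residue map consists of elements of `L(W)`. -/
theorem mem_L_of_resMap_eq_zero {S : Finset (Place K F)} (h : riemannRochSpace (W + indDiv S))
    (hres : resMap X ω₀ W S h = 0) : (h : F) ∈ riemannRochSpace W := by
  by_cases hh0 : (h : F) = 0
  · rw [hh0]; exact zero_mem _
  rw [mem_L_iff hh0]
  intro v
  have h1 := (mem_L_iff hh0).mp h.2 v
  rw [Finsupp.add_apply, indDiv_apply] at h1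
  by_cases hv : v ∈ S
  · rw [if_pos hv] at h1
    by_contra hlt
    have hord : v.ordDifferential ((h : F) • ω₀) = -1 := by
      rw [X.HD.ordDifferential_smul v _ hh0 ω₀ hω₀, ← hW v]; omega
    refine X.R.res_ne_zero v _ (smul_ne_zero hh0 hω₀) hord ?_
    have := congrFun hres ⟨v, hv⟩
    rwa [resMap_apply] at this
  · rw [if_neg hv] at h1
    omega

/-- The sum functional on `S → K`. -/
def sumFun (S : Finset (Place K F)) : (S → K) →ₗ[K] K :=
  ∑ v : S, LinearMap.proj v

theorem sumFun_apply (S : Finset (Place K F)) (c : S → K) : sumFun S c = ∑ v : S, c v := by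
  simp [sumFun]

omit X in
theorem finrank_ker_sumFun {S : Finset (Place K F)} (hS : S.Nonempty) :
    Module.finrank K (LinearMap.ker (sumFun (K := K) S)) + 1 = S.card := by
  have hsurj : Function.Surjective (sumFun (K := K) S) := by
    obtain ⟨v0, hv0⟩ := hS
    intro c
    refine ⟨Pi.single ⟨v0, hv0⟩ c, ?_⟩
    rw [sumFun_apply, Finset.sum_pi_single']
    simp
  have h1 := LinearMap.finrank_range_add_finrank_ker (sumFun (K := K) S)
  rw [LinearMap.range_eq_top.mpr hsurj, finrank_top, Module.finrank_self, Module.finrank_pi,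
    Fintype.card_coe] at h1
  omega

include X hω₀ hW in
theorem finrank_L_add_indDiv {S : Finset (Place K F)} (hS : S.Nonempty) :
    Module.finrank K (riemannRochSpace (W + indDiv S)) + 1 = genusFF K F + S.card := by
  have h := riemann_roch X hω₀ hW (W + indDiv S)
  have hneg : Divisor.degree (W - (W + indDiv S)) < 0 := by
    rw [sub_add_cancel_left, map_neg, degree_indDiv X.HL]
    have := hS.card_pos
    omega
  rw [L_eq_bot_of_degree_neg X.HL hneg, finrank_bot, map_add, degree_canonical X hω₀ hW,
    degree_indDiv X.HL] at h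
  push_cast at h
  omega

include hω₀ hW in
/-- The image of the residue map is the whole hyperplane `∑ = 0`. -/
theorem range_resMap {S : Finset (Place K F)} (hS : S.Nonempty) :
    LinearMap.range (resMap X ω₀ W S) = LinearMap.ker (sumFun (K := K) S) := by
  haveI : Module.Finite K (riemannRochSpace (W + indDiv S)) := finiteDimensional_L X.HL _
  haveI : Module.Finite K (riemannRochSpace W) := finiteDimensional_L X.HL _
  have hle : LinearMap.range (resMap X ω₀ W S) ≤ LinearMap.ker (sumFun (K := K) S) := by
    rintro _ ⟨h, rfl⟩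
    rw [LinearMap.mem_ker, sumFun_apply]
    exact sum_resMap X hω₀ hW S h
  refine Submodule.eq_of_le_of_finrank_le hle ?_
  -- kernel of `resMap` injects into `L(W)`
  have hker : Module.finrank K (LinearMap.ker (resMap X ω₀ W S)) ≤ genusFF K F := by
    rw [← finrank_L_canonical X hω₀ hW]
    let φ : LinearMap.ker (resMap X ω₀ W S) →ₗ[K] riemannRochSpace W :=
      { toFun := fun h => ⟨(h.1 : F), mem_L_of_resMap_eq_zero X hω₀ hW h.1 h.2⟩
        map_add' := fun _ _ => rfl
        map_smul' := fun _ _ => rfl }
    refine LinearMap.finrank_le_finrank_of_injective (f := φ) ?_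
    intro a b hab
    have : ((a : riemannRochSpace (W + indDiv S)) : F) = (b : riemannRochSpace (W + indDiv S)) :=
      congrArg (fun z : riemannRochSpace W => (z : F)) hab
    exact Subtype.ext (Subtype.ext this)
  have h1 := LinearMap.finrank_range_add_finrank_ker (resMap X ω₀ W S)
  have h2 := finrank_L_add_indDiv X hω₀ hW hS
  have h3 := finrank_ker_sumFun (K := K) hS
  omega

include hω₀ hW in
/-- **Differentials of the third kind**: a degree-`0` divisor is the residue divisor of a
differential with at most simple poles, all inside the support of the divisor. -/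
theorem exists_thirdKind [CharZero K] (D : Divisor K F) (hD : Divisor.degree D = 0) :
    ∃ h : F, (∀ v, X.R.res v (h • ω₀) = (D v : K)) ∧
      (∀ v ∈ D.support, v.ordDifferential (h • ω₀) = -1) ∧
      (∀ v ∉ D.support, h = 0 ∨ 0 ≤ v.ordDifferential (h • ω₀)) := by
  by_cases hS : D.support.Nonempty
  · -- the target vector lies in the hyperplane
    have hmem : (fun v : D.support => ((D v.1 : ℤ) : K)) ∈ LinearMap.ker (sumFun (K := K) D.support) := by
      rw [LinearMap.mem_ker, sumFun_apply, Finset.sum_coe_sort D.support (fun v => ((D v : ℤ) : K)),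
        ← Int.cast_sum, ← degree_eq_sum X.HL, hD, Int.cast_zero]
    rw [← range_resMap X hω₀ hW hS] at hmem
    obtain ⟨h, hh⟩ := hmem
    have hres : ∀ v, X.R.res v ((h : F) • ω₀) = (D v : K) := by
      intro v
      by_cases hv : v ∈ D.support
      · have := congrFun hh ⟨v, hv⟩
        rwa [resMap_apply] at this
      · rw [res_eq_zero_of_notMem X hω₀ hW h.2 hv, Finsupp.notMem_support_iff.mp hv, Int.cast_zero]
    refine ⟨(h : F), hres, ?_, ?_⟩
    · intro v hv
      have hDv : ((D v : ℤ) : K) ≠ 0 := Int.cast_ne_zero.mpr (Finsupp.mem_support_iff.mp hv)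
      have hh0 : (h : F) ≠ 0 := by
        intro h0
        apply hDv
        rw [← hres v, h0, zero_smul, map_zero]
      have h1 := ordDifferential_ge X hω₀ hW h.2 hh0 v
      rw [if_pos hv] at h1
      by_contra hne
      apply hDv
      rw [← hres v]
      exact X.R.res_eq_zero v _ (smul_ne_zero hh0 hω₀) (by omega)
    · intro v hv
      by_cases hh0 : (h : F) = 0
      · exact Or.inl hh0
      · right
        have h1 := ordDifferential_ge X hω₀ hW h.2 hh0 v
        rwa [if_neg hv] at h1
  · rw [Finset.not_nonempty_iff_eq_empty] at hS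
    refine ⟨0, ?_, ?_, ?_⟩
    · intro v
      have : D v = 0 := Finsupp.notMem_support_iff.mp (by rw [hS]; exact Finset.notMem_empty v)
      rw [zero_smul, map_zero, this, Int.cast_zero]
    · intro v hv
      rw [hS] at hv
      exact absurd hv (Finset.notMem_empty v)
    · intro v _
      exact Or.inl rfl

include hω₀ hW in
/-- Uniqueness up to regular differentials: two differentials `h • ω₀`, `h' • ω₀` with at most
simple poles and the same residues differ by a regular differential, i.e. `h - h' ∈ L(W)`. -/
theorem sub_mem_L_of_res_eq {h h' : F}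
    (hpole : ∀ v : Place K F, h = 0 ∨ -1 ≤ v.ordDifferential (h • ω₀))
    (hpole' : ∀ v : Place K F, h' = 0 ∨ -1 ≤ v.ordDifferential (h' • ω₀))
    (hres : ∀ v, X.R.res v (h • ω₀) = X.R.res v (h' • ω₀)) :
    h - h' ∈ riemannRochSpace W := by
  by_cases hd : h - h' = 0
  · rw [hd]; exact zero_mem _
  rw [mem_L_iff hd]
  intro v
  -- `ord (h - h') ≥ -W v - 1`
  have hge : ∀ g : F, (g = 0 ∨ -1 ≤ Place.ordDifferential v (g • ω₀)) → g ≠ 0 →
      -W v - 1 ≤ Place.ord v g := by
    intro g hg hg0
    rcases hg with hg | hg
    · exact absurd hg hg0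
    · rw [X.HD.ordDifferential_smul v g hg0 ω₀ hω₀, ← hW v] at hg
      omega
  have h1 : -W v - 1 ≤ v.ord (h - h') := by
    by_cases h0 : h = 0
    · have h0' : h' ≠ 0 := by
        intro h0'
        apply hd
        rw [h0, h0', sub_zero]
      rw [h0, zero_sub, ffp_ord_neg]
      exact hge h' (hpole' v) h0'
    by_cases h0' : h' = 0
    · rw [h0', sub_zero]
      exact hge h (hpole v) h0
    · have a1 := hge h (hpole v) h0
      have a2 := hge h' (hpole' v) h0'
      rw [← ffp_ord_neg] at a2
      have := ffp_le_ord_add v a1 a2 (by rwa [← sub_eq_add_neg])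
      rwa [← sub_eq_add_neg] at this
  by_contra hlt
  have hord : v.ordDifferential ((h - h') • ω₀) = -1 := by
    rw [X.HD.ordDifferential_smul v _ hd ω₀ hω₀, ← hW v]; omega
  refine X.R.res_ne_zero v _ (smul_ne_zero hd hω₀) hord ?_
  rw [sub_smul, map_sub, hres v, sub_self]

/-! ### Without an explicit canonical divisor -/

/-- The divisor of a nonzero differential. -/
def canonDiv (X : RRData K F) {ω₀ : Ω[F⁄K]} (hω₀ : ω₀ ≠ 0) : Divisor K F :=
  Finsupp.ofSupportFinite (fun v : Place K F => v.ordDifferential ω₀) (X.HD.finite_support ω₀ hω₀)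

theorem canonDiv_apply (X : RRData K F) {ω₀ : Ω[F⁄K]} (hω₀ : ω₀ ≠ 0) (v : Place K F) :
    canonDiv X hω₀ v = v.ordDifferential ω₀ := rfl

include hω₀ in
/-- `exists_thirdKind` without the auxiliary canonical divisor. -/
theorem exists_thirdKind' [CharZero K] (Δ : Divisor K F) (hΔ : Divisor.degree Δ = 0) :
    ∃ h : F, (∀ v, X.R.res v (h • ω₀) = (Δ v : K)) ∧
      (∀ v ∈ Δ.support, v.ordDifferential (h • ω₀) = -1) ∧
      (∀ v ∉ Δ.support, h = 0 ∨ 0 ≤ v.ordDifferential (h • ω₀)) :=
  exists_thirdKind X hω₀ (W := canonDiv X hω₀) (fun v => canonDiv_apply X hω₀ v) Δ hΔ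

end

/-! ### The concrete form: `K` algebraically closed of characteristic `0`, `ω₀ = dx` -/

section Concrete

open IntermediateField Fermat.Agent.RR.LocalResMain

variable {K F : Type*} [Field K] [Field F] [Algebra K F] [IsAlgClosed K] [CharZero K] {x : F}

/-- In characteristic `0` a generator is separating. -/
theorem isSeparable_of_isGen (hx : IsGen K x) : Algebra.IsSeparable K⟮x⟯ F := by
  haveI := hx.finiteDimensional
  haveI : CharZero K⟮x⟯ := charZero_of_injective_algebraMap (algebraMap K K⟮x⟯).injective
  infer_instance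

/-- The Riemann–Roch data of a function field with a generator (no `HasCanonicalDivisor` needed). -/
noncomputable def rrDataGen (hx : IsGen K x) : RRData K F :=
  haveI := isSeparable_of_isGen hx
  Fermat.Agent.U44.RRSep0.rrData hx (Fermat.Agent.RR.LHypGen.lHyp_of_isGen hx)

theorem rrDataGen_res (hx : IsGen K x) (v : Place K F) (ω : Ω[F⁄K]) :
    (rrDataGen hx).R.res v ω = residue hx v ω := rfl

/-- **Differentials of the third kind on a function field over an algebraically closed field of
characteristic `0`**, in terms of the generator `x`: for every divisor `Δ` of degree `0` there is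
`h` such that `h dx` has at most simple poles, all in the support of `Δ`, and residue `Δ v` at `v`. -/
theorem exists_thirdKind_of_isGen (hx : IsGen K x) (Δ : Divisor K F)
    (hΔ : Divisor.degree Δ = 0) :
    ∃ h : F, (∀ v, residue hx v (h • D K F x) = (Δ v : K)) ∧
      (∀ v ∈ Δ.support, v.ordDifferential (h • D K F x) = -1) ∧
      (∀ v ∉ Δ.support, h = 0 ∨ 0 ≤ v.ordDifferential (h • D K F x)) :=
  exists_thirdKind' (rrDataGen hx) (D_ne_zero hx) Δ hΔ

end Concrete

end Fermat.Agent.M15.ThirdKind0
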