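/-
Programme M15 (S15), chapter (DIV), leaf (b), file 3 (helper1): **the dictionary between
differentials of `F_ℂ = ℂ(X₀(N))` and meromorphic forms of weight `2` on `ℍ`**.

* `psi : Ω[F_ℂ⁄ℂ] →+ MerH`, `psi (h • ω) = Θ h * psi ω`, `psi (D f) = dM (Θ f)`;
* `exists_logDiff` : for a divisor `Δ` of degree `0` with no cusp in its support there is `g : MerH`
  with (g1) weight `2` invariance under `Γ₀(N)`, (g2) `PoleCond g z₀ (Δ(P_{z₀}) · e_{z₀})` at every
  `z₀ : ℍ`, (g3) `CuspReg N g`: exactly the input of `DivAut1.exists_automorphic`.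
-/
import Fermat.Agent.M15.DivAut1
import Fermat.Agent.M15.DivDlog1
import Fermat.Agent.M15.DivCuspPrim1
import Fermat.Agent.M15.ThirdKind0
import Fermat.Agent.ES.KUM.CCuspSurj16
import Fermat.Agent.ES.KUM.CCuspExact16
import Fermat.Agent.S20.JDeriv

set_option autoImplicit false
set_option linter.unusedSectionVars false

open UpperHalfPlane Filter Topology Set CongruenceSubgroup AlgebraicCurve KaehlerDifferential
open scoped Manifold MatrixGroups NNReal Real

noncomputable section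

namespace Fermat.Agent.M15.DivDict1

open Fermat.Agent.X0 Fermat.Agent.X0.SurjPoint Fermat.Agent.ES.KUM Fermat.Agent.M15.DivLogMer1
  Fermat.Agent.M15.DivLogPrim1 Fermat.Agent.M15.DivShift1 Fermat.Agent.M15.DivAut1
  Fermat.Agent.M15.DivDlog1 Fermat.Agent.M15.DivCuspPrim1 Fermat.Agent.ES.KUM.CCusp16
  Fermat.Agent.X0.FF Fermat.Agent.RR.LocalResMain Fermat.Agent.RR.LocalRes

local notation "ι" => algebraMap HolH MerH

variable (N : ℕ) [NeZero N]

/-! ### The map `Ψ` on differentials -/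

/-- `MerH` as an algebra over `F_ℂ` via `Θ`. -/
@[reducible] def algΘ : Algebra (FC N) MerH := (realMer N).toAlgebra

attribute [local instance] algΘ

theorem smulΘ (f : FC N) (y : MerH) : f • y = realMer N f * y := rfl

instance towerΘ : IsScalarTower ℂ (FC N) MerH :=
  IsScalarTower.of_algebraMap_eq fun c => by
    show algebraMap ℂ MerH c = realMer N (algebraMap ℂ (FC N) c)
    rw [realMer_algebraMap]
    exact IsScalarTower.algebraMap_apply ℂ HolH MerH c

/-- the derivation `f ↦ d(Θ f)/dz`. -/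
def derivΘ : Derivation ℂ (FC N) MerH where
  toFun f := dM (realMer N f)
  map_add' f g := by rw [map_add, dM_add]
  map_smul' c f := by
    simp only [RingHom.id_apply]
    rw [Algebra.smul_def, map_mul, realMer_algebraMap, dM_mul, dM_const, zero_mul, zero_add,
      Algebra.smul_def, IsScalarTower.algebraMap_apply ℂ HolH MerH c]
  map_one_eq_zero' := by
    show dM (realMer N 1) = 0
    rw [map_one, dM_one]
  leibniz' f g := by
    show dM (realMer N (f * g)) = realMer N f * dM (realMer N g) + realMer N g * dM (realMer N f)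
    rw [map_mul, dM_mul]
    ring

/-- **the dictionary on differentials.** -/
def psi : Ω[FC N⁄ℂ] →+ MerH := ((derivΘ N).liftKaehlerDifferential).toAddMonoidHom

theorem psi_smul (h : FC N) (ω : Ω[FC N⁄ℂ]) : psi N (h • ω) = realMer N h * psi N ω := by
  show (derivΘ N).liftKaehlerDifferential (h • ω) = _
  rw [map_smul]
  rfl

theorem psi_D (f : FC N) : psi N (D ℂ (FC N) f) = dM (realMer N f) := by
  show (derivΘ N).liftKaehlerDifferential (D ℂ (FC N) f) = _
  rw [Derivation.liftKaehlerDifferential_comp_D]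
  rfl

theorem psi_smul_D (h f : FC N) : psi N (h • D ℂ (FC N) f) = realMer N h * dM (realMer N f) := by
  rw [psi_smul, psi_D]

/-! ### `j` and its derivative -/

/-- `j` as an element of `HolH`. -/
def jH' : HolH := ⟨jFun, jFun_mdifferentiable⟩

/-- `D j` as an element of `HolH`. -/
def jDH : HolH := ⟨Fermat.Agent.S20.JDeriv.jD, Fermat.Agent.S20.JDeriv.jD_mem_HolH⟩

theorem derivH_jH' : derivH jH' = algebraMap ℂ HolH (2 * π * Complex.I) * jDH := by
  apply Subtype.ext
  funext z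
  show deriv (toC jH') (z : ℂ) = 2 * π * Complex.I * Fermat.Agent.S20.JDeriv.jD z
  have h := Fermat.Agent.S20.JDeriv.deriv_jFun_eq (w := (z : ℂ)) z.im_pos
  rw [Function.comp_apply, ofComplex_apply] at h
  exact h

theorem compSLHom_jH' (σ : SL(2, ℤ)) : compSLHom σ jH' = jH' :=
  Subtype.ext (funext fun z => lof_jFun_smul σ z)

theorem realMer_jC' : realMer N (jC N) = ι jH' := realMer_jC N

/-- the weight `2` translate of `Θ h · dj/dz`. -/
theorem jacInv_mul_slMer (σ : SL(2, ℤ)) (x : MerH) :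
    ι (jacInv σ) * slMer σ (x * dM (ι jH')) = slMer σ x * dM (ι jH') := by
  have h1 := dM_slMer σ (ι jH')
  rw [slMer_algebraMap, compSLHom_jH'] at h1
  rw [map_mul]
  linear_combination (-(slMer σ x)) * h1

/-! ### (g3): the cusps -/

theorem order_eq_zero_of_coeff_zero_ne {P : PowerSeries ℂ} (h : PowerSeries.coeff 0 P ≠ 0) :
    P.order = 0 := by
  have := PowerSeries.order_le 0 h
  exact le_antisymm (by exact_mod_cast this) (by simp)

/-- the `q_N`-expansion of `2πi · D j`. -/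
theorem exists_isQExp_derivH_jH' :
    ∃ P : PowerSeries ℂ, IsQExp N ((derivH jH' : HolH) : ℍ → ℂ) N P ∧ P.order = 0 := by
  have h1 := (Fermat.Agent.S20.JDeriv.isQExp_jD).level_mul N
  rw [one_mul] at h1
  have h2 := h1.smul (2 * π * Complex.I)
  have e : ((derivH jH' : HolH) : ℍ → ℂ) =
      (2 * π * Complex.I : ℂ) • Fermat.Agent.S20.JDeriv.jD := by
    rw [derivH_jH']
    rfl
  rw [e]
  refine ⟨_, h2, ?_⟩
  · apply order_eq_zero_of_coeff_zero_ne
    rw [PowerSeries.coeff_smul, PowerSeries.coeff_expand]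
    have h2πI : (2 * π * Complex.I : ℂ) ≠ 0 := by
      have : (π : ℂ) ≠ 0 := by exact_mod_cast Real.pi_ne_zero
      exact mul_ne_zero (mul_ne_zero two_ne_zero this) Complex.I_ne_zero
    simp only [dvd_zero, if_true, Nat.zero_div, PowerSeries.coeff_map,
      Fermat.Agent.S20.JDeriv.coeff_zero_jDNum]
    simp [h2πI]

/-- the order of a product with a unit-order series. -/
theorem order_toNat_mul_of_order_zero {P Q : PowerSeries ℂ} (hQ : Q.order = 0) :
    (P * Q).order.toNat = P.order.toNat := by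
  rw [PowerSeries.order_mul, hQ, add_zero]

/-- **(g3) for one cusp**, in terms of the order of the cusp expansion. -/
theorem cuspReg_at (σ : SL(2, ℤ)) {h : FC N} (hh : h ≠ 0)
    (hord : (N : ℤ) + 1 ≤ (cuspEmbC N σ h).order) :
    ∃ (Y : ℝ≥0) (ℓ : HolH), compSLHom (ModularGroup.T ^ (N : ℤ)) ℓ = ℓ ∧
      IsBoundedAtImInfty (ℓ : ℍ → ℂ) ∧
      shiftM Y (ι (jacInv σ) * slMer σ (realMer N h * dM (ι jH'))) = ι (derivH ℓ) := by
  obtain ⟨u, s, hs, rfl⟩ := exists_divC_ne_zero N h
  obtain ⟨mu, Pu, hPu, hTu⟩ := cuspEmbC_spec N σ u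
  obtain ⟨ms, Ps, hPs, hTs⟩ := cuspEmbC_spec N σ s
  obtain ⟨PD, hPD, hPD0⟩ := exists_isQExp_derivH_jH' N
  have hs' : (s : FC N) ≠ 0 := fun h0 => hs (Subtype.ext h0)
  have hu' : (u : FC N) ≠ 0 := fun h0 => hh (by rw [h0, zero_div])
  have hTs0 : cuspEmbC N σ (s : FC N) ≠ 0 := cuspEmbC_ne_zero N σ hs'
  have hTu0 : cuspEmbC N σ (u : FC N) ≠ 0 := cuspEmbC_ne_zero N σ hu'
  have hPs0 : Ps ≠ 0 := by
    rintro rfl
    apply hTs0
    rw [hTs]
    simp [laurentOf]
  have hPu0 : Pu ≠ 0 := by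
    rintro rfl
    apply hTu0
    rw [hTu]
    simp [laurentOf]
  -- the order of the expansion of `h = u / s`
  have hordh : (cuspEmbC N σ ((u : FC N) / (s : FC N))).order =
      (laurentOf mu Pu).order - (laurentOf ms Ps).order := by
    have hq : cuspEmbC N σ ((u : FC N) / (s : FC N)) * cuspEmbC N σ (s : FC N) =
        cuspEmbC N σ (u : FC N) := by
      rw [← map_mul, div_mul_cancel₀ _ hs']
    have hq0 : cuspEmbC N σ ((u : FC N) / (s : FC N)) ≠ 0 := cuspEmbC_ne_zero N σ hh
    have := HahnSeries.order_mul hq0 hTs0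
    rw [hq, hTu, hTs] at this
    rw [this]
    ring
  rw [hordh, ParMult3.order_laurentOf hPu0, ParMult3.order_laurentOf hPs0] at hord
  -- numerator and denominator
  set A : HolH := compSLHom σ (realC N u) * derivH jH' with hA
  set B : HolH := compSLHom σ (realC N s) with hB
  have hAq : IsQExp N ((A : HolH) : ℍ → ℂ) (mu + N) (Pu * PD) := hPu.mul hPD
  have hBq : IsQExp N ((B : HolH) : ℍ → ℂ) ms Ps := hPs
  have hordAB : Ps.order.toNat + (mu + N) + 1 ≤ (Pu * PD).order.toNat + ms := by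
    rw [order_toNat_mul_of_order_zero hPD0]
    omega
  obtain ⟨Y, ℓ, hper, hbd, hode⟩ := exists_cuspPrim N hAq hBq hPs0 hordAB
  refine ⟨Y, ℓ, hper, hbd, ?_⟩
  have hB0 : B ≠ 0 := by
    intro h0
    apply hs
    have h1 : compSLHom σ (realC N s) = compSLHom σ 0 := by rw [← hB, h0, map_zero]
    have h2 : realC N s = 0 := compSLHom_injective σ h1
    exact realC_injective N (by rw [h2, map_zero])
  have hsB : ι (shiftH Y B) ≠ 0 := iota_ne_zero (shiftH_ne_zero Y hB0)
  rw [jacInv_mul_slMer, map_div₀, realMer_coe, realMer_coe, slMer_div, dM_algebraMap,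
    div_mul_eq_mul_div, ← map_mul, ← hA, ← hB, shiftM_div, div_eq_iff hsB, ← map_mul, hode]

/-- **(g3)**: regularity of `h dj` at all cusps gives `CuspReg`. -/
theorem cuspReg_of_regular (h : FC N)
    (hreg : ∀ v : Place ℂ (FC N), v.ord (jC N) < 0 →
      h = 0 ∨ 0 ≤ v.ordDifferential (h • D ℂ (FC N) (jC N))) :
    CuspReg N (realMer N h * dM (ι jH')) := by
  intro σ
  rcases eq_or_ne h 0 with rfl | hh
  · refine ⟨0, 0, map_zero _, ?_, ?_⟩
    · rw [isBoundedAtImInfty_iff]
      exact ⟨0, 0, fun z _ => by simp⟩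
    · rw [map_zero, zero_mul, map_zero, mul_zero, map_zero, derivH_zero, map_zero]
  have hx : IsGen ℂ (jC N) := isGen_jC N
  set v := cuspPlaceC N σ⁻¹ with hv
  have hjneg : v.ord (jC N) < 0 := cuspPlaceC_ord_jC_neg N σ⁻¹
  have hreg' : 0 ≤ v.ordDifferential (h • D ℂ (FC N) (jC N)) := by
    rcases hreg v hjneg with h0 | h0
    · exact absurd h0 hh
    · exact h0
  have hD : v.ordDifferential (D ℂ (FC N) (jC N)) = v.ord (jC N) - 1 :=
    ordDifferential_D_of_ord_ne_zero hx v (ne_of_lt hjneg)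
  rw [ordDifferential_smul' hx v hh (D_ne_zero hx), hD] at hreg'
  have hm := cuspIdx_pos N σ⁻¹
  have hspec := order_cuspEmbC N σ⁻¹ hh
  have hmj := cuspIdx_mul_ord_jC N σ⁻¹
  rw [inv_inv] at hspec
  apply cuspReg_at N σ hh
  rw [hspec]
  have hm' : (1 : ℤ) ≤ cuspIdx N σ⁻¹ := by exact_mod_cast hm
  have h1 : 1 - v.ord (jC N) ≤ v.ord h := by linarith
  have h2 : (cuspIdx N σ⁻¹ : ℤ) * (1 - v.ord (jC N)) ≤ cuspIdx N σ⁻¹ * v.ord h :=
    mul_le_mul_of_nonneg_left h1 (by linarith)
  have h3 : (cuspIdx N σ⁻¹ : ℤ) * (1 - v.ord (jC N)) = cuspIdx N σ⁻¹ + N := by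
    rw [mul_sub, mul_one, hmj]
    ring
  linarith

/-! ### (g2): the points -/

/-- **(g2) at one point.** -/
theorem poleCond_at (z₀ : ℍ) {h : FC N} (hh : h ≠ 0) (r : ℤ)
    (hres : residue (isGen_jC N) (ptPlaceC N 1 z₀) (h • D ℂ (FC N) (jC N)) = (r : ℂ))
    (hord : -1 ≤ (ptPlaceC N 1 z₀).ordDifferential (h • D ℂ (FC N) (jC N))) :
    PoleCond (realMer N h * dM (ι jH')) z₀ ((r * (ptIdx N 1 z₀ : ℤ) : ℤ) : ℂ) := by
  have hx : IsGen ℂ (jC N) := isGen_jC N
  set v := ptPlaceC N 1 z₀ with hv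
  have := dCoordGenerates hx v
  have := nontrivial_kaehler hx
  set ω : Ω[FC N⁄ℂ] := h • D ℂ (FC N) (jC N) with hω
  have hω0 : ω ≠ 0 := smul_ne_zero hh (D_ne_zero hx)
  set t : FC N := ((ffu v : v.toValuationSubring) : FC N) with ht
  have htord : v.ord t = 1 := ffu_ord v
  have ht0 : t ≠ 0 := ffu_ne_zero v
  set a : FC N := v.differentialCoeff ω with ha
  have hωa : ω = a • D ℂ (FC N) t := by
    have := (v.differentialCoeff_smul_dCoord ω).symm
    rwa [ffu_dCoord] at this
  have ha0 : a ≠ 0 := by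
    rintro h0
    rw [h0, zero_smul] at hωa
    exact hω0 hωa
  have haord : -1 ≤ v.ord a := hord
  -- decompose `a = c / t + a'`
  set b : FC N := a * t with hb
  have hb0 : b ≠ 0 := mul_ne_zero ha0 ht0
  have hbord : 0 ≤ v.ord b := by
    rw [hb, v.ord_mul ha0 ht0, htord]
    linarith
  obtain ⟨c, hc⟩ := hres_of_isGen hx v b (ffp_mem_of_ord_nonneg v hbord)
  set a' : FC N := (b - algebraMap ℂ (FC N) c) * t⁻¹ with ha'
  have ha'mem : a' ∈ v.toValuationSubring := by
    rcases hc with hc | hc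
    · rw [ha', hc, sub_self, zero_mul]
      exact zero_mem _
    · have hne : b - algebraMap ℂ (FC N) c ≠ 0 := by
        intro h0
        rw [h0, v.ord_zero] at hc
        exact lt_irrefl _ hc
      apply ffp_mem_of_ord_nonneg
      rw [ha', v.ord_mul hne (inv_ne_zero ht0), v.ord_inv, htord]
      omega
  have hdecomp : a = c • t⁻¹ + a' := by
    rw [ha', hb, Algebra.smul_def]
    field_simp
    ring
  have htmem : t ∈ v.toValuationSubring := ffp_mem_of_ord_nonneg v (by rw [htord]; exact zero_le_one)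
  -- the residue is `c`
  have hresc : residue hx v ω = c := by
    rw [hωa, hdecomp, add_smul, map_add, smul_assoc, map_smul]
    show c • resΩ v (hres_of_isGen hx v) (t⁻¹ • D ℂ (FC N) t) +
      resΩ v (hres_of_isGen hx v) (a' • D ℂ (FC N) t) = c
    rw [resΩ_inv_smul_D_uniformizer v _ htord, resΩ_smul_D_eq_zero v _ ha'mem htmem, add_zero,
      smul_eq_mul, mul_one]
  have hcr : c = (r : ℂ) := by rw [← hresc, hres]
  -- translate
  have hΘt0 : realMer N t ≠ 0 := (map_ne_zero _).mpr ht0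
  have hordt : ordMer z₀ (realMer N t) = (ptIdx N 1 z₀ : ℤ) := by
    rw [ordMer_realMer N z₀ ht0, ← hv, htord, mul_one]
  have hg : realMer N h * dM (ι jH') =
      cst (r : ℂ) * (dM (realMer N t) / realMer N t) + realMer N a' * dM (realMer N t) := by
    rw [← realMer_jC' N, ← psi_smul_D, ← hω, hωa, psi_smul_D, hdecomp, map_add, Algebra.smul_def,
      map_mul, realMer_algebraMap, map_inv₀, hcr]
    unfold cst
    field_simp
  rw [hg, ← hordt]
  apply poleCond_smul_dlog hΘt0
  · rw [mem_valAt_iff z₀ hΘt0, hordt]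
    exact Int.natCast_nonneg _
  · rcases eq_or_ne a' 0 with h0 | h0
    · rw [h0, map_zero]
      exact zero_mem _
    · have hΘa' : realMer N a' ≠ 0 := (map_ne_zero _).mpr h0
      rw [mem_valAt_iff z₀ hΘa', ordMer_realMer N z₀ h0]
      exact mul_nonneg (Int.natCast_nonneg _) (ffp_ord_nonneg_of_mem v ha'mem)

/-! ### The main statement -/

/-- **(b) the dictionary.** -/
theorem exists_logDiff (Δ : Divisor ℂ (FC N)) (hΔ : Divisor.degree Δ = 0)
    (hcusp : ∀ v : Place ℂ (FC N), v.ord (jC N) < 0 → Δ v = 0) :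
    ∃ g : MerH, (∀ γ ∈ Gamma0 N, ι (jacInv γ) * slMer γ g = g) ∧
      (∀ z₀ : ℍ, PoleCond g z₀ ((Δ (ptPlaceC N 1 z₀) * (ptIdx N 1 z₀ : ℤ) : ℤ) : ℂ)) ∧
      CuspReg N g := by
  have hx : IsGen ℂ (jC N) := isGen_jC N
  obtain ⟨h, hres, hsupp, hnsupp⟩ :=
    Fermat.Agent.M15.ThirdKind0.exists_thirdKind_of_isGen hx Δ hΔ
  refine ⟨realMer N h * dM (ι jH'), fun γ hγ => ?_, fun z₀ => ?_, ?_⟩
  · rw [jacInv_mul_slMer, slMer_realMer_of_mem N γ hγ]
  · rcases eq_or_ne h 0 with rfl | hh
    · have h0 : Δ (ptPlaceC N 1 z₀) = 0 := by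
        have := hres (ptPlaceC N 1 z₀)
        rw [zero_smul, map_zero] at this
        exact_mod_cast this.symm
      rw [h0, zero_mul, map_zero, zero_mul]
      exact poleCond_zero z₀
    · apply poleCond_at N z₀ hh _ (hres _)
      by_cases hmem : ptPlaceC N 1 z₀ ∈ Δ.support
      · rw [hsupp _ hmem]
      · rcases hnsupp _ hmem with h0 | h0
        · exact absurd h0 hh
        · linarith
  · apply cuspReg_of_regular
    intro v hv
    apply hnsupp v
    rw [Finsupp.mem_support_iff, not_not]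
    exact hcusp v hv

end Fermat.Agent.M15.DivDict1
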