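/-
Programme M15 (target S15), chapter R3 FLAT (helper2): the ASSEMBLY of FF (`FF/Assembly8`) with an
ambient group `EE ⊇ Pic⁰` in place of `Pic⁰`: the finite module `M` embeds into `EE`, the reduction
is defined on `EE`, and `θ` parametrises its kernel through `incl : Pic⁰ → EE`.
-/
import Mathlib
import Fermat.Agent.FF.Assembly8

set_option autoImplicit false

open AlgebraicCurve PowerSeries IsLocalRing

namespace Fermat.Agent.M15.ExtAssembly2

open Fermat.Agent.FF.CoreIface8 Fermat.Agent.FF.GeomIface8 Fermat.Agent.FF.Meaning8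
  Fermat.Agent.FF.Theta8 Fermat.Agent.FF.OrderCoordC Fermat.Agent.FF.OrderCoordD
  Fermat.Agent.FF.OrderCoordF Fermat.Agent.FF.HopfOrderB Fermat.Agent.FF.HopfOrderC
  Fermat.Agent.FF.Assembly8

universe v

variable {K : Type} [Field K] {F : Type*} [Field F] [Algebra K F]
variable {A : ValuationSubring K} {g d : ℕ}
variable {Γ : Type*} [Group Γ] [MulSemiringAction Γ K] [DistribMulAction Γ (Pic0 K F)]

/-- the abstract input of the assembly, with an ambient group. -/
structure ThetaInputE (Mod : DiscModel A F g d) (hdeg : ∀ (j : Fin d) (t : A), (Mod.P j t).deg = 1)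
    (Γ : Type*) [Group Γ] [MulSemiringAction Γ K] [DistribMulAction Γ (Pic0 K F)]
    (EE : Type*) [AddCommGroup EE] [DistribMulAction Γ EE]
    (M : Type) [AddCommGroup M] [DistribMulAction Γ M] (Jb : Type*) [AddCommGroup Jb] where
  hΓA : ∀ (σ : Γ) (a : K), a ∈ A → σ • a ∈ A
  incl : Pic0 K F →+ EE
  incl_inj : Function.Injective incl
  incl_smul : ∀ (σ : Γ) (z : Pic0 K F), incl (σ • z) = σ • incl z
  emb : M →+ EE
  emb_inj : Function.Injective emb
  emb_smul : ∀ (σ : Γ) (z : M), emb (σ • z) = σ • emb z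
  red : EE →+ Jb
  red_smul : ∀ (σ : Γ) (z : EE), red (σ • z) = red z
  theta_inj : ∀ x x' : Fin g → A, (∀ i, x i ∈ maximalIdeal A) → (∀ i, x' i ∈ maximalIdeal A) →
    theta Mod hdeg x = theta Mod hdeg x' → x = x'
  red_theta : ∀ x : Fin g → A, (∀ i, x i ∈ maximalIdeal A) → red (incl (theta Mod hdeg x)) = 0
  theta_surj : ∀ z : EE, red z = 0 →
    ∃ x : Fin g → A, (∀ i, x i ∈ maximalIdeal A) ∧ incl (theta Mod hdeg x) = z
  theta_smul : ∀ (σ : Γ) (x : Fin g → A), (∀ i, x i ∈ maximalIdeal A) →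
    theta Mod hdeg (smulTuple hΓA σ x) = σ • theta Mod hdeg x
  Pt : M → EE
  red_Pt : ∀ z, red (Pt z) = red (emb z)
  Pt_congr : ∀ z z', red (emb z) = red (emb z') → Pt z = Pt z'
  Pt_smul : ∀ (σ : Γ) (z : M), σ • Pt z = Pt z

namespace ThetaInputE

variable {Mod : DiscModel A F g d} {hdeg : ∀ (j : Fin d) (t : A), (Mod.P j t).deg = 1}
variable {EE : Type*} [AddCommGroup EE] [DistribMulAction Γ EE]
variable {M : Type} [AddCommGroup M] [DistribMulAction Γ M] {Jb : Type*} [AddCommGroup Jb]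
variable (I : ThetaInputE Mod hdeg Γ EE M Jb)

/-- `M₀ = M ∩ ker red`. -/
noncomputable def M0 : AddSubgroup M := (I.red.comp I.emb).ker

theorem mem_M0 {z : M} : z ∈ I.M0 ↔ I.red (I.emb z) = 0 := Iff.rfl

theorem sub_mem_M0 {z z' : M} : z - z' ∈ I.M0 ↔ I.red (I.emb z) = I.red (I.emb z') := by
  rw [mem_M0, map_sub, map_sub, sub_eq_zero]

theorem hM0 (σ : Γ) (z : M) : σ • z - z ∈ I.M0 := by
  rw [sub_mem_M0, I.emb_smul, I.red_smul]

theorem red_sub_Pt (z : M) : I.red (I.emb z - I.Pt z) = 0 := by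
  rw [map_sub, I.red_Pt, sub_self]

/-- the coordinates. -/
noncomputable def x (z : M) : Fin g → A := Classical.choose (I.theta_surj _ (I.red_sub_Pt z))

theorem x_mem (z : M) (i : Fin g) : I.x z i ∈ maximalIdeal A :=
  (Classical.choose_spec (I.theta_surj _ (I.red_sub_Pt z))).1 i

theorem theta_x (z : M) : I.incl (theta Mod hdeg (I.x z)) = I.emb z - I.Pt z :=
  (Classical.choose_spec (I.theta_surj _ (I.red_sub_Pt z))).2

theorem hxeq (σ : Γ) (z : M) (j : Fin g) : (I.x (σ • z) j : K) = σ • (I.x z j : K) := by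
  have h1 : theta Mod hdeg (I.x (σ • z)) = theta Mod hdeg (smulTuple I.hΓA σ (I.x z)) := by
    apply I.incl_inj
    rw [I.theta_smul σ _ (I.x_mem z), I.incl_smul, I.theta_x, I.theta_x, I.emb_smul, smul_sub,
      I.Pt_smul, I.Pt_congr (σ • z) z (by rw [I.emb_smul, I.red_smul])]
  have h2 := I.theta_inj _ _ (I.x_mem (σ • z))
    (fun i => smul_mem_maximalIdeal I.hΓA σ _ (I.x_mem z i)) h1
  rw [h2]

theorem hxsep (z z' : M) (hz : z - z' ∈ I.M0) (h : I.x z = I.x z') : z = z' := by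
  apply I.emb_inj
  have h1 := I.theta_x z
  rw [h, I.theta_x z', I.Pt_congr z z' (I.sub_mem_M0.1 hz)] at h1
  exact (sub_left_inj.1 h1).symm

theorem red_mid (z z' : M) :
    I.red (I.incl (theta Mod hdeg (I.x z) + theta Mod hdeg (I.x z'))) = 0 := by
  rw [map_add, map_add, I.red_theta _ (I.x_mem z), I.red_theta _ (I.x_mem z'), add_zero]

/-- the coordinates of `θ (x z) + θ (x z')`. -/
noncomputable def mid (z z' : M) : Fin g → A := Classical.choose (I.theta_surj _ (I.red_mid z z'))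

theorem mid_mem (z z' : M) (i : Fin g) : I.mid z z' i ∈ maximalIdeal A :=
  (Classical.choose_spec (I.theta_surj _ (I.red_mid z z'))).1 i

theorem theta_mid (z z' : M) :
    theta Mod hdeg (I.mid z z') = theta Mod hdeg (I.x z) + theta Mod hdeg (I.x z') :=
  I.incl_inj (Classical.choose_spec (I.theta_surj _ (I.red_mid z z'))).2

theorem red_shift (z0 z0' : M) : I.red (I.Pt z0 + I.Pt z0' - I.Pt (z0 + z0')) = 0 := by
  rw [map_sub, map_add, I.red_Pt, I.red_Pt, I.red_Pt, map_add, map_add, sub_self]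

/-- the coordinates of the constant shift on a pair of cosets. -/
noncomputable def s₀ (z0 z0' : M) : Fin g → A :=
  Classical.choose (I.theta_surj _ (I.red_shift z0 z0'))

theorem s₀_mem (z0 z0' : M) (i : Fin g) : I.s₀ z0 z0' i ∈ maximalIdeal A :=
  (Classical.choose_spec (I.theta_surj _ (I.red_shift z0 z0'))).1 i

theorem theta_s₀ (z0 z0' : M) :
    I.incl (theta Mod hdeg (I.s₀ z0 z0')) = I.Pt z0 + I.Pt z0' - I.Pt (z0 + z0') :=
  (Classical.choose_spec (I.theta_surj _ (I.red_shift z0 z0'))).2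

theorem theta_x_add (z0 z0' z z' : M) (hz : z - z0 ∈ I.M0) (hz' : z' - z0' ∈ I.M0) :
    theta Mod hdeg (I.x (z + z')) =
      theta Mod hdeg (I.mid z z') + theta Mod hdeg (I.s₀ z0 z0') := by
  have h1 : I.Pt z = I.Pt z0 := I.Pt_congr _ _ (I.sub_mem_M0.1 hz)
  have h2 : I.Pt z' = I.Pt z0' := I.Pt_congr _ _ (I.sub_mem_M0.1 hz')
  have h3 : I.Pt (z + z') = I.Pt (z0 + z0') := by
    apply I.Pt_congr
    rw [map_add, map_add, map_add, map_add, I.sub_mem_M0.1 hz, I.sub_mem_M0.1 hz']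
  apply I.incl_inj
  rw [I.incl.map_add, I.theta_x, I.theta_mid, I.incl.map_add, I.theta_s₀, I.theta_x, I.theta_x,
    I.emb.map_add, h1, h2, h3]
  abel

variable {V : Type v} [AddCommGroup V] [Module A V] {D : CoreData A V g d}
variable {W0 : Type} [CommRing W0] [Algebra W0 K]

/-- **ASSEMBLY (abstract form, ambient group).** -/
theorem order_main_of_thetaE [Finite M] (hW : IsFixedRing Γ A W0) (ℓ : A)
    (hrank : ∀ a : A, a ≠ 0 → ∃ m : ℕ, a ∣ ℓ ^ m)
    (hℓm : ∀ a : A, a ∈ maximalIdeal A → ∃ k : ℕ, ℓ ∣ a ^ k)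
    (hcf : ClosedFibre D (IsLocalRing.ResidueField A)) (L : LatticeModel Mod D)
    (hdisj : ∀ (j j' : Fin d) (t t' : A), t ∈ maximalIdeal A → t' ∈ maximalIdeal A →
      Mod.P j t = Mod.P j' t' → j = j') :
    (∀ h ∈ order W0 I.M0 I.x, IsEquivariantFun Γ h) ∧
    (∀ h ∈ order W0 I.M0 I.x, ∀ z, h z ∈ A) ∧
    (Subalgebra.toSubmodule (order W0 I.M0 I.x)).FG ∧
    (∀ z z' : M, (∀ f ∈ order W0 I.M0 I.x, f z = f z') → z = z') ∧
    ∀ s ∈ genSet I.M0 I.x, HasCoprod (order W0 I.M0 I.x) s := by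
  refine order_main_of_coreSum hW ℓ hrank D hcf I.hM0 (fun z j => hℓm _ (I.x_mem z j)) I.hxeq
    I.hxsep I.mid I.s₀ (fun z0 z0' j => hℓm _ (I.s₀_mem z0 z0' j)) ?_ ?_
  · intro z z' B _ _ hxB hx'B O j
    exact meaning_theta Mod hdeg hdisj L (I.x z) (I.x z') (I.mid z z') (I.x_mem z) (I.x_mem z')
      (I.mid_mem z z') (I.theta_mid z z') hxB hx'B O j
  · intro z0 z0' z z' hz hz' B _ _ hxB hx'B O j
    exact meaning_theta Mod hdeg hdisj L (I.mid z z') (I.s₀ z0 z0') (I.x (z + z')) (I.mid_mem z z')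
      (I.s₀_mem z0 z0') (I.x_mem (z + z')) (I.theta_x_add z0 z0' z z' hz hz') hxB hx'B O j

end ThetaInputE

end Fermat.Agent.M15.ExtAssembly2
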