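/-
Programme M15 (target S15), chapter R3 FLAT (helper2): the input `ThetaInputE` of the ambient
assembly for the Kummer extension module `KExt x l` of a fixed point `x ∈ Pic⁰`, BUILT from an
existing `ThetaInput` (any finite module) and the existence of invariant lifts of reductions.
-/
import Mathlib
import Fermat.Agent.M15.ExtAssembly2
import Fermat.Agent.M15.ExtAmbient2

set_option autoImplicit false

open AlgebraicCurve IsLocalRing

namespace Fermat.Agent.M15.ExtGlue2

open Fermat.Agent.FF.CoreIface8 Fermat.Agent.FF.GeomIface8 Fermat.Agent.FF.Theta8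
  Fermat.Agent.FF.Assembly8 Fermat.Agent.M15.ExtAssembly2 Fermat.Agent.M15.ExtAmbient2

section Pt

variable {Γ : Type*} [Group Γ] {EE : Type*} [AddCommGroup EE] [DistribMulAction Γ EE]
variable {Jb : Type*} [AddCommGroup Jb] (red : EE →+ Jb)
variable {M : Type*} [AddCommGroup M] (emb : M →+ EE)

/-- **the invariant lifts `Pt`** (ambient version of `InvLift8.exists_Pt`). -/
theorem exists_PtE
    (hex : ∀ z : EE, ∃ y : EE, red y = red z ∧ ∀ σ : Γ, σ • y = y) :
    ∃ Pt : M → EE, (∀ z, red (Pt z) = red (emb z)) ∧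
      (∀ z z', red (emb z) = red (emb z') → Pt z = Pt z') ∧
      ∀ (σ : Γ) (z : M), σ • Pt z = Pt z := by
  classical
  have hex' : ∀ c : Jb, ∃ y : EE, (c ∈ Set.range red → red y = c) ∧ ∀ σ : Γ, σ • y = y := by
    intro c
    by_cases hc : c ∈ Set.range red
    · obtain ⟨z, rfl⟩ := hc
      obtain ⟨y, hy1, hy2⟩ := hex z
      exact ⟨y, fun _ => hy1, hy2⟩
    · exact ⟨0, fun h => absurd h hc, fun σ => smul_zero σ⟩
  choose lift hl1 hl2 using hex'
  refine ⟨fun z => lift (red (emb z)), fun z => hl1 _ ⟨emb z, rfl⟩, fun z z' h => ?_,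
    fun σ z => hl2 _ σ⟩
  show lift (red (emb z)) = lift (red (emb z'))
  rw [h]

end Pt

variable {K : Type} [Field K] {F : Type} [Field F] [Algebra K F]
variable {A : ValuationSubring K} {g d : ℕ}
variable {Γ : Type*} [Group Γ] [MulSemiringAction Γ K] [DistribMulAction Γ (Pic0 K F)]
variable {Mod : DiscModel A F g d} {hdeg : ∀ (j : Fin d) (t : A), (Mod.P j t).deg = 1}
variable {M' : Type} [AddCommGroup M'] [DistribMulAction Γ M'] {Jb : Type*} [AddCommGroup Jb]

/-- the kernel of the reduction on the ambient group. -/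
noncomputable def kerE (I₀ : ThetaInput Mod hdeg Γ M' Jb) (x : FixedPt Γ (Pic0 K F)) (l : ℕ) :
    AddSubgroup (Amb x l) := I₀.red.ker.map (incl x l)

/-- the reduction on the ambient group: the quotient by the image of `ker red`. -/
noncomputable def redE (I₀ : ThetaInput Mod hdeg Γ M' Jb) (x : FixedPt Γ (Pic0 K F)) (l : ℕ) :
    Amb x l →+ Amb x l ⧸ kerE I₀ x l := QuotientAddGroup.mk' _

theorem redE_eq_zero_iff (I₀ : ThetaInput Mod hdeg Γ M' Jb) (x : FixedPt Γ (Pic0 K F)) (l : ℕ)
    (a : Amb x l) : redE I₀ x l a = 0 ↔ ∃ w : Pic0 K F, I₀.red w = 0 ∧ incl x l w = a := by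
  show (QuotientAddGroup.mk a : Amb x l ⧸ kerE I₀ x l) = 0 ↔ _
  rw [QuotientAddGroup.eq_zero_iff, kerE, AddSubgroup.mem_map]
  constructor
  · rintro ⟨w, hw, rfl⟩
    exact ⟨w, hw, rfl⟩
  · rintro ⟨w, hw, rfl⟩
    exact ⟨w, hw, rfl⟩

theorem redE_eq_iff (I₀ : ThetaInput Mod hdeg Γ M' Jb) (x : FixedPt Γ (Pic0 K F)) (l : ℕ)
    (a b : Amb x l) :
    redE I₀ x l a = redE I₀ x l b ↔ ∃ w : Pic0 K F, I₀.red w = 0 ∧ incl x l w = a - b := by
  rw [← sub_eq_zero, ← map_sub, redE_eq_zero_iff]

/-- **the ambient `ThetaInput` of a Kummer extension module.** -/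
theorem exists_thetaInputE (I₀ : ThetaInput Mod hdeg Γ M' Jb)
    (hex : ∀ z : Pic0 K F, ∃ y : Pic0 K F, I₀.red y = I₀.red z ∧ ∀ σ : Γ, σ • y = y)
    (x : FixedPt Γ (Pic0 K F)) (l : ℕ) (hl : l ≠ 0) :
    ∃ I : ThetaInputE Mod hdeg Γ (Amb x l) ↥(KExt x l) (Amb x l ⧸ kerE I₀ x l),
      I.emb = (KExt x l).subtype ∧ I.red = redE I₀ x l ∧ I.incl = incl x l := by
  -- inertia moves points inside their reduction class
  have hsm : ∀ (σ : Γ) (a : Amb x l), redE I₀ x l (σ • a) = redE I₀ x l a := by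
    intro σ a
    obtain ⟨a, rfl⟩ := mk_surjective x l a
    rw [redE_eq_iff, smul_sub_self]
    exact ⟨σ • a.1 - a.1, by rw [map_sub, I₀.red_smul, sub_self], rfl⟩
  -- invariant lifts on the ambient group
  have hexE : ∀ a : Amb x l, ∃ y : Amb x l, redE I₀ x l y = redE I₀ x l a ∧
      ∀ σ : Γ, σ • y = y := by
    intro a
    obtain ⟨⟨z, k⟩, rfl⟩ := mk_surjective x l a
    obtain ⟨y, hy1, hy2⟩ := hex z
    refine ⟨incl x l y + k • eElt x l, ?_, fun σ => ?_⟩
    · rw [mk_eq, redE_eq_iff]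
      refine ⟨y - z, by rw [map_sub, hy1, sub_self], ?_⟩
      rw [map_sub]
      abel
    · rw [smul_add, ← incl_smul, hy2, smul_comm, smul_eElt]
  obtain ⟨Pt, hPt1, hPt2, hPt3⟩ :=
    exists_PtE (Γ := Γ) (redE I₀ x l) (KExt x l).subtype hexE
  exact ⟨{ hΓA := I₀.hΓA
           incl := incl x l
           incl_inj := incl_injective x l hl
           incl_smul := incl_smul x l
           emb := (KExt x l).subtype
           emb_inj := Subtype.val_injective
           emb_smul := fun σ a => rfl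
           red := redE I₀ x l
           red_smul := hsm
           theta_inj := I₀.theta_inj
           red_theta := fun t ht =>
             (redE_eq_zero_iff I₀ x l _).2 ⟨_, I₀.red_theta t ht, rfl⟩
           theta_surj := fun a ha => by
             obtain ⟨w, hw, rfl⟩ := (redE_eq_zero_iff I₀ x l a).1 ha
             obtain ⟨t, ht, rfl⟩ := I₀.theta_surj w hw
             exact ⟨t, ht, rfl⟩
           theta_smul := I₀.theta_smul
           Pt := Pt
           red_Pt := hPt1
           Pt_congr := hPt2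
           Pt_smul := hPt3 }, rfl, rfl, rfl⟩

end Fermat.Agent.M15.ExtGlue2
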