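/-
Programme M15 (target S15), chapter R3 FLAT (helper2): **(HO) the local Hopf order on the Kummer
extension module** `KExt x l` of an inertia-fixed point `x ∈ J₀(M)`, at a level `M` with a Hauptmodul
base, `ℓ ∤ M`, `A` a place of `ℚ̄` over `ℓ`, for a reduction package `(r, red)`.
-/
import Mathlib
import Fermat.Agent.FF.ConnOrder8
import Fermat.Agent.M15.ExtGlue2

set_option autoImplicit false
set_option synthInstance.maxHeartbeats 400000

open AlgebraicCurve ModularCurve IsLocalRing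

namespace Fermat.Agent.M15.ExtOrder2

open Fermat.Agent.FF.CoreIface8 Fermat.Agent.FF.GeomIface8 Fermat.Agent.FF.Assembly8
  Fermat.Agent.FF.InertiaWire8 Fermat.Agent.FF.OrderCoordD Fermat.Agent.FF.HopfOrderB
  Fermat.Agent.FF.HopfOrderC Fermat.Agent.FF.AssemblyQb8 Fermat.Agent.FF.SubOrd1
  Fermat.Agent.FF.ConnOrder8 Fermat.Agent.M15.ExtAssembly2 Fermat.Agent.M15.ExtAmbient2
  Fermat.Agent.M15.ExtGlue2

section Abstract

universe v

variable {A : ValuationSubring Qb} {F : Type*} [Field F] [Algebra Qb F] {g d : ℕ}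
variable [DistribMulAction (Iner A) (Pic0 Qb F)]
variable {Mod : DiscModel A F g d} {hdeg : ∀ (j : Fin d) (t : A), (Mod.P j t).deg = 1}
variable {EE : Type*} [AddCommGroup EE] [DistribMulAction (Iner A) EE]
variable {M : Type} [AddCommGroup M] [Finite M] [DistribMulAction (Iner A) M]
variable {Jb : Type*} [AddCommGroup Jb]
variable {V : Type v} [AddCommGroup V] [Module A V] {D : CoreData A V g d}

/-- **ASSEMBLY over `ℚ̄`, ambient version.** -/
theorem order_main_QbE (I : ThetaInputE Mod hdeg (Iner A) EE M Jb) {ℓ : ℕ} (hℓ : ℓ.Prime)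
    (hA : A.LiesOverPrime ℓ)
    (hcf : ClosedFibre D (IsLocalRing.ResidueField A)) (L : LatticeModel Mod D)
    (hdisj : ∀ (j j' : Fin d) (t t' : A), t ∈ maximalIdeal A → t' ∈ maximalIdeal A →
      Mod.P j t = Mod.P j' t' → j = j') :
    (∀ h ∈ order (W0 A) I.M0 I.x, IsEquivariantFun (Iner A) h) ∧
    (∀ h ∈ order (W0 A) I.M0 I.x, ∀ z, h z ∈ A) ∧
    (Subalgebra.toSubmodule (order (W0 A) I.M0 I.x)).FG ∧
    (∀ z z' : M, (∀ f ∈ order (W0 A) I.M0 I.x, f z = f z') → z = z') ∧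
    ∀ s ∈ genSet I.M0 I.x, HasCoprod (order (W0 A) I.M0 I.x) s :=
  I.order_main_of_thetaE (isFixedRing_W0 A) ((ℓ : ℕ) : A) (hrank hℓ hA) (hℓm hℓ hA) hcf L hdisj

/-- the coordinate order of a `ThetaInputE` over `ℚ̄` is a Hopf order over `(W₀, Γ)`. -/
theorem isHopfOrder_orderE (I : ThetaInputE Mod hdeg (Iner A) EE M Jb) {ℓ : ℕ} (hℓ : ℓ.Prime)
    (hA : A.LiesOverPrime ℓ)
    (hcf : ClosedFibre D (IsLocalRing.ResidueField A)) (L : LatticeModel Mod D)
    (hdisj : ∀ (j j' : Fin d) (t t' : A), t ∈ maximalIdeal A → t' ∈ maximalIdeal A →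
      Mod.P j t = Mod.P j' t' → j = j') :
    IsHopfOrder (Iner A) (order (W0 A) I.M0 I.x) := by
  obtain ⟨h1, -, h3, h4, h5⟩ := order_main_QbE I hℓ hA hcf L hdisj
  exact ⟨Module.Finite.iff_fg.2 h3, h1, h4, ⟨genSet I.M0 I.x, rfl, h5⟩⟩

omit [Finite M] in
/-- integrality and relative connectedness of the coordinate order of a `ThetaInputE`. -/
theorem order_connectedE (I : ThetaInputE Mod hdeg (Iner A) EE M Jb) {h : M → Qb}
    (hh : h ∈ order (W0 A) I.M0 I.x) :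
    (∀ z, h z ∈ A) ∧
      ∀ z z' : M, I.red (I.emb z) = I.red (I.emb z') → h z - h z' ∈ A.nonunits := by
  obtain ⟨h1, h2⟩ := order_sub_mem_nonunits I.M0 I.x I.x_mem hh
  exact ⟨h1, fun z z' hzz' => h2 z z' (I.sub_mem_M0.2 hzz')⟩

end Abstract

section Level

open Fermat.Agent.FF.S19Wire1 Fermat.Agent.FF.SpecRR1 Fermat.Agent.RED.Interface4
  Fermat.Agent.FF.GaussOv1 Fermat.Agent.ES.RED Fermat.Agent.FF.Shapes8 Fermat.Agent.RED.BASE
  Fermat.Agent.RED.BASE.Hauptmodul12 Fermat.Agent.RR.LSpace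

set_option maxHeartbeats 6400000 in
/-- invariant lifts of the reductions of ALL classes, at a level with a Hauptmodul base. -/
theorem hex_of_level (ℓ : ℕ) [Fact ℓ.Prime] (n e M : ℕ) [NeZero n] [NeZero M]
    (hmem : Fermat.Agent.RED.BASE.Interface12.TMem n e M)
    (hgen : Fermat.Agent.RED.BASE.Interface12.TGenBase n e) (hℓM : ¬ ℓ ∣ M)
    (A : ValuationSubring Qb) (hA : A.LiesOverPrime ℓ)
    (r : PlF M → PlB A M) (hr : IsPlaceReductionModL A M r)
    {Jb : Type*} [AddCommGroup Jb] (red : JZero M →+ Jb)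
    (hred : ∀ D : Divisor.degZero (K := Qbar) (F := ↥(Fbar M)),
      red (Pic0.mk D) = 0 ↔ Finsupp.mapDomain r (D : Divisor Qbar ↥(Fbar M)) ∈
        Divisor.principal (K := Setup8.kA A)
          (F := ↥(modularFunctionFieldFullC (Setup8.kA A) M)))
    {D₀ : Divisor (Setup8.kA A) ↥(modularFunctionFieldFullC (Setup8.kA A) M)}
    (h0 : delta (genusFF Qbar ↥(Fbar M) : ℤ) D₀ = 0)
    (Sbad : Finset (PlB A M)) (P₁ : PlB A M) (hP₁ : P₁ ∉ Sbad)
    (hlift : ∀ Qb, Qb ∉ Sbad → ∃ Q : PlF M, r Q = Qb ∧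
      ∀ τ ∈ A.inertiaSubgroupIn ℚ, gal M τ • Q = Q) (z : JZero M) :
    ∃ y : JZero M, red y = red z ∧ ∀ σ : Iner A, σ • y = y := by
  have : IsAlgClosed (Setup8.kA A) := Fermat.Agent.ES.RED.SpecialInv25.isAlgClosed_kk A
  have : Infinite (Setup8.kA A) := IsAlgClosed.instInfinite
  have HL : LHyp Qbar ↥(Fbar M) := Fermat.Agent.FF.SpecialRR6.lHyp_bar n e M hmem
  have HLb : LHyp (Setup8.kA A) ↥(modularFunctionFieldFullC (Setup8.kA A) M) :=
    Fermat.Agent.FF.SpecialRR6.lHyp_special n e M ℓ hℓM hmem hgen A hA r hr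
  obtain ⟨y, hy1, hy2⟩ := Fermat.Agent.FF.InvLift8.exists_invariant_lift
    (fun σ : Iner A => (arithmeticGalois (modularFunctionFieldFull M)
      (σ : Fermat.Agent.FF.InertiaWire8.GQ) : SemilinearAut Qbar ↥(Fbar M)))
    r HL HLb (genusFF Qbar ↥(Fbar M) : ℤ)
    (Fermat.Agent.FF.ConcreteB8.hRb_FF n e M ℓ hℓM hmem hgen A hA r hr) red hred h0 Sbad P₁ hP₁
    (fun Qb hQb => by
      obtain ⟨Q, hQ, hQI⟩ := hlift Qb hQb
      exact ⟨Q, hQ, fun σ => hQI σ.1 σ.2⟩) z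
  exact ⟨y, hy1, fun σ => hy2 σ⟩

set_option maxHeartbeats 1600000 in
/-- **(HO) at a level `M` with a Hauptmodul base, `ℓ ∤ M`**: for every reduction package `(r, red)`
at a valuation subring `A` of `ℚ̄` over `ℓ`, every inertia-fixed point `x` of `J₀(M)` and every
`l ≠ 0`, the Kummer extension module `KExt x l` carries a Hopf order `H` over `(W₀ A, Iner A)` with
values in `A` such that `h a - h a' ∈ 𝔪_A` whenever `a - a'` comes from `ker red`. -/
theorem exists_connOrder_kext (ℓ : ℕ) [Fact ℓ.Prime] (n e M : ℕ) [NeZero n] [NeZero M]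
    (hb : BaseHyp n e) (hnM : n ∣ M) (hℓM : ¬ ℓ ∣ M)
    (A : ValuationSubring Qb) (hA : A.LiesOverPrime ℓ)
    (r : PlF M → PlB A M) (hr : IsPlaceReductionModL A M r) (hrI : InertiaInv A M r)
    {Jb : Type*} [AddCommGroup Jb] (red : JZero M →+ Jb)
    (hred : ∀ D : Divisor.degZero (K := Qbar) (F := ↥(Fbar M)),
      red (Pic0.mk D) = 0 ↔ Finsupp.mapDomain r (D : Divisor Qbar ↥(Fbar M)) ∈
        Divisor.principal (K := Setup8.kA A)
          (F := ↥(modularFunctionFieldFullC (Setup8.kA A) M)))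
    (hredI : ∀ τ ∈ A.inertiaSubgroupIn ℚ, ∀ z : JZero M, red (τ • z) = red z)
    (x : FixedPt (Iner A) (JZero M)) (l : ℕ) (hl : l ≠ 0)
    (hfin : {z : JZero M | l • z = 0}.Finite) :
    ∃ H : Subalgebra (W0 A) (↥(KExt x l) → Qb),
      IsHopfOrder (Iner A) H ∧ (∀ h ∈ H, ∀ a, h a ∈ A) ∧
      ∀ h ∈ H, ∀ a a' : ↥(KExt x l),
        (∃ w : JZero M, red w = 0 ∧ incl x l w = (a : Amb x l) - (a' : Amb x l)) →
        h a - h a' ∈ A.nonunits := by
  have hℓ : ℓ.Prime := Fact.out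
  have hmem := tMem_of_dvd hb hnM
  have hgen := tGenBase' hb
  obtain ⟨D₀, h0⟩ :=
    Fermat.Agent.FF.SpecialRR6.exists_delta_eq_zero_base n e M ℓ hℓM A hA hb hnM r hr
  have h0' : delta (genusFF Qbar ↥(Fbar M) : ℤ) D₀ = 0 := by
    rw [← Fermat.Agent.FF.ConcreteB8.genus_eq n e M hmem]
    exact h0
  obtain ⟨m, φ, Pb, hinj, hPb, hnp, hφ, hell, hφI, hzero, -, Sbad, P₁, hP₁, hlift⟩ :=
    Fermat.Agent.FF.ChooseInst1.exists_choose_data n e M ℓ hℓM hmem hgen A hA r hr hrI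
      (genusFF Qbar ↥(Fbar M)) (Fermat.Agent.FF.ConcreteB8.hRb_FF n e M ℓ hℓM hmem hgen A hA r hr) h0'
  have hch : ChooseShape A M ℓ hA hℓM r (genusFF Qbar ↥(Fbar M)) :=
    ⟨m, φ, Pb, hinj, hPb, hnp, hφ, hell, hφI, hzero, Sbad, P₁, hP₁, hlift⟩
  obtain ⟨d, Mod, nV, D, HL, ⟨I₀, -, hI2⟩, hcf, ⟨L⟩, hdisj⟩ :=
    Fermat.Agent.FF.ConnPack8.package_of_level_with n e M ℓ hℓM hmem hgen A hA 0 r hr
      hrI red hred hredI ⟨D₀, h0⟩ hch
  have hex : ∀ z : JZero M, ∃ y : JZero M, I₀.red y = I₀.red z ∧ ∀ σ : Iner A, σ • y = y := by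
    intro z
    rw [hI2]
    exact hex_of_level ℓ n e M hmem hgen hℓM A hA r hr red hred h0' Sbad P₁ hP₁ hlift z
  obtain ⟨I, hI1, hIr, hIi⟩ := exists_thetaInputE I₀ hex x l hl
  have := finite_KExt x l hl hfin
  refine ⟨order (W0 A) I.M0 I.x, isHopfOrder_orderE I hℓ hA hcf L hdisj,
    fun h hh => (order_connectedE I hh).1, fun h hh a a' haa' => (order_connectedE I hh).2 a a' ?_⟩
  rw [hI1, hIr, redE_eq_iff]
  obtain ⟨w, hw, hwa⟩ := haa'
  exact ⟨w, by rw [hI2]; exact hw, hwa⟩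

end Level

end Fermat.Agent.M15.ExtOrder2
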