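/-
Programme M15 (target S15), chapter R3 FLAT (helper2): **(HO) at level `p`**: the Kummer extension
module `KExt x l` of an inertia-fixed point `x ∈ J₀(p)`, `ℓ ∤ p`, carries a Hopf order over
`(W₀ A, Iner A)` which is connected relative to `Φ = red ∘ π^*` (`π^*` the pullback to the auxiliary
level `auxLevel ℓ p`, where the reduction theory lives).
-/
import Mathlib
import Fermat.Agent.ES.RED.PullbackInj12
import Fermat.Agent.M15.ExtOrder2
import Fermat.Agent.M15.ExtMap2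

set_option autoImplicit false
set_option synthInstance.maxHeartbeats 400000

open AlgebraicCurve ModularCurve IsLocalRing

namespace Fermat.Agent.M15.ExtFinal2

open Fermat.Agent.FF.InertiaWire8 Fermat.Agent.FF.HopfOrderB Fermat.Agent.FF.HopfOrderC
  Fermat.Agent.FF.SubOrd1 Fermat.Agent.M15.ExtAmbient2 Fermat.Agent.M15.ExtMap2
  Fermat.Agent.M15.ExtOrder2 Fermat.Agent.RED.Interface4 Fermat.Agent.FF.GaussOv1
  Fermat.Agent.ES.RED Fermat.Agent.FF.Shapes8 Fermat.Agent.FF.SpecRR1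
  Fermat.Agent.ES.HECKE.LevelPullback12 Fermat.Agent.ES.RED.PullbackInj12

set_option maxHeartbeats 1600000 in
/-- **(HO) at level `p`.** -/
theorem exists_connOrder_kext_aux (p : ℕ) [NeZero p] (ℓ : ℕ) [Fact ℓ.Prime] (hℓp : ¬ ℓ ∣ p)
    [NeZero (auxLevel ℓ p)]
    (A : ValuationSubring Qb) (hA : A.LiesOverPrime ℓ)
    (r : PlF (auxLevel ℓ p) → PlB A (auxLevel ℓ p))
    (hr : IsPlaceReductionModL A (auxLevel ℓ p) r) (hrI : InertiaInv A (auxLevel ℓ p) r)
    {Jb : Type*} [AddCommGroup Jb] (red : JZero (auxLevel ℓ p) →+ Jb)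
    (hred : ∀ D : Divisor.degZero (K := Qbar) (F := ↥(Fbar (auxLevel ℓ p))),
      red (Pic0.mk D) = 0 ↔
        Finsupp.mapDomain r (D : Divisor Qbar ↥(Fbar (auxLevel ℓ p))) ∈
        Divisor.principal (K := Setup8.kA A)
          (F := ↥(modularFunctionFieldFullC (Setup8.kA A) (auxLevel ℓ p))))
    (hredI : ∀ τ ∈ A.inertiaSubgroupIn ℚ, ∀ z : JZero (auxLevel ℓ p), red (τ • z) = red z)
    (x : FixedPt (Iner A) (JZero p)) (l : ℕ) (hl : l ≠ 0) :
    ∃ H : Subalgebra (W0 A) (↥(KExt x l) → Qb),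
      IsHopfOrder (Iner A) H ∧ (∀ h ∈ H, ∀ a, h a ∈ A) ∧
      ∀ h ∈ H, ∀ a a' : ↥(KExt x l),
        (∃ w : JZero p, red (levelPullback (dvd_auxLevel ℓ p) w) = 0 ∧
          incl x l w = (a : Amb x l) - (a' : Amb x l)) →
        h a - h a' ∈ A.nonunits := by
  have hℓ : ℓ.Prime := Fact.out
  have : NeZero l := ⟨hl⟩
  obtain ⟨n, e, hn, hb, hnM⟩ := Fermat.Agent.FF.RedConcrete5.exists_base_auxLevel ℓ p
  -- the pullback, as an `Iner A`-equivariant map
  set f : JZero p →+ JZero (auxLevel ℓ p) := levelPullback (dvd_auxLevel ℓ p) with hfdef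
  have hf : ∀ (σ : Iner A) (z : JZero p), f (σ • z) = σ • f z := fun σ z =>
    levelPullback_smul (dvd_auxLevel ℓ p) (σ : GQ) z
  obtain ⟨H, hH, hHA, hHc⟩ := exists_connOrder_kext ℓ n e (auxLevel ℓ p) hb hnM
    (not_dvd_auxLevel hℓ hℓp) A hA r hr hrI red hred hredI (mapPt f hf x) l hl
    (Fermat.Agent.ES.KUM.FiniteTorsion15.finite_setOf_nsmul_eq_zero (auxLevel ℓ p) l)
  have hinj : Function.Injective (kextMap f hf x l) :=
    kextMap_injective f hf x l hl (fun z hz hfz =>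
      levelPullback_auxLevel_eq_zero ℓ p l (Nat.pos_of_ne_zero hl) z hz hfz)
  refine ⟨comapOrder H (kextMap f hf x l), hH.comap (kextMap f hf x l) hinj
    (kextMap_smul f hf x l), ?_, ?_⟩
  · rintro _ ⟨h, hh, rfl⟩ a
    exact hHA h hh _
  · rintro _ ⟨h, hh, rfl⟩ a a' ⟨w, hw, hwa⟩
    refine hHc h hh _ _ ⟨f w, hw, ?_⟩
    rw [coe_kextMap, coe_kextMap, ← map_sub, ← hwa, ambMap_incl]

end Fermat.Agent.M15.ExtFinal2
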