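/-
Programme M15 (target S15), chapter R3 FLAT (helper2): functoriality of the ambient group and of the
Kummer extension module under an equivariant homomorphism `f : P → P'` which is injective on
`l`-torsion (in the application: the level pullback `π^* : J₀(p) → J₀(aux)`).
-/
import Mathlib
import Fermat.Agent.M15.ExtAmbient2

set_option autoImplicit false

namespace Fermat.Agent.M15.ExtMap2

open Fermat.Agent.M15.ExtAmbient2

variable {Γ : Type*} [Group Γ] {P P' : Type*} [AddCommGroup P] [AddCommGroup P']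
  [DistribMulAction Γ P] [DistribMulAction Γ P']
variable (f : P →+ P') (hf : ∀ (σ : Γ) (z : P), f (σ • z) = σ • f z)

/-- the image of a fixed point. -/
def mapPt (x : FixedPt Γ P) : FixedPt Γ P' :=
  ⟨f x.val, fun σ => by rw [← hf, x.fixed]⟩

variable (x : FixedPt Γ P) (l : ℕ)

theorem rel_le_comap_map :
    rel x l ≤ (rel (mapPt f hf x) l).comap (f.prodMap (AddMonoidHom.id ℤ)) := by
  intro a ha
  rw [rel, AddSubgroup.mem_zmultiples_iff] at ha
  obtain ⟨n, rfl⟩ := ha
  rw [AddSubgroup.mem_comap, map_zsmul]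
  exact AddSubgroup.zsmul_mem _ (AddSubgroup.mem_zmultiples _) n

/-- the induced map on ambient groups. -/
def ambMap : Amb x l →+ Amb (mapPt f hf x) l :=
  QuotientAddGroup.map (rel x l) (rel (mapPt f hf x) l) (f.prodMap (AddMonoidHom.id ℤ))
    (rel_le_comap_map f hf x l)

theorem ambMap_mk (a : P × ℤ) : ambMap f hf x l (mk x l a) = mk (mapPt f hf x) l (f a.1, a.2) := rfl

theorem ambMap_incl (z : P) : ambMap f hf x l (incl x l z) = incl (mapPt f hf x) l (f z) := rfl

theorem ambMap_smul (σ : Γ) (a : Amb x l) : ambMap f hf x l (σ • a) = σ • ambMap f hf x l a := by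
  obtain ⟨a, rfl⟩ := mk_surjective x l a
  rw [smul_mk, ambMap_mk, ambMap_mk, smul_mk, hf]

/-- the induced map on Kummer extension modules. -/
def kextMap : ↥(KExt x l) →+ ↥(KExt (mapPt f hf x) l) where
  toFun a := ⟨ambMap f hf x l (a : Amb x l), by
    rw [mem_KExt, ← map_nsmul, (mem_KExt x l).1 a.2, map_zero]⟩
  map_zero' := Subtype.ext (map_zero (ambMap f hf x l))
  map_add' a b := Subtype.ext (map_add (ambMap f hf x l) (a : Amb x l) (b : Amb x l))

theorem coe_kextMap (a : ↥(KExt x l)) :
    ((kextMap f hf x l a : ↥(KExt (mapPt f hf x) l)) : Amb (mapPt f hf x) l) =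
      ambMap f hf x l (a : Amb x l) := rfl

theorem kextMap_smul (σ : Γ) (a : ↥(KExt x l)) :
    kextMap f hf x l (σ • a) = σ • kextMap f hf x l a :=
  Subtype.ext (ambMap_smul f hf x l σ (a : Amb x l))

/-- the induced map on Kummer extension modules is injective when `f` is injective on
`l`-torsion. -/
theorem kextMap_injective (hl : l ≠ 0) (hinj : ∀ z : P, l • z = 0 → f z = 0 → z = 0) :
    Function.Injective (kextMap f hf x l) := by
  rw [injective_iff_map_eq_zero]
  rintro ⟨a, ha⟩ h0
  apply Subtype.ext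
  show a = 0
  have h1 : ambMap f hf x l a = 0 := congrArg Subtype.val h0
  obtain ⟨⟨z, k⟩, rfl⟩ := mk_surjective x l a
  rw [ambMap_mk, mk_eq_zero_iff] at h1
  obtain ⟨n, hn⟩ := h1
  have hk : k = -(n * l) := congrArg Prod.snd hn
  have hz : f z = n • f x.val := congrArg Prod.fst hn
  -- `l • mk (z, k) = 0` gives `l z = m x`, `l k = - m l`
  rw [mem_KExt, ← map_nsmul, mk_eq_zero_iff] at ha
  obtain ⟨m, hm⟩ := ha
  have hm1 : l • z = m • x.val := congrArg Prod.fst hm
  have hm2 : l • k = -(m * l) := congrArg Prod.snd hm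
  have hlZ : (l : ℤ) ≠ 0 := Nat.cast_ne_zero.2 hl
  have hmn : m = n * l := by
    have h3 : (l : ℤ) * k = -(m * l) := by rw [← hm2, nsmul_eq_mul]
    rw [hk] at h3
    have h4 : (l : ℤ) * (m - n * l) = 0 := by linear_combination h3
    rcases mul_eq_zero.1 h4 with h | h
    · exact absurd h hlZ
    · linarith
  -- `z - n x` is `l`-torsion and killed by `f`
  have ht : l • (z - n • x.val) = 0 := by
    rw [smul_sub, hm1, hmn, smul_comm, mul_smul, natCast_zsmul, sub_self]
  have hfz : f (z - n • x.val) = 0 := by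
    rw [map_sub, map_zsmul, hz, sub_self]
  have hzn : z = n • x.val := sub_eq_zero.1 (hinj _ ht hfz)
  rw [mk_eq_zero_iff]
  exact ⟨n, by rw [hzn, hk]⟩

end Fermat.Agent.M15.ExtMap2
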