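/-
M15 / the last mile (lead): **`S15Statement` from the named open items**, with the hypotheses in the
literal shapes consumed by the landed assemblies

* `Assemble9.s15_of_open` (helper9): S15 from `HeckeStable p` (= W3) and `SharpDescentAll p hp`;
* `FlatOdd2.sharpDescent_odd` (helper2): (SD) at an odd `ℓ ∣ ord c₀` from labelled (JH) chains with at
  least `k · lam` trivial pieces and R2's `ToricBound … lam`;
* `FlatFinal2.sharpDescent_two` (helper2): (SD) at `2 ∣ ord c₀` from (JH) chains, (HALF-c)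
  `rank Λ = 2 lam`, `rank Λ⁻ ≤ lam` and R2's `ToricBound … lam`.

`InputsOdd`, `InputsTwo` are these hypotheses, bundled; `sharpDescentAll` and `s15_of_inputs` are the
glue.  The bridge `chainsOdd_of_jhChain` turns the bundled chains `SDOdd0.JHChain` into the
existential shape of `FlatOdd2`.  Imported by no statement.
-/
import Mathlib
import Fermat.Agent.M15.Assemble9
import Fermat.Agent.M15.FlatOdd2
import Fermat.Agent.M15.FlatFinal2
import Fermat.Agent.M15.SDOdd0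

set_option autoImplicit false
set_option linter.unusedSectionVars false
set_option linter.unusedVariables false
set_option linter.style.haveILetI false
set_option synthInstance.maxHeartbeats 400000

open CategoryTheory ExtCitation AlgebraicCurve ModularCurve Module

namespace Fermat.Agent.M15.Final0

open Fermat.Agent.PT.PRO Fermat.Agent.PT.BR Fermat.Agent.W56.Defs9
open Fermat.Agent.M15.Contracts9 Fermat.Agent.M15.KumLoc6 Fermat.Agent.M15.KumRep6
  Fermat.Agent.M15.KumMap6 Fermat.Agent.M15.KumInst6 Fermat.Agent.M15.KumJ6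
  Fermat.Agent.M15.DevDefs5 Fermat.Agent.M15.DevChain5 Fermat.Agent.M15.ToricTate3
  Fermat.Agent.M15.CuspTors0 Fermat.Agent.M15.Assemble9

local notation "Γ" => (AlgebraicClosure ℚ ≃ₐ[ℚ] AlgebraicClosure ℚ)
local notation "Qbar" => AlgebraicClosure ℚ

noncomputable section

section Level

variable (p : ℕ) [NeZero p] (hp : p.Prime) (P0 Pinf : Pl p) (hcusp : CuspFacts p P0 Pinf)

/-- **(JH) + (JH-count) at an odd `ℓ`**, in the shape of `FlatOdd2.sharpDescent_odd`: at every level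
`k` a chain of stable submodules of `W_k` with pieces of order `ℓ`, labelled trivial / embedded in
`ℚ̄ˣ`, with at least `k · lam` trivial pieces. -/
def ChainsOdd (ℓ : ℕ) [Fact ℓ.Prime] (hℓd : ℓ ∣ addOrderOf (cl p P0 Pinf)) (lam : ℕ) : Prop :=
  ∀ k : ℕ, ∃ (n : ℕ) (F : Fin (n + 1) → Submodule ℤ (Wk p P0 Pinf hcusp ℓ hp hℓd k))
    (_ : Monotone F) (hst : ∀ i, IsStable (Wk p P0 Pinf hcusp ℓ hp hℓd k) (F i))
    (triv : Fin n → Prop) (_ : DecidablePred triv),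
    F 0 = ⊥ ∧ F (Fin.last n) = ⊤ ∧
    (∀ i : Fin n, Nat.card
      (pieceRep (Wk p P0 Pinf hcusp ℓ hp hℓd k) (F i.castSucc) (F i.succ) (hst _) (hst _)) = ℓ) ∧
    (∀ i : Fin n, triv i → ∀ (σ : Γ)
      (m : pieceRep (Wk p P0 Pinf hcusp ℓ hp hℓd k) (F i.castSucc) (F i.succ) (hst _) (hst _)),
      (pieceRep (Wk p P0 Pinf hcusp ℓ hp hℓd k) (F i.castSucc) (F i.succ) (hst _) (hst _)).ρ σ m
        = m) ∧
    (∀ i : Fin n, ¬ triv i →
      ∃ j : pieceRep (Wk p P0 Pinf hcusp ℓ hp hℓd k) (F i.castSucc) (F i.succ) (hst _) (hst _) →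
          Qbarˣ,
        Function.Injective j ∧ (∀ a b, j (a + b) = j a * j b) ∧
        ∀ (σ : Γ) (m : pieceRep (Wk p P0 Pinf hcusp ℓ hp hℓd k) (F i.castSucc) (F i.succ)
            (hst _) (hst _)),
          ((j ((pieceRep (Wk p P0 Pinf hcusp ℓ hp hℓd k) (F i.castSucc) (F i.succ) (hst _)
            (hst _)).ρ σ m) : Qbarˣ) : Qbar) = σ ((j m : Qbarˣ) : Qbar)) ∧
    k * lam ≤ (Finset.univ.filter triv).card

/-- the bundled chains of `SDOdd0` give `ChainsOdd`. -/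
theorem chainsOdd_of_jhChain (ℓ : ℕ) [Fact ℓ.Prime] (hℓd : ℓ ∣ addOrderOf (cl p P0 Pinf))
    (lam : ℕ)
    (h : ∀ k : ℕ, ∃ c : Fermat.Agent.M15.SDOdd0.JHChain ℓ (Wk p P0 Pinf hcusp ℓ hp hℓd k),
      k * lam ≤ c.numTriv) :
    ChainsOdd p hp P0 Pinf hcusp ℓ hℓd lam := by
  intro k
  obtain ⟨c, hc⟩ := h k
  refine ⟨c.n, c.F, c.mono, c.st, fun i => c.lab i = true, inferInstance, c.bot, c.top, c.card,
    fun i hi => c.triv i hi, fun i hi => c.mu i (by simpa using hi), ?_⟩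
  have : (Finset.univ.filter fun i : Fin c.n => c.lab i = true).card = c.numTriv := by
    unfold Fermat.Agent.M15.SDOdd0.JHChain.numTriv
    rw [Finset.card_filter]
  rw [this]
  exact hc

/-- **the open inputs of (SD) at an odd `ℓ`**: (JH) chains with the count, and R2's toric bound, for
one and the same `lam`. -/
def InputsOdd (ℓ : ℕ) [Fact ℓ.Prime] (hℓd : ℓ ∣ addOrderOf (cl p P0 Pinf)) : Prop :=
  ∃ lam : ℕ, ChainsOdd p hp P0 Pinf hcusp ℓ hℓd lam ∧
    ToricBound (JZero p) (epsChar p P0 Pinf hcusp ℓ hp hℓd) ⟨p, hp⟩ lam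

/-- **(JH) at `ℓ = 2`**, in the shape of `FlatFinal2.sharpDescent_two`. -/
def ChainsTwo (h2 : 2 ∣ addOrderOf (cl p P0 Pinf)) : Prop :=
  ∀ k : ℕ, ∃ (n : ℕ) (F : Fin (n + 1) → Submodule ℤ (Wk p P0 Pinf hcusp 2 hp h2 k))
    (_ : Monotone F) (hst : ∀ i, IsStable (Wk p P0 Pinf hcusp 2 hp h2 k) (F i)),
    F 0 = ⊥ ∧ F (Fin.last n) = ⊤ ∧ ∀ i : Fin n, Nat.card
      (pieceRep (Wk p P0 Pinf hcusp 2 hp h2 k) (F i.castSucc) (F i.succ) (hst _) (hst _)) = 2

/-- **the open inputs of (SD) at `ℓ = 2`**: (HALF-c) `rank Λ = 2 lam`, `rank Λ⁻ ≤ lam`, (JH) chains,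
and R2's toric bound. -/
def InputsTwo (h2 : 2 ∣ addOrderOf (cl p P0 Pinf)) : Prop :=
  ∃ lam : ℕ,
    finrank ℤ_[2] (Lam (JZero p) (epsChar p P0 Pinf hcusp 2 hp h2)) = 2 * lam ∧
    finrank ℤ_[2] ↥(LinearMap.ker
      (rhoLam (JZero p) (epsChar p P0 Pinf hcusp 2 hp h2) complexConjugation + 1)) ≤ lam ∧
    ChainsTwo p hp P0 Pinf hcusp h2 ∧
    ToricBound (JZero p) (epsChar p P0 Pinf hcusp 2 hp h2) ⟨p, hp⟩ lam

include hp hcusp in
/-- a prime divisor of the order of `c₀` is smaller than `p`. -/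
theorem ne_of_dvd_order {ℓ : ℕ} (hℓ : ℓ.Prime) (hℓd : ℓ ∣ addOrderOf (cl p P0 Pinf)) : ℓ ≠ p := by
  have h1 : addOrderOf (cl p P0 Pinf) ∣ p - 1 := addOrderOf_dvd_of_nsmul_eq_zero hcusp.tors
  have h2 : ℓ ∣ p - 1 := hℓd.trans h1
  have hp2 := hp.two_le
  have h3 : ℓ ≤ p - 1 := Nat.le_of_dvd (by omega) h2
  omega

/-- **(SD) at every prime divisor of the order of `c₀`** from the inputs. -/
theorem sharpDescent_of_inputs (hp2 : p ≠ 2)
    (hodd : ∀ (ℓ : ℕ) [Fact ℓ.Prime] (hℓd : ℓ ∣ addOrderOf (cl p P0 Pinf)), ℓ ≠ 2 →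
      InputsOdd p hp P0 Pinf hcusp ℓ hℓd)
    (htwo : ∀ h2 : 2 ∣ addOrderOf (cl p P0 Pinf), InputsTwo p hp P0 Pinf hcusp h2)
    (p' : ℕ) (hp' : p'.Prime) (hd : p' ∣ addOrderOf (cl p P0 Pinf)) :
    SharpDescent p P0 Pinf p' := by
  by_cases h : p' = 2
  · subst h
    obtain ⟨lam, hrank, hneg, hJH, hTB⟩ := htwo hd
    exact Fermat.Agent.M15.FlatFinal2.sharpDescent_two p hp P0 Pinf hcusp hd hp2 lam hrank hneg
      hJH hTB
  · haveI : Fact p'.Prime := ⟨hp'⟩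
    obtain ⟨lam, hJH, hTB⟩ := hodd p' hd h
    exact Fermat.Agent.M15.FlatOdd2.sharpDescent_odd p hp P0 Pinf hcusp p' hd h
      (ne_of_dvd_order p hp P0 Pinf hcusp hp' hd) lam hJH hTB

end Level

/-- **S15 from the named open items**: (RED-T) = W3, and at every prime `ℓ` dividing the order of
`c₀ = (0) - (∞)` in `J₀(p)`: (JH) chains [+ count for `ℓ` odd, + (HALF-c) for `ℓ = 2`] and R2's toric
bound. -/
theorem s15_of_inputs
    (hT : ∀ (p : ℕ) (hp : p.Prime), p ∉ ({2, 3, 5, 7, 13} : Finset ℕ) →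
      haveI : NeZero p := ⟨hp.ne_zero⟩; HeckeStable p)
    (hodd : ∀ (p : ℕ) (hp : p.Prime) (hp' : p ∉ ({2, 3, 5, 7, 13} : Finset ℕ)),
      haveI : NeZero p := ⟨hp.ne_zero⟩
      ∀ (ℓ : ℕ) [Fact ℓ.Prime] (hℓd : ℓ ∣ addOrderOf (cl p (P0 p hp) (Pinf p))), ℓ ≠ 2 →
        InputsOdd p hp (P0 p hp) (Pinf p) (Fermat.Agent.M15.CuspEigen9.cuspFacts p hp hp') ℓ hℓd)
    (htwo : ∀ (p : ℕ) (hp : p.Prime) (hp' : p ∉ ({2, 3, 5, 7, 13} : Finset ℕ)),
      haveI : NeZero p := ⟨hp.ne_zero⟩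
      ∀ h2 : 2 ∣ addOrderOf (cl p (P0 p hp) (Pinf p)),
        InputsTwo p hp (P0 p hp) (Pinf p) (Fermat.Agent.M15.CuspEigen9.cuspFacts p hp hp') h2) :
    S15Statement :=
  s15_of_open hT fun p hp hp' =>
    haveI : NeZero p := ⟨hp.ne_zero⟩
    fun p' hp'prime hd =>
      sharpDescent_of_inputs p hp (P0 p hp) (Pinf p)
        (Fermat.Agent.M15.CuspEigen9.cuspFacts p hp hp')
        (fun h => hp' (by simp [h])) (hodd p hp hp') (htwo p hp hp') p' hp'prime hd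

end

end Fermat.Agent.M15.Final0
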