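/-
Programme M15 (target S15), chapter R3 FLAT (helper2): group actions on stable subgroups and on
quotients by stable subgroups; the Hopf order on a subquotient (`comap` + `quotient` at
`(W₀ A, Iner A)`).
-/
import Mathlib
import Fermat.Agent.FF.SubOrd1
import Fermat.Agent.FF.QuotOrd4D
import Fermat.Agent.T33.WZero2

set_option autoImplicit false
set_option linter.unusedSectionVars false
set_option linter.style.haveILetI false

namespace Fermat.Agent.M15.FlatAct2

section Act

variable {Γ : Type*} [Group Γ] {M : Type*} [AddCommGroup M] [DistribMulAction Γ M]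

/-- the action on a stable subgroup. -/
@[instance_reducible]
def subAction (S : AddSubgroup M) (hS : ∀ σ : Γ, ∀ a ∈ S, σ • a ∈ S) : DistribMulAction Γ ↥S where
  smul σ a := ⟨σ • (a : M), hS σ a a.2⟩
  one_smul a := Subtype.ext (one_smul Γ (a : M))
  mul_smul σ τ a := Subtype.ext (mul_smul σ τ (a : M))
  smul_zero σ := Subtype.ext (smul_zero σ)
  smul_add σ a b := Subtype.ext (smul_add σ (a : M) (b : M))

theorem coe_subAction_smul (S : AddSubgroup M) (hS : ∀ σ : Γ, ∀ a ∈ S, σ • a ∈ S) (σ : Γ) (a : ↥S) :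
    letI := subAction S hS
    ((σ • a : ↥S) : M) = σ • (a : M) := rfl

/-- one element acting on the quotient by a stable subgroup. -/
def quotSmul (N : AddSubgroup M) (hN : ∀ σ : Γ, ∀ a ∈ N, σ • a ∈ N) (σ : Γ) : M ⧸ N →+ M ⧸ N :=
  QuotientAddGroup.map N N (DistribSMul.toAddMonoidHom M σ) (fun a ha => hN σ a ha)

theorem quotSmul_mk (N : AddSubgroup M) (hN : ∀ σ : Γ, ∀ a ∈ N, σ • a ∈ N) (σ : Γ) (a : M) :
    quotSmul N hN σ (QuotientAddGroup.mk a) = QuotientAddGroup.mk (σ • a) := rfl

/-- the action on the quotient by a stable subgroup. -/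
@[instance_reducible]
def quotAction (N : AddSubgroup M) (hN : ∀ σ : Γ, ∀ a ∈ N, σ • a ∈ N) :
    DistribMulAction Γ (M ⧸ N) where
  smul σ a := quotSmul N hN σ a
  one_smul a := by
    induction a using QuotientAddGroup.induction_on with
    | H a =>
      show quotSmul N hN 1 (QuotientAddGroup.mk a) = _
      rw [quotSmul_mk, one_smul]
  mul_smul σ τ a := by
    induction a using QuotientAddGroup.induction_on with
    | H a =>
      show quotSmul N hN (σ * τ) (QuotientAddGroup.mk a) =
        quotSmul N hN σ (quotSmul N hN τ (QuotientAddGroup.mk a))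
      rw [quotSmul_mk, quotSmul_mk, quotSmul_mk, mul_smul]
  smul_zero σ := map_zero (quotSmul N hN σ)
  smul_add σ a b := map_add (quotSmul N hN σ) a b

theorem quotAction_smul_mk (N : AddSubgroup M) (hN : ∀ σ : Γ, ∀ a ∈ N, σ • a ∈ N) (σ : Γ) (a : M) :
    letI := quotAction N hN
    σ • (QuotientAddGroup.mk a : M ⧸ N) = QuotientAddGroup.mk (σ • a) := rfl

end Act

section Hopf

open Fermat.Agent.FF.InertiaWire8 Fermat.Agent.FF.SubOrd1 Fermat.Agent.FF.QuotOrd4
  Fermat.Agent.T33.WZero2

variable {A : ValuationSubring Qb} {ℓ : ℕ}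

/-- **a subquotient of a module with a Hopf order over `(W₀ A, Iner A)` carries a Hopf order.** -/
theorem exists_isHopfOrder_subquotient (hℓ : ℓ.Prime) (hA : A.LiesOverPrime ℓ)
    {M : Type*} [AddCommGroup M] [Finite M] [DistribMulAction (Iner A) M]
    {H : Subalgebra (W0 A) (M → Qb)} (hH : IsHopfOrder (Iner A) H)
    {S : Type*} [AddCommGroup S] [DistribMulAction (Iner A) S] (ι : S →+ M)
    (hι : Function.Injective ι) (hιΓ : ∀ (σ : Iner A) (s : S), ι (σ • s) = σ • ι s)
    {E : Type*} [AddCommGroup E] [Finite E] [DistribMulAction (Iner A) E] (q : S →+ E)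
    (hq : Function.Surjective q) (hqΓ : ∀ (σ : Iner A) (s : S), q (σ • s) = σ • q s) :
    ∃ H' : Subalgebra (W0 A) (E → Qb), IsHopfOrder (Iner A) H' := by
  haveI := isDiscreteValuationRing_W0 hℓ hA
  letI := FractionRing.liftAlgebra (W0 A) Qb
  haveI : Infinite (W0 A) := by
    haveI : CharZero (W0 A) := (algebraMap (W0 A) Qb).charZero
    infer_instance
  haveI : Finite S := Finite.of_injective ι hι
  have h1 : IsHopfOrder (Iner A) (comapOrder H (ι : S → M)) := hH.comap ι hι hιΓ
  exact ⟨_, IsHopfOrder.quotient (K := FractionRing (W0 A)) (hfix hℓ hA) h1 q hq hqΓ⟩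

end Hopf

end Fermat.Agent.M15.FlatAct2
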