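/-
Programme M15 (target S15), chapter (KUM), helper6: **(KUM-3') the local restrictions of the Kummer
classes**, as explicit level cocycles.

For every homomorphism `r : G →* Γ` (`Γ = Gal(ℚ̄/ℚ)`), every rational `x`, every `z` with
`ℓ^k z = x` and every projector `e` of `J[ℓ^k]` onto `G_k`:

  `resH1 T r G_k (kum x) = class of (g ↦ e • (r g • z − z))`     (`resH1_kum`).

Specialisations: `resD_kum` (decomposition group at `q`, `r = locD q`), `resI_kum` (inertia group,
`r = locI q`), `resA_kum` (the real place, `r = archimedeanLoc`), `resDI_resD_kum`.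
Same statements for the instance `kumJ` of `KumJ6` are obtained by unfolding.
-/
import Mathlib
import Fermat.Agent.M15.KumMap6
import Fermat.Agent.M15.DevDefs5

set_option autoImplicit false
set_option linter.unusedSectionVars false
set_option linter.style.haveILetI false

open CategoryTheory ExtCitation

namespace Fermat.Agent.M15.KumRes6

open Fermat.Agent.PT.PRO Fermat.Agent.PT.BR Fermat.Agent.W56.Defs9 Fermat.Agent.M15.KumLoc6
  Fermat.Agent.M15.KumRep6 Fermat.Agent.M15.KumMap6 Fermat.Agent.M15.DevDefs5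

local notation "Γ" => (AlgebraicClosure ℚ ≃ₐ[ℚ] AlgebraicClosure ℚ)
local notation "Qbar" => AlgebraicClosure ℚ

noncomputable section

variable {J : Type} [AddCommGroup J] [DistribMulAction Γ J]
  {𝕋 : Type} [Ring 𝕋] [Module 𝕋 J] [SMulCommClass Γ 𝕋 J] {ℓ : ℕ} [Fact ℓ.Prime]
  (ε : 𝕋 →+* ZMod ℓ) (k : ℕ) (T : Finset Nat.Primes)
  (hsm : IsSmoothAct J) (hdiv : ∀ x : J, ∃ y : J, ℓ • y = x)
  (hfin : Finite {x : J // ℓ • x = 0}) (hcomm : CommOnTors J 𝕋 ℓ) (hunr : UnramOutside J ε k T)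

/-- (KUM-3') the restriction of a Kummer class along any `r : G →* Γ`. -/
theorem resH1_kum {G : Type} [Group G] (r : G →* Γ) (x : ↥(fixedPts J)) (z : J)
    (hz : ℓ ^ k • z = (x : J)) (e : 𝕋) (he : IsProjK J ε k e) :
    ∃ c : ↥(LevelCoh28.Z1 (LevelBridge13.pullBasis r) (Rep.res r (GRep J ε k))),
      (∀ g : G, gval J ε k ((c : G → GRep J ε k) g) = e • (r g • z - z)) ∧
      ShaBridge13.resH1 T r (GRep J ε k) (kum ε k T hsm hdiv hfin hcomm hunr x) =
        LevelCoh28.H1mk _ _ c := by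
  obtain ⟨c, hc, hkum⟩ := kum_eq ε k T hsm hdiv hfin hcomm hunr x z hz e he.mem he.id
  refine ⟨LevelCohRes28.ppZ1 (𝓑G := LevelBridge13.pullBasis r)
    (𝓑H := LevelBridge13.globalBasis T) r
    (LinearMap.id : GRep J ε k →ₗ[ℤ] Rep.res r (GRep J ε k)) (fun _ _ => rfl)
    (ShaBridge13.isLevelHom_pull T r) c, fun g => hc (r g), ?_⟩
  rw [hkum]
  rfl

/-- the decomposition group at `q`. -/
theorem resD_kum (q : Nat.Primes) (x : ↥(fixedPts J)) (z : J)
    (hz : ℓ ^ k • z = (x : J)) (e : 𝕋) (he : IsProjK J ε k e) :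
    ∃ c : ↥(LevelCoh28.Z1 (LevelBridge13.pullBasis (locD q)) (Rep.res (locD q) (GRep J ε k))),
      (∀ g : primeLocalGaloisGroup q,
        gval J ε k ((c : primeLocalGaloisGroup q → GRep J ε k) g) = e • (locD q g • z - z)) ∧
      resD T (GRep J ε k) q (kum ε k T hsm hdiv hfin hcomm hunr x) = LevelCoh28.H1mk _ _ c :=
  resH1_kum ε k T hsm hdiv hfin hcomm hunr (locD q) x z hz e he

/-- the inertia group at `q`. -/
theorem resI_kum (q : Nat.Primes) (x : ↥(fixedPts J)) (z : J)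
    (hz : ℓ ^ k • z = (x : J)) (e : 𝕋) (he : IsProjK J ε k e) :
    ∃ c : ↥(LevelCoh28.Z1 (LevelBridge13.pullBasis (locI q)) (Rep.res (locI q) (GRep J ε k))),
      (∀ g : ↥(inertia q),
        gval J ε k ((c : ↥(inertia q) → GRep J ε k) g) = e • (locI q g • z - z)) ∧
      resI T (GRep J ε k) q (kum ε k T hsm hdiv hfin hcomm hunr x) = LevelCoh28.H1mk _ _ c :=
  resH1_kum ε k T hsm hdiv hfin hcomm hunr (locI q) x z hz e he

/-- the real place. -/
theorem resA_kum (x : ↥(fixedPts J)) (z : J)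
    (hz : ℓ ^ k • z = (x : J)) (e : 𝕋) (he : IsProjK J ε k e) :
    ∃ c : ↥(LevelCoh28.Z1 (LevelBridge13.pullBasis archimedeanLoc)
        (Rep.res archimedeanLoc (GRep J ε k))),
      (∀ g, gval J ε k ((c : _ → GRep J ε k) g) = e • (archimedeanLoc g • z - z)) ∧
      resA T (GRep J ε k) (kum ε k T hsm hdiv hfin hcomm hunr x) = LevelCoh28.H1mk _ _ c :=
  resH1_kum ε k T hsm hdiv hfin hcomm hunr archimedeanLoc x z hz e he

/-- `H¹(D_q) → H¹(I_q)` applied to the local Kummer class. -/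
theorem resDI_resD_kum (q : Nat.Primes) (x : ↥(fixedPts J)) (z : J)
    (hz : ℓ ^ k • z = (x : J)) (e : 𝕋) (he : IsProjK J ε k e) :
    ∃ c : ↥(LevelCoh28.Z1 (LevelBridge13.pullBasis (locI q)) (Rep.res (locI q) (GRep J ε k))),
      (∀ g : ↥(inertia q),
        gval J ε k ((c : ↥(inertia q) → GRep J ε k) g) = e • (locI q g • z - z)) ∧
      resDI (GRep J ε k) q (resD T (GRep J ε k) q (kum ε k T hsm hdiv hfin hcomm hunr x)) =
        LevelCoh28.H1mk _ _ c := by
  obtain ⟨c, hc, hres⟩ := resD_kum ε k T hsm hdiv hfin hcomm hunr q x z hz e he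
  refine ⟨LevelCohRes28.ppZ1 (𝓑G := LevelBridge13.pullBasis (locI q))
    (𝓑H := LevelBridge13.pullBasis (locD q)) (inertia q).subtype
    (LinearMap.id : Rep.res (locD q) (GRep J ε k) →ₗ[ℤ] Rep.res (locI q) (GRep J ε k))
    (fun _ _ => rfl) (isLevelHom_inertia q) c, fun g => hc ((inertia q).subtype g), ?_⟩
  rw [hres]
  rfl

/-- a Kummer class is unramified at `q` as soon as some `ℓ^k`-division point of `x` is fixed by the
inertia group at `q` (e.g. `q ∉ T`... or `x ∈ ℓ^k J(ℚ_q^{ur})`). -/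
theorem resD_kum_mem_H1ur (q : Nat.Primes) (x : ↥(fixedPts J)) (z : J)
    (hz : ℓ ^ k • z = (x : J)) (hI : ∀ g : ↥(inertia q), locI q g • z = z) :
    resD T (GRep J ε k) q (kum ε k T hsm hdiv hfin hcomm hunr x) ∈ H1ur (GRep J ε k) q := by
  obtain ⟨e, -, he⟩ := exists_isProjK (J := J) ε k hfin hcomm
  obtain ⟨c, hc, hres⟩ := resDI_resD_kum ε k T hsm hdiv hfin hcomm hunr q x z hz e he
  show resDI (GRep J ε k) q _ = 0
  rw [hres]
  have hc0 : c = 0 := by
    apply Subtype.ext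
    funext g
    apply gval_injective
    rw [hc g, hI g, sub_self, smul_zero]
    simp
  rw [hc0]
  exact map_zero _

end

end Fermat.Agent.M15.KumRes6
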