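/-
Programme M15 (target S15), chapter R3 FLAT (helper2): **the local conditions of R3** and the Selmer
property of the Kummer map (`hSel` of `SharpDescent6.sharpDescent_of_xiLe`).

`W = WRep p G hG` (`G ≤ J₀(p)` stable, killed by `ℓ ^ k`):
* `kumSub p G hG ℓ k ≤ H¹(D_ℓ, W)`, `kumSubInf p G hG ℓ k ≤ H¹(⟨c⟩, W)` : the classes of Kummer type
  (`FlatBridge2.IsKumClass`, `FlatInf2.IsKumClassInf`) form submodules;
* `kumCond p G hG ℓ k : LocCond W` : Kummer type at `ℓ` and at the real place, no condition elsewhere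
  (the Selmer group only sees the primes of `T = {p, ℓ}`: no condition at `p`);
* `kum_mem_SelL` : for `G = kerE (JZero p) ε k` the Kummer classes `kum x` are Selmer classes for
  `kumCond`, ANY `T`.  `kumJ_mem_SelL` : the instance `KumJ6.kumJ`.
-/
import Mathlib
import Fermat.Agent.M15.KumRes6
import Fermat.Agent.M15.KumJ6
import Fermat.Agent.M15.FlatInf2

set_option autoImplicit false
set_option linter.unusedSectionVars false
set_option linter.style.haveILetI false
set_option synthInstance.maxHeartbeats 400000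

open CategoryTheory ExtCitation AlgebraicCurve ModularCurve

namespace Fermat.Agent.M15.FlatCond2

open Fermat.Agent.PT.PRO Fermat.Agent.PT.BR Fermat.Agent.W56.Defs9
open Fermat.Agent.M15.DevDefs5 Fermat.Agent.M15.KumRep6 Fermat.Agent.M15.KumMap6
  Fermat.Agent.M15.KumLoc6 Fermat.Agent.M15.FlatBridge2 Fermat.Agent.M15.FlatInf2

local notation "Γ" => (AlgebraicClosure ℚ ≃ₐ[ℚ] AlgebraicClosure ℚ)
local notation "Qbar" => AlgebraicClosure ℚ

noncomputable section

section Sub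

variable (p : ℕ) [NeZero p] (G : AddSubgroup (JZero p)) (hG : ∀ g : Γ, ∀ x ∈ G, g • x ∈ G)

theorem isKumClass_zero (ℓ : Nat.Primes) (k : ℕ) : IsKumClass p G hG ℓ k 0 :=
  ⟨0, 0, fun g => smul_zero (A := JZero p) g, nsmul_zero _, 0, map_zero _, fun g => by
    show (0 : JZero p) = _
    rw [sub_zero]
    exact (smul_zero (A := JZero p) (locD ℓ g)).symm⟩

theorem isKumClass_add (ℓ : Nat.Primes) (k : ℕ) {y y' : H1D (WRep p G hG) ℓ}
    (h : IsKumClass p G hG ℓ k y) (h' : IsKumClass p G hG ℓ k y') :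
    IsKumClass p G hG ℓ k (y + y') := by
  obtain ⟨x, z, hx, hz, c, hc, hcz⟩ := h
  obtain ⟨x', z', hx', hz', c', hc', hcz'⟩ := h'
  refine ⟨x + x', z + z', fun g => by rw [smul_add, hx, hx'], by rw [nsmul_add, hz, hz'],
    c + c', by rw [map_add, hc, hc'], fun g => ?_⟩
  show wval p G hG ((c : primeLocalGaloisGroup ℓ → WRep p G hG) g +
    (c' : primeLocalGaloisGroup ℓ → WRep p G hG) g) = _
  rw [wval_add, hcz g, hcz' g, smul_add]
  abel

theorem isKumClass_neg (ℓ : Nat.Primes) (k : ℕ) {y : H1D (WRep p G hG) ℓ}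
    (h : IsKumClass p G hG ℓ k y) : IsKumClass p G hG ℓ k (-y) := by
  obtain ⟨x, z, hx, hz, c, hc, hcz⟩ := h
  refine ⟨-x, -z, fun g => by rw [smul_neg, hx], by rw [neg_nsmul, hz],
    -c, ?_, fun g => ?_⟩
  · rw [← hc]
    exact (LevelCoh28.H1mk _ _).map_neg c
  · show wval p G hG (-(c : primeLocalGaloisGroup ℓ → WRep p G hG) g) = _
    have h0 : wval p G hG (-(c : primeLocalGaloisGroup ℓ → WRep p G hG) g) =
        -wval p G hG ((c : primeLocalGaloisGroup ℓ → WRep p G hG) g) := rfl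
    rw [h0, hcz g, smul_neg]
    abel

/-- the classes of Kummer type at `ℓ` form a submodule. -/
def kumSub (ℓ : Nat.Primes) (k : ℕ) : Submodule ℤ (H1D (WRep p G hG) ℓ) where
  carrier := {y | IsKumClass p G hG ℓ k y}
  zero_mem' := isKumClass_zero p G hG ℓ k
  add_mem' := fun h h' => isKumClass_add p G hG ℓ k h h'
  smul_mem' := by
    intro n y hy
    show IsKumClass p G hG ℓ k (n • y)
    induction n using Int.induction_on with
    | zero => rw [zero_smul]; exact isKumClass_zero p G hG ℓ k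
    | succ i ih => rw [add_smul, one_smul]; exact isKumClass_add p G hG ℓ k ih hy
    | pred i ih =>
      rw [sub_smul, one_smul, sub_eq_add_neg]
      exact isKumClass_add p G hG ℓ k ih (isKumClass_neg p G hG ℓ k hy)

theorem mem_kumSub_iff (ℓ : Nat.Primes) (k : ℕ) (y : H1D (WRep p G hG) ℓ) :
    y ∈ kumSub p G hG ℓ k ↔ IsKumClass p G hG ℓ k y := Iff.rfl

theorem isKumClassInf_zero (ℓ : ℕ) (k : ℕ) : IsKumClassInf p G hG ℓ k 0 :=
  ⟨0, 0, fun g => smul_zero (A := JZero p) g, nsmul_zero _, 0, map_zero _, fun g => by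
    show (0 : JZero p) = _
    rw [sub_zero]
    exact (smul_zero (A := JZero p) (archimedeanLoc g)).symm⟩

theorem isKumClassInf_add (ℓ : ℕ) (k : ℕ) {y y' : H1A (WRep p G hG)}
    (h : IsKumClassInf p G hG ℓ k y) (h' : IsKumClassInf p G hG ℓ k y') :
    IsKumClassInf p G hG ℓ k (y + y') := by
  obtain ⟨x, z, hx, hz, c, hc, hcz⟩ := h
  obtain ⟨x', z', hx', hz', c', hc', hcz'⟩ := h'
  refine ⟨x + x', z + z', fun g => by rw [smul_add, hx, hx'], by rw [nsmul_add, hz, hz'],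
    c + c', by rw [map_add, hc, hc'], fun g => ?_⟩
  show wval p G hG ((c : archimedeanDecomposition → WRep p G hG) g +
    (c' : archimedeanDecomposition → WRep p G hG) g) = _
  rw [wval_add, hcz g, hcz' g, smul_add]
  abel

theorem isKumClassInf_neg (ℓ : ℕ) (k : ℕ) {y : H1A (WRep p G hG)}
    (h : IsKumClassInf p G hG ℓ k y) : IsKumClassInf p G hG ℓ k (-y) := by
  obtain ⟨x, z, hx, hz, c, hc, hcz⟩ := h
  refine ⟨-x, -z, fun g => by rw [smul_neg, hx], by rw [neg_nsmul, hz],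
    -c, ?_, fun g => ?_⟩
  · rw [← hc]
    exact (LevelCoh28.H1mk _ _).map_neg c
  · show wval p G hG (-(c : archimedeanDecomposition → WRep p G hG) g) = _
    have h0 : wval p G hG (-(c : archimedeanDecomposition → WRep p G hG) g) =
        -wval p G hG ((c : archimedeanDecomposition → WRep p G hG) g) := rfl
    rw [h0, hcz g, smul_neg]
    abel

/-- the classes of Kummer type at the real place form a submodule. -/
def kumSubInf (ℓ : ℕ) (k : ℕ) : Submodule ℤ (H1A (WRep p G hG)) where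
  carrier := {y | IsKumClassInf p G hG ℓ k y}
  zero_mem' := isKumClassInf_zero p G hG ℓ k
  add_mem' := fun h h' => isKumClassInf_add p G hG ℓ k h h'
  smul_mem' := by
    intro n y hy
    show IsKumClassInf p G hG ℓ k (n • y)
    induction n using Int.induction_on with
    | zero => rw [zero_smul]; exact isKumClassInf_zero p G hG ℓ k
    | succ i ih => rw [add_smul, one_smul]; exact isKumClassInf_add p G hG ℓ k ih hy
    | pred i ih =>
      rw [sub_smul, one_smul, sub_eq_add_neg]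
      exact isKumClassInf_add p G hG ℓ k ih (isKumClassInf_neg p G hG ℓ k hy)

theorem mem_kumSubInf_iff (ℓ : ℕ) (k : ℕ) (y : H1A (WRep p G hG)) :
    y ∈ kumSubInf p G hG ℓ k ↔ IsKumClassInf p G hG ℓ k y := Iff.rfl

open Classical in
/-- **the local conditions of R3**: Kummer type at `ℓ` and at the real place, nothing elsewhere. -/
def kumCond (ℓ : Nat.Primes) (k : ℕ) : LocCond (WRep p G hG) where
  fin q := if h : q = ℓ then h ▸ kumSub p G hG ℓ k else ⊤
  inf := kumSubInf p G hG (ℓ : ℕ) k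

theorem kumCond_fin_self (ℓ : Nat.Primes) (k : ℕ) :
    (kumCond p G hG ℓ k) ℓ = kumSub p G hG ℓ k := by
  show (kumCond p G hG ℓ k).fin ℓ = _
  unfold kumCond
  simp

theorem kumCond_fin_of_ne (ℓ : Nat.Primes) (k : ℕ) {q : Nat.Primes} (hq : q ≠ ℓ) :
    (kumCond p G hG ℓ k) q = ⊤ := by
  show (kumCond p G hG ℓ k).fin q = _
  unfold kumCond
  simp [hq]

theorem mem_kumCond_fin_self_iff (ℓ : Nat.Primes) (k : ℕ) (y : H1D (WRep p G hG) ℓ) :
    y ∈ (kumCond p G hG ℓ k) ℓ ↔ IsKumClass p G hG ℓ k y := by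
  rw [kumCond_fin_self]
  rfl

theorem mem_kumCond_fin_of_ne (ℓ : Nat.Primes) (k : ℕ) {q : Nat.Primes} (hq : q ≠ ℓ)
    (y : H1D (WRep p G hG) q) : y ∈ (kumCond p G hG ℓ k) q := by
  rw [kumCond_fin_of_ne p G hG ℓ k hq]
  exact Submodule.mem_top

theorem mem_kumCond_inf_iff (ℓ : Nat.Primes) (k : ℕ) (y : H1A (WRep p G hG)) :
    y ∈ (kumCond p G hG ℓ k).inf ↔ IsKumClassInf p G hG (ℓ : ℕ) k y := Iff.rfl

theorem kumCond_inf (ℓ : Nat.Primes) (k : ℕ) :
    (kumCond p G hG ℓ k).inf = kumSubInf p G hG (ℓ : ℕ) k := rfl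

end Sub

/-! ### the Kummer classes are Selmer classes -/

section Sel

variable (p : ℕ) [NeZero p] {𝕋 : Type} [Ring 𝕋] [Module 𝕋 (JZero p)]
  [SMulCommClass Γ 𝕋 (JZero p)] {ℓ : ℕ} [hℓ : Fact ℓ.Prime]
  (ε : 𝕋 →+* ZMod ℓ) (k : ℕ) (T : Finset Nat.Primes)
  (hsm : IsSmoothAct (JZero p)) (hdiv : ∀ x : JZero p, ∃ y : JZero p, ℓ • y = x)
  (hfin : Finite {x : JZero p // ℓ • x = 0}) (hcomm : CommOnTors (JZero p) 𝕋 ℓ)
  (hunr : UnramOutside (JZero p) ε k T)

/-- stability of `G_k = kerE (JZero p) ε k`. -/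
theorem hGE : ∀ g : Γ, ∀ x ∈ kerE (JZero p) ε k, g • x ∈ kerE (JZero p) ε k :=
  fun g _ hx => smul_mem_kerE g hx

/-- the prime `ℓ`, as an element of `Nat.Primes`. -/
abbrev lP (ℓ : ℕ) [hℓ : Fact ℓ.Prime] : Nat.Primes := ⟨ℓ, hℓ.out⟩

/-- the local class at `ℓ` of a Kummer class is of Kummer type. -/
theorem isKumClass_resD_kum (x : ↥(fixedPts (JZero p))) :
    IsKumClass p (kerE (JZero p) ε k) (hGE p ε k) (lP ℓ) k
      (resD T (GRep (JZero p) ε k) (lP ℓ) (kum ε k T hsm hdiv hfin hcomm hunr x)) := by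
  obtain ⟨z, hz⟩ := exists_pow_div hdiv k (x : JZero p)
  obtain ⟨e, -, he⟩ := exists_isProjK (J := JZero p) ε k hfin hcomm
  obtain ⟨c, hc, hres⟩ := Fermat.Agent.M15.KumRes6.resD_kum ε k T hsm hdiv hfin hcomm hunr
    (lP ℓ) x z hz e he
  refine ⟨e • (x : JZero p), e • z, fun g => ?_, ?_, c, hres.symm, fun g => ?_⟩
  · rw [smul_comm, x.2 g]
  · show ℓ ^ k • e • z = e • (x : JZero p)
    rw [smul_comm, hz]
  · have h1 := hc g
    rw [smul_sub, ← smul_comm (locD (lP ℓ) g) e z] at h1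
    exact h1

/-- the local class at the real place of a Kummer class is of Kummer type. -/
theorem isKumClassInf_resA_kum (x : ↥(fixedPts (JZero p))) :
    IsKumClassInf p (kerE (JZero p) ε k) (hGE p ε k) ℓ k
      (resA T (GRep (JZero p) ε k) (kum ε k T hsm hdiv hfin hcomm hunr x)) := by
  obtain ⟨z, hz⟩ := exists_pow_div hdiv k (x : JZero p)
  obtain ⟨e, -, he⟩ := exists_isProjK (J := JZero p) ε k hfin hcomm
  obtain ⟨c, hc, hres⟩ := Fermat.Agent.M15.KumRes6.resA_kum ε k T hsm hdiv hfin hcomm hunr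
    x z hz e he
  refine ⟨e • (x : JZero p), e • z, fun g => ?_, ?_, c, hres.symm, fun g => ?_⟩
  · rw [smul_comm, x.2 g]
  · show ℓ ^ k • e • z = e • (x : JZero p)
    rw [smul_comm, hz]
  · have h1 := hc g
    rw [smul_sub, ← smul_comm (archimedeanLoc g) e z] at h1
    exact h1

/-- **`hSel`**: the Kummer classes are Selmer classes for the conditions `kumCond`. -/
theorem kum_mem_SelL (x : ↥(fixedPts (JZero p))) :
    kum ε k T hsm hdiv hfin hcomm hunr x ∈
      SelL T (GRep (JZero p) ε k) (kumCond p (kerE (JZero p) ε k) (hGE p ε k) (lP ℓ) k) := by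
  rw [mem_SelL_iff]
  refine ⟨fun q _ => ?_, ?_⟩
  · by_cases hq : q = lP ℓ
    · subst hq
      exact (mem_kumCond_fin_self_iff p _ (hGE p ε k) (lP ℓ) k _).2
        (isKumClass_resD_kum p ε k T hsm hdiv hfin hcomm hunr x)
    · exact mem_kumCond_fin_of_ne p _ (hGE p ε k) (lP ℓ) k hq _
  · exact (mem_kumCond_inf_iff p _ (hGE p ε k) (lP ℓ) k _).2
      (isKumClassInf_resA_kum p ε k T hsm hdiv hfin hcomm hunr x)

end Sel

/-! ### the instance `kumJ` -/

section Inst

open Fermat.Agent.M15.Contracts9 Fermat.Agent.M15.KumInst6 Fermat.Agent.M15.KumJ6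

/-- **`hSel` of `SharpDescent6.sharpDescent_of_xiLe`** for the conditions `kumCond` (any `T`). -/
theorem kumJ_mem_SelL (p : ℕ) [NeZero p] (hp : p.Prime) (P0 Pinf : Pl p)
    (hcusp : CuspFacts p P0 Pinf) (ℓ : ℕ) [Fact ℓ.Prime] (hℓ : ℓ ∣ addOrderOf (cl p P0 Pinf))
    (T : Finset Nat.Primes) (hT : ∀ q : Nat.Primes, (q : ℕ) ∣ p * ℓ → q ∈ T)
    (hdiv : ∀ x : JZero p, ∃ y : JZero p, ℓ • y = x) (k : ℕ) (x : ↥(fixedPts (JZero p))) :
    kumJ p hp P0 Pinf hcusp ℓ hℓ T hT hdiv k x ∈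
      SelL T (Wk p P0 Pinf hcusp ℓ hp hℓ k)
        (kumCond p (kerE (JZero p) (epsChar p P0 Pinf hcusp ℓ hp hℓ) k)
          (hGE p (epsChar p P0 Pinf hcusp ℓ hp hℓ) k) (lP ℓ) k) :=
  kum_mem_SelL p (epsChar p P0 Pinf hcusp ℓ hp hℓ) k T (isSmoothAct_jzero p) hdiv
    (finite_tors_prime p ℓ) (commOnTors p hp ℓ) (unramOutside_jzero p _ k T hT) x

end Inst

end

end Fermat.Agent.M15.FlatCond2
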