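import Mathlib

set_option autoImplicit false

namespace Fermat.Agent.M15.FlatGrp2

/-- if every `r`-th power (`r` prime to `ℓ`) of a finite group `G` lies in the subgroup `N`, then the
`ℓ`-parts of `#G` and `#N` agree; in the form used for ramification indices. -/
theorem dvd_of_mul_card_eq {G : Type*} [Group G] [Finite G] (N : Subgroup G) {ℓ r : ℕ}
    (hℓ : ℓ.Prime) (hr : Nat.Coprime r ℓ) (hN : ∀ g : G, g ^ r ∈ N) (m n : ℤ)
    (h : m * (Nat.card G : ℤ) = (ℓ : ℤ) * n * (Nat.card N : ℤ)) : (ℓ : ℤ) ∣ m := by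
  have : Fact ℓ.Prime := ⟨hℓ⟩
  obtain ⟨P⟩ : Nonempty (Sylow ℓ G) := inferInstance
  have hPN : (P : Subgroup G) ≤ N := by
    intro x hx
    obtain ⟨j, hj⟩ := IsPGroup.iff_orderOf.1 P.2 (⟨x, hx⟩ : (P : Subgroup G))
    have hj' : orderOf x = ℓ ^ j := by
      rw [← hj]
      exact (Subgroup.orderOf_mk x hx).symm
    have hc : Nat.Coprime r (orderOf x) := by
      rw [hj']
      exact Nat.Coprime.pow_right j hr
    obtain ⟨s, hs⟩ := exists_pow_eq_self_of_coprime hc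
    rw [← hs]
    exact N.pow_mem (hN x) s
  obtain ⟨a, ha, hPcard⟩ : ∃ a : ℕ, a = (Nat.card G).factorization ℓ ∧
      Nat.card (P : Subgroup G) = ℓ ^ a := ⟨_, rfl, P.card_eq_multiplicity⟩
  obtain ⟨n', hn'⟩ : Nat.card (P : Subgroup G) ∣ Nat.card N := Subgroup.card_dvd_of_le hPN
  obtain ⟨g', hg'⟩ : Nat.card (P : Subgroup G) ∣ Nat.card G := Subgroup.card_subgroup_dvd_card _
  have hg'ℓ : ¬ ℓ ∣ g' := by
    intro hdvd
    obtain ⟨c, hc⟩ := hdvd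
    have h1 : ℓ ^ (a + 1) ∣ Nat.card G := by
      rw [hg', hPcard, hc, pow_succ]
      exact ⟨c, by ring⟩
    have h2 := (hℓ.pow_dvd_iff_le_factorization Nat.card_pos.ne').1 h1
    omega
  have hℓpos : (0 : ℤ) < (ℓ : ℤ) := by exact_mod_cast hℓ.pos
  have hpos : (0 : ℤ) < (ℓ : ℤ) ^ a := by positivity
  have h3 : m * (g' : ℤ) = (ℓ : ℤ) * n * (n' : ℤ) := by
    have h4 : ((ℓ : ℤ) ^ a) * (m * (g' : ℤ)) = ((ℓ : ℤ) ^ a) * ((ℓ : ℤ) * n * (n' : ℤ)) := by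
      have e1 : (Nat.card G : ℤ) = (ℓ : ℤ) ^ a * (g' : ℤ) := by
        rw [hg', hPcard]; push_cast; ring
      have e2 : (Nat.card N : ℤ) = (ℓ : ℤ) ^ a * (n' : ℤ) := by
        rw [hn', hPcard]; push_cast; ring
      rw [e1, e2] at h
      linarith [h]
    exact mul_left_cancel₀ hpos.ne' h4
  have h5 : (ℓ : ℤ) ∣ m * (g' : ℤ) := ⟨n * n', by rw [h3]; ring⟩
  rcases (Nat.prime_iff_prime_int.1 hℓ).dvd_or_dvd h5 with h6 | h6
  · exact h6
  · exact absurd (Int.natCast_dvd_natCast.1 h6) hg'ℓ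

end Fermat.Agent.M15.FlatGrp2
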