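/-
Programme M15 (target S15), chapter R3 FLAT (helper2): **Hilbert 90 on a subgroup of `G_ℚ`** for a
level cocycle with values in a number field (wrapper around `PT/BR/InfGalois13.hilbert90_level`:
the cocycle is only given on the subgroup `D`; it is extended to `D · Gal(ℚ̄/F)` by invariance).
-/
import Mathlib
import Fermat.Agent.PT.BR.InfGalois13
import Fermat.Agent.FF.InertiaWire8
import Fermat.Agent.S05.Inertia

set_option autoImplicit false

namespace Fermat.Agent.M15.FlatHilb2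

open Fermat.Agent.FF.InertiaWire8

local instance isAlgClosureQb2 : IsAlgClosure ℚ Qb :=
  ⟨inferInstance, Fermat.Agent.S05.Inertia.isAlgebraic_rat⟩
local instance isGaloisQb2 : IsGalois ℚ Qb := IsAlgClosure.isGalois ℚ Qb

/-- **Hilbert 90 on a subgroup.** -/
theorem exists_hilbert90 (D : Subgroup GQ) (f : GQ → Qb) (hf0 : ∀ σ ∈ D, f σ ≠ 0)
    (hmul : ∀ σ ∈ D, ∀ τ ∈ D, f (σ * τ) = f σ * σ (f τ))
    (F : IntermediateField ℚ Qb) [FiniteDimensional ℚ F] (hval : ∀ σ ∈ D, f σ ∈ F)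
    (hlev : ∀ σ ∈ D, ∀ γ ∈ D, γ ∈ F.fixingSubgroup → f (σ * γ) = f σ) :
    ∃ β : Qb, β ≠ 0 ∧ ∀ σ ∈ D, f σ * β = σ β := by
  classical
  -- independence of the representative
  have hrep : ∀ d ∈ D, ∀ d' ∈ D, d⁻¹ * d' ∈ F.fixingSubgroup → f d' = f d := by
    intro d hd d' hd' h
    have := hlev d hd (d⁻¹ * d') (D.mul_mem (D.inv_mem hd) hd') h
    rwa [mul_inv_cancel_left] at this
  -- the extension
  let c : GQ → Qbˣ := fun g =>
    if h : ∃ d : GQ, d ∈ D ∧ d⁻¹ * g ∈ F.fixingSubgroup then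
      Units.mk0 (f h.choose) (hf0 _ h.choose_spec.1) else 1
  have hc : ∀ (g d : GQ), d ∈ D → d⁻¹ * g ∈ F.fixingSubgroup → ((c g : Qbˣ) : Qb) = f d := by
    intro g d hd hdg
    have h : ∃ d : GQ, d ∈ D ∧ d⁻¹ * g ∈ F.fixingSubgroup := ⟨d, hd, hdg⟩
    show ((dite _ _ _ : Qbˣ) : Qb) = f d
    rw [dif_pos h, Units.val_mk0]
    refine hrep d hd _ h.choose_spec.1 ?_
    have h1 : d⁻¹ * h.choose = (d⁻¹ * g) * (h.choose⁻¹ * g)⁻¹ := by group
    rw [h1]
    exact F.fixingSubgroup.mul_mem hdg (F.fixingSubgroup.inv_mem h.choose_spec.2)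
  have hcD : ∀ d ∈ D, ((c d : Qbˣ) : Qb) = f d := fun d hd =>
    hc d d hd (by rw [inv_mul_cancel]; exact Subgroup.one_mem _)
  obtain ⟨β, hβ⟩ := Fermat.Agent.PT.BR.InfGalois13.hilbert90_level (K := ℚ) (Ω := Qb) D F c
    (fun g s hs => by
      by_cases h : ∃ d : GQ, d ∈ D ∧ d⁻¹ * g ∈ F.fixingSubgroup
      · obtain ⟨d, hd, hdg⟩ := h
        apply Units.ext
        rw [hc g d hd hdg, hc (g * s) d hd (by
          rw [← mul_assoc]; exact F.fixingSubgroup.mul_mem hdg hs)]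
      · have h' : ¬ ∃ d : GQ, d ∈ D ∧ d⁻¹ * (g * s) ∈ F.fixingSubgroup := by
          rintro ⟨d, hd, hdg⟩
          refine h ⟨d, hd, ?_⟩
          have h1 : d⁻¹ * g = d⁻¹ * (g * s) * s⁻¹ := by group
          rw [h1]
          exact F.fixingSubgroup.mul_mem hdg (F.fixingSubgroup.inv_mem hs)
        show (dite _ _ _ : Qbˣ) = dite _ _ _
        rw [dif_neg h, dif_neg h'])
    (fun g => by
      by_cases h : ∃ d : GQ, d ∈ D ∧ d⁻¹ * g ∈ F.fixingSubgroup
      · obtain ⟨d, hd, hdg⟩ := h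
        rw [hc g d hd hdg]
        exact hval d hd
      · show ((dite _ _ _ : Qbˣ) : Qb) ∈ F
        rw [dif_neg h]
        exact F.one_mem)
    (fun n hn n' hn' => by
      apply Units.ext
      rw [hcD _ (D.mul_mem hn hn'), Units.val_mul, hcD n hn, hmul n hn n' hn', mul_comm]
      congr 1
      show n (f n') = n ((c n' : Qbˣ) : Qb)
      rw [hcD n' hn'])
  refine ⟨(β : Qb), β.ne_zero, fun σ hσ => ?_⟩
  have h := congrArg Units.val (hβ σ hσ)
  rw [hcD σ hσ] at h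
  have h2 : ((σ • β / β : Qbˣ) : Qb) = σ (β : Qb) / (β : Qb) := by
    rw [Units.val_div_eq_div_val]
    rfl
  rw [h2] at h
  rw [h, div_mul_cancel₀ _ β.ne_zero]

end Fermat.Agent.M15.FlatHilb2
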