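/-
Programme M15 (target S15), chapter R3 FLAT (helper2): **the Kummer subquotient.**

`P` an abelian group with an action of `Γ`, `x ∈ P` fixed, `l • z = x`, `W' ≤ W ≤ P[l]` stable
subgroups with `ℓ W ⊆ W'`, `ℓ ∣ l`, and `σ z - z ∈ W` for all `σ`.  Inside the ambient group
`Amb x l` of `ExtAmbient2` put `t = e - z` (`l t = 0`, `σ t = t - (σ z - z)`),
`Sg = W + ℤ t`, `Sg' = W' + ℤ ℓ t`, `EQ = Sg / Sg'`: a `Γ`-module killed by `ℓ`, extension of
`ℤ/ℓ` by `W / W'`, whose class is the image of the Kummer class of `x`.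

* `mem_Sg'_iff` : `w + n t ∈ Sg' ↔ w ∈ W' ∧ ℓ ∣ n`;
* `sub_mem_of_trivial` : if `σ` acts trivially on `EQ` then `σ z - z ∈ W'` and `σ w - w ∈ W'` (`w ∈ W`).
-/
import Mathlib
import Fermat.Agent.M15.ExtAmbient2
import Fermat.Agent.M15.FlatAct2

set_option autoImplicit false
set_option linter.unusedSectionVars false
set_option linter.style.haveILetI false

namespace Fermat.Agent.M15.FlatKum2

open Fermat.Agent.M15.ExtAmbient2 Fermat.Agent.M15.FlatAct2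

variable {Γ : Type*} [Group Γ] {P : Type*} [AddCommGroup P] [DistribMulAction Γ P]
variable (x : FixedPt Γ P) (l : ℕ) (z : P)

/-- `t = e - z`. -/
def tElt : Amb x l := mk x l (-z, 1)

theorem tElt_eq : tElt x l z = eElt x l - incl x l z := by
  rw [tElt, eElt, incl_apply, ← map_sub]
  congr 1
  ext <;> simp

theorem l_smul_tElt (hz : l • z = x.val) : (l : ℤ) • tElt x l z = 0 := by
  rw [tElt_eq, smul_sub, l_smul_eElt, ← map_zsmul, natCast_zsmul, hz, sub_self]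

theorem smul_tElt (σ : Γ) : σ • tElt x l z = tElt x l z - incl x l (σ • z - z) := by
  rw [tElt_eq, smul_sub, smul_eElt, ← incl_smul, map_sub]
  abel

theorem toZMod_incl (w : P) : toZMod x l (incl x l w) = 0 := by
  rw [incl_apply, toZMod_mk]
  simp

theorem toZMod_tElt : toZMod x l (tElt x l z) = 1 := by
  rw [tElt, toZMod_mk]
  simp

/-- uniqueness of the decomposition `w + n t`. -/
theorem eq_of_incl_add_eq (hl : l ≠ 0) (hz : l • z = x.val) {w w' : P} {n n' : ℤ}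
    (h : incl x l w + n • tElt x l z = incl x l w' + n' • tElt x l z) :
    (l : ℤ) ∣ n - n' ∧ w = w' := by
  have h1 : (l : ℤ) ∣ n - n' := by
    have := congrArg (toZMod x l) h
    rw [map_add, map_add, map_zsmul, map_zsmul, toZMod_incl, toZMod_incl, toZMod_tElt, zero_add,
      zero_add, zsmul_one, zsmul_one] at this
    exact (ZMod.intCast_eq_intCast_iff_dvd_sub n' n l).1 this.symm
  refine ⟨h1, ?_⟩
  obtain ⟨c, hc⟩ := h1
  have h2 : (n - n') • tElt x l z = 0 := by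
    rw [hc, mul_comm, mul_smul, l_smul_tElt x l z hz, smul_zero]
  have h3 : incl x l w = incl x l w' := by
    have : incl x l w + (n - n') • tElt x l z = incl x l w' := by
      rw [sub_smul]
      rw [← sub_eq_zero] at h ⊢
      rw [← h]
      abel
    rwa [h2, add_zero] at this
  exact incl_injective x l hl h3

variable (W W' : AddSubgroup P)

/-- `W + ℤ t`. -/
def Sg : AddSubgroup (Amb x l) where
  carrier := {a | ∃ w ∈ W, ∃ n : ℤ, a = incl x l w + n • tElt x l z}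
  zero_mem' := ⟨0, W.zero_mem, 0, by simp⟩
  add_mem' := by
    rintro _ _ ⟨w, hw, n, rfl⟩ ⟨w', hw', n', rfl⟩
    refine ⟨w + w', W.add_mem hw hw', n + n', ?_⟩
    rw [map_add, add_smul]
    abel
  neg_mem' := by
    rintro _ ⟨w, hw, n, rfl⟩
    refine ⟨-w, W.neg_mem hw, -n, ?_⟩
    rw [map_neg, neg_smul]
    abel

/-- `W' + ℤ ℓ t`. -/
def Sg' (ℓ : ℕ) : AddSubgroup (Amb x l) where
  carrier := {a | ∃ w ∈ W', ∃ n : ℤ, a = incl x l w + ((ℓ : ℤ) * n) • tElt x l z}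
  zero_mem' := ⟨0, W'.zero_mem, 0, by simp⟩
  add_mem' := by
    rintro _ _ ⟨w, hw, n, rfl⟩ ⟨w', hw', n', rfl⟩
    refine ⟨w + w', W'.add_mem hw hw', n + n', ?_⟩
    rw [map_add, mul_add, add_smul]
    abel
  neg_mem' := by
    rintro _ ⟨w, hw, n, rfl⟩
    refine ⟨-w, W'.neg_mem hw, -n, ?_⟩
    rw [map_neg, mul_neg, neg_smul]
    abel

variable {x l z W W'}

theorem incl_add_mem_Sg {w : P} (hw : w ∈ W) (n : ℤ) :
    incl x l w + n • tElt x l z ∈ Sg x l z W := ⟨w, hw, n, rfl⟩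

theorem Sg'_le_Sg (ℓ : ℕ) (hWW : W' ≤ W) : Sg' x l z W' ℓ ≤ Sg x l z W := by
  rintro _ ⟨w, hw, n, rfl⟩
  exact ⟨w, hWW hw, _, rfl⟩

/-- **characterisation of `Sg'`.** -/
theorem mem_Sg'_iff {ℓ : ℕ} (hl : l ≠ 0) (hℓl : ℓ ∣ l) (hz : l • z = x.val) {w : P} {n : ℤ} :
    incl x l w + n • tElt x l z ∈ Sg' x l z W' ℓ ↔ w ∈ W' ∧ (ℓ : ℤ) ∣ n := by
  constructor
  · rintro ⟨w', hw', n', h⟩
    obtain ⟨h1, rfl⟩ := eq_of_incl_add_eq x l z hl hz h
    refine ⟨hw', ?_⟩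
    have h2 : (ℓ : ℤ) ∣ n - (ℓ : ℤ) * n' := (Int.natCast_dvd_natCast.2 hℓl).trans h1
    have h3 := dvd_add h2 (dvd_mul_right (ℓ : ℤ) n')
    rwa [sub_add_cancel] at h3
  · rintro ⟨hw, c, rfl⟩
    exact ⟨w, hw, c, rfl⟩

/-- `Sg` is stable. -/
theorem smul_mem_Sg (hW : ∀ σ : Γ, ∀ w ∈ W, σ • w ∈ W) (hzW : ∀ σ : Γ, σ • z - z ∈ W) (σ : Γ)
    {a : Amb x l} (ha : a ∈ Sg x l z W) : σ • a ∈ Sg x l z W := by
  obtain ⟨w, hw, n, rfl⟩ := ha
  refine ⟨σ • w - n • (σ • z - z), W.sub_mem (hW σ w hw) (W.zsmul_mem (hzW σ) n), n, ?_⟩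
  rw [smul_add, ← incl_smul, smul_comm, smul_tElt, smul_sub]
  simp only [map_sub, map_zsmul]
  abel

/-- `Sg'` is stable. -/
theorem smul_mem_Sg' {ℓ : ℕ} (hW' : ∀ σ : Γ, ∀ w ∈ W', σ • w ∈ W')
    (hzW : ∀ σ : Γ, σ • z - z ∈ W) (hℓW : ∀ w ∈ W, ℓ • w ∈ W') (σ : Γ)
    {a : Amb x l} (ha : a ∈ Sg' x l z W' ℓ) : σ • a ∈ Sg' x l z W' ℓ := by
  obtain ⟨w, hw, n, rfl⟩ := ha
  refine ⟨σ • w - n • (ℓ • (σ • z - z)),
    W'.sub_mem (hW' σ w hw) (W'.zsmul_mem (hℓW _ (hzW σ)) n), n, ?_⟩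
  have key : ∀ y : Amb x l, ((ℓ : ℤ) * n) • y = n • (ℓ • y) := fun y => by
    rw [mul_comm, mul_smul, natCast_zsmul]
  rw [smul_add, ← incl_smul, smul_comm, smul_tElt, smul_sub, key (incl x l (σ • z - z))]
  simp only [map_sub, map_zsmul, map_nsmul]
  abel


/-! ### the subquotient -/

variable (x l z W W')

/-- the hypotheses on the data. -/
structure KumData (ℓ : ℕ) : Prop where
  hl : l ≠ 0
  hℓl : ℓ ∣ l
  hz : l • z = x.val
  hWW : W' ≤ W
  hWl : ∀ w ∈ W, l • w = 0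
  hW : ∀ σ : Γ, ∀ w ∈ W, σ • w ∈ W
  hW' : ∀ σ : Γ, ∀ w ∈ W', σ • w ∈ W'
  hzW : ∀ σ : Γ, σ • z - z ∈ W
  hℓW : ∀ w ∈ W, ℓ • w ∈ W'

/-- `Sg'` inside `Sg`. -/
def NSub (ℓ : ℕ) : AddSubgroup ↥(Sg x l z W) := (Sg' x l z W' ℓ).addSubgroupOf (Sg x l z W)

/-- the subquotient `Sg / Sg'`. -/
abbrev EQ (ℓ : ℕ) : Type _ := ↥(Sg x l z W) ⧸ NSub x l z W W' ℓ

variable {x l z W W'} {ℓ : ℕ} (d : KumData x l z W W' ℓ)

/-- the action on `Sg`. -/
@[instance_reducible]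
def actS : DistribMulAction Γ ↥(Sg x l z W) :=
  subAction (Sg x l z W) (fun σ _ ha => smul_mem_Sg d.hW d.hzW σ ha)

include d in
theorem smul_mem_NSub (σ : Γ) :
    letI := actS d
    ∀ a ∈ NSub x l z W W' ℓ, σ • a ∈ NSub x l z W W' ℓ := by
  intro a ha
  rw [NSub, AddSubgroup.mem_addSubgroupOf] at ha ⊢
  exact smul_mem_Sg' d.hW' d.hzW d.hℓW σ ha

/-- the action on `EQ`. -/
@[instance_reducible]
def actE : DistribMulAction Γ (EQ x l z W W' ℓ) :=
  letI := actS d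
  quotAction (NSub x l z W W' ℓ) (fun σ a ha => smul_mem_NSub d σ a ha)

/-- the projection `Sg → EQ`. -/
def qE : ↥(Sg x l z W) →+ EQ x l z W W' ℓ := QuotientAddGroup.mk' _

theorem qE_surjective : Function.Surjective (qE (x := x) (l := l) (z := z) (W := W) (W' := W')
    (ℓ := ℓ)) := QuotientAddGroup.mk'_surjective _

theorem qE_smul (σ : Γ) (a : ↥(Sg x l z W)) :
    letI := actS d
    letI := actE d
    qE (W' := W') (ℓ := ℓ) (σ • a) = σ • qE (W' := W') (ℓ := ℓ) a := rfl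

include d in
theorem mem_KExt_of_mem_Sg {a : Amb x l} (ha : a ∈ Sg x l z W) : a ∈ KExt x l := by
  obtain ⟨w, hw, n, rfl⟩ := ha
  rw [mem_KExt, smul_add, ← map_nsmul, d.hWl w hw, map_zero, zero_add, smul_comm,
    ← natCast_zsmul, l_smul_tElt x l z d.hz, smul_zero]

/-- the inclusion `Sg → KExt`. -/
def ιS : ↥(Sg x l z W) →+ ↥(KExt x l) where
  toFun a := ⟨(a : Amb x l), mem_KExt_of_mem_Sg d a.2⟩
  map_zero' := rfl
  map_add' _ _ := rfl

theorem ιS_injective : Function.Injective (ιS d) := fun a b h =>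
  Subtype.ext (congrArg (fun c : ↥(KExt x l) => (c : Amb x l)) h)

theorem ιS_smul (σ : Γ) (a : ↥(Sg x l z W)) :
    letI := actS d
    ιS d (σ • a) = σ • ιS d a := rfl

include d in
/-- `EQ` is killed by `ℓ`. -/
theorem nsmul_EQ (e : EQ x l z W W' ℓ) : ℓ • e = 0 := by
  obtain ⟨⟨a, ha⟩, rfl⟩ := qE_surjective (x := x) (l := l) (z := z) (W := W) (W' := W') (ℓ := ℓ) e
  rw [← map_nsmul]
  refine (QuotientAddGroup.eq_zero_iff _).2 ?_
  rw [NSub, AddSubgroup.mem_addSubgroupOf]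
  obtain ⟨w, hw, n, rfl⟩ := ha
  refine ⟨ℓ • w, d.hℓW w hw, n, ?_⟩
  show ℓ • (incl x l w + n • tElt x l z) = _
  rw [smul_add, map_nsmul, mul_smul, natCast_zsmul]

include d in
/-- **elements acting trivially on `EQ`**. -/
theorem sub_mem_of_trivial (σ : Γ)
    (hσ : letI := actE d; ∀ e : EQ x l z W W' ℓ, σ • e = e) :
    σ • z - z ∈ W' ∧ ∀ w ∈ W, σ • w - w ∈ W' := by
  letI := actS d
  letI := actE d
  have key : ∀ a : ↥(Sg x l z W), σ • (a : Amb x l) - (a : Amb x l) ∈ Sg' x l z W' ℓ := by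
    intro a
    have h1 := hσ (qE (W' := W') (ℓ := ℓ) a)
    rw [← qE_smul d, ← sub_eq_zero, ← map_sub] at h1
    have h2 := (QuotientAddGroup.eq_zero_iff _).1 h1
    rw [NSub, AddSubgroup.mem_addSubgroupOf] at h2
    exact h2
  constructor
  · have h := key ⟨tElt x l z, ⟨0, W.zero_mem, 1, by simp⟩⟩
    have e : σ • tElt x l z - tElt x l z = incl x l (-(σ • z - z)) + (0 : ℤ) • tElt x l z := by
      rw [smul_tElt, map_neg, zero_smul]
      abel
    rw [show ((⟨tElt x l z, ⟨0, W.zero_mem, 1, by simp⟩⟩ : ↥(Sg x l z W)) : Amb x l) =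
      tElt x l z from rfl, e, mem_Sg'_iff d.hl d.hℓl d.hz] at h
    have := W'.neg_mem h.1
    rwa [neg_neg] at this
  · intro w hw
    have h := key ⟨incl x l w, ⟨w, hw, 0, by simp⟩⟩
    have e : σ • incl x l w - incl x l w = incl x l (σ • w - w) + (0 : ℤ) • tElt x l z := by
      rw [← incl_smul, map_sub, zero_smul, add_zero]
    rw [show ((⟨incl x l w, ⟨w, hw, 0, by simp⟩⟩ : ↥(Sg x l z W)) : Amb x l) =
      incl x l w from rfl, e, mem_Sg'_iff d.hl d.hℓl d.hz] at h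
    exact h.1

end Fermat.Agent.M15.FlatKum2
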