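/-
Programme M15 (target S15), chapter R3 FLAT (helper2): **(FL2) a Kummer class carried by a Hopf order
killed by `ℓ` over the unramified base is a unit class.**

`A` a place of `ℚ̄` over `ℓ`, `E` a finite abelian group killed by `ℓ` with an action of `Iner A` and a
Hopf order over `W₀ A`; `D ⊇ Iner A` a subgroup of `G_ℚ` and `f : D → μ_ℓ` a level cocycle which is
trivial on the inertia elements acting trivially on `E`, these elements fixing `μ_ℓ`.  Then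
`f σ = σ u / u` on `D` for some unit `u` at `A` (`exists_unit_of_isHopfOrder`).

Route: Hilbert 90 on `D` (`FlatHilb2`) gives `β₀`, `a = β₀ ^ ℓ` is `D`-fixed; Fontaine's property for
the kernel `Γ_E` of the inertia action on `E` (`W56/Lift6F`) and the Kummer level theorem
(`W56/KummerLevel7`) give `a = β ^ ℓ u₁` with `β` fixed by the fixer `Γ₀` of `ζ_ℓ` in inertia and `u₁` a
unit; the value group of `ℚ̄^{Γ₀}` has index prime to `ℓ` over that of `ℚ̄^{Iner A}` (`FlatGrp2`), hence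
`ℓ ∣ v(a)` and `u = β₀ / ℓ ^ (v(a)/ℓ)`.  No hypothesis `ℓ ≠ 2`.
-/
import Mathlib
import Fermat.Agent.M15.FlatHilb2
import Fermat.Agent.M15.FlatGrp2
import Fermat.Agent.W56.Lift6F
import Fermat.Agent.W56.KummerLevel7
import Fermat.Agent.W56.TameData8
import Fermat.Agent.T33.WZero2
import Fermat.Agent.M15.DevVal5

set_option autoImplicit false
set_option linter.unusedSectionVars false
set_option linter.style.haveILetI false

namespace Fermat.Agent.M15.FlatUnit2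

open Fermat.Agent.FF.InertiaWire8 Fermat.Agent.FF.SubOrd1 Fermat.Agent.FF.HopfOrderB
  Fermat.Agent.FF.HopfOrderC Fermat.Agent.W56.FontDef6 Fermat.Agent.W56.KummerLevel7
  Fermat.Agent.W56.TameData8 Fermat.Agent.W56.RamInstA7

variable {A : ValuationSubring Qb} {ℓ : ℕ}

/-- the fixer of `ζ` in the inertia group. -/
def fixer (A : ValuationSubring Qb) (ζ : Qb) : Subgroup GQ where
  carrier := {σ | σ ∈ Iner A ∧ σ ζ = ζ}
  mul_mem' := by
    rintro a b ⟨ha, ha'⟩ ⟨hb, hb'⟩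
    exact ⟨mul_mem ha hb, by rw [AlgEquiv.mul_apply, hb', ha']⟩
  one_mem' := ⟨one_mem _, rfl⟩
  inv_mem' := by
    rintro a ⟨ha, ha'⟩
    refine ⟨inv_mem ha, ?_⟩
    show a⁻¹ ζ = ζ
    conv_lhs => rw [← ha']
    rw [← AlgEquiv.mul_apply, inv_mul_cancel, AlgEquiv.one_apply]

theorem mem_fixer {ζ : Qb} {σ : GQ} : σ ∈ fixer A ζ ↔ σ ∈ Iner A ∧ σ ζ = ζ := Iff.rfl

theorem fixer_le (ζ : Qb) : fixer A ζ ≤ Iner A := fun _ h => h.1

/-- `σ ^ (ℓ - 1)` fixes a primitive `ℓ`-th root of unity. -/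
theorem pow_pred_mem_fixer (hℓ : ℓ.Prime) {ζ : Qb} (hζ : IsPrimitiveRoot ζ ℓ) {σ : GQ}
    (hσ : σ ∈ Iner A) : σ ^ (ℓ - 1) ∈ fixer A ζ := by
  refine ⟨pow_mem hσ _, ?_⟩
  haveI : NeZero ℓ := ⟨hℓ.ne_zero⟩
  have h1 : (σ ζ) ^ ℓ = 1 := by rw [← map_pow, hζ.pow_eq_one, map_one]
  obtain ⟨i, -, hi⟩ := hζ.eq_pow_of_pow_eq_one h1
  have hpow : ∀ j : ℕ, (σ ^ j) ζ = ζ ^ (i ^ j) := by
    intro j
    induction j with
    | zero => simp
    | succ j ih =>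
      rw [pow_succ, AlgEquiv.mul_apply, ← hi, map_pow, ih, ← pow_mul, ← pow_succ]
  rw [hpow]
  have hcop : Nat.Coprime i ℓ := by
    rw [Nat.coprime_comm, Nat.Prime.coprime_iff_not_dvd hℓ]
    rintro ⟨c, rfl⟩
    rw [pow_mul, hζ.pow_eq_one, one_pow] at hi
    have h2 : ζ = 1 := by
      have := congrArg σ.symm hi
      rw [map_one, AlgEquiv.symm_apply_apply] at this
      exact this.symm
    exact hζ.ne_one hℓ.one_lt h2
  have h3 : i ^ (ℓ - 1) ≡ 1 [MOD ℓ] := by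
    have := Nat.ModEq.pow_totient hcop
    rwa [Nat.totient_prime hℓ] at this
  have h4 : ζ ^ (i ^ (ℓ - 1)) = ζ ^ 1 := pow_eq_pow_of_modEq h3 hζ.pow_eq_one
  rw [h4, pow_one]

/-- a principal unit has valuation one. -/
theorem val_eq_one_of_div_mem (hA : A.LiesOverPrime ℓ) (hℓ : ℓ.Prime) {u : Qb}
    (hu : (u - 1) / (ℓ : Qb) ∈ A) : A.valuation u = 1 := by
  have hℓ0 : (ℓ : Qb) ≠ 0 := Nat.cast_ne_zero.2 hℓ.ne_zero
  have hvℓ : A.valuation (ℓ : Qb) < 1 := (ValuationSubring.mem_nonunits_iff A).1 hA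
  have h1 : u = 1 + (ℓ : Qb) * ((u - 1) / (ℓ : Qb)) := by field_simp; ring
  rw [h1]
  apply Valuation.map_one_add_of_lt
  rw [map_mul]
  calc A.valuation (ℓ : Qb) * A.valuation ((u - 1) / (ℓ : Qb))
      ≤ A.valuation (ℓ : Qb) * 1 := by
        gcongr
        exact (A.valuation_le_one_iff _).2 hu
    _ = A.valuation (ℓ : Qb) := mul_one _
    _ < 1 := hvℓ


/-- the roots of `X ^ ℓ - 1` in `ℚ̄` form a finite set. -/
theorem finite_roots_of_unity (hℓ : ℓ.Prime) : {x : Qb | x ^ ℓ = 1}.Finite := by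
  have hpos : 0 < ℓ := hℓ.pos
  refine ((Polynomial.nthRootsFinset ℓ (1 : Qb)).finite_toSet).subset ?_
  intro x hx
  rw [Finset.mem_coe, Polynomial.mem_nthRootsFinset hpos]
  exact hx

set_option maxHeartbeats 1600000 in
/-- **(FL2)**. -/
theorem exists_unit_of_isHopfOrder (hℓ : ℓ.Prime) (hA : A.LiesOverPrime ℓ)
    {E : Type*} [AddCommGroup E] [Finite E] [DistribMulAction (Iner A) E]
    (hℓE : ∀ z : E, ℓ • z = 0)
    {H : Subalgebra (W0 A) (E → Qb)} (hH : IsHopfOrder (Iner A) H)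
    (D : Subgroup GQ) (hID : Iner A ≤ D)
    (f : GQ → Qb) (hf1 : ∀ σ ∈ D, f σ ^ ℓ = 1)
    (hmul : ∀ σ ∈ D, ∀ τ ∈ D, f (σ * τ) = f σ * σ (f τ))
    (F : IntermediateField ℚ Qb) [FiniteDimensional ℚ F]
    (hlev : ∀ σ ∈ D, ∀ γ ∈ D, γ ∈ F.fixingSubgroup → f (σ * γ) = f σ)
    (hfE : ∀ σ : Iner A, (∀ z : E, σ • z = z) → f (σ : GQ) = 1)
    (hζE : ∀ σ : Iner A, (∀ z : E, σ • z = z) → ∀ ζ : Qb, ζ ^ ℓ = 1 → (σ : GQ) ζ = ζ) :
    ∃ u : Qb, A.valuation u = 1 ∧ ∀ σ ∈ D, f σ * u = σ u := by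
  classical
  have hℓ0 : (ℓ : Qb) ≠ 0 := Nat.cast_ne_zero.2 hℓ.ne_zero
  have hvℓ1 : A.valuation (ℓ : Qb) < 1 := (ValuationSubring.mem_nonunits_iff A).1 hA
  have hvℓ0 : 0 < A.valuation (ℓ : Qb) := zero_lt_iff.2 ((map_ne_zero _).2 hℓ0)
  -- 1. Hilbert 90 on `D`
  have hSfin : {x : Qb | x ^ ℓ = 1}.Finite := finite_roots_of_unity hℓ
  haveI : Finite {x : Qb | x ^ ℓ = 1} := hSfin.to_subtype
  have hadj : FiniteDimensional ℚ (IntermediateField.adjoin ℚ {x : Qb | x ^ ℓ = 1}) :=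
    IntermediateField.finiteDimensional_adjoin
      (fun x _ => (Algebra.IsAlgebraic.isAlgebraic (R := ℚ) x).isIntegral)
  let F' : IntermediateField ℚ Qb := F ⊔ IntermediateField.adjoin ℚ {x : Qb | x ^ ℓ = 1}
  haveI hF'fin : FiniteDimensional ℚ F' := IntermediateField.finiteDimensional_sup F _
  have hf0 : ∀ σ ∈ D, f σ ≠ 0 := by
    intro σ hσ h0
    have := hf1 σ hσ
    rw [h0, zero_pow hℓ.ne_zero] at this
    exact zero_ne_one this
  obtain ⟨β₀, hβ₀0, hβ₀⟩ := Fermat.Agent.M15.FlatHilb2.exists_hilbert90 D f hf0 hmul F'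
    (fun σ hσ => (le_sup_right : IntermediateField.adjoin ℚ {x : Qb | x ^ ℓ = 1} ≤ F')
      (IntermediateField.subset_adjoin ℚ _ (hf1 σ hσ)))
    (fun σ hσ γ hγ hγF => hlev σ hσ γ hγ
      (IntermediateField.fixingSubgroup_antitone (le_sup_left : F ≤ F') hγF))
  -- 2. the Kummer radical
  set a : Qb := β₀ ^ ℓ with ha
  have ha0 : a ≠ 0 := pow_ne_zero _ hβ₀0
  have haD : ∀ σ ∈ D, σ a = a := by
    intro σ hσ
    rw [ha, map_pow, ← hβ₀ σ hσ, mul_pow, hf1 σ hσ, one_mul]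
  -- 3. the kernel of the inertia action on `E`
  let φE : ↥(Iner A) →* Equiv.Perm E := MulAction.toPermHom (↥(Iner A)) E
  let ΓE : Subgroup GQ := kerG φE
  have hadm : Adm A ΓE := adm_kerG φE
  have hΓ : ∀ σ : Iner A, (σ : GQ) ∈ ΓE ↔ ∀ z : E, σ • z = z := by
    intro σ
    rw [coe_mem_kerG]
    constructor
    · intro h z
      have := congrArg (fun e : Equiv.Perm E => e z) h
      exact this
    · intro h
      apply Equiv.ext
      intro z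
      exact h z
  have hΓ' : ∀ σ ∈ ΓE, ∃ h : σ ∈ Iner A, ∀ z : E, (⟨σ, h⟩ : Iner A) • z = z := by
    intro σ hσ
    have hI : σ ∈ Iner A := hadm.le hσ
    exact ⟨hI, (hΓ ⟨σ, hI⟩).1 hσ⟩
  -- 4. Fontaine's property
  haveI := Fermat.Agent.T33.WZero2.isDiscreteValuationRing_W0 hℓ hA
  letI := FractionRing.liftAlgebra (W0 A) Qb
  haveI := hH.finite
  obtain ⟨n, bH, -, hli⟩ := exists_basis_card_le (R := W0 A) (K := FractionRing (W0 A))
    (Kbar := Qb) (Γ := Iner A) (Fermat.Agent.T33.WZero2.hfix hℓ hA) hH.equivariant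
  have hFont : FontaineProp A ℓ ΓE :=
    Fermat.Agent.W56.Lift6F.fontaineProp_of_isHopfOrder hℓ hA hℓE (fun r => r.2) hH bH hli
      hadm.le hΓ
  -- 5. the Kummer level theorem
  haveI : NeZero (ℓ : Qb) := ⟨hℓ0⟩
  obtain ⟨ζ, hζ⟩ := HasEnoughRootsOfUnity.exists_primitiveRoot Qb ℓ
  have hle : ΓE ≤ fixer A ζ := by
    intro σ hσ
    obtain ⟨hI, hz⟩ := hΓ' σ hσ
    exact ⟨hI, hζE ⟨σ, hI⟩ hz ζ hζ.pow_eq_one⟩
  have hβ₀Γ : ∀ σ ∈ ΓE, σ β₀ = β₀ := by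
    intro σ hσ
    obtain ⟨hI, hz⟩ := hΓ' σ hσ
    rw [← hβ₀ σ (hID hI), hfE ⟨σ, hI⟩ hz, one_mul]
  obtain ⟨β, u₁, hβ0, hβΓ₀, -, hau, hu₁A⟩ := kummer_level hℓ hA hle (fixer_le ζ) hadm.norm
    hadm.fin hζ (fun σ hσ => hσ.2) hFont ha0 (fun σ hσ => haD σ (hID hσ.1)) rfl hβ₀Γ
  have hvu₁ : A.valuation u₁ = 1 := val_eq_one_of_div_mem hA hℓ hu₁A
  -- 6. valuations
  obtain ⟨m, hm⟩ := Fermat.Agent.M15.DevVal5.valuation_eq_zpow_of_fixed A hℓ hA a ha0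
    (fun τ hτ => haD τ (hID hτ))
  obtain ⟨π₀, hπ₀0, -, -, hcard, hvalgrp⟩ := exists_unif_fixed hℓ hA hadm (fixer_le (A := A) ζ)
  obtain ⟨k, hk⟩ := hvalgrp β hβ0 hβΓ₀ (fun σ hσ => hβΓ₀ σ (hle hσ))
  have hvπ0 : 0 < A.valuation π₀ := zero_lt_iff.2 ((map_ne_zero _).2 hπ₀0)
  have hGpos : 0 < Nat.card ↥(GG hadm) := Nat.card_pos
  have hNpos : 0 < Nat.card ↥(imG hadm (fixer A ζ)) := Nat.card_pos
  have hvπ1 : A.valuation π₀ ≠ 1 := by
    intro h1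
    rw [h1, one_pow] at hcard
    exact absurd hcard.symm (pow_lt_one₀ hvℓ0.le hvℓ1 hNpos.ne').ne
  have hva : A.valuation a = A.valuation π₀ ^ ((ℓ : ℤ) * k) := by
    rw [hau, map_mul, map_pow, hvu₁, mul_one, hk, ← zpow_natCast, ← zpow_mul, mul_comm]
  have hkey : m * (Nat.card ↥(GG hadm) : ℤ) =
      (ℓ : ℤ) * k * (Nat.card ↥(imG hadm (fixer A ζ)) : ℤ) := by
    apply zpow_right_injective₀ hvπ0 hvπ1
    show A.valuation π₀ ^ (m * (Nat.card ↥(GG hadm) : ℤ)) =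
      A.valuation π₀ ^ ((ℓ : ℤ) * k * (Nat.card ↥(imG hadm (fixer A ζ)) : ℤ))
    rw [mul_comm m, zpow_mul, zpow_natCast, hcard, ← zpow_natCast, ← zpow_mul, mul_comm,
      zpow_mul, ← hm, hva, ← zpow_mul]
  have hdvd : (ℓ : ℤ) ∣ m := by
    refine Fermat.Agent.M15.FlatGrp2.dvd_of_mul_card_eq (imG hadm (fixer A ζ)) hℓ
      (r := ℓ - 1) ?_ ?_ m k hkey
    · have := (Nat.coprime_primes hℓ hℓ).not.2 (not_not.2 rfl)
      rw [Nat.coprime_comm, Nat.Prime.coprime_iff_not_dvd hℓ]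
      intro hd
      have := Nat.le_of_dvd (by have := hℓ.two_le; omega) hd
      have := hℓ.two_le
      omega
    · intro g
      obtain ⟨σ, rfl⟩ := MonoidHom.rangeRestrict_surjective (rho hadm) g
      rw [← map_pow]
      exact Subgroup.mem_map.2 ⟨σ ^ (ℓ - 1), Subgroup.mem_subgroupOf.2
        (by simpa using pow_pred_mem_fixer hℓ hζ σ.2), rfl⟩
  -- 7. the unit
  obtain ⟨m', rfl⟩ := hdvd
  refine ⟨β₀ / (ℓ : Qb) ^ m', ?_, ?_⟩
  · have hpow : A.valuation (β₀ / (ℓ : Qb) ^ m') ^ ℓ = 1 := by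
      rw [← map_pow, div_pow, ← ha, map_div₀, hm, ← zpow_natCast ((ℓ : Qb) ^ m'), ← zpow_mul,
        map_zpow₀, mul_comm]
      exact div_self (zpow_ne_zero _ hvℓ0.ne')
    rcases lt_trichotomy (A.valuation (β₀ / (ℓ : Qb) ^ m')) 1 with h | h | h
    · exact absurd hpow (pow_lt_one₀ zero_le h hℓ.ne_zero).ne
    · exact h
    · exact absurd hpow (one_lt_pow₀ h hℓ.ne_zero).ne'
  · intro σ hσ
    rw [map_div₀, map_zpow₀, map_natCast, ← hβ₀ σ hσ, mul_div_assoc]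

end Fermat.Agent.M15.FlatUnit2
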