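/-
Programme M15 (target S15), chapter R3 FLAT (helper2): **(PROP-μ) the propagated Kummer classes at
`ℓ` on a multiplicative piece are unit classes.**

`A` a place of `ℚ̄` over `ℓ ∤ p`, `D ⊇ Iner A` a subgroup of `G_ℚ`; `x ∈ J₀(p)` fixed by `D`,
`ℓ^k z = x`; `W' ≤ W ≤ J₀(p)[ℓ^k]` stable under `D` with `ℓ W ⊆ W'` and `σ z - z ∈ W` for `σ ∈ D`;
`χ : W → μ_ℓ ⊆ ℚ̄ˣ` additive-to-multiplicative, `D`-equivariant, trivial on `W'`.  Then
`σ ↦ χ (σ z - z)` is the Kummer cocycle of a unit at `A`: `χ (σ z - z) * u = σ u` for `σ ∈ D`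
(`exists_unit_kummer`).  No condition on `ℓ` (in particular `ℓ = 2` is allowed).

Route: (HO) `ExtFinal2` (Hopf order on the Kummer extension module), the subquotient
`EQ = (W + ℤ t)/(W' + ℤ ℓ t)` of `FlatKum2` (killed by `ℓ`), `FlatAct2` (Hopf order on a subquotient),
(FL2) `FlatUnit2`.
-/
import Mathlib
import Fermat.Agent.M15.ExtFinal2
import Fermat.Agent.FF.RedIface9
import Fermat.Agent.M15.FlatKum2
import Fermat.Agent.M15.FlatUnit2

set_option autoImplicit false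
set_option linter.unusedSectionVars false
set_option linter.style.haveILetI false
set_option synthInstance.maxHeartbeats 400000

open AlgebraicCurve ModularCurve IsLocalRing

namespace Fermat.Agent.M15.FlatProp2

open Fermat.Agent.FF.InertiaWire8 Fermat.Agent.FF.SubOrd1 Fermat.Agent.M15.ExtAmbient2
  Fermat.Agent.M15.FlatKum2 Fermat.Agent.M15.FlatAct2 Fermat.Agent.FF.RedIface9
  Fermat.Agent.RED.Interface4 Fermat.Agent.ES.RED Fermat.Agent.FF.Shapes8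
  Fermat.Agent.ES.HECKE.LevelPullback12

/-- **(HO) for the concrete model**: the Kummer extension module of an inertia-fixed point carries a
Hopf order over `(W₀ A, Iner A)`. -/
theorem exists_hopfOrder_kext (p : ℕ) [NeZero p] (ℓ : ℕ) [Fact ℓ.Prime] (hℓp : ¬ ℓ ∣ p)
    (A : ValuationSubring Qb) (hA : A.LiesOverPrime ℓ)
    (x : FixedPt (Iner A) (JZero p)) (l : ℕ) (hl : l ≠ 0) :
    ∃ H : Subalgebra (W0 A) (↥(KExt x l) → Qb), IsHopfOrder (Iner A) H := by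
  have hℓ : ℓ.Prime := Fact.out
  haveI := Fermat.Agent.RED.LVL.LevelDegree17.neZero_auxLevel ℓ p
  set m := redModel ℓ hℓ A hA (auxLevel ℓ p) (hauptLevel_auxLevel hℓ hℓp) with hm
  obtain ⟨H, hH, -, -⟩ := Fermat.Agent.M15.ExtFinal2.exists_connOrder_kext_aux p ℓ hℓp A hA m.rPl
    (m.isPlaceReduction hA) (fun τ hτ P => m.rPl_smul_inertia hA hτ P) (m.red hA)
    (Fermat.Agent.FF.RedConcrete5.red_mk_eq_zero_iff m.rPl (m.isPlaceReduction hA)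
      (m.principalGenerated hA))
    (fun τ hτ y => m.red_smul_inertia hA hτ y) x l hl
  exact ⟨H, hH⟩


section Char

variable {P : Type*} [AddCommGroup P] (W : AddSubgroup P) (χ : P → Qb)

/-- `χ (n • w) = χ w ^ n`. -/
theorem chi_nsmul (hχ0 : χ 0 = 1) (hχmul : ∀ w ∈ W, ∀ w' ∈ W, χ (w + w') = χ w * χ w')
    {w : P} (hw : w ∈ W) (n : ℕ) : χ (n • w) = χ w ^ n := by
  induction n with
  | zero => rw [zero_smul, pow_zero, hχ0]
  | succ n ih => rw [succ_nsmul, hχmul _ (W.nsmul_mem hw n) _ hw, ih, pow_succ]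

end Char

set_option maxHeartbeats 1600000 in
/-- **(PROP-μ)**. -/
theorem exists_unit_kummer (p : ℕ) [NeZero p] (ℓ : ℕ) [Fact ℓ.Prime] (hℓp : ¬ ℓ ∣ p)
    (A : ValuationSubring Qb) (hA : A.LiesOverPrime ℓ) (D : Subgroup GQ) (hID : Iner A ≤ D)
    (k : ℕ) (x z : JZero p) (hx : ∀ σ ∈ D, σ • x = x) (hz : ℓ ^ k • z = x)
    (W W' : AddSubgroup (JZero p)) (hWW : W' ≤ W) (hWl : ∀ w ∈ W, ℓ ^ k • w = 0)
    (hW : ∀ σ ∈ D, ∀ w ∈ W, σ • w ∈ W) (hW' : ∀ σ ∈ D, ∀ w ∈ W', σ • w ∈ W')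
    (hzW : ∀ σ ∈ D, σ • z - z ∈ W) (hℓW : ∀ w ∈ W, ℓ • w ∈ W')
    (χ : JZero p → Qb) (hχmul : ∀ w ∈ W, ∀ w' ∈ W, χ (w + w') = χ w * χ w')
    (hχW' : ∀ w ∈ W', χ w = 1) (hχD : ∀ σ ∈ D, ∀ w ∈ W, χ (σ • w) = σ (χ w))
    (F : IntermediateField ℚ Qb) [FiniteDimensional ℚ F]
    (hzF : ∀ γ ∈ D, γ ∈ F.fixingSubgroup → γ • z = z) :
    ∃ u : Qb, A.valuation u = 1 ∧ ∀ σ ∈ D, χ (σ • z - z) * u = σ u := by
  classical
  have hℓ : ℓ.Prime := Fact.out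
  have hχ0 : χ 0 = 1 := hχW' 0 W'.zero_mem
  have hχℓ : ∀ w ∈ W, χ w ^ ℓ = 1 := fun w hw => by
    rw [← chi_nsmul W χ hχ0 hχmul hw ℓ]
    exact hχW' _ (hℓW w hw)
  -- the trivial case
  by_cases htriv : ∀ w ∈ W, χ w = 1
  · exact ⟨1, map_one _, fun σ hσ => by rw [htriv _ (hzW σ hσ), one_mul, map_one]⟩
  push Not at htriv
  obtain ⟨w₀, hw₀, hχw₀⟩ := htriv
  -- `k ≠ 0`
  have hk : k ≠ 0 := by
    rintro rfl
    apply hχw₀
    have := hWl w₀ hw₀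
    rw [pow_zero, one_smul] at this
    rw [this, hχ0]
  have hl : ℓ ^ k ≠ 0 := pow_ne_zero k hℓ.ne_zero
  -- the data
  let x' : FixedPt (Iner A) (JZero p) := ⟨x, fun σ => hx (σ : GQ) (hID σ.2)⟩
  have d : KumData x' (ℓ ^ k) z W W' ℓ :=
    { hl := hl
      hℓl := dvd_pow_self ℓ hk
      hz := hz
      hWW := hWW
      hWl := hWl
      hW := fun σ w hw => hW (σ : GQ) (hID σ.2) w hw
      hW' := fun σ w hw => hW' (σ : GQ) (hID σ.2) w hw
      hzW := fun σ => hzW (σ : GQ) (hID σ.2)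
      hℓW := hℓW }
  letI := actS d
  letI := actE d
  haveI : Finite ↥(KExt x' (ℓ ^ k)) := finite_KExt x' (ℓ ^ k) hl
    (Fermat.Agent.ES.KUM.FiniteTorsion15.finite_setOf_nsmul_eq_zero p (ℓ ^ k))
  haveI : Finite ↥(Sg x' (ℓ ^ k) z W) := Finite.of_injective (ιS d) (ιS_injective d)
  haveI : Finite (EQ x' (ℓ ^ k) z W W' ℓ) :=
    Finite.of_surjective (qE (x := x') (l := ℓ ^ k) (z := z) (W := W) (W' := W') (ℓ := ℓ))
      qE_surjective
  obtain ⟨H₀, hH₀⟩ := exists_hopfOrder_kext p ℓ hℓp A hA x' (ℓ ^ k) hl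
  obtain ⟨H', hH'⟩ := exists_isHopfOrder_subquotient hℓ hA hH₀ (ιS d) (ιS_injective d)
    (fun σ s => ιS_smul d σ s) (qE (x := x') (l := ℓ ^ k) (z := z) (W := W) (W' := W') (ℓ := ℓ))
    qE_surjective (fun σ s => qE_smul d σ s)
  -- the cocycle
  have hsplit : ∀ σ τ : GQ, (σ * τ) • z - z = σ • (τ • z - z) + (σ • z - z) := by
    intro σ τ
    rw [mul_smul, smul_sub]
    abel
  refine Fermat.Agent.M15.FlatUnit2.exists_unit_of_isHopfOrder hℓ hA (nsmul_EQ d) hH' D hID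
    (fun σ => χ (σ • z - z)) (fun σ hσ => hχℓ _ (hzW σ hσ)) ?_ F ?_ ?_ ?_
  · intro σ hσ τ hτ
    show χ ((σ * τ) • z - z) = χ (σ • z - z) * σ (χ (τ • z - z))
    rw [hsplit, hχmul _ (hW σ hσ _ (hzW τ hτ)) _ (hzW σ hσ), hχD σ hσ _ (hzW τ hτ), mul_comm]
  · intro σ hσ γ hγ hγF
    show χ ((σ * γ) • z - z) = χ (σ • z - z)
    rw [mul_smul, hzF γ hγ hγF]
  · intro σ hσ
    have h := (sub_mem_of_trivial d σ hσ).1
    exact hχW' _ h
  · intro σ hσ ζ hζ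
    have h : (σ : GQ) • w₀ - w₀ ∈ W' := (sub_mem_of_trivial d σ hσ).2 w₀ hw₀
    -- `σ` fixes `χ w₀`, a primitive root
    have h1 : (σ : GQ) (χ w₀) = χ w₀ := by
      rw [← hχD (σ : GQ) (hID σ.2) w₀ hw₀]
      have e : (σ : GQ) • w₀ = w₀ + ((σ : GQ) • w₀ - w₀) := by abel
      rw [e, hχmul _ hw₀ _ (hWW h), hχW' _ h, mul_one]
    have hprim : IsPrimitiveRoot (χ w₀) ℓ := by
      have := IsPrimitiveRoot.orderOf (χ w₀)
      rwa [orderOf_eq_prime (hχℓ w₀ hw₀) hχw₀] at this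
    obtain ⟨i, -, hi⟩ := hprim.eq_pow_of_pow_eq_one hζ
    rw [← hi, map_pow, h1]

end Fermat.Agent.M15.FlatProp2
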