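/-
Programme M15 (target S15), chapter (HALF), helper5: **power traces determine the characteristic
polynomial** (characteristic zero).  Mathlib only.

* `trace_pow_eq_sum_roots` : over an algebraically closed field, `tr (f ^ k) = ∑ μ^k` over the roots
  of the characteristic polynomial (via the generalized eigenspace decomposition);
* `multiset_eq_of_power_sums` : two multisets in a field of characteristic zero with the same power
  sums are equal;
* `charpoly_eq_of_trace_pow_eq` : `∀ k, tr (f₁ ^ k) = tr (f₂ ^ k) → f₁.charpoly = f₂.charpoly`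
  (the two endomorphisms may live on different spaces);
* `matrix_charpoly_eq_of_trace_pow_eq` : the same for matrices.
-/
import Mathlib

set_option autoImplicit false

namespace Fermat.Agent.M15.HalfTrace5

open Module Polynomial

section closed

variable {K : Type*} [Field K] {V : Type*} [AddCommGroup V] [Module K V] [FiniteDimensional K V]

/-- On a generalized eigenspace, `tr (g ^ k) = μ ^ k * dim`. -/
theorem trace_pow_of_isNilpotent_sub {W : Type*} [AddCommGroup W] [Module K W]
    [FiniteDimensional K W] (g : End K W) (μ : K) (hg : IsNilpotent (g - algebraMap K _ μ))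
    (k : ℕ) : LinearMap.trace K W (g ^ k) = μ ^ k * (finrank K W : K) := by
  induction k with
  | zero =>
    rw [pow_zero, pow_zero, one_mul]
    exact LinearMap.trace_one K W
  | succ k ih =>
    rw [pow_succ, Module.End.mul_eq_comp,
      LinearMap.trace_comp_eq_mul_of_commute_of_isNilpotent μ
        ((Commute.refl g).pow_left k) hg, ih, pow_succ]
    ring

omit [FiniteDimensional K V] in
theorem restrict_pow_eq {W : Submodule K V} (f : End K V) (hf : Set.MapsTo f W W) (k : ℕ)
    (hk : Set.MapsTo (f ^ k) W W) : (f ^ k).restrict hk = (f.restrict hf) ^ k := by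
  ext x
  rw [Module.End.pow_restrict k hf]

/-- Over an algebraically closed field, `tr (f ^ k)` is the sum over the eigenvalues `μ` of
`μ ^ k * dim (generalized eigenspace)`. -/
theorem trace_pow_eq_sum_eigen [DecidableEq K] [IsAlgClosed K] (f : End K V) (k : ℕ) :
    LinearMap.trace K V (f ^ k) =
      ∑ μ ∈ f.charpoly.roots.toFinset, μ ^ k * (f.charpoly.rootMultiplicity μ : K) := by
  have hds := DirectSum.isInternal_submodule_of_iSupIndep_of_iSup_eq_top
    f.independent_maxGenEigenspace (Module.End.iSup_maxGenEigenspace_eq_top f)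
  have h_fin : {μ | f.maxGenEigenspace μ ≠ ⊥}.Finite :=
    WellFoundedGT.finite_ne_bot_of_iSupIndep f.independent_maxGenEigenspace
  have hf : ∀ μ, Set.MapsTo f (f.maxGenEigenspace μ) (f.maxGenEigenspace μ) :=
    fun μ => f.mapsTo_maxGenEigenspace_of_comm rfl μ
  have hfk : ∀ μ, Set.MapsTo (f ^ k) (f.maxGenEigenspace μ) (f.maxGenEigenspace μ) :=
    fun μ => f.mapsTo_maxGenEigenspace_of_comm ((Commute.refl f).pow_right k) μ
  rw [LinearMap.trace_eq_sum_trace_restrict' hds h_fin hfk]
  have hterm : ∀ μ, LinearMap.trace K _ ((f ^ k).restrict (hfk μ)) =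
      μ ^ k * (f.charpoly.rootMultiplicity μ : K) := by
    intro μ
    rw [restrict_pow_eq f (hf μ) k (hfk μ),
      trace_pow_of_isNilpotent_sub _ μ (f.isNilpotent_restrict_maxGenEigenspace_sub_algebraMap μ),
      LinearMap.finrank_maxGenEigenspace_eq]
  simp_rw [hterm]
  apply Finset.sum_subset_zero_on_sdiff
  · intro μ hμ
    rw [Set.Finite.mem_toFinset, Set.mem_ofPred_eq] at hμ
    rw [Multiset.mem_toFinset, Polynomial.mem_roots (LinearMap.charpoly_monic f).ne_zero,
      ← Polynomial.rootMultiplicity_pos (LinearMap.charpoly_monic f).ne_zero,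
      ← LinearMap.finrank_maxGenEigenspace_eq, Module.finrank_pos_iff]
    exact Submodule.nontrivial_iff_ne_bot.mpr hμ
  · intro μ hμ
    rw [Finset.mem_sdiff, Set.Finite.mem_toFinset, Set.mem_ofPred_eq, not_not] at hμ
    rw [← LinearMap.finrank_maxGenEigenspace_eq, hμ.2, finrank_bot, Nat.cast_zero, mul_zero]
  · intro μ _
    rfl

/-- Over an algebraically closed field, `tr (f ^ k)` is the `k`-th power sum of the roots of the
characteristic polynomial. -/
theorem trace_pow_eq_sum_roots [IsAlgClosed K] (f : End K V) (k : ℕ) :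
    LinearMap.trace K V (f ^ k) = (f.charpoly.roots.map (fun μ => μ ^ k)).sum := by
  classical
  rw [trace_pow_eq_sum_eigen, Finset.sum_multiset_map_count]
  refine Finset.sum_congr rfl fun μ _ => ?_
  rw [Polynomial.count_roots, nsmul_eq_mul, mul_comm]

end closed

section powersums

variable {K : Type*} [Field K]

/-- The character `n ↦ μ ^ n` of the additive monoid `ℕ`. -/
def powChar (μ : K) : Multiplicative ℕ →* K where
  toFun n := μ ^ (Multiplicative.toAdd n)
  map_one' := pow_zero μ
  map_mul' _ _ := pow_add μ _ _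

theorem powChar_injective : Function.Injective (powChar : K → Multiplicative ℕ →* K) := by
  intro μ ν h
  have := DFunLike.congr_fun h (Multiplicative.ofAdd 1)
  simpa [powChar] using this

/-- Distinct geometric sequences are linearly independent. -/
theorem eq_zero_of_sum_mul_pow_eq_zero (S : Finset K) (c : K → K)
    (h : ∀ k : ℕ, ∑ μ ∈ S, c μ * μ ^ k = 0) : ∀ μ ∈ S, c μ = 0 := by
  have hli := (linearIndependent_monoidHom (Multiplicative ℕ) K).comp
    (powChar : K → Multiplicative ℕ →* K) powChar_injective
  refine linearIndependent_iff'.mp hli S c ?_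
  funext n
  have := h (Multiplicative.toAdd n)
  simpa [powChar, Finset.sum_apply] using this

/-- Two multisets in a field of characteristic zero with the same power sums are equal. -/
theorem multiset_eq_of_power_sums [CharZero K] (s₁ s₂ : Multiset K)
    (h : ∀ k : ℕ, (s₁.map (fun μ => μ ^ k)).sum = (s₂.map (fun μ => μ ^ k)).sum) : s₁ = s₂ := by
  classical
  have key : ∀ μ ∈ s₁.toFinset ∪ s₂.toFinset, ((s₁.count μ : K) - (s₂.count μ : K)) = 0 := by
    apply eq_zero_of_sum_mul_pow_eq_zero
    intro k
    have h1 : (s₁.map (fun μ => μ ^ k)).sum =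
        ∑ μ ∈ s₁.toFinset ∪ s₂.toFinset, (s₁.count μ : K) * μ ^ k := by
      rw [Finset.sum_multiset_map_count]
      simp_rw [nsmul_eq_mul]
      apply Finset.sum_subset Finset.subset_union_left
      intro μ _ hμ
      rw [Multiset.mem_toFinset] at hμ
      rw [Multiset.count_eq_zero_of_notMem hμ, Nat.cast_zero, zero_mul]
    have h2 : (s₂.map (fun μ => μ ^ k)).sum =
        ∑ μ ∈ s₁.toFinset ∪ s₂.toFinset, (s₂.count μ : K) * μ ^ k := by
      rw [Finset.sum_multiset_map_count]
      simp_rw [nsmul_eq_mul]
      apply Finset.sum_subset Finset.subset_union_right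
      intro μ _ hμ
      rw [Multiset.mem_toFinset] at hμ
      rw [Multiset.count_eq_zero_of_notMem hμ, Nat.cast_zero, zero_mul]
    simp_rw [sub_mul]
    rw [Finset.sum_sub_distrib, ← h1, ← h2, h k, sub_self]
  ext μ
  by_cases hμ : μ ∈ s₁.toFinset ∪ s₂.toFinset
  · have := key μ hμ
    rw [sub_eq_zero] at this
    exact_mod_cast this
  · rw [Finset.mem_union, not_or, Multiset.mem_toFinset, Multiset.mem_toFinset] at hμ
    rw [Multiset.count_eq_zero_of_notMem hμ.1, Multiset.count_eq_zero_of_notMem hμ.2]

end powersums

section general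

variable {K : Type*} [Field K] [CharZero K]
  {V₁ : Type*} [AddCommGroup V₁] [Module K V₁] [FiniteDimensional K V₁]
  {V₂ : Type*} [AddCommGroup V₂] [Module K V₂] [FiniteDimensional K V₂]

/-- Algebraically closed case. -/
theorem charpoly_eq_of_trace_pow_eq_closed [IsAlgClosed K] (f₁ : End K V₁) (f₂ : End K V₂)
    (h : ∀ k : ℕ, LinearMap.trace K V₁ (f₁ ^ k) = LinearMap.trace K V₂ (f₂ ^ k)) :
    f₁.charpoly = f₂.charpoly := by
  have hroots : f₁.charpoly.roots = f₂.charpoly.roots := by
    apply multiset_eq_of_power_sums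
    intro k
    rw [← trace_pow_eq_sum_roots, ← trace_pow_eq_sum_roots, h k]
  rw [(IsAlgClosed.splits f₁.charpoly).eq_prod_roots_of_monic (LinearMap.charpoly_monic f₁),
    (IsAlgClosed.splits f₂.charpoly).eq_prod_roots_of_monic (LinearMap.charpoly_monic f₂), hroots]

/-- **Power traces determine the characteristic polynomial** (characteristic zero). -/
theorem charpoly_eq_of_trace_pow_eq (f₁ : End K V₁) (f₂ : End K V₂)
    (h : ∀ k : ℕ, LinearMap.trace K V₁ (f₁ ^ k) = LinearMap.trace K V₂ (f₂ ^ k)) :
    f₁.charpoly = f₂.charpoly := by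
  have hcl := charpoly_eq_of_trace_pow_eq_closed
    (f₁.baseChange (AlgebraicClosure K)) (f₂.baseChange (AlgebraicClosure K)) (by
      intro k
      rw [← LinearMap.baseChange_pow, ← LinearMap.baseChange_pow, LinearMap.trace_baseChange,
        LinearMap.trace_baseChange, h k])
  rw [LinearMap.charpoly_baseChange, LinearMap.charpoly_baseChange] at hcl
  exact Polynomial.map_injective _ (algebraMap K (AlgebraicClosure K)).injective hcl

end general

section matrix

variable {K : Type*} [Field K] [CharZero K] {m n : Type*} [Fintype m] [DecidableEq m]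
  [Fintype n] [DecidableEq n]

/-- **Power traces determine the characteristic polynomial**, matrix form. -/
theorem matrix_charpoly_eq_of_trace_pow_eq (A : Matrix m m K) (B : Matrix n n K)
    (h : ∀ k : ℕ, (A ^ k).trace = (B ^ k).trace) : A.charpoly = B.charpoly := by
  rw [← Matrix.charpoly_toLin' A, ← Matrix.charpoly_toLin' B]
  apply charpoly_eq_of_trace_pow_eq
  intro k
  rw [← Matrix.toLin'_pow, ← Matrix.toLin'_pow, Matrix.trace_toLin'_eq, Matrix.trace_toLin'_eq, h k]

end matrix

end Fermat.Agent.M15.HalfTrace5
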