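/-
Programme M15 (target S15), chapter (HALF), helper5: **the block determinant lemma**.  Mathlib +
`HalfTrace5`.

`M = [[A, B], [C, D]]`, and there is `a₂` with `a₂ C = C A`, `C B = a₂ D - χ`, and `A`, `a₂` have the
same characteristic polynomial.  Then `det M = χ ^ (size of D)`.

This is the linear algebra behind (HALF-det): `M = ρ(g)` in a basis adapted to complex conjugation
`c` (`+1`-eigenspace first), `A = a|V⁺`, `a₂ = a|V⁻` where `a = (t_g + t_{cg})/2` is a Hecke
operator.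
-/
import Mathlib
import Fermat.Agent.M15.HalfTrace5

set_option autoImplicit false
set_option linter.unusedSectionVars false

namespace Fermat.Agent.M15.HalfBlock5

open Matrix Polynomial

section ring

variable {R : Type*} [CommRing R] {m₁ m₂ : Type*} [Fintype m₁] [DecidableEq m₁] [Fintype m₂]
  [DecidableEq m₂]

/-- The key identity, over any commutative ring, without inverses. -/
theorem det_mul_det_fromBlocks (A : Matrix m₁ m₁ R) (B : Matrix m₁ m₂ R) (C : Matrix m₂ m₁ R)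
    (D : Matrix m₂ m₂ R) (a₂ : Matrix m₂ m₂ R) (χ s : R) (h1 : a₂ * C = C * A)
    (h2 : C * B = a₂ * D - χ • 1) :
    (a₂ - s • 1).det * (fromBlocks (A - s • 1) B C D).det =
      (A - s • 1).det * (χ • 1 - s • D).det := by
  have hL : (fromBlocks (1 : Matrix m₁ m₁ R) 0 (-C) (a₂ - s • 1)).det = (a₂ - s • 1).det := by
    rw [Matrix.det_fromBlocks_zero₁₂, Matrix.det_one, one_mul]
  have hprod : fromBlocks (1 : Matrix m₁ m₁ R) 0 (-C) (a₂ - s • 1) * fromBlocks (A - s • 1) B C D =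
      fromBlocks (A - s • 1) B 0 (χ • 1 - s • D) := by
    rw [Matrix.fromBlocks_multiply]
    congr 1
    · rw [Matrix.one_mul, Matrix.zero_mul, add_zero]
    · rw [Matrix.one_mul, Matrix.zero_mul, add_zero]
    · rw [Matrix.neg_mul, Matrix.mul_sub, Matrix.sub_mul, h1, Matrix.mul_smul, Matrix.smul_mul,
        Matrix.mul_one, Matrix.one_mul]
      abel
    · rw [Matrix.neg_mul, h2, Matrix.sub_mul, Matrix.smul_mul, Matrix.one_mul]
      abel
  rw [← hL, ← Matrix.det_mul, hprod, Matrix.det_fromBlocks_zero₂₁]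

end ring

section field

variable {K : Type*} [Field K] {m₁ m₂ : Type*} [Fintype m₁] [DecidableEq m₁] [Fintype m₂]
  [DecidableEq m₂]

theorem det_map_sub_X (A : Matrix m₁ m₁ K) :
    (A.map (C : K → K[X]) - (X : K[X]) • (1 : Matrix m₁ m₁ K[X])).det =
      (-1) ^ Fintype.card m₁ * A.charpoly := by
  have h : A.map (C : K → K[X]) - (X : K[X]) • (1 : Matrix m₁ m₁ K[X]) = -(charmatrix A) := by
    ext i j
    by_cases hij : i = j
    · subst hij
      simp
    · simp [hij]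
  rw [h, Matrix.det_neg, Matrix.charpoly]

theorem eval_zero_fromBlocks (A : Matrix m₁ m₁ K) (B : Matrix m₁ m₂ K) (C' : Matrix m₂ m₁ K)
    (D : Matrix m₂ m₂ K) :
    (evalRingHom (0 : K)).mapMatrix
        (fromBlocks (A.map (C : K → K[X]) - (X : K[X]) • (1 : Matrix m₁ m₁ K[X]))
          (B.map (C : K → K[X])) (C'.map (C : K → K[X])) (D.map (C : K → K[X]))) =
      fromBlocks A B C' D := by
  ext (i | i) (j | j) <;> simp [Matrix.one_apply]
  split_ifs <;> simp

theorem eval_zero_scalar (D : Matrix m₂ m₂ K) (χ : K) :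
    (evalRingHom (0 : K)).mapMatrix
        ((C χ : K[X]) • (1 : Matrix m₂ m₂ K[X]) - (X : K[X]) • D.map (C : K → K[X])) =
      χ • (1 : Matrix m₂ m₂ K) := by
  ext i j
  simp only [RingHom.mapMatrix_apply, Matrix.map_apply, Matrix.sub_apply, Matrix.smul_apply,
    Matrix.one_apply, coe_evalRingHom, smul_eq_mul, eval_sub, eval_mul, eval_C, eval_X, zero_mul,
    sub_zero]
  split_ifs <;> simp

/-- **The block determinant lemma.** -/
theorem det_fromBlocks_eq_pow (A : Matrix m₁ m₁ K) (B : Matrix m₁ m₂ K) (C' : Matrix m₂ m₁ K)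
    (D : Matrix m₂ m₂ K) (a₂ : Matrix m₂ m₂ K) (χ : K) (h1 : a₂ * C' = C' * A)
    (h2 : C' * B = a₂ * D - χ • 1) (h3 : A.charpoly = a₂.charpoly) :
    (fromBlocks A B C' D).det = χ ^ Fintype.card m₂ := by
  have hcard : Fintype.card m₁ = Fintype.card m₂ := by
    rw [← Matrix.charpoly_natDegree_eq_dim A, h3, Matrix.charpoly_natDegree_eq_dim]
  have h1' : a₂.map (C : K → K[X]) * C'.map (C : K → K[X]) =
      C'.map (C : K → K[X]) * A.map (C : K → K[X]) := by
    have := congrArg (fun M : Matrix m₂ m₁ K => M.map (C : K → K[X])) h1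
    simpa [Matrix.map_mul] using this
  have h2' : C'.map (C : K → K[X]) * B.map (C : K → K[X]) =
      a₂.map (C : K → K[X]) * D.map (C : K → K[X]) - (C χ : K[X]) • 1 := by
    have := congrArg (fun M : Matrix m₂ m₂ K => M.map (C : K → K[X])) h2
    simp only [Matrix.map_mul] at this
    rw [this]
    ext i j
    simp only [Matrix.map_apply, Matrix.sub_apply, Matrix.smul_apply, Matrix.one_apply,
      smul_eq_mul, C_sub, C_mul, Matrix.mul_apply, map_sum]
    split_ifs <;> simp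
  have key := det_mul_det_fromBlocks (A.map (C : K → K[X])) (B.map (C : K → K[X]))
    (C'.map (C : K → K[X])) (D.map (C : K → K[X])) (a₂.map (C : K → K[X])) (C χ) X h1' h2'
  rw [det_map_sub_X, det_map_sub_X, hcard, h3] at key
  have hne : (-1 : K[X]) ^ Fintype.card m₂ * a₂.charpoly ≠ 0 :=
    mul_ne_zero (pow_ne_zero _ (neg_ne_zero.mpr one_ne_zero)) (Matrix.charpoly_monic a₂).ne_zero
  have key2 := mul_left_cancel₀ hne key
  have key3 := congrArg (evalRingHom (0 : K)) key2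
  rw [RingHom.map_det, RingHom.map_det, eval_zero_fromBlocks, eval_zero_scalar] at key3
  rw [key3, Matrix.det_smul, Matrix.det_one, mul_one]

end field

section signed

variable {K : Type*} [Field K] [CharZero K] {m₁ m₂ : Type*} [Fintype m₁] [DecidableEq m₁]
  [Fintype m₂] [DecidableEq m₂]

/-- The matrix of an involution in an adapted basis: `diag(1, …, 1, -1, …, -1)`. -/
def Jm (K : Type*) [Field K] (m₁ m₂ : Type*) [DecidableEq m₁] [DecidableEq m₂] :
    Matrix (m₁ ⊕ m₂) (m₁ ⊕ m₂) K :=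
  Matrix.diagonal (Sum.elim (fun _ => 1) (fun _ => -1))

theorem Jm_eq_fromBlocks : Jm K m₁ m₂ = fromBlocks 1 0 0 (-1) := by
  ext (i | i) (j | j) <;> simp [Jm, Matrix.diagonal_apply, Matrix.one_apply]
  split_ifs <;> simp

theorem one_add_Jm : 1 + Jm K m₁ m₂ = Matrix.diagonal (Sum.elim (fun _ => 2) (fun _ => 0)) := by
  rw [Jm, ← Matrix.diagonal_one, Matrix.diagonal_add]
  congr 1
  funext i
  rcases i with i | i <;> norm_num

theorem one_sub_Jm : 1 - Jm K m₁ m₂ = Matrix.diagonal (Sum.elim (fun _ => 0) (fun _ => 2)) := by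
  rw [Jm, ← Matrix.diagonal_one, Matrix.diagonal_sub]
  congr 1
  funext i
  rcases i with i | i <;> norm_num

theorem offdiag_of_comm_Jm (a : Matrix (m₁ ⊕ m₂) (m₁ ⊕ m₂) K) (h : a * Jm K m₁ m₂ = Jm K m₁ m₂ * a) :
    (∀ i j, a (Sum.inl i) (Sum.inr j) = 0) ∧ (∀ i j, a (Sum.inr i) (Sum.inl j) = 0) := by
  refine ⟨fun i j => ?_, fun i j => ?_⟩
  · have := congrFun (congrFun h (Sum.inl i)) (Sum.inr j)
    simp only [Jm, Matrix.mul_diagonal, Matrix.diagonal_mul, Sum.elim_inl, Sum.elim_inr] at this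
    linear_combination (-1 / 2 : K) * this
  · have := congrFun (congrFun h (Sum.inr i)) (Sum.inl j)
    simp only [Jm, Matrix.mul_diagonal, Matrix.diagonal_mul, Sum.elim_inl, Sum.elim_inr] at this
    linear_combination (1 / 2 : K) * this

theorem eq_fromBlocks_of_comm_Jm (a : Matrix (m₁ ⊕ m₂) (m₁ ⊕ m₂) K)
    (h : a * Jm K m₁ m₂ = Jm K m₁ m₂ * a) : a = fromBlocks a.toBlocks₁₁ 0 0 a.toBlocks₂₂ := by
  obtain ⟨h12, h21⟩ := offdiag_of_comm_Jm a h
  ext (i | i) (j | j)
  · rfl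
  · exact h12 i j
  · exact h21 i j
  · rfl

/-- **The block determinant lemma, in a basis adapted to an involution `J`.**
`a`, `t` commute with `J`; `P⁺ M P⁺ = a P⁺`, `P⁻ M P⁻ = (t - a) P⁻`; `M² - t M + χ = 0`;
`tr (a ^ k J) = 0` for all `k`.  Then `det M = χ ^ (multiplicity of -1)`, and the multiplicities of
`+1` and `-1` agree. -/
theorem det_eq_pow_of_Jm (Mm a t : Matrix (m₁ ⊕ m₂) (m₁ ⊕ m₂) K) (χ : K)
    (haJ : a * Jm K m₁ m₂ = Jm K m₁ m₂ * a) (htJ : t * Jm K m₁ m₂ = Jm K m₁ m₂ * t)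
    (hpp : (1 + Jm K m₁ m₂) * Mm * (1 + Jm K m₁ m₂) = (2 : K) • (a * (1 + Jm K m₁ m₂)))
    (hmm : (1 - Jm K m₁ m₂) * Mm * (1 - Jm K m₁ m₂) = (2 : K) • ((t - a) * (1 - Jm K m₁ m₂)))
    (hrel : Mm * Mm - t * Mm + χ • 1 = 0)
    (htr : ∀ k : ℕ, (a ^ k * Jm K m₁ m₂).trace = 0) :
    Mm.det = χ ^ Fintype.card m₂ ∧ Fintype.card m₁ = Fintype.card m₂ := by
  -- the diagonal blocks of `M`
  have hA : ∀ i j, Mm (Sum.inl i) (Sum.inl j) = a (Sum.inl i) (Sum.inl j) := by
    intro i j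
    have := congrFun (congrFun hpp (Sum.inl i)) (Sum.inl j)
    simp only [one_add_Jm, Matrix.mul_diagonal, Matrix.diagonal_mul, Sum.elim_inl,
      Matrix.smul_apply, smul_eq_mul] at this
    linear_combination (1 / 4 : K) * this
  have hD : ∀ i j, Mm (Sum.inr i) (Sum.inr j) = t (Sum.inr i) (Sum.inr j) - a (Sum.inr i) (Sum.inr j) := by
    intro i j
    have := congrFun (congrFun hmm (Sum.inr i)) (Sum.inr j)
    simp only [one_sub_Jm, Matrix.mul_diagonal, Matrix.diagonal_mul, Sum.elim_inr,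
      Matrix.smul_apply, smul_eq_mul, Matrix.sub_apply] at this
    linear_combination (1 / 4 : K) * this
  have ha := eq_fromBlocks_of_comm_Jm a haJ
  have ht := eq_fromBlocks_of_comm_Jm t htJ
  set a₁ := a.toBlocks₁₁ with ha₁
  set a₂ := a.toBlocks₂₂ with ha₂
  set t₁ := t.toBlocks₁₁ with ht₁
  set t₂ := t.toBlocks₂₂ with ht₂
  set B := Mm.toBlocks₁₂ with hB
  set C' := Mm.toBlocks₂₁ with hC
  have hM : Mm = fromBlocks a₁ B C' (t₂ - a₂) := by
    ext (i | i) (j | j)
    · exact hA i j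
    · rfl
    · rfl
    · exact hD i j
  -- the relation in blocks
  have hrel' : fromBlocks (a₁ * a₁ + B * C' - t₁ * a₁ + χ • 1) (a₁ * B + B * (t₂ - a₂) - t₁ * B)
      (C' * a₁ + (t₂ - a₂) * C' - t₂ * C') (C' * B + (t₂ - a₂) * (t₂ - a₂) - t₂ * (t₂ - a₂) + χ • 1)
      = (0 : Matrix (m₁ ⊕ m₂) (m₁ ⊕ m₂) K) := by
    rw [← hrel, hM, ht]
    ext (i | i) (j | j) <;>
      simp [Matrix.fromBlocks_multiply, Matrix.one_apply]
  rw [← Matrix.fromBlocks_zero, Matrix.fromBlocks_inj] at hrel'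
  obtain ⟨-, -, h21, h22⟩ := hrel'
  have h1 : a₂ * C' = C' * a₁ := by
    have : C' * a₁ - a₂ * C' = C' * a₁ + (t₂ - a₂) * C' - t₂ * C' := by
      rw [Matrix.sub_mul]
      abel
    rw [← sub_eq_zero, ← neg_sub, this, h21, neg_zero]
  have h2 : C' * B = a₂ * (t₂ - a₂) - χ • 1 := by
    have : C' * B - (a₂ * (t₂ - a₂) - χ • 1) =
        C' * B + (t₂ - a₂) * (t₂ - a₂) - t₂ * (t₂ - a₂) + χ • 1 := by
      rw [Matrix.sub_mul t₂ a₂ (t₂ - a₂)]
      abel
    rw [← sub_eq_zero, this, h22]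
  -- the traces
  have htr' : ∀ k : ℕ, (a₁ ^ k).trace = (a₂ ^ k).trace := by
    intro k
    have := htr k
    rw [ha, Matrix.fromBlocks_diagonal_pow, Jm_eq_fromBlocks, Matrix.fromBlocks_multiply,
      Matrix.trace] at this
    rw [Fintype.sum_sum_type] at this
    simp only [Matrix.diag_apply, Matrix.fromBlocks_apply₁₁, Matrix.fromBlocks_apply₂₂,
      Matrix.mul_one, Matrix.mul_zero, add_zero, zero_add, Matrix.mul_neg, Matrix.neg_apply,
      Finset.sum_neg_distrib] at this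
    rw [← sub_eq_add_neg, sub_eq_zero] at this
    exact this
  have hchar : a₁.charpoly = a₂.charpoly :=
    Fermat.Agent.M15.HalfTrace5.matrix_charpoly_eq_of_trace_pow_eq a₁ a₂ htr'
  refine ⟨?_, ?_⟩
  · rw [hM]
    exact det_fromBlocks_eq_pow a₁ B C' (t₂ - a₂) a₂ χ h1 h2 hchar
  · rw [← Matrix.charpoly_natDegree_eq_dim a₁, hchar, Matrix.charpoly_natDegree_eq_dim]

end signed

end Fermat.Agent.M15.HalfBlock5
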