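/-
Programme M15 (target S15), chapter (HALF), helper5: **the determinant of `ρ(g)` from the
Eichler–Shimura relation and the vanishing of the traces `tr(h ∘ c)`**, operator form and
representation form.  Mathlib + `HalfTrace5`, `HalfBlock5`.

* `exists_adapted_basis` : an involution `c` of a finite dimensional space in characteristic zero
  has the matrix `diag(1,…,1,-1,…,-1)` in a suitable basis;
* `det_eq_pow_of_involution` : operator form of the block determinant lemma;
* `half_det` : `ρ : G →* End K V`, `χ : G →* K`, `c ∈ G` with `c² = 1`, `χ(c) = -1`; if all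
  `t_g = ρ(g) + χ(g) ρ(g)⁻¹` commute with `ρ(G)` and `tr(h ∘ ρ(c)) = 0` for every `h` in the algebra
  generated by the `t_g`, then `det ρ(g) = χ(g) ^ lam` for all `g`, where
  `lam = dim ker(ρ(c) + 1) = dim ker(ρ(c) - 1)`.
-/
import Mathlib
import Fermat.Agent.M15.HalfBlock5

set_option autoImplicit false
set_option linter.unusedSectionVars false

namespace Fermat.Agent.M15.HalfOp5

open Module Matrix Fermat.Agent.M15.HalfBlock5

section adapted

variable {K : Type*} [Field K] [CharZero K] {V : Type*} [AddCommGroup V] [Module K V]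
  [FiniteDimensional K V]

theorem isCompl_ker_of_involution (c : End K V) (hc : c * c = 1) :
    IsCompl (LinearMap.ker (c - 1)) (LinearMap.ker (c + 1)) := by
  have hcc : ∀ x, c (c x) = x := fun x => by
    have := LinearMap.congr_fun hc x
    simpa using this
  constructor
  · rw [Submodule.disjoint_def]
    intro x h1 h2
    rw [LinearMap.mem_ker] at h1 h2
    have e1 : c x = x := by
      have : c x - x = 0 := by simpa using h1
      exact sub_eq_zero.mp this
    have e2 : c x = -x := by
      have : c x + x = 0 := by simpa using h2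
      exact eq_neg_of_add_eq_zero_left this
    have : (2 : K) • x = 0 := by
      rw [two_smul]
      nth_rewrite 1 [← e1]
      rw [e2, neg_add_cancel]
    exact (smul_eq_zero.mp this).resolve_left two_ne_zero
  · rw [codisjoint_iff, eq_top_iff]
    intro x _
    have hx : x = (2 : K)⁻¹ • (x + c x) + (2 : K)⁻¹ • (x - c x) := by
      rw [← smul_add, add_add_sub_cancel, ← two_smul K x, smul_smul, inv_mul_cancel₀ two_ne_zero,
        one_smul]
    rw [hx]
    refine Submodule.add_mem_sup (Submodule.smul_mem _ _ ?_) (Submodule.smul_mem _ _ ?_)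
    · rw [LinearMap.mem_ker, LinearMap.sub_apply, Module.End.one_apply, map_add, hcc]
      abel
    · rw [LinearMap.mem_ker, LinearMap.add_apply, Module.End.one_apply, map_sub, hcc]
      abel

/-- An adapted basis for an involution. -/
theorem exists_adapted_basis (c : End K V) (hc : c * c = 1) :
    ∃ (n₁ n₂ : ℕ) (b : Basis (Fin n₁ ⊕ Fin n₂) K V),
      n₁ = finrank K (LinearMap.ker (c - 1)) ∧ n₂ = finrank K (LinearMap.ker (c + 1)) ∧
      LinearMap.toMatrixAlgEquiv b c = Jm K (Fin n₁) (Fin n₂) := by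
  have hcompl := isCompl_ker_of_involution c hc
  let bp := Module.finBasis K (LinearMap.ker (c - 1))
  let bm := Module.finBasis K (LinearMap.ker (c + 1))
  let b : Basis (Fin (finrank K (LinearMap.ker (c - 1))) ⊕ Fin (finrank K (LinearMap.ker (c + 1))))
      K V := (bp.prod bm).map (Submodule.prodEquivOfIsCompl _ _ hcompl)
  have hbl : ∀ i, b (Sum.inl i) = (bp i : V) := by
    intro i
    show (Submodule.prodEquivOfIsCompl _ _ hcompl) ((bp.prod bm) (Sum.inl i)) = _
    rw [Submodule.coe_prodEquivOfIsCompl', Basis.prod_apply_inl_fst, Basis.prod_apply_inl_snd,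
      Submodule.coe_zero, add_zero]
  have hbr : ∀ i, b (Sum.inr i) = (bm i : V) := by
    intro i
    show (Submodule.prodEquivOfIsCompl _ _ hcompl) ((bp.prod bm) (Sum.inr i)) = _
    rw [Submodule.coe_prodEquivOfIsCompl', Basis.prod_apply_inr_fst, Basis.prod_apply_inr_snd,
      Submodule.coe_zero, zero_add]
  have hcl : ∀ i, c (b (Sum.inl i)) = b (Sum.inl i) := by
    intro i
    have h' : (c - 1) (bp i : V) = 0 := LinearMap.mem_ker.mp (bp i).2
    rw [LinearMap.sub_apply, Module.End.one_apply] at h'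
    rw [hbl]
    exact sub_eq_zero.mp h'
  have hcr : ∀ i, c (b (Sum.inr i)) = -b (Sum.inr i) := by
    intro i
    have h' : (c + 1) (bm i : V) = 0 := LinearMap.mem_ker.mp (bm i).2
    rw [LinearMap.add_apply, Module.End.one_apply] at h'
    rw [hbr]
    exact eq_neg_of_add_eq_zero_left h'
  refine ⟨_, _, b, rfl, rfl, ?_⟩
  ext i j
  rw [LinearMap.toMatrixAlgEquiv_apply, Jm, Matrix.diagonal_apply]
  rcases j with j | j
  · rw [hcl, Basis.repr_self, Finsupp.single_apply]
    by_cases h : i = Sum.inl j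
    · subst h
      simp
    · rw [if_neg (Ne.symm h), if_neg h]
  · rw [hcr, map_neg, Basis.repr_self, Finsupp.neg_apply, Finsupp.single_apply]
    by_cases h : i = Sum.inr j
    · subst h
      simp
    · rw [if_neg (Ne.symm h), if_neg h, neg_zero]

/-- **The block determinant lemma, operator form.** -/
theorem det_eq_pow_of_involution (c M a t : End K V) (χ : K) (hc : c * c = 1)
    (hac : a * c = c * a) (htc : t * c = c * t)
    (hpp : (1 + c) * M * (1 + c) = (2 : K) • (a * (1 + c)))
    (hmm : (1 - c) * M * (1 - c) = (2 : K) • ((t - a) * (1 - c)))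
    (hrel : M * M - t * M + χ • 1 = 0)
    (htr : ∀ k : ℕ, LinearMap.trace K V (a ^ k * c) = 0) :
    LinearMap.det M = χ ^ finrank K (LinearMap.ker (c + 1)) ∧
      finrank K (LinearMap.ker (c - 1)) = finrank K (LinearMap.ker (c + 1)) := by
  obtain ⟨n₁, n₂, b, h₁, h₂, hJ⟩ := exists_adapted_basis c hc
  have hφ : ∀ f : End K V, LinearMap.toMatrixAlgEquiv b f = LinearMap.toMatrix b b f :=
    fun _ => rfl
  have key := det_eq_pow_of_Jm (LinearMap.toMatrixAlgEquiv b M) (LinearMap.toMatrixAlgEquiv b a)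
    (LinearMap.toMatrixAlgEquiv b t) χ
    (by rw [← hJ, ← map_mul, ← map_mul, hac])
    (by rw [← hJ, ← map_mul, ← map_mul, htc])
    (by rw [← hJ, ← map_one (LinearMap.toMatrixAlgEquiv b), ← map_add, ← map_mul, ← map_mul, hpp,
      map_smul, map_mul])
    (by rw [← hJ, ← map_one (LinearMap.toMatrixAlgEquiv b), ← map_sub, ← map_mul, ← map_mul, hmm,
      map_smul, map_mul, map_sub])
    (by rw [← map_one (LinearMap.toMatrixAlgEquiv b), ← map_mul, ← map_mul, ← map_sub, ← map_smul,
      ← map_add, hrel, map_zero])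
    (by
      intro k
      rw [← hJ, ← map_pow, ← map_mul, hφ, ← LinearMap.trace_eq_matrix_trace K b, htr k])
  rw [Fintype.card_fin, Fintype.card_fin, hφ, LinearMap.det_toMatrix] at key
  rw [← h₁, ← h₂]
  exact key

end adapted

section rep

variable {K : Type*} [Field K] [CharZero K] {V : Type*} [AddCommGroup V] [Module K V]
  [FiniteDimensional K V] {G : Type*} [Group G]

/-- The Hecke-type operator `t_g = ρ(g) + χ(g) ρ(g)⁻¹`. -/
def tOp (ρ : G →* End K V) (χ : G →* K) (g : G) : End K V := ρ g + χ g • ρ g⁻¹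

theorem ring_identity_plus {A : Type*} [Ring A] [Algebra K A] (M Mi cc : A) (x : K)
    (hcc : cc * cc = 1) :
    ((M + x • Mi) + (cc * M - x • (Mi * cc))) * (1 + cc) = (1 + cc) * M * (1 + cc) := by
  have h : ((M + x • Mi) + (cc * M - x • (Mi * cc))) * (1 + cc) =
      (1 + cc) * M * (1 + cc) + x • (Mi - Mi * (cc * cc)) := by
    simp only [mul_add, add_mul, sub_mul, mul_one, one_mul, smul_mul_assoc, mul_assoc, smul_sub]
    abel
  rw [h, hcc, mul_one, sub_self, smul_zero, add_zero]

theorem ring_identity_minus {A : Type*} [Ring A] [Algebra K A] (M Mi cc : A) (x : K)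
    (hcc : cc * cc = 1) :
    ((M + x • Mi) - (cc * M - x • (Mi * cc))) * (1 - cc) = (1 - cc) * M * (1 - cc) := by
  have h : ((M + x • Mi) - (cc * M - x • (Mi * cc))) * (1 - cc) =
      (1 - cc) * M * (1 - cc) + x • (Mi - Mi * (cc * cc)) := by
    simp only [mul_sub, sub_mul, add_mul, mul_one, one_mul, smul_mul_assoc, mul_assoc, smul_sub]
    abel
  rw [h, hcc, mul_one, sub_self, smul_zero, add_zero]

/-- **(HALF), representation form.**  If the operators `t_g = ρ(g) + χ(g) ρ(g)⁻¹` commute with
`ρ(G)` (Eichler–Shimura for all `g`) and `tr(h ∘ ρ(c)) = 0` for all `h` in the algebra they generate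
(`c` an element of order two with `χ(c) = -1`), then `det ρ(g) = χ(g) ^ lam` with
`lam = dim ker(ρ(c) + 1) = dim ker(ρ(c) - 1)`. -/
theorem half_det (ρ : G →* End K V) (χ : G →* K) (c : G) (hc : c * c = 1) (hχc : χ c = -1)
    (hES : ∀ g h : G, Commute (tOp ρ χ g) (ρ h))
    (hCPM : ∀ x ∈ Algebra.adjoin K (Set.range (tOp ρ χ)), LinearMap.trace K V (x * ρ c) = 0) :
    (∀ g : G, LinearMap.det (ρ g) = χ g ^ finrank K (LinearMap.ker (ρ c + 1))) ∧
      finrank K (LinearMap.ker (ρ c - 1)) = finrank K (LinearMap.ker (ρ c + 1)) := by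
  have hcc : ρ c * ρ c = 1 := by rw [← map_mul, hc, map_one]
  have hcinv : c⁻¹ = c := inv_eq_of_mul_eq_one_right hc
  have main : ∀ g : G, LinearMap.det (ρ g) = χ g ^ finrank K (LinearMap.ker (ρ c + 1)) ∧
      finrank K (LinearMap.ker (ρ c - 1)) = finrank K (LinearMap.ker (ρ c + 1)) := by
    intro g
    have ht' : tOp ρ χ (c * g) = ρ c * ρ g - χ g • (ρ g⁻¹ * ρ c) := by
      rw [tOp, map_mul, map_mul, hχc, _root_.mul_inv_rev, hcinv, map_mul, neg_one_mul, neg_smul,
        sub_eq_add_neg]
    have h2 : (2 : K) ≠ 0 := two_ne_zero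
    have h2a : (2 : K) • ((2 : K)⁻¹ • (tOp ρ χ g + tOp ρ χ (c * g))) =
        tOp ρ χ g + tOp ρ χ (c * g) := by
      rw [smul_smul, mul_inv_cancel₀ h2, one_smul]
    have h2b : (2 : K) • (tOp ρ χ g - (2 : K)⁻¹ • (tOp ρ χ g + tOp ρ χ (c * g))) =
        tOp ρ χ g - tOp ρ χ (c * g) := by
      rw [smul_sub, h2a, two_smul]
      abel
    refine det_eq_pow_of_involution (ρ c) (ρ g) ((2 : K)⁻¹ • (tOp ρ χ g + tOp ρ χ (c * g)))
      (tOp ρ χ g) (χ g) hcc ?_ ?_ ?_ ?_ ?_ ?_
    · rw [smul_mul_assoc, mul_smul_comm, add_mul, mul_add, (hES g c).eq, (hES (c * g) c).eq]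
    · exact (hES g c).eq
    · rw [← smul_mul_assoc, h2a, ht']
      exact (ring_identity_plus (ρ g) (ρ g⁻¹) (ρ c) (χ g) hcc).symm
    · rw [← smul_mul_assoc, h2b, ht']
      exact (ring_identity_minus (ρ g) (ρ g⁻¹) (ρ c) (χ g) hcc).symm
    · have hinv : ρ g⁻¹ * ρ g = 1 := by rw [← map_mul, inv_mul_cancel, map_one]
      rw [tOp, add_mul, smul_mul_assoc, hinv]
      abel
    · intro k
      apply hCPM
      apply Subalgebra.pow_mem
      apply Subalgebra.smul_mem
      exact Subalgebra.add_mem _ (Algebra.subset_adjoin ⟨g, rfl⟩)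
        (Algebra.subset_adjoin ⟨c * g, rfl⟩)
  exact ⟨fun g => (main g).1, (main 1).2⟩

end rep

end Fermat.Agent.M15.HalfOp5
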