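/-
Programme M15 (target S15), chapter (HALF), helper5: **the lattice form of (HALF)**.
Mathlib + `HalfOp5`.

`R` a domain of characteristic zero with fraction field `K`, `Λ` a finite free `R`-module,
`ρ : G →* End R Λ`, `χ : G →* R`, `c ∈ G` of order two with `χ(c) = -1`, `𝕋 ⊆ End R Λ` a subalgebra
containing all `t_g = ρ(g) + χ(g) ρ(g)⁻¹`, commuting with `ρ(G)`, with `tr(x ∘ ρ(c)) = 0` on `𝕋`.
Then `rank Λ = 2 lam`, `det ρ(g) = χ(g) ^ lam`, and `ker(ρ(c) ∓ 1)` both have rank `lam`.
-/
import Mathlib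
import Fermat.Agent.M15.HalfOp5

set_option autoImplicit false
set_option linter.unusedSectionVars false

namespace Fermat.Agent.M15.HalfLat5

open Module TensorProduct Fermat.Agent.M15.HalfOp5

section

variable {R : Type*} [CommRing R] [IsDomain R] (K : Type*) [Field K] [Algebra R K]
  [IsFractionRing R K] {Λ : Type*} [AddCommGroup Λ] [Module R Λ]

/-- The kernel of the base change to the fraction field has the same rank. -/
theorem finrank_ker_baseChange (f : End R Λ) :
    finrank K (LinearMap.ker (f.baseChange K)) = finrank R (LinearMap.ker f) := by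
  have : Module.Flat R K := IsLocalization.flat K (nonZeroDivisors R)
  have e : K ⊗[R] LinearMap.ker f ≃ₗ[K] LinearMap.ker (f.baseChange K) :=
    LinearMap.tensorKerEquiv K K f
  rw [← e.finrank_eq]
  exact (TensorProduct.isBaseChange R (LinearMap.ker f) K).finrank_eq

end

section lattice

variable {R : Type*} [CommRing R] [IsDomain R] (K : Type*) [Field K] [Algebra R K]
  [IsFractionRing R K] [CharZero K] {Λ : Type*} [AddCommGroup Λ] [Module R Λ] [Module.Free R Λ]
  [Module.Finite R Λ] {G : Type*} [Group G]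

/-- The base change of a representation to the fraction field. -/
def rhoK (ρ : G →* End R Λ) : G →* End K (K ⊗[R] Λ) :=
  ((Module.End.baseChangeHom R K Λ : End R Λ →ₐ[R] End K (K ⊗[R] Λ)) : End R Λ →* _).comp ρ

/-- The base change of a character. -/
def chiK (χ : G →* R) : G →* K := ((algebraMap R K : R →+* K) : R →* K).comp χ

theorem rhoK_apply (ρ : G →* End R Λ) (g : G) : rhoK K ρ g = (ρ g).baseChange K := rfl

theorem chiK_apply (χ : G →* R) (g : G) : chiK K χ g = algebraMap R K (χ g) := rfl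

theorem tOp_rhoK (ρ : G →* End R Λ) (χ : G →* R) (g : G) :
    tOp (rhoK K ρ) (chiK K χ) g = (ρ g + χ g • ρ g⁻¹).baseChange K := by
  rw [tOp, rhoK_apply, rhoK_apply, chiK_apply, LinearMap.baseChange_add,
    LinearMap.baseChange_smul, algebraMap_smul]

/-- Elements of the `K`-algebra generated by base changes of elements of `𝕋` are `K`-linear
combinations of base changes of elements of `𝕋`. -/
theorem adjoin_le_span (𝕋 : Subalgebra R (End R Λ)) (s : Set (End K (K ⊗[R] Λ)))
    (hs : ∀ y ∈ s, ∃ z ∈ 𝕋, y = LinearMap.baseChange K z) :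
    ∀ x ∈ Algebra.adjoin K s,
      x ∈ Submodule.span K {y : End K (K ⊗[R] Λ) | ∃ z ∈ 𝕋, y = LinearMap.baseChange K z} := by
  intro x hx
  have hx' : x ∈ Subalgebra.toSubmodule (Algebra.adjoin K s) := hx
  rw [Algebra.adjoin_eq_span] at hx'
  refine Submodule.span_mono ?_ hx'
  intro y hy
  induction hy using Submonoid.closure_induction with
  | mem y hy => exact hs y hy
  | one => exact ⟨1, 𝕋.one_mem, (LinearMap.baseChange_one R Λ).symm⟩
  | mul y₁ y₂ _ _ h₁ h₂ =>
    obtain ⟨z₁, hz₁, rfl⟩ := h₁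
    obtain ⟨z₂, hz₂, rfl⟩ := h₂
    exact ⟨z₁ * z₂, 𝕋.mul_mem hz₁ hz₂, (LinearMap.baseChange_mul z₁ z₂).symm⟩

include K in
/-- **(HALF), lattice form.** -/
theorem half_det_lattice (ρ : G →* End R Λ) (χ : G →* R) (c : G) (hc : c * c = 1)
    (hχc : χ c = -1) (𝕋 : Subalgebra R (End R Λ)) (ht : ∀ g : G, ρ g + χ g • ρ g⁻¹ ∈ 𝕋)
    (hcomm : ∀ x ∈ 𝕋, ∀ h : G, Commute x (ρ h))
    (htr : ∀ x ∈ 𝕋, LinearMap.trace R Λ (x * ρ c) = 0) :
    ∃ lam : ℕ, 2 * lam = finrank R Λ ∧ (∀ g : G, LinearMap.det (ρ g) = χ g ^ lam) ∧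
      finrank R (LinearMap.ker (ρ c - 1)) = lam ∧ finrank R (LinearMap.ker (ρ c + 1)) = lam := by
  have hinj : Function.Injective (algebraMap R K) := IsFractionRing.injective R K
  have hχcK : chiK K χ c = -1 := by rw [chiK_apply, hχc, map_neg, map_one]
  have hES : ∀ g h : G, Commute (tOp (rhoK K ρ) (chiK K χ) g) (rhoK K ρ h) := by
    intro g h
    rw [tOp_rhoK, rhoK_apply]
    show _ * _ = _ * _
    rw [← LinearMap.baseChange_mul, ← LinearMap.baseChange_mul, (hcomm _ (ht g) h).eq]
  have hCPM : ∀ x ∈ Algebra.adjoin K (Set.range (tOp (rhoK K ρ) (chiK K χ))),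
      LinearMap.trace K (K ⊗[R] Λ) (x * rhoK K ρ c) = 0 := by
    have hspan : ∀ y ∈ Submodule.span K
        {y : End K (K ⊗[R] Λ) | ∃ z ∈ 𝕋, y = LinearMap.baseChange K z},
        LinearMap.trace K (K ⊗[R] Λ) (y * rhoK K ρ c) = 0 := by
      intro y hy
      induction hy using Submodule.span_induction with
      | mem y hy =>
        obtain ⟨z, hz, rfl⟩ := hy
        rw [rhoK_apply, ← LinearMap.baseChange_mul, LinearMap.trace_baseChange, htr z hz,
          map_zero]
      | zero => rw [zero_mul, map_zero]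
      | add y₁ y₂ _ _ h₁ h₂ => rw [add_mul, map_add, h₁, h₂, add_zero]
      | smul k y _ h => rw [smul_mul_assoc, map_smul, h, smul_zero]
    intro x hx
    exact hspan x (adjoin_le_span K 𝕋 _ (by
      rintro y ⟨g, rfl⟩
      exact ⟨_, ht g, tOp_rhoK K ρ χ g⟩) x hx)
  obtain ⟨hdet, hrank⟩ := half_det (rhoK K ρ) (chiK K χ) c hc hχcK hES hCPM
  have hplus : rhoK K ρ c + 1 = (ρ c + 1).baseChange K := by
    rw [rhoK_apply, LinearMap.baseChange_add, LinearMap.baseChange_one]
  have hminus : rhoK K ρ c - 1 = (ρ c - 1).baseChange K := by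
    rw [rhoK_apply, LinearMap.baseChange_sub, LinearMap.baseChange_one]
  rw [hplus, hminus, finrank_ker_baseChange, finrank_ker_baseChange] at hrank
  rw [hplus, finrank_ker_baseChange] at hdet
  refine ⟨finrank R (LinearMap.ker (ρ c + 1)), ?_, ?_, hrank, rfl⟩
  · have hcc : rhoK K ρ c * rhoK K ρ c = 1 := by rw [← map_mul, hc, map_one]
    have h := Submodule.finrank_add_eq_of_isCompl (isCompl_ker_of_involution (rhoK K ρ c) hcc)
    rw [hplus, hminus, finrank_ker_baseChange, finrank_ker_baseChange, hrank,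
      Module.finrank_baseChange] at h
    rw [← h, two_mul]
  · intro g
    apply hinj
    have := hdet g
    rw [rhoK_apply, LinearMap.det_baseChange, chiK_apply, ← map_pow] at this
    exact this

end lattice

end Fermat.Agent.M15.HalfLat5
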