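/-
Programme M15 (target S15), chapter (HALF), helper5: **(HALF-det) on `Λ = T_ℓ(J₀(p))_ε`**, by the
block determinant route: `det ρ_Λ(σ) = χ_ℓ(σ) ^ lam` for EVERY `σ`, with the same `lam` as in
(HALF-c) (`rank Λ = 2 lam`, `rank ker(ρ_Λ(c) ∓ 1) = lam`).

Inputs: `HalfLat5.half_det_lattice` (algebra), `EsAll4.tLam_commute_rho` ((ES∀), helper4),
`CpmInst4.cpm_Lam_hecke` ((CPM), helper4).  Output in the literal shape of
`ToricDet3.detAt_of_half`, hence `DetAt` and (through `ToricFinal3.toricBound_hecke`) `ToricBound`.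
-/
import Mathlib
import Fermat.Agent.M15.HalfLat5
import Fermat.Agent.M15.CpmInst4
import Fermat.Agent.M15.ToricDet3
import Fermat.Agent.M15.ToricFinal3

set_option autoImplicit false
set_option linter.unusedSectionVars false
set_option linter.style.longLine false
set_option linter.style.haveILetI false

noncomputable section

namespace Fermat.Agent.M15.HalfDet5

open Module

section abstract

variable {R : Type*} [CommRing R] [IsDomain R] (K : Type*) [Field K] [Algebra R K]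
  [IsFractionRing R K] [CharZero K] {Λ : Type*} [AddCommGroup Λ] [Module R Λ] [Module.Free R Λ]
  [Module.Finite R Λ] {G : Type*} [Group G]

include K in
/-- (HALF), lattice form, with a unit-valued character and the adjoin form of (CPM). -/
theorem half_det_adjoin (ρ : G →* End R Λ) (d : G →* Rˣ) (c : G) (hc : c * c = 1)
    (hdc : ((d c : Rˣ) : R) = -1)
    (hES : ∀ g h : G, Commute (ρ g + ((d g : Rˣ) : R) • ρ g⁻¹) (ρ h))
    (hCPM : ∀ x ∈ Algebra.adjoin R (Set.range fun g : G => ρ g + ((d g : Rˣ) : R) • ρ g⁻¹),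
      LinearMap.trace R Λ (x * ρ c) = 0) :
    ∃ lam : ℕ, finrank R Λ = 2 * lam ∧ finrank R (LinearMap.ker (ρ c - 1)) = lam ∧
      finrank R (LinearMap.ker (ρ c + 1)) = lam ∧
      ∀ g : G, LinearMap.det (ρ g) = ((d g : Rˣ) : R) ^ lam := by
  obtain ⟨lam, h1, h2, h3, h4⟩ := Fermat.Agent.M15.HalfLat5.half_det_lattice K ρ
    ((Units.coeHom R).comp d) c hc hdc
    (Algebra.adjoin R (Set.range fun g : G => ρ g + ((d g : Rˣ) : R) • ρ g⁻¹))
    (fun g => Algebra.subset_adjoin ⟨g, rfl⟩)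
    (by
      intro x hx h
      have hle : Algebra.adjoin R (Set.range fun g : G => ρ g + ((d g : Rˣ) : R) • ρ g⁻¹) ≤
          Subalgebra.centralizer R {ρ h} := by
        rw [Algebra.adjoin_le_iff]
        rintro _ ⟨g, rfl⟩
        rw [SetLike.mem_coe, Subalgebra.mem_centralizer_iff]
        intro y hy
        rw [Set.mem_singleton_iff] at hy
        rw [hy]
        exact ((hES g h).eq).symm
      have := hle hx
      rw [Subalgebra.mem_centralizer_iff] at this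
      exact (this (ρ h) rfl).symm)
    hCPM
  exact ⟨lam, h1.symm, h3, h4, h2⟩

end abstract

section Instance

open Fermat.Agent.M15.EsAll4 Fermat.Agent.M15.CpmInst4 Fermat.Agent.M15.ToricTate3
  Fermat.Agent.M15.Contracts9 ModularCurve Fermat.Agent.ES.J.CycloChar8

local notation "Γ" => (AlgebraicClosure ℚ ≃ₐ[ℚ] AlgebraicClosure ℚ)

variable (ℓ : ℕ) [hℓ : Fact ℓ.Prime] (p : ℕ) [NeZero p]

/-- **(HALF) on `Λ = T_ℓ(J₀(p))_ε`**: `rank Λ = 2 lam`, `rank ker(ρ_Λ(c) ∓ 1) = lam`, and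
`det ρ_Λ(σ) = χ_ℓ(σ) ^ lam` for every `σ`.  Every prime `ℓ` (2 included), unconditional. -/
theorem half_Lam (hp : p.Prime) (ε : ↥(heckeRing p) →+* ZMod ℓ) :
    ∃ lam : ℕ, finrank ℤ_[ℓ] (Lam (JZero p) ε) = 2 * lam ∧
      finrank ℤ_[ℓ] ↥(LinearMap.ker (rhoLam (JZero p) ε complexConjugation - 1)) = lam ∧
      finrank ℤ_[ℓ] ↥(LinearMap.ker (rhoLam (JZero p) ε complexConjugation + 1)) = lam ∧
      ∀ σ : Γ, LinearMap.det (rhoLam (JZero p) ε σ) = ((cyclo ℓ σ : ℤ_[ℓ]ˣ) : ℤ_[ℓ]) ^ lam := by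
  have hfin : Finite {x : JZero p // ℓ • x = 0} := (finite_tors ℓ p).to_subtype
  haveI := (finite_free_Lam (J := JZero p) (ε := ε) hfin).1
  haveI := (finite_free_Lam (J := JZero p) (ε := ε) hfin).2
  have h1 : ∀ g h : Γ, Commute (rhoLam (JZero p) ε g +
      ((cyclo ℓ g : ℤ_[ℓ]ˣ) : ℤ_[ℓ]) • rhoLam (JZero p) ε g⁻¹) (rhoLam (JZero p) ε h) :=
    fun g h => esAll_Lam' ℓ p ε g h
  have h2 : ∀ x ∈ Algebra.adjoin ℤ_[ℓ] (Set.range fun g : Γ => rhoLam (JZero p) ε g +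
      ((cyclo ℓ g : ℤ_[ℓ]ˣ) : ℤ_[ℓ]) • rhoLam (JZero p) ε g⁻¹),
      LinearMap.trace ℤ_[ℓ] (Lam (JZero p) ε) (x * rhoLam (JZero p) ε complexConjugation) = 0 :=
    fun x hx => cpm_Lam_hecke ℓ p hp ε x hx
  have h3 := half_det_adjoin (R := ℤ_[ℓ]) ℚ_[ℓ] (Λ := Lam (JZero p) ε) (rhoLam (JZero p) ε)
    (cyclo ℓ) complexConjugation complexConjugation_mul_self
    (cyclo_complexConjugation (p := ℓ))
  have h4 := h3 h1 h2
  exact h4

/-- (HALF-det) ⇒ `DetAt`, with the `lam` of (HALF-c). -/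
theorem exists_detAt (hp : p.Prime) (ε : ↥(heckeRing p) →+* ZMod ℓ) (hℓp : ℓ ≠ p) :
    ∃ lam : ℕ, finrank ℤ_[ℓ] (Lam (JZero p) ε) = 2 * lam ∧
      finrank ℤ_[ℓ] ↥(LinearMap.ker (rhoLam (JZero p) ε complexConjugation - 1)) = lam ∧
      finrank ℤ_[ℓ] ↥(LinearMap.ker (rhoLam (JZero p) ε complexConjugation + 1)) = lam ∧
      DetAt (JZero p) ε p lam := by
  have H := half_Lam ℓ p hp ε
  obtain ⟨lam, H'⟩ := H
  have h1 := H'.1
  have h2 := H'.2.1
  have h3 := H'.2.2.1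
  have h4 := H'.2.2.2
  have h5 := Fermat.Agent.M15.ToricDet3.detAt_of_half (JZero p) ε (p := p) (lam := lam) hp
    (Ne.symm hℓp)
  have h6 := h5 h4
  exact ⟨lam, h1, h2, h3, h6⟩

/-- (HALF) ⇒ `ToricBound` at `p`, with the `lam` of (HALF-c): everything that
`FlatSDAll2.sharpDescent_of_half` asks besides the Jordan–Hölder chains. -/
theorem exists_toricBound (hp : p.Prime) (ε : ↥(heckeRing p) →+* ZMod ℓ) (hℓp : ℓ ≠ p) :
    ∃ lam : ℕ, finrank ℤ_[ℓ] (Lam (JZero p) ε) = 2 * lam ∧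
      finrank ℤ_[ℓ] ↥(LinearMap.ker (rhoLam (JZero p) ε complexConjugation - 1)) = lam ∧
      finrank ℤ_[ℓ] ↥(LinearMap.ker (rhoLam (JZero p) ε complexConjugation + 1)) = lam ∧
      ToricBound (JZero p) ε ⟨p, hp⟩ lam := by
  have H := exists_detAt ℓ p hp ε hℓp
  obtain ⟨lam, H'⟩ := H
  have h1 := H'.1
  have h2 := H'.2.1
  have h3 := H'.2.2.1
  have h4 := H'.2.2.2
  have h5 := Fermat.Agent.M15.ToricFinal3.toricBound_hecke p hp ℓ ε hℓp (lam := lam)
  have h6 := h5 h4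
  exact ⟨lam, h1, h2, h3, h6⟩

end Instance

end Fermat.Agent.M15.HalfDet5
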