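/-
Programme M15 (S15), chapter (HALF), the instantiation (helper4): **(HALF-det) and DetAt for
`Λ = T_ℓ(J₀(p))_ε`, unconditionally.**

helper5's `HalfLat5.half_det_lattice` (lattice form of the block determinant argument) with
(ES∀) = `EsAll4.tLam_commute_rho` and (CPM) = `CpmInst4.cpm_Lam_hecke`:

* `half_det_hecke` : `∃ lam, 2 lam = rank Λ ∧ (∀ g, det ρ_Λ(g) = χ_ℓ(g)^lam) ∧ rank Λ^± = lam`;
* `det_rhoLam` : `det ρ_Λ(g) = χ_ℓ(g)^lam` whenever `rank Λ = 2 lam`;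
* `detAt_hecke` : `ToricTate3.DetAt (JZero p) ε p lam` whenever `rank Λ = 2 lam` (the hypothesis `hdet` of
  `FlatEnd2.s15_of_w3_jh_det`, literally);
* `toricBound_hecke'` : `ToricBound (JZero p) ε ⟨p, hp⟩ lam` whenever `rank Λ = 2 lam`.
-/
import Mathlib
import Fermat.Agent.M15.CpmInst4
import Fermat.Agent.M15.HalfLat5
import Fermat.Agent.M15.ToricDet3
import Fermat.Agent.M15.ToricFinal3

set_option autoImplicit false
set_option linter.unusedSectionVars false
set_option linter.style.longLine false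
set_option linter.style.haveILetI false

noncomputable section

namespace Fermat.Agent.M15.HalfInst4

open Module

section Algebra

variable {R : Type*} [CommRing R] {M : Type*} [AddCommGroup M] [Module R M]

/-- the centraliser of an element contains the algebra generated by a set it contains. -/
theorem commute_of_mem_adjoin (S : Set (End R M)) (B : End R M) (hS : ∀ t ∈ S, Commute t B)
    (x : End R M) (hx : x ∈ Algebra.adjoin R S) : Commute x B := by
  induction hx using Algebra.adjoin_induction with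
  | mem t ht => exact hS t ht
  | algebraMap r => exact Algebra.commute_algebraMap_left r B
  | add x y _ _ hx hy => exact hx.add_left hy
  | mul x y _ _ hx hy => exact hx.mul_left hy

variable [IsDomain R] (K : Type*) [Field K] [Algebra R K] [IsFractionRing R K] [CharZero K]
  [Module.Free R M] [Module.Finite R M] {G : Type*} [Group G]

include K in
/-- `HalfLat5.half_det_lattice` for `χ : G →* Rˣ` and `𝕋 :=` the algebra generated by the `t_g`. -/
theorem half_det_of_units (ρ : G →* End R M) (d : G →* Rˣ) (c : G) (hc : c * c = 1)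
    (hdc : ((d c : Rˣ) : R) = -1)
    (hES : ∀ g h : G, Commute (ρ g + ((d g : Rˣ) : R) • ρ g⁻¹) (ρ h))
    (hCPM : ∀ x ∈ Algebra.adjoin R (Set.range fun g : G => ρ g + ((d g : Rˣ) : R) • ρ g⁻¹),
      LinearMap.trace R M (x * ρ c) = 0) :
    ∃ lam : ℕ, 2 * lam = finrank R M ∧ (∀ g : G, LinearMap.det (ρ g) = ((d g : Rˣ) : R) ^ lam) ∧
      finrank R (LinearMap.ker (ρ c - 1)) = lam ∧ finrank R (LinearMap.ker (ρ c + 1)) = lam := by
  have h := Fermat.Agent.M15.HalfLat5.half_det_lattice K ρ ((Units.coeHom R).comp d) c hc hdc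
    (Algebra.adjoin R (Set.range fun g : G => ρ g + ((d g : Rˣ) : R) • ρ g⁻¹))
    (fun g => Algebra.subset_adjoin ⟨g, rfl⟩)
    (fun x hx h => commute_of_mem_adjoin _ (ρ h) (by
      rintro _ ⟨g, rfl⟩
      exact hES g h) x hx)
    hCPM
  exact h

end Algebra

section Instance

open Fermat.Agent.M15.EsAll4 Fermat.Agent.M15.CpmInst4 Fermat.Agent.M15.ToricTate3
  Fermat.Agent.M15.Contracts9 ModularCurve Fermat.Agent.ES.J.CycloChar8

local notation "Γ" => (AlgebraicClosure ℚ ≃ₐ[ℚ] AlgebraicClosure ℚ)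

variable (ℓ : ℕ) [hℓ : Fact ℓ.Prime] (p : ℕ) [NeZero p]

/-- **(HALF)** for `Λ = T_ℓ(J₀(p))_ε`: determinant and ranks, unconditionally. -/
theorem half_det_hecke (hp : p.Prime) (ε : ↥(heckeRing p) →+* ZMod ℓ) :
    ∃ lam : ℕ, 2 * lam = finrank ℤ_[ℓ] (Lam (JZero p) ε) ∧
      (∀ g : Γ, LinearMap.det (rhoLam (JZero p) ε g) = ((cyclo ℓ g : ℤ_[ℓ]ˣ) : ℤ_[ℓ]) ^ lam) ∧
      finrank ℤ_[ℓ] ↥(LinearMap.ker (rhoLam (JZero p) ε complexConjugation - 1)) = lam ∧
      finrank ℤ_[ℓ] ↥(LinearMap.ker (rhoLam (JZero p) ε complexConjugation + 1)) = lam := by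
  have hfin : Finite {x : JZero p // ℓ • x = 0} := (finite_tors ℓ p).to_subtype
  haveI := (finite_free_Lam (J := JZero p) (ε := ε) hfin).1
  haveI := (finite_free_Lam (J := JZero p) (ε := ε) hfin).2
  have hES : ∀ g h : Γ, Commute (rhoLam (JZero p) ε g +
      ((cyclo ℓ g : ℤ_[ℓ]ˣ) : ℤ_[ℓ]) • rhoLam (JZero p) ε g⁻¹) (rhoLam (JZero p) ε h) :=
    fun g h => esAll_Lam' ℓ p ε g h
  have hCPM : ∀ x ∈ Algebra.adjoin ℤ_[ℓ] (Set.range fun g : Γ => rhoLam (JZero p) ε g +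
      ((cyclo ℓ g : ℤ_[ℓ]ˣ) : ℤ_[ℓ]) • rhoLam (JZero p) ε g⁻¹),
      LinearMap.trace ℤ_[ℓ] (Lam (JZero p) ε) (x * rhoLam (JZero p) ε complexConjugation) = 0 :=
    fun x hx => cpm_Lam_hecke ℓ p hp ε x hx
  have h := half_det_of_units (R := ℤ_[ℓ]) (M := Lam (JZero p) ε) ℚ_[ℓ] (rhoLam (JZero p) ε)
    (cyclo ℓ) complexConjugation complexConjugation_mul_self (cyclo_complexConjugation (p := ℓ))
    hES hCPM
  obtain ⟨lam, h1, h2, h3, h4⟩ := h
  refine ⟨lam, ?_, ?_, ?_, ?_⟩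
  · exact h1
  · exact h2
  · exact h3
  · exact h4

/-- `det ρ_Λ(g) = χ_ℓ(g)^lam` whenever `rank Λ = 2 lam`. -/
theorem det_rhoLam (hp : p.Prime) (ε : ↥(heckeRing p) →+* ZMod ℓ) (lam : ℕ)
    (hrank : finrank ℤ_[ℓ] (Lam (JZero p) ε) = 2 * lam) (g : Γ) :
    LinearMap.det (rhoLam (JZero p) ε g) = ((cyclo ℓ g : ℤ_[ℓ]ˣ) : ℤ_[ℓ]) ^ lam := by
  have H := half_det_hecke ℓ p hp ε
  obtain ⟨lam', h1, h2, h3, h4⟩ := H
  have h5 : lam' = lam := by
    have := h1.trans hrank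
    omega
  subst h5
  exact h2 g

/-- **DetAt**, unconditionally (given the rank). -/
theorem detAt_hecke (hp : p.Prime) (ε : ↥(heckeRing p) →+* ZMod ℓ) (hℓp : ℓ ≠ p) (lam : ℕ)
    (hrank : finrank ℤ_[ℓ] (Lam (JZero p) ε) = 2 * lam) : DetAt (JZero p) ε p lam :=
  Fermat.Agent.M15.ToricDet3.detAt_of_half (JZero p) ε hp (Ne.symm hℓp)
    (det_rhoLam ℓ p hp ε lam hrank)

/-- **ToricBound**, unconditionally (given the rank). -/
theorem toricBound_hecke' (hp : p.Prime) (ε : ↥(heckeRing p) →+* ZMod ℓ) (hℓp : ℓ ≠ p) (lam : ℕ)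
    (hrank : finrank ℤ_[ℓ] (Lam (JZero p) ε) = 2 * lam) :
    ToricBound (JZero p) ε ⟨p, hp⟩ lam :=
  Fermat.Agent.M15.ToricFinal3.toricBound_hecke p hp ℓ ε hℓp (detAt_hecke ℓ p hp ε hℓp lam hrank)

end Instance

end Fermat.Agent.M15.HalfInst4
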