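/-
Programme M15 (target S15), chapter (HALF), helper1: **(T0)** = the trace identity on the Tate
module of `J₀(N)`:

  `tr (T ∘ ρ(c) | T_p J₀(N)) = 0`  for every `T` in the `ℤ_p`-algebra generated by the Hecke
  operators `tT p N r` (`r` prime, `r ∤ N`),  `c` = complex conjugation.

Inputs: `HalfTrace1.trace_mul_invPar` ((α2), on `Hom_par(Γ₀(N), ℤ_p)`),
`ConjKum6.tateEquivJ_conj` ((α1-T): `ρ(c) ↔ - charInvolution`),
`KummerSystemFinal24.heckeCompatJ` + `TateChar11.KummerSystem.tateEquiv_map` (`tT r ↔ tdcAdd`).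

Imported by no statement.
-/
import Mathlib
import Fermat.Agent.M15.HalfTrace1
import Fermat.Agent.M15.ConjKum6

set_option autoImplicit false
set_option linter.unusedSectionVars false
set_option linter.style.longLine false
set_option synthInstance.maxHeartbeats 400000

open AlgebraicCurve ModularCurve CongruenceSubgroup ModularCurve.Period
open scoped MatrixGroups

noncomputable section

namespace Fermat.Agent.M15.HalfTJ1

open Fermat.Agent.ES.J.TateModule13 Fermat.Agent.ES.J.TateChar11 Fermat.Agent.ES.J.TateJZero13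
open Fermat.Agent.ES.J.KummerSystemFinal24
open Fermat.Agent.ES.HEQ.DoubleCoset27 Fermat.Agent.ES.HEQ.DoubleCosetPar27
open Fermat.Agent.M15.HalfTrace1

variable (p : ℕ) [hp : Fact p.Prime] (N : ℕ) [NeZero N]

/-- the Hecke operators `T_r` (`r` prime, `r ∤ N`) on the Tate module `T_p J₀(N)`. -/
def tGen : Set (Module.End ℤ_[p] (TJ p N)) :=
  {t | ∃ r : Nat.Primes, ¬ (r : ℕ) ∣ N ∧ t = tT p N r}

/-- the `ℤ_p`-algebra generated by the Hecke operators on `T_p J₀(N)`. -/
def tAlg : Subalgebra ℤ_[p] (Module.End ℤ_[p] (TJ p N)) := Algebra.adjoin ℤ_[p] (tGen p N)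

/-- transport of endomorphisms along `tateEquivJ`, as an algebra isomorphism. -/
def conjAlg : Module.End ℤ_[p] (TJ p N) ≃ₐ[ℤ_[p]]
    Module.End ℤ_[p] ↥(parabolicHoms ℤ_[p] (Gamma0 N) ℤ_[p]) :=
  (tateEquivJ p N).conjAlgEquiv ℤ_[p]

theorem conjAlg_apply (t : Module.End ℤ_[p] (TJ p N))
    (φ : ↥(parabolicHoms ℤ_[p] (Gamma0 N) ℤ_[p])) :
    conjAlg p N t φ = tateEquivJ p N (t ((tateEquivJ p N).symm φ)) := rfl

/-- `tT r ↔ tdcPar`. -/
theorem conjAlg_tT (r : Nat.Primes) (hrN : ¬ (r : ℕ) ∣ N) :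
    conjAlg p N (tT p N r) =
      (haveI : Fact (r : ℕ).Prime := ⟨r.2⟩; tdcPar hrN ℤ_[p] ℤ_[p]) := by
  have : Fact (r : ℕ).Prime := ⟨r.2⟩
  apply LinearMap.ext
  intro φ
  apply Subtype.ext
  rw [conjAlg_apply, coe_tdcPar]
  have h := (kummerSystemJ p N).tateEquiv_map hrN (heckeOperatorBar N r).toAddMonoidHom
    (fun k y hfy => heckeCompatJ p N (r : ℕ) r.2 hrN k y hfy) ((tateEquivJ p N).symm φ)
  have e : (kummerSystemJ p N).tateEquiv ((tateEquivJ p N).symm φ) = φ :=
    (tateEquivJ p N).apply_symm_apply φ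
  rw [e] at h
  exact h

/-- `ρ(c) ↔ - invPar` (written `(-1) • invPar`: `Module.End` of the submodule `parabolicHoms` is
only handled as a semiring by instance search). -/
theorem conjAlg_rhoT_conj :
    conjAlg p N (rhoT p N complexConjugation) = (-1 : ℤ_[p]) • invPar N ℤ_[p] := by
  apply LinearMap.ext
  intro φ
  apply Subtype.ext
  rw [conjAlg_apply, Fermat.Agent.M15.ConjKum6.tateEquivJ_conj, LinearEquiv.apply_symm_apply]
  show - charInvolution N ℤ_[p] ℤ_[p] (φ : Additive (Gamma0 N) →+ ℤ_[p]) =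
    (-1 : ℤ_[p]) • charInvolution N ℤ_[p] ℤ_[p] (φ : Additive (Gamma0 N) →+ ℤ_[p])
  rw [neg_smul, one_smul]

/-- pointwise form of `conjAlg_rhoT_conj`. -/
theorem tateEquivJ_rhoT_conj (x : TJ p N) :
    ((tateEquivJ p N (rhoT p N complexConjugation x) :
        ↥(parabolicHoms ℤ_[p] (Gamma0 N) ℤ_[p])) : Additive (Gamma0 N) →+ ℤ_[p]) =
      - ((invPar N ℤ_[p] (tateEquivJ p N x) : ↥(parabolicHoms ℤ_[p] (Gamma0 N) ℤ_[p])) :
        Additive (Gamma0 N) →+ ℤ_[p]) :=
  Fermat.Agent.M15.ConjKum6.tateEquivJ_conj N p x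

theorem conjAlg_mem_dcAlg {t : Module.End ℤ_[p] (TJ p N)} (ht : t ∈ tAlg p N) :
    conjAlg p N t ∈ dcAlg N ℤ_[p] := by
  unfold tAlg at ht
  induction ht using Algebra.adjoin_induction with
  | mem t ht =>
    obtain ⟨r, hrN, rfl⟩ := ht
    rw [conjAlg_tT p N r hrN]
    exact Algebra.subset_adjoin ⟨(r : ℕ), r.2, hrN, rfl⟩
  | algebraMap a =>
    rw [AlgEquiv.commutes]
    exact Subalgebra.algebraMap_mem _ a
  | add x y _ _ hx hy =>
    rw [map_add]
    exact add_mem hx hy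
  | mul x y _ _ hx hy =>
    rw [map_mul]
    exact mul_mem hx hy

theorem trace_conjAlg (t : Module.End ℤ_[p] (TJ p N)) :
    LinearMap.trace ℤ_[p] ↥(parabolicHoms ℤ_[p] (Gamma0 N) ℤ_[p]) (conjAlg p N t) =
      LinearMap.trace ℤ_[p] (TJ p N) t :=
  LinearMap.trace_conj' t (tateEquivJ p N)

/-- **(T0)**: `tr (T ∘ ρ(c) | T_p J₀(N)) = 0` for `T` in the Hecke algebra. -/
theorem trace_mul_rhoT_conj {t : Module.End ℤ_[p] (TJ p N)} (ht : t ∈ tAlg p N) :
    LinearMap.trace ℤ_[p] (TJ p N) (t * rhoT p N complexConjugation) = 0 := by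
  rw [← trace_conjAlg, map_mul, conjAlg_rhoT_conj, mul_smul_comm, map_smul,
    trace_mul_invPar N ℤ_[p] (conjAlg_mem_dcAlg p N ht), smul_zero]

/-- `T` in the Hecke algebra commutes with `ρ(c)`. -/
theorem commute_rhoT_conj {t : Module.End ℤ_[p] (TJ p N)} (ht : t ∈ tAlg p N) :
    Commute t (rhoT p N complexConjugation) := by
  have h : conjAlg p N t * invPar N ℤ_[p] = invPar N ℤ_[p] * conjAlg p N t :=
    commute_invPar N ℤ_[p] (conjAlg_mem_dcAlg p N ht)
  have h' : conjAlg p N (t * rhoT p N complexConjugation) =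
      conjAlg p N (rhoT p N complexConjugation * t) := by
    rw [map_mul, map_mul, conjAlg_rhoT_conj, mul_smul_comm, smul_mul_assoc, h]
  exact (conjAlg p N).injective h'

/-- `ρ(c)² = 1` on `T_p J₀(N)`. -/
theorem rhoT_conj_mul_self :
    rhoT p N complexConjugation * rhoT p N complexConjugation = 1 := by
  apply (conjAlg p N).injective
  rw [map_mul, conjAlg_rhoT_conj, mul_smul_comm, smul_mul_assoc, invPar_mul_self, smul_smul,
    map_one]
  norm_num

end Fermat.Agent.M15.HalfTJ1
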