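/-
Programme M15 (S15), chapter (HALF), the trace identity (T) of lead 966 (helper4):

  `tr ρ_Λ(g) = χ_ℓ(g) · tr ρ_Λ(g⁻¹)` for every `g ∈ Gal(ℚ̄/ℚ)`, `Λ = T_ℓ(J₀(p))_ε`.

From (CPM) (`CpmInst4.cpm_Lam_hecke`) at `h = t_{g c}`: `t_{gc} ρ(c) = ρ(g) - χ(g) ρ(c) ρ(g⁻¹) ρ(c)`
(`χ(c) = -1`, `c² = 1`).

* `trace_eq_of_cpm` (Mathlib only): the abstract form;
* `trace_rhoLam` : the identity on `Λ`;  `trace_rhoLam_frob` : at a Frobenius lift `φ` at `q ≠ ℓ`: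
  `tr ρ_Λ(φ^j) = q^j · tr ρ_Λ(φ^{-j})`.
-/
import Mathlib
import Fermat.Agent.M15.CpmInst4

set_option autoImplicit false
set_option linter.unusedSectionVars false
set_option linter.style.longLine false
set_option linter.style.haveILetI false

noncomputable section

namespace Fermat.Agent.M15.HalfTr4

open Module

section Algebra

variable {R : Type*} [CommRing R] {M : Type*} [AddCommGroup M] [Module R M]
  {G : Type*} [Group G] (ρ : G →* End R M) (d : G →* Rˣ)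

/-- **(T), abstract**: if `tr(t_x ρ(c)) = 0` for all `x` (`t_x = ρ(x) + d(x) ρ(x⁻¹)`), `c² = 1`, `d(c) = -1`,
then `tr ρ(g) = d(g) tr ρ(g⁻¹)`. -/
theorem trace_eq_of_cpm (c : G) (hc : c * c = 1) (hdc : ((d c : Rˣ) : R) = -1)
    (h : ∀ x : G, LinearMap.trace R M ((ρ x + ((d x : Rˣ) : R) • ρ x⁻¹) * ρ c) = 0) (g : G) :
    LinearMap.trace R M (ρ g) = ((d g : Rˣ) : R) * LinearMap.trace R M (ρ g⁻¹) := by
  have hcinv : c⁻¹ = c := inv_eq_of_mul_eq_one_right hc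
  have h1 := h (g * c)
  have e1 : ρ (g * c) * ρ c = ρ g := by
    rw [← map_mul, mul_assoc, hc, mul_one]
  have e2 : ρ (g * c)⁻¹ * ρ c = ρ c * ρ g⁻¹ * ρ c := by
    rw [mul_inv_rev, hcinv, map_mul]
  have e3 : ((d (g * c) : Rˣ) : R) = -((d g : Rˣ) : R) := by
    rw [map_mul, Units.val_mul, hdc, mul_neg, mul_one]
  have e4 : LinearMap.trace R M (ρ c * ρ g⁻¹ * ρ c) = LinearMap.trace R M (ρ g⁻¹) := by
    rw [mul_assoc, LinearMap.trace_mul_comm, mul_assoc, ← map_mul, hc, map_one, mul_one]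
  rw [add_mul, smul_mul_assoc, e1, e2, e3, map_add, map_smul, smul_eq_mul, e4, neg_mul,
    ← sub_eq_add_neg, sub_eq_zero] at h1
  exact h1

end Algebra

section Instance

open Fermat.Agent.M15.EsAll4 Fermat.Agent.M15.CpmInst4 Fermat.Agent.M15.ToricTate3
  Fermat.Agent.M15.Contracts9 ModularCurve Fermat.Agent.ES.J.CycloChar8

local notation "Γ" => (AlgebraicClosure ℚ ≃ₐ[ℚ] AlgebraicClosure ℚ)

variable (ℓ : ℕ) [hℓ : Fact ℓ.Prime] (p : ℕ) [NeZero p]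

/-- **(T)**: `tr ρ_Λ(g) = χ_ℓ(g) · tr ρ_Λ(g⁻¹)`. -/
theorem trace_rhoLam (hp : p.Prime) (ε : ↥(heckeRing p) →+* ZMod ℓ) (g : Γ) :
    LinearMap.trace ℤ_[ℓ] (Lam (JZero p) ε) (rhoLam (JZero p) ε g) =
      ((cyclo ℓ g : ℤ_[ℓ]ˣ) : ℤ_[ℓ]) *
        LinearMap.trace ℤ_[ℓ] (Lam (JZero p) ε) (rhoLam (JZero p) ε g⁻¹) := by
  have h1 : ∀ x : Γ, LinearMap.trace ℤ_[ℓ] (Lam (JZero p) ε)
      ((rhoLam (JZero p) ε x + ((cyclo ℓ x : ℤ_[ℓ]ˣ) : ℤ_[ℓ]) • rhoLam (JZero p) ε x⁻¹) *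
        rhoLam (JZero p) ε complexConjugation) = 0 := fun x =>
    cpm_Lam_hecke ℓ p hp ε (tLam ℓ p ε x) (Algebra.subset_adjoin ⟨x, rfl⟩)
  have h2 := trace_eq_of_cpm (R := ℤ_[ℓ]) (M := Lam (JZero p) ε) (rhoLam (JZero p) ε) (cyclo ℓ)
    complexConjugation complexConjugation_mul_self (cyclo_complexConjugation (p := ℓ)) h1 g
  exact h2

/-- (T) at the powers of a Frobenius lift at `q ≠ ℓ`: `tr ρ_Λ(φ^j) = q^j · tr ρ_Λ(φ^{-j})`. -/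
theorem trace_rhoLam_frob_pow (hp : p.Prime) (ε : ↥(heckeRing p) →+* ZMod ℓ) {q : ℕ} (hq : q.Prime)
    (hqℓ : q ≠ ℓ) (A : ValuationSubring (AlgebraicClosure ℚ)) (hA : A.LiesOverPrime q) {φ : Γ}
    (hφ : A.IsFrobeniusAt φ q) (j : ℕ) :
    LinearMap.trace ℤ_[ℓ] (Lam (JZero p) ε) (rhoLam (JZero p) ε (φ ^ j)) =
      (q : ℤ_[ℓ]) ^ j *
        LinearMap.trace ℤ_[ℓ] (Lam (JZero p) ε) (rhoLam (JZero p) ε (φ ^ j)⁻¹) := by
  have h1 := trace_rhoLam ℓ p hp ε (φ ^ j)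
  have h2 : ((cyclo ℓ (φ ^ j) : ℤ_[ℓ]ˣ) : ℤ_[ℓ]) = (q : ℤ_[ℓ]) ^ j := by
    rw [map_pow, Units.val_pow_eq_pow_val, cyclo_of_isFrobeniusAt ℓ hq hqℓ A hA hφ]
  exact h1.trans (congrArg (fun z : ℤ_[ℓ] => z *
    LinearMap.trace ℤ_[ℓ] (Lam (JZero p) ε) (rhoLam (JZero p) ε (φ ^ j)⁻¹)) h2)

end Instance

end Fermat.Agent.M15.HalfTr4
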