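/-
M15 / WIRE, W3 = (RED-T), leaf L4 = (FIN) (helper9): **reduction commutes with `T_r`**, from the two
compatibilities of the reduction maps on places at the levels `M` and `M r`
(`M` a good level, `4 ∣ M`, `v ∤ M`, `v` odd; `r` prime, `r ∤ M`, `r ≠ v`):

* `AlphaCompat ρ ρ'` (= (A) of helper7's L1): `ρ (P' ∘ α) = (ρ' P') ∘ ᾱ`;
* `BetaPullCompat ρ ρ'` (= L3, helper6): `ρ'_* β^* = β̄^* ρ_*` on divisors.

Then
* `mapDomain_pushforwardAlong` : `ρ_* α_* = ᾱ_* ρ'_*`                                   (from (A));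
* `mapDomain_heckeDivBar`      : `ρ_* (T_r D) = T̄_r (ρ_* D)` on divisors, `T̄_r = HeckeC4.heckeDivC`;
* `red_heckeOperatorAlong`     : `red (T_r y) = T̄_r (red y)` on `Pic⁰`, `T̄_r = HeckeC4.heckeC`;
* `red_levelPullback_hecke`    : the same after the level pull-back `π^* : J₀(N) → J₀(M)`;
* `red_levelPullback_hecke_eq_zero` : `red (π^* z) = 0 → red (π^* (T_r z)) = 0`.
Imported by no statement.
-/
import Mathlib
import Fermat.Agent.U44.HeckeC4
import Fermat.Agent.ES.TOP.PhiOneTwo21
import Fermat.Agent.ES.HECKE.LevelTop20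
import Fermat.Agent.RED.TOP.FbarFacts20

set_option autoImplicit false
set_option linter.unusedSectionVars false
set_option linter.style.haveILetI false
set_option linter.unusedVariables false
set_option synthInstance.maxHeartbeats 400000

noncomputable section

namespace Fermat.Agent.M15.HeckeFin9

open HahnSeries ModularCurve IntermediateField IsLocalRing AlgebraicCurve
open Fermat.Agent.RED.Interface4 Fermat.Agent.ES.RED
  Fermat.Agent.T33.NodalHalf4 Fermat.Agent.U44.DegreeC4 Fermat.Agent.U44.LevelEll4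
  Fermat.Agent.U44.HeckeC4 Fermat.Agent.ES.HECKE.PointFormula28
  Fermat.Agent.ES.HECKE.LevelPullback12

local notation "Qb" => AlgebraicClosure ℚ

/-- shortcut instance. -/
local instance (priority := high) algebraKFbH' {A : ValuationSubring Qb} (M : ℕ) [NeZero M] :
    Algebra (ResidueField ↥A) (Fb A M) := inferInstance

variable {v M : ℕ} [NeZero M] [NeZero v] {A : ValuationSubring Qb}
  (h : LevelHyp v M A) {r : ℕ} [NeZero r] (hr : r.Prime) (hrv : r ≠ v) (hrM : ¬ r ∣ M)

/-- places of `ℚ̄(X₀(M))`. -/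
abbrev PlU (M : ℕ) [NeZero M] : Type := Place Qb (modularFunctionFieldBar M)
/-- places of the special fibre `κ(X̃₀(M))`. -/
abbrev PlD (A : ValuationSubring Qb) (M : ℕ) [NeZero M] : Type :=
  Place (Setup8.kA A) (Fb A M)

/-- **(A)**: the reduction maps on places commute with the restriction along `α`, `ᾱ`. -/
def AlphaCompat (A : ValuationSubring Qb) (M r : ℕ) [NeZero M] [NeZero r]
    (ρ : PlU M → PlD A M) (ρ' : PlU (M * r) → PlD A (M * r)) : Prop :=
  ∀ (hα : (heckeAlphaBar Qb M r).toRingHom.IsIntegral)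
    (hαC : (alphaC (Setup8.kA A) M r).toRingHom.IsIntegral) (P' : PlU (M * r)),
    ρ (P'.restrictAlong (heckeAlphaBar Qb M r) hα) =
      (ρ' P').restrictAlong (alphaC (Setup8.kA A) M r) hαC

/-- **(L3)**: `ρ'_* β^* = β̄^* ρ_*` on divisors. -/
def BetaPullCompat (A : ValuationSubring Qb) (M r : ℕ) [NeZero M] [NeZero r]
    [HasPrincipalDivisors Qb (modularFunctionFieldBar (M * r))]
    [HasPrincipalDivisors (Setup8.kA A) (Fb A (M * r))]
    (ρ : PlU M → PlD A M) (ρ' : PlU (M * r) → PlD A (M * r)) : Prop :=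
  ∀ (hβ : (heckeBetaBar Qb M r).toRingHom.IsIntegral)
    (hβC : (betaC (Setup8.kA A) M r).toRingHom.IsIntegral)
    (D : Divisor Qb (modularFunctionFieldBar M)),
    Finsupp.mapDomain ρ' (Divisor.pullbackAlong (heckeBetaBar Qb M r) hβ D) =
      Divisor.pullbackAlong (betaC (Setup8.kA A) M r) hβC (Finsupp.mapDomain ρ D)

variable {ρ : PlU M → PlD A M} {ρ' : PlU (M * r) → PlD A (M * r)}

include h hr hrv in
/-- `ρ_* α_* = ᾱ_* ρ'_*`. -/
theorem mapDomain_pushforwardAlong (hA : AlphaCompat A M r ρ ρ')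
    (hα : (heckeAlphaBar Qb M r).toRingHom.IsIntegral)
    (hαC : (alphaC (Setup8.kA A) M r).toRingHom.IsIntegral)
    (E : Divisor Qb (modularFunctionFieldBar (M * r))) :
    Finsupp.mapDomain ρ (Divisor.pushforwardAlong (heckeAlphaBar Qb M r) hα E) =
      Divisor.pushforwardAlong (alphaC (Setup8.kA A) M r) hαC (Finsupp.mapDomain ρ' E) := by
  induction E using Finsupp.induction_linear with
  | zero => simp
  | add D₁ D₂ h₁ h₂ => rw [map_add, Finsupp.mapDomain_add, h₁, h₂, Finsupp.mapDomain_add, map_add]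
  | single P' n =>
    have hd1 : P'.inertiaDegAlong (heckeAlphaBar Qb M r) hα = 1 :=
      inertiaDegAlong_eq_one _ hα P' (Fermat.Agent.RED.TOP.FbarFacts20.deg_eq_one_bar (M * r) P')
    have hdeg : ∀ w : PlD A (M * r), w.deg = 1 :=
      (Fermat.Agent.T33.NodalInst4C.lHypFb (hEll h hr hrv)).deg_eq_one
    have hd2 : (ρ' P').inertiaDegAlong (alphaC (Setup8.kA A) M r) hαC = 1 :=
      inertiaDegAlong_eq_one _ hαC (ρ' P') (hdeg _)
    rw [Divisor.pushforwardAlong_single, Finsupp.mapDomain_single, Finsupp.mapDomain_single,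
      Divisor.pushforwardAlong_single, hd1, hd2, hA hα hαC P']

include h hr hrv hrM in
/-- **`ρ_* (T_r D) = T̄_r (ρ_* D)`** on divisors. -/
theorem mapDomain_heckeDivBar
    [HasPrincipalDivisors Qb (modularFunctionFieldBar (M * r))]
    (hA : AlphaCompat A M r ρ ρ')
    (hB : haveI := hasPrincipalDivisors h hr hrv; BetaPullCompat A M r ρ ρ')
    (hα : HeckeAlphaBarIntegral Qb M r) (hβ : HeckeBetaBarIntegral Qb M r)
    (D : Divisor Qb (modularFunctionFieldBar M)) :
    Finsupp.mapDomain ρ (heckeDivBar hα hβ D) =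
      heckeDivC h hr hrv hrM (Finsupp.mapDomain ρ D) := by
  haveI := hasPrincipalDivisors h hr hrv
  show Finsupp.mapDomain ρ (Divisor.pushforwardAlong (heckeAlphaBar Qb M r) hα
      (Divisor.pullbackAlong (heckeBetaBar Qb M r) hβ D)) =
    Divisor.pushforwardAlong (alphaC (Setup8.kA A) M r) (isIntegral_alpha h hr hrv hrM)
      (Divisor.pullbackAlong (betaC (Setup8.kA A) M r) (isIntegral_beta h hr hrv hrM)
        (Finsupp.mapDomain ρ D))
  rw [mapDomain_pushforwardAlong h hr hrv hA hα (isIntegral_alpha h hr hrv hrM),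
    hB hβ (isIntegral_beta h hr hrv hrM)]

include h hr hrv hrM in
/-- **`red (T_r y) = T̄_r (red y)`** on `Pic⁰` at the level `M`. -/
theorem red_heckeOperatorAlong
    (hρ : IsPlaceReductionAlong A (IsLocalRing.residue A) M ρ)
    (hgen : PrincipalGeneratedByIntegral A (IsLocalRing.residue A) M)
    (hA : AlphaCompat A M r ρ ρ')
    (hB : haveI := Fermat.Agent.RED.TOP.FbarFacts20.hasPrincipalDivisors_bar (M * r)
      haveI := hasPrincipalDivisors h hr hrv; BetaPullCompat A M r ρ ρ')
    (y : JZero M) :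
    reductionPic0Along ρ hρ hgen (heckeOperatorAlong Qb M r y) =
      heckeC h hr hrv hrM (reductionPic0Along ρ hρ hgen y) := by
  haveI := Fermat.Agent.RED.TOP.FbarFacts20.hasPrincipalDivisors_bar (M * r)
  have hα := Fermat.Agent.ES.HECKE.AlongDegree25.heckeAlphaBarIntegral Qb M r hr hrM
  have hβ := Fermat.Agent.ES.HECKE.AlongDegree25.heckeBetaBarIntegral Qb M r hr hrM
  have hFI := Fermat.Agent.ES.HECKE.InputsMain19.fundamentalIdentityAlong_beta M r hr hrM
  have hfin := Fermat.Agent.ES.HECKE.AlongDegree25.finiteAlong_alpha Qb M r hr hrM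
  have hN := Fermat.Agent.ES.HECKE.InputsFinal15.normFormulaAlong_alpha M r hr hrM
  obtain ⟨D, rfl⟩ := Pic0.mk_surjective y
  rw [heckeOperatorAlong_mk hα hβ hFI hfin hN, reductionPic0Along_mk, reductionPic0Along_mk,
    heckeC_mk]
  congr 1
  apply Subtype.ext
  exact mapDomain_heckeDivBar h hr hrv hrM hA hB hα hβ
    (D : Divisor Qb (modularFunctionFieldBar M))

include h hr hrv hrM in
/-- **`red (π^* (T_r z)) = T̄_r (red (π^* z))`** for the level pull-back `π^* : J₀(N) → J₀(M)`. -/
theorem red_levelPullback_hecke {N : ℕ} [NeZero N] (hNM : N ∣ M)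
    (hρ : IsPlaceReductionAlong A (IsLocalRing.residue A) M ρ)
    (hgen : PrincipalGeneratedByIntegral A (IsLocalRing.residue A) M)
    (hA : AlphaCompat A M r ρ ρ')
    (hB : haveI := Fermat.Agent.RED.TOP.FbarFacts20.hasPrincipalDivisors_bar (M * r)
      haveI := hasPrincipalDivisors h hr hrv; BetaPullCompat A M r ρ ρ')
    (z : JZero N) :
    reductionPic0Along ρ hρ hgen (levelPullback hNM (heckeOperatorAlong Qb N r z)) =
      heckeC h hr hrv hrM (reductionPic0Along ρ hρ hgen (levelPullback hNM z)) := by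
  rw [Fermat.Agent.ES.HECKE.LevelTop20.levelPullback_heckeOperatorAlong hNM hr hrM z,
    red_heckeOperatorAlong h hr hrv hrM hρ hgen hA hB]

include h hr hrv hrM in
/-- the kernel of `red ∘ π^*` is stable under `T_r`. -/
theorem red_levelPullback_hecke_eq_zero {N : ℕ} [NeZero N] (hNM : N ∣ M)
    (hρ : IsPlaceReductionAlong A (IsLocalRing.residue A) M ρ)
    (hgen : PrincipalGeneratedByIntegral A (IsLocalRing.residue A) M)
    (hA : AlphaCompat A M r ρ ρ')
    (hB : haveI := Fermat.Agent.RED.TOP.FbarFacts20.hasPrincipalDivisors_bar (M * r)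
      haveI := hasPrincipalDivisors h hr hrv; BetaPullCompat A M r ρ ρ')
    (z : JZero N) (hz : reductionPic0Along ρ hρ hgen (levelPullback hNM z) = 0) :
    reductionPic0Along ρ hρ hgen (levelPullback hNM (heckeOperatorAlong Qb N r z)) = 0 := by
  rw [red_levelPullback_hecke h hr hrv hrM hNM hρ hgen hA hB, hz, map_zero]

end Fermat.Agent.M15.HeckeFin9
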