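/-
Programme M15 (target S15), chapter (RED-T) = W3, helper1: **the `Pic⁰` passage and the final glue**.

`HeckeStable p` (`Assemble9`) from a statement about divisors at the auxiliary level
`M = auxLevel v p`:

  (PRINC)  for every degree-zero divisor `D` of `X₀(M)` over `ℚ̄` whose reduction `r_* D` is principal
           on the reduced curve, the reduction `r_* (T_r D)` of `T_r D = α_* β^* D` is principal.

In particular (form `heckeStable_of_div`): it suffices to have an additive map `S` on the divisors of
the reduced curve (`S = T̄_r`, the Hecke correspondence of the special fibre) which preserves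
principal divisors and satisfies `r_* (T_r D) = S (r_* D)` for all `D` of degree zero.

Imported by no statement.
-/
import Mathlib
import Fermat.Agent.M15.RedAt9
import Fermat.Agent.ES.HECKE.LevelTop20
import Fermat.Agent.M15.Assemble9

set_option autoImplicit false
set_option linter.style.haveILetI false
set_option linter.unusedVariables false
set_option linter.unusedSectionVars false
set_option synthInstance.maxHeartbeats 400000

noncomputable section

open AlgebraicCurve ModularCurve IntermediateField

namespace Fermat.Agent.M15.HeckeGlue1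

open Fermat.Agent.M15.Contracts9 Fermat.Agent.M15.RedAt9
open Fermat.Agent.FF.RedIface9
open Fermat.Agent.ES.HECKE.LevelPullback12 Fermat.Agent.ES.KRON.FrobPlace13
open Fermat.Agent.RED.Interface4 Fermat.Agent.RED.LVL
open Fermat.Agent.ES.HECKE Fermat.Agent.ES.RED Fermat.Agent.ES.KRON
open Fermat.Agent.ES.RED.Contract8

/-! ### the abstract `Pic⁰` passage -/

section Abstract

variable {L : Type*} [Field L] [Algebra ℚ L] {A : ValuationSubring L}
variable {k : Type*} [Field k] {π : A →+* k} {M : ℕ} [NeZero M]
variable (r : Place L (laurentBaseChange L (modularFunctionFieldFull M)) →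
  Place k (modularFunctionFieldFullC k M))

/-- `red z = 0` iff the reduction of a representing divisor is principal. -/
theorem reductionPic0Along_mk_eq_zero_iff (hr : IsPlaceReductionAlong A π M r)
    (hgen : PrincipalGeneratedByIntegral A π M)
    (D : Divisor.degZero (K := L) (F := laurentBaseChange L (modularFunctionFieldFull M))) :
    reductionPic0Along r hr hgen (Pic0.mk D) = 0 ↔
      Finsupp.mapDomain r (D : Divisor L (laurentBaseChange L (modularFunctionFieldFull M))) ∈
        Divisor.principal (K := k) (F := modularFunctionFieldFullC k M) := by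
  rw [reductionPic0Along_mk]
  show (QuotientAddGroup.mk (reductionDegZeroAlong r hr.1 D) : Pic0 k _) = 0 ↔ _
  rw [QuotientAddGroup.eq_zero_iff, AddSubgroup.mem_addSubgroupOf, coe_reductionDegZeroAlong]

/-- **the `Pic⁰` passage**: if `r_* (T_ℓ D)` is principal whenever `r_* D` is (`D` of degree zero),
then `ker red` is stable under `T_ℓ`. -/
theorem red_heckeOperatorAlong_eq_zero {ℓ : ℕ} [NeZero ℓ]
    (hr : IsPlaceReductionAlong A π M r) (hgen : PrincipalGeneratedByIntegral A π M)
    (hα : HeckeAlphaBarIntegral L M ℓ) (hβ : HeckeBetaBarIntegral L M ℓ)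
    [HasPrincipalDivisors L (laurentBaseChange L (modularFunctionFieldFull (M * ℓ)))]
    (hFI : FundamentalIdentityAlong L (heckeBetaBar L M ℓ) hβ)
    (hfin : FiniteAlong L (heckeAlphaBar L M ℓ))
    (hN : NormFormulaAlong L (heckeAlphaBar L M ℓ) hfin)
    (hP : ∀ D : Divisor L (laurentBaseChange L (modularFunctionFieldFull M)),
      D ∈ Divisor.degZero (K := L) (F := laurentBaseChange L (modularFunctionFieldFull M)) →
      Finsupp.mapDomain r D ∈ Divisor.principal (K := k) (F := modularFunctionFieldFullC k M) →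
      Finsupp.mapDomain r (heckeDivBar hα hβ D) ∈
        Divisor.principal (K := k) (F := modularFunctionFieldFullC k M))
    (z : Pic0 L (laurentBaseChange L (modularFunctionFieldFull M)))
    (hz : reductionPic0Along r hr hgen z = 0) :
    reductionPic0Along r hr hgen (heckeOperatorAlong L M ℓ z) = 0 := by
  obtain ⟨D, rfl⟩ := Pic0.mk_surjective z
  rw [PointFormula28.heckeOperatorAlong_mk hα hβ hFI hfin hN,
    reductionPic0Along_mk_eq_zero_iff, Pic0.coe_degZeroCorrespondence]
  exact hP D D.2 ((reductionPic0Along_mk_eq_zero_iff r hr hgen D).mp hz)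

end Abstract

/-! ### the glue for `redPull` -/

section Glue

variable (p : ℕ) [NeZero p]

/-- **(RED-T) from (PRINC)** at one `(v, A, r)`. -/
theorem redPull_hecke_of_princ {v : ℕ} (hv : v.Prime) (hvp : ¬ v ∣ p) {A : ValuationSubring Qb}
    (hA : A.LiesOverPrime v) (r : Nat.Primes) (hrM : ¬ (r : ℕ) ∣ auxLevel v p)
    (hP : haveI := LevelDegree17.neZero_auxLevel v p
      haveI : NeZero (r : ℕ) := ⟨r.2.ne_zero⟩
      haveI := InputsMain19.hasPrincipalDivisors_level (auxLevel v p) (r : ℕ)
      ∀ D : Divisor Qb (modularFunctionFieldBar (auxLevel v p)),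
        D ∈ Divisor.degZero (K := Qb) (F := modularFunctionFieldBar (auxLevel v p)) →
        Finsupp.mapDomain (model p v hv hvp A hA).rPl D ∈
          Divisor.principal (K := kA A) (F := modularFunctionFieldFullC (kA A) (auxLevel v p)) →
        Finsupp.mapDomain (model p v hv hvp A hA).rPl
            (heckeDivBar (AlongDegree25.heckeAlphaBarIntegral Qb (auxLevel v p) (r : ℕ) r.2 hrM)
              (AlongDegree25.heckeBetaBarIntegral Qb (auxLevel v p) (r : ℕ) r.2 hrM) D) ∈
          Divisor.principal (K := kA A) (F := modularFunctionFieldFullC (kA A) (auxLevel v p)))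
    (z : JZero p) (hz : redPull p v hv hvp A hA z = 0) :
    redPull p v hv hvp A hA (heckeOperatorBar p r z) = 0 := by
  haveI : Fact v.Prime := ⟨hv⟩
  haveI := LevelDegree17.neZero_auxLevel v p
  haveI : NeZero (r : ℕ) := ⟨r.2.ne_zero⟩
  haveI := InputsMain19.hasPrincipalDivisors_level (auxLevel v p) (r : ℕ)
  set m := redModel v hv A hA (auxLevel v p) (hauptLevel_auxLevel hv hvp) with hm
  have e : heckeOperatorBar p r z = heckeOperatorAlong Qb p (r : ℕ) z := rfl
  show reductionPic0Along m.rPl (m.isPlaceReduction hA) (m.principalGenerated hA)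
    (levelPullback (dvd_auxLevel v p) (heckeOperatorBar p r z)) = 0
  rw [e, LevelTop20.levelPullback_heckeOperatorAlong (dvd_auxLevel v p) r.2 hrM z]
  exact red_heckeOperatorAlong_eq_zero m.rPl (m.isPlaceReduction hA) (m.principalGenerated hA)
    (AlongDegree25.heckeAlphaBarIntegral Qb (auxLevel v p) (r : ℕ) r.2 hrM)
    (AlongDegree25.heckeBetaBarIntegral Qb (auxLevel v p) (r : ℕ) r.2 hrM)
    (InputsMain19.fundamentalIdentityAlong_beta (auxLevel v p) (r : ℕ) r.2 hrM)
    (AlongDegree25.finiteAlong_alpha Qb (auxLevel v p) (r : ℕ) r.2 hrM)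
    (InputsFinal15.normFormulaAlong_alpha (auxLevel v p) (r : ℕ) r.2 hrM) hP _ hz

/-- **(RED-T) from the divisor identity** `r_* (T_r D) = S (r_* D)` with `S` preserving principal
divisors. -/
theorem redPull_hecke_of_div {v : ℕ} (hv : v.Prime) (hvp : ¬ v ∣ p) {A : ValuationSubring Qb}
    (hA : A.LiesOverPrime v) (r : Nat.Primes) (hrM : ¬ (r : ℕ) ∣ auxLevel v p)
    (S : Divisor (kA A) (modularFunctionFieldFullC (kA A) (auxLevel v p)) →+
      Divisor (kA A) (modularFunctionFieldFullC (kA A) (auxLevel v p)))
    (hS : ∀ D', D' ∈ Divisor.principal (K := kA A)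
        (F := modularFunctionFieldFullC (kA A) (auxLevel v p)) →
      S D' ∈ Divisor.principal (K := kA A) (F := modularFunctionFieldFullC (kA A) (auxLevel v p)))
    (hdiv : haveI := LevelDegree17.neZero_auxLevel v p
      haveI : NeZero (r : ℕ) := ⟨r.2.ne_zero⟩
      haveI := InputsMain19.hasPrincipalDivisors_level (auxLevel v p) (r : ℕ)
      ∀ D : Divisor Qb (modularFunctionFieldBar (auxLevel v p)),
        D ∈ Divisor.degZero (K := Qb) (F := modularFunctionFieldBar (auxLevel v p)) →
        Finsupp.mapDomain (model p v hv hvp A hA).rPl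
            (heckeDivBar (AlongDegree25.heckeAlphaBarIntegral Qb (auxLevel v p) (r : ℕ) r.2 hrM)
              (AlongDegree25.heckeBetaBarIntegral Qb (auxLevel v p) (r : ℕ) r.2 hrM) D) =
          S (Finsupp.mapDomain (model p v hv hvp A hA).rPl D))
    (z : JZero p) (hz : redPull p v hv hvp A hA z = 0) :
    redPull p v hv hvp A hA (heckeOperatorBar p r z) = 0 :=
  redPull_hecke_of_princ p hv hvp hA r hrM
    (fun D hD0 hD => by rw [hdiv D hD0]; exact hS _ hD) z hz

/-- for `v` odd, a prime `r ∤ 2 p` does not divide the auxiliary level `lcm p 4`. -/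
theorem not_dvd_auxLevel_of_not_dvd {v : ℕ} (hv2 : v ≠ 2) (r : Nat.Primes)
    (hr : ¬ (r : ℕ) ∣ 2 * p) : ¬ (r : ℕ) ∣ auxLevel v p := by
  unfold auxLevel
  rw [if_neg hv2]
  intro h
  have h1 : (r : ℕ) ∣ p * 4 := h.trans (Nat.lcm_dvd (Dvd.intro _ rfl) (Dvd.intro_left _ rfl))
  rcases (Nat.Prime.dvd_mul r.2).mp h1 with h2 | h2
  · exact hr (h2.mul_left 2)
  · have h3 : (r : ℕ) ∣ 2 ^ 2 := by norm_num; exact h2
    exact hr ((r.2.dvd_of_dvd_pow h3).mul_right p)

/-- **`Assemble9.HeckeStable p` from (PRINC)** at all `(v, A, r)`, `v` odd, `r ∤ 2 p`, `r ≠ v`. -/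
theorem heckeStable_of_princ
    (hP : ∀ {v : ℕ} (hv : v.Prime) (hvp : ¬ v ∣ p) (hv2 : v ≠ 2) {A : ValuationSubring Qb}
      (hA : A.LiesOverPrime v) (r : Nat.Primes) (hr : ¬ (r : ℕ) ∣ 2 * p) (hrv : (r : ℕ) ≠ v),
      haveI := LevelDegree17.neZero_auxLevel v p
      haveI : NeZero (r : ℕ) := ⟨r.2.ne_zero⟩
      haveI := InputsMain19.hasPrincipalDivisors_level (auxLevel v p) (r : ℕ)
      ∀ D : Divisor Qb (modularFunctionFieldBar (auxLevel v p)),
        D ∈ Divisor.degZero (K := Qb) (F := modularFunctionFieldBar (auxLevel v p)) →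
        Finsupp.mapDomain (model p v hv hvp A hA).rPl D ∈
          Divisor.principal (K := kA A) (F := modularFunctionFieldFullC (kA A) (auxLevel v p)) →
        Finsupp.mapDomain (model p v hv hvp A hA).rPl
            (heckeDivBar
              (AlongDegree25.heckeAlphaBarIntegral Qb (auxLevel v p) (r : ℕ) r.2
                (not_dvd_auxLevel_of_not_dvd p hv2 r hr))
              (AlongDegree25.heckeBetaBarIntegral Qb (auxLevel v p) (r : ℕ) r.2
                (not_dvd_auxLevel_of_not_dvd p hv2 r hr)) D) ∈
          Divisor.principal (K := kA A) (F := modularFunctionFieldFullC (kA A) (auxLevel v p))) :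
    Fermat.Agent.M15.Assemble9.HeckeStable p := by
  intro v hv hvp hv2 A hA r hr hrv z _ hz
  exact redPull_hecke_of_princ p hv hvp hA r (not_dvd_auxLevel_of_not_dvd p hv2 r hr)
    (hP hv hvp hv2 hA r hr hrv) z hz

end Glue

end Fermat.Agent.M15.HeckeGlue1
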