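/-
M15 / WIRE, W3 = (RED-T), final glue (helper9): **`Assemble9.HeckeStable p` from the place
compatibilities (A) and (L3)** at the auxiliary level `M = auxLevel v p` (`v` odd, `v ∤ p`) and
every prime `r ∤ 2 p`, `r ≠ v`:

  `RedCompat p` := for the reduction model `m` of `RedAt9.redPull` at level `M` there is a map on
  places `ρ'` at level `M r` with `HeckeFin9.AlphaCompat A M r m.rPl ρ'` and
  `HeckeFin9.BetaPullCompat A M r m.rPl ρ'`

(`ρ' := m'.rPl` for the model `m'` of helper7's L1; (A) is L1, `BetaPullCompat` is helper6's L3).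
`heckeStable_of_redCompat : RedCompat p → HeckeStable p`.  Imported by no statement.
-/
import Mathlib
import Fermat.Agent.M15.HeckeFin9
import Fermat.Agent.M15.Assemble9
import Fermat.Agent.U44.Pull7

set_option autoImplicit false
set_option linter.unusedSectionVars false
set_option linter.style.haveILetI false
set_option linter.unusedVariables false
set_option synthInstance.maxHeartbeats 400000

noncomputable section

namespace Fermat.Agent.M15.HeckeStable9

open AlgebraicCurve ModularCurve IntermediateField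
open Fermat.Agent.M15.Contracts9 Fermat.Agent.M15.RedAt9 Fermat.Agent.M15.HeckeFin9
open Fermat.Agent.M15.Assemble9
open Fermat.Agent.FF.RedIface9 Fermat.Agent.RED.Interface4 Fermat.Agent.RED.LVL
open Fermat.Agent.T33.NodalHalf4 Fermat.Agent.ES.HECKE.LevelPullback12

variable (p : ℕ) [NeZero p]

/-- the level hypotheses of U44 at the auxiliary level, `v` odd. -/
theorem levelHyp_aux {v : ℕ} (hv : v.Prime) (hv2 : v ≠ 2) (hvp : ¬ v ∣ p)
    {A : ValuationSubring Qb} (hA : A.LiesOverPrime v) : LevelHyp v (auxLevel v p) A where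
  prime := hv
  ne_two := hv2
  not_dvd := not_dvd_auxLevel hv hvp
  four_dvd := Fermat.Agent.ES.TOP.AuxBase8.four_dvd_auxLevel p hv2
  liesOver := hA

/-- **the output of L1 + L3**: at the auxiliary level, for every prime `r` prime to the level and
to `v`, a reduction map on places at level `M r` compatible with `α` and with `β^*`. -/
def RedCompat : Prop :=
  ∀ {v : ℕ} (hv : v.Prime) (hvp : ¬ v ∣ p) (hv2 : v ≠ 2) {A : ValuationSubring Qb}
    (hA : A.LiesOverPrime v) {r : ℕ} [NeZero r] (hr : r.Prime) (_ : ¬ r ∣ auxLevel v p)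
    (hrv : r ≠ v),
    haveI : Fact v.Prime := ⟨hv⟩
    haveI : NeZero v := ⟨hv.ne_zero⟩
    haveI := LevelDegree17.neZero_auxLevel v p
    haveI := Fermat.Agent.RED.TOP.FbarFacts20.hasPrincipalDivisors_bar (auxLevel v p * r)
    haveI := Fermat.Agent.U44.HeckeC4.hasPrincipalDivisors (levelHyp_aux p hv hv2 hvp hA) hr hrv
    ∃ ρ' : PlU (auxLevel v p * r) → PlD A (auxLevel v p * r),
      AlphaCompat A (auxLevel v p) r
        (redModel v hv A hA (auxLevel v p) (hauptLevel_auxLevel hv hvp)).rPl ρ' ∧
      BetaPullCompat A (auxLevel v p) r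
        (redModel v hv A hA (auxLevel v p) (hauptLevel_auxLevel hv hvp)).rPl ρ'

/-- **(RED-T) = W3** from the place compatibilities. -/
theorem heckeStable_of_redCompat (hC : RedCompat p) : HeckeStable p := by
  intro v hv hvp hv2 A hA r hr2p hrv z _ hz
  haveI : Fact v.Prime := ⟨hv⟩
  haveI : NeZero v := ⟨hv.ne_zero⟩
  haveI := LevelDegree17.neZero_auxLevel v p
  haveI : NeZero (r : ℕ) := ⟨r.2.ne_zero⟩
  have hr2 : (r : ℕ) ≠ 2 := fun h => hr2p (by rw [h]; exact dvd_mul_right 2 p)
  have hrp : ¬ (r : ℕ) ∣ p := fun h => hr2p (h.trans (dvd_mul_left p 2))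
  have hrM : ¬ (r : ℕ) ∣ auxLevel v p :=
    Fermat.Agent.U44.Pull7.not_dvd_auxLevel hv2 r.2 hr2 hrp
  obtain ⟨ρ', hA', hB'⟩ := hC hv hvp hv2 hA r.2 hrM hrv
  set m := redModel v hv A hA (auxLevel v p) (hauptLevel_auxLevel hv hvp) with hm
  exact red_levelPullback_hecke_eq_zero (levelHyp_aux p hv hv2 hvp hA) r.2 hrv hrM
    (dvd_auxLevel v p) (m.isPlaceReduction hA) (m.principalGenerated hA) hA' hB' z hz

end Fermat.Agent.M15.HeckeStable9
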