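/-
Programme M15 (target S15), chapter (JH), helper5: **the line lemma** (pure group theory).

A group `G` acts on a nontrivial finite abelian `ℓ`-group `V`; `χ : G →* (ZMod ℓ)ˣ` is a character
with integer lift `ω g = (χ g).val`; for every `g` the operator `(g - 1)(g - ω g)` is nilpotent on
`V`.  Then there is `v ≠ 0` with `ℓ v = 0` on which `G` acts trivially, or through `ω`.

Proof: a minimal nonzero stable subgroup `U` of `V[ℓ]`; `N = ker χ` acts unipotently, hence through
an `ℓ`-group, hence has a nonzero fixed vector in `U` (`IsPGroup` fixed point lemma), so `N` acts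
trivially on `U` and the operators `g|_U` commute; each `g` has an eigenvector in `U` with eigenvalue
`1` or `ω g`, and the eigenspaces are stable, hence equal to `U`; finally a group is not the union
of two proper subgroups.
-/
import Mathlib

set_option autoImplicit false
set_option linter.unusedSectionVars false
set_option linter.style.haveILetI false

namespace Fermat.Agent.M15.JHLine5

section Unipotent

variable {V : Type*} [AddCommGroup V]

/-- a unipotent operator has `ℓ`-power order on the `ℓ`-torsion. -/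
theorem pow_apply_eq_of_nilpotent (ℓ : ℕ) [hℓ : Fact ℓ.Prime] (f : Module.End ℤ V) (m : ℕ)
    (hf : (f - 1) ^ m = 0) (t : ℕ) (ht : m ≤ ℓ ^ t) (u : V) (hu : ℓ • u = 0) :
    (f ^ ℓ ^ t) u = u := by
  set n : Module.End ℤ V := f - 1 with hn
  have hf' : f = n + 1 := by rw [hn]; abel
  have hcomm : Commute n 1 := Commute.one_right n
  rw [hf', hcomm.add_pow]
  simp only [one_pow, mul_one]
  rw [LinearMap.sum_apply]
  have hterm : ∀ i ∈ Finset.range (ℓ ^ t + 1), i ≠ 0 →
      (n ^ i * (((ℓ ^ t).choose i : ℕ) : Module.End ℤ V)) u = 0 := by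
    intro i hi hi0
    by_cases hit : i = ℓ ^ t
    · have : n ^ i = 0 := by
        rw [hit]
        obtain ⟨d, hd⟩ := Nat.exists_eq_add_of_le ht
        rw [hd, pow_add, hf, zero_mul]
      rw [this, zero_mul, LinearMap.zero_apply]
    · obtain ⟨c, hc⟩ := hℓ.out.dvd_choose_pow hi0 hit
      rw [hc, Nat.cast_mul, Module.End.mul_apply]
      have : ((ℓ : Module.End ℤ V) * (c : Module.End ℤ V)) u = 0 := by
        rw [Module.End.mul_apply]
        have h1 : (c : Module.End ℤ V) u = c • u := by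
          rw [← nsmul_one, LinearMap.smul_apply, Module.End.one_apply]
        have h2 : ∀ w : V, (ℓ : Module.End ℤ V) w = ℓ • w := fun w => by
          rw [← nsmul_one, LinearMap.smul_apply, Module.End.one_apply]
        rw [h1, h2, smul_comm, hu, smul_zero]
      rw [this, map_zero]
  rw [Finset.sum_eq_single 0]
  · simp
  · intro i hi hi0
    exact hterm i hi hi0
  · intro h
    exact absurd (Finset.mem_range.2 (Nat.succ_pos _)) h

end Unipotent

section Line

variable {V : Type*} [AddCommGroup V] {G : Type*} [Group G] (ρ : G →* Module.End ℤ V)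

/-- stable subgroups. -/
def IsStab (U : AddSubgroup V) : Prop := ∀ g : G, ∀ u ∈ U, ρ g u ∈ U

variable (ℓ : ℕ) [hℓ : Fact ℓ.Prime]

/-- the `ℓ`-torsion subgroup. -/
def tors : AddSubgroup V where
  carrier := {v | ℓ • v = 0}
  zero_mem' := smul_zero _
  add_mem' := fun {a b} ha hb => by
    have ha' : ℓ • a = 0 := ha
    have hb' : ℓ • b = 0 := hb
    show ℓ • (a + b) = 0
    rw [smul_add, ha', hb', add_zero]
  neg_mem' := fun {a} ha => by
    have ha' : ℓ • a = 0 := ha
    show ℓ • (-a) = 0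
    rw [smul_neg, ha', neg_zero]

theorem mem_tors {v : V} : v ∈ tors (V := V) ℓ ↔ ℓ • v = 0 := Iff.rfl

theorem isStab_tors : IsStab ρ (tors ℓ) := fun g u hu => by
  rw [mem_tors] at hu ⊢
  rw [← map_nsmul, hu, map_zero]

theorem tors_ne_bot [Nontrivial V] (hV : ∀ v : V, ∃ k : ℕ, ℓ ^ k • v = 0) :
    tors (V := V) ℓ ≠ ⊥ := by
  obtain ⟨v, hv⟩ := exists_ne (0 : V)
  classical
  have hex : ∃ k : ℕ, ℓ ^ k • v = 0 := hV v
  have hk0 : Nat.find hex ≠ 0 := by
    intro h0
    have := Nat.find_spec hex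
    rw [h0, pow_zero, one_smul] at this
    exact hv this
  obtain ⟨k, hk⟩ := Nat.exists_eq_succ_of_ne_zero hk0
  have h1 : ℓ ^ k • v ≠ 0 := Nat.find_min hex (by rw [hk]; exact Nat.lt_succ_self k)
  have h2 : ℓ • (ℓ ^ k • v) = 0 := by
    have := Nat.find_spec hex
    rw [hk, pow_succ', mul_smul] at this
    exact this
  intro hbot
  have : ℓ ^ k • v ∈ tors (V := V) ℓ := h2
  rw [hbot, AddSubgroup.mem_bot] at this
  exact h1 this

/-- the fixed-point step: a subgroup acting unipotently has a nonzero fixed vector in every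
nonzero stable subgroup of the `ℓ`-torsion. -/
theorem exists_fixed_of_unipotent [Finite V] (U : AddSubgroup V) (hU : IsStab ρ U) (hU0 : U ≠ ⊥)
    (hUℓ : U ≤ tors ℓ) (N : Subgroup G) (hN : ∀ g ∈ N, IsNilpotent (ρ g - 1)) :
    ∃ u ∈ U, u ≠ 0 ∧ ∀ g ∈ N, ρ g u = u := by
  classical
  letI : MulAction G ↥U :=
    { smul := fun g u => ⟨ρ g u, hU g u u.2⟩
      one_smul := fun u => Subtype.ext (by show ρ 1 (u : V) = u; rw [map_one]; rfl)
      mul_smul := fun g h u => Subtype.ext (by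
        show ρ (g * h) (u : V) = ρ g (ρ h (u : V))
        rw [map_mul]; rfl) }
  have hsmul : ∀ (g : G) (u : ↥U), ((g • u : ↥U) : V) = ρ g (u : V) := fun _ _ => rfl
  let φ : ↥N →* Equiv.Perm ↥U := (MulAction.toPermHom G ↥U).comp N.subtype
  have hφ : ∀ (g : ↥N) (u : ↥U), ((φ g u : ↥U) : V) = ρ (g : G) (u : V) := fun _ _ => rfl
  -- the image is an `ℓ`-group
  have hP : IsPGroup ℓ ↥φ.range := by
    rintro ⟨x, g, rfl⟩
    obtain ⟨m, hm⟩ := hN (g : G) g.2
    refine ⟨m, Subtype.ext ?_⟩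
    show (φ g) ^ ℓ ^ m = 1
    rw [← map_pow]
    ext u
    rw [hφ]
    show ρ (((g ^ ℓ ^ m : ↥N)) : G) (u : V) = ((1 : Equiv.Perm ↥U) u : V)
    rw [Subgroup.coe_pow, map_pow]
    exact pow_apply_eq_of_nilpotent ℓ (ρ (g : G)) m hm m (Nat.lt_pow_self hℓ.out.one_lt).le
      (u : V) (hUℓ u.2)
  -- the cardinality of `U` is divisible by `ℓ`
  have hcard : ℓ ∣ Nat.card ↥U := by
    obtain ⟨u, hu0⟩ := (AddSubgroup.ne_bot_iff_exists_ne_zero).1 hU0
    obtain ⟨u, hu⟩ := u
    have hu0' : (⟨u, hu⟩ : ↥U) ≠ 0 := hu0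
    have hord : addOrderOf (⟨u, hu⟩ : ↥U) = ℓ := by
      refine addOrderOf_eq_prime (Subtype.ext ?_) hu0'
      exact hUℓ hu
    rw [← hord]
    exact addOrderOf_dvd_natCard _
  have h0 : (0 : ↥U) ∈ MulAction.fixedPoints ↥φ.range ↥U := by
    rintro ⟨x, g, rfl⟩
    apply Subtype.ext
    show ((φ g (0 : ↥U) : ↥U) : V) = 0
    rw [hφ]
    exact map_zero _
  obtain ⟨b, hb, hb0⟩ := hP.exists_fixed_point_of_prime_dvd_card_of_fixed_point ↥U hcard h0
  refine ⟨(b : V), b.2, fun h => hb0 (Subtype.ext h.symm), fun g hg => ?_⟩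
  have := hb ⟨φ ⟨g, hg⟩, ⟨g, hg⟩, rfl⟩
  exact congrArg Subtype.val this

/-! ### the integer lift of a character -/

variable (χ : G →* (ZMod ℓ)ˣ)

/-- the integer lift `ω g = (χ g).val` of a character mod `ℓ`. -/
def om (g : G) : ℤ := ((((χ g : (ZMod ℓ)ˣ) : ZMod ℓ).val : ℕ) : ℤ)

theorem cast_om (g : G) : ((om ℓ χ g : ℤ) : ZMod ℓ) = ((χ g : (ZMod ℓ)ˣ) : ZMod ℓ) := by
  haveI : NeZero ℓ := ⟨hℓ.out.ne_zero⟩
  rw [om, Int.cast_natCast, ZMod.natCast_zmod_val]

theorem om_eq_one_of_mem_ker {g : G} (hg : g ∈ χ.ker) : om ℓ χ g = 1 := by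
  haveI : Fact (1 < ℓ) := ⟨hℓ.out.one_lt⟩
  rw [om, MonoidHom.mem_ker.1 hg, Units.val_one, ZMod.val_one]
  rfl

theorem zsmul_eq_of_cast_eq {a b : ℤ} (h : (a : ZMod ℓ) = (b : ZMod ℓ)) {u : V}
    (hu : ℓ • u = 0) : a • u = b • u := by
  obtain ⟨c, hc⟩ := (ZMod.intCast_eq_intCast_iff_dvd_sub a b ℓ).1 h
  have : b = a + (ℓ : ℤ) * c := by linarith
  rw [this, add_smul, mul_comm, mul_smul, natCast_zsmul, hu, smul_zero, add_zero]

theorem om_mul_smul (g h : G) {u : V} (hu : ℓ • u = 0) :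
    om ℓ χ (g * h) • u = om ℓ χ g • om ℓ χ h • u := by
  rw [← mul_smul]
  refine zsmul_eq_of_cast_eq ℓ ?_ hu
  rw [Int.cast_mul, cast_om, cast_om, cast_om, map_mul, Units.val_mul]

theorem om_inv_smul (g : G) {u : V} (hu : ℓ • u = 0) :
    om ℓ χ g⁻¹ • om ℓ χ g • u = u := by
  rw [← mul_smul]
  have : (om ℓ χ g⁻¹ * om ℓ χ g) • u = (1 : ℤ) • u := by
    refine zsmul_eq_of_cast_eq ℓ ?_ hu
    rw [Int.cast_mul, cast_om, cast_om, map_inv, Int.cast_one, ← Units.val_mul, inv_mul_cancel,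
      Units.val_one]
  rw [this, one_smul]

/-- **the line lemma.** -/
theorem exists_line [Finite V] [Nontrivial V] (hV : ∀ v : V, ∃ k : ℕ, ℓ ^ k • v = 0)
    (hnil : ∀ g : G, IsNilpotent ((ρ g - 1) * (ρ g - om ℓ χ g • (1 : Module.End ℤ V)))) :
    ∃ v : V, v ≠ 0 ∧ ℓ • v = 0 ∧
      ((∀ g : G, ρ g v = v) ∨ (∀ g : G, ρ g v = om ℓ χ g • v)) := by
  classical
  -- a minimal nonzero stable subgroup of the `ℓ`-torsion
  let P : AddSubgroup V → Prop := fun U => U ≠ ⊥ ∧ U ≤ tors ℓ ∧ IsStab ρ U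
  obtain ⟨U, ⟨hU0, hUℓ, hUst⟩, hmin⟩ := exists_minimalFor_of_wellFoundedLT P
    (fun U : AddSubgroup V => Nat.card ↥U) ⟨tors ℓ, tors_ne_bot ℓ hV, le_rfl, isStab_tors ρ ℓ⟩
  have hmin' : ∀ U' : AddSubgroup V, P U' → U' ≤ U → U' = U := by
    intro U' hU' hle
    have h1 : Nat.card ↥U' ≤ Nat.card ↥U := AddSubgroup.card_le_of_le hle
    exact AddSubgroup.eq_of_le_of_card_ge hle (hmin hU' h1)
  have hUtors : ∀ u ∈ U, ℓ • u = 0 := fun u hu => hUℓ hu
  -- `N = ker χ` acts trivially on `U`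
  have hN : ∀ g ∈ χ.ker, IsNilpotent (ρ g - 1) := by
    intro g hg
    obtain ⟨n, hn⟩ := hnil g
    rw [om_eq_one_of_mem_ker ℓ χ hg, one_smul, ← pow_two, ← pow_mul] at hn
    exact ⟨2 * n, hn⟩
  have hNfix : ∀ g ∈ χ.ker, ∀ u ∈ U, ρ g u = u := by
    let U' : AddSubgroup V :=
      { carrier := {u | u ∈ U ∧ ∀ g ∈ χ.ker, ρ g u = u}
        zero_mem' := ⟨U.zero_mem, fun g _ => map_zero _⟩
        add_mem' := fun {a b} ha hb => ⟨U.add_mem ha.1 hb.1, fun g hg => by
          rw [map_add, ha.2 g hg, hb.2 g hg]⟩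
        neg_mem' := fun {a} ha => ⟨U.neg_mem ha.1, fun g hg => by rw [map_neg, ha.2 g hg]⟩ }
    have hU'le : U' ≤ U := fun u hu => hu.1
    have hU'0 : U' ≠ ⊥ := by
      obtain ⟨u, hu, hu0, hfix⟩ := exists_fixed_of_unipotent ρ ℓ U hUst hU0 hUℓ χ.ker hN
      intro hbot
      have : u ∈ U' := ⟨hu, hfix⟩
      rw [hbot, AddSubgroup.mem_bot] at this
      exact hu0 this
    have hU'st : IsStab ρ U' := by
      intro h u hu
      refine ⟨hUst h u hu.1, fun g hg => ?_⟩
      have hconj : h⁻¹ * g * h ∈ χ.ker := by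
        rw [MonoidHom.mem_ker, map_mul, map_mul, MonoidHom.mem_ker.1 hg, mul_one, map_inv,
          inv_mul_cancel]
      have e : g * h = h * (h⁻¹ * g * h) := by group
      have h1 : ρ g (ρ h u) = ρ (g * h) u := by rw [map_mul]; rfl
      rw [h1, e, map_mul]
      show ρ h (ρ (h⁻¹ * g * h) u) = ρ h u
      rw [hu.2 _ hconj]
    have := hmin' U' ⟨hU'0, hU'le.trans hUℓ, hU'st⟩ hU'le
    intro g hg u hu
    rw [← this] at hu
    exact hu.2 g hg
  -- the operators commute on `U`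
  have hcomm : ∀ (g h : G), ∀ u ∈ U, ρ g (ρ h u) = ρ h (ρ g u) := by
    intro g h u hu
    have hc : (h * g)⁻¹ * (g * h) ∈ χ.ker := by
      rw [MonoidHom.mem_ker, map_mul, map_inv, map_mul, map_mul, mul_comm (χ h) (χ g),
        inv_mul_cancel]
    have e : g * h = (h * g) * ((h * g)⁻¹ * (g * h)) := by group
    have h1 : ρ g (ρ h u) = ρ (g * h) u := by rw [map_mul]; rfl
    have h2 : ρ h (ρ g u) = ρ (h * g) u := by rw [map_mul]; rfl
    rw [h1, h2, e, map_mul]
    show ρ (h * g) (ρ ((h * g)⁻¹ * (g * h)) u) = ρ (h * g) u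
    rw [hNfix _ hc u hu]
  -- the dichotomy
  have hdich : ∀ g : G, (∀ u ∈ U, ρ g u = u) ∨ (∀ u ∈ U, ρ g u = om ℓ χ g • u) := by
    intro g
    let E₁ : AddSubgroup V :=
      { carrier := {u | u ∈ U ∧ ρ g u = u}
        zero_mem' := ⟨U.zero_mem, map_zero _⟩
        add_mem' := fun {a b} ha hb => ⟨U.add_mem ha.1 hb.1, by rw [map_add, ha.2, hb.2]⟩
        neg_mem' := fun {a} ha => ⟨U.neg_mem ha.1, by rw [map_neg, ha.2]⟩ }
    let Eω : AddSubgroup V :=
      { carrier := {u | u ∈ U ∧ ρ g u = om ℓ χ g • u}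
        zero_mem' := ⟨U.zero_mem, by rw [map_zero, smul_zero]⟩
        add_mem' := fun {a b} ha hb => ⟨U.add_mem ha.1 hb.1, by
          rw [map_add, ha.2, hb.2, smul_add]⟩
        neg_mem' := fun {a} ha => ⟨U.neg_mem ha.1, by rw [map_neg, ha.2, smul_neg]⟩ }
    have hE₁st : IsStab ρ E₁ := fun h u hu =>
      ⟨hUst h u hu.1, by rw [hcomm g h u hu.1, hu.2]⟩
    have hEωst : IsStab ρ Eω := fun h u hu =>
      ⟨hUst h u hu.1, by rw [hcomm g h u hu.1, hu.2, map_zsmul]⟩
    have hE₁le : E₁ ≤ U := fun u hu => hu.1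
    have hEωle : Eω ≤ U := fun u hu => hu.1
    -- one of them is nonzero
    have hne : E₁ ≠ ⊥ ∨ Eω ≠ ⊥ := by
      obtain ⟨n, hn⟩ := hnil g
      set f : Module.End ℤ V := (ρ g - 1) * (ρ g - om ℓ χ g • (1 : Module.End ℤ V)) with hf
      have hfU : ∀ u ∈ U, f u ∈ U := by
        intro u hu
        have h1 : (ρ g - om ℓ χ g • (1 : Module.End ℤ V)) u ∈ U := by
          rw [LinearMap.sub_apply, LinearMap.smul_apply, Module.End.one_apply]
          exact U.sub_mem (hUst g u hu) (U.zsmul_mem hu _)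
        rw [hf, Module.End.mul_apply, LinearMap.sub_apply, Module.End.one_apply]
        exact U.sub_mem (hUst g _ h1) h1
      have hfiU : ∀ (i : ℕ), ∀ u ∈ U, (f ^ i) u ∈ U := by
        intro i
        induction i with
        | zero => intro u hu; simpa using hu
        | succ i ih =>
          intro u hu
          rw [pow_succ', Module.End.mul_apply]
          exact hfU _ (ih u hu)
      obtain ⟨u₀, hu₀⟩ := (AddSubgroup.ne_bot_iff_exists_ne_zero).1 hU0
      have hex : ∃ i : ℕ, (f ^ i) (u₀ : V) = 0 := ⟨n, by rw [hn, LinearMap.zero_apply]⟩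
      have hi0 : Nat.find hex ≠ 0 := by
        intro h0
        have := Nat.find_spec hex
        rw [h0, pow_zero, Module.End.one_apply] at this
        exact hu₀ (Subtype.ext this)
      obtain ⟨i, hi⟩ := Nat.exists_eq_succ_of_ne_zero hi0
      set w : V := (f ^ i) (u₀ : V) with hw
      have hw0 : w ≠ 0 := Nat.find_min hex (by rw [hi]; exact Nat.lt_succ_self i)
      have hwU : w ∈ U := hfiU i _ u₀.2
      have hfw : f w = 0 := by
        have := Nat.find_spec hex
        rw [hi, pow_succ', Module.End.mul_apply] at this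
        exact this
      set w' : V := ρ g w - om ℓ χ g • w with hw'
      have hw'U : w' ∈ U := U.sub_mem (hUst g w hwU) (U.zsmul_mem hwU _)
      have hfw' : ρ g w' - w' = 0 := by
        have : f w = ρ g w' - w' := by
          rw [hf, Module.End.mul_apply, LinearMap.sub_apply, LinearMap.sub_apply,
            LinearMap.smul_apply, Module.End.one_apply, Module.End.one_apply]
        rw [← this, hfw]
      by_cases h0 : w' = 0
      · right
        intro hbot
        have : w ∈ Eω := ⟨hwU, sub_eq_zero.1 h0⟩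
        rw [hbot, AddSubgroup.mem_bot] at this
        exact hw0 this
      · left
        intro hbot
        have : w' ∈ E₁ := ⟨hw'U, sub_eq_zero.1 hfw'⟩
        rw [hbot, AddSubgroup.mem_bot] at this
        exact h0 this
    rcases hne with h | h
    · left
      have := hmin' E₁ ⟨h, hE₁le.trans hUℓ, hE₁st⟩ hE₁le
      intro u hu
      rw [← this] at hu
      exact hu.2
    · right
      have := hmin' Eω ⟨h, hEωle.trans hUℓ, hEωst⟩ hEωle
      intro u hu
      rw [← this] at hu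
      exact hu.2
  -- two subgroups
  let G₁ : Subgroup G :=
    { carrier := {g | ∀ u ∈ U, ρ g u = u}
      one_mem' := fun u _ => by rw [map_one]; rfl
      mul_mem' := fun {a b} ha hb u hu => by
        rw [map_mul]
        show ρ a (ρ b u) = u
        rw [hb u hu, ha u hu]
      inv_mem' := fun {a} ha u hu => by
        have h1 : ρ a⁻¹ (ρ a u) = u := by
          have : ρ a⁻¹ (ρ a u) = ρ (a⁻¹ * a) u := by rw [map_mul]; rfl
          rw [this, inv_mul_cancel, map_one]
          rfl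
        rw [ha u hu] at h1
        exact h1 }
  let Gω : Subgroup G :=
    { carrier := {g | ∀ u ∈ U, ρ g u = om ℓ χ g • u}
      one_mem' := fun u _ => by
        rw [map_one, om_eq_one_of_mem_ker ℓ χ (one_mem _), one_smul]
        rfl
      mul_mem' := fun {a b} ha hb u hu => by
        rw [map_mul]
        show ρ a (ρ b u) = _
        rw [hb u hu, map_zsmul, ha u hu, om_mul_smul ℓ χ a b (hUtors u hu), smul_comm]
      inv_mem' := fun {a} ha u hu => by
        have h1 : ρ a (ρ a⁻¹ u) = u := by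
          have : ρ a (ρ a⁻¹ u) = ρ (a * a⁻¹) u := by rw [map_mul]; rfl
          rw [this, mul_inv_cancel, map_one]
          rfl
        have h2 : ρ a⁻¹ u ∈ U := hUst a⁻¹ u hu
        rw [ha _ h2] at h1
        have h3 := om_inv_smul ℓ χ a (hUtors _ h2)
        rw [h1] at h3
        exact h3.symm }
  have hunion : ∀ g : G, g ∈ G₁ ∨ g ∈ Gω := hdich
  have htop : (∀ g : G, g ∈ G₁) ∨ (∀ g : G, g ∈ Gω) := by
    by_contra hcon
    rw [not_or] at hcon
    obtain ⟨h1, h2⟩ := hcon
    rw [not_forall] at h1 h2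
    obtain ⟨a, ha⟩ := h1
    obtain ⟨b, hb⟩ := h2
    have haω : a ∈ Gω := (hunion a).resolve_left ha
    have hb1 : b ∈ G₁ := (hunion b).resolve_right hb
    rcases hunion (a * b) with h | h
    · apply ha
      have : a = a * b * b⁻¹ := by group
      rw [this]
      exact G₁.mul_mem h (G₁.inv_mem hb1)
    · apply hb
      have : b = a⁻¹ * (a * b) := by group
      rw [this]
      exact Gω.mul_mem (Gω.inv_mem haω) h
  obtain ⟨u₀, hu₀⟩ := (AddSubgroup.ne_bot_iff_exists_ne_zero).1 hU0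
  refine ⟨(u₀ : V), fun h => hu₀ (Subtype.ext h), hUtors _ u₀.2, ?_⟩
  rcases htop with h | h
  · exact Or.inl fun g => h g _ u₀.2
  · exact Or.inr fun g => h g _ u₀.2

end Line

end Fermat.Agent.M15.JHLine5
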