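/-
Programme M15 (target S15), chapter (JH) plumbing (helper8), part 1: **existence of a labelled
Jordan–Hölder chain** (`SDOdd0.JHChain`) for a finite `ℓ`-primary `Γ`-module `W` on which
`(g - 1)(g - ω(g))` is nilpotent for every `g`, `ω` the integer lift of a character
`χ : Γ → (ZMod ℓ)ˣ` which describes the action on a primitive `ℓ`-th root of unity `ζ`.

* cyclic groups of prime order (`card_eq_of_gen`, `jmap`);
* `exists_next` : a stable `S ≠ ⊤` has a stable `S' > S` with `S'/S` of order `ℓ`, with trivial action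
  or equivariantly embedded in `ℚ̄ˣ` (the line lemma `JHLine5.exists_line` in `W ⧸ S`);
* `exists_jhChain` : iteration.
Imported by no statement.
-/
import Mathlib
import Fermat.Agent.M15.JHLine5
import Fermat.Agent.M15.SDOdd0

set_option autoImplicit false
set_option linter.unusedSectionVars false
set_option linter.unusedVariables false
set_option linter.style.haveILetI false

namespace Fermat.Agent.M15.JHAbs8

open Fermat.Agent.M15.JHLine5 Fermat.Agent.M15.DevChain5 Fermat.Agent.M15.SDOdd0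

local notation "Γ" => (AlgebraicClosure ℚ ≃ₐ[ℚ] AlgebraicClosure ℚ)
local notation "Qbar" => AlgebraicClosure ℚ

noncomputable section

/-! ### cyclic groups of prime order -/

section Cyclic

variable {P : Type*} [AddCommGroup P] (ℓ : ℕ) [hℓ : Fact ℓ.Prime] (x : P)

theorem card_eq_of_gen (hx0 : x ≠ 0) (hxℓ : ℓ • x = 0) (hgen : ∀ y : P, ∃ a : ℤ, y = a • x) :
    Nat.card P = ℓ := by
  have htop : AddSubgroup.zmultiples x = ⊤ := by
    rw [eq_top_iff]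
    intro y _
    obtain ⟨a, rfl⟩ := hgen y
    exact AddSubgroup.zsmul_mem_zmultiples x a
  have hord : addOrderOf x = ℓ := addOrderOf_eq_prime hxℓ hx0
  rw [← hord, ← Nat.card_zmultiples, htop, AddSubgroup.card_top]

theorem zsmul_eq_zsmul_iff (hx0 : x ≠ 0) (hxℓ : ℓ • x = 0) (a b : ℤ) :
    a • x = b • x ↔ (ℓ : ℤ) ∣ a - b := by
  have hord : addOrderOf x = ℓ := addOrderOf_eq_prime hxℓ hx0
  rw [← sub_eq_zero, ← sub_smul, ← hord]
  exact (addOrderOf_dvd_iff_zsmul_eq_zero).symm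

variable {M : Type*} [CommGroup M] (ζ : M)

/-- the map `a • x ↦ ζ ^ a`. -/
def jmap (hgen : ∀ y : P, ∃ a : ℤ, y = a • x) : P → M :=
  fun y => ζ ^ (Classical.choose (hgen y))

theorem jmap_zsmul (hx0 : x ≠ 0) (hxℓ : ℓ • x = 0) (hgen : ∀ y : P, ∃ a : ℤ, y = a • x)
    (hζ : ζ ^ ℓ = 1) (a : ℤ) : jmap x ζ hgen (a • x) = ζ ^ a := by
  unfold jmap
  have h := Classical.choose_spec (hgen (a • x))
  obtain ⟨c, hc⟩ := (zsmul_eq_zsmul_iff ℓ x hx0 hxℓ _ _).1 h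
  have : Classical.choose (hgen (a • x)) = a - ℓ * c := by linarith
  rw [this, zpow_sub, zpow_mul, zpow_natCast, hζ, one_zpow, inv_one, mul_one]

theorem jmap_add (hx0 : x ≠ 0) (hxℓ : ℓ • x = 0) (hgen : ∀ y : P, ∃ a : ℤ, y = a • x)
    (hζ : ζ ^ ℓ = 1) (y y' : P) :
    jmap x ζ hgen (y + y') = jmap x ζ hgen y * jmap x ζ hgen y' := by
  obtain ⟨a, rfl⟩ := hgen y
  obtain ⟨b, rfl⟩ := hgen y'
  rw [← add_smul, jmap_zsmul ℓ x ζ hx0 hxℓ hgen hζ, jmap_zsmul ℓ x ζ hx0 hxℓ hgen hζ,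
    jmap_zsmul ℓ x ζ hx0 hxℓ hgen hζ, zpow_add]

theorem jmap_injective (hx0 : x ≠ 0) (hxℓ : ℓ • x = 0) (hgen : ∀ y : P, ∃ a : ℤ, y = a • x)
    (hζ : orderOf ζ = ℓ) : Function.Injective (jmap x ζ hgen) := by
  have hζ' : ζ ^ ℓ = 1 := by rw [← hζ]; exact pow_orderOf_eq_one ζ
  intro y y' h
  obtain ⟨a, rfl⟩ := hgen y
  obtain ⟨b, rfl⟩ := hgen y'
  rw [jmap_zsmul ℓ x ζ hx0 hxℓ hgen hζ', jmap_zsmul ℓ x ζ hx0 hxℓ hgen hζ'] at h
  rw [zsmul_eq_zsmul_iff ℓ x hx0 hxℓ, ← hζ]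
  rw [orderOf_dvd_iff_zpow_eq_one, zpow_sub, h, mul_inv_cancel]

end Cyclic

/-! ### pieces which embed in a cyclic group -/

section Embed

variable {P V : Type*} [AddCommGroup P] [AddCommGroup V] (ℓ : ℕ) [hℓ : Fact ℓ.Prime]

theorem piece_facts (ι : P →+ V) (hι : Function.Injective ι) (v : V) (hv0 : v ≠ 0)
    (hvℓ : ℓ • v = 0) (x : P) (hx : ι x = v) (hrange : ∀ y : P, ι y ∈ AddSubgroup.zmultiples v) :
    x ≠ 0 ∧ ℓ • x = 0 ∧ ∀ y : P, ∃ a : ℤ, y = a • x := by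
  refine ⟨?_, ?_, ?_⟩
  · rintro rfl
    rw [map_zero] at hx
    exact hv0 hx.symm
  · apply hι
    rw [map_nsmul, hx, hvℓ, map_zero]
  · intro y
    obtain ⟨a, ha⟩ := AddSubgroup.mem_zmultiples_iff.1 (hrange y)
    refine ⟨a, hι ?_⟩
    rw [map_zsmul, hx, ha]

end Embed

/-! ### the next step of the chain -/

section Next

/-- endomorphisms for the canonical `ℤ`-structure. -/
abbrev IntEnd (V : Type*) [AddCommGroup V] : Type _ := Module.End ℤ V

/-- the operator `(f - 1)(f - c)` of the line lemma. -/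
abbrev lineOp {V : Type*} [AddCommGroup V] (f : Module.End ℤ V) (c : ℤ) : Module.End ℤ V :=
  (f - 1) * (f - c • (1 : Module.End ℤ V))

theorem lineOp_apply {V : Type*} [AddCommGroup V] (f : Module.End ℤ V) (c : ℤ) (v : V) :
    lineOp f c v = f (f v - c • v) - (f v - c • v) := by
  simp only [lineOp, Module.End.mul_apply, LinearMap.sub_apply, LinearMap.smul_apply,
    Module.End.one_apply]

section Generic

variable {k : Type} [CommRing k] (W : Rep.{0, 0, 0} k Γ)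

/-- a subgroup stable under the scalars, as a submodule for the module structure carried by the
representation. -/
def subOfAdd (A : AddSubgroup W) (hA : ∀ (c : k) (x : W), x ∈ A → c • x ∈ A) : RepSub W where
  carrier := A
  add_mem' := A.add_mem
  zero_mem' := A.zero_mem
  smul_mem' c x hx := hA c x hx

theorem mem_subOfAdd (A : AddSubgroup W) (hA : ∀ (c : k) (x : W), x ∈ A → c • x ∈ A) (w : W) :
    w ∈ subOfAdd W A hA ↔ w ∈ A := Iff.rfl

variable (S : RepSub W) (hS : IsStable W S)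

/-- the projection `W → W ⧸ S`, additive. -/
def qmk : W →+ (W ⧸ S) := (Submodule.mkQ S).toAddMonoidHom

theorem qmk_surjective : Function.Surjective (qmk W S) := Submodule.mkQ_surjective S

theorem qmk_eq_zero_iff (w : W) : qmk W S w = 0 ↔ w ∈ S := Submodule.Quotient.mk_eq_zero S

/-- the action on `W ⧸ S`. -/
def quotRho : Γ →* IntEnd (W ⧸ S) where
  toFun g := AddMonoidHom.toIntLinearMap
    (Submodule.mapQ S S (W.ρ g) (fun w hw => hS g w hw)).toAddMonoidHom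
  map_one' := by
    refine LinearMap.ext fun x => ?_
    obtain ⟨w, rfl⟩ := qmk_surjective W S x
    show qmk W S (W.ρ 1 w) = qmk W S w
    rw [map_one]
    rfl
  map_mul' g h := by
    refine LinearMap.ext fun x => ?_
    obtain ⟨w, rfl⟩ := qmk_surjective W S x
    show qmk W S (W.ρ (g * h) w) = qmk W S (W.ρ g (W.ρ h w))
    rw [map_mul]
    rfl

theorem quotRho_qmk (g : Γ) (w : W) : quotRho W S hS g (qmk W S w) = qmk W S (W.ρ g w) := rfl

variable (S' : RepSub W) (hS' : IsStable W S')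

/-- the embedding `S' / S → W / S`. -/
def pieceEmb : pieceRep W S S' hS hS' →+ (W ⧸ S) :=
  (Submodule.mapQ (S.comap S'.subtype) S S'.subtype le_rfl).toAddMonoidHom

theorem pieceEmb_proj (b : subRep W S' hS') :
    pieceEmb W S hS S' hS' (pieceProj W S S' hS hS' b) = qmk W S (subIncl W S' hS' b) := rfl

theorem pieceEmb_injective : Function.Injective (pieceEmb W S hS S' hS') := by
  intro a b hab
  obtain ⟨a, rfl⟩ := pieceProj_surjective W S S' hS hS' a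
  obtain ⟨b, rfl⟩ := pieceProj_surjective W S S' hS hS' b
  rw [pieceEmb_proj, pieceEmb_proj] at hab
  have h1 : qmk W S (subIncl W S' hS' a - subIncl W S' hS' b) = 0 := by
    rw [map_sub, hab, sub_self]
  rw [qmk_eq_zero_iff] at h1
  have h2 : pieceProj W S S' hS hS' (a - b) = 0 :=
    (Submodule.Quotient.mk_eq_zero (S.comap S'.subtype)).2 h1
  rw [map_sub, sub_eq_zero] at h2
  exact h2

theorem pieceEmb_ρ (g : Γ) (m : pieceRep W S S' hS hS') :
    pieceEmb W S hS S' hS' ((pieceRep W S S' hS hS').ρ g m) =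
      quotRho W S hS g (pieceEmb W S hS S' hS' m) := by
  obtain ⟨b, rfl⟩ := pieceProj_surjective W S S' hS hS' m
  rfl

/-- the operator `(g - 1)(g - c)`. -/
def nilOp (g : Γ) (c : k) : Module.End k W := (W.ρ g - 1) * (W.ρ g - c • (1 : Module.End k W))

theorem nilOp_apply (g : Γ) (c : k) (w : W) :
    nilOp W g c w = W.ρ g (W.ρ g w - c • w) - (W.ρ g w - c • w) := rfl

end Generic

section IntCase

attribute [local instance 2000] Rep.hV2

variable (W : Rep.{0, 0, 0} ℤ Γ) (S : RepSub W) (hS : IsStable W S)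

theorem hV2_smul (c : ℤ) (w : W) : W.hV2.smul c w = c • w := int_smul_eq_zsmul W.hV2 c w

theorem int_smul_mem (A : AddSubgroup W) (c : ℤ) (x : W) (hx : x ∈ A) : W.hV2.smul c x ∈ A := by
  rw [hV2_smul]
  exact A.zsmul_mem hx c

theorem qmk_smul (c : ℤ) (w : W) : qmk W S (W.hV2.smul c w) = c • qmk W S w := by
  rw [hV2_smul]
  exact map_zsmul _ _ _

theorem quot_nilOp (g : Γ) (c : ℤ) (w : W) :
    lineOp (quotRho W S hS g) c (qmk W S w) = qmk W S (nilOp W g c w) := by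
  have e1 : nilOp W g c w =
      W.ρ g (W.ρ g w - W.hV2.smul c w) - (W.ρ g w - W.hV2.smul c w) := rfl
  rw [e1, map_sub (qmk W S), map_sub (qmk W S), ← quotRho_qmk W S hS g, map_sub (qmk W S),
    ← quotRho_qmk W S hS g w, qmk_smul, lineOp_apply]

theorem quot_nilOp_pow (g : Γ) (c : ℤ) (n : ℕ) (w : W) :
    ((lineOp (quotRho W S hS g) c) ^ n) (qmk W S w) = qmk W S ((nilOp W g c ^ n) w) := by
  induction n generalizing w with
  | zero => simp
  | succ n ih =>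
    rw [pow_succ, Module.End.mul_apply, quot_nilOp, ih, pow_succ, Module.End.mul_apply]

theorem quot_isNilpotent (g : Γ) (c : ℤ) (h : IsNilpotent (nilOp W g c)) :
    IsNilpotent (lineOp (quotRho W S hS g) c) := by
  obtain ⟨n, hn⟩ := h
  refine ⟨n, LinearMap.ext fun x => ?_⟩
  obtain ⟨w, rfl⟩ := qmk_surjective W S x
  rw [quot_nilOp_pow, hn, LinearMap.zero_apply, map_zero, LinearMap.zero_apply]

variable (ℓ : ℕ) [hℓ : Fact ℓ.Prime] (χ : Γ →* (ZMod ℓ)ˣ)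

/-- stable submodules. -/
abbrev StabSub : Type := {S : RepSub W // IsStable W S}

/-- the conditions on a step `A ≤ B` of the chain: the piece has order `ℓ`, and trivial action or an
equivariant embedding in `ℚ̄ˣ`. -/
def GoodStep (A B : StabSub W) : Prop :=
  Nat.card (pieceRep W A.1 B.1 A.2 B.2) = ℓ ∧
    ((∀ (σ : Γ) (m : pieceRep W A.1 B.1 A.2 B.2), (pieceRep W A.1 B.1 A.2 B.2).ρ σ m = m) ∨
      ∃ j : pieceRep W A.1 B.1 A.2 B.2 → Qbarˣ, Function.Injective j ∧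
        (∀ a b, j (a + b) = j a * j b) ∧
        ∀ (σ : Γ) (m : pieceRep W A.1 B.1 A.2 B.2),
          ((j ((pieceRep W A.1 B.1 A.2 B.2).ρ σ m) : Qbarˣ) : Qbar) = σ ((j m : Qbarˣ) : Qbar))

/-- **the next step**: a stable `S ≠ ⊤` has a stable `S' > S` with `S' / S` of order `ℓ`, with trivial
action or equivariantly embedded in `ℚ̄ˣ`. -/
theorem exists_next [Finite W] (hWℓ : ∀ w : W, ∃ n : ℕ, ℓ ^ n • w = 0)
    (hnil : ∀ g : Γ, IsNilpotent (nilOp W g (om ℓ χ g)))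
    (ζ : Qbarˣ) (hζ : orderOf ζ = ℓ)
    (hζσ : ∀ σ : Γ, σ ((ζ : Qbarˣ) : Qbar) = ((ζ ^ om ℓ χ σ : Qbarˣ) : Qbar))
    (A : StabSub W) (hA : A.1 ≠ ⊤) :
    ∃ B : StabSub W, A.1 < B.1 ∧ GoodStep W ℓ A B := by
  obtain ⟨S, hS⟩ := A
  haveI : Nontrivial (W ⧸ S) := Submodule.Quotient.nontrivial_iff.2 hA
  haveI : Finite (W ⧸ S) := Finite.of_surjective _ (qmk_surjective W S)
  have hV : ∀ v : W ⧸ S, ∃ n : ℕ, ℓ ^ n • v = 0 := by
    intro v
    obtain ⟨w, rfl⟩ := qmk_surjective W S v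
    obtain ⟨n, hn⟩ := hWℓ w
    exact ⟨n, by rw [← map_nsmul, hn, map_zero]⟩
  obtain ⟨v, hv0, hvℓ, hact⟩ := exists_line (quotRho W S hS) ℓ χ hV
    (fun g => quot_isNilpotent W S hS g _ (hnil g))
  -- the subgroup
  let A' : AddSubgroup W := (AddSubgroup.zmultiples v).comap (qmk W S)
  let S' : RepSub W := subOfAdd W A' (int_smul_mem W A')
  have hmem : ∀ y : W, y ∈ S' ↔ ∃ a : ℤ, a • v = qmk W S y :=
    fun y => AddSubgroup.mem_zmultiples_iff
  have hact' : ∀ g : Γ, quotRho W S hS g v ∈ AddSubgroup.zmultiples v := by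
    intro g
    rcases hact with h | h
    · rw [h g]
      exact AddSubgroup.mem_zmultiples v
    · rw [h g]
      exact AddSubgroup.zsmul_mem_zmultiples v _
  have hS' : IsStable W S' := by
    intro g y hy
    obtain ⟨a, ha⟩ := (hmem y).1 hy
    show qmk W S (W.ρ g y) ∈ AddSubgroup.zmultiples v
    rw [← quotRho_qmk W S hS, ← ha, map_zsmul]
    exact (AddSubgroup.zmultiples v).zsmul_mem (hact' g) a
  have hle : S ≤ S' := fun y hy =>
    (hmem y).2 ⟨0, by rw [zero_smul, (qmk_eq_zero_iff W S y).2 hy]⟩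
  obtain ⟨w, rfl⟩ := qmk_surjective W S v
  have hwS' : w ∈ S' := (hmem w).2 ⟨1, one_smul _ _⟩
  have hwS : w ∉ S := fun h => hv0 ((qmk_eq_zero_iff W S w).2 h)
  have hlt : S < S' := lt_of_le_of_ne hle (fun h => hwS (h ▸ hwS'))
  refine ⟨⟨S', hS'⟩, hlt, ?_⟩
  -- the piece
  set x : pieceRep W S S' hS hS' := pieceProj W S S' hS hS' ⟨w, hwS'⟩ with hxdef
  have hιx : pieceEmb W S hS S' hS' x = qmk W S w := rfl
  have hrange : ∀ y, pieceEmb W S hS S' hS' y ∈ AddSubgroup.zmultiples (qmk W S w) := by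
    intro y
    obtain ⟨b, rfl⟩ := pieceProj_surjective W S S' hS hS' y
    exact (show ↥S' from b).2
  obtain ⟨hx0, hxℓ, hgen⟩ := piece_facts ℓ (pieceEmb W S hS S' hS')
    (pieceEmb_injective W S hS S' hS') _ hv0 hvℓ x hιx hrange
  refine ⟨card_eq_of_gen ℓ x hx0 hxℓ hgen, ?_⟩
  rcases hact with h | h
  · left
    intro σ m
    apply pieceEmb_injective W S hS S' hS'
    rw [pieceEmb_ρ]
    obtain ⟨a, ha⟩ := AddSubgroup.mem_zmultiples_iff.1 (hrange m)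
    rw [← ha, map_zsmul, h σ]
  · right
    have hζ' : ζ ^ ℓ = 1 := by rw [← hζ]; exact pow_orderOf_eq_one ζ
    refine ⟨jmap x ζ hgen, jmap_injective ℓ x ζ hx0 hxℓ hgen hζ,
      jmap_add ℓ x ζ hx0 hxℓ hgen hζ', ?_⟩
    intro σ m
    obtain ⟨a, rfl⟩ := hgen m
    have h1 : (pieceRep W S S' hS hS').ρ σ (a • x) = (a * om ℓ χ σ) • x := by
      apply pieceEmb_injective W S hS S' hS'
      rw [pieceEmb_ρ]
      simp only [map_zsmul, hιx, h σ, mul_smul]
    rw [h1, jmap_zsmul ℓ x ζ hx0 hxℓ hgen hζ', jmap_zsmul ℓ x ζ hx0 hxℓ hgen hζ',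
      Units.val_zpow_eq_zpow_val ζ a, map_zpow₀, hζσ, ← Units.val_zpow_eq_zpow_val, ← zpow_mul,
      mul_comm]

/-! ### the chain -/

section Chain

variable [Finite W] (hWℓ : ∀ w : W, ∃ n : ℕ, ℓ ^ n • w = 0)
  (hnil : ∀ g : Γ, IsNilpotent (nilOp W g (om ℓ χ g)))
  (ζ : Qbarˣ) (hζ : orderOf ζ = ℓ)
  (hζσ : ∀ σ : Γ, σ ((ζ : Qbarˣ) : Qbar) = ((ζ ^ om ℓ χ σ : Qbarˣ) : Qbar))

open Classical in
/-- the next stable submodule (the same one at the top). -/
def nextSub (A : StabSub W) : StabSub W :=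
  if h : A.1 = ⊤ then A else Classical.choose (exists_next W ℓ χ hWℓ hnil ζ hζ hζσ A h)

theorem nextSub_top (A : StabSub W) (h : A.1 = ⊤) :
    nextSub W ℓ χ hWℓ hnil ζ hζ hζσ A = A := dif_pos h

theorem nextSub_spec (A : StabSub W) (h : A.1 ≠ ⊤) :
    A.1 < (nextSub W ℓ χ hWℓ hnil ζ hζ hζσ A).1 ∧
      GoodStep W ℓ A (nextSub W ℓ χ hWℓ hnil ζ hζ hζσ A) := by
  rw [nextSub, dif_neg h]
  exact Classical.choose_spec (exists_next W ℓ χ hWℓ hnil ζ hζ hζσ A h)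

/-- the sequence of stable submodules. -/
def sq (n : ℕ) : StabSub W := (nextSub W ℓ χ hWℓ hnil ζ hζ hζσ)^[n] ⟨⊥, isStable_bot W⟩

theorem sq_zero : sq W ℓ χ hWℓ hnil ζ hζ hζσ 0 = ⟨⊥, isStable_bot W⟩ := rfl

theorem sq_succ (n : ℕ) : sq W ℓ χ hWℓ hnil ζ hζ hζσ (n + 1) =
    nextSub W ℓ χ hWℓ hnil ζ hζ hζσ (sq W ℓ χ hWℓ hnil ζ hζ hζσ n) :=
  Function.iterate_succ_apply' _ _ _

theorem sq_le_succ (n : ℕ) :
    (sq W ℓ χ hWℓ hnil ζ hζ hζσ n).1 ≤ (sq W ℓ χ hWℓ hnil ζ hζ hζσ (n + 1)).1 := by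
  rw [sq_succ]
  by_cases h : (sq W ℓ χ hWℓ hnil ζ hζ hζσ n).1 = ⊤
  · rw [nextSub_top _ _ _ _ _ _ _ _ _ h]
  · exact (nextSub_spec W ℓ χ hWℓ hnil ζ hζ hζσ _ h).1.le

theorem sq_goodStep (n : ℕ) (h : (sq W ℓ χ hWℓ hnil ζ hζ hζσ n).1 ≠ ⊤) :
    GoodStep W ℓ (sq W ℓ χ hWℓ hnil ζ hζ hζσ n) (sq W ℓ χ hWℓ hnil ζ hζ hζσ (n + 1)) := by
  rw [sq_succ]
  exact (nextSub_spec W ℓ χ hWℓ hnil ζ hζ hζσ _ h).2

theorem sq_card (n : ℕ) : (sq W ℓ χ hWℓ hnil ζ hζ hζσ n).1 = ⊤ ∨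
    n ≤ (((sq W ℓ χ hWℓ hnil ζ hζ hζσ n).1 : RepSub W) : Set W).ncard := by
  induction n with
  | zero => exact Or.inr (Nat.zero_le _)
  | succ n ih =>
    by_cases h : (sq W ℓ χ hWℓ hnil ζ hζ hζσ n).1 = ⊤
    · left
      rw [sq_succ, nextSub_top _ _ _ _ _ _ _ _ _ h]
      exact h
    · right
      have h1 := ih.resolve_left h
      have h2 : (sq W ℓ χ hWℓ hnil ζ hζ hζσ n).1 < (sq W ℓ χ hWℓ hnil ζ hζ hζσ (n + 1)).1 := by
        rw [sq_succ]
        exact (nextSub_spec W ℓ χ hWℓ hnil ζ hζ hζσ _ h).1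
      have h3 := Set.ncard_lt_ncard (SetLike.coe_ssubset_coe.2 h2) (Set.toFinite _)
      omega

theorem sq_exists_top : ∃ n : ℕ, (sq W ℓ χ hWℓ hnil ζ hζ hζσ n).1 = ⊤ := by
  refine ⟨Nat.card W + 1, (sq_card W ℓ χ hWℓ hnil ζ hζ hζσ _).resolve_right fun h => ?_⟩
  have := Set.ncard_le_card (((sq W ℓ χ hWℓ hnil ζ hζ hζσ (Nat.card W + 1)).1 : RepSub W) : Set W)
  omega

include χ hWℓ hnil ζ hζ hζσ in
open Classical in
/-- **existence of a labelled Jordan–Hölder chain.** -/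
theorem exists_jhChain : Nonempty (JHChain ℓ W) := by
  have hex := sq_exists_top W ℓ χ hWℓ hnil ζ hζ hζσ
  have hstep : ∀ i : Fin (Nat.find hex),
      GoodStep W ℓ (sq W ℓ χ hWℓ hnil ζ hζ hζσ i.val) (sq W ℓ χ hWℓ hnil ζ hζ hζσ (i.val + 1)) :=
    fun i => sq_goodStep W ℓ χ hWℓ hnil ζ hζ hζσ i.val (Nat.find_min hex i.2)
  have hmono : Monotone fun n : ℕ => (sq W ℓ χ hWℓ hnil ζ hζ hζσ n).1 :=
    monotone_nat_of_le_succ (sq_le_succ W ℓ χ hWℓ hnil ζ hζ hζσ)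
  exact ⟨{
    n := Nat.find hex
    F := fun i => (sq W ℓ χ hWℓ hnil ζ hζ hζσ i.val).1
    mono := fun i j hij => hmono hij
    st := fun i => (sq W ℓ χ hWℓ hnil ζ hζ hζσ i.val).2
    bot := rfl
    top := Nat.find_spec hex
    lab := fun i => decide (∀ (σ : Γ)
      (m : pieceRep W (sq W ℓ χ hWℓ hnil ζ hζ hζσ i.val).1 (sq W ℓ χ hWℓ hnil ζ hζ hζσ (i.val + 1)).1
        (sq W ℓ χ hWℓ hnil ζ hζ hζσ i.val).2 (sq W ℓ χ hWℓ hnil ζ hζ hζσ (i.val + 1)).2),
      (pieceRep W (sq W ℓ χ hWℓ hnil ζ hζ hζσ i.val).1 (sq W ℓ χ hWℓ hnil ζ hζ hζσ (i.val + 1)).1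
        (sq W ℓ χ hWℓ hnil ζ hζ hζσ i.val).2 (sq W ℓ χ hWℓ hnil ζ hζ hζσ (i.val + 1)).2).ρ σ m = m)
    card := fun i => (hstep i).1
    triv := fun i hi => of_decide_eq_true hi
    mu := fun i hi => ((hstep i).2).resolve_left (of_decide_eq_false hi) }⟩

end Chain

end IntCase

end Next

end

end Fermat.Agent.M15.JHAbs8
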