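/-
Programme M15 (target S15), chapter (JH) plumbing (helper8), part 2: **from Frobenius lifts to every
Galois element** (Chebotarev).

`W` a finite smooth `Γ`-module killed by `ℓ ^ k`.  If `(φ - 1)(φ - r)` is nilpotent on `W` for every
Frobenius lift `φ` at a prime `r` outside a finite set, then `(g - 1)(g - ω(g))` is nilpotent for every
`g ∈ Γ`, `ω` the integer lift of the mod `ℓ` cyclotomic character `cycloMod ℓ`
(`isNilpotent_nilOp_of_frob`): on the finite quotient of `Γ` through which `Γ` acts on `W` and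
`μ_ℓ`, `g` is a power `φ ^ j` of a Frobenius lift (`ChebQbar23.exists_frobenius_pow_eq_on`), and
`(X^j - 1)(X^j - r^j)` is a multiple of `(X - 1)(X - r)`.

Also: `cycloMod_spec` (the action on `ℓ`-th roots of unity), `exists_zeta`.
Imported by no statement.
-/
import Mathlib
import Fermat.Agent.M15.JHAbs8
import Fermat.Agent.ES.GAL.ChebQbar23
import Fermat.Agent.ES.J.CycloChar8

set_option autoImplicit false
set_option linter.unusedSectionVars false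
set_option linter.unusedVariables false
set_option linter.style.haveILetI false

namespace Fermat.Agent.M15.JHCheb8

open Fermat.Agent.M15.JHLine5 Fermat.Agent.M15.JHAbs8 Fermat.Agent.ES.J.CycloChar8 Polynomial

local notation "Γ" => (AlgebraicClosure ℚ ≃ₐ[ℚ] AlgebraicClosure ℚ)
local notation "Qbar" => AlgebraicClosure ℚ

noncomputable section

/-! ### pure algebra -/

section Algebra

variable {R : Type*} [Ring R] (F : R)

theorem isNilpotent_aeval_mul {P : ℤ[X]} (h : IsNilpotent (aeval F P)) (S : ℤ[X]) :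
    IsNilpotent (aeval F (P * S)) := by
  rw [map_mul]
  exact Commute.isNilpotent_mul_right ((Commute.all P S).map (aeval F)) h

theorem isNilpotent_aeval_sub {P P' : ℤ[X]} (h : IsNilpotent (aeval F P))
    (h' : IsNilpotent (aeval F P')) : IsNilpotent (aeval F (P - P')) := by
  rw [map_sub]
  exact Commute.isNilpotent_sub ((Commute.all P P').map (aeval F)) h h'

/-- `(F - 1)(F - r)` nilpotent, `c ≡ r ^ j mod ℓ`, `ℓ ^ k = 0` ⇒ `(F^j - 1)(F^j - c)` nilpotent. -/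
theorem isNilpotent_of_frob (r : ℤ) (hF : IsNilpotent ((F - 1) * (F - (r : R)))) (j : ℕ) (c ℓ : ℤ)
    (hc : ℓ ∣ c - r ^ j) (k : ℕ) (hℓ : ((ℓ ^ k : ℤ) : R) = 0) :
    IsNilpotent ((F ^ j - 1) * (F ^ j - (c : R))) := by
  obtain ⟨d, hd⟩ := hc
  -- the polynomials
  set P : ℤ[X] := (X - 1) * (X - C r) with hP
  have hPF : aeval F P = (F - 1) * (F - (r : R)) := by
    simp [hP]
  have h1 : (X - 1 : ℤ[X]) ∣ X ^ j - 1 := by
    have := sub_dvd_pow_sub_pow (X : ℤ[X]) 1 j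
    rwa [one_pow] at this
  have h2 : (X - C r : ℤ[X]) ∣ X ^ j - C (r ^ j) := by
    have := sub_dvd_pow_sub_pow (X : ℤ[X]) (C r) j
    rwa [← C_pow] at this
  obtain ⟨S, hS⟩ := mul_dvd_mul h1 h2
  have hQ : IsNilpotent (aeval F ((X ^ j - 1) * (X ^ j - C (r ^ j)))) := by
    rw [hS]
    exact isNilpotent_aeval_mul F (by rw [hPF]; exact hF) S
  -- the correction term
  have hN : IsNilpotent (aeval F ((X ^ j - 1) * C d * C ℓ)) := by
    refine ⟨k, ?_⟩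
    rw [← map_pow, mul_pow, ← C_pow, map_mul, aeval_C, eq_intCast (algebraMap ℤ R), hℓ, mul_zero]
  have hT : (X ^ j - 1) * (X ^ j - C c) =
      (X ^ j - 1) * (X ^ j - C (r ^ j)) - (X ^ j - 1) * C d * C ℓ := by
    have : c = r ^ j + ℓ * d := by linarith
    rw [this, C_add, C_mul]
    ring
  have := isNilpotent_aeval_sub F hQ hN
  rw [← hT] at this
  simpa using this

end Algebra

/-! ### the mod `ℓ` cyclotomic character -/

section Cyclo

variable (ℓ : ℕ) [hℓ : Fact ℓ.Prime]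

/-- **the mod `ℓ` cyclotomic character.** -/
def cycloMod : Γ →* (ZMod ℓ)ˣ :=
  (Units.map ((PadicInt.toZMod (p := ℓ)).toMonoidHom)).comp (cyclo ℓ)

theorem coe_cycloMod (σ : Γ) : ((cycloMod ℓ σ : (ZMod ℓ)ˣ) : ZMod ℓ) =
    PadicInt.toZMod ((cyclo ℓ σ : ℤ_[ℓ]ˣ) : ℤ_[ℓ]) := rfl

theorem toZMod_eq_of_sub_mem {x y : ℤ_[ℓ]} (h : x - y ∈ Ideal.span {(ℓ : ℤ_[ℓ]) ^ 1}) :
    PadicInt.toZMod x = PadicInt.toZMod y := by
  rw [pow_one, ← PadicInt.maximalIdeal_eq_span_p, ← PadicInt.ker_toZMod, RingHom.mem_ker, map_sub,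
    sub_eq_zero] at h
  exact h

/-- the character at a Frobenius lift at `r ≠ ℓ`. -/
theorem cycloMod_frob {r : ℕ} (hr : r.Prime) (hrℓ : r ≠ ℓ) (A : ValuationSubring Qbar)
    (hA : A.LiesOverPrime r) {φ : Γ} (hφ : A.IsFrobeniusAt φ r) :
    ((cycloMod ℓ φ : (ZMod ℓ)ˣ) : ZMod ℓ) = (r : ZMod ℓ) := by
  rw [coe_cycloMod, cyclo_of_isFrobeniusAt ℓ hr hrℓ A hA hφ, map_natCast]

/-- the character is trivial on an open subgroup. -/
theorem cycloMod_eq_one : ∃ L : IntermediateField ℚ Qbar, FiniteDimensional ℚ L ∧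
    ∀ σ : Γ, (∀ x ∈ L, σ x = x) → cycloMod ℓ σ = 1 := by
  obtain ⟨L, hL, h⟩ := cyclo_sub_one_mem ℓ 1
  refine ⟨L, hL, fun σ hσ => Units.ext ?_⟩
  rw [coe_cycloMod, toZMod_eq_of_sub_mem ℓ (h σ hσ), map_one, Units.val_one]

/-- the action on the `ℓ`-th roots of unity. -/
theorem cycloMod_spec (σ : Γ) {ζ : Qbar} (hζ : ζ ^ ℓ = 1) :
    σ ζ = ζ ^ (((cycloMod ℓ σ : (ZMod ℓ)ˣ) : ZMod ℓ).val) := by
  haveI : NeZero (ℓ ^ 1) := ⟨pow_ne_zero _ hℓ.out.ne_zero⟩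
  have h1 := cyclo_spec ℓ σ (n := 1) ζ (by rwa [pow_one])
  set m := ((cyclo ℓ σ : ℤ_[ℓ]).toZModPow 1).val with hm
  have h2 : PadicInt.toZMod ((cyclo ℓ σ : ℤ_[ℓ]ˣ) : ℤ_[ℓ]) = (m : ZMod ℓ) := by
    have : ((cyclo ℓ σ : ℤ_[ℓ]ˣ) : ℤ_[ℓ]) - (m : ℤ_[ℓ]) ∈ Ideal.span {(ℓ : ℤ_[ℓ]) ^ 1} := by
      rw [← PadicInt.ker_toZModPow, RingHom.mem_ker, map_sub, map_natCast, hm,
        ZMod.natCast_zmod_val, sub_self]
    rw [toZMod_eq_of_sub_mem ℓ this, map_natCast]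
  rw [h1, coe_cycloMod, h2, ZMod.val_natCast]
  exact pow_eq_pow_mod m hζ

/-- the same, in the shape of `JHAbs8.exists_jhChain`. -/
theorem cycloMod_spec_units (σ : Γ) (ζ : Qbarˣ) (hζ : ζ ^ ℓ = 1) :
    σ ((ζ : Qbarˣ) : Qbar) = ((ζ ^ om ℓ (cycloMod ℓ) σ : Qbarˣ) : Qbar) := by
  have hζ' : ((ζ : Qbarˣ) : Qbar) ^ ℓ = 1 := by
    rw [← Units.val_pow_eq_pow_val, hζ, Units.val_one]
  rw [cycloMod_spec ℓ σ hζ', om, zpow_natCast, Units.val_pow_eq_pow_val]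

/-- a primitive `ℓ`-th root of unity in `ℚ̄ˣ`. -/
theorem exists_zeta : ∃ ζ : Qbarˣ, orderOf ζ = ℓ := by
  obtain ⟨ζ, hζ⟩ := exists_primitiveRoot ℓ 1
  rw [pow_one] at hζ
  have hu : IsPrimitiveRoot (hζ.isUnit hℓ.out.ne_zero).unit ℓ := hζ.isUnit_unit hℓ.out.ne_zero
  exact ⟨_, hu.eq_orderOf.symm⟩

end Cyclo

/-! ### Chebotarev -/

section Main

attribute [local instance 2000] Rep.hV2

variable (W : Rep.{0, 0, 0} ℤ Γ) (ℓ : ℕ) [hℓ : Fact ℓ.Prime]

theorem nilOp_eq (g : Γ) (c : ℤ) :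
    nilOp W g c = (W.ρ g - 1) * (W.ρ g - ((c : ℤ) : Module.End ℤ W)) := by
  refine LinearMap.ext fun w => ?_
  have e1 : nilOp W g c w =
      W.ρ g (W.ρ g w - W.hV2.smul c w) - (W.ρ g w - W.hV2.smul c w) := rfl
  rw [e1, hV2_smul]
  simp only [Module.End.mul_apply, LinearMap.sub_apply, Module.End.one_apply,
    Module.End.intCast_apply]

/-- **from Frobenius lifts to every Galois element.** -/
theorem isNilpotent_nilOp_of_frob [Finite W] (k : ℕ) (hk : ∀ w : W, ℓ ^ k • w = 0)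
    (hsm : ∀ w : W, ∃ F : IntermediateField ℚ Qbar, FiniteDimensional ℚ F ∧
      ∀ s ∈ F.fixingSubgroup, W.ρ s w = w)
    (T : Finset ℕ)
    (hES : ∀ (r : ℕ) (A : ValuationSubring Qbar) (φ : Γ), r.Prime → r ∉ T → r ≠ ℓ →
      A.LiesOverPrime r → A.IsFrobeniusAt φ r → IsNilpotent (nilOp W φ (r : ℤ)))
    (g : Γ) : IsNilpotent (nilOp W g (om ℓ (cycloMod ℓ) g)) := by
  classical
  choose F hF hfix using hsm
  obtain ⟨L₂, hL₂, h2⟩ := cycloMod_eq_one ℓ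
  haveI : FiniteDimensional ℚ (⨆ w, F w : IntermediateField ℚ Qbar) :=
    IntermediateField.finiteDimensional_iSup_of_finite
  haveI := hL₂
  obtain ⟨r, A, φ, j, hr, hrT, hA, hφ, hj⟩ :=
    Fermat.Agent.ES.GAL.ChebQbar23.exists_frobenius_inv_mul_pow_fixes ((⨆ w, F w) ⊔ L₂) g
      (insert ℓ T)
  have hrℓ : r ≠ ℓ := fun h => hrT (h ▸ Finset.mem_insert_self _ _)
  have hrT' : r ∉ T := fun h => hrT (Finset.mem_insert_of_mem h)
  have hgφ : φ ^ j = g * (g⁻¹ * φ ^ j) := by group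
  -- the action
  have hρ : W.ρ g = W.ρ φ ^ j := by
    have h1 : W.ρ (g⁻¹ * φ ^ j) = 1 := by
      refine LinearMap.ext fun w => ?_
      rw [Module.End.one_apply]
      refine hfix w _ ?_
      rw [IntermediateField.mem_fixingSubgroup_iff]
      intro x hx
      exact hj x (le_sup_left (a := ⨆ w, F w) (b := L₂) (le_iSup F w hx))
    rw [← map_pow, hgφ, map_mul, h1, mul_one]
  -- the character
  have hχ : cycloMod ℓ g = cycloMod ℓ φ ^ j := by
    have h1 : cycloMod ℓ (g⁻¹ * φ ^ j) = 1 :=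
      h2 _ (fun x hx => hj x (le_sup_right (a := ⨆ w, F w) (b := L₂) hx))
    rw [← map_pow, hgφ, map_mul, h1, mul_one]
  have hc : (ℓ : ℤ) ∣ om ℓ (cycloMod ℓ) g - (r : ℤ) ^ j := by
    rw [← ZMod.intCast_eq_intCast_iff_dvd_sub, cast_om, hχ, Units.val_pow_eq_pow_val,
      cycloMod_frob ℓ hr hrℓ A hA hφ]
    push_cast
    rfl
  have hℓk : (((ℓ : ℤ) ^ k : ℤ) : Module.End ℤ W) = 0 := by
    refine LinearMap.ext fun w => ?_
    rw [Module.End.intCast_apply, LinearMap.zero_apply, ← Nat.cast_pow, natCast_zsmul]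
    exact hk w
  have h0 := hES r A φ hr hrT' hrℓ hA hφ
  rw [nilOp_eq] at h0
  rw [nilOp_eq, hρ]
  exact isNilpotent_of_frob (W.ρ φ) (r : ℤ) h0 j _ (ℓ : ℤ) hc k hℓk

end Main

end

end Fermat.Agent.M15.JHCheb8
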