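/-
Programme M15 (target S15), chapter (JH) plumbing (helper8), part 3: **the labelled Jordan–Hölder
chains of `W_k = J₀(p)[ℓ^k]_ε`.**

* `exists_jhChain_GRep` : generic `(𝕋, ε)`; hypotheses: outside a finite set `T` of primes, every prime
  `r ≠ ℓ` is prime to `p` and has a `t ∈ 𝕋` acting as `T_r` with `ε t = r + 1`; Eichler–Shimura on `W_k`
  at Frobenius lifts in the form `(φ - 1)(φ - r)` nilpotent (`ESW`, = helper4's
  `JHEs4.isNilpotent_nilOp_frob`).  Then `Nonempty (SDOdd0.JHChain ℓ (GRep (JZero p) ε k))`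
  (`JHCheb8.isNilpotent_nilOp_of_frob` + `JHAbs8.exists_jhChain`, `χ = cycloMod ℓ`).
* `exists_jhChain_Wk` : the instance `𝕋 = heckeRing p`, `ε = epsChar …`, any prime `ℓ ∣ ord c0`
  (`T = ` the prime factors of `2 p`, `t = KumInst6.Tr r _`, `epsChar_Tr`).
Imported by no statement.
-/
import Mathlib
import Fermat.Agent.M15.JHCheb8
import Fermat.Agent.M15.KumInst6

set_option autoImplicit false
set_option linter.unusedSectionVars false
set_option linter.unusedVariables false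
set_option linter.style.haveILetI false

open CategoryTheory ExtCitation ModularCurve AlgebraicCurve

namespace Fermat.Agent.M15.JHChain8

open Fermat.Agent.PT.PRO Fermat.Agent.PT.BR Fermat.Agent.W56.Defs9
open Fermat.Agent.M15.Contracts9 Fermat.Agent.M15.KumRep6 Fermat.Agent.M15.KumInst6
  Fermat.Agent.M15.JHLine5 Fermat.Agent.M15.JHAbs8 Fermat.Agent.M15.JHCheb8

local notation "Γ" => (AlgebraicClosure ℚ ≃ₐ[ℚ] AlgebraicClosure ℚ)
local notation "Qbar" => AlgebraicClosure ℚ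

noncomputable section

section Generic

variable (p : ℕ) [NeZero p] {𝕋 : Type} [Ring 𝕋] [Module 𝕋 (JZero p)]
  [SMulCommClass Γ 𝕋 (JZero p)] {ℓ : ℕ} [hℓ : Fact ℓ.Prime] (ε : 𝕋 →+* ZMod ℓ) (k : ℕ)

/-- **Eichler–Shimura on `W_k` at Frobenius lifts**, the shape of `JHEs4.isNilpotent_nilOp_frob`. -/
def ESW : Prop :=
  ∀ {r : ℕ} (hr : r.Prime), ¬ r ∣ p → r ≠ ℓ → ∀ t : 𝕋,
    (∀ x : JZero p, t • x = heckeOperatorBar p ⟨r, hr⟩ x) → ε t = (r : ZMod ℓ) + 1 →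
    ∀ {A : ValuationSubring Qbar}, A.LiesOverPrime r → ∀ {φ : Γ}, A.IsFrobeniusAt φ r →
      IsNilpotent (nilOp (GRep (JZero p) ε k) φ (r : ℤ))

theorem gval_nsmul' (n : ℕ) (m : GRep (JZero p) ε k) :
    gval (JZero p) ε k (n • m) = n • gval (JZero p) ε k m := by
  induction n with
  | zero => simp
  | succ n ih => rw [succ_nsmul, succ_nsmul, gval_add, ih]

/-- **chains of `G_k`, generic `(𝕋, ε)`.** -/
theorem exists_jhChain_GRep (T : Finset ℕ)
    (hT : ∀ (r : ℕ) (hr : r.Prime), r ∉ T → r ≠ ℓ → ¬ r ∣ p ∧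
      ∃ t : 𝕋, (∀ x : JZero p, t • x = heckeOperatorBar p ⟨r, hr⟩ x) ∧ ε t = (r : ZMod ℓ) + 1)
    (hES : ESW p ε k) :
    Nonempty (SDOdd0.JHChain ℓ (GRep (JZero p) ε k)) := by
  haveI : NeZero ℓ := ⟨hℓ.out.ne_zero⟩
  have hfin : Finite {x : JZero p // ℓ • x = 0} := finite_tors_jzero p ℓ
  haveI : Finite (GRep (JZero p) ε k) := finite_GRep ε hfin k
  have hk : ∀ w : GRep (JZero p) ε k, ℓ ^ k • w = 0 := by
    intro w
    apply gval_injective
    rw [gval_nsmul', gval_zero]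
    exact (gval_mem w).1
  have hsm : ∀ w : GRep (JZero p) ε k, ∃ F : IntermediateField ℚ Qbar,
      FiniteDimensional ℚ F ∧ ∀ s ∈ F.fixingSubgroup, (GRep (JZero p) ε k).ρ s w = w := by
    intro w
    obtain ⟨F, hF, h⟩ := isSmoothAct_jzero p (gval (JZero p) ε k w)
    exact ⟨F, hF, fun s hs => gval_injective (by rw [gval_ρ, h s hs])⟩
  have hnil : ∀ g : Γ, IsNilpotent (nilOp (GRep (JZero p) ε k) g (om ℓ (cycloMod ℓ) g)) := by
    refine isNilpotent_nilOp_of_frob (GRep (JZero p) ε k) ℓ k hk hsm T ?_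
    intro r A φ hr hrT hrℓ hA hφ
    obtain ⟨hrp, t, ht, hεt⟩ := hT r hr hrT hrℓ
    exact hES hr hrp hrℓ t ht hεt hA hφ
  obtain ⟨ζ, hζ⟩ := exists_zeta ℓ
  have hζ' : ζ ^ ℓ = 1 := by rw [← hζ]; exact pow_orderOf_eq_one ζ
  exact exists_jhChain (GRep (JZero p) ε k) ℓ (cycloMod ℓ) (fun w => ⟨k, hk w⟩) hnil ζ hζ
    (fun σ => cycloMod_spec_units ℓ σ ζ hζ')

end Generic

section Instance

variable (p : ℕ) [NeZero p] (P0 Pinf : Pl p) (hcusp : CuspFacts p P0 Pinf) (ℓ : ℕ) [hℓ : Fact ℓ.Prime]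
  (hp : p.Prime) (hℓd : ℓ ∣ addOrderOf (cl p P0 Pinf))

/-- **chains of `W_k`**, from Eichler–Shimura on `W_k` at Frobenius lifts. -/
theorem exists_jhChain_Wk_of_ESW (k : ℕ) (hES : ESW p (epsChar p P0 Pinf hcusp ℓ hp hℓd) k) :
    Nonempty (SDOdd0.JHChain ℓ (Wk p P0 Pinf hcusp ℓ hp hℓd k)) := by
  refine exists_jhChain_GRep p (epsChar p P0 Pinf hcusp ℓ hp hℓd) k (2 * p).primeFactors ?_ hES
  intro r hr hrT hrℓ
  have h2p : 2 * p ≠ 0 := mul_ne_zero two_ne_zero (NeZero.ne p)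
  have hr2p : ¬ r ∣ 2 * p := fun h => hrT (Nat.mem_primeFactors.2 ⟨hr, h, h2p⟩)
  have hrp : ¬ r ∣ p := fun h => hr2p (Dvd.dvd.mul_left h 2)
  refine ⟨hrp, Tr p ⟨r, hr⟩ hr2p, fun x => rfl, ?_⟩
  exact epsChar_Tr p P0 Pinf hcusp ℓ hp hℓd ⟨r, hr⟩ hr2p

end Instance

end

end Fermat.Agent.M15.JHChain8
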