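/-
Programme M15 (target S15), chapter (JH) plumbing, leaf (ES-W) (helper4, for helper8's JHCheb8/JHChain8):
**`(φ - 1)(φ - r)` is nilpotent on `G_k = J₀(p)[ℓ^k]_ε` for a Frobenius lift `φ` at `r ∤ p ℓ`.**

Eichler–Shimura on torsion (`TorsionGalois12.frobenius_relation`): `φ² x - T_r φ x + r x = 0` on
`J[ℓ^k]`; so `(φ - 1)(φ - r) = a φ` on `G_k`, `a := t - (r + 1) ∈ ker ε` (`t ∈ 𝕋` acting as `T_r`,
`ε t = r + 1`); `a` commutes with `φ` and is nilpotent on `G_k` (uniformly: `G_k` is finite).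
-/
import Mathlib
import Fermat.Agent.M15.JHAbs8
import Fermat.Agent.M15.KumRep6
import Fermat.Agent.ES.TOP.TorsionGalois12

set_option autoImplicit false
set_option linter.unusedSectionVars false
set_option linter.unusedVariables false
set_option linter.style.longLine false
set_option linter.style.haveILetI false

namespace Fermat.Agent.M15.JHEs4

open Fermat.Agent.M15.KumRep6 Fermat.Agent.M15.JHAbs8 ModularCurve

local notation "Γ" => (AlgebraicClosure ℚ ≃ₐ[ℚ] AlgebraicClosure ℚ)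
local notation "Qbar" => AlgebraicClosure ℚ

noncomputable section

attribute [local instance 2000] Rep.hV2

section Generic

variable {J : Type} [AddCommGroup J] [DistribMulAction Γ J]
  {𝕋 : Type} [Ring 𝕋] [Module 𝕋 J] [SMulCommClass Γ 𝕋 J] {ℓ : ℕ} [hℓ : Fact ℓ.Prime]
  (ε : 𝕋 →+* ZMod ℓ) (k : ℕ)

theorem gval_hV2_smul (c : ℤ) (w : GRep J ε k) :
    gval J ε k ((GRep J ε k).hV2.smul c w) = c • gval J ε k w := by
  rw [hV2_smul]
  exact AddSubgroup.coe_zsmul _ _ _

/-- the value of `(g - 1)(g - c) w`. -/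
theorem gval_nilOp (g : Γ) (c : ℤ) (w : GRep J ε k) :
    gval J ε k (nilOp (GRep J ε k) g c w) =
      g • (g • gval J ε k w - c • gval J ε k w) - (g • gval J ε k w - c • gval J ε k w) := by
  have e1 : nilOp (GRep J ε k) g c w =
      (GRep J ε k).ρ g ((GRep J ε k).ρ g w - (GRep J ε k).hV2.smul c w) -
        ((GRep J ε k).ρ g w - (GRep J ε k).hV2.smul c w) := rfl
  rw [e1, gval_sub, gval_ρ, gval_sub, gval_ρ, gval_hV2_smul]

/-- if `(g - 1)(g - c) = a g` on `G_k` with `a ∈ 𝕋`, then `((g - 1)(g - c))^n = a^n g^n`. -/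
theorem gval_nilOp_pow (g : Γ) (c : ℤ) (a : 𝕋)
    (h : ∀ w : GRep J ε k, gval J ε k (nilOp (GRep J ε k) g c w) = a • g • gval J ε k w) (n : ℕ)
    (w : GRep J ε k) :
    gval J ε k ((nilOp (GRep J ε k) g c ^ n) w) = a ^ n • g ^ n • gval J ε k w := by
  induction n generalizing w with
  | zero => simp
  | succ n ih =>
    rw [pow_succ, Module.End.mul_apply, ih, h, pow_succ, pow_succ, mul_smul, mul_smul,
      smul_comm (g ^ n) a]

/-- elements of `ker ε` are uniformly nilpotent on `G_k`. -/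
theorem exists_pow_smul_eq_zero (hfin : Finite {x : J // ℓ • x = 0}) (a : 𝕋) (ha : ε a = 0) :
    ∃ N : ℕ, ∀ w : GRep J ε k, a ^ N • gval J ε k w = 0 := by
  haveI : Finite (GRep J ε k) := finite_GRep ε hfin k
  have h : ∀ w : GRep J ε k, ∃ N : ℕ, a ^ N • gval J ε k w = 0 := fun w => (gval_mem w).2 a ha
  choose N hN using h
  haveI := Fintype.ofFinite (GRep J ε k)
  refine ⟨Finset.univ.sup N, fun w => ?_⟩
  exact Fermat.Agent.M15.KumLoc6.pow_smul_eq_zero_of_le (hN w) (Finset.le_sup (Finset.mem_univ w))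

/-- **abstract (ES-W)**: if `g² x - t g x + c x = 0` on `G_k` with `ε t = c + 1`, then `(g - 1)(g - c)` is
nilpotent on `G_k`. -/
theorem isNilpotent_nilOp_of_rel (hfin : Finite {x : J // ℓ • x = 0}) (g : Γ) (c : ℤ) (t : 𝕋)
    (hεt : ε t = (c : ZMod ℓ) + 1)
    (hrel : ∀ w : GRep J ε k,
      g • g • gval J ε k w - t • g • gval J ε k w + c • gval J ε k w = 0) :
    IsNilpotent (nilOp (GRep J ε k) g c) := by
  set a : 𝕋 := t - ((c : 𝕋) + 1) with ha
  have hεa : ε a = 0 := by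
    rw [ha, map_sub, map_add, map_one, map_intCast, hεt, sub_self]
  have h1 : ∀ w : GRep J ε k,
      gval J ε k (nilOp (GRep J ε k) g c w) = a • g • gval J ε k w := by
    intro w
    rw [gval_nilOp]
    have h2 := hrel w
    have h3 : g • g • gval J ε k w = t • g • gval J ε k w - c • gval J ε k w := by
      rw [← sub_eq_zero, ← h2]
      abel
    have h4 : g • (c • gval J ε k w) = c • g • gval J ε k w :=
      map_zsmul (DistribSMul.toAddMonoidHom J g) c (gval J ε k w)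
    have h5 : a • g • gval J ε k w =
        t • g • gval J ε k w - (c • g • gval J ε k w + g • gval J ε k w) := by
      rw [ha, sub_smul, add_smul, one_smul, Int.cast_smul_eq_zsmul]
    rw [smul_sub, h3, h4, h5]
    abel
  obtain ⟨N, hN⟩ := exists_pow_smul_eq_zero ε k hfin a hεa
  refine ⟨N, LinearMap.ext fun w => gval_injective ?_⟩
  rw [gval_nilOp_pow ε k g c a h1, LinearMap.zero_apply, gval_zero]
  have h6 : g ^ N • gval J ε k w = gval J ε k ((GRep J ε k).ρ (g ^ N) w) := rfl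
  rw [h6]
  exact hN _

end Generic

/-- **(ES-W)**: `(φ - 1)(φ - r)` is nilpotent on `G_k = J₀(p)[ℓ^k]_ε`, `φ` a Frobenius lift at `r ∤ p ℓ`. -/
theorem isNilpotent_nilOp_frob (p : ℕ) [NeZero p] {𝕋 : Type} [Ring 𝕋] [Module 𝕋 (JZero p)]
    [SMulCommClass Γ 𝕋 (JZero p)] {ℓ : ℕ} [hℓ : Fact ℓ.Prime] (ε : 𝕋 →+* ZMod ℓ) (k : ℕ)
    (hfin : Finite {x : JZero p // ℓ • x = 0}) {r : ℕ} (hr : r.Prime) (hrp : ¬ r ∣ p) (hrℓ : r ≠ ℓ)
    (t : 𝕋) (ht : ∀ x : JZero p, t • x = heckeOperatorBar p ⟨r, hr⟩ x)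
    (hεt : ε t = (r : ZMod ℓ) + 1) {A : ValuationSubring Qbar} (hA : A.LiesOverPrime r) {φ : Γ}
    (hφ : A.IsFrobeniusAt φ r) :
    IsNilpotent (nilOp (GRep (JZero p) ε k) φ (r : ℤ)) := by
  refine isNilpotent_nilOp_of_rel ε k hfin φ (r : ℤ) t (by rw [Int.cast_natCast]; exact hεt)
    fun w => ?_
  have hrk : ¬ r ∣ ℓ ^ k := fun h =>
    hrℓ ((Nat.prime_dvd_prime_iff_eq hr hℓ.out).1 (hr.dvd_of_dvd_pow h))
  have h := Fermat.Agent.ES.TOP.TorsionGalois12.frobenius_relation hr hrp hA hrk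
    (gval_mem w).1 hφ
  rw [ht, natCast_zsmul]
  exact h

end

end Fermat.Agent.M15.JHEs4
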