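/-
Programme M15 (target S15), chapter (JH), final statement (helper8 + helper4): **labelled
Jordan–Hölder chains of `W_k = J₀(p)[ℓ^k]_ε` exist**, unconditionally, for every prime
`ℓ ∣ ord (cl P0 Pinf)` (including `ℓ = 2`) and every `k`:

  `exists_jhChain_Wk : Nonempty (SDOdd0.JHChain ℓ (KumInst6.Wk p P0 Pinf hcusp ℓ hp hℓd k))`

(= `hJH` of `FlatSDAll2.sharpDescent_of_half` / `FlatEnd2`), and the generic `(𝕋, ε)` form
`exists_jhChain_GRep'`.  `JHChain8` + helper4's `JHEs4.isNilpotent_nilOp_frob` (ES-W).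
Imported by no statement.
-/
import Mathlib
import Fermat.Agent.M15.JHChain8
import Fermat.Agent.M15.JHEs4

set_option autoImplicit false
set_option linter.unusedSectionVars false
set_option linter.unusedVariables false
set_option linter.style.haveILetI false

open CategoryTheory ExtCitation ModularCurve AlgebraicCurve

namespace Fermat.Agent.M15.JHFinal8

open Fermat.Agent.PT.PRO Fermat.Agent.PT.BR Fermat.Agent.W56.Defs9
open Fermat.Agent.M15.Contracts9 Fermat.Agent.M15.KumRep6 Fermat.Agent.M15.KumInst6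
  Fermat.Agent.M15.JHChain8

local notation "Γ" => (AlgebraicClosure ℚ ≃ₐ[ℚ] AlgebraicClosure ℚ)
local notation "Qbar" => AlgebraicClosure ℚ

noncomputable section

/-- (ES-W) holds (helper4's `JHEs4`). -/
theorem esw (p : ℕ) [NeZero p] {𝕋 : Type} [Ring 𝕋] [Module 𝕋 (JZero p)]
    [SMulCommClass Γ 𝕋 (JZero p)] {ℓ : ℕ} [hℓ : Fact ℓ.Prime] (ε : 𝕋 →+* ZMod ℓ) (k : ℕ) :
    ESW p ε k := by
  haveI : NeZero ℓ := ⟨hℓ.out.ne_zero⟩
  intro r hr hrp hrℓ t ht hεt A hA φ hφ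
  exact Fermat.Agent.M15.JHEs4.isNilpotent_nilOp_frob p ε k (finite_tors_jzero p ℓ) hr hrp hrℓ t ht
    hεt hA hφ

/-- **chains of `G_k = J₀(p)[ℓ^k]_ε`, generic `(𝕋, ε)`**: outside a finite set `T` of primes, every
prime `r ≠ ℓ` is prime to `p` and has a `t ∈ 𝕋` acting as `T_r` with `ε t = r + 1`. -/
theorem exists_jhChain_GRep' (p : ℕ) [NeZero p] {𝕋 : Type} [Ring 𝕋] [Module 𝕋 (JZero p)]
    [SMulCommClass Γ 𝕋 (JZero p)] {ℓ : ℕ} [hℓ : Fact ℓ.Prime] (ε : 𝕋 →+* ZMod ℓ) (k : ℕ)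
    (T : Finset ℕ)
    (hT : ∀ (r : ℕ) (hr : r.Prime), r ∉ T → r ≠ ℓ → ¬ r ∣ p ∧
      ∃ t : 𝕋, (∀ x : JZero p, t • x = heckeOperatorBar p ⟨r, hr⟩ x) ∧ ε t = (r : ZMod ℓ) + 1) :
    Nonempty (SDOdd0.JHChain ℓ (GRep (JZero p) ε k)) :=
  exists_jhChain_GRep p ε k T hT (esw p ε k)

/-- **(JH): labelled Jordan–Hölder chains of `W_k` exist**, every prime `ℓ ∣ ord c0`, every `k`. -/
theorem exists_jhChain_Wk (p : ℕ) [NeZero p] (hp : p.Prime) (P0 Pinf : Pl p)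
    (hcusp : CuspFacts p P0 Pinf) (ℓ : ℕ) [hℓ : Fact ℓ.Prime]
    (hℓd : ℓ ∣ addOrderOf (cl p P0 Pinf)) (k : ℕ) :
    Nonempty (SDOdd0.JHChain ℓ (Wk p P0 Pinf hcusp ℓ hp hℓd k)) :=
  exists_jhChain_Wk_of_ESW p P0 Pinf hcusp ℓ hp hℓd k (esw p _ k)

end

end Fermat.Agent.M15.JHFinal8
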