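/-
Programme M15 (target S15), chapter (KUM), helper6: **the bridge (KUM-3') → R3**: the local classes
at `ℓ` of the Kummer map are of Kummer type in the sense of helper2's `FlatBridge2.IsKumClass`.

`FlatBridge2.WRep p (kerE (JZero p) ε k) _` is `KumRep6.GRep (JZero p) ε k` (definitionally), so the
statements below are literally about `resD T (GRep …) ℓ (kum … x)`, resp. about `kumJ`.
-/
import Mathlib
import Fermat.Agent.M15.KumRes6
import Fermat.Agent.M15.KumJ6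
import Fermat.Agent.M15.FlatBridge2

set_option autoImplicit false
set_option linter.unusedSectionVars false
set_option linter.unusedVariables false
set_option linter.style.haveILetI false
set_option synthInstance.maxHeartbeats 400000

open CategoryTheory ExtCitation ModularCurve AlgebraicCurve

namespace Fermat.Agent.M15.KumBridge6

open Fermat.Agent.PT.PRO Fermat.Agent.PT.BR Fermat.Agent.W56.Defs9
open Fermat.Agent.M15.Contracts9 Fermat.Agent.M15.KumLoc6 Fermat.Agent.M15.KumRep6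
  Fermat.Agent.M15.KumMap6 Fermat.Agent.M15.KumRes6 Fermat.Agent.M15.KumInst6
  Fermat.Agent.M15.KumJ6 Fermat.Agent.M15.FlatBridge2

local notation "Γ" => (AlgebraicClosure ℚ ≃ₐ[ℚ] AlgebraicClosure ℚ)

noncomputable section

variable (p : ℕ) [NeZero p]

/-- `WRep` at `G = kerE` is `GRep`. -/
theorem wRep_eq_gRep {𝕋 : Type} [Ring 𝕋] [Module 𝕋 (JZero p)] [SMulCommClass GQ 𝕋 (JZero p)]
    {ℓ : ℕ} [Fact ℓ.Prime] (ε : 𝕋 →+* ZMod ℓ) (k : ℕ) :
    WRep p (kerE (JZero p) ε k) (fun g _ hx => smul_mem_kerE g hx) = GRep (JZero p) ε k := rfl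

set_option maxHeartbeats 1600000 in
/-- **the local Kummer classes at `ℓ` are of Kummer type** (generic `𝕋`, `ε`). -/
theorem isKumClass_resD_kum {𝕋 : Type} [Ring 𝕋] [Module 𝕋 (JZero p)]
    [SMulCommClass GQ 𝕋 (JZero p)] {ℓ : ℕ} [Fact ℓ.Prime] (ε : 𝕋 →+* ZMod ℓ) (k : ℕ)
    (T : Finset Nat.Primes) (hsm : IsSmoothAct (JZero p))
    (hdiv : ∀ x : JZero p, ∃ y : JZero p, ℓ • y = x)
    (hfin : Finite {x : JZero p // ℓ • x = 0}) (hcomm : CommOnTors (JZero p) 𝕋 ℓ)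
    (hunr : UnramOutside (JZero p) ε k T) (x : ↥(fixedPts (JZero p))) :
    IsKumClass p (kerE (JZero p) ε k) (fun g _ hx => smul_mem_kerE g hx)
      ⟨ℓ, (Fact.out : ℓ.Prime)⟩ k
      (resD T (GRep (JZero p) ε k) ⟨ℓ, (Fact.out : ℓ.Prime)⟩
        (kum ε k T hsm hdiv hfin hcomm hunr x)) := by
  obtain ⟨e, -, he⟩ := exists_isProjK (J := JZero p) ε k hfin hcomm
  obtain ⟨z, hz⟩ := exists_pow_div (J := JZero p) hdiv k (x : JZero p)
  obtain ⟨c, hc, hres⟩ :=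
    resD_kum ε k T hsm hdiv hfin hcomm hunr ⟨ℓ, (Fact.out : ℓ.Prime)⟩ x z hz e he
  rw [hres]
  have h1 : ∀ g : Γ, g • (e • (x : JZero p)) = e • (x : JZero p) := fun g => by
    rw [smul_comm g, x.2 g]
  have h2 : ℓ ^ k • (e • z) = e • (x : JZero p) := by rw [smul_comm, hz]
  have h3 : ∀ g : primeLocalGaloisGroup ⟨ℓ, (Fact.out : ℓ.Prime)⟩,
      gval (JZero p) ε k ((c : _ → GRep (JZero p) ε k) g) =
        locD ⟨ℓ, (Fact.out : ℓ.Prime)⟩ g • (e • z) - e • z := fun g => by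
    rw [hc g, smul_sub, smul_comm (locD ⟨ℓ, (Fact.out : ℓ.Prime)⟩ g) e z]
  exact ⟨e • (x : JZero p), e • z, h1, h2, c, rfl, h3⟩

/-- the same for the Kummer map `kumJ` of the instance (`𝕋 = heckeRing p`, `ε = epsChar`). -/
theorem isKumClass_resD_kumJ (hp : p.Prime) (P0 Pinf : Pl p) (hcusp : CuspFacts p P0 Pinf)
    (ℓ : ℕ) [Fact ℓ.Prime] (hℓ : ℓ ∣ addOrderOf (cl p P0 Pinf))
    (T : Finset Nat.Primes) (hT : ∀ q : Nat.Primes, (q : ℕ) ∣ p * ℓ → q ∈ T)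
    (hdiv : ∀ x : JZero p, ∃ y : JZero p, ℓ • y = x) (k : ℕ) (x : ↥(fixedPts (JZero p))) :
    IsKumClass p (kerE (JZero p) (epsChar p P0 Pinf hcusp ℓ hp hℓ) k)
      (fun g _ hx => smul_mem_kerE g hx) ⟨ℓ, (Fact.out : ℓ.Prime)⟩ k
      (resD T (Wk p P0 Pinf hcusp ℓ hp hℓ k) ⟨ℓ, (Fact.out : ℓ.Prime)⟩
        (kumJ p hp P0 Pinf hcusp ℓ hℓ T hT hdiv k x)) :=
  isKumClass_resD_kum p _ k T _ hdiv _ _ _ x

/-- every element of `kerE` is killed by `ℓ^k` (the hypothesis `hGl` of `FlatBridge2`). -/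
theorem pow_smul_eq_zero_of_mem_kerE {𝕋 : Type} [Ring 𝕋] [Module 𝕋 (JZero p)]
    [SMulCommClass GQ 𝕋 (JZero p)] {ℓ : ℕ} [Fact ℓ.Prime] (ε : 𝕋 →+* ZMod ℓ) (k : ℕ) :
    ∀ x ∈ kerE (JZero p) ε k, ℓ ^ k • x = 0 := fun _ hx => hx.1

end

end Fermat.Agent.M15.KumBridge6
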