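/-
Programme M15 (target S15), chapter (KUM), helper6: **localisation-free `ε`-primary calculus**.

A ring `𝕋` (NOT assumed commutative) acts on a finite abelian `ℓ`-group `F` through COMMUTING
operators, and `ε : 𝕋 →+* ZMod ℓ` is a character (for the Hecke ring: `T_r ↦ 1 + r`).  The
generalised `ε`-eigenspace `eigenPart ℓ ε F = {x | every a ∈ ker ε is nilpotent on x}` plays the
role of the localisation `F_{P'}` at the Eisenstein maximal ideal `P' = ker ε`:

* `exists_projector` : there is `e : 𝕋` with `ε e = 1` acting on `F` as a projector onto the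
  eigenpart (simultaneous Fitting decomposition);
* `bijOn_smul_eigenPart` : every `s` with `ε s ≠ 0` is bijective on the eigenpart;
* `exists_pow_smul_eq` : a power of such an `s` is the identity on the eigenpart.
-/
import Mathlib

set_option autoImplicit false
set_option linter.style.haveILetI false

namespace Fermat.Agent.M15.KumLoc6

/-! ### Idempotent powers of self-maps of a finite type -/

section Iterate

variable {F : Type*} [Finite F]

/-- Every self-map of a finite type has an idempotent iterate. -/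
theorem exists_iterate_idem (f : F → F) : ∃ n : ℕ, 1 ≤ n ∧ f^[2 * n] = f^[n] := by
  obtain ⟨i, j, hij, h⟩ := Finite.exists_ne_map_eq_of_infinite (fun k : ℕ => f^[k])
  wlog hlt : i < j generalizing i j
  · exact this j i hij.symm h.symm (lt_of_le_of_ne (not_lt.1 hlt) hij.symm)
  obtain ⟨d, rfl⟩ : ∃ d, j = i + d := ⟨j - i, by omega⟩
  have hd : 1 ≤ d := by omega
  have hstep : ∀ k, i ≤ k → f^[k + d] = f^[k] := by
    intro k hk
    obtain ⟨r, rfl⟩ : ∃ r, k = r + i := ⟨k - i, by omega⟩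
    have h' : f^[i] = f^[i + d] := h
    rw [show r + i + d = r + (i + d) by ring, Function.iterate_add, ← h', ← Function.iterate_add]
  have hmul : ∀ m k, i ≤ k → f^[k + m * d] = f^[k] := by
    intro m
    induction m with
    | zero => intro k _; simp
    | succ m ih =>
      intro k hk
      rw [show k + (m + 1) * d = (k + m * d) + d by ring, hstep _ (by omega), ih k hk]
  refine ⟨(i + 1) * d, ?_, ?_⟩
  · exact Nat.one_le_iff_ne_zero.2 (Nat.mul_ne_zero (by omega) (by omega))
  · have hk : i ≤ (i + 1) * d := by nlinarith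
    rw [show 2 * ((i + 1) * d) = (i + 1) * d + (i + 1) * d by ring]
    exact hmul (i + 1) ((i + 1) * d) hk

end Iterate

/-! ### The eigenpart -/

section Eigen

variable {𝕋 : Type*} [Ring 𝕋] (ℓ : ℕ) (ε : 𝕋 →+* ZMod ℓ)
  (F : Type*) [AddCommGroup F] [Module 𝕋 F]

variable {F} in
/-- If `a ^ N` kills `x` then so does every higher power. -/
theorem pow_smul_eq_zero_of_le {a : 𝕋} {x : F} {N N' : ℕ} (h : a ^ N • x = 0) (hle : N ≤ N') :
    a ^ N' • x = 0 := by
  obtain ⟨d, rfl⟩ := Nat.exists_eq_add_of_le hle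
  rw [add_comm, pow_add, mul_smul, h, smul_zero]

/-- The generalised `ε`-eigenspace: every element of `ker ε` acts nilpotently. -/
def eigenPart : AddSubgroup F where
  carrier := {x | ∀ a : 𝕋, ε a = 0 → ∃ N : ℕ, a ^ N • x = 0}
  zero_mem' := fun _ _ => ⟨0, smul_zero _⟩
  add_mem' := by
    intro x y hx hy a ha
    obtain ⟨N, hN⟩ := hx a ha
    obtain ⟨N', hN'⟩ := hy a ha
    refine ⟨N + N', ?_⟩
    rw [smul_add, pow_smul_eq_zero_of_le hN (Nat.le_add_right N N'),
      pow_smul_eq_zero_of_le hN' (Nat.le_add_left N' N), add_zero]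
  neg_mem' := by
    intro x hx a ha
    obtain ⟨N, hN⟩ := hx a ha
    exact ⟨N, by rw [smul_neg, hN, neg_zero]⟩

variable {ℓ ε F}

theorem mem_eigenPart_iff (x : F) :
    x ∈ eigenPart ℓ ε F ↔ ∀ a : 𝕋, ε a = 0 → ∃ N : ℕ, a ^ N • x = 0 := Iff.rfl

section Comm

variable (hcomm : ∀ (s t : 𝕋) (x : F), s • t • x = t • s • x)

include hcomm in
theorem smul_mem_eigenPart (s : 𝕋) {x : F} (hx : x ∈ eigenPart ℓ ε F) :
    s • x ∈ eigenPart ℓ ε F := by
  intro a ha
  obtain ⟨N, hN⟩ := hx a ha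
  exact ⟨N, by rw [hcomm, hN, smul_zero]⟩

end Comm

end Eigen

/-! ### The projector -/

section Projector

variable {𝕋 : Type*} [Ring 𝕋] {ℓ : ℕ} {ε : 𝕋 →+* ZMod ℓ}
  {F : Type*} [AddCommGroup F] [Module 𝕋 F] [Finite F]

/-- An exponent `n ≥ 1` with `a ^ n` idempotent on `F`. -/
theorem exists_pow_idem (a : 𝕋) : ∃ n : ℕ, 1 ≤ n ∧ ∀ x : F, a ^ (2 * n) • x = a ^ n • x := by
  obtain ⟨n, hn1, hn⟩ := exists_iterate_idem (fun x : F => a • x)
  refine ⟨n, hn1, fun x => ?_⟩
  have h1 := congrFun hn x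
  rwa [smul_iterate, smul_iterate] at h1

/-- The idempotent exponent of `a` (chosen). -/
noncomputable def idemExp (F : Type*) [AddCommGroup F] [Module 𝕋 F] [Finite F] (a : 𝕋) : ℕ :=
  (exists_pow_idem (F := F) a).choose

theorem one_le_idemExp (a : 𝕋) : 1 ≤ idemExp F a := (exists_pow_idem (F := F) a).choose_spec.1

theorem idemExp_spec (a : 𝕋) (x : F) : a ^ (2 * idemExp F a) • x = a ^ idemExp F a • x :=
  (exists_pow_idem (F := F) a).choose_spec.2 x

/-- The Fitting projector of one operator: `1 - a ^ n`, `a ^ n` idempotent. -/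
noncomputable def proj1 (F : Type*) [AddCommGroup F] [Module 𝕋 F] [Finite F] (a : 𝕋) : 𝕋 :=
  1 - a ^ idemExp F a

theorem pow_smul_proj1_smul (a : 𝕋) (x : F) : a ^ idemExp F a • (proj1 F a • x) = 0 := by
  rw [proj1, sub_smul, one_smul, smul_sub, ← mul_smul, ← pow_add, ← two_mul, idemExp_spec, sub_self]

theorem proj1_smul_of_nilp (a : 𝕋) {x : F} (hx : ∃ N : ℕ, a ^ N • x = 0) : proj1 F a • x = x := by
  obtain ⟨N, hN⟩ := hx
  have h1 : ∀ m : ℕ, a ^ (idemExp F a * (m + 1)) • x = a ^ idemExp F a • x := by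
    intro m
    induction m with
    | zero => rw [zero_add, mul_one]
    | succ m ih =>
      rw [show idemExp F a * (m + 1 + 1) = idemExp F a * (m + 1) + idemExp F a by ring, pow_add,
        mul_smul]
      have h2 : a ^ (idemExp F a * (m + 1)) • (a ^ idemExp F a • x) =
          a ^ idemExp F a • (a ^ (idemExp F a * (m + 1)) • x) := by
        rw [← mul_smul, ← mul_smul, ← pow_add, ← pow_add, add_comm]
      rw [h2, ih, ← mul_smul, ← pow_add, ← two_mul, idemExp_spec]
  have h3 : a ^ idemExp F a • x = 0 := by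
    rw [← h1 N]
    refine pow_smul_eq_zero_of_le hN ?_
    have := one_le_idemExp (F := F) a
    nlinarith
  rw [proj1, sub_smul, one_smul, h3, sub_zero]

theorem map_proj1 (a : 𝕋) (ha : ε a = 0) : ε (proj1 F a) = 1 := by
  have h1 := one_le_idemExp (F := F) a
  rw [proj1, map_sub, map_one, map_pow, ha, zero_pow (by omega), sub_zero]

/-- The product of the Fitting projectors along a list. -/
noncomputable def projL (F : Type*) [AddCommGroup F] [Module 𝕋 F] [Finite F] (L : List 𝕋) : 𝕋 :=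
  (L.map (proj1 F)).prod

theorem projL_nil : projL F ([] : List 𝕋) = 1 := rfl

theorem projL_cons (a : 𝕋) (L : List 𝕋) : projL F (a :: L) = proj1 F a * projL F L := by
  simp [projL]

theorem map_projL (L : List 𝕋) (hL : ∀ a ∈ L, ε a = 0) : ε (projL F L) = 1 := by
  induction L with
  | nil => simp [projL]
  | cons a L ih =>
    rw [projL_cons, map_mul, map_proj1 a (hL a List.mem_cons_self),
      ih (fun b hb => hL b (List.mem_cons_of_mem _ hb)), one_mul]

section Comm

variable (hcomm : ∀ (s t : 𝕋) (x : F), s • t • x = t • s • x)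

include hcomm in
theorem pow_smul_projL_smul (L : List 𝕋) (a : 𝕋) (ha : a ∈ L) (x : F) :
    a ^ idemExp F a • (projL F L • x) = 0 := by
  induction L with
  | nil => simp at ha
  | cons b L ih =>
    rw [projL_cons, mul_smul]
    rcases List.mem_cons.1 ha with rfl | ha'
    · exact pow_smul_proj1_smul a _
    · rw [hcomm, ih ha', smul_zero]

theorem projL_smul_of_mem (L : List 𝕋) (hL : ∀ a ∈ L, ε a = 0) {x : F}
    (hx : x ∈ eigenPart ℓ ε F) : projL F L • x = x := by
  induction L with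
  | nil => rw [projL_nil, one_smul]
  | cons b L ih =>
    rw [projL_cons, mul_smul, ih (fun a ha => hL a (List.mem_cons_of_mem _ ha))]
    exact proj1_smul_of_nilp b (hx b (hL b List.mem_cons_self))

include hcomm in
/-- (LOC-1') **The projector onto the eigenpart**: an element `e` of `𝕋` with `ε e = 1`, with
values in the eigenpart, and equal to the identity on the eigenpart. -/
theorem exists_projector :
    ∃ e : 𝕋, ε e = 1 ∧ (∀ x : F, e • x ∈ eigenPart ℓ ε F) ∧ ∀ x ∈ eigenPart ℓ ε F, e • x = x := by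
  classical
  -- the finitely many operators induced by `ker ε`
  let S : Set (F → F) := {φ | ∃ a : 𝕋, ε a = 0 ∧ φ = fun x => a • x}
  have hS : S.Finite := Set.toFinite S
  have hrep : ∀ φ : ↥S, ∃ a : 𝕋, ε a = 0 ∧ (φ : F → F) = fun x => a • x := fun φ => φ.2
  choose rep hrep0 hrepφ using hrep
  letI : Fintype ↥S := hS.fintype
  let L : List 𝕋 := (Finset.univ : Finset ↥S).toList.map rep
  have hL0 : ∀ a ∈ L, ε a = 0 := by
    intro a ha
    obtain ⟨φ, -, rfl⟩ := List.mem_map.1 ha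
    exact hrep0 φ
  refine ⟨projL F L, map_projL L hL0, fun x a ha => ?_, fun x hx => projL_smul_of_mem L hL0 hx⟩
  -- `a` acts like one of the representatives
  let φ : ↥S := ⟨fun x => a • x, a, ha, rfl⟩
  have hφL : rep φ ∈ L := List.mem_map.2 ⟨φ, Finset.mem_toList.2 (Finset.mem_univ _), rfl⟩
  have hact : ∀ y : F, a • y = rep φ • y := fun y => congrFun (hrepφ φ) y
  have hpow : ∀ (N : ℕ) (y : F), a ^ N • y = rep φ ^ N • y := by
    intro N
    induction N with
    | zero => intro y; simp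
    | succ N ih => intro y; rw [pow_succ, mul_smul, pow_succ, mul_smul, hact, ih]
  exact ⟨idemExp F (rep φ), by rw [hpow]; exact pow_smul_projL_smul hcomm L _ hφL x⟩

end Comm

end Projector

/-! ### Elements outside `ker ε` are invertible on the eigenpart -/

section Units

variable {𝕋 : Type*} [Ring 𝕋] {ℓ : ℕ} [Fact ℓ.Prime] {ε : 𝕋 →+* ZMod ℓ}
  {F : Type*} [AddCommGroup F] [Module 𝕋 F]
  (hℓ : ∀ x : F, ∃ j : ℕ, ℓ ^ j • x = 0)
  (hcomm : ∀ (s t : 𝕋) (x : F), s • t • x = t • s • x)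

include hℓ in
/-- A natural number prime to `ℓ` acts injectively on an `ℓ`-group. -/
theorem eq_zero_of_coprime_nsmul {c : ℕ} (hc : ¬ ℓ ∣ c) {x : F} (h : c • x = 0) : x = 0 := by
  obtain ⟨j, hj⟩ := hℓ x
  have hcop : Nat.Coprime c (ℓ ^ j) :=
    Nat.Coprime.pow_right j ((Nat.Prime.coprime_iff_not_dvd (Fact.out : ℓ.Prime)).2 hc).symm
  have h1 : ((c : ℤ) * Nat.gcdA c (ℓ ^ j) + ((ℓ ^ j : ℕ) : ℤ) * Nat.gcdB c (ℓ ^ j)) • x = x := by
    rw [← Nat.gcd_eq_gcd_ab, hcop, Nat.cast_one, one_smul]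
  rw [← h1, add_smul, mul_comm, mul_smul, mul_comm, mul_smul, natCast_zsmul, natCast_zsmul, h, hj,
    smul_zero, smul_zero, add_zero]

include hℓ in
/-- `s` with `ε s ≠ 0` is injective on the eigenpart. -/
theorem eq_zero_of_smul_eq_zero {s : 𝕋} (hs : ε s ≠ 0) {x : F} (hx : x ∈ eigenPart ℓ ε F)
    (h : s • x = 0) : x = 0 := by
  set c : ℕ := (ε s).val with hc
  have hcℓ : ¬ ℓ ∣ c := by
    intro hdvd
    apply hs
    have h1 : ((c : ℕ) : ZMod ℓ) = 0 := (ZMod.natCast_eq_zero_iff c ℓ).2 hdvd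
    rwa [hc, ZMod.natCast_zmod_val] at h1
  set a : 𝕋 := s - (c : 𝕋) with ha
  have hεa : ε a = 0 := by
    rw [ha, map_sub, map_natCast, hc, ZMod.natCast_zmod_val, sub_self]
  obtain ⟨N, hN⟩ := hx a hεa
  -- `a • y = - c • y` on the multiples of `x`
  have hax : ∀ m : ℕ, a ^ m • x = (-1 : ℤ) ^ m • (c ^ m • x) := by
    intro m
    induction m with
    | zero => simp
    | succ m ih =>
      have h2 : a • x = (-1 : ℤ) • (c • x) := by
        rw [ha, sub_smul, h, zero_sub, neg_smul, one_smul, Nat.cast_smul_eq_nsmul]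
      calc a ^ (m + 1) • x = a ^ m • (a • x) := by rw [pow_succ, mul_smul]
        _ = a ^ m • ((-1 : ℤ) • (c • x)) := by rw [h2]
        _ = (-1 : ℤ) • (c • (a ^ m • x)) := by
            rw [smul_comm (a ^ m) (-1 : ℤ), smul_comm (a ^ m) c]
        _ = (-1 : ℤ) • (c • ((-1 : ℤ) ^ m • (c ^ m • x))) := by rw [ih]
        _ = (-1 : ℤ) ^ (m + 1) • (c ^ (m + 1) • x) := by
            rw [smul_comm c ((-1 : ℤ) ^ m), ← mul_smul, ← pow_succ', ← mul_smul, ← pow_succ']
  rw [hax N] at hN
  have h3 : c ^ N • x = 0 := by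
    have h4 : (-1 : ℤ) ^ N • ((-1 : ℤ) ^ N • (c ^ N • x)) = 0 := by rw [hN, smul_zero]
    rwa [← mul_smul, ← mul_pow, neg_one_mul, neg_neg, one_pow, one_smul] at h4
  exact eq_zero_of_coprime_nsmul hℓ (fun hd => hcℓ ((Fact.out : ℓ.Prime).dvd_of_dvd_pow hd)) h3

include hℓ hcomm in
/-- (LOC-2') `s` with `ε s ≠ 0` is bijective on the eigenpart. -/
theorem bijOn_smul_eigenPart [Finite F] {s : 𝕋} (hs : ε s ≠ 0) :
    Set.BijOn (fun x : F => s • x) (eigenPart ℓ ε F) (eigenPart ℓ ε F) := by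
  have hmaps : Set.MapsTo (fun x : F => s • x) (eigenPart ℓ ε F) (eigenPart ℓ ε F) :=
    fun x hx => smul_mem_eigenPart hcomm s hx
  have hinj : Set.InjOn (fun x : F => s • x) (eigenPart ℓ ε F) := by
    intro x hx y hy hxy
    have h1 : s • (x - y) = 0 := by rw [smul_sub]; exact sub_eq_zero.2 hxy
    exact sub_eq_zero.1
      (eq_zero_of_smul_eq_zero hℓ hs ((eigenPart ℓ ε F).sub_mem hx hy) h1)
  refine ⟨hmaps, hinj, ?_⟩
  -- a self-injection of a finite set is onto
  let g : ↥(eigenPart ℓ ε F) → ↥(eigenPart ℓ ε F) := fun x => ⟨s • (x : F), hmaps x.2⟩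
  have hg : Function.Injective g := fun x y hxy => Subtype.ext (hinj x.2 y.2 (congrArg Subtype.val hxy))
  intro y hy
  obtain ⟨x, hx⟩ := (Finite.injective_iff_surjective.1 hg) ⟨y, hy⟩
  exact ⟨x, x.2, congrArg Subtype.val hx⟩

include hℓ hcomm in
/-- A power of `s` (with `ε s ≠ 0`) is the identity on the eigenpart. -/
theorem exists_pow_smul_eq [Finite F] {s : 𝕋} (hs : ε s ≠ 0) :
    ∃ m : ℕ, 1 ≤ m ∧ ∀ x ∈ eigenPart ℓ ε F, s ^ m • x = x := by
  obtain ⟨n, hn1, hn⟩ := exists_pow_idem (F := F) s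
  refine ⟨n, hn1, fun x hx => ?_⟩
  -- `s ^ n • (s ^ n • x - x) = 0`, and `s ^ n` is injective on the eigenpart
  have hsn : ε (s ^ n) ≠ 0 := by rw [map_pow]; exact pow_ne_zero n hs
  have h1 : s ^ n • (s ^ n • x - x) = 0 := by
    rw [smul_sub, ← mul_smul, ← pow_add, ← two_mul, hn, sub_self]
  exact sub_eq_zero.1 (eq_zero_of_smul_eq_zero hℓ hsn
    ((eigenPart ℓ ε F).sub_mem (smul_mem_eigenPart hcomm _ hx) hx) h1)

end Units

end Fermat.Agent.M15.KumLoc6
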