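/-
M15 / R1 (MOD), THE END OF THE CHAPTER (helper7): **the field `ModPointOdd` of the contracts,
unconditionally**, from `ModGlob7.exists_fixed_place` (MOD-glob) and helper8's assembly
`ModPoint8.modPointOdd_of_modData` (LOC + RED + rationality).

If some odd prime `v ≠ p` of multiplicative reduction exists, any valuation ring `A` over it has
`v(p) = 1` and `j(E) ∉ A`, which is what (MOD-glob) needs; the resulting place `x` serves all
primes.  If no such prime exists, the dichotomy is vacuous and `x := P0` will do.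
Imported by no statement.
-/
import Fermat.Agent.M15.ModGlob7
import Fermat.Agent.M15.ModPoint8
import Fermat.Agent.M15.Wire0
import Fermat.Agent.Lib.FrobeniusExists

set_option autoImplicit false
set_option linter.unusedSectionVars false

noncomputable section

namespace Fermat.Agent.M15.ModFinal7

open WeierstrassCurve WeierstrassCurve.Affine AlgebraicCurve ModularCurve
open Fermat.Agent.X0 Fermat.Agent.X0.FF
open Fermat.Agent.RED.BASE.Hauptmodul12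
open Fermat.Agent.M15.DictDefs8 Fermat.Agent.M15.ModGlob7 Fermat.Agent.M15.ModPoint8
open Fermat.Agent.M15.Contracts9 Fermat.Agent.M15.CuspTors0 Fermat.Agent.M15.CuspRat9
open Fermat.Agent.M15.RedAt9 Fermat.Agent.S05.Inertia
open Fermat.Agent.T33.Psi3C

variable (p : ℕ) [NeZero p]

/-- `j(E) ∉ A` at a place of multiplicative reduction. -/
theorem j_notMem {v : ℕ} (hv : v.Prime) {W : WeierstrassCurve ℤ}
    (hvΔ : (v : ℤ) ∣ W.Δ) (hvc : ¬ (v : ℤ) ∣ W.c₄) {A : ValuationSubring Qb}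
    (hA : A.LiesOverPrime v) {cj : Qb} (hcj : cj * ((W.Δ : ℤ) : Qb) = ((W.c₄ : ℤ) : Qb) ^ 3) :
    cj ∉ A := by
  have hD : A.valuation ((W.Δ : ℤ) : Qb) < 1 := (valuation_intCast_lt_one_iff hv hA _).2 hvΔ
  have hc4 : A.valuation ((W.c₄ : ℤ) : Qb) = 1 := valuation_intCast_eq_one hv hA hvc
  have hj : A.valuation cj * A.valuation ((W.Δ : ℤ) : Qb) = 1 := by
    rw [← map_mul, hcj, map_pow, hc4, one_pow]
  intro hmem
  have h1 : A.valuation cj ≤ 1 := (A.valuation_le_one_iff _).2 hmem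
  have : A.valuation cj * A.valuation ((W.Δ : ℤ) : Qb) < 1 := by
    calc A.valuation cj * A.valuation ((W.Δ : ℤ) : Qb)
        ≤ 1 * A.valuation ((W.Δ : ℤ) : Qb) := mul_le_mul_left h1 _
      _ = A.valuation ((W.Δ : ℤ) : Qb) := one_mul _
      _ < 1 := hD
  rw [hj] at this
  exact lt_irrefl _ this

/-- **(MOD-glob) in helper8's shape**, given one prime of multiplicative reduction `v ≠ p`. -/
theorem exists_modData (hp : p.Prime) (hp2 : p ≠ 2) (W : WeierstrassCurve ℤ) (hΔ : W.Δ ≠ 0)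
    (Q : ((W.map (Int.castRingHom ℚ))⁄(AlgebraicClosure ℚ)).Point)
    (hQfix : ∀ σ : GQ, σ • Q = Q) (hQ : addOrderOf Q = p) {v : ℕ} (hv : v.Prime) (hvp : v ≠ p)
    (hvΔ : (v : ℤ) ∣ W.Δ) (hvc : ¬ (v : ℤ) ∣ W.c₄) : ∃ x : Pl p, ModData p W Q x := by
  obtain ⟨A, hA⟩ := Fermat.Agent.Lib.FrobeniusExists.exists_valuationSubring_liesOverPrime v hv
  have hpA : A.valuation (p : Qb) = 1 := valuation_prime_eq_one hv hA hp hvp
  have hΔb : ((W.Δ : ℤ) : Qb) ≠ 0 := by exact_mod_cast hΔ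
  set cj : Qb := ((W.c₄ : ℤ) : Qb) ^ 3 / ((W.Δ : ℤ) : Qb) with hcjdef
  have hcj : cj * ((W.Δ : ℤ) : Qb) = ((W.c₄ : ℤ) : Qb) ^ 3 := div_mul_cancel₀ _ hΔb
  have hcjA : cj ∉ A := j_notMem hv hvΔ hvc hA hcj
  have hodd : Odd p := hp.odd_of_ne_two hp2
  obtain ⟨x, hfix, hj, hu⟩ := exists_fixed_place p hp hodd W hΔ Q hQfix hQ A hpA hcj hcjA
  have hΔE : ((W.map (Int.castRingHom ℚ))⁄(AlgebraicClosure ℚ)).Δ ≠ 0 := by
    show ((W.map (Int.castRingHom ℚ)).map (algebraMap ℚ (AlgebraicClosure ℚ))).Δ ≠ 0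
    rw [WeierstrassCurve.map_Δ, WeierstrassCurve.map_Δ]
    simpa using hΔ
  obtain ⟨T, hT⟩ := Fermat.Agent.M15.TwoTors8.exists_isTwoTors
    ((W.map (Int.castRingHom ℚ))⁄(AlgebraicClosure ℚ)) two_ne_zero hΔE
  obtain ⟨hR0, hval⟩ := hu T hT
  have hcu : (p : Qb) ^ 12 / veluRatio T Q p * veluRatio T Q p = (p : Qb) ^ 12 :=
    div_mul_cancel₀ _ hR0
  obtain ⟨h1, h2⟩ := hval _ hcu
  exact ⟨x, hfix, cj, _, T, hT, hcj, hcu, hj, h2, h1⟩

/-- the trivial case: `cl P0 P0` is rational. -/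
theorem isRat_cl_self (hp : p.Prime) : IsRat p (cl p (P0 p hp) (P0 p hp)) := by
  intro σ
  rw [gal_smul_cl, gal_smul_P0]

/-- **(MOD), the field of `Wire8.ContractsOdd`, unconditionally.** -/
theorem modPointOdd8 (hp : p.Prime) (hp' : p ∉ ({2, 3, 5, 7, 13} : Finset ℕ))
    (W : WeierstrassCurve ℤ) (Q : ((W.map (Int.castRingHom ℚ))⁄(AlgebraicClosure ℚ)).Point)
    (hΔ : W.Δ ≠ 0) (hQfix : ∀ σ : GQ, σ • Q = Q) (hQ : addOrderOf Q = p) :
    Fermat.Agent.M15.Wire8.ModPointOdd p W Q (P0 p hp) (Pinf p) (redAt p) := by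
  have hp2 : p ≠ 2 := by
    intro h; apply hp'; simp [h]
  by_cases hex : ∃ v : ℕ, v.Prime ∧ v ≠ 2 ∧ v ≠ p ∧ (v : ℤ) ∣ W.Δ ∧ ¬ (v : ℤ) ∣ W.c₄
  · obtain ⟨v, hv, -, hvp, hvΔ, hvc⟩ := hex
    obtain ⟨x, hx⟩ := exists_modData p hp hp2 W hΔ Q hQfix hQ hv hvp hvΔ hvc
    exact modPointOdd_of_modData p hp hp2 hΔ hQ hx
  · refine ⟨P0 p hp, isRat_cl_self p hp, fun v hv hv2 hvp hvΔ hvc A _ => ?_⟩
    exact absurd ⟨v, hv, hv2, hvp, hvΔ, hvc⟩ hex

/-- **(MOD), the field of `Wire0.Contracts'`, unconditionally.** -/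
theorem modPointOdd (hp : p.Prime) (hp' : p ∉ ({2, 3, 5, 7, 13} : Finset ℕ))
    (W : WeierstrassCurve ℤ) (Q : ((W.map (Int.castRingHom ℚ))⁄(AlgebraicClosure ℚ)).Point)
    (hΔ : W.Δ ≠ 0) (hQfix : ∀ σ : GQ, σ • Q = Q) (hQ : addOrderOf Q = p) :
    Fermat.Agent.M15.Wire0.ModPointOdd p W Q (P0 p hp) (Pinf p) (redAt p) := by
  obtain ⟨x, hx, h⟩ := modPointOdd8 p hp hp' W Q hΔ hQfix hQ
  exact ⟨x, hx, fun v hv hvp hv2 => h v hv hv2 hvp⟩

end Fermat.Agent.M15.ModFinal7
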