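/-
M15 / R1 (MOD-glob, helper7), chapter G6a: values of realised functions at point places.
If `t ∈ FF N` is realised by the holomorphic function `τ` (`Unbranched14.IsRealizedBy`) then at
the point place `pointPlaceD D z₀ cj hc g` the function `t - c` has positive order as soon as
`τ (g⁻¹ • z₀) = ι c` (every level, with multiplicities; no hypothesis on elliptic points).
Imported by no statement.
-/
import Fermat.Agent.RED.BASE.Hauptmodul12
import Fermat.Agent.RED.BASE.DeltaMem19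

set_option autoImplicit false

open UpperHalfPlane hiding I
open scoped MatrixGroups

namespace Fermat.Agent.M15.PlaceVal7

open Fermat.Agent.X0 Fermat.Agent.X0.PointPlacesD Fermat.Agent.X0.PointPlaces
open Fermat.Agent.X0.FF AlgebraicCurve
open Fermat.Agent.RED.BASE.Unbranched14

variable {N : ℕ} [NeZero N]

/-- the order of `t - c` at a point place, up to the multiplicity of the place. -/
theorem mult_mul_ord_sub (D : RealizeData N) {t : FF N} {τ : ℍ → ℂ} (hτ : τ ∈ HolH)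
    (ht : IsRealizedBy D t τ) (z₀ : ℍ) (cj : Kbar) (hc : jFun z₀ = iotaK cj) (g : SL(2, ℤ))
    (c : Kbar) (hne : t - algebraMap Kbar (FF N) c ≠ 0) :
    (pointMultD D z₀ cj hc g : ℤ) *
        (pointPlaceD D z₀ cj hc g).ord (t - algebraMap Kbar (FF N) c) =
      ((ordH (compSL (fun z => τ z - iotaK c) g⁻¹) z₀).toNat : ℤ) ∧
    ordH (compSL (fun z => τ z - iotaK c) g⁻¹) z₀ ≠ ⊤ := by
  obtain ⟨a, b, hb, hab, hΘ⟩ := ht
  set v := pointPlaceD D z₀ cj hc g with hv
  set u : Rsub N := a - algebraMap Kbar (Rsub N) c * b with hu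
  have hbF : (b : FF N) ≠ 0 := fun h => hb (Subtype.ext h)
  have hmul : (t - algebraMap Kbar (FF N) c) * (b : FF N) = (u : FF N) := by
    rw [hu, sub_mul, hab]
    push_cast
    rfl
  have huF : (u : FF N) ≠ 0 := by
    rw [← hmul]
    exact mul_ne_zero hne hbF
  have hu0 : u ≠ 0 := fun h => huF (by rw [h]; rfl)
  have hord : v.ord (t - algebraMap Kbar (FF N) c) + v.ord (b : FF N) = v.ord (u : FF N) := by
    rw [← hmul, Place.ord_mul v hne hbF]
  have hΘu : D.Θ u = D.Θ b * fun z => τ z - iotaK c := by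
    rw [hu, map_sub, map_mul, D.algebraMap_eq]
    funext z
    simp only [Pi.sub_apply, Pi.mul_apply, hΘ z]
    ring
  have hσ : (fun z => τ z - iotaK c) ∈ HolH :=
    HolH.sub_mem hτ (HolH.algebraMap_mem (iotaK c))
  have hcomp : compSL (D.Θ u) g⁻¹ =
      compSL (D.Θ b) g⁻¹ * compSL (fun z => τ z - iotaK c) g⁻¹ := by
    rw [hΘu, compSL_mul_fun]
  have hordH : ordH (compSL (D.Θ u) g⁻¹) z₀ =
      ordH (compSL (D.Θ b) g⁻¹) z₀ + ordH (compSL (fun z => τ z - iotaK c) g⁻¹) z₀ := by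
    rw [hcomp, ordH_mul (compSL_mem_HolH (D.mem_HolH b) g⁻¹) (compSL_mem_HolH hσ g⁻¹)]
  have htopu := ordH_ne_top_D D z₀ g u hu0
  have htopb := ordH_ne_top_D D z₀ g b hb
  have htopσ : ordH (compSL (fun z => τ z - iotaK c) g⁻¹) z₀ ≠ ⊤ := by
    intro h
    rw [h, add_top] at hordH
    exact htopu hordH
  refine ⟨?_, htopσ⟩
  have e1 := pointPlaceD_spec D z₀ cj hc g u hu0
  have e2 := pointPlaceD_spec D z₀ cj hc g b hb
  have e3 : ((ordH (compSL (D.Θ u) g⁻¹) z₀).toNat : ℤ) =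
      ((ordH (compSL (D.Θ b) g⁻¹) z₀).toNat : ℤ) +
        ((ordH (compSL (fun z => τ z - iotaK c) g⁻¹) z₀).toNat : ℤ) := by
    rw [hordH, ENat.toNat_add htopb htopσ]
    push_cast
    rfl
  rw [← hv] at e1 e2
  rw [e1, e2, ← hord] at e3
  linarith

/-- **value at a point place**: `τ (g⁻¹ • z₀) = ι c` implies `0 < ord (t - c)`. -/
theorem ord_sub_pos (D : RealizeData N) {t : FF N} {τ : ℍ → ℂ} (hτ : τ ∈ HolH)
    (ht : IsRealizedBy D t τ) (z₀ : ℍ) (cj : Kbar) (hc : jFun z₀ = iotaK cj) (g : SL(2, ℤ))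
    (c : Kbar) (hne : t - algebraMap Kbar (FF N) c ≠ 0) (hval : τ (g⁻¹ • z₀) = iotaK c) :
    0 < (pointPlaceD D z₀ cj hc g).ord (t - algebraMap Kbar (FF N) c) := by
  obtain ⟨h1, h2⟩ := mult_mul_ord_sub D hτ ht z₀ cj hc g c hne
  have hσ : (fun z => τ z - iotaK c) ∈ HolH :=
    HolH.sub_mem hτ (HolH.algebraMap_mem (iotaK c))
  have h3 : ordH (compSL (fun z => τ z - iotaK c) g⁻¹) z₀ ≠ 0 := by
    rw [Ne, ordH_eq_zero_iff (compSL_mem_HolH hσ g⁻¹), compSL_apply, not_not, hval, sub_self]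
  have h4 : 0 < (ordH (compSL (fun z => τ z - iotaK c) g⁻¹) z₀).toNat := by
    rw [Nat.pos_iff_ne_zero, Ne, ENat.toNat_eq_zero, not_or]
    exact ⟨h3, h2⟩
  have hm : (0 : ℤ) < (pointMultD D z₀ cj hc g : ℤ) := by
    exact_mod_cast pointMultD_pos D z₀ cj hc g
  have h5 : (0 : ℤ) < (pointMultD D z₀ cj hc g : ℤ) *
      (pointPlaceD D z₀ cj hc g).ord (t - algebraMap Kbar (FF N) c) := by
    rw [h1]; exact_mod_cast h4
  by_contra hcon
  rw [not_lt] at hcon
  have := mul_nonpos_of_nonneg_of_nonpos hm.le hcon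
  linarith

/-- converse: `0 < ord (t - c)` forces `τ (g⁻¹ • z₀) = ι c`. -/
theorem val_eq_of_ord_sub_pos (D : RealizeData N) {t : FF N} {τ : ℍ → ℂ} (hτ : τ ∈ HolH)
    (ht : IsRealizedBy D t τ) (z₀ : ℍ) (cj : Kbar) (hc : jFun z₀ = iotaK cj) (g : SL(2, ℤ))
    (c : Kbar) (hpos : 0 < (pointPlaceD D z₀ cj hc g).ord (t - algebraMap Kbar (FF N) c)) :
    τ (g⁻¹ • z₀) = iotaK c := by
  have hne : t - algebraMap Kbar (FF N) c ≠ 0 := by
    intro h
    rw [h] at hpos
    simp at hpos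
  obtain ⟨h1, h2⟩ := mult_mul_ord_sub D hτ ht z₀ cj hc g c hne
  have hσ : (fun z => τ z - iotaK c) ∈ HolH :=
    HolH.sub_mem hτ (HolH.algebraMap_mem (iotaK c))
  by_contra hval
  have h3 : ordH (compSL (fun z => τ z - iotaK c) g⁻¹) z₀ = 0 := by
    rw [ordH_eq_zero_iff (compSL_mem_HolH hσ g⁻¹), compSL_apply]
    exact sub_ne_zero.mpr hval
  rw [h3] at h1
  have hm : (0 : ℤ) < (pointMultD D z₀ cj hc g : ℤ) := by
    exact_mod_cast pointMultD_pos D z₀ cj hc g
  have := mul_pos hm hpos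
  rw [h1] at this
  simp at this

end Fermat.Agent.M15.PlaceVal7
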