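/-
Programme M15 (target S15), chapter (RED-T) = W3, leaf L2 (helper1): **(Λ), abstract form** —
"specialisation commutes with flat pull-back", on divisors.

`P, P'` = places upstairs (levels `M`, `M r`), `Q, Q'` = places of the reductions,
`ρ : P → Q`, `ρ' : P' → Q'` the reductions of places, `b : P' → P`, `bb : Q' → Q` the restriction of
places along `β`, `β̄`; `Bst = β^*`, `Bbst = β̄^*` on divisors (`hB`, `hBb`: pull-back with
multiplicities `e`, `eb`).  `princ D D'` = "`D = div f`, `D' = div f̃`".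
Hypotheses: `ρ ∘ b = bb ∘ ρ'` (place compatibility (B)), (R2) at both levels, charts with liftable
functions (`EsDivAbs24.Chart`, only `r_bad`, `r_good`, `lift` are used).
Conclusion: `ρ'_* β^* D = β̄^* ρ_* D` for every divisor `D`.

Mathlib + `EsDivAbs24` only.  Imported by no statement.
-/
import Mathlib
import Fermat.Agent.ES.KRON.EsDivAbs24

set_option autoImplicit false

open Finsupp

noncomputable section

namespace Fermat.Agent.M15.PullRedAbs1

open Fermat.Agent.ES.KRON.EsDivAbs24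

variable {P P' Q Q' : Type*}

section Defect

variable (ρ : P → Q) (ρ' : P' → Q') (b : P' → P) (bb : Q' → Q)
  (Bst : (P →₀ ℤ) →+ (P' →₀ ℤ)) (Bbst : (Q →₀ ℤ) →+ (Q' →₀ ℤ)) (e : P' → ℤ) (eb : Q' → ℤ)

/-- the defect `Λ = ρ'_* β^* - β̄^* ρ_*`. -/
def defect : (P →₀ ℤ) →+ (Q' →₀ ℤ) :=
  (Finsupp.mapDomain.addMonoidHom ρ').comp Bst - Bbst.comp (Finsupp.mapDomain.addMonoidHom ρ)

theorem defect_apply (D : P →₀ ℤ) :
    defect ρ ρ' Bst Bbst D = mapDomain ρ' (Bst D) - Bbst (mapDomain ρ D) := rfl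

variable {ρ ρ' b bb Bst Bbst e eb}

/-- (2): `Λ [p]` is supported on the `β̄`-fibre of `ρ p`. -/
theorem mult_defect_eq_zero
    (hB : ∀ D w, Bst D w = e w * D (b w)) (hBb : ∀ D' w', Bbst D' w' = eb w' * D' (bb w'))
    (hcomm : ∀ w, ρ (b w) = bb (ρ' w)) (p : P) (w' : Q') (h : bb w' ≠ ρ p) :
    mult (defect ρ ρ' Bst Bbst) p w' = 0 := by
  classical
  unfold mult
  rw [defect_apply, Finsupp.sub_apply, mapDomain_single, hBb,
    Finsupp.single_apply, if_neg (fun h' => h h'.symm), mul_zero, sub_zero,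
    mapDomain_apply_sum]
  refine Finset.sum_eq_zero fun w _ => ?_
  split_ifs with hw
  · rw [hB, Finsupp.single_apply, if_neg, mul_zero]
    intro hbw
    apply h
    rw [← hw, ← hcomm, hbw]
  · rfl

/-- (1): `Λ` kills the principal pairs. -/
theorem defect_eq_zero_of_princ {princ : (P →₀ ℤ) → (Q →₀ ℤ) → Prop}
    (hred : ∀ D D', princ D D' → mapDomain ρ D = D')
    (hred' : ∀ D D', princ D D' → mapDomain ρ' (Bst D) = Bbst D')
    {D : P →₀ ℤ} {D' : Q →₀ ℤ} (h : princ D D') : defect ρ ρ' Bst Bbst D = 0 := by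
  rw [defect_apply, hred' D D' h, hred D D' h, sub_self]

/-- (3): `Λ [p] = 0` as soon as there is a function `Z - E` killed by `Λ`, with a simple zero at
`ρ p` downstairs, `Z ≥ 0`, `Z p > 0` and `E` away from the `ρ`-fibre of `ρ p`. -/
theorem defect_single_eq_zero
    (hB : ∀ D w, Bst D w = e w * D (b w)) (hBb : ∀ D' w', Bbst D' w' = eb w' * D' (bb w'))
    (hcomm : ∀ w, ρ (b w) = bb (ρ' w)) {p : P} {Z E : P →₀ ℤ}
    (hΛ : defect ρ ρ' Bst Bbst (Z - E) = 0)
    (hZ : ∀ p', 0 ≤ Z p') (hZp : 0 < Z p) (hE : ∀ p'', ρ p'' = ρ p → E p'' = 0)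
    (hD' : mapDomain ρ (Z - E) (ρ p) = 1) :
    defect ρ ρ' Bst Bbst (single p 1) = 0 := by
  classical
  set T := (Z - E).support with hT
  set f : P → ℤ := fun p'' => if ρ p'' = ρ p then (Z - E) p'' else 0 with hf
  have hfnn : ∀ p'' ∈ T, 0 ≤ f p'' := by
    intro p'' _
    simp only [hf]
    split_ifs with h
    · rw [Finsupp.sub_apply, hE p'' h, sub_zero]
      exact hZ p''
    · exact le_refl 0
  have hfp : f p = Z p := by
    simp only [hf]
    rw [if_pos trivial, Finsupp.sub_apply, hE p rfl, sub_zero]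
  have hpT : p ∈ T := by
    rw [hT, Finsupp.mem_support_iff, Finsupp.sub_apply, hE p rfl, sub_zero]
    exact ne_of_gt hZp
  have hsum : ∑ p'' ∈ T, f p'' = 1 := by
    rw [← hD', mapDomain_apply_sum]
  -- `Z p = 1` and the other points of the fibre are not zeros
  have hsplit : f p + ∑ p'' ∈ T.erase p, f p'' = 1 := by
    rw [Finset.add_sum_erase T f hpT, hsum]
  have hrest_nn : 0 ≤ ∑ p'' ∈ T.erase p, f p'' :=
    Finset.sum_nonneg fun p'' hp'' => hfnn p'' (Finset.mem_of_mem_erase hp'')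
  have hZp1 : Z p = 1 := by
    rw [hfp] at hsplit
    omega
  have hrest : ∑ p'' ∈ T.erase p, f p'' = 0 := by
    rw [hfp, hZp1] at hsplit
    omega
  have hother : ∀ p'' ∈ T, p'' ≠ p → ρ p'' = ρ p → (Z - E) p'' = 0 := by
    intro p'' hp'' hne hρ
    have h0 := (Finset.sum_eq_zero_iff_of_nonneg
      (fun q hq => hfnn q (Finset.mem_of_mem_erase hq))).mp hrest p''
      (Finset.mem_erase.mpr ⟨hne, hp''⟩)
    simp only [hf] at h0
    rw [if_pos hρ] at h0
    exact h0
  -- evaluate `Λ (Z - E) = 0` on the fibre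
  apply Finsupp.ext
  intro w'
  rw [Finsupp.zero_apply]
  show mult (defect ρ ρ' Bst Bbst) p w' = 0
  by_cases hw : bb w' = ρ p
  · have h0 : defect ρ ρ' Bst Bbst (Z - E) w' = 0 := by rw [hΛ, Finsupp.zero_apply]
    rw [Fermat.Agent.ES.KRON.EsDivAbs24.L_apply, ← hT, Finset.sum_eq_single_of_mem p hpT] at h0
    · rw [Finsupp.sub_apply, hE p rfl, sub_zero, hZp1, one_mul] at h0
      exact h0
    · intro p'' hp'' hne
      by_cases hρ : ρ p'' = ρ p
      · rw [hother p'' hp'' hne hρ, zero_mul]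
      · rw [mult_defect_eq_zero hB hBb hcomm p'' w' (fun h => hρ (h.symm.trans hw).symm.symm),
          mul_zero]
  · exact mult_defect_eq_zero hB hBb hcomm p w' hw

end Defect

/-- **(Λ)**: specialisation commutes with pull-back, `ρ'_* β^* D = β̄^* ρ_* D`. -/
theorem pullback_red_comm (ρ : P → Q) (ρ' : P' → Q') (b : P' → P) (bb : Q' → Q)
    (Bst : (P →₀ ℤ) →+ (P' →₀ ℤ)) (Bbst : (Q →₀ ℤ) →+ (Q' →₀ ℤ)) (e : P' → ℤ) (eb : Q' → ℤ)
    (hB : ∀ D w, Bst D w = e w * D (b w)) (hBb : ∀ D' w', Bbst D' w' = eb w' * D' (bb w'))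
    (hcomm : ∀ w, ρ (b w) = bb (ρ' w))
    (princ : (P →₀ ℤ) → (Q →₀ ℤ) → Prop)
    (hred : ∀ D D', princ D D' → mapDomain ρ D = D')
    (hred' : ∀ D D', princ D D' → mapDomain ρ' (Bst D) = Bbst D')
    {ι : Type*} {C : ι → Set P} {Dinf : ι → P →₀ ℤ} {Dinf' : ι → Q →₀ ℤ}
    (hC : ∀ i, Chart ρ (Equiv.refl Q) princ (C i) (Dinf i) (Dinf' i))
    (hcov : ∀ p, ∃ i, p ∈ C i) (D : P →₀ ℤ) :
    mapDomain ρ' (Bst D) = Bbst (mapDomain ρ D) := by
  classical
  have hsingle : ∀ p : P, defect ρ ρ' Bst Bbst (single p 1) = 0 := by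
    intro p
    obtain ⟨i, hi⟩ := hcov p
    obtain ⟨Z, E, D', hZ, _, hZp, hEsupp, hpr, hD'p, _⟩ :=
      (hC i).lift p hi ∅ (fun s hs => absurd hs (Finset.notMem_empty s)) (Finset.notMem_empty _)
    refine defect_single_eq_zero hB hBb hcomm
      (defect_eq_zero_of_princ hred hred' hpr) hZ hZp ?_ ?_
    · intro p'' hρ
      by_contra hne
      have h1 : p'' ∈ (Dinf i).support := hEsupp (Finsupp.mem_support_iff.mpr hne)
      have h2 := (hC i).r_bad p'' h1
      rw [hρ] at h2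
      exact (hC i).r_good p hi h2
    · rw [hred _ _ hpr, hD'p]
  have hzero : defect ρ ρ' Bst Bbst = 0 := by
    apply Finsupp.addHom_ext
    intro p n
    rw [← smul_single_one, map_zsmul, hsingle p, smul_zero, AddMonoidHom.zero_apply]
  have h := DFunLike.congr_fun hzero D
  rw [defect_apply, AddMonoidHom.zero_apply, sub_eq_zero] at h
  exact h

end Fermat.Agent.M15.PullRedAbs1
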