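/-
Programme M15 (target S15), chapter W3 = (RED-T), leaf L3 = (Λ-inst), helper6:
**the reduction of places commutes with the pull-back of divisors along `β`.**

`m : RedModel v A M`, `m' : RedModel v A (M * r)` two concrete two-chart models, `β = heckeBetaBar`
(`q ↦ q^r`, characteristic `0`), `β̄ = betaC` (characteristic `v`).  If the place reductions are
compatible with the restriction of places along `β`, `β̄` (hypothesis (B), helper7's `PlaceCompat7`)
then for EVERY divisor `D` of level `M`

  `ρ'_* (β^* D) = β̄^* (ρ_* D)`,   `ρ = m.rPl`, `ρ' = m'.rPl`      (`pullback_red`).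

With the compatibility (A) along `α`, `ᾱ` also `ρ_* α_* = ᾱ_* ρ'_*` (`pushforward_red`, inertia degrees
are `1`), hence `ρ_* (T_r D) = (ᾱ_* β̄^*) (ρ_* D)` (`hecke_red`): the reduction of places intertwines the
Hecke correspondence of level `M` with the correspondence of the special fibre.

Proof: the abstract lemma (Λ) `PullRedAbs1.pullback_red_comm` (helper1's L2)
with `princ` = `KronMain24.princ` (divisors of `A`-integral functions with non-zero reduction),
(R2) at both levels, and the two `EsDivAbs24.Chart`s of `m.T` at `Fr := Equiv.refl _`.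
Imported by no statement.
-/
import Mathlib
import Fermat.Agent.FF.RedIface9
import Fermat.Agent.ES.KRON.EsDivFinal24
import Fermat.Agent.ES.HECKE.PointFormula28
import Fermat.Agent.ES.RED.ChartSpecOfChart18
import Fermat.Agent.ES.RED.ResidueUnion1
import Fermat.Agent.U44.DegreeC4
import Fermat.Agent.M15.PullRedAbs1

set_option autoImplicit false
set_option linter.unusedSectionVars false
set_option linter.unusedVariables false
set_option linter.style.haveILetI false
set_option synthInstance.maxHeartbeats 400000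
set_option maxHeartbeats 1600000

noncomputable section

open AlgebraicCurve ModularCurve IntermediateField HahnSeries

namespace Fermat.Agent.M15.PullRed6

open Fermat.Agent.FF.RedIface9 Fermat.Agent.RED.Interface4
open Fermat.Agent.ES.RED.Contract8 Fermat.Agent.ES.RED.TwoCharts8 Fermat.Agent.ES.RED.RedMain15
open Fermat.Agent.ES.KRON.EsDivAbs24 Fermat.Agent.ES.KRON.KronMain24
  Fermat.Agent.ES.KRON.EsDivMain24 Fermat.Agent.ES.KRON.EsDivFinal24
open Fermat.Agent.ES.HECKE.PointFormula28 Fermat.Agent.U44.DegreeC4 Fermat.Agent.M15.PullRedAbs1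

/-! ### The instance -/

section Inst

variable {v : ℕ} [Fact v.Prime] {A : ValuationSubring Qbar} (hA : A.LiesOverPrime v)
  {M r : ℕ} [NeZero M] [NeZero r] [NeZero (M * r)]
  (m : RedModel v A M) (m' : RedModel v A (M * r))

local notation "FM" => (laurentBaseChange Qbar (modularFunctionFieldFull M))
local notation "FMr" => (laurentBaseChange Qbar (modularFunctionFieldFull (M * r)))
local notation "κ" => kA A
local notation "GM" => (modularFunctionFieldFullC (kA A) M)
local notation "GMr" => (modularFunctionFieldFullC (kA A) (M * r))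

include hA in
/-- (R2) at level `M r`, applied to `β f`: `ρ'_* β^* (div f) = β̄^* (div f̃)`. -/
theorem hred'_of_princ [HasPrincipalDivisors Qbar FMr] [HasPrincipalDivisors κ GMr]
    (hβ : (heckeBetaBar Qbar M r).toRingHom.IsIntegral) (hβC : (betaC κ M r).toRingHom.IsIntegral)
    (D : Divisor Qbar FM) (D' : Divisor κ GM) (h : princ M A (resA A) D D') :
    Finsupp.mapDomain m'.rPl (Divisor.pullbackAlong (heckeBetaBar Qbar M r) hβ D) =
      Divisor.pullbackAlong (betaC κ M r) hβC D' := by
  obtain ⟨y, hy, hyk, hne, hD, hD'⟩ := h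
  set y' : LaurentSeries A := qExpand A r y with hy'def
  have e1 : coeffMap A.subtype y' = qExpand Qbar r (coeffMap A.subtype y) :=
    Fermat.Agent.ES.RED.ResidueUnion1.coeffMap_qExpand' _ r y
  have e2 : coeffMap (resA A) y' = qExpand κ r (coeffMap (resA A) y) :=
    Fermat.Agent.ES.RED.ResidueUnion1.coeffMap_qExpand' _ r y
  have hy1 : coeffMap A.subtype y' ∈ laurentBaseChange Qbar (modularFunctionFieldFull (M * r)) := by
    rw [e1]
    exact (heckeBetaBar Qbar M r ⟨_, hy⟩).2
  have hyk1 : coeffMap (resA A) y' ∈ modularFunctionFieldFullC κ (M * r) := by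
    rw [e2]
    exact (betaC κ M r ⟨_, hyk⟩).2
  have hne1 : coeffMap (resA A) y' ≠ 0 := by
    rw [e2]
    exact (map_ne_zero_iff _ (qExpand κ r).injective).2 hne
  have hf1 : (⟨coeffMap A.subtype y', hy1⟩ : FMr) = heckeBetaBar Qbar M r ⟨_, hy⟩ :=
    Subtype.ext e1
  have hg1 : (⟨coeffMap (resA A) y', hyk1⟩ : GMr) = betaC κ M r ⟨_, hyk⟩ := Subtype.ext e2
  ext Q'
  rw [(m'.isPlaceReduction hA).2 y' hy1 hyk1 hne1 _ (fun P' => by
    rw [hf1]; exact pullbackAlong_eq_ord _ hβ hD P') Q', hg1]
  exact (pullbackAlong_eq_ord _ hβC hD' Q').symm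

include hA in
/-- the two abstract charts of the model `m`, at `Fr := id`. -/
theorem exists_charts :
    ∃ (C : Bool → Set (Place Qbar FM)) (Dinf : Bool → Place Qbar FM →₀ ℤ)
      (Dinf' : Bool → Place κ GM →₀ ℤ),
      (∀ i, Chart m.rPl (Equiv.refl _) (princ M A (resA A)) (C i) (Dinf i) (Dinf' i)) ∧
        ∀ P, ∃ i, P ∈ C i := by
  haveI : IsAlgClosed κ := Fermat.Agent.ES.KRON.KronInst10.isAlgClosed_residueField A
  have hin := m.chartInputs hA
  have := hin.1.sep
  have := Fermat.Agent.RED.TOP.FbarFacts20.hasPrincipalDivisors_bar M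
  exact charts_of_twoCharts hin.1.gent m.T (princ M A (resA A)) (Equiv.refl _)
    (fun P hs b hb => Fermat.Agent.ES.RED.ChartSpecOfChart18.mem_place_of_mem_chart' A m.T.S0.s P hs
      ((m.hS0.mem_iff b).1 hb))
    (fun P hs b hb => Fermat.Agent.ES.RED.ChartSpecOfChart18.mem_place_of_mem_chart' A m.T.S1.s P hs
      ((m.hS1.mem_iff b).1 hb))
    (hintD_of_inputs M A m.T.S0 hin.1) (hintD_of_inputs M A m.T.S1 hin.2)
    (fun b hb D D' hD hD' => princ_of_series M A _ _ hb
      ((hin.1.compat b).imp fun y h => ⟨h.1, h.2.symm⟩) D D' hD hD')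
    (fun b hb D D' hD hD' => princ_of_series M A _ _ hb
      ((hin.2.compat b).imp fun y h => ⟨h.1, h.2.symm⟩) D D' hD hD')
    (fun f hf => (HasPrincipalDivisors.exists_divisor f hf).imp fun D h => h.1)
    (fun g hg => Fermat.Agent.ES.KRON.FinDiv18.exists_divisor hin.1.gent hg)
    (fun Q => Fermat.Agent.ES.KRON.FinDiv18.exists_ord_eq_one Q)
    (deg_eq_of_inputs M A m.T.S0 hin.1) (deg_eq_of_inputs M A m.T.S1 hin.2)
    (fun Q => rfl)

include hA in
/-- **(Λ-inst)**: `ρ'_* β^* = β̄^* ρ_*` on divisors. -/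
theorem pullback_red [HasPrincipalDivisors Qbar FMr] [HasPrincipalDivisors κ GMr]
    (hβ : (heckeBetaBar Qbar M r).toRingHom.IsIntegral) (hβC : (betaC κ M r).toRingHom.IsIntegral)
    (hB : ∀ P' : Place Qbar FMr,
      m.rPl (P'.restrictAlong (heckeBetaBar Qbar M r) hβ) =
        (m'.rPl P').restrictAlong (betaC κ M r) hβC)
    (D : Divisor Qbar FM) :
    Finsupp.mapDomain m'.rPl (Divisor.pullbackAlong (heckeBetaBar Qbar M r) hβ D) =
      Divisor.pullbackAlong (betaC κ M r) hβC (Finsupp.mapDomain m.rPl D) := by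
  obtain ⟨C, Dinf, Dinf', hC, hcov⟩ := exists_charts hA m
  exact pullback_red_comm m.rPl m'.rPl (fun P' => P'.restrictAlong (heckeBetaBar Qbar M r) hβ)
    (fun Q' => Q'.restrictAlong (betaC κ M r) hβC)
    (Divisor.pullbackAlong (heckeBetaBar Qbar M r) hβ) (Divisor.pullbackAlong (betaC κ M r) hβC)
    (fun P' => (P'.ramificationIndexAlong (heckeBetaBar Qbar M r) : ℤ))
    (fun Q' => (Q'.ramificationIndexAlong (betaC κ M r) : ℤ))
    (fun D w => Divisor.pullbackAlong_apply _ hβ D w)
    (fun D' w' => Divisor.pullbackAlong_apply _ hβC D' w')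
    hB (princ M A (resA A))
    (fun D D' h => by
      obtain ⟨y, hy, hyk, hne, hD, hD'⟩ := h
      ext Q
      rw [hD' Q]
      exact (m.isPlaceReduction hA).2 y hy hyk hne D hD Q)
    (fun D D' h => hred'_of_princ hA m' hβ hβC D D' h)
    hC hcov D

/-! ### Push-forward along `α`, and the Hecke correspondence -/

include hA in
/-- **`ρ_* α_* = ᾱ_* ρ'_*`** on divisors, from the place compatibility (A). -/
theorem pushforward_red
    (hα : (heckeAlphaBar Qbar M r).toRingHom.IsIntegral) (hαC : (alphaC κ M r).toRingHom.IsIntegral)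
    (hAl : ∀ P' : Place Qbar FMr,
      m.rPl (P'.restrictAlong (heckeAlphaBar Qbar M r) hα) =
        (m'.rPl P').restrictAlong (alphaC κ M r) hαC)
    (E : Divisor Qbar FMr) :
    Finsupp.mapDomain m.rPl (Divisor.pushforwardAlong (heckeAlphaBar Qbar M r) hα E) =
      Divisor.pushforwardAlong (alphaC κ M r) hαC (Finsupp.mapDomain m'.rPl E) := by
  haveI : IsAlgClosed κ := Fermat.Agent.ES.KRON.KronInst10.isAlgClosed_residueField A
  induction E using Finsupp.induction_linear with
  | zero => simp
  | add E₁ E₂ h₁ h₂ => rw [map_add, Finsupp.mapDomain_add, h₁, h₂, Finsupp.mapDomain_add, map_add]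
  | single w n =>
    rw [Divisor.pushforwardAlong_single, Finsupp.mapDomain_single, Finsupp.mapDomain_single,
      Divisor.pushforwardAlong_single, hAl w,
      inertiaDegAlong_eq_one _ hα w (Fermat.Agent.RED.TOP.FbarFacts20.deg_eq_one_bar (M * r) w),
      inertiaDegAlong_eq_one _ hαC (m'.rPl w)
        (Fermat.Agent.X0.FF.deg_eq_one (m'.isGen_red_s hA) (m'.rPl w))]

include hA in
/-- **`ρ_* T_r = T̄_r ρ_*` on divisors**: the reduction of places intertwines the Hecke
correspondence `α_* β^*` of level `M` with the correspondence `ᾱ_* β̄^*` of the special fibre. -/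
theorem hecke_red [HasPrincipalDivisors Qbar FMr] [HasPrincipalDivisors κ GMr]
    (hα : (heckeAlphaBar Qbar M r).toRingHom.IsIntegral) (hβ : (heckeBetaBar Qbar M r).toRingHom.IsIntegral)
    (hαC : (alphaC κ M r).toRingHom.IsIntegral) (hβC : (betaC κ M r).toRingHom.IsIntegral)
    (hAl : ∀ P' : Place Qbar FMr,
      m.rPl (P'.restrictAlong (heckeAlphaBar Qbar M r) hα) =
        (m'.rPl P').restrictAlong (alphaC κ M r) hαC)
    (hB : ∀ P' : Place Qbar FMr,
      m.rPl (P'.restrictAlong (heckeBetaBar Qbar M r) hβ) =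
        (m'.rPl P').restrictAlong (betaC κ M r) hβC)
    (D : Divisor Qbar FM) :
    Finsupp.mapDomain m.rPl (heckeDivBar (L := Qbar) (N := M) (ℓ := r) hα hβ D) =
      Divisor.correspondence (betaC κ M r) (alphaC κ M r) hβC hαC (Finsupp.mapDomain m.rPl D) := by
  show Finsupp.mapDomain m.rPl (Divisor.pushforwardAlong (heckeAlphaBar Qbar M r) hα
    (Divisor.pullbackAlong (heckeBetaBar Qbar M r) hβ D)) = _
  rw [pushforward_red hA m m' hα hαC hAl, pullback_red hA m m' hβ hβC hB, Divisor.correspondence_apply]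

end Inst

end Fermat.Agent.M15.PullRed6
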