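/-
Programme M15 (target S15), chapter W3 = (RED-T), helper6: **`HeckeStable9.RedCompat p` from the
place compatibilities (A), (B) of L1**, hence `Assemble9.HeckeStable p`.

`PlaceCompat p` is the literal output of helper7's L1 at the auxiliary level `M = auxLevel v p`
(`v` odd, `v ∤ p`, `r` prime, `r ∤ M`, `r ≠ v`): a concrete two-chart model `m'` of level `M r` whose
reduction of places is compatible with the restriction of places along `α, ᾱ` (A) and along
`β, β̄` (B).  `PullRed6.pullback_red` (L3) turns (B) into `HeckeFin9.BetaPullCompat`.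
Imported by no statement.
-/
import Mathlib
import Fermat.Agent.M15.HeckeStable9
import Fermat.Agent.M15.PullRed6

set_option autoImplicit false
set_option linter.unusedSectionVars false
set_option linter.style.haveILetI false
set_option linter.unusedVariables false
set_option synthInstance.maxHeartbeats 400000
set_option maxHeartbeats 1600000

noncomputable section

namespace Fermat.Agent.M15.RedCompat6

open AlgebraicCurve ModularCurve IntermediateField
open Fermat.Agent.M15.Contracts9 Fermat.Agent.M15.RedAt9 Fermat.Agent.M15.HeckeFin9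
open Fermat.Agent.M15.Assemble9 Fermat.Agent.M15.HeckeStable9
open Fermat.Agent.FF.RedIface9 Fermat.Agent.RED.Interface4 Fermat.Agent.RED.LVL
open Fermat.Agent.T33.NodalHalf4 Fermat.Agent.ES.HECKE.LevelPullback12
open Fermat.Agent.U44.DegreeC4 Fermat.Agent.ES.RED

variable (p : ℕ) [NeZero p]

/-- **the output of L1**: at the auxiliary level a two-chart model of level `M r` whose place
reduction is compatible with `α` and with `β`. -/
def PlaceCompat : Prop :=
  ∀ {v : ℕ} (hv : v.Prime) (hvp : ¬ v ∣ p) (hv2 : v ≠ 2) {A : ValuationSubring Qb}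
    (hA : A.LiesOverPrime v) {r : ℕ} [NeZero r] (hr : r.Prime) (_ : ¬ r ∣ auxLevel v p)
    (hrv : r ≠ v),
    haveI : Fact v.Prime := ⟨hv⟩
    haveI := LevelDegree17.neZero_auxLevel v p
    ∃ m' : RedModel v A (auxLevel v p * r),
      (∀ (hα : (heckeAlphaBar Qb (auxLevel v p) r).toRingHom.IsIntegral)
        (hαC : (alphaC (Setup8.kA A) (auxLevel v p) r).toRingHom.IsIntegral)
        (P' : PlU (auxLevel v p * r)),
        (redModel v hv A hA (auxLevel v p) (hauptLevel_auxLevel hv hvp)).rPl
            (P'.restrictAlong (heckeAlphaBar Qb (auxLevel v p) r) hα) =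
          (m'.rPl P').restrictAlong (alphaC (Setup8.kA A) (auxLevel v p) r) hαC) ∧
      (∀ (hβ : (heckeBetaBar Qb (auxLevel v p) r).toRingHom.IsIntegral)
        (hβC : (betaC (Setup8.kA A) (auxLevel v p) r).toRingHom.IsIntegral)
        (P' : PlU (auxLevel v p * r)),
        (redModel v hv A hA (auxLevel v p) (hauptLevel_auxLevel hv hvp)).rPl
            (P'.restrictAlong (heckeBetaBar Qb (auxLevel v p) r) hβ) =
          (m'.rPl P').restrictAlong (betaC (Setup8.kA A) (auxLevel v p) r) hβC)

/-- L1 + L3 ⇒ the hypothesis of (FIN). -/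
theorem redCompat_of_placeCompat (hL1 : PlaceCompat p) : RedCompat p := by
  intro v hv hvp hv2 A hA r _ hr hrM hrv
  haveI : Fact v.Prime := ⟨hv⟩
  haveI : NeZero v := ⟨hv.ne_zero⟩
  haveI := LevelDegree17.neZero_auxLevel v p
  haveI := Fermat.Agent.RED.TOP.FbarFacts20.hasPrincipalDivisors_bar (auxLevel v p * r)
  haveI := Fermat.Agent.U44.HeckeC4.hasPrincipalDivisors (levelHyp_aux p hv hv2 hvp hA) hr hrv
  obtain ⟨m', hAl, hB⟩ := hL1 hv hvp hv2 hA hr hrM hrv
  refine ⟨m'.rPl, fun hα hαC P' => hAl hα hαC P', fun hβ hβC D => ?_⟩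
  exact Fermat.Agent.M15.PullRed6.pullback_red hA
    (redModel v hv A hA (auxLevel v p) (hauptLevel_auxLevel hv hvp)) m' hβ hβC
    (fun P' => hB hβ hβC P') D

/-- **(RED-T) = W3 from L1.** -/
theorem heckeStable_of_placeCompat (hL1 : PlaceCompat p) : HeckeStable p :=
  heckeStable_of_redCompat p (redCompat_of_placeCompat p hL1)

end Fermat.Agent.M15.RedCompat6
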