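/-
Programme M15 (target S15), chapter R3 FLAT (helper2): **(rig)** for `ℓ` odd, `ℓ ∤ p`, `A` a place of
`ℚ̄` over `ℓ`: an inertia-fixed `ℓ`-power torsion point of `J₀(p)` whose reduction `Φ = red ∘ π^*`
vanishes is zero.  (Connected order on the subgroup it generates: `FF/ConnOrder8`; Oort–Tate rigidity
at `e = 1`: `T33/WZero2`.)  FALSE for `ℓ = 2`.
-/
import Mathlib
import Fermat.Agent.FF.ConnOrder8
import Fermat.Agent.T33.WZero2
import Fermat.Agent.ES.RED.PullbackInj12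

set_option autoImplicit false
set_option synthInstance.maxHeartbeats 400000

open AlgebraicCurve ModularCurve IsLocalRing

namespace Fermat.Agent.M15.RigTors2

open Fermat.Agent.FF.InertiaWire8 Fermat.Agent.FF.HopfOrderB Fermat.Agent.FF.HopfOrderC
  Fermat.Agent.FF.SubOrd1 Fermat.Agent.FF.S19Wire1 Fermat.Agent.RED.Interface4
  Fermat.Agent.FF.GaussOv1 Fermat.Agent.ES.RED Fermat.Agent.FF.Shapes8 Fermat.Agent.FF.SpecRR1
  Fermat.Agent.ES.HECKE.LevelPullback12 Fermat.Agent.ES.RED.PullbackInj12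
  Fermat.Agent.T33.ConnOrd2

set_option maxHeartbeats 1600000 in
/-- **(rig)**. -/
theorem eq_zero_of_red_eq_zero (p : ℕ) [NeZero p] (ℓ : ℕ) [Fact ℓ.Prime] (hℓ2 : ℓ ≠ 2)
    (hℓp : ¬ ℓ ∣ p) [NeZero (auxLevel ℓ p)]
    (A : ValuationSubring Qb) (hA : A.LiesOverPrime ℓ)
    (r : PlF (auxLevel ℓ p) → PlB A (auxLevel ℓ p))
    (hr : IsPlaceReductionModL A (auxLevel ℓ p) r) (hrI : InertiaInv A (auxLevel ℓ p) r)
    {Jb : Type*} [AddCommGroup Jb] (red : JZero (auxLevel ℓ p) →+ Jb)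
    (hred : ∀ D : Divisor.degZero (K := Qbar) (F := ↥(Fbar (auxLevel ℓ p))),
      red (Pic0.mk D) = 0 ↔
        Finsupp.mapDomain r (D : Divisor Qbar ↥(Fbar (auxLevel ℓ p))) ∈
        Divisor.principal (K := Setup8.kA A)
          (F := ↥(modularFunctionFieldFullC (Setup8.kA A) (auxLevel ℓ p))))
    (hredI : ∀ τ ∈ A.inertiaSubgroupIn ℚ, ∀ z : JZero (auxLevel ℓ p), red (τ • z) = red z)
    (k : ℕ) (z : JZero p) (hz : ℓ ^ k • z = 0)
    (hzI : ∀ τ ∈ A.inertiaSubgroupIn ℚ, τ • z = z)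
    (hz0 : red (levelPullback (dvd_auxLevel ℓ p) z) = 0) : z = 0 := by
  have hℓ : ℓ.Prime := Fact.out
  -- the pulled back point, as a torsion point at the auxiliary level
  have hz' : levelPullback (dvd_auxLevel ℓ p) z ∈
      Submodule.torsionBy ℤ (JZero (auxLevel ℓ p)) ((ℓ : ℤ) ^ k) := by
    rw [Submodule.mem_torsionBy_iff]
    have h1 : ((ℓ : ℤ) ^ k) • levelPullback (dvd_auxLevel ℓ p) z =
        levelPullback (dvd_auxLevel ℓ p) (((ℓ : ℤ) ^ k) • z) := (map_zsmul _ _ _).symm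
    have h2 : ((ℓ : ℤ) ^ k) • z = 0 := by
      rw [← hz, ← natCast_zsmul]; push_cast; rfl
    rw [h1, h2, map_zero]
  set z' : Tors (auxLevel ℓ p) ℓ k := ⟨levelPullback (dvd_auxLevel ℓ p) z, hz'⟩ with hz'def
  have hfix : ∀ σ : Iner A, σ • z' = z' := by
    intro σ
    apply Subtype.ext
    show (σ : Fermat.Agent.FF.InertiaWire8.GQ) • levelPullback (dvd_auxLevel ℓ p) z = levelPullback (dvd_auxLevel ℓ p) z
    rw [← levelPullback_smul, hzI _ σ.2]
  -- the subgroup generated by `z'`, with the trivial action of inertia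
  let Q : AddSubgroup (Tors (auxLevel ℓ p) ℓ k) := AddSubgroup.zmultiples z'
  let _ : DistribMulAction (Iner A) ↥Q :=
    { smul := fun _ q => q
      one_smul := fun _ => rfl
      mul_smul := fun _ _ _ => rfl
      smul_zero := fun _ => rfl
      smul_add := fun _ _ _ => rfl }
  have hfixQ : ∀ (σ : Iner A) (q : ↥Q), σ • (q : Tors (auxLevel ℓ p) ℓ k) = q := by
    intro σ q
    obtain ⟨n, hn⟩ := AddSubgroup.mem_zmultiples_iff.1 q.2
    rw [← hn, smul_comm, hfix]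
  obtain ⟨n, e, hn, hb, hnM⟩ := Fermat.Agent.FF.RedConcrete5.exists_base_auxLevel ℓ p
  obtain ⟨H, hH, hHA, hHc⟩ := Fermat.Agent.FF.ConnOrder8.exists_connOrder_comap ℓ k
    n e (auxLevel ℓ p) hb hnM
    (not_dvd_auxLevel hℓ hℓp) A hA r hr hrI red hred hredI
    (Q := ↥Q) Q.subtype Subtype.val_injective (fun σ q => (hfixQ σ q).symm)
    (fun q => by
      obtain ⟨n, hn⟩ := AddSubgroup.mem_zmultiples_iff.1 q.2
      show red ((Q.subtype q : Tors (auxLevel ℓ p) ℓ k) : JZero (auxLevel ℓ p)) = 0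
      have : ((Q.subtype q : Tors (auxLevel ℓ p) ℓ k) : JZero (auxLevel ℓ p)) =
          n • levelPullback (dvd_auxLevel ℓ p) z := by
        show ((q : Tors (auxLevel ℓ p) ℓ k) : JZero (auxLevel ℓ p)) = _
        rw [← hn]
        rfl
      rw [this, map_zsmul, hz0, smul_zero])
  have hconn : HasConnOrder (W0 A) (Iner A) A ↥Q := ⟨H, hH, hHc⟩
  have hq0 : (⟨z', AddSubgroup.mem_zmultiples z'⟩ : ↥Q) = 0 :=
    Fermat.Agent.T33.WZero2.eq_zero_of_hasConnOrder hℓ hℓ2 hA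
      (fun q => ⟨k, by
        apply Subtype.ext
        apply Subtype.ext
        have hq : ((ℓ : ℤ) ^ k) • ((q : Tors (auxLevel ℓ p) ℓ k) : JZero (auxLevel ℓ p)) = 0 :=
          (q : Tors (auxLevel ℓ p) ℓ k).2
        show ℓ ^ k • ((q : Tors (auxLevel ℓ p) ℓ k) : JZero (auxLevel ℓ p)) = 0
        rw [← hq, ← natCast_zsmul]; push_cast; rfl⟩)
      (fun σ q => rfl) hconn _
  have hz'0 : z' = 0 := congrArg Subtype.val hq0
  have hpb : levelPullback (dvd_auxLevel ℓ p) z = 0 := congrArg Subtype.val hz'0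
  by_cases hk : k = 0
  · subst hk
    simpa using hz
  · exact levelPullback_auxLevel_eq_zero ℓ p (ℓ ^ k) (pow_pos hℓ.pos k) z hz hpb

end Fermat.Agent.M15.RigTors2
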