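/-
Programme M15 (target S15), chapter R3 FLAT (helper2): **(rig) for helper9's concrete `redPull`**,
i.e. literally the hypothesis `hrig` of `RedAt9.redFacts_redAt`.
-/
import Mathlib
import Fermat.Agent.M15.RigTors2
import Fermat.Agent.M15.RedAt9

set_option autoImplicit false
set_option synthInstance.maxHeartbeats 400000

open AlgebraicCurve ModularCurve IsLocalRing

namespace Fermat.Agent.M15.RigAt2

open Fermat.Agent.M15.Contracts9 Fermat.Agent.M15.RedAt9 Fermat.Agent.FF.RedIface9
  Fermat.Agent.RED.Interface4 Fermat.Agent.ES.RED Fermat.Agent.FF.Shapes8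
  Fermat.Agent.ES.HECKE.LevelPullback12

set_option maxHeartbeats 1600000 in
/-- **(rig)** for `redPull`: the hypothesis `hrig` of `RedAt9.redFacts_redAt`. -/
theorem redPull_rig (p : ℕ) [NeZero p] {v : ℕ} (hv : v.Prime) (hvp : ¬ v ∣ p)
    {A : ValuationSubring Qb} (hA : A.LiesOverPrime v) :
    3 ≤ v → ∀ z : JZero p, IsRat p z → v • z = 0 → redPull p v hv hvp A hA z = 0 → z = 0 := by
  intro h3 z hz hvz hz0
  haveI : Fact v.Prime := ⟨hv⟩
  haveI := Fermat.Agent.RED.LVL.LevelDegree17.neZero_auxLevel v p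
  set m := redModel v hv A hA (auxLevel v p) (hauptLevel_auxLevel hv hvp) with hm
  refine Fermat.Agent.M15.RigTors2.eq_zero_of_red_eq_zero p v (by omega) hvp A hA m.rPl
    (m.isPlaceReduction hA) (fun τ hτ P => m.rPl_smul_inertia hA hτ P) (m.red hA)
    (Fermat.Agent.FF.RedConcrete5.red_mk_eq_zero_iff m.rPl (m.isPlaceReduction hA)
      (m.principalGenerated hA))
    (fun τ hτ y => m.red_smul_inertia hA hτ y) 1 z (by simpa using hvz) (fun τ _ => hz τ) hz0

end Fermat.Agent.M15.RigAt2
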