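/-
M15 / WIRE, W3 = (RED-T), the last glue (helper9): **`Assemble9.HeckeStable p` from L1 alone.**

`PlaceCompat p` := the statement of leaf L1 (helper7: (PC) + (INT)) at the auxiliary level
`M = auxLevel v p` (`v` odd, `v ∤ p`): for the reduction model `m` used by `RedAt9.redPull` and every
prime `r ∤ M`, `r ≠ v`, there is a reduction model `m'` of level `M r` whose reduction map on
places is compatible with the restriction of places along `α, ᾱ` (A) and along `β, β̄` (B).

`heckeStable_of_placeCompat : PlaceCompat p → HeckeStable p`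
(L3 = `PullRed6.pullback_red` turns (B) into `BetaPullCompat`; L4 = `HeckeStable9`).
Imported by no statement.
-/
import Mathlib
import Fermat.Agent.M15.HeckeStable9
import Fermat.Agent.M15.PullRed6

set_option autoImplicit false
set_option linter.unusedSectionVars false
set_option linter.style.haveILetI false
set_option linter.unusedVariables false
set_option synthInstance.maxHeartbeats 400000

noncomputable section

namespace Fermat.Agent.M15.W3Glue9

open AlgebraicCurve ModularCurve IntermediateField
open Fermat.Agent.M15.Contracts9 Fermat.Agent.M15.RedAt9 Fermat.Agent.M15.HeckeFin9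
open Fermat.Agent.M15.Assemble9 Fermat.Agent.M15.HeckeStable9
open Fermat.Agent.FF.RedIface9 Fermat.Agent.RED.Interface4 Fermat.Agent.RED.LVL
open Fermat.Agent.U44.DegreeC4 Fermat.Agent.ES.RED

variable (p : ℕ) [NeZero p]

/-- **the statement of leaf L1** ((PC) + (INT)) at the auxiliary level. -/
def PlaceCompat : Prop :=
  ∀ {v : ℕ} (hv : v.Prime) (hvp : ¬ v ∣ p) (_ : v ≠ 2) {A : ValuationSubring Qb}
    (hA : A.LiesOverPrime v) {r : ℕ} [NeZero r] (_ : r.Prime) (_ : ¬ r ∣ auxLevel v p)
    (_ : r ≠ v),
    haveI : Fact v.Prime := ⟨hv⟩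
    haveI := LevelDegree17.neZero_auxLevel v p
    ∃ m' : RedModel v A (auxLevel v p * r),
      (∀ (hα : (heckeAlphaBar Qb (auxLevel v p) r).toRingHom.IsIntegral)
        (hαC : (alphaC (Setup8.kA A) (auxLevel v p) r).toRingHom.IsIntegral)
        (P' : PlU (auxLevel v p * r)),
        (redModel v hv A hA (auxLevel v p) (hauptLevel_auxLevel hv hvp)).rPl
            (P'.restrictAlong (heckeAlphaBar Qb (auxLevel v p) r) hα) =
          (m'.rPl P').restrictAlong (alphaC (Setup8.kA A) (auxLevel v p) r) hαC) ∧
      (∀ (hβ : (heckeBetaBar Qb (auxLevel v p) r).toRingHom.IsIntegral)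
        (hβC : (betaC (Setup8.kA A) (auxLevel v p) r).toRingHom.IsIntegral)
        (P' : PlU (auxLevel v p * r)),
        (redModel v hv A hA (auxLevel v p) (hauptLevel_auxLevel hv hvp)).rPl
            (P'.restrictAlong (heckeBetaBar Qb (auxLevel v p) r) hβ) =
          (m'.rPl P').restrictAlong (betaC (Setup8.kA A) (auxLevel v p) r) hβC)

/-- L1 ⇒ the hypothesis of `HeckeStable9.heckeStable_of_redCompat`. -/
theorem redCompat_of_placeCompat (hL1 : PlaceCompat p) : RedCompat p := by
  intro v hv hvp hv2 A hA r _ hr hrM hrv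
  haveI : Fact v.Prime := ⟨hv⟩
  haveI : NeZero v := ⟨hv.ne_zero⟩
  haveI := LevelDegree17.neZero_auxLevel v p
  haveI := Fermat.Agent.RED.TOP.FbarFacts20.hasPrincipalDivisors_bar (auxLevel v p * r)
  haveI := Fermat.Agent.U44.HeckeC4.hasPrincipalDivisors (levelHyp_aux p hv hv2 hvp hA) hr hrv
  obtain ⟨m', hAl, hB⟩ := hL1 hv hvp hv2 hA hr hrM hrv
  refine ⟨m'.rPl, hAl, fun hβ hβC D => ?_⟩
  exact Fermat.Agent.M15.PullRed6.pullback_red hA
    (redModel v hv A hA (auxLevel v p) (hauptLevel_auxLevel hv hvp)) m' hβ hβC (hB hβ hβC) D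

/-- **W3 = (RED-T) from L1.** -/
theorem heckeStable_of_placeCompat (hL1 : PlaceCompat p) : HeckeStable p :=
  heckeStable_of_redCompat p (redCompat_of_placeCompat p hL1)

end Fermat.Agent.M15.W3Glue9
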