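/-
M15 / WIRE, **W3 = (RED-T) CLOSED** (helper9): `heckeStable p : Assemble9.HeckeStable p`,
unconditionally, from helper7's L1 (`HeckeRed7.exists_model_compat`: (PC) + (INT)) through
`W3Glue9.heckeStable_of_placeCompat` (L2 `PullRedAbs1`, L3 `PullRed6`, L4 `HeckeFin9`/`HeckeStable9`).
Imported by no statement.
-/
import Mathlib
import Fermat.Agent.M15.W3Glue9
import Fermat.Agent.M15.HeckeRed7

set_option autoImplicit false
set_option linter.unusedSectionVars false
set_option linter.style.haveILetI false
set_option linter.unusedVariables false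
set_option synthInstance.maxHeartbeats 400000

noncomputable section

namespace Fermat.Agent.M15.W3Final9

open Fermat.Agent.M15.Contracts9 Fermat.Agent.M15.Assemble9 Fermat.Agent.M15.W3Glue9
open Fermat.Agent.FF.RedIface9 Fermat.Agent.RED.Interface4 Fermat.Agent.RED.LVL

variable (p : ℕ) [NeZero p]

/-- L1 at the auxiliary level. -/
theorem placeCompat : PlaceCompat p := by
  intro v hv hvp _ A hA r _ hr hrM hrv
  haveI : Fact v.Prime := ⟨hv⟩
  haveI := LevelDegree17.neZero_auxLevel v p
  exact Fermat.Agent.M15.HeckeRed7.exists_model_compat hv hA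
    (redModel v hv A hA (auxLevel v p) (hauptLevel_auxLevel hv hvp)) r hr hrM hrv

/-- **W3 = (RED-T)**: at an odd prime `v ∤ p` the kernel of `redPull` is stable under `T_r`,
`r ∤ 2 p`, `r ≠ v`. -/
theorem heckeStable : HeckeStable p :=
  heckeStable_of_placeCompat p (placeCompat p)

end Fermat.Agent.M15.W3Final9
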