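/-
M15: **the statement S15, with no hypothesis** (`Contracts9.S15Statement` is the frozen S15 verbatim):
`FlatEndC2.s15_of_w3` (helper2: S15 from W3 alone) applied to `W3Final9.heckeStable` (W3).
-/
import Mathlib
import Fermat.Agent.M15.FlatEndC2
import Fermat.Agent.M15.W3Final9

set_option autoImplicit false
set_option linter.style.haveILetI false
set_option linter.unusedVariables false

namespace Fermat.Agent.M15.S15Main

/-- **S15.** -/
theorem s15 : Fermat.Agent.M15.Contracts9.S15Statement :=
  Fermat.Agent.M15.FlatEndC2.s15_of_w3 fun p hp _ =>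
    haveI : NeZero p := ⟨hp.ne_zero⟩
    Fermat.Agent.M15.W3Final9.heckeStable p

end Fermat.Agent.M15.S15Main
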