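/-
Programme M15 (target S15), chapter (KUM)/(SD), helper6: **the sharp descent for `ℓ` odd from the
named contracts** (part 2 of `SDOdd0`).

`T = {p, ℓ}`, `W_k = J₀(p)[ℓ^k]_ε`, and the local conditions
  `L_k ℓ = ` the classes of Kummer type (`FlatBridge2.IsKumClass`, a submodule: `kumSubAt`),
  `L_k q = ⊤` for `q ≠ ℓ`, `L_k.inf = ⊤`.
* the Kummer classes are Selmer classes for `L_k` (`KumBridge6.isKumClass_resD_kumJ`);
* `XiLe T p ℓ W_k L_k (k·lam)` from a labelled Jordan–Hölder chain of `W_k` with at least `k·lam`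
  trivially labelled pieces (`SDOdd0.xiLe_of_chain`);
* `SharpDescent6.sharpDescent_of_xiLe` + (DIV) `DivFinal4.jzero_divisible`.
Imported by no statement.
-/
import Mathlib
import Fermat.Agent.M15.SharpDescent6
import Fermat.Agent.M15.KumBridge6
import Fermat.Agent.M15.SDOdd0
import Fermat.Agent.M15.DivFinal4

set_option autoImplicit false
set_option linter.unusedSectionVars false
set_option linter.unusedVariables false
set_option linter.style.haveILetI false
set_option synthInstance.maxHeartbeats 400000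

open CategoryTheory ExtCitation ModularCurve AlgebraicCurve

namespace Fermat.Agent.M15.SDGlue6

open Fermat.Agent.PT.PRO Fermat.Agent.PT.BR Fermat.Agent.W56.Defs9
open Fermat.Agent.M15.Contracts9 Fermat.Agent.M15.KumLoc6 Fermat.Agent.M15.KumRep6
  Fermat.Agent.M15.KumMap6 Fermat.Agent.M15.KumRes6 Fermat.Agent.M15.KumInst6
  Fermat.Agent.M15.KumJ6 Fermat.Agent.M15.FlatBridge2 Fermat.Agent.M15.DevDefs5
  Fermat.Agent.M15.ToricTate3 Fermat.Agent.M15.SDOdd0

local notation "Γ" => (AlgebraicClosure ℚ ≃ₐ[ℚ] AlgebraicClosure ℚ)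

noncomputable section

/-- submodules of `H¹(D_q, M)`, for the module structure carried by the representation. -/
abbrev SubH1D {k : Type} [CommRing k] (M : Rep k Γ) (q : Nat.Primes) : Type := Submodule k (H1D M q)

/-! ### `XiLe` is monotone in the exponent -/

theorem xiLe_mono {k : Type} [CommRing k] {T : Finset Nat.Primes} {pp : Nat.Primes} {ℓ : ℕ}
    (hℓ : 0 < ℓ) {M : Rep k Γ} {L : LocCond M} {e e' : ℕ} (h : XiLe T pp ℓ M L e) (hee : e' ≤ e) :
    XiLe T pp ℓ M L e' := by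
  refine ⟨h.finM, h.finSel, h.finLoc, le_trans ?_ h.le⟩
  gcongr

/-! ### The submodule of classes of Kummer type -/

/-- an additive subgroup of a `ℤ`-module (for ANY `ℤ`-module structure) is a submodule. -/
def subOfAddSubgroup {M : Type*} [AddCommGroup M] [h : Module ℤ M] (S : AddSubgroup M) :
    Submodule ℤ M :=
  { S with
    smul_mem' := fun m a ha => by
      have h1 : @SMul.smul ℤ M h.toSMul m a ∈ S := by
        rw [int_smul_eq_zsmul h m a]
        exact S.zsmul_mem ha m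
      exact h1 }

theorem mem_subOfAddSubgroup {M : Type*} [AddCommGroup M] [h : Module ℤ M] (S : AddSubgroup M)
    (a : M) : a ∈ subOfAddSubgroup S ↔ a ∈ S := Iff.rfl

section Gen

variable {J : Type} [AddCommGroup J] [DistribMulAction Γ J]

theorem gen_zero (n : ℕ) : (∀ g : Γ, g • (0 : J) = 0) ∧ n • (0 : J) = 0 :=
  ⟨fun g => smul_zero g, smul_zero n⟩

theorem gen_add (n : ℕ) {x z x' z' : J} (hx : ∀ g : Γ, g • x = x) (hx' : ∀ g : Γ, g • x' = x')
    (hz : n • z = x) (hz' : n • z' = x') :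
    (∀ g : Γ, g • (x + x') = x + x') ∧ n • (z + z') = x + x' :=
  ⟨fun g => by rw [smul_add, hx, hx'], by rw [smul_add, hz, hz']⟩

theorem gen_neg (n : ℕ) {x z : J} (hx : ∀ g : Γ, g • x = x) (hz : n • z = x) :
    (∀ g : Γ, g • (-x) = -x) ∧ n • (-z) = -x :=
  ⟨fun g => by rw [smul_neg, hx], by rw [smul_neg, hz]⟩

theorem gen_cocycle_add (g : Γ) (z z' : J) :
    (g • z - z) + (g • z' - z') = g • (z + z') - (z + z') := by
  rw [smul_add]; abel

theorem gen_cocycle_neg (g : Γ) (z : J) : -(g • z - z) = g • (-z) - (-z) := by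
  rw [smul_neg]; abel

theorem gen_cocycle_zero (g : Γ) : (0 : J) = g • (0 : J) - 0 := by
  rw [smul_zero, sub_zero]

end Gen

section KumSub

variable (p : ℕ) [NeZero p] (G : AddSubgroup (JZero p)) (hG : ∀ g : Γ, ∀ x ∈ G, g • x ∈ G)

theorem wval_neg' (a : WRep p G hG) : wval p G hG (-a) = -wval p G hG a := rfl

set_option maxHeartbeats 1600000 in
/-- the classes at `q` of the cocycles `g ↦ (loc g) z - z`, `n z` rational (as a subgroup). -/
def kumAddSubAt (q : Nat.Primes) (n : ℕ) : AddSubgroup (H1D (WRep p G hG) q) where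
  carrier := {y | ∃ x z : JZero p, (∀ g : Γ, g • x = x) ∧ n • z = x ∧
    ∃ c : ↥(LevelCoh28.Z1 (LevelBridge13.pullBasis (locD q)) (Rep.res (locD q) (WRep p G hG))),
      LevelCoh28.H1mk _ _ c = y ∧
      ∀ g : primeLocalGaloisGroup q,
        wval p G hG ((c : primeLocalGaloisGroup q → WRep p G hG) g) = locD q g • z - z}
  zero_mem' := ⟨0, 0, (gen_zero (J := JZero p) n).1, (gen_zero (J := JZero p) n).2, 0, map_zero _,
    fun g => gen_cocycle_zero (J := JZero p) (locD q g)⟩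
  add_mem' := by
    rintro a b ⟨x, z, hx, hz, c, rfl, hc⟩ ⟨x', z', hx', hz', c', rfl, hc'⟩
    refine ⟨x + x', z + z', (gen_add (J := JZero p) n hx hx' hz hz').1,
      (gen_add (J := JZero p) n hx hx' hz hz').2, c + c', map_add _ _ _, fun g => ?_⟩
    show wval p G hG ((c : primeLocalGaloisGroup q → WRep p G hG) g +
      (c' : primeLocalGaloisGroup q → WRep p G hG) g) = _
    rw [wval_add, hc g, hc' g]
    exact gen_cocycle_add (J := JZero p) (locD q g) z z'
  neg_mem' := by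
    rintro a ⟨x, z, hx, hz, c, rfl, hc⟩
    refine ⟨-x, -z, (gen_neg (J := JZero p) n hx hz).1, (gen_neg (J := JZero p) n hx hz).2,
      -c, (LevelCoh28.H1mk _ _).map_neg c, fun g => ?_⟩
    show wval p G hG (-(c : primeLocalGaloisGroup q → WRep p G hG) g) = _
    rw [wval_neg', hc g]
    exact gen_cocycle_neg (J := JZero p) (locD q g) z

/-- the same as a submodule. -/
def kumSubAt (q : Nat.Primes) (n : ℕ) : SubH1D (WRep p G hG) q :=
  subOfAddSubgroup (kumAddSubAt p G hG q n)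

theorem mem_kumSubAt_iff (ℓ : Nat.Primes) (k : ℕ) (y : H1D (WRep p G hG) ℓ) :
    y ∈ kumSubAt p G hG ℓ ((ℓ : ℕ) ^ k) ↔ IsKumClass p G hG ℓ k y := Iff.rfl

/-- the local conditions: Kummer type at `ℓ`, nothing elsewhere. -/
def kumCond (ℓ : Nat.Primes) (k : ℕ) : LocCond (WRep p G hG) where
  fin q := ⨅ _ : q = ℓ, kumSubAt p G hG q ((ℓ : ℕ) ^ k)
  inf := ⊤

theorem isKumClass_of_mem_kumCond (ℓ : Nat.Primes) (k : ℕ) (y : H1D (WRep p G hG) ℓ)
    (hy : y ∈ kumCond p G hG ℓ k ℓ) : IsKumClass p G hG ℓ k y :=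
  (mem_kumSubAt_iff p G hG ℓ k y).1 ((Submodule.mem_iInf _).1 hy rfl)

theorem mem_kumCond_inf (ℓ : Nat.Primes) (k : ℕ) (y : H1A (WRep p G hG)) :
    y ∈ (kumCond p G hG ℓ k).inf := Submodule.mem_top

theorem mem_kumCond_fin (ℓ : Nat.Primes) (k : ℕ) (q : Nat.Primes) (y : H1D (WRep p G hG) q)
    (hy : ∀ h : q = ℓ, y ∈ kumSubAt p G hG q ((ℓ : ℕ) ^ k)) : y ∈ kumCond p G hG ℓ k q :=
  (Submodule.mem_iInf _).2 hy

end KumSub

/-! ### The sharp descent, `ℓ` odd -/

/-- **(SD) for `ℓ` odd** from a labelled Jordan–Hölder chain of every `W_k` with at least `k·lam`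
trivially labelled pieces ((JH) + (HALF)) and the toric bound of R2 with exponent `lam`. -/
theorem sharpDescent_odd (p : ℕ) [NeZero p] (hp : p.Prime) (P0 Pinf : Pl p)
    (hcusp : CuspFacts p P0 Pinf) (ℓ : ℕ) [Fact ℓ.Prime] (hℓ : ℓ ∣ addOrderOf (cl p P0 Pinf))
    (hℓ2 : ℓ ≠ 2) (hℓp : ¬ ℓ ∣ p) (lam : ℕ)
    (hJH : ∀ k : ℕ, ∃ c : JHChain ℓ (Wk p P0 Pinf hcusp ℓ hp hℓ k), k * lam ≤ c.numTriv)
    (hTB : ToricBound (JZero p) (epsChar p P0 Pinf hcusp ℓ hp hℓ) ⟨p, hp⟩ lam) :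
    SharpDescent p P0 Pinf ℓ := by
  have hℓpr : ℓ.Prime := Fact.out
  set pp : Nat.Primes := ⟨p, hp⟩ with hpp
  set ℓ' : Nat.Primes := ⟨ℓ, hℓpr⟩ with hℓ'
  have hne : pp ≠ ℓ' := by
    intro h
    have h1 : p = ℓ := congrArg Subtype.val h
    exact hℓp (h1 ▸ dvd_rfl)
  set T : Finset Nat.Primes := {pp, ℓ'} with hTdef
  have hT : ∀ q : Nat.Primes, (q : ℕ) ∣ p * ℓ → q ∈ T := by
    intro q hq
    rcases (Nat.Prime.dvd_mul q.2).1 hq with h | h
    · have : q = pp := Subtype.ext ((Nat.prime_dvd_prime_iff_eq q.2 hp).1 h)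
      rw [hTdef, this]
      exact Finset.mem_insert_self _ _
    · have : q = ℓ' := Subtype.ext ((Nat.prime_dvd_prime_iff_eq q.2 hℓpr).1 h)
      rw [hTdef, this]
      exact Finset.mem_insert_of_mem (Finset.mem_singleton_self _)
  have hT' : ∀ q ∈ T, q = pp ∨ q = ℓ' := by
    intro q hq
    rw [hTdef, Finset.mem_insert, Finset.mem_singleton] at hq
    exact hq
  have hdiv : ∀ x : JZero p, ∃ y : JZero p, ℓ • y = x :=
    Fermat.Agent.M15.DivFinal4.jzero_divisible p ℓ hℓpr.ne_zero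
  refine Fermat.Agent.M15.SharpDescent6.sharpDescent_of_xiLe p hp P0 Pinf hcusp ℓ hℓ T hT hdiv pp
    lam (fun k => kumCond p (kerE (JZero p) (epsChar p P0 Pinf hcusp ℓ hp hℓ) k)
      (fun g _ hx => smul_mem_kerE g hx) ℓ' k) (fun k x => ?_) (fun k => ?_) hTB
  · -- the Kummer classes are Selmer classes
    refine (mem_SelL_iff _).2 ⟨fun q hq => ?_, mem_kumCond_inf p _ _ ℓ' k _⟩
    refine mem_kumCond_fin p _ _ ℓ' k q _ fun h => ?_
    subst h
    exact (mem_kumSubAt_iff p _ _ ℓ' k _).2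
      (Fermat.Agent.M15.KumBridge6.isKumClass_resD_kumJ p hp P0 Pinf hcusp ℓ hℓ T hT hdiv k x)
  · -- the dévissage inequality
    obtain ⟨c, hc⟩ := hJH k
    have hpT : pp ∈ T := by rw [hTdef]; exact Finset.mem_insert_self _ _
    have hℓT : ℓ' ∈ T := by
      rw [hTdef]; exact Finset.mem_insert_of_mem (Finset.mem_singleton_self _)
    have hW : LevelCoh28.IsDiscrete (LevelBridge13.globalBasis T).sets
        (WRep p (kerE (JZero p) (epsChar p P0 Pinf hcusp ℓ hp hℓ) k)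
          (fun g _ hx => smul_mem_kerE g hx)) :=
      isDiscrete_GRep _ (isSmoothAct_jzero p) k T (unramOutside_jzero p _ k T hT)
    have key := xiLe_of_chain p (kerE (JZero p) (epsChar p P0 Pinf hcusp ℓ hp hℓ) k)
      (fun g _ hx => smul_mem_kerE g hx) ℓ' hℓ2 hℓp k (fun x hx => hx.1) pp hne T hpT hℓT hT' hW
      (kumCond p _ _ ℓ' k) (fun y hy => isKumClass_of_mem_kumCond p _ _ ℓ' k y hy) c
    exact xiLe_mono hℓpr.pos key hc

end

end Fermat.Agent.M15.SDGlue6
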