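/-
Programme M15 (target S15), chapter R2 (TORIC), helper3: **the tame relation** `φ σ φ⁻¹ ≡ σ ^ q`.

* abstract (setting of `W56/TameCyclic8`): the tame character does not depend on the uniformiser
  (`chi_eq_of_val_eq`), and if `Φ` is a ring automorphism of `K` preserving the valuation and
  inducing `x ↦ x ^ q` on the residue field, then `χ(Φ σ Φ⁻¹) = χ(σ) ^ q` (`chi_conj`);
* concrete (`A` a valuation subring of `ℚ̄` over `q`, `φ` a Frobenius element at `A`):
  `conj_mem_inertia` and **`tame_relation`**: a homomorphism `f` from the inertia group of `A` which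
  is continuous and whose values have no `q`-power torsion satisfies `f (φ σ φ⁻¹) = f σ ^ q`.
-/
import Mathlib
import Fermat.Agent.W56.TameInertia8
import Fermat.Agent.W56.FrobGen8

set_option autoImplicit false
set_option linter.unusedSectionVars false

namespace Fermat.Agent.M15.TameRel3

open ValuationSubring IsLocalRing Fermat.Agent.W56.TameCyclic8 Fermat.Agent.W56.TameInertia8
open scoped Pointwise

/-! ### abstract form -/

section Abstract

variable {G K : Type*} [Group G] [Field K]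
variable {O : ValuationSubring K} {ρ : G →* RingAut K} {π : K} {q : ℕ}
variable (S : Setting O ρ π q)
include S

/-- two units of `O` with difference in the maximal ideal have the same residue class. -/
theorem residue_eq_of_sub_mem {a b : Kˣ} (ha : a ∈ O.unitGroup) (hb : b ∈ O.unitGroup)
    (h : (a : K) - (b : K) ∈ O.nonunits) :
    O.unitGroupToResidueFieldUnits ⟨a, ha⟩ = O.unitGroupToResidueFieldUnits ⟨b, hb⟩ := by
  have hab : (⟨a, ha⟩ : O.unitGroup) * (⟨b, hb⟩ : O.unitGroup)⁻¹ ∈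
      O.unitGroupToResidueFieldUnits.ker := by
    rw [ker_unitGroupToResidueFieldUnits, Subgroup.mem_comap]
    show a * b⁻¹ ∈ O.principalUnitGroup
    rw [mem_principalUnitGroup_iff]
    have hb1 : O.valuation (b : K) = 1 := hb
    have h1 : ((a * b⁻¹ : Kˣ) : K) - 1 = ((a : K) - (b : K)) / (b : K) := by
      have hb0 : (b : K) ≠ 0 := b.ne_zero
      rw [Units.val_mul, Units.val_inv_eq_inv_val]
      field_simp
    rw [h1, map_div₀, hb1, div_one]
    exact (O.mem_nonunits_iff).1 h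
  rw [MonoidHom.mem_ker, map_mul, map_inv, mul_inv_eq_one] at hab
  exact hab

/-- **the tame character does not depend on the uniformiser.** -/
theorem chi_eq_of_val_eq (σ : G) (x : Kˣ) (hx : O.valuation (x : K) = O.valuation π) :
    O.unitGroupToResidueFieldUnits ⟨rU ρ σ x, rU_mem_unitGroup S σ x⟩ = chi S σ := by
  -- `x = π w`, `w` a unit of `O`
  set w : Kˣ := (piU S)⁻¹ * x with hw
  have hwO : w ∈ O.unitGroup := by
    rw [mem_unitGroup_iff]
    have : ((w : Kˣ) : K) = π⁻¹ * (x : K) := by simp [hw, piU]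
    rw [this, map_mul, map_inv₀, hx]
    exact inv_mul_cancel₀ ((Valuation.ne_zero_iff _).2 S.hπ0)
  have hxw : x = piU S * w := by rw [hw, mul_inv_cancel_left]
  have h1 : (⟨rU ρ σ x, rU_mem_unitGroup S σ x⟩ : O.unitGroup) =
      ⟨rU ρ σ (piU S), rU_mem_unitGroup S σ _⟩ * ⟨rU ρ σ w, rU_mem_unitGroup S σ _⟩ := by
    apply Subtype.ext
    simp only [Subgroup.coe_mul]
    rw [← rU_mul, ← hxw]
  rw [h1, map_mul]
  have h2 : O.unitGroupToResidueFieldUnits ⟨rU ρ σ w, rU_mem_unitGroup S σ _⟩ = 1 := by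
    rw [← MonoidHom.mem_ker, ker_unitGroupToResidueFieldUnits, Subgroup.mem_comap]
    exact rU_mem_principal_of_mem_unitGroup S σ hwO
  rw [h2, mul_one]
  rfl

/-- **the tame relation, abstract form**: `χ(Φ σ Φ⁻¹) = χ(σ) ^ q` for an automorphism `Φ` of `K`
preserving the valuation and inducing the `q`-power map on the residue field. -/
theorem chi_conj (Φ : RingAut K) (hΦv : ∀ x : K, O.valuation (Φ x) = O.valuation x)
    (hΦ : ∀ x : K, x ∈ O → Φ x - x ^ q ∈ O.nonunits) {σ σ' : G}
    (h : ρ σ' = Φ * ρ σ * Φ⁻¹) : chi S σ' = chi S σ ^ q := by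
  -- the uniformiser `x = Φ⁻¹ π`
  set x : Kˣ := Units.map (Φ⁻¹ : K ≃+* K).toRingHom.toMonoidHom (piU S) with hx
  have hxval : ((x : Kˣ) : K) = Φ⁻¹ π := rfl
  have hΦx : Φ (x : K) = π := by
    rw [hxval]
    show (Φ * Φ⁻¹) π = π
    rw [mul_inv_cancel]
    rfl
  have hxv : O.valuation (x : K) = O.valuation π := by rw [← hΦv (x : K), hΦx]
  set u : Kˣ := rU ρ σ x with hu
  have huO : u ∈ O.unitGroup := rU_mem_unitGroup S σ x
  have hclass : O.unitGroupToResidueFieldUnits ⟨u, huO⟩ = chi S σ := chi_eq_of_val_eq S σ x hxv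
  -- `σ' π / π = Φ u`
  set Φu : Kˣ := Units.map (Φ : K ≃+* K).toRingHom.toMonoidHom u with hΦu
  have hΦuval : ((Φu : Kˣ) : K) = Φ (u : K) := rfl
  have hΦuO : Φu ∈ O.unitGroup := by
    rw [mem_unitGroup_iff, hΦuval, hΦv]
    exact huO
  have hkey : rU ρ σ' (piU S) = Φu := by
    apply Units.ext
    rw [coe_rU, hΦuval, hu, coe_rU, map_div₀, hΦx, h]
    show (Φ * ρ σ * Φ⁻¹) π / π = Φ (ρ σ (x : K)) / π
    rfl
  have hchi' : chi S σ' = O.unitGroupToResidueFieldUnits ⟨Φu, hΦuO⟩ := by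
    show chiFun S σ' = _
    unfold chiFun
    congr 1
    exact Subtype.ext hkey
  rw [hchi', ← hclass, ← map_pow]
  -- compare `Φ u` with `u ^ q`
  have huqO : u ^ q ∈ O.unitGroup := pow_mem huO q
  have h2 : (⟨u, huO⟩ : O.unitGroup) ^ q = ⟨u ^ q, huqO⟩ := rfl
  rw [h2]
  apply residue_eq_of_sub_mem S
  rw [hΦuval, Units.val_pow_eq_pow_val]
  have huO' : (u : K) ∈ O := (O.valuation_le_one_iff _).1 (le_of_eq huO)
  exact hΦ _ huO'

end Abstract

/-! ### the instance at a valuation subring of `ℚ̄` -/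

section Concrete

variable {q : ℕ} {A : ValuationSubring Qb}

/-- the inertia group is normalised by the decomposition group. -/
theorem conj_mem_inertia (hq : q.Prime) (hA : A.LiesOverPrime q) {φ : GQ}
    (hφ : φ ∈ A.decompositionSubgroup ℚ) {σ : GQ} (hσ : σ ∈ A.inertiaSubgroupIn ℚ) :
    φ * σ * φ⁻¹ ∈ A.inertiaSubgroupIn ℚ := by
  have h1 := Fermat.Agent.PT.BR.UnramBridge13.conj_mem_inertiaSubgroupIn hq hA φ hσ
  have h2 : φ • A = A := MulAction.mem_stabilizer_iff.1 hφ
  rwa [h2] at h1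

variable (K : IntermediateField ℚ Qb) [Normal ℚ K]

/-- the action of an element of `Gal(ℚ̄/ℚ)` on the normal subfield `K`. -/
noncomputable def autK (φ : GQ) : RingAut K := toRingAutHom K (AlgEquiv.restrictNormalHom K φ)

theorem coe_autK_apply (φ : GQ) (x : K) : ((autK K φ x : K) : Qb) = φ (x : Qb) :=
  AlgEquiv.restrictNormal_commutes φ K x

theorem autK_mul (φ ψ : GQ) : autK K (φ * ψ) = autK K φ * autK K ψ := by
  unfold autK
  rw [map_mul, map_mul]

theorem autK_inv (φ : GQ) : autK K φ⁻¹ = (autK K φ)⁻¹ := by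
  unfold autK
  rw [map_inv, map_inv]

theorem rhoK_eq_autK (σ : ↥(A.inertiaSubgroupIn ℚ)) : rhoK A K σ = autK K (σ : GQ) := rfl

variable {K}

/-- the decomposition group preserves the valuation of `A ∩ K`. -/
theorem val_autK {φ : GQ} (hφ : φ ∈ A.decompositionSubgroup ℚ) (x : K) :
    (OK A K).valuation (autK K φ x) = (OK A K).valuation x := by
  have := isAlgebraic_Qb
  by_cases hx : x = 0
  · rw [hx, map_zero]
  have hx' : (x : Qb) ≠ 0 := fun h => hx (by exact_mod_cast h)
  have h1 : A.valuation (((autK K φ x / x : K)) : Qb) = 1 := by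
    push_cast
    rw [coe_autK_apply, map_div₀,
      Fermat.Agent.S05.Inertia.valuation_apply_of_mem_decomposition hφ, div_self]
    exact (Valuation.ne_zero_iff _).2 hx'
  have h2 := (val_OK_eq_one_iff A K _).2 h1
  rw [map_div₀, div_eq_one_iff_eq ((Valuation.ne_zero_iff _).2 hx)] at h2
  exact h2

/-- a Frobenius element induces the `q`-power map on the residue field of `A ∩ K`. -/
theorem frob_autK {φ : GQ} (hφ : A.IsFrobeniusAt φ q) (x : K) (hx : x ∈ OK A K) :
    autK K φ x - x ^ q ∈ (OK A K).nonunits := by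
  rw [mem_nonunits_OK_iff]
  push_cast
  rw [coe_autK_apply]
  exact (Fermat.Agent.W56.FrobGen8.isFrobeniusAt_iff.1 hφ).2 _ ((mem_OK_iff A K x).1 hx)

/-- **The tame relation**: a continuous homomorphism `f` from the inertia group at `A | q` whose
values have no `q`-power torsion satisfies `f (φ σ φ⁻¹) = f σ ^ q` for every Frobenius element `φ`
at `A`. -/
theorem tame_relation (hq : q.Prime) (hA : A.LiesOverPrime q) {H : Type*} [Group H]
    (f : ↥(A.inertiaSubgroupIn ℚ) →* H)
    (L : IntermediateField ℚ Qb) [FiniteDimensional ℚ L]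
    (hf : ∀ σ : ↥(A.inertiaSubgroupIn ℚ), (∀ x ∈ L, (σ : GQ) x = x) → f σ = 1)
    (hH : ∀ (σ : ↥(A.inertiaSubgroupIn ℚ)) (a : ℕ), f σ ^ q ^ a = 1 → f σ = 1)
    {φ : GQ} (hφ : A.IsFrobeniusAt φ q) (σ : ↥(A.inertiaSubgroupIn ℚ)) :
    f ⟨φ * (σ : GQ) * φ⁻¹, conj_mem_inertia hq hA hφ.mem_decompositionSubgroup σ.2⟩ = f σ ^ q := by
  set K : IntermediateField ℚ Qb := IntermediateField.normalClosure ℚ L Qb with hK
  have hN := normal_Qb
  have : FiniteDimensional ℚ K := by rw [hK]; infer_instance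
  have : Normal ℚ K := by rw [hK]; exact normalClosure.normal ℚ L Qb
  obtain ⟨π, S⟩ := exists_setting (A := A) (K := K) hq hA
  set σ' : ↥(A.inertiaSubgroupIn ℚ) :=
    ⟨φ * (σ : GQ) * φ⁻¹, conj_mem_inertia hq hA hφ.mem_decompositionSubgroup σ.2⟩ with hσ'
  have hker : ∀ τ : ↥(A.inertiaSubgroupIn ℚ), rhoK A K τ = 1 → f τ = 1 := by
    intro τ hτ
    refine hf τ fun x hx => ?_
    have hxK : x ∈ K := IntermediateField.le_normalClosure L hx
    have h1 := coe_rhoK_apply A K τ ⟨x, hxK⟩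
    rw [hτ] at h1
    exact h1.symm
  have hrel : rhoK A K σ' = autK K φ * rhoK A K σ * (autK K φ)⁻¹ := by
    rw [rhoK_eq_autK, rhoK_eq_autK, hσ']
    show autK K (φ * (σ : GQ) * φ⁻¹) = _
    rw [autK_mul, autK_mul, autK_inv]
  have hchi : chi S σ' = chi S σ ^ q :=
    chi_conj S (autK K φ) (val_autK hφ.mem_decompositionSubgroup) (frob_autK hφ) hrel
  have h1 : chi S (σ' * (σ ^ q)⁻¹) = 1 := by
    rw [map_mul, map_inv, map_pow, hchi, mul_inv_cancel]
  have h2 := map_eq_one_of_chi_eq_one S f hker hH h1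
  rw [map_mul, map_inv, map_pow, mul_inv_eq_one] at h2
  exact h2

end Concrete

end Fermat.Agent.M15.TameRel3
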