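/-
M15 / WIRE (lead): `s15_of_contracts0`: S15 from `Contracts0` (nothing asked at the prime `2`, the
descent at ONE prime divisor of the order of `c0`).  Same deduction as `Wire0.s15_of_contracts'`.
Imported by no statement.
-/
import Mathlib
import Fermat.Agent.M15.Contracts0

set_option autoImplicit false
set_option linter.style.haveILetI false
set_option linter.unusedVariables false

noncomputable section

namespace Fermat.Agent.M15.Wire0b

open ModularCurve AlgebraicCurve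
open WeierstrassCurve WeierstrassCurve.Affine
open Fermat.Agent.M15.Contracts9 Fermat.Agent.M15.Contracts0



theorem s15_of_contracts0
    (h : ∀ (p : ℕ) (hp : p.Prime), p ∉ ({2, 3, 5, 7, 13} : Finset ℕ) →
      haveI : NeZero p := ⟨hp.ne_zero⟩; Contracts0 p) : S15Statement := by
  intro p hp hp' W hΔ Q hQfix hQord h2Δ h2c h2 h3Δ h3c h3 ℓ hℓ hℓp hℓΔ hℓc A hA hin
  haveI : NeZero p := ⟨hp.ne_zero⟩
  obtain ⟨P0, Pinf, R, hC, hGal, hRed, hMod, p', hp'prime, hp'dvd, hSD⟩ := (h p hp hp').ex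
  by_cases hℓ2 : ℓ = 2
  · subst hℓ2; exact h2 A hA hin
  by_cases hℓ3 : ℓ = 3
  · subst hℓ3; exact h3 A hA hin
  obtain ⟨x, hxrat, hx⟩ := hMod W Q hΔ hQfix hQord
  -- the order of c0
  have hp2 : 2 ≤ p := hp.two_le
  have hfo : IsOfFinAddOrder (cl p P0 Pinf) :=
    isOfFinAddOrder_iff_nsmul_eq_zero.mpr ⟨p - 1, by omega, hC.tors⟩
  set n0 := addOrderOf (cl p P0 Pinf) with hn0
  have hp3 : (3 : ℕ) ≠ p := by
    intro hh; apply hp'; simp [← hh]
  -- the auxiliary prime is 3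
  obtain ⟨A1, hA1⟩ := Fermat.Agent.Lib.FrobeniusExists.exists_valuationSubring_liesOverPrime 3
    Nat.prime_three
  have hR1 := hRed 3 Nat.prime_three hp3 (by norm_num) A1 hA1
  have hRl := hRed ℓ hℓ hℓp hℓ2 A hA
  have hy1 : (R A1).Φ (cl p x P0) = 0 :=
    (hx 3 Nat.prime_three hp3 (by norm_num) (by exact_mod_cast h3Δ)
      (by exact_mod_cast h3c) A1 hA1).2 (h3 A1 hA1)
  have hyl : (R A).Φ (cl p x P0 + cl p P0 Pinf) = 0 := by
    rw [cl_add_cl]
    exact (hx ℓ hℓ hℓp hℓ2 hℓΔ hℓc A hA).1 hin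
  have hyrat : IsRat p (cl p x P0 + cl p P0 Pinf) := fun σ => by
    rw [smul_add, hxrat σ, hC.rat σ]
  -- injectivity on the p'-part of ⟨c0⟩
  have hinj : ∀ m : ℤ, (R A).Φ (m • cl p P0 Pinf) = 0 → (p' : ℤ) ∣ m := by
    intro m hm
    obtain ⟨q, hq⟩ := hp'dvd
    have hqpos : q ≠ 0 := by
      rintro rfl
      rw [mul_zero] at hq
      have := hfo.addOrderOf_pos
      omega
    set z := (m * (q : ℤ)) • cl p P0 Pinf with hz
    have hzΦ : (R A).Φ z = 0 := by
      rw [hz, mul_comm, mul_zsmul, map_zsmul, hm, smul_zero]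
    have hzrat : IsRat p z := fun σ => by
      rw [hz, gal_zsmul, hC.rat σ]
    have hzp' : p' • z = 0 := by
      rw [hz, ← natCast_zsmul, ← mul_zsmul,
        show (p' : ℤ) * (m * (q : ℤ)) = m * ((n0 : ℕ) : ℤ) by rw [hq]; push_cast; ring,
        mul_zsmul, natCast_zsmul, hn0, addOrderOf_nsmul_eq_zero, smul_zero]
    have hz0 : z = 0 := by
      by_cases hpl : p' = ℓ
      · have h3l : 3 ≤ ℓ := by
          have := hℓ.two_le
          omega
        exact hRl.rig h3l z hzrat (by rw [← hpl]; exact hzp') hzΦ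
      · refine hRl.tors p' z (fun hd => hpl ?_) hzp' hzΦ
        exact ((Nat.prime_dvd_prime_iff_eq hℓ hp'prime).mp hd).symm
    rw [hz] at hz0
    have hdvd : ((n0 : ℕ) : ℤ) ∣ m * (q : ℤ) := (addOrderOf_dvd_iff_zsmul_eq_zero).mpr hz0
    rw [hq] at hdvd
    push_cast at hdvd
    have hq' : (q : ℤ) ≠ 0 := by exact_mod_cast hqpos
    exact (mul_dvd_mul_iff_right hq').mp hdvd
  -- apply the abstract deduction
  refine Fermat.Agent.M15.Core0.core' (ratSubgroup p) ((R A1).Φ) ((R A).Φ) (cl p P0 Pinf)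
    (cl p x P0) p' hp'prime hR1.fin hRl.fin hy1 hyl
    (fun z hz hn hΦ => Fermat.Agent.M15.Wire0.inj_on_rat_torsion p hR1 (le_refl 3) z hz hn hΦ) hinj ?_
  intro k
  obtain ⟨s, hs, m, hsc, hm, t, w, ht, htt, hw, hsy⟩ := hSD k (cl p x P0) hxrat
  refine ⟨s.toAddMonoidHom, ?_, ?_, m, hsc, hm, t, w, ht, htt, hw, hsy⟩
  · intro h0
    exact (Fermat.Agent.M15.Wire9.stable_of_mem_heckeRing p hR1 hGal hs _ hxrat h0).2
  · intro h0
    exact (Fermat.Agent.M15.Wire9.stable_of_mem_heckeRing p hRl hGal hs _ hyrat h0).2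

end Fermat.Agent.M15.Wire0b
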